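import Mathlib
import Fermat.Prelude.Def_WeierstrassCurve_ConductorLevel
import Fermat.Prelude.Def_FLTPrelim_ModularRep
import Fermat.Prelude.Def_CuspForm_HeckeGaloisRepDatum
import Fermat.Prelude.Def_CuspForm_Newforms
import Fermat.Prelude.Def_GaloisRep_LocalConditions
import Fermat.Prelude.Def_GaloisRep_Residual
import Fermat.Prelude.Def_FLTPrelim_GaloisRep
import Fermat.Prelude.Def_FLTPrelim_Modularity
import Fermat.Prelude.Def_FLTPrelim_Ramification
import Fermat.Prelude.Def_EllipticCurve_FrobeniusTrace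
import Mathlib.RingTheory.SimpleModule.Basic
import Mathlib.RepresentationTheory.AlgebraRepresentation.Basic
import Mathlib.LinearAlgebra.FiniteDimensional.Basic
import Mathlib.Algebra.Algebra.Subalgebra.Basic
import Mathlib.AlgebraicGeometry.EllipticCurve.Affine.AddSubMap
import Mathlib.RingTheory.Polynomial.Basic
import Mathlib.RingTheory.Ideal.Operations
import Mathlib.Algebra.Polynomial.Degree.Lemmas
import Mathlib.RingTheory.Valuation.ValuationSubring
import Mathlib.Algebra.Field.Subfield.Basic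
import Mathlib.RingTheory.LaurentSeries
import Mathlib.Algebra.Polynomial.AlgebraMap
import Fermat.Prelude.Def_ModularCurve_LaurentCoeff

-- ===== PACK-BEGIN S58/Spec.lean
section








/-!
# Row S59 / statement S58 (conductor–level matching) — frozen interface (architect helper41)

`S58 ⇐ S35 + S36 + NEWFORM (descent, stab: on main) + the five leaves below`, glue in `S58/Glue.lean`.

Route.  `f` eigenform of level `N` for `W`; `descent` gives a newform `g` of level `M ∣ N`.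
For a prime `lam` compare the `lam`-adic representation `ρ_g` of S35/S36 with the Tate module
`ρ_W` (leaf TATE): their Frobenius characteristic polynomials agree outside a finite set, hence
EVERYWHERE (leaf CHEB; only characteristic polynomials are ever compared — no isomorphism of
representations is needed, since `IsUnipotentOnInertiaAt` is a statement on characteristic
polynomials).  Consequences:
* `a_ℓ(g) = a_ℓ(W)` for all good `ℓ ∤ M`, `ℓ ≠ lam`;
* `q² ∥ M`, `q ≠ p` is impossible (S36 at `lam = p`; `ρ_W` is unipotent on every inertia group);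
* `q ∥ M`, `q` good is impossible (S35: `a_q(W) = ±(q+1)`, contradicting leaf COUNT).
Two primes `lam ∈ {p, p'}` cover all `q`, `ℓ`.  So `M ∣ rad Δ`, and `stab` raises `g` to level `rad Δ`.

Leaves (each a `Prop`; prove `theorem x : Fermat.Agent.S58.<Leaf>Statement`, own directory
`Fermat/Agent/S58/H<seat>/`):

| leaf | content | sources |
|---|---|---|
| TATE  | `TateRepStatement`: Tate module of `W` over any complete DVR `O ∋ lam` (`lam` odd): Frobenius char. polys at good `ℓ ≠ lam`, unipotent inertia at ALL `q ≠ lam` | S59 layer CR (H127, H240, H667), Lib/Frob, Lib/Red |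
| COEFF | `CoeffStatement`: a normalized eigenform has a Hecke character `chig` and a complete DVR `O' ∋ lam` receiving `chig.range` | S22 (finiteness), S30/S35 coefficient rings |
| CHEB  | `ChebCharpolyStatement`: two `GaloisRepAdic O` with equal Frobenius char. polys outside a finite set have equal char. polys everywhere | Lib/Cheb, S54.exists_frobenius, S31/H982 |
| RES   | `ResidualStatement`: char. polys of `W` at almost all Frobenius ⇒ residual representation absolutely irreducible and odd (the hypothesis `hres` of S36) | S59/G4 (H178 Odd, H307 AbsIrr), Lib/Frob |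
| COUNT | `PointCountStatement`: `a_q(W) ≠ ±(q+1)` (from `1 ≤ #E(𝔽_q) ≤ 2q+1`) | Mathlib only |
| FROB  | `FrobExistsStatement`: Frobenius elements exist at every prime | S54 |
-/

set_option autoImplicit false

open Polynomial

namespace Fermat.Agent.S58

/-- `ℚ̄` -/
abbrev Qb : Type := AlgebraicClosure ℚ

/-- `Gal(ℚ̄/ℚ)` -/
abbrev GQ : Type := Qb ≃ₐ[ℚ] Qb

/-- The frozen statement S58. -/
def S58Statement : Prop :=
  ∀ (W : WeierstrassCurve ℤ) (_hss : W.IsSemistableModel) (N : ℕ)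
    (p : ℕ) [Fact p.Prime] (_hp2 : p ≠ 2) (_hirr : W.ModRepIsIrreducible p)
    (_hp2N : ¬ p ^ 2 ∣ N)
    (_hN : W.IsModularModelOfLevel N) (_hbad : ∀ ℓ : ℕ, ℓ.Prime → (ℓ : ℤ) ∣ W.Δ → ℓ ∣ N)
    (_hN3 : ∀ q : ℕ, q.Prime → ¬ q ^ 3 ∣ N),
    W.IsModularModelOfLevel W.conductorLevel

/-- The frozen statement S35 (as a hypothesis). -/
def S35Statement : Prop :=
  ∀ {M : ℕ} [NeZero M] {g : CuspForm (CongruenceSubgroup.Gamma0 M) 2} (_hg : g.IsNewform)
    (lam : ℕ) [Fact lam.Prime]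
    (S : Finset ℕ)
    (O' : Type) [CommRing O'] [IsDomain O'] [IsDiscreteValuationRing O']
    [IsAdicComplete (IsLocalRing.maximalIdeal O') O'] [Finite (IsLocalRing.ResidueField O')]
    [CharZero O'] (_hlamO' : (lam : O') ∈ IsLocalRing.maximalIdeal O')
    (chig : CuspForm.heckeAlgebra M 2 (↑S : Set ℕ) →+* ℂ)
    (_hchig : ∀ (ℓ : ℕ) (hℓ : ℓ.Prime) (hℓM : ¬ ℓ ∣ M) (hℓS : ℓ ∉ (↑S : Set ℕ)),
      chig (CuspForm.heckeAlgebra.T hℓ hℓM hℓS) = ModularFormClass.qCoeff g ℓ)
    (iota : chig.range →+* O')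
    (_hlamS : lam ∈ S) (_hMS : ∀ q : ℕ, q.Prime → q ∣ M → q ∈ S),
    ∃ (O'' : Type) (_ : CommRing O'') (_ : IsDomain O'') (_ : IsDiscreteValuationRing O'')
      (_ : IsAdicComplete (IsLocalRing.maximalIdeal O'') O'') (_ : Finite (IsLocalRing.ResidueField O''))
      (_ : CharZero O'') (_ : Algebra O' O'') (_ : Module.Finite O' O'') (_ : IsLocalHom (algebraMap O' O'')),
      Function.Injective (algebraMap O' O'') ∧
      ∃ ρ : GaloisRepAdic O'',
        (∀ (ℓ : ℕ) (hℓ : ℓ.Prime) (hℓM : ¬ ℓ ∣ M) (hℓS : ℓ ∉ (↑S : Set ℕ)),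
          ∀ A : ValuationSubring (AlgebraicClosure ℚ), A.LiesOverPrime ℓ →
            ∀ σ : AlgebraicClosure ℚ ≃ₐ[ℚ] AlgebraicClosure ℚ, A.IsFrobeniusAt σ ℓ →
              LinearMap.charpoly (ρ.ρ σ) =
                X ^ 2 - C (algebraMap O' O'' ((iota.comp chig.rangeRestrict) (CuspForm.heckeAlgebra.T hℓ hℓM hℓS))) * X
                  + C ((ℓ : O''))) ∧
        (∀ q : ℕ, q.Prime → q ≠ lam → q ∣ M → ¬ q ^ 2 ∣ M →
          ∀ A : ValuationSubring (AlgebraicClosure ℚ), A.LiesOverPrime q →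
            ∀ σ : AlgebraicClosure ℚ ≃ₐ[ℚ] AlgebraicClosure ℚ, A.IsFrobeniusAt σ q →
              LinearMap.charpoly (ρ.ρ σ) = X ^ 2 - C ((q : O'') + 1) * X + C ((q : O'')) ∨
              LinearMap.charpoly (ρ.ρ σ) = X ^ 2 + C ((q : O'') + 1) * X + C ((q : O'')))

/-- The frozen statement S36 (as a hypothesis). -/
def S36Statement : Prop :=
  ∀ {M : ℕ} [NeZero M] {g : CuspForm (CongruenceSubgroup.Gamma0 M) 2} (_hg : g.IsNewform)
    (lam : ℕ) [Fact lam.Prime]
    (S : Finset ℕ)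
    (O' : Type) [CommRing O'] [IsDomain O'] [IsDiscreteValuationRing O']
    [IsAdicComplete (IsLocalRing.maximalIdeal O') O'] [Finite (IsLocalRing.ResidueField O')]
    [CharZero O'] (_hlamO' : (lam : O') ∈ IsLocalRing.maximalIdeal O')
    (_hlam2 : lam ≠ 2)
    (chig : CuspForm.heckeAlgebra M 2 (↑S : Set ℕ) →+* ℂ)
    (_hchig : ∀ (ℓ : ℕ) (hℓ : ℓ.Prime) (hℓM : ¬ ℓ ∣ M) (hℓS : ℓ ∉ (↑S : Set ℕ)),
      chig (CuspForm.heckeAlgebra.T hℓ hℓM hℓS) = ModularFormClass.qCoeff g ℓ)
    (iota : chig.range →+* O')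
    (_hlamS : lam ∈ S) (_hMS : ∀ q : ℕ, q.Prime → q ∣ M → q ∈ S)
    (_hres : ∀ (O'' : Type) [CommRing O''] [IsDomain O''] [IsDiscreteValuationRing O'']
      [IsAdicComplete (IsLocalRing.maximalIdeal O'') O''] [Finite (IsLocalRing.ResidueField O'')] [CharZero O'']
      [Algebra O' O''] [Module.Finite O' O''] [IsLocalHom (algebraMap O' O'')],
      Function.Injective (algebraMap O' O'') → ∀ (ρ : GaloisRepAdic O''),
      (∀ (ℓ : ℕ) (hℓ : ℓ.Prime) (_hℓlam : ℓ ≠ lam) (hℓM : ¬ ℓ ∣ M) (hℓS : ℓ ∉ (↑S : Set ℕ)),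
        ∀ A : ValuationSubring (AlgebraicClosure ℚ), A.LiesOverPrime ℓ →
          ∀ σ : AlgebraicClosure ℚ ≃ₐ[ℚ] AlgebraicClosure ℚ, A.IsFrobeniusAt σ ℓ →
            LinearMap.charpoly (ρ.ρ σ) =
              X ^ 2 - C (algebraMap O' O'' ((iota.comp chig.rangeRestrict) (CuspForm.heckeAlgebra.T hℓ hℓM hℓS))) * X
                + C ((ℓ : O'')))
      → ρ.residual.IsAbsolutelyIrreducible ∧ ρ.residual.IsOdd),
    ∃ (O'' : Type) (_ : CommRing O'') (_ : IsDomain O'') (_ : IsDiscreteValuationRing O'')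
      (_ : IsAdicComplete (IsLocalRing.maximalIdeal O'') O'') (_ : Finite (IsLocalRing.ResidueField O''))
      (_ : CharZero O'') (_ : Algebra O' O'') (_ : Module.Finite O' O'') (_ : IsLocalHom (algebraMap O' O'')),
      Function.Injective (algebraMap O' O'') ∧
      ∃ ρ : GaloisRepAdic O'',
        (∀ (ℓ : ℕ) (hℓ : ℓ.Prime) (hℓM : ¬ ℓ ∣ M) (hℓS : ℓ ∉ (↑S : Set ℕ)),
          ∀ A : ValuationSubring (AlgebraicClosure ℚ), A.LiesOverPrime ℓ →
            ∀ σ : AlgebraicClosure ℚ ≃ₐ[ℚ] AlgebraicClosure ℚ, A.IsFrobeniusAt σ ℓ →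
              LinearMap.charpoly (ρ.ρ σ) =
                X ^ 2 - C (algebraMap O' O'' ((iota.comp chig.rangeRestrict) (CuspForm.heckeAlgebra.T hℓ hℓM hℓS))) * X
                  + C ((ℓ : O''))) ∧
        (∀ q : ℕ, q.Prime → q ≠ lam → M.factorization q = 2 → ¬ ρ.IsUnipotentOnInertiaAt q)

/-- **Leaf FROB.** Frobenius elements exist at every prime. -/
def FrobExistsStatement : Prop :=
  ∀ ℓ : ℕ, ℓ.Prime → ∃ (A : ValuationSubring Qb) (σ : GQ), A.LiesOverPrime ℓ ∧
    A.IsFrobeniusAt σ ℓ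

/-- **Leaf TATE.** The `lam`-adic Tate module of a semistable `W` (`lam` odd), over any complete
DVR `O` of characteristic `0` with finite residue field of characteristic `lam`:
Frobenius characteristic polynomials at the good primes `ℓ ≠ lam` and unipotent inertia at
EVERY prime `q ≠ lam` (at the good primes the representation is even unramified).
No irreducibility hypothesis. -/
def TateRepStatement : Prop :=
  ∀ (lam : ℕ) [Fact lam.Prime] (_hlam2 : lam ≠ 2) (W : WeierstrassCurve ℤ) (_hΔ : W.Δ ≠ 0)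
    (_hW : W.IsSemistableModel)
    (O : Type) [CommRing O] [IsDomain O] [IsDiscreteValuationRing O]
    [IsAdicComplete (IsLocalRing.maximalIdeal O) O] [Finite (IsLocalRing.ResidueField O)]
    [CharZero O] (_hlamO : (lam : O) ∈ IsLocalRing.maximalIdeal O),
    ∃ ρ : GaloisRepAdic O,
      (∀ ℓ : ℕ, ℓ.Prime → W.IsGoodPrimeFor ℓ → ℓ ≠ lam →
        ∀ A : ValuationSubring Qb, A.LiesOverPrime ℓ → ∀ σ : GQ, A.IsFrobeniusAt σ ℓ →
          LinearMap.charpoly (ρ.ρ σ) = X ^ 2 - C ((W.apOfModel ℓ : ℤ) : O) * X + C ((ℓ : O))) ∧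
      (∀ q : ℕ, q.Prime → q ≠ lam → ρ.IsUnipotentOnInertiaAt q)

/-- **Leaf COEFF.** A normalized eigenform of level `M` has, for every finite set `S` of primes
and every prime `lam`, a character `chig` of the Hecke algebra away from `S` with
`chig (T_ℓ) = a_ℓ(g)` and a complete DVR `O'` of characteristic `0`, residue characteristic
`lam`, finite residue field, with an INJECTIVE ring homomorphism `chig.range →+* O'`
(completion of the ring of integers of the coefficient field at a prime above `lam`; any ring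
homomorphism `chig.range →+* O'` is injective because `chig.range` is integral over `ℤ`, S22). -/
def CoeffStatement : Prop :=
  ∀ (M : ℕ) [NeZero M] (g : CuspForm (CongruenceSubgroup.Gamma0 M) 2), g.IsNormalizedEigenform →
    ∀ (S : Finset ℕ) (lam : ℕ) [Fact lam.Prime],
    ∃ chig : CuspForm.heckeAlgebra M 2 (↑S : Set ℕ) →+* ℂ,
      (∀ (ℓ : ℕ) (hℓ : ℓ.Prime) (hℓM : ¬ ℓ ∣ M) (hℓS : ℓ ∉ (↑S : Set ℕ)),
        chig (CuspForm.heckeAlgebra.T hℓ hℓM hℓS) = ModularFormClass.qCoeff g ℓ) ∧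
      ∃ (O' : Type) (_ : CommRing O') (_ : IsDomain O') (_ : IsDiscreteValuationRing O')
        (_ : IsAdicComplete (IsLocalRing.maximalIdeal O') O')
        (_ : Finite (IsLocalRing.ResidueField O')) (_ : CharZero O'),
        (lam : O') ∈ IsLocalRing.maximalIdeal O' ∧
          ∃ iota : chig.range →+* O', Function.Injective iota

/-- **Leaf CHEB.** Two `GaloisRepAdic` over a complete DVR whose Frobenius characteristic
polynomials agree at all primes outside a finite set have the same characteristic polynomial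
at every element of `Gal(ℚ̄/ℚ)` (Chebotarev + adic continuity). -/
def ChebCharpolyStatement : Prop :=
  ∀ (O : Type) [CommRing O] [IsDomain O] [IsDiscreteValuationRing O]
    [IsAdicComplete (IsLocalRing.maximalIdeal O) O] [Finite (IsLocalRing.ResidueField O)]
    (ρ₁ ρ₂ : GaloisRepAdic O) (T : Finset ℕ),
    (∀ ℓ : ℕ, ℓ.Prime → ℓ ∉ T → ∀ A : ValuationSubring Qb, A.LiesOverPrime ℓ →
      ∀ σ : GQ, A.IsFrobeniusAt σ ℓ →
        LinearMap.charpoly (ρ₁.ρ σ) = LinearMap.charpoly (ρ₂.ρ σ)) →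
    ∀ σ : GQ, LinearMap.charpoly (ρ₁.ρ σ) = LinearMap.charpoly (ρ₂.ρ σ)

/-- **Leaf RES.** If `E[p]` is irreducible (`p` odd) and a `p`-adic representation `ρ` has the
Frobenius characteristic polynomials of `W` outside a finite set of primes, then the residual
representation of `ρ` is absolutely irreducible and odd. -/
def ResidualStatement : Prop :=
  ∀ (p : ℕ) [Fact p.Prime] (_hp2 : p ≠ 2) (W : WeierstrassCurve ℤ) (_hΔ : W.Δ ≠ 0)
    (_hirr : W.ModRepIsIrreducible p)
    (O : Type) [CommRing O] [IsDomain O] [IsDiscreteValuationRing O]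
    [IsAdicComplete (IsLocalRing.maximalIdeal O) O] [Finite (IsLocalRing.ResidueField O)]
    [CharZero O] (_hpO : (p : O) ∈ IsLocalRing.maximalIdeal O)
    (ρ : GaloisRepAdic O) (T : Finset ℕ),
    (∀ ℓ : ℕ, ℓ.Prime → ℓ ∉ T → ∀ A : ValuationSubring Qb, A.LiesOverPrime ℓ →
      ∀ σ : GQ, A.IsFrobeniusAt σ ℓ →
        LinearMap.charpoly (ρ.ρ σ) = X ^ 2 - C ((W.apOfModel ℓ : ℤ) : O) * X + C ((ℓ : O))) →
    ρ.residual.IsAbsolutelyIrreducible ∧ ρ.residual.IsOdd

/-- **Leaf COUNT.** `a_q(W) ≠ ±(q + 1)` at every prime `q`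
(from `1 ≤ #W(𝔽_q) ≤ 2 q + 1`). -/
def PointCountStatement : Prop :=
  ∀ (W : WeierstrassCurve ℤ) (q : ℕ), q.Prime →
    W.apOfModel q ≠ (q : ℤ) + 1 ∧ W.apOfModel q ≠ -((q : ℤ) + 1)

end Fermat.Agent.S58

end
-- ===== PACK-END S58/Spec.lean

-- ===== PACK-BEGIN S13/H891/LadderDef.lean
section


/-!
# S13 / T1: the binary `x`-ladder `(N_k : D_k)` for multiplication by `k`

Generic definitions over a commutative ring `R`: `b₂ b₄ b₆ b₈ x : R` are the `b`-invariants of a
Weierstrass curve and (the `x`-coordinate of) a point `P`; `lad k = (N_k, D_k)` is a projective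
representative of `x(kP)`.  Applied with `R = K` we get values, with `R = K[X]`, `x = X` we get
polynomials.
-/

namespace Fermat.Agent.S13.H891

variable {R : Type*} [CommRing R]

/-- homogenised numerator of the duplication map -/
def dblN (b₄ b₆ b₈ n d : R) : R := n^4 - b₄*n^2*d^2 - 2*b₆*n*d^3 - b₈*d^4

/-- homogenised denominator of the duplication map -/
def dblD (b₂ b₄ b₆ n d : R) : R := d*(4*n^3 + b₂*n^2*d + 2*b₄*n*d^2 + b₆*d^3)

/-- `x₁ - x₂`, homogenised -/
def addW (n₁ d₁ n₂ d₂ : R) : R := n₁*d₂ - n₂*d₁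

/-- `(x₁ - x₂)^2 (x(Q+R) + x(Q-R))`, homogenised -/
def addS (b₂ b₄ b₆ n₁ d₁ n₂ d₂ : R) : R :=
  2*n₁*n₂*(n₁*d₂ + n₂*d₁) + b₂*n₁*n₂*d₁*d₂ + b₄*d₁*d₂*(n₁*d₂ + n₂*d₁) + b₆*d₁^2*d₂^2

/-- numerator of the differential addition -/
def addN (b₂ b₄ b₆ x n₁ d₁ n₂ d₂ : R) : R :=
  addS b₂ b₄ b₆ n₁ d₁ n₂ d₂ - x * (addW n₁ d₁ n₂ d₂)^2

/-- denominator of the differential addition -/
def addD (n₁ d₁ n₂ d₂ : R) : R := (addW n₁ d₁ n₂ d₂)^2

/-- the ladder: `lad k = (N_k, D_k)` -/
def lad (b₂ b₄ b₆ b₈ x : R) : ℕ → R × R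
  | 0 => (1, 0)
  | 1 => (x, 1)
  | (n+2) =>
    if n % 2 = 0 then
      (dblN b₄ b₆ b₈ (lad b₂ b₄ b₆ b₈ x (n/2+1)).1 (lad b₂ b₄ b₆ b₈ x (n/2+1)).2,
       dblD b₂ b₄ b₆ (lad b₂ b₄ b₆ b₈ x (n/2+1)).1 (lad b₂ b₄ b₆ b₈ x (n/2+1)).2)
    else
      (addN b₂ b₄ b₆ x (lad b₂ b₄ b₆ b₈ x ((n+1)/2)).1 (lad b₂ b₄ b₆ b₈ x ((n+1)/2)).2
          (lad b₂ b₄ b₆ b₈ x ((n+1)/2+1)).1 (lad b₂ b₄ b₆ b₈ x ((n+1)/2+1)).2,
       addD (lad b₂ b₄ b₆ b₈ x ((n+1)/2)).1 (lad b₂ b₄ b₆ b₈ x ((n+1)/2)).2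
          (lad b₂ b₄ b₆ b₈ x ((n+1)/2+1)).1 (lad b₂ b₄ b₆ b₈ x ((n+1)/2+1)).2)
termination_by n => n
decreasing_by all_goals omega

/-- `N_k` -/
def ladN (b₂ b₄ b₆ b₈ x : R) (k : ℕ) : R := (lad b₂ b₄ b₆ b₈ x k).1
/-- `D_k` -/
def ladD (b₂ b₄ b₆ b₈ x : R) (k : ℕ) : R := (lad b₂ b₄ b₆ b₈ x k).2

variable (b₂ b₄ b₆ b₈ x : R)

@[simp] lemma ladN_zero : ladN b₂ b₄ b₆ b₈ x 0 = 1 := by simp [ladN, lad]
@[simp] lemma ladD_zero : ladD b₂ b₄ b₆ b₈ x 0 = 0 := by simp [ladD, lad]
@[simp] lemma ladN_one : ladN b₂ b₄ b₆ b₈ x 1 = x := by simp [ladN, lad]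
@[simp] lemma ladD_one : ladD b₂ b₄ b₆ b₈ x 1 = 1 := by simp [ladD, lad]

lemma lad_even (k : ℕ) (hk : 1 ≤ k) :
    lad b₂ b₄ b₆ b₈ x (2*k) =
      (dblN b₄ b₆ b₈ (ladN b₂ b₄ b₆ b₈ x k) (ladD b₂ b₄ b₆ b₈ x k),
       dblD b₂ b₄ b₆ (ladN b₂ b₄ b₆ b₈ x k) (ladD b₂ b₄ b₆ b₈ x k)) := by
  obtain ⟨j, rfl⟩ : ∃ j, k = j + 1 := ⟨k - 1, by omega⟩
  have h : 2 * (j + 1) = 2 * j + 2 := by ring
  rw [h, lad]
  have h1 : (2 * j) % 2 = 0 := by omega
  have h2 : (2 * j) / 2 + 1 = j + 1 := by omega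
  rw [if_pos h1, h2]
  rfl

lemma lad_odd (k : ℕ) (hk : 1 ≤ k) :
    lad b₂ b₄ b₆ b₈ x (2*k+1) =
      (addN b₂ b₄ b₆ x (ladN b₂ b₄ b₆ b₈ x k) (ladD b₂ b₄ b₆ b₈ x k)
          (ladN b₂ b₄ b₆ b₈ x (k+1)) (ladD b₂ b₄ b₆ b₈ x (k+1)),
       addD (ladN b₂ b₄ b₆ b₈ x k) (ladD b₂ b₄ b₆ b₈ x k)
          (ladN b₂ b₄ b₆ b₈ x (k+1)) (ladD b₂ b₄ b₆ b₈ x (k+1))) := by
  obtain ⟨j, rfl⟩ : ∃ j, k = j + 1 := ⟨k - 1, by omega⟩
  have h : 2 * (j + 1) + 1 = (2 * j + 1) + 2 := by ring
  rw [h, lad]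
  have h1 : ¬ (2 * j + 1) % 2 = 0 := by omega
  have h2 : (2 * j + 1 + 1) / 2 = j + 1 := by omega
  rw [if_neg h1, h2]
  rfl

lemma ladN_even (k : ℕ) (hk : 1 ≤ k) : ladN b₂ b₄ b₆ b₈ x (2*k) =
    dblN b₄ b₆ b₈ (ladN b₂ b₄ b₆ b₈ x k) (ladD b₂ b₄ b₆ b₈ x k) := by
  rw [ladN, lad_even _ _ _ _ _ k hk]

lemma ladD_even (k : ℕ) (hk : 1 ≤ k) : ladD b₂ b₄ b₆ b₈ x (2*k) =
    dblD b₂ b₄ b₆ (ladN b₂ b₄ b₆ b₈ x k) (ladD b₂ b₄ b₆ b₈ x k) := by
  rw [ladD, lad_even _ _ _ _ _ k hk]

lemma ladN_odd (k : ℕ) (hk : 1 ≤ k) : ladN b₂ b₄ b₆ b₈ x (2*k+1) =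
    addN b₂ b₄ b₆ x (ladN b₂ b₄ b₆ b₈ x k) (ladD b₂ b₄ b₆ b₈ x k)
      (ladN b₂ b₄ b₆ b₈ x (k+1)) (ladD b₂ b₄ b₆ b₈ x (k+1)) := by
  rw [ladN, lad_odd _ _ _ _ _ k hk]

lemma ladD_odd (k : ℕ) (hk : 1 ≤ k) : ladD b₂ b₄ b₆ b₈ x (2*k+1) =
    addD (ladN b₂ b₄ b₆ b₈ x k) (ladD b₂ b₄ b₆ b₈ x k)
      (ladN b₂ b₄ b₆ b₈ x (k+1)) (ladD b₂ b₄ b₆ b₈ x (k+1)) := by
  rw [ladD, lad_odd _ _ _ _ _ k hk]

/-- binary induction principle adapted to the ladder -/
theorem ladder_induction {P : ℕ → Prop} (h1 : P 1)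
    (heven : ∀ k, 1 ≤ k → P k → P (2*k))
    (hodd : ∀ k, 1 ≤ k → P k → P (k+1) → P (2*k+1)) : ∀ k, 1 ≤ k → P k := by
  intro k
  induction k using Nat.strong_induction_on with
  | _ k ih =>
    intro hk
    rcases Nat.even_or_odd' k with ⟨j, rfl | rfl⟩
    · have hj : 1 ≤ j := by omega
      exact heven j hj (ih j (by omega) hj)
    · rcases Nat.eq_zero_or_pos j with rfl | hj
      · exact h1
      · exact hodd j hj (ih j (by omega) hj) (ih (j+1) (by omega) (by omega))

section map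

variable {S : Type*} [CommRing S] (φ : R →+* S)

lemma map_lad (k : ℕ) :
    lad (φ b₂) (φ b₄) (φ b₆) (φ b₈) (φ x) k =
      (φ (lad b₂ b₄ b₆ b₈ x k).1, φ (lad b₂ b₄ b₆ b₈ x k).2) := by
  induction k using Nat.strong_induction_on with
  | _ k ih =>
    match k with
    | 0 => simp [lad]
    | 1 => simp [lad]
    | (n+2) =>
      rw [lad, lad]
      split_ifs with h
      · rw [ih (n/2+1) (by omega)]
        simp only [dblN, dblD, map_sub, map_mul, map_pow, map_add, map_ofNat]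
      · rw [ih ((n+1)/2) (by omega), ih ((n+1)/2+1) (by omega)]
        simp only [addN, addD, addS, addW, map_sub, map_mul, map_pow, map_add, map_ofNat]

lemma map_ladN (k : ℕ) :
    ladN (φ b₂) (φ b₄) (φ b₆) (φ b₈) (φ x) k = φ (ladN b₂ b₄ b₆ b₈ x k) := by
  rw [ladN, map_lad]; rfl

lemma map_ladD (k : ℕ) :
    ladD (φ b₂) (φ b₄) (φ b₆) (φ b₈) (φ x) k = φ (ladD b₂ b₄ b₆ b₈ x k) := by
  rw [ladD, map_lad]; rfl

end map

end Fermat.Agent.S13.H891

end
-- ===== PACK-END S13/H891/LadderDef.lean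

-- ===== PACK-BEGIN S52/H545/FF.lean
section


/-!
# S52 Part A, generic point setup (helper545): the function field of a Weierstrass curve

For a Weierstrass curve `W` over a field `k` (any Weierstrass form), inside Mathlib's
`W.FunctionField = Frac (k[X][Y] / W)`:

* `xF`, `yF` : the coordinate functions, `ιP : k[X] →+* W.FunctionField`, `ιK : RatFunc k →+* _`;
* `conjF : W.FunctionField →ₐ[k] W.FunctionField`, the hyperelliptic involution
  `x ↦ x`, `y ↦ -y - a₁ x - a₃`;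
* `exists_repr` : every element is `(p + q y) / n` with `p q n : k[X]`, `n ≠ 0`;
* `mem_range_ιK_of_conjF_eq` : in characteristic `≠ 2` the elements fixed by `conjF` are exactly
  the rational functions of `x`.
-/

set_option autoImplicit false

namespace Fermat.Agent.S52.H545

open WeierstrassCurve WeierstrassCurve.Affine Polynomial
open scoped Polynomial.Bivariate

variable {k : Type*} [Field k] (W : WeierstrassCurve.Affine k)

/-- The function `x` in the function field. -/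
noncomputable def xF : W.FunctionField := algebraMap k[X] W.FunctionField X

/-- The function `y` in the function field. -/
noncomputable def yF : W.FunctionField :=
  algebraMap W.CoordinateRing W.FunctionField (CoordinateRing.mk W Y)

/-- The embedding of polynomials in `x`. -/
noncomputable def ιP : k[X] →+* W.FunctionField := algebraMap k[X] W.FunctionField

lemma ιP_injective : Function.Injective (ιP W) :=
  FaithfulSMul.algebraMap_injective _ _

lemma ιP_X : ιP W X = xF W := rfl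

lemma ιP_C (a : k) : ιP W (C a) = algebraMap k W.FunctionField a := by
  rw [ιP, ← Polynomial.algebraMap_eq, ← IsScalarTower.algebraMap_apply]

lemma ιP_eq (p : k[X]) : ιP W p =
    algebraMap W.CoordinateRing W.FunctionField (CoordinateRing.mk W (C p)) := by
  rw [ιP, IsScalarTower.algebraMap_apply k[X] W.CoordinateRing W.FunctionField]
  rfl

lemma ιP_eq_zero {p : k[X]} : ιP W p = 0 ↔ p = 0 :=
  map_eq_zero_iff _ (ιP_injective W)

lemma mkY_sq : CoordinateRing.mk W Y ^ 2 + CoordinateRing.mk W (C (C W.a₁ * X + C W.a₃)) *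
    CoordinateRing.mk W Y =
      CoordinateRing.mk W (C (X ^ 3 + C W.a₂ * X ^ 2 + C W.a₄ * X + C W.a₆)) := by
  have h : CoordinateRing.mk W (W.polynomial) = 0 := AdjoinRoot.mk_self
  rw [← sub_eq_zero, ← map_pow, ← map_mul, ← map_add, ← map_sub, ← h]
  congr 1

lemma yF_sq : yF W ^ 2 + ιP W (C W.a₁ * X + C W.a₃) * yF W
    = ιP W (X ^ 3 + C W.a₂ * X ^ 2 + C W.a₄ * X + C W.a₆) := by
  rw [ιP_eq, ιP_eq, yF, ← map_pow, ← map_mul, ← map_add, mkY_sq]

/-- The Weierstrass equation for the generic point. -/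
lemma yF_equation : yF W ^ 2 + algebraMap k W.FunctionField W.a₁ * xF W * yF W
      + algebraMap k W.FunctionField W.a₃ * yF W
    = xF W ^ 3 + algebraMap k W.FunctionField W.a₂ * xF W ^ 2
      + algebraMap k W.FunctionField W.a₄ * xF W + algebraMap k W.FunctionField W.a₆ := by
  have h := yF_sq W
  simp only [map_add, map_mul, map_pow, ιP_C, ιP_X] at h
  linear_combination h

/-! ### The hyperelliptic involution -/

lemma polynomial_comp_negPolynomial :
    W.polynomial.eval₂ (C : k[X] →+* k[X][Y]) W.negPolynomial = W.polynomial := by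
  rw [Affine.polynomial, Affine.negPolynomial]
  simp only [eval₂_add, eval₂_sub, eval₂_mul, eval₂_pow, eval₂_X, eval₂_C]
  ring

/-- The involution on the coordinate ring. -/
noncomputable def conjC : W.CoordinateRing →+* W.CoordinateRing :=
  AdjoinRoot.lift (AdjoinRoot.of W.polynomial) (CoordinateRing.mk W W.negPolynomial) (by
    have h := hom_eval₂ W.polynomial (C : k[X] →+* k[X][Y]) (CoordinateRing.mk W) W.negPolynomial
    rw [polynomial_comp_negPolynomial] at h
    rw [show AdjoinRoot.of W.polynomial = (CoordinateRing.mk W).comp C from rfl, ← h]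
    exact AdjoinRoot.mk_self)

lemma conjC_mk_C (p : k[X]) : conjC W (CoordinateRing.mk W (C p)) = CoordinateRing.mk W (C p) := by
  rw [conjC, AdjoinRoot.lift_mk, eval₂_C]; rfl

lemma conjC_mk_Y : conjC W (CoordinateRing.mk W Y) = CoordinateRing.mk W W.negPolynomial := by
  rw [conjC, AdjoinRoot.lift_mk, eval₂_X]

lemma conjC_conjC (z : W.CoordinateRing) : conjC W (conjC W z) = z := by
  obtain ⟨p, q, rfl⟩ := CoordinateRing.exists_smul_basis_eq z
  simp only [CoordinateRing.smul, map_add, map_mul, map_one, conjC_mk_C, conjC_mk_Y]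
  rw [Affine.negPolynomial]
  simp only [map_neg, map_add, map_sub, conjC_mk_C, conjC_mk_Y, Affine.negPolynomial]
  ring

lemma conjC_injective : Function.Injective (conjC W) :=
  Function.LeftInverse.injective (conjC_conjC W)

/-- The hyperelliptic involution as a ring homomorphism. -/
noncomputable def conjR : W.FunctionField →+* W.FunctionField :=
  IsFractionRing.lift (A := W.CoordinateRing) (K := W.FunctionField)
      (g := (algebraMap W.CoordinateRing W.FunctionField).comp (conjC W))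
      ((IsFractionRing.injective W.CoordinateRing W.FunctionField).comp (conjC_injective W))

lemma conjR_algebraMap (z : W.CoordinateRing) :
    conjR W (algebraMap W.CoordinateRing W.FunctionField z) =
      algebraMap W.CoordinateRing W.FunctionField (conjC W z) := by
  rw [conjR, IsFractionRing.lift_algebraMap, RingHom.comp_apply]

/-- The hyperelliptic involution `(x, y) ↦ (x, -y - a₁ x - a₃)` of the function field. -/
noncomputable def conjF : W.FunctionField →ₐ[k] W.FunctionField :=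
  { conjR W with
    commutes' := fun a => by
      have h1 : algebraMap k W.FunctionField a = algebraMap W.CoordinateRing W.FunctionField
          (CoordinateRing.mk W (C (C a))) := by
        rw [← ιP_eq, ιP_C]
      simp only [RingHom.toMonoidHom_eq_coe, OneHom.toFun_eq_coe, MonoidHom.toOneHom_coe,
        MonoidHom.coe_coe]
      rw [h1, conjR_algebraMap, conjC_mk_C] }

lemma conjF_algebraMap (z : W.CoordinateRing) :
    conjF W (algebraMap W.CoordinateRing W.FunctionField z) =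
      algebraMap W.CoordinateRing W.FunctionField (conjC W z) :=
  conjR_algebraMap W z

@[simp] lemma conjF_ιP (p : k[X]) : conjF W (ιP W p) = ιP W p := by
  rw [ιP_eq, conjF_algebraMap, conjC_mk_C]

@[simp] lemma conjF_xF : conjF W (xF W) = xF W := conjF_ιP W X

lemma conjF_yF : conjF W (yF W) = - yF W - ιP W (C W.a₁ * X + C W.a₃) := by
  rw [yF, conjF_algebraMap, conjC_mk_Y, ιP_eq, Affine.negPolynomial]
  simp only [map_neg, map_sub]

lemma conjF_conjF (z : W.FunctionField) : conjF W (conjF W z) = z := by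
  obtain ⟨a, b, hb, rfl⟩ := IsFractionRing.div_surjective W.CoordinateRing z
  simp only [map_div₀, conjF_algebraMap, conjC_conjC]

/-! ### Normal form of elements -/

/-- Separability of the `y`-coordinate over `k(x)`: the characteristic is `≠ 2`, or
`a₁ x + a₃ ≠ 0` (automatic for nonsingular curves in characteristic `2`). -/
def Sep : Prop := (2 : k) ≠ 0 ∨ W.a₁ ≠ 0 ∨ W.a₃ ≠ 0

lemma sep_of_two_ne_zero (h2 : (2 : k) ≠ 0) : Sep W := Or.inl h2

/-- `2 y + a₁ x + a₃` is nonzero (in characteristic `≠ 2`, or if `a₁ x + a₃ ≠ 0`). -/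
lemma two_yF_add_ne_zero (hs : Sep W) :
    2 * yF W + ιP W (C W.a₁ * X + C W.a₃) ≠ 0 := by
  intro h
  have h' : algebraMap W.CoordinateRing W.FunctionField
      ((C W.a₁ * X + C W.a₃ : k[X]) • (1 : W.CoordinateRing) +
        (2 : k[X]) • CoordinateRing.mk W Y) = 0 := by
    rw [CoordinateRing.smul, CoordinateRing.smul, map_add, map_mul, map_mul, map_one, mul_one,
      ← ιP_eq, ← ιP_eq, ← yF, ← h]
    simp only [map_ofNat]
    ring
  rw [map_eq_zero_iff _ (IsFractionRing.injective W.CoordinateRing W.FunctionField)] at h'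
  have h0 := CoordinateRing.smul_basis_eq_zero h'
  rcases hs with h2 | h1 | h3
  · have := h0.2
    have h2' : (2 : k[X]) = C (2 : k) := (C_ofNat 2).symm
    rw [h2', C_eq_zero] at this
    exact h2 this
  · apply h1
    have := congrArg (fun p : k[X] => p.coeff 1) h0.1
    simpa using this
  · apply h3
    have := congrArg (fun p : k[X] => p.coeff 0) h0.1
    simpa using this

/-- The norm form: `(r + s y)(r + s ȳ) ∈ k[X]`. -/
lemma mul_conjC (r s : k[X]) :
    (r • (1 : W.CoordinateRing) + s • CoordinateRing.mk W Y) *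
      conjC W (r • (1 : W.CoordinateRing) + s • CoordinateRing.mk W Y) =
    CoordinateRing.mk W (C (r ^ 2 - r * s * (C W.a₁ * X + C W.a₃)
      - s ^ 2 * (X ^ 3 + C W.a₂ * X ^ 2 + C W.a₄ * X + C W.a₆))) := by
  have hY := mkY_sq W
  simp only [CoordinateRing.smul, map_add, map_mul, conjC_mk_C, conjC_mk_Y, mul_one,
    Affine.negPolynomial, map_neg, map_sub, map_pow] at hY ⊢
  linear_combination (-(CoordinateRing.mk W (C s)) ^ 2) * hY

/-- Every element of the function field is of the form `(p + q y) / n`. -/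
theorem exists_repr (z : W.FunctionField) :
    ∃ p q n : k[X], n ≠ 0 ∧ z * ιP W n = ιP W p + ιP W q * yF W := by
  obtain ⟨a, b, hb, rfl⟩ := IsFractionRing.div_surjective W.CoordinateRing z
  have hb0 : b ≠ 0 := nonZeroDivisors.ne_zero hb
  obtain ⟨r, s, hrs⟩ := CoordinateRing.exists_smul_basis_eq b
  obtain ⟨p, q, hpq⟩ := CoordinateRing.exists_smul_basis_eq (a * conjC W b)
  set n : k[X] := r ^ 2 - r * s * (C W.a₁ * X + C W.a₃)
      - s ^ 2 * (X ^ 3 + C W.a₂ * X ^ 2 + C W.a₄ * X + C W.a₆) with hn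
  have hbn : b * conjC W b = CoordinateRing.mk W (C n) := by
    rw [← hrs]; exact mul_conjC W r s
  have hcb : conjC W b ≠ 0 := fun h => hb0 (conjC_injective W (by rw [h, map_zero]))
  have hn0 : n ≠ 0 := by
    intro h0
    rw [h0, C_0, map_zero] at hbn
    exact (mul_ne_zero hb0 hcb) hbn
  refine ⟨p, q, n, hn0, ?_⟩
  have hb' : algebraMap W.CoordinateRing W.FunctionField b ≠ 0 := by
    rwa [Ne, map_eq_zero_iff _ (IsFractionRing.injective W.CoordinateRing W.FunctionField)]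
  rw [ιP_eq, ιP_eq, ιP_eq, yF, ← map_mul, ← map_add, ← hbn, map_mul, div_mul_eq_mul_div,
    div_eq_iff hb', ← map_mul, ← map_mul, ← map_mul]
  congr 1
  rw [CoordinateRing.smul, CoordinateRing.smul, mul_one] at hpq
  rw [hpq]
  ring

/-- The embedding of `RatFunc k` (rational functions in `x`) in the function field. -/
noncomputable def ιK : RatFunc k →+* W.FunctionField :=
  RatFunc.liftRingHom (ιP W) (fun p hp => by
    rw [Submonoid.mem_comap]
    exact mem_nonZeroDivisors_of_ne_zero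
      (fun h => nonZeroDivisors.ne_zero hp ((ιP_eq_zero W).mp h)))

lemma ιK_apply (r : RatFunc k) : ιK W r = ιP W r.num / ιP W r.denom :=
  RatFunc.liftRingHom_apply _ _ _

lemma ιK_div (p q : k[X]) :
    ιK W (algebraMap k[X] (RatFunc k) p / algebraMap k[X] (RatFunc k) q) = ιP W p / ιP W q :=
  RatFunc.liftRingHom_apply_div _ _ _ _

lemma ιK_algebraMap (p : k[X]) : ιK W (algebraMap k[X] (RatFunc k) p) = ιP W p := by
  have := ιK_div W p 1
  simpa using this

lemma ιK_injective : Function.Injective (ιK W) :=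
  RingHom.injective _

lemma ιK_X : ιK W RatFunc.X = xF W := by
  rw [← RatFunc.algebraMap_X, ιK_algebraMap, ιP_X]

lemma ιK_C (a : k) : ιK W (RatFunc.C a) = algebraMap k W.FunctionField a := by
  rw [← RatFunc.algebraMap_C, ιK_algebraMap, ιP_C]

@[simp] lemma conjF_ιK (r : RatFunc k) : conjF W (ιK W r) = ιK W r := by
  rw [ιK_apply, map_div₀, conjF_ιP, conjF_ιP]

/-- If `Sep W` (e.g. in characteristic `≠ 2`), the elements fixed by the hyperelliptic involution
are the rational functions of `x`. -/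
theorem mem_range_ιK_of_conjF_eq (hs : Sep W) {z : W.FunctionField}
    (hz : conjF W z = z) : ∃ r : RatFunc k, ιK W r = z := by
  obtain ⟨p, q, n, hn, h⟩ := exists_repr W z
  have hn' : ιP W n ≠ 0 := fun h0 => hn ((ιP_eq_zero W).mp h0)
  have h' := congrArg (conjF W) h
  rw [map_mul, map_add, map_mul, conjF_ιP, conjF_ιP, conjF_ιP, conjF_yF, hz] at h'
  have hq : ιP W q * (2 * yF W + ιP W (C W.a₁ * X + C W.a₃)) = 0 := by
    linear_combination h' - h
  have hq0 : ιP W q = 0 := by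
    rcases mul_eq_zero.mp hq with h0 | h0
    · exact h0
    · exact absurd h0 (two_yF_add_ne_zero W hs)
  refine ⟨algebraMap k[X] (RatFunc k) p / algebraMap k[X] (RatFunc k) n, ?_⟩
  rw [ιK_div, div_eq_iff hn', h, hq0]
  ring

end Fermat.Agent.S52.H545

end
-- ===== PACK-END S52/H545/FF.lean

-- ===== PACK-BEGIN Lib/Frob/Statement.lean
section







/-!
# Shared library `Frob` — FROZEN INTERFACE (row S52, row-lead helper472)

`FrobRelation` is the statement "Frobenius satisfies `σ² − a_ℓ σ + ℓ = 0` on the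
prime-to-`ℓ` torsion of `W(ℚ̄)`", for a prime `ℓ ≥ 5` of good reduction of the integral model `W`
and EVERY Frobenius element `σ` at EVERY valuation subring of `ℚ̄` above `ℓ`.

This file only contains definitions (no `sorry`).  The proof is delivered as
`theorem Fermat.Agent.Lib.Frob.frobRelation : FrobRelation` in `Fermat/Agent/Lib/Frob/Main.lean`.
-/

set_option autoImplicit false

open WeierstrassCurve WeierstrassCurve.Affine WeierstrassCurve.Affine.Point

namespace Fermat.Agent.Lib.Frob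

/-- `ℚ̄`. -/
abbrev Qb : Type := AlgebraicClosure ℚ

/-- The group of `ℚ̄`-points of the integral Weierstrass model `W` (exactly the type on which the
Prelude Galois action `instSMulAlgEquiv` and `ModRepIsIrreducible` are defined). -/
abbrev Pts (W : WeierstrassCurve ℤ) : Type :=
  ((W.map (Int.castRingHom ℚ))⁄Qb).Point

/-- **Frobenius relation (T1).**  For a prime `ℓ ≥ 5` with `ℓ ∤ Δ(W)`, a valuation subring `A` of
`ℚ̄` above `ℓ`, a Frobenius element `σ` at `A`, and a point `P ∈ W(ℚ̄)` killed by some `n > 0`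
prime to `ℓ`:  `σ²P − a_ℓ(W)·σP + ℓ·P = 0`,  where `a_ℓ(W) = W.apOfModel ℓ = ℓ + 1 − #W(𝔽_ℓ)`. -/
def FrobRelation : Prop :=
  ∀ (W : WeierstrassCurve ℤ) (ℓ : ℕ), ℓ.Prime → 5 ≤ ℓ → W.IsGoodPrimeFor ℓ →
    ∀ (A : ValuationSubring Qb) (σ : Qb ≃ₐ[ℚ] Qb), A.LiesOverPrime ℓ → A.IsFrobeniusAt σ ℓ →
      ∀ (n : ℕ), 0 < n → ¬ ℓ ∣ n → ∀ P : Pts W, n • P = 0 →
        σ • σ • P - W.apOfModel ℓ • σ • P + (ℓ : ℤ) • P = 0

end Fermat.Agent.Lib.Frob

end
-- ===== PACK-END Lib/Frob/Statement.lean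

-- ===== PACK-BEGIN Lib/Frob/A2/H720/PolyVec.lean
section


/-!
# S52 / piece A2a-core (helper720): polynomial vectors, primitivity, maximal degree

For a field `F` we consider vectors `v : Fin n → F[X]`.
* `maxDeg v` : the maximum of the `natDegree`s of the entries.
* `IsPrim v` : every common divisor of the entries is a unit.

Main results of this file:
* `natDegree_aeval_le` : a homogeneous polynomial of degree `k` with coefficients in `F`
  evaluated at `v` has degree at most `k * D` if all entries have degree at most `D`.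
* `isPrim_addSubMap`, `maxDeg_addSubMap` : for an elliptic curve `W` over `F`, the quadratic map
  `WeierstrassCurve.addSubMap` sends a primitive vector `v` to a primitive vector of
  maximal degree exactly `2 * maxDeg v`.
-/

set_option autoImplicit false

open Polynomial

namespace Fermat.Agent.Lib.Frob.A2.H720

section MapLemmas

variable {R A : Type*} [CommRing R] [CommRing A] (W : WeierstrassCurve R) (f : R →+* A)

lemma addSubMap_map (i : Fin 3) :
    (W.map f).addSubMap i = MvPolynomial.map f (W.addSubMap i) := by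
  fin_cases i <;> simp [WeierstrassCurve.addSubMap, WeierstrassCurve.map_b₂,
    WeierstrassCurve.map_b₄, WeierstrassCurve.map_b₆, WeierstrassCurve.map_b₈, map_ofNat]

lemma addSubMapCoeff_map (ij : Fin 3 × Fin 3) :
    (W.map f).addSubMapCoeff ij = MvPolynomial.map f (W.addSubMapCoeff ij) := by
  fin_cases ij <;> simp [WeierstrassCurve.addSubMapCoeff, WeierstrassCurve.map_b₂,
    WeierstrassCurve.map_b₄, WeierstrassCurve.map_b₆, WeierstrassCurve.map_b₈, map_ofNat]

end MapLemmas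

variable {F : Type*} [Field F]

/-- Maximal degree of the entries of a polynomial vector. -/
noncomputable def maxDeg {n : ℕ} (v : Fin n → F[X]) : ℕ :=
  Finset.univ.sup fun i => (v i).natDegree

lemma natDegree_le_maxDeg {n : ℕ} (v : Fin n → F[X]) (i : Fin n) :
    (v i).natDegree ≤ maxDeg v :=
  Finset.le_sup (f := fun i => (v i).natDegree) (Finset.mem_univ i)

lemma maxDeg_le {n : ℕ} {v : Fin n → F[X]} {D : ℕ} (h : ∀ i, (v i).natDegree ≤ D) :
    maxDeg v ≤ D :=
  Finset.sup_le fun i _ => h i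

lemma exists_natDegree_eq_maxDeg {n : ℕ} [NeZero n] (v : Fin n → F[X]) :
    ∃ i, (v i).natDegree = maxDeg v := by
  obtain ⟨i, -, hi⟩ := Finset.exists_mem_eq_sup (Finset.univ : Finset (Fin n))
    ⟨0, Finset.mem_univ _⟩ (fun i => (v i).natDegree)
  exact ⟨i, hi.symm⟩

/-- A polynomial vector is primitive if every common divisor of its entries is a unit. -/
def IsPrim {n : ℕ} (v : Fin n → F[X]) : Prop :=
  ∀ d : F[X], (∀ i, d ∣ v i) → IsUnit d

lemma IsPrim.ne_zero {n : ℕ} {v : Fin n → F[X]} (hv : IsPrim v) : v ≠ 0 := by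
  rintro rfl
  exact Polynomial.not_isUnit_X (hv X fun i => dvd_zero _)

/-- Degree bound for the value of a homogeneous polynomial with constant coefficients. -/
lemma natDegree_aeval_le {n k D : ℕ} {p : MvPolynomial (Fin n) F} (hp : p.IsHomogeneous k)
    {v : Fin n → F[X]} (hv : ∀ i, (v i).natDegree ≤ D) :
    (MvPolynomial.aeval v p).natDegree ≤ k * D := by
  rw [MvPolynomial.aeval_def, MvPolynomial.eval₂_eq]
  refine natDegree_sum_le_of_forall_le _ _ fun m hm => ?_
  have hmk : ∑ i ∈ m.support, m i = k := by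
    have := hp (MvPolynomial.mem_support_iff.mp hm)
    rw [← this, Finsupp.weight_apply, Finsupp.sum]
    simp
  calc (algebraMap F F[X] (MvPolynomial.coeff m p) * ∏ i ∈ m.support, v i ^ m i).natDegree
      ≤ (algebraMap F F[X] (MvPolynomial.coeff m p)).natDegree
          + (∏ i ∈ m.support, v i ^ m i).natDegree := natDegree_mul_le
    _ ≤ 0 + ∑ i ∈ m.support, (v i ^ m i).natDegree := by
        gcongr
        · rw [Polynomial.algebraMap_eq]; simp
        · exact natDegree_prod_le _ _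
    _ ≤ 0 + ∑ i ∈ m.support, m i * D := by
        gcongr with i _
        exact natDegree_pow_le.trans (Nat.mul_le_mul_left _ (hv i))
    _ = k * D := by rw [zero_add, ← Finset.sum_mul, hmk]

end Fermat.Agent.Lib.Frob.A2.H720

end
-- ===== PACK-END Lib/Frob/A2/H720/PolyVec.lean

-- ===== PACK-BEGIN Lib/Cheb/H223/Crossing.lean
section


/-!
# Chebotarev field crossing: the Galois-theoretic part (helper223, shared lib CHEB)

Let `L / ℚ` be a finite Galois extension inside `ℚ̄` and `σ ∈ Gal(ℚ̄/ℚ)`.  We produce a prime `ℓ`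
(as large as we like), a primitive `ℓ`-th root of unity `ζ` and `g ∈ Gal(ℚ̄/ℚ)` such that
`g = σ` on `L`, `g ζ = ζ ^ t`, and every power of `g` fixing `ζ` fixes `L` pointwise.
-/

set_option autoImplicit false
set_option linter.style.haveILetI false


namespace Fermat.Agent.Lib.Cheb.H223

open IntermediateField Polynomial

set_option backward.isDefEq.respectTransparency false in
/-- Two cyclotomic fields of distinct prime levels inside a field of characteristic zero
meet in `ℚ`. -/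
theorem cyclo_inf_eq_bot {K : Type*} [Field K] [CharZero K] [Algebra.IsAlgebraic ℚ K]
    {p₁ p₂ : ℕ} (hp₁ : p₁.Prime) (hp₂ : p₂.Prime) (hne : p₁ ≠ p₂) {ζ₁ ζ₂ : K}
    (h₁ : IsPrimitiveRoot ζ₁ p₁) (h₂ : IsPrimitiveRoot ζ₂ p₂) :
    ℚ⟮ζ₁⟯ ⊓ ℚ⟮ζ₂⟯ = ⊥ := by
  haveI : NeZero p₁ := ⟨hp₁.ne_zero⟩
  haveI : NeZero p₂ := ⟨hp₂.ne_zero⟩
  haveI : Algebra.IsIntegral ℚ K := Algebra.IsAlgebraic.isIntegral
  haveI c₁ : IsCyclotomicExtension {p₁} ℚ ℚ⟮ζ₁⟯ := h₁.intermediateField_adjoin_isCyclotomicExtension ℚ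
  haveI c₂ : IsCyclotomicExtension {p₂} ℚ ℚ⟮ζ₂⟯ := h₂.intermediateField_adjoin_isCyclotomicExtension ℚ
  haveI : FiniteDimensional ℚ ℚ⟮ζ₁⟯ := IsCyclotomicExtension.finiteDimensional {p₁} ℚ _
  haveI : FiniteDimensional ℚ ℚ⟮ζ₂⟯ := IsCyclotomicExtension.finiteDimensional {p₂} ℚ _
  have hcop : Nat.Coprime p₁ p₂ := (Nat.coprime_primes hp₁ hp₂).mpr hne
  haveI : NeZero (p₁.lcm p₂) := ⟨Nat.lcm_ne_zero hp₁.ne_zero hp₂.ne_zero⟩
  haveI c₃ : IsCyclotomicExtension {p₁.lcm p₂} ℚ ↥(ℚ⟮ζ₁⟯ ⊔ ℚ⟮ζ₂⟯) :=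
    IntermediateField.isCyclotomicExtension_lcm_sup ℚ K p₁ p₂ ℚ⟮ζ₁⟯ ℚ⟮ζ₂⟯
  have f₁ : Module.finrank ℚ ℚ⟮ζ₁⟯ = p₁.totient :=
    IsCyclotomicExtension.finrank _ (cyclotomic.irreducible_rat hp₁.pos)
  have f₂ : Module.finrank ℚ ℚ⟮ζ₂⟯ = p₂.totient :=
    IsCyclotomicExtension.finrank _ (cyclotomic.irreducible_rat hp₂.pos)
  have f₃ : Module.finrank ℚ ↥(ℚ⟮ζ₁⟯ ⊔ ℚ⟮ζ₂⟯) = (p₁.lcm p₂).totient :=
    IsCyclotomicExtension.finrank _ (cyclotomic.irreducible_rat (Nat.pos_of_ne_zero (NeZero.ne _)))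
  have hld : (ℚ⟮ζ₁⟯).LinearDisjoint ℚ⟮ζ₂⟯ := by
    apply LinearDisjoint.of_finrank_sup
    rw [f₁, f₂, f₃, hcop.lcm_eq_mul, Nat.totient_mul hcop]
  exact hld.inf_eq_bot

/-- For a finite extension `L / ℚ` inside `K` there are arbitrarily large primes `ℓ ≡ 1 (mod n)`
whose cyclotomic field meets `L` in `ℚ`. -/
theorem exists_prime_disjoint {K : Type*} [Field K] [CharZero K] [Algebra.IsAlgebraic ℚ K]
    (hroots : ∀ m : ℕ, m ≠ 0 → ∃ ζ : K, IsPrimitiveRoot ζ m)
    (L : IntermediateField ℚ K) [FiniteDimensional ℚ L] {n : ℕ} (hn : n ≠ 0) (B : ℕ) :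
    ∃ (ℓ : ℕ) (ζ : K), ℓ.Prime ∧ B < ℓ ∧ ℓ ≡ 1 [MOD n] ∧ IsPrimitiveRoot ζ ℓ ∧
      L ⊓ ℚ⟮ζ⟯ = ⊥ := by
  classical
  have hfin : Finite (IntermediateField ℚ L) :=
    Field.finite_intermediateField_of_exists_primitive_element ℚ L
      (Field.exists_primitive_element ℚ L)
  -- choose primitive roots
  have hroots' : ∀ m : ℕ, ∃ ζ : K, m ≠ 0 → IsPrimitiveRoot ζ m := fun m => by
    by_cases hm : m = 0
    · exact ⟨1, fun h => absurd hm h⟩
    · obtain ⟨ζ, hζ⟩ := hroots m hm
      exact ⟨ζ, fun _ => hζ⟩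
  choose z hz using hroots'
  let f : ℕ → IntermediateField ℚ L := fun p =>
    IntermediateField.restrict (inf_le_left : L ⊓ ℚ⟮z p⟯ ≤ L)
  have hinf : ({p : ℕ | p.Prime ∧ p ≡ 1 [MOD n]} \ Set.Iic B).Infinite :=
    (Nat.infinite_setOfPred_prime_modEq_one hn).sdiff (Set.finite_Iic B)
  obtain ⟨p₁, hp₁, p₂, hp₂, hne, hf⟩ :=
    hinf.exists_ne_map_eq_of_mapsTo (f := f) (t := Set.univ) (fun _ _ => Set.mem_univ _)
      Set.finite_univ
  have hf' : L ⊓ ℚ⟮z p₁⟯ = L ⊓ ℚ⟮z p₂⟯ := by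
    have := congrArg IntermediateField.lift hf
    simpa only [f, IntermediateField.lift_restrict] using this
  refine ⟨p₁, z p₁, hp₁.1.1, ?_, hp₁.1.2, hz p₁ hp₁.1.1.ne_zero, ?_⟩
  · have := hp₁.2
    simpa using this
  · have h1 : L ⊓ ℚ⟮z p₁⟯ ≤ ℚ⟮z p₁⟯ ⊓ ℚ⟮z p₂⟯ :=
      le_inf inf_le_right (hf' ▸ inf_le_right)
    rw [cyclo_inf_eq_bot hp₁.1.1 hp₂.1.1 hne (hz p₁ hp₁.1.1.ne_zero)
      (hz p₂ hp₂.1.1.ne_zero)] at h1
    exact le_bot_iff.mp h1

/-- `ℚ̄ / ℚ` is Galois. -/
theorem isGalois_Qb : IsGalois ℚ (AlgebraicClosure ℚ) := by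
  haveI : Algebra.IsAlgebraic ℚ (AlgebraicClosure ℚ) := AlgebraicClosure.isAlgebraic ℚ
  haveI : IsAlgClosure ℚ (AlgebraicClosure ℚ) := ⟨inferInstance, inferInstance⟩
  haveI : Normal ℚ (AlgebraicClosure ℚ) := IsAlgClosure.normal ℚ (AlgebraicClosure ℚ)
  exact isGalois_iff.mpr ⟨inferInstance, inferInstance⟩

/-- If `L ∩ C = ℚ` with `C / ℚ` finite Galois, every pair `(σ|_L, τ)` with `τ ∈ Gal(C/ℚ)` is
induced by an element of `Gal(ℚ̄/ℚ)`. -/
theorem exists_common_extension (L C : IntermediateField ℚ (AlgebraicClosure ℚ))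
    [FiniteDimensional ℚ C] [IsGalois ℚ C] (h : L ⊓ C = ⊥)
    (σ : AlgebraicClosure ℚ ≃ₐ[ℚ] AlgebraicClosure ℚ) (τ : C ≃ₐ[ℚ] C) :
    ∃ g : AlgebraicClosure ℚ ≃ₐ[ℚ] AlgebraicClosure ℚ,
      (∀ x ∈ L, g x = σ x) ∧ AlgEquiv.restrictNormalHom C g = τ := by
  haveI := isGalois_Qb
  set H : Subgroup (C ≃ₐ[ℚ] C) := L.fixingSubgroup.map (AlgEquiv.restrictNormalHom C) with hH
  have hfix : IntermediateField.fixedField H = ⊥ := by
    rw [eq_bot_iff]
    intro x hx
    rw [IntermediateField.mem_fixedField_iff] at hx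
    have hxL : (x : AlgebraicClosure ℚ) ∈ L := by
      rw [← InfiniteGalois.fixedField_fixingSubgroup L, IntermediateField.mem_fixedField_iff]
      intro f hf
      have := hx (AlgEquiv.restrictNormalHom C f) (Subgroup.mem_map_of_mem _ hf)
      have h2 := congrArg (Subtype.val) this
      exact (AlgEquiv.restrictNormal_commutes f C x).symm.trans h2
    have hxLC : (x : AlgebraicClosure ℚ) ∈ L ⊓ C := ⟨hxL, x.2⟩
    rw [h, IntermediateField.mem_bot] at hxLC
    obtain ⟨q, hq⟩ := hxLC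
    rw [IntermediateField.mem_bot]
    exact ⟨q, Subtype.ext hq⟩
  have htop : H = ⊤ := by
    rw [← IntermediateField.fixingSubgroup_fixedField H, hfix,
      IntermediateField.fixingSubgroup_bot]
  have hmem : (AlgEquiv.restrictNormalHom C σ)⁻¹ * τ ∈ H := htop ▸ Subgroup.mem_top _
  obtain ⟨f, hf, hfτ⟩ := Subgroup.mem_map.mp hmem
  refine ⟨σ * f, fun x hx => ?_, ?_⟩
  · rw [AlgEquiv.mul_apply, (IntermediateField.mem_fixingSubgroup_iff L f).mp hf x hx]
  · rw [map_mul, hfτ, mul_inv_cancel_left]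

/-- primitive roots of unity exist in `ℚ̄` -/
theorem exists_primitiveRoot_Qb (m : ℕ) (hm : m ≠ 0) :
    ∃ ζ : AlgebraicClosure ℚ, IsPrimitiveRoot ζ m := by
  haveI : NeZero m := ⟨hm⟩
  haveI : NeZero (m : AlgebraicClosure ℚ) := ⟨by exact_mod_cast hm⟩
  exact HasEnoughRootsOfUnity.exists_primitiveRoot _ m

/-- a unit of prescribed order dividing `ℓ - 1` modulo a prime `ℓ` -/
theorem exists_unit_orderOf {ℓ n : ℕ} (hℓ : ℓ.Prime) (h : ℓ ≡ 1 [MOD n]) :
    ∃ u : (ZMod ℓ)ˣ, orderOf u = n := by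
  haveI : Fact ℓ.Prime := ⟨hℓ⟩
  obtain ⟨r, hr⟩ := IsCyclic.exists_ofOrder_eq_natCard (α := (ZMod ℓ)ˣ)
  have hcard : Nat.card (ZMod ℓ)ˣ = ℓ - 1 := by
    rw [Nat.card_eq_fintype_card, ZMod.card_units_eq_totient, Nat.totient_prime hℓ]
  have hdvd : n ∣ ℓ - 1 := (Nat.modEq_iff_dvd' hℓ.one_lt.le).mp h.symm
  obtain ⟨c, hc⟩ := hdvd
  have hc0 : c ≠ 0 := by
    rintro rfl
    have := hℓ.one_lt
    omega
  refine ⟨r ^ c, ?_⟩
  rw [orderOf_pow_of_dvd hc0 (by rw [hr, hcard, hc]; exact dvd_mul_left c n), hr, hcard, hc]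
  exact Nat.mul_div_cancel _ (Nat.pos_of_ne_zero hc0)

set_option backward.isDefEq.respectTransparency false in
/-- **Field crossing.** -/
theorem exists_crossing (L : IntermediateField ℚ (AlgebraicClosure ℚ)) [FiniteDimensional ℚ L]
    [IsGalois ℚ L] (σ : AlgebraicClosure ℚ ≃ₐ[ℚ] AlgebraicClosure ℚ) (B : ℕ) :
    ∃ (ℓ : ℕ) (ζ : AlgebraicClosure ℚ) (g : AlgebraicClosure ℚ ≃ₐ[ℚ] AlgebraicClosure ℚ)
      (t : ℕ), ℓ.Prime ∧ B < ℓ ∧ IsPrimitiveRoot ζ ℓ ∧ (∀ x ∈ L, g x = σ x) ∧ g ζ = ζ ^ t ∧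
        ∀ k : ℕ, ζ ^ t ^ k = ζ → ∀ x ∈ L, (g ^ k) x = x := by
  haveI : Algebra.IsAlgebraic ℚ (AlgebraicClosure ℚ) := AlgebraicClosure.isAlgebraic ℚ
  haveI : Algebra.IsIntegral ℚ (AlgebraicClosure ℚ) := Algebra.IsAlgebraic.isIntegral
  set s₀ := AlgEquiv.restrictNormalHom L σ with hs₀
  set n := orderOf s₀
  have hn0 : n ≠ 0 := (orderOf_pos s₀).ne'
  obtain ⟨ℓ, ζ, hℓ, hB, hmod, hζ, hdisj⟩ := exists_prime_disjoint exists_primitiveRoot_Qb L hn0 B
  haveI : NeZero ℓ := ⟨hℓ.ne_zero⟩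
  haveI : Fact ℓ.Prime := ⟨hℓ⟩
  haveI hcyc : IsCyclotomicExtension {ℓ} ℚ ℚ⟮ζ⟯ :=
    hζ.intermediateField_adjoin_isCyclotomicExtension ℚ
  haveI : NumberField ℚ⟮ζ⟯ := IsCyclotomicExtension.numberField {ℓ} ℚ _
  haveI : IsGalois ℚ ℚ⟮ζ⟯ := IsCyclotomicExtension.isGalois {ℓ} ℚ _
  haveI : FiniteDimensional ℚ ℚ⟮ζ⟯ := IsCyclotomicExtension.finiteDimensional {ℓ} ℚ _
  obtain ⟨u, hu⟩ := exists_unit_orderOf hℓ hmod
  set τ := (IsCyclotomicExtension.Rat.galEquivZMod ℓ ℚ⟮ζ⟯).symm u with hτ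
  obtain ⟨g, hgL, hgC⟩ := exists_common_extension L ℚ⟮ζ⟯ hdisj σ τ
  set t := (u : ZMod ℓ).val with ht
  have hgζ : g ζ = ζ ^ t := by
    let ζC : ℚ⟮ζ⟯ := ⟨ζ, mem_adjoin_simple_self ℚ ζ⟩
    have h1 : ζC ^ ℓ = 1 := Subtype.ext (by simpa using hζ.pow_eq_one)
    have h2 := IsCyclotomicExtension.Rat.galEquivZMod_apply_of_pow_eq ℓ ℚ⟮ζ⟯ τ h1
    rw [hτ, MulEquiv.apply_symm_apply] at h2
    have h3 := congrArg Subtype.val h2
    rw [← hτ, ← hgC] at h3
    have h4 := AlgEquiv.restrictNormal_commutes g ℚ⟮ζ⟯ ζC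
    have h3' : (((AlgEquiv.restrictNormalHom ↥ℚ⟮ζ⟯) g) ζC : AlgebraicClosure ℚ) = ζ ^ t := by
      simpa using h3
    exact h4.symm.trans h3'
  refine ⟨ℓ, ζ, g, t, hℓ, hB, hζ, hgL, hgζ, ?_⟩
  intro k hk x hx
  -- `t ^ k ≡ 1 mod ℓ`
  have ht0 : t ≠ 0 := by
    intro h0
    have : (u : ZMod ℓ) = 0 := (ZMod.val_eq_zero _).mp h0
    exact u.ne_zero this
  have htk : 1 ≤ t ^ k := Nat.one_le_pow _ _ (Nat.pos_of_ne_zero ht0)
  have h1 : ζ ^ (t ^ k - 1) = 1 := by
    have : ζ * ζ ^ (t ^ k - 1) = ζ * 1 := by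
      rw [← pow_succ', Nat.sub_add_cancel htk, mul_one, hk]
    exact mul_left_cancel₀ (hζ.ne_zero hℓ.ne_zero) this
  have h2 : ℓ ∣ t ^ k - 1 := (hζ.pow_eq_one_iff_dvd _).mp h1
  have h3 : ((t : ZMod ℓ)) ^ k = 1 := by
    have : ((t ^ k - 1 : ℕ) : ZMod ℓ) = 0 := (ZMod.natCast_eq_zero_iff _ _).mpr h2
    rw [Nat.cast_sub htk] at this
    push_cast at this
    exact sub_eq_zero.mp this
  have h4 : u ^ k = 1 := by
    apply Units.ext
    rw [Units.val_pow_eq_pow_val, Units.val_one, ← h3, ht, ZMod.natCast_zmod_val]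
  have h5 : n ∣ k := by rw [← hu]; exact orderOf_dvd_iff_pow_eq_one.mpr h4
  have h6 : s₀ ^ k = 1 := orderOf_dvd_iff_pow_eq_one.mp h5
  have h7 : AlgEquiv.restrictNormalHom L g = s₀ := by
    apply AlgEquiv.ext
    intro y
    apply Subtype.ext
    have e1 := AlgEquiv.restrictNormal_commutes g L y
    have e2 := AlgEquiv.restrictNormal_commutes σ L y
    exact e1.trans ((hgL y y.2).trans e2.symm)
  have h8 : AlgEquiv.restrictNormalHom L (g ^ k) = 1 := by rw [map_pow, h7, h6]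
  have e3 := AlgEquiv.restrictNormal_commutes (g ^ k) L ⟨x, hx⟩
  have e4 : (AlgEquiv.restrictNormalHom L (g ^ k)) ⟨x, hx⟩ = ⟨x, hx⟩ := by rw [h8]; rfl
  exact e3.symm.trans (congrArg Subtype.val e4)

end Fermat.Agent.Lib.Cheb.H223

end
-- ===== PACK-END Lib/Cheb/H223/Crossing.lean

-- ===== PACK-BEGIN Lib/NormL/Cop.lean
section


/-!
# `NormL`, block COP: coprime representatives of ideal classes (helper704)

Every ideal class of the ring of integers of a number field contains an integral ideal whose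
absolute norm is coprime to a given integer `m ≠ 0`.

The statement is true in every Dedekind domain in the form "every ideal class contains an
integral ideal coprime to a given nonzero ideal" (`exists_mk0_eq_and_sup_eq_top`).
-/

set_option autoImplicit false

namespace Fermat.Agent.Lib.NormL

open NumberField
open scoped nonZeroDivisors

namespace Cop

section Dedekind

variable {R : Type*} [CommRing R] [IsDedekindDomain R]

/-- In a Dedekind domain, for nonzero ideals `J₀`, `M` there are an element `a` and an ideal `J`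
with `J₀ * J = (a)` and `J` coprime to `M`. -/
theorem exists_mul_eq_span_singleton_and_sup_eq_top {J₀ M : Ideal R} (hJ₀ : J₀ ≠ ⊥)
    (hM : M ≠ ⊥) :
    ∃ (a : R) (J : Ideal R), J₀ * J = Ideal.span {a} ∧ J ⊔ M = ⊤ := by
  have hle : J₀ * M ≤ J₀ := Ideal.mul_le_left
  have hne : J₀ * M ≠ 0 := by
    rw [Ideal.zero_eq_bot]
    exact mul_ne_zero hJ₀ hM
  obtain ⟨a, ha⟩ := IsDedekindDomain.exists_sup_span_eq hle hne
  have haJ : Ideal.span {a} ≤ J₀ := by
    rw [← ha]
    exact le_sup_right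
  obtain ⟨J, hJ⟩ := Ideal.dvd_iff_le.mpr haJ
  refine ⟨a, J, hJ.symm, ?_⟩
  have h1 : J₀ * (J ⊔ M) = J₀ * ⊤ := by
    rw [Ideal.mul_top, Ideal.mul_sup, ← hJ, sup_comm]
    exact ha
  exact mul_left_cancel₀ (a := J₀) (by simpa using hJ₀) h1

/-- In a Dedekind domain every ideal class contains an integral ideal which is coprime to a
given nonzero ideal. -/
theorem exists_mk0_eq_and_sup_eq_top (C : ClassGroup R) {M : Ideal R} (hM : M ≠ ⊥) :
    ∃ J : (Ideal R)⁰, ClassGroup.mk0 J = C ∧ (J : Ideal R) ⊔ M = ⊤ := by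
  obtain ⟨J₀, hJ₀⟩ := ClassGroup.mk0_surjective C⁻¹
  have hJ₀ne : (J₀ : Ideal R) ≠ ⊥ := by
    have := mem_nonZeroDivisors_iff_ne_zero.mp J₀.2
    simpa using this
  by_cases hMtop : M = ⊤
  · obtain ⟨J, hJ⟩ := ClassGroup.mk0_surjective C
    exact ⟨J, hJ, by rw [hMtop]; exact sup_top_eq _⟩
  obtain ⟨a, J, hJ, hcop⟩ := exists_mul_eq_span_singleton_and_sup_eq_top hJ₀ne hM
  have hJne : J ≠ ⊥ := by
    rintro rfl
    rw [bot_sup_eq] at hcop
    exact hMtop hcop
  have hJmem : J ∈ (Ideal R)⁰ := mem_nonZeroDivisors_iff_ne_zero.mpr (by simpa using hJne)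
  refine ⟨⟨J, hJmem⟩, ?_, hcop⟩
  have hprod : ClassGroup.mk0 (J₀ * ⟨J, hJmem⟩) = 1 := by
    rw [ClassGroup.mk0_eq_one_iff]
    exact ⟨⟨a, by simpa using hJ⟩⟩
  rw [map_mul, hJ₀] at hprod
  exact (inv_mul_eq_one.mp hprod).symm

end Dedekind

section NumberField

variable (K : Type*) [Field K] [NumberField K]

/-- If a nonzero ideal `I` of `𝓞 K` is coprime to the ideal generated by the integer `m`, then
its absolute norm is coprime to `m`. -/
theorem absNorm_coprime_of_sup_span_eq_top {I : Ideal (𝓞 K)} (hI : I ≠ ⊥) {m : ℕ}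
    (h : I ⊔ Ideal.span {(m : 𝓞 K)} = ⊤) : (Ideal.absNorm I).Coprime m := by
  rw [Nat.coprime_iff_gcd_eq_one]
  by_contra hg
  obtain ⟨p, hp, hpg⟩ := Nat.exists_prime_and_dvd hg
  have hpI : p ∣ Ideal.absNorm I := hpg.trans (Nat.gcd_dvd_left _ _)
  obtain ⟨k, hk⟩ : p ∣ m := hpg.trans (Nat.gcd_dvd_right _ _)
  have : Fact p.Prime := ⟨hp⟩
  -- the quotient is a finite group whose cardinality is divisible by `p`
  have hcard : Nat.card (𝓞 K ⧸ I) = Ideal.absNorm I := by
    rw [Ideal.absNorm_apply, Submodule.cardQuot_apply]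
  have hpos : Ideal.absNorm I ≠ 0 := fun h0 => hI (Ideal.absNorm_eq_zero_iff.mp h0)
  have hfin : Finite (𝓞 K ⧸ I) := Nat.finite_of_card_ne_zero (by rwa [hcard])
  obtain ⟨x, hx⟩ := exists_prime_addOrderOf_dvd_card' (G := 𝓞 K ⧸ I) p (by rwa [hcard])
  -- but `p` is invertible in the quotient
  obtain ⟨i, hi, y, hy, hiy⟩ := Submodule.mem_sup.mp ((Ideal.eq_top_iff_one _).mp h)
  obtain ⟨r, rfl⟩ := Ideal.mem_span_singleton'.mp hy
  have hx0 : x ≠ 0 := by
    intro hx0
    rw [hx0, addOrderOf_zero] at hx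
    exact hp.one_lt.ne hx
  have hpx : p • x = 0 := by
    rw [← hx]
    exact addOrderOf_nsmul_eq_zero x
  apply hx0
  have h1 : (Ideal.Quotient.mk I (r * (k : 𝓞 K))) * (p : 𝓞 K ⧸ I) = 1 := by
    have : (Ideal.Quotient.mk I) (i + r * (m : 𝓞 K)) = 1 := by rw [hiy, map_one]
    rw [map_add, Ideal.Quotient.eq_zero_iff_mem.mpr hi, zero_add, hk] at this
    rw [← this]
    push_cast
    simp only [map_mul, map_natCast]
    ring
  calc x = (Ideal.Quotient.mk I (r * (k : 𝓞 K)) * (p : 𝓞 K ⧸ I)) * x := by rw [h1, one_mul]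
    _ = Ideal.Quotient.mk I (r * (k : 𝓞 K)) * (p • x) := by
        rw [nsmul_eq_mul, mul_assoc]
    _ = 0 := by rw [hpx, mul_zero]

end NumberField

end Cop

section NumberField

variable (K : Type*) [Field K] [NumberField K]

/-- COP: every ideal class contains an integral ideal of norm coprime to `m`. -/
theorem exists_mk0_eq_and_coprime (m : ℕ) [NeZero m] (C : ClassGroup (𝓞 K)) :
    ∃ J : (Ideal (𝓞 K))⁰, ClassGroup.mk0 J = C ∧
      (Ideal.absNorm (J : Ideal (𝓞 K))).Coprime m := by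
  have hM : Ideal.span {(m : 𝓞 K)} ≠ ⊥ := by
    rw [Ne, Ideal.span_singleton_eq_bot]
    exact_mod_cast NeZero.ne m
  obtain ⟨J, hJ, hcop⟩ := Cop.exists_mk0_eq_and_sup_eq_top C hM
  refine ⟨J, hJ, Cop.absNorm_coprime_of_sup_span_eq_top K ?_ hcop⟩
  have := mem_nonZeroDivisors_iff_ne_zero.mp J.2
  simpa using this

end NumberField

end Fermat.Agent.Lib.NormL

end
-- ===== PACK-END Lib/NormL/Cop.lean

-- ===== PACK-BEGIN S29/H872/Burnside.lean
section





/-!
# Burnside's theorem (from Mathlib's Schur lemma + Jacobson density)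

A subalgebra of `End_K(U)` (`K` algebraically closed, `U` finite dimensional, nonzero) without
nontrivial invariant subspaces is everything.
-/

set_option autoImplicit false

namespace Fermat.Agent.S29.H872

open Module

variable {K : Type*} [Field K] {U : Type*} [AddCommGroup U] [Module K U]

section Burnside

variable (A : Subalgebra K (Module.End K U))

theorem subalgebra_smul_def (a : A) (u : U) : a • u = (a : Module.End K U) u := rfl

instance instIsScalarTowerSubalgebraEnd : IsScalarTower K A U :=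
  ⟨fun c a u => by
    rw [subalgebra_smul_def, subalgebra_smul_def]
    simp⟩

theorem isSimpleModule_of_irr [Nontrivial U]
    (hirr : ∀ W : Submodule K U, (∀ a ∈ A, W ≤ W.comap a) → W = ⊥ ∨ W = ⊤) :
    IsSimpleModule A U := by
  rw [isSimpleModule_iff]
  have : Nontrivial (Submodule A U) := inferInstance
  refine ⟨fun W => ?_⟩
  have h := hirr (W.restrictScalars K) (fun a ha w hw => by
    change (a : Module.End K U) w ∈ W
    exact W.smul_mem (⟨a, ha⟩ : A) hw)
  rcases h with h | h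
  · left
    exact Submodule.restrictScalars_injective K A U (by rw [h]; rfl)
  · right
    exact Submodule.restrictScalars_injective K A U (by rw [h]; rfl)

variable [IsAlgClosed K] [FiniteDimensional K U]

/-- **Burnside's theorem.** -/
theorem burnside [Nontrivial U]
    (hirr : ∀ W : Submodule K U, (∀ a ∈ A, W ≤ W.comap a) → W = ⊥ ∨ W = ⊤) :
    A = ⊤ := by
  have : IsSimpleModule A U := isSimpleModule_of_irr A hirr
  have hschur : Function.Bijective (algebraMap K (Module.End A U)) :=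
    IsSimpleModule.algebraMap_end_bijective_of_isAlgClosed K
  have : Module.Finite (Module.End A U) U :=
    Module.Finite.of_restrictScalars_finite K (Module.End A U) U
  have hdens := Module.Finite.toModuleEnd_moduleEnd_surjective (R := A) (M := U)
  rw [eq_top_iff]
  intro f _
  -- `f` is linear over `End_A(U) = K`
  let f' : Module.End (Module.End A U) U :=
    { toFun := f
      map_add' := f.map_add
      map_smul' := fun e u => by
        obtain ⟨c, rfl⟩ := hschur.2 e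
        simp }
  obtain ⟨a, ha⟩ := hdens f'
  have : (a : Module.End K U) = f := by
    ext u
    have := congrArg (fun g : Module.End (Module.End A U) U => g u) ha
    have h2 : a • u = f u := by simpa [f'] using this
    exact h2
  rw [← this]
  exact a.2

end Burnside

end Fermat.Agent.S29.H872

end
-- ===== PACK-END S29/H872/Burnside.lean

-- ===== PACK-BEGIN S59/G4/H178/Involution.lean
section


/-!
# S59 / G4 / ODD, field-theoretic core (helper178) — Mathlib only

An involution `c ≠ 1` of an algebraically closed field `K` with `2 ≠ 0` inverts every root of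
unity of odd prime-power order (a fragment of Artin–Schreier theory, proved by hand):

* `K = F ⊕ F θ` with `F` the fixed field, `c θ = -θ`;
* `-1` is not a square in `F` (`neg_one_not_sq_fixed`);
* sums of squares of fixed elements are squares of fixed elements (`exists_fixed_sq_eq_sum`);
* a `p`-th root of unity `ζ ≠ 1` (`p` odd) is not fixed: otherwise `-1 = ζ + ⋯ + ζ^(p-1)` is a sum
  of squares of fixed elements (`ne_of_primitive`);
* hence `μ * c μ = 1` whenever `μ ^ p ^ n = 1` (`involution_mul_self_eq_one`).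
-/

set_option autoImplicit false

namespace Fermat.Agent.S59.G4.H178

open Finset

section Core

variable {K : Type*} [Field K] [IsAlgClosed K]

omit [IsAlgClosed K] in
/-- The norm `w * c w` of an involution is fixed. -/
theorem norm_fixed (c : K ≃+* K) (hc : ∀ x, c (c x) = x) (w : K) : c (w * c w) = w * c w := by
  rw [map_mul, hc, mul_comm]

/-- For an involution `c ≠ 1` of an algebraically closed field with `2 ≠ 0`, a square root of
`-1` is not fixed. -/
theorem neg_one_not_sq_fixed (h2 : (2 : K) ≠ 0) (c : K ≃+* K) (hc : ∀ x, c (c x) = x)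
    (hne : ∃ x, c x ≠ x) (i : K) (hi : i * i = -1) : c i ≠ i := by
  intro hfix
  obtain ⟨x, hx⟩ := hne
  -- `θ` is anti-fixed and nonzero
  set θ : K := x - c x with hθ
  have hθ0 : θ ≠ 0 := fun h => hx (by rw [hθ, sub_eq_zero] at h; exact h.symm)
  have hcθ : c θ = -θ := by rw [hθ, map_sub, hc]; ring
  -- a square root `w` of `θ`
  obtain ⟨w, hw⟩ := IsAlgClosed.exists_pow_nat_eq θ (n := 2) (by norm_num)
  have hN : c (w * c w) = w * c w := norm_fixed c hc w
  have hN2 : (w * c w) ^ 2 = -(θ ^ 2) := by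
    have : c w ^ 2 = -θ := by rw [← map_pow, hw, hcθ]
    calc (w * c w) ^ 2 = w ^ 2 * c w ^ 2 := by ring
      _ = θ * -θ := by rw [hw, this]
      _ = -(θ ^ 2) := by ring
  -- `θ ^ 2 = (i * N) ^ 2`
  have h3 : θ ^ 2 = (i * (w * c w)) ^ 2 := by
    have : (i * (w * c w)) ^ 2 = (i * i) * (w * c w) ^ 2 := by ring
    rw [this, hi, hN2]; ring
  have h4 : c (i * (w * c w)) = i * (w * c w) := by rw [map_mul, hfix, hN]
  -- hence `θ = ± i N` is fixed
  have h5 : θ = i * (w * c w) ∨ θ = -(i * (w * c w)) := sq_eq_sq_iff_eq_or_eq_neg.mp h3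
  have h6 : c θ = θ := by
    rcases h5 with h | h
    · rw [h, h4]
    · rw [h, map_neg, h4]
  have h7 : (2 : K) * θ = 0 := by
    have : θ = -θ := h6.symm.trans hcθ
    linear_combination this
  rcases mul_eq_zero.mp h7 with h | h
  · exact h2 h
  · exact hθ0 h

/-- The sum of two squares of fixed elements is the square of a fixed element. -/
theorem exists_fixed_sq_eq_add (h2 : (2 : K) ≠ 0) (c : K ≃+* K) (hc : ∀ x, c (c x) = x)
    (hne : ∃ x, c x ≠ x) (a b : K) (ha : c a = a) (hb : c b = b) :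
    ∃ s : K, c s = s ∧ s ^ 2 = a ^ 2 + b ^ 2 := by
  obtain ⟨i, hi⟩ := IsAlgClosed.exists_pow_nat_eq (-1 : K) (n := 2) (by norm_num)
  have hi' : i * i = -1 := by rw [← sq]; exact hi
  have hci : c i = -i := by
    have h1 : c i ≠ i := neg_one_not_sq_fixed h2 c hc hne i hi'
    have h3 : c i ^ 2 = i ^ 2 := by rw [← map_pow, hi, map_neg, map_one]
    rcases sq_eq_sq_iff_eq_or_eq_neg.mp h3 with h | h
    · exact absurd h h1
    · exact h
  obtain ⟨w, hw⟩ := IsAlgClosed.exists_pow_nat_eq (a + b * i) (n := 2) (by norm_num)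
  refine ⟨w * c w, norm_fixed c hc w, ?_⟩
  have hcw : c w ^ 2 = a - b * i := by
    rw [← map_pow, hw, map_add, map_mul, ha, hb, hci]; ring
  calc (w * c w) ^ 2 = w ^ 2 * c w ^ 2 := by ring
    _ = (a + b * i) * (a - b * i) := by rw [hw, hcw]
    _ = a ^ 2 - b ^ 2 * (i * i) := by ring
    _ = a ^ 2 + b ^ 2 := by rw [hi']; ring

/-- A finite sum of squares of fixed elements is the square of a fixed element. -/
theorem exists_fixed_sq_eq_sum (h2 : (2 : K) ≠ 0) (c : K ≃+* K) (hc : ∀ x, c (c x) = x)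
    (hne : ∃ x, c x ≠ x) {ι : Type*} (s : Finset ι) (f : ι → K) (hf : ∀ j ∈ s, c (f j) = f j) :
    ∃ t : K, c t = t ∧ t ^ 2 = ∑ j ∈ s, f j ^ 2 := by
  classical
  induction s using Finset.induction_on with
  | empty => exact ⟨0, map_zero c, by simp⟩
  | insert a s ha ih =>
    obtain ⟨t, ht, ht2⟩ := ih (fun j hj => hf j (Finset.mem_insert_of_mem hj))
    obtain ⟨u, hu, hu2⟩ := exists_fixed_sq_eq_add h2 c hc hne (f a) t
      (hf a (Finset.mem_insert_self a s)) ht
    refine ⟨u, hu, ?_⟩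
    rw [Finset.sum_insert ha, hu2, ht2]

/-- A nontrivial `p`-th root of unity, `p` odd, is not fixed by an involution `c ≠ 1`. -/
theorem ne_of_pow_prime_eq_one (h2 : (2 : K) ≠ 0) (c : K ≃+* K) (hc : ∀ x, c (c x) = x)
    (hne : ∃ x, c x ≠ x) (p : ℕ) (hp : Odd p) (ζ : K) (hζ : ζ ^ p = 1) (hζ1 : ζ ≠ 1) :
    c ζ ≠ ζ := by
  intro hfix
  obtain ⟨m, hm⟩ := hp
  -- `ζ ^ k = (ζ ^ (k * (m + 1))) ^ 2`
  have hsq : ∀ k : ℕ, ζ ^ k = (ζ ^ (k * (m + 1))) ^ 2 := by
    intro k
    rw [← pow_mul]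
    have : k * (m + 1) * 2 = k + p * k := by rw [hm]; ring
    rw [this, pow_add, pow_mul, hζ, one_pow, mul_one]
  -- the geometric sum
  have hgeom : ∑ k ∈ Finset.range p, ζ ^ k = 0 := by
    have h := mul_geom_sum ζ p
    rw [hζ, sub_self] at h
    rcases mul_eq_zero.mp h with h | h
    · exact absurd (sub_eq_zero.mp h) hζ1
    · exact h
  have hp1 : p = (2 * m) + 1 := hm
  have hsum : ∑ k ∈ Finset.range (2 * m), ζ ^ (k + 1) = -1 := by
    rw [hp1, Finset.sum_range_succ'] at hgeom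
    rw [pow_zero] at hgeom
    linear_combination hgeom
  have hsum' : ∑ k ∈ Finset.range (2 * m), (ζ ^ ((k + 1) * (m + 1))) ^ 2 = -1 := by
    rw [← hsum]
    exact Finset.sum_congr rfl (fun k _ => (hsq (k + 1)).symm)
  obtain ⟨t, ht, ht2⟩ := exists_fixed_sq_eq_sum h2 c hc hne (Finset.range (2 * m))
    (fun k => ζ ^ ((k + 1) * (m + 1))) (fun k _ => by rw [map_pow, hfix])
  rw [hsum'] at ht2
  exact neg_one_not_sq_fixed h2 c hc hne t (by rw [← sq]; exact ht2) ht

/-- **An involution `c ≠ 1` of an algebraically closed field inverts the roots of unity of odd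
prime-power order.** -/
theorem involution_mul_self_eq_one (h2 : (2 : K) ≠ 0) (c : K ≃+* K) (hc : ∀ x, c (c x) = x)
    (hne : ∃ x, c x ≠ x) (p : ℕ) (hp : p.Prime) (hp2 : p ≠ 2) (n : ℕ) (μ : K)
    (hμ : μ ^ p ^ n = 1) : μ * c μ = 1 := by
  by_contra hν
  set ν : K := μ * c μ with hνdef
  have hνfix : c ν = ν := norm_fixed c hc μ
  have hνpow : ν ^ p ^ n = 1 := by
    rw [hνdef, mul_pow, ← map_pow, hμ, map_one, mul_one]
  -- the order of `ν` is `p ^ (j + 1)`
  have hord : orderOf ν ∣ p ^ n := orderOf_dvd_of_pow_eq_one hνpow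
  obtain ⟨j, -, hj⟩ := (Nat.dvd_prime_pow hp).mp hord
  have hj0 : j ≠ 0 := by
    rintro rfl
    rw [pow_zero, orderOf_eq_one_iff] at hj
    exact hν hj
  obtain ⟨i, rfl⟩ := Nat.exists_eq_succ_of_ne_zero hj0
  set ζ : K := ν ^ p ^ i with hζdef
  have hζp : ζ ^ p = 1 := by
    rw [hζdef, ← pow_mul, ← pow_succ, ← hj]
    exact pow_orderOf_eq_one ν
  have hζ1 : ζ ≠ 1 := by
    intro h
    have h1 : orderOf ν ∣ p ^ i := orderOf_dvd_of_pow_eq_one h
    rw [hj] at h1
    have h2' : p ^ (i + 1) ≤ p ^ i := Nat.le_of_dvd (pow_pos hp.pos i) h1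
    have h3 : p ^ i < p ^ (i + 1) := Nat.pow_lt_pow_right hp.one_lt (Nat.lt_succ_self i)
    omega
  have hζfix : c ζ = ζ := by rw [hζdef, map_pow, hνfix]
  exact ne_of_pow_prime_eq_one h2 c hc hne p (hp.odd_of_ne_two hp2) ζ hζp hζ1 hζfix

end Core

end Fermat.Agent.S59.G4.H178

end
-- ===== PACK-END S59/G4/H178/Involution.lean

-- ===== PACK-BEGIN S59/H307/GlueMat.lean
section


/-!
# S59 / layer G4, piece GLUE (helper307): descent of a 2-dimensional representation to a subring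
# of a product — matrix level

Setting (Wiles, Carayol): `T` a local ring in which `2` is a unit, `ψ i : T →+* O i` a jointly
injective family of local homomorphisms to local rings, `m i : G →* M₂(O i)` representations whose
traces come from `T` (`ψ i (τ σ) = tr (m i σ)`), `c ∈ G` an involution with `τ c = 0` (complex
conjugation), and one of the `m i` "residually irreducible" in the weak matrix form `hirr` (in every
basis the two off-diagonal entries are units for suitable group elements).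

Conclusion (`exists_glued`): there is `M : G →* M₂(T)` with `tr (M σ) = τ σ` and invertible `P i`
with `ψ i (M σ) = (P i)⁻¹ m i σ (P i)` for all `i`, `σ`.

Everything is explicit `2 × 2` matrix algebra: in an eigenbasis of `c` the diagonal entries of
`m i σ` are `(tr σ ± tr cσ)/2`, the products `b(σ) c(σ')` are `a(σσ') - a(σ) a(σ')`, and after
normalising `b(σ₁) = 1` all entries are images of elements of `T`.
-/

set_option autoImplicit false
set_option linter.unusedSectionVars false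
set_option linter.unusedVariables false

namespace Fermat.Agent.S59.H307

open Matrix

section Mat2

variable {A : Type*} [CommRing A]

theorem mat2_ext {M N : Matrix (Fin 2) (Fin 2) A} (h00 : M 0 0 = N 0 0) (h01 : M 0 1 = N 0 1)
    (h10 : M 1 0 = N 1 0) (h11 : M 1 1 = N 1 1) : M = N := by
  ext i j
  fin_cases i <;> fin_cases j
  · exact h00
  · exact h01
  · exact h10
  · exact h11

theorem mat2_mul_apply (M N : Matrix (Fin 2) (Fin 2) A) (i j : Fin 2) :
    (M * N) i j = M i 0 * N 0 j + M i 1 * N 1 j := by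
  rw [Matrix.mul_apply, Fin.sum_univ_two]

theorem mat2_of_00 (a b c d : A) : (!![a, b; c, d] : Matrix (Fin 2) (Fin 2) A) 0 0 = a := rfl
theorem mat2_of_01 (a b c d : A) : (!![a, b; c, d] : Matrix (Fin 2) (Fin 2) A) 0 1 = b := rfl
theorem mat2_of_10 (a b c d : A) : (!![a, b; c, d] : Matrix (Fin 2) (Fin 2) A) 1 0 = c := rfl
theorem mat2_of_11 (a b c d : A) : (!![a, b; c, d] : Matrix (Fin 2) (Fin 2) A) 1 1 = d := rfl

theorem mat2_one_00 : (1 : Matrix (Fin 2) (Fin 2) A) 0 0 = 1 := rfl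
theorem mat2_one_01 : (1 : Matrix (Fin 2) (Fin 2) A) 0 1 = 0 := rfl
theorem mat2_one_10 : (1 : Matrix (Fin 2) (Fin 2) A) 1 0 = 0 := rfl
theorem mat2_one_11 : (1 : Matrix (Fin 2) (Fin 2) A) 1 1 = 1 := rfl

/-- The diagonal matrix `diag(1, u)`. -/
def dg (u : A) : Matrix (Fin 2) (Fin 2) A := !![1, 0; 0, u]

theorem dg_mul_dg (u v : A) : dg u * dg v = dg (u * v) := by
  apply mat2_ext <;> simp only [dg, mat2_mul_apply, mat2_of_00, mat2_of_01, mat2_of_10,
    mat2_of_11] <;> ring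

theorem dg_one : dg (1 : A) = 1 := by
  apply mat2_ext <;> simp only [dg, mat2_of_00, mat2_of_01, mat2_of_10,
    mat2_of_11, mat2_one_00, mat2_one_01, mat2_one_10, mat2_one_11]

theorem dg_mul_mul_dg (v u : A) (M : Matrix (Fin 2) (Fin 2) A) :
    dg v * M * dg u = !![M 0 0, M 0 1 * u; v * M 1 0, v * M 1 1 * u] := by
  apply mat2_ext <;> simp only [dg, mat2_mul_apply, mat2_of_00, mat2_of_01, mat2_of_10,
    mat2_of_11] <;> ring

theorem dgneg_mul (M : Matrix (Fin 2) (Fin 2) A) :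
    dg (-1) * M = !![M 0 0, M 0 1; - M 1 0, - M 1 1] := by
  apply mat2_ext <;> simp only [dg, mat2_mul_apply, mat2_of_00, mat2_of_01, mat2_of_10,
    mat2_of_11] <;> ring

/-- A trace-zero involution in `M₂(A)`, `A` local with `2` invertible, is conjugate to
`diag(1, -1)`. -/
theorem exists_conj_diag [IsLocalRing A] (h2 : IsUnit (2 : A)) (C : Matrix (Fin 2) (Fin 2) A)
    (hC : C * C = 1) (htr : C.trace = 0) :
    ∃ P Q : Matrix (Fin 2) (Fin 2) A, P * Q = 1 ∧ Q * P = 1 ∧ Q * C * P = dg (-1) := by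
  have hw : C 1 1 = - C 0 0 := by
    have := htr
    rw [Matrix.trace_fin_two] at this
    linear_combination this
  have h00 : C 0 0 * C 0 0 + C 0 1 * C 1 0 = 1 := by
    have := congrFun (congrFun hC 0) 0
    rw [mat2_mul_apply] at this
    exact this
  have key : ∀ P : Matrix (Fin 2) (Fin 2) A, IsUnit P.det → C * P = P * dg (-1) →
      ∃ P Q : Matrix (Fin 2) (Fin 2) A, P * Q = 1 ∧ Q * P = 1 ∧ Q * C * P = dg (-1) := by
    intro P hP hCP
    refine ⟨P, P⁻¹, Matrix.mul_nonsing_inv P hP, Matrix.nonsing_inv_mul P hP, ?_⟩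
    rw [Matrix.mul_assoc, hCP, ← Matrix.mul_assoc, Matrix.nonsing_inv_mul P hP, Matrix.one_mul]
  have hsum : IsUnit ((1 + C 0 0) + (1 - C 0 0)) := by
    have : (1 + C 0 0) + (1 - C 0 0) = 2 := by ring
    rw [this]; exact h2
  rcases IsLocalRing.isUnit_or_isUnit_of_isUnit_add hsum with hu | hu
  · -- `1 + x` is a unit
    refine key !![1 + C 0 0, -C 0 1; C 1 0, 1 + C 0 0] ?_ ?_
    · rw [Matrix.det_fin_two_of]
      have : (1 + C 0 0) * (1 + C 0 0) - -C 0 1 * C 1 0 = 2 * (1 + C 0 0) := by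
        linear_combination h00
      rw [this]; exact h2.mul hu
    · apply mat2_ext <;> simp only [dg, mat2_mul_apply, mat2_of_00, mat2_of_01, mat2_of_10,
        mat2_of_11, hw]
      · linear_combination h00
      · ring
      · ring
      · linear_combination (-1 : A) * h00
  · -- `1 - x` is a unit
    refine key !![C 0 1, 1 - C 0 0; 1 - C 0 0, -C 1 0] ?_ ?_
    · rw [Matrix.det_fin_two_of]
      have : C 0 1 * -C 1 0 - (1 - C 0 0) * (1 - C 0 0) = -(2 * (1 - C 0 0)) := by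
        linear_combination (-1 : A) * h00
      rw [this]; exact (h2.mul hu).neg
    · apply mat2_ext <;> simp only [dg, mat2_mul_apply, mat2_of_00, mat2_of_01, mat2_of_10,
        mat2_of_11, hw]
      · ring
      · linear_combination (-1 : A) * h00
      · linear_combination h00
      · ring

end Mat2

section Conj

variable {G : Type*} [Monoid G] {A : Type*} [CommRing A]

/-- Conjugate of a matrix representation by an invertible matrix. -/
def conjHom (m : G →* Matrix (Fin 2) (Fin 2) A) (P Q : Matrix (Fin 2) (Fin 2) A)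
    (hPQ : P * Q = 1) (hQP : Q * P = 1) : G →* Matrix (Fin 2) (Fin 2) A where
  toFun σ := Q * m σ * P
  map_one' := by rw [map_one, Matrix.mul_one, hQP]
  map_mul' σ σ' := by
    rw [map_mul]
    calc Q * (m σ * m σ') * P = Q * m σ * (1 : Matrix (Fin 2) (Fin 2) A) * (m σ' * P) := by
          simp only [Matrix.mul_assoc, Matrix.one_mul]
      _ = Q * m σ * P * (Q * m σ' * P) := by
          rw [← hPQ]; simp only [Matrix.mul_assoc]

theorem conjHom_apply (m : G →* Matrix (Fin 2) (Fin 2) A) (P Q : Matrix (Fin 2) (Fin 2) A)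
    (hPQ : P * Q = 1) (hQP : Q * P = 1) (σ : G) : conjHom m P Q hPQ hQP σ = Q * m σ * P := rfl

theorem trace_conj (M P Q : Matrix (Fin 2) (Fin 2) A) (hPQ : P * Q = 1) :
    (Q * M * P).trace = M.trace := by
  rw [Matrix.trace_mul_comm, ← Matrix.mul_assoc, hPQ, Matrix.one_mul]

end Conj

section Glue

variable {G : Type*} [Group G] {T : Type*} [CommRing T] [IsLocalRing T]
  {ι : Type*} {O : ι → Type*} [∀ i, CommRing (O i)] [∀ i, IsLocalRing (O i)]

/-- Joint injectivity passes to matrices. -/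
theorem mat_eq_of_forall_map_eq (ψ : ∀ i, T →+* O i)
    (hinj : ∀ t : T, (∀ i, ψ i t = 0) → t = 0) {X Y : Matrix (Fin 2) (Fin 2) T}
    (h : ∀ i, X.map (ψ i) = Y.map (ψ i)) : X = Y := by
  ext j k
  rw [← sub_eq_zero]
  refine hinj _ fun i => ?_
  have := congrFun (congrFun (h i) j) k
  rw [Matrix.map_apply, Matrix.map_apply] at this
  rw [map_sub, this, sub_self]

/-- **Gluing, diagonalised form.**  If all `m i c` are equal to `diag(1, -1)` and the off-diagonal
entries of `m i₀` take unit values, then the `m i` descend, after rescaling the second basis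
vector, to a representation over `T`. -/
theorem exists_glued_of_diag (ψ : ∀ i, T →+* O i) (hloc : ∀ i, IsLocalHom (ψ i))
    (hinj : ∀ t : T, (∀ i, ψ i t = 0) → t = 0) (h2 : IsUnit (2 : T))
    (m : ∀ i, G →* Matrix (Fin 2) (Fin 2) (O i)) (τ : G → T)
    (hτ : ∀ i σ, ψ i (τ σ) = (m i σ).trace) (c : G) (hc : ∀ i, m i c = dg (-1))
    (i₀ : ι) (σ₁ σ₂ : G) (h₁ : IsUnit (m i₀ σ₁ 0 1)) (h₂ : IsUnit (m i₀ σ₂ 1 0)) :
    ∃ M : G →* Matrix (Fin 2) (Fin 2) T, (∀ σ, (M σ).trace = τ σ) ∧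
      ∀ i, ∃ u v : O i, u * v = 1 ∧ ∀ σ, (M σ).map (ψ i) = dg v * m i σ * dg u := by
  classical
  obtain ⟨h, hh⟩ := h2.exists_right_inv
  -- entries of `m i (c σ)`
  have hcσ : ∀ i σ, m i (c * σ) = !![m i σ 0 0, m i σ 0 1; - m i σ 1 0, - m i σ 1 1] := by
    intro i σ
    rw [map_mul, hc i, dgneg_mul]
  have htr1 : ∀ i σ, ψ i (τ σ) = m i σ 0 0 + m i σ 1 1 := by
    intro i σ; rw [hτ, Matrix.trace_fin_two]
  have htr2 : ∀ i σ, ψ i (τ (c * σ)) = m i σ 0 0 - m i σ 1 1 := by
    intro i σ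
    rw [hτ, Matrix.trace_fin_two, hcσ, mat2_of_00, mat2_of_11]; ring
  have hψh : ∀ i, 2 * ψ i h = 1 := by
    intro i
    have := congrArg (ψ i) hh
    rwa [map_mul, map_one, map_ofNat] at this
  -- the diagonal entries
  obtain ⟨aT, haT⟩ : ∃ aT : G → T, ∀ σ, aT σ = h * (τ σ + τ (c * σ)) := ⟨_, fun _ => rfl⟩
  obtain ⟨dT, hdT⟩ : ∃ dT : G → T, ∀ σ, dT σ = h * (τ σ - τ (c * σ)) := ⟨_, fun _ => rfl⟩
  have hA : ∀ i σ, ψ i (aT σ) = m i σ 0 0 := by
    intro i σ
    rw [haT, map_mul, map_add, htr2, htr1]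
    linear_combination (m i σ 0 0) * hψh i
  have hD : ∀ i σ, ψ i (dT σ) = m i σ 1 1 := by
    intro i σ
    rw [hdT, map_mul, map_sub, htr2, htr1]
    linear_combination (m i σ 1 1) * hψh i
  -- products of off-diagonal entries
  obtain ⟨xT, hxT⟩ : ∃ xT : G → G → T, ∀ σ σ', xT σ σ' = aT (σ * σ') - aT σ * aT σ' :=
    ⟨_, fun _ _ => rfl⟩
  have hX : ∀ i σ σ', ψ i (xT σ σ') = m i σ 0 1 * m i σ' 1 0 := by
    intro i σ σ'
    rw [hxT, map_sub, map_mul, hA, hA, hA, map_mul, mat2_mul_apply]; ring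
  -- the unit
  have hunit : IsUnit (xT σ₁ σ₂) := by
    have := hloc i₀
    apply isUnit_of_map_unit (ψ i₀)
    rw [hX]; exact h₁.mul h₂
  obtain ⟨w, hw⟩ := hunit.exists_right_inv
  have hw' : ∀ i, m i σ₁ 0 1 * (m i σ₂ 1 0 * ψ i w) = 1 := by
    intro i
    have := congrArg (ψ i) hw
    rw [map_mul, map_one, hX] at this
    rw [← mul_assoc]; exact this
  obtain ⟨bT, hbT⟩ : ∃ bT : G → T, ∀ σ, bT σ = xT σ σ₂ * w := ⟨_, fun _ => rfl⟩
  obtain ⟨cT, hcT⟩ : ∃ cT : G → T, ∀ σ, cT σ = xT σ₁ σ := ⟨_, fun _ => rfl⟩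
  have hB : ∀ i σ, ψ i (bT σ) = m i σ 0 1 * (m i σ₂ 1 0 * ψ i w) := by
    intro i σ
    rw [hbT, map_mul, hX]; ring
  have hCc : ∀ i σ, ψ i (cT σ) = m i σ₁ 0 1 * m i σ 1 0 := by
    intro i σ
    rw [hcT, hX]
  obtain ⟨Mf, hMf⟩ : ∃ Mf : G → Matrix (Fin 2) (Fin 2) T,
      ∀ σ, Mf σ = !![aT σ, bT σ; cT σ, dT σ] := ⟨_, fun _ => rfl⟩
  have hM : ∀ i σ, (Mf σ).map (ψ i) =
      dg (m i σ₁ 0 1) * m i σ * dg (m i σ₂ 1 0 * ψ i w) := by
    intro i σ
    rw [dg_mul_mul_dg]
    apply mat2_ext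
    · rw [Matrix.map_apply, mat2_of_00, hMf, mat2_of_00, hA]
    · rw [Matrix.map_apply, mat2_of_01, hMf, mat2_of_01, hB]
    · rw [Matrix.map_apply, mat2_of_10, hMf, mat2_of_10, hCc]
    · rw [Matrix.map_apply, mat2_of_11, hMf, mat2_of_11, hD]
      linear_combination (-(m i σ 1 1)) * hw' i
  have hUV : ∀ i, dg (m i σ₂ 1 0 * ψ i w) * dg (m i σ₁ 0 1) = 1 := by
    intro i
    rw [dg_mul_dg, mul_comm, hw' i, dg_one]
  have hVU : ∀ i, dg (m i σ₁ 0 1) * dg (m i σ₂ 1 0 * ψ i w) = 1 := by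
    intro i
    rw [dg_mul_dg, hw' i, dg_one]
  have hone : Mf 1 = 1 := by
    apply mat_eq_of_forall_map_eq ψ hinj
    intro i
    rw [hM, map_one, Matrix.mul_one, hVU]
    exact (Matrix.map_one (ψ i) (map_zero _) (map_one _)).symm
  have hmul : ∀ σ σ', Mf (σ * σ') = Mf σ * Mf σ' := by
    intro σ σ'
    apply mat_eq_of_forall_map_eq ψ hinj
    intro i
    rw [Matrix.map_mul, hM, hM, hM, map_mul]
    calc dg (m i σ₁ 0 1) * (m i σ * m i σ') * dg (m i σ₂ 1 0 * ψ i w)
        = dg (m i σ₁ 0 1) * m i σ * (1 : Matrix (Fin 2) (Fin 2) (O i)) *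
            (m i σ' * dg (m i σ₂ 1 0 * ψ i w)) := by
          simp only [Matrix.mul_assoc, Matrix.one_mul]
      _ = _ := by
          rw [← hUV i]; simp only [Matrix.mul_assoc]
  refine ⟨{ toFun := Mf, map_one' := hone, map_mul' := hmul }, ?_, ?_⟩
  · intro σ
    show (Mf σ).trace = τ σ
    rw [Matrix.trace_fin_two, hMf, mat2_of_00, mat2_of_11, haT, hdT]
    linear_combination (τ σ) * hh
  · intro i
    exact ⟨m i σ₂ 1 0 * ψ i w, m i σ₁ 0 1, by rw [mul_comm]; exact hw' i, fun σ => hM i σ⟩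

/-- **Gluing, matrix form.** -/
theorem exists_glued (ψ : ∀ i, T →+* O i) (hloc : ∀ i, IsLocalHom (ψ i))
    (hinj : ∀ t : T, (∀ i, ψ i t = 0) → t = 0) (h2 : IsUnit (2 : T))
    (m : ∀ i, G →* Matrix (Fin 2) (Fin 2) (O i)) (τ : G → T)
    (hτ : ∀ i σ, ψ i (τ σ) = (m i σ).trace) (c : G) (hcc : c * c = 1) (hτc : τ c = 0)
    (i₀ : ι)
    (hirr : ∀ P Q : Matrix (Fin 2) (Fin 2) (O i₀), P * Q = 1 → Q * P = 1 →
      (∃ σ, IsUnit ((Q * m i₀ σ * P) 0 1)) ∧ (∃ σ, IsUnit ((Q * m i₀ σ * P) 1 0))) :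
    ∃ M : G →* Matrix (Fin 2) (Fin 2) T, (∀ σ, (M σ).trace = τ σ) ∧
      ∀ i, ∃ P Q : Matrix (Fin 2) (Fin 2) (O i), P * Q = 1 ∧ Q * P = 1 ∧
        ∀ σ, (M σ).map (ψ i) = Q * m i σ * P := by
  classical
  have h2' : ∀ i, IsUnit (2 : O i) := by
    intro i
    have := h2.map (ψ i)
    rwa [map_ofNat] at this
  have hex : ∀ i, ∃ P Q : Matrix (Fin 2) (Fin 2) (O i),
      P * Q = 1 ∧ Q * P = 1 ∧ Q * m i c * P = dg (-1) := by
    intro i
    refine exists_conj_diag (h2' i) (m i c) ?_ ?_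
    · rw [← map_mul, hcc, map_one]
    · rw [← hτ, hτc, map_zero]
  choose P Q hPQ hQP hD using hex
  obtain ⟨⟨σ₁, h₁⟩, ⟨σ₂, h₂⟩⟩ := hirr (P i₀) (Q i₀) (hPQ i₀) (hQP i₀)
  obtain ⟨M, hMtr, hM⟩ := exists_glued_of_diag ψ hloc hinj h2
    (fun i => conjHom (m i) (P i) (Q i) (hPQ i) (hQP i)) τ
    (fun i σ => by rw [conjHom_apply, trace_conj _ _ _ (hPQ i)]; exact hτ i σ) c
    (fun i => hD i) i₀ σ₁ σ₂ h₁ h₂
  refine ⟨M, hMtr, fun i => ?_⟩
  obtain ⟨u, v, huv, hMi⟩ := hM i
  refine ⟨P i * dg u, dg v * Q i, ?_, ?_, fun σ => ?_⟩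
  · calc P i * dg u * (dg v * Q i) = P i * (dg u * dg v) * Q i := by
          simp only [Matrix.mul_assoc]
      _ = 1 := by rw [dg_mul_dg, huv, dg_one, Matrix.mul_one, hPQ]
  · calc dg v * Q i * (P i * dg u) = dg v * (Q i * P i) * dg u := by
          simp only [Matrix.mul_assoc]
      _ = 1 := by rw [hQP, Matrix.mul_one, dg_mul_dg, mul_comm, huv, dg_one]
  · rw [hMi σ, conjHom_apply]
    simp only [Matrix.mul_assoc]

end Glue

end Fermat.Agent.S59.H307

end
-- ===== PACK-END S59/H307/GlueMat.lean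

-- ===== PACK-BEGIN S52/H311/Core.lean
section





/-!
# Exact degree doubling for `addSubMap` on primitive polynomial triples (S52, A2a core)

`F` a field, `W` an elliptic curve over `F`.  For a triple `p : Fin 3 → F[X]` generating the unit
ideal, the triple `q = addSubMap W (p)` again generates the unit ideal and
`maxDeg q = 2 * maxDeg p`.  Also the Gauss lemma for the product of two linear forms.
-/

set_option autoImplicit false

namespace Fermat.Agent.S52.H311

open Polynomial WeierstrassCurve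

variable {F : Type*} [Field F]

/-- maximal `natDegree` of the entries of a triple -/
noncomputable def maxDeg (p : Fin 3 → F[X]) : ℕ :=
  max (p 0).natDegree (max (p 1).natDegree (p 2).natDegree)

lemma natDegree_le_maxDeg (p : Fin 3 → F[X]) (i : Fin 3) : (p i).natDegree ≤ maxDeg p := by
  fin_cases i <;> simp [maxDeg]

lemma maxDeg_le {p : Fin 3 → F[X]} {n : ℕ} (h : ∀ i, (p i).natDegree ≤ n) : maxDeg p ≤ n := by
  simp only [maxDeg, max_le_iff]
  exact ⟨h 0, h 1, h 2⟩

lemma exists_natDegree_eq_maxDeg (p : Fin 3 → F[X]) : ∃ i, (p i).natDegree = maxDeg p := by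
  unfold maxDeg
  rcases max_cases (p 0).natDegree (max (p 1).natDegree (p 2).natDegree) with h | h
  · exact ⟨0, h.1.symm⟩
  · rcases max_cases (p 1).natDegree (p 2).natDegree with h' | h'
    · exact ⟨1, by rw [h.1, h'.1]⟩
    · exact ⟨2, by rw [h.1, h'.1]⟩

/-- a triple is primitive if it generates the unit ideal -/
def IsPrim (p : Fin 3 → F[X]) : Prop := Ideal.span (Set.range p) = ⊤

/-- degree bound for the value of a multivariate polynomial with constant coefficients -/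
lemma natDegree_aeval_le {σ : Type*} (φ : MvPolynomial σ F) (p : σ → F[X]) (D : ℕ)
    (hp : ∀ i, (p i).natDegree ≤ D) :
    (MvPolynomial.aeval p φ).natDegree ≤ φ.totalDegree * D := by
  classical
  rw [MvPolynomial.aeval_def, MvPolynomial.eval₂_eq]
  refine natDegree_sum_le_of_forall_le _ _ fun m hm => ?_
  have h1 : (∏ i ∈ m.support, p i ^ m i).natDegree ≤ ∑ i ∈ m.support, m i * D := by
    refine (natDegree_prod_le _ _).trans (Finset.sum_le_sum fun i _ => ?_)
    exact (natDegree_pow_le).trans (Nat.mul_le_mul_left _ (hp i))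
  have h2 : ∑ i ∈ m.support, m i * D ≤ φ.totalDegree * D := by
    rw [← Finset.sum_mul]
    exact Nat.mul_le_mul_right _ (MvPolynomial.le_totalDegree hm)
  calc _ ≤ (algebraMap F F[X] (φ.coeff m)).natDegree + (∏ i ∈ m.support, p i ^ m i).natDegree := by
        exact natDegree_mul_le
    _ ≤ 0 + φ.totalDegree * D := by
        gcongr
        · simp
        · exact h1.trans h2
    _ = _ := by simp

/-! ### naturality of `addSubMap` and `addSubMapCoeff` -/

section naturality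

variable {R S : Type*} [CommRing R] [CommRing S] (f : R →+* S) (W : WeierstrassCurve R)

lemma addSubMap_map (i : Fin 3) :
    addSubMap (W.map f) i = MvPolynomial.map f (addSubMap W i) := by
  fin_cases i <;> simp [addSubMap, map_ofNat]

lemma addSubMapCoeff_map (ij : Fin 3 × Fin 3) :
    addSubMapCoeff (W.map f) ij = MvPolynomial.map f (addSubMapCoeff W ij) := by
  fin_cases ij <;> simp [addSubMapCoeff, map_ofNat]

end naturality

variable (W : WeierstrassCurve F)

/-- `addSubMap` applied to a polynomial triple -/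
noncomputable def asmP (p : Fin 3 → F[X]) : Fin 3 → F[X] :=
  fun i => MvPolynomial.aeval p (addSubMap W i)

lemma asmP_eq_eval (p : Fin 3 → F[X]) (i : Fin 3) :
    asmP W p i = (addSubMap (W.map (C : F →+* F[X])) i).eval p := by
  rw [asmP, addSubMap_map, MvPolynomial.eval_map, MvPolynomial.aeval_def]
  rfl

lemma natDegree_asmP_le (p : Fin 3 → F[X]) (i : Fin 3) :
    (asmP W p i).natDegree ≤ 2 * maxDeg p := by
  refine (natDegree_aeval_le _ p (maxDeg p) (natDegree_le_maxDeg p)).trans ?_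
  exact Nat.mul_le_mul_right _ (isHomogeneous_addSubMap W i).totalDegree_le

variable [W.IsElliptic]

/-- the key identity of Mathlib, over `F[X]` -/
lemma asmP_condition (p : Fin 3 → F[X]) (i : Fin 3) :
    ∃ c : Fin 3 → F[X], (∀ j, (c j).natDegree ≤ 2 * maxDeg p) ∧
      ∑ j, c j * asmP W p j = p i ^ 4 := by
  have key := addSubMapCoeff_condition (W.map (C : F →+* F[X])) p i
  refine ⟨fun j => (MvPolynomial.C (↑(W.map (C : F →+* F[X])).Δ'⁻¹ : F[X]) *
      addSubMapCoeff (W.map (C : F →+* F[X])) (i, j)).eval p, fun j => ?_, ?_⟩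
  · show ((MvPolynomial.C (↑(W.map (C : F →+* F[X])).Δ'⁻¹ : F[X]) *
      addSubMapCoeff (W.map (C : F →+* F[X])) (i, j)).eval p).natDegree ≤ 2 * maxDeg p
    rw [MvPolynomial.eval_mul, MvPolynomial.eval_C, addSubMapCoeff_map, MvPolynomial.eval_map]
    have hu : ((↑(W.map (C : F →+* F[X])).Δ'⁻¹ : F[X])).natDegree = 0 :=
      natDegree_eq_zero_of_isUnit (Units.isUnit _)
    refine natDegree_mul_le.trans ?_
    rw [hu, zero_add]
    have := natDegree_aeval_le (addSubMapCoeff W (i, j)) p (maxDeg p) (natDegree_le_maxDeg p)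
    rw [MvPolynomial.aeval_def] at this
    refine this.trans ?_
    exact Nat.mul_le_mul_right _ (isHomogeneous_addSubMapCoeff W (i, j)).totalDegree_le
  · simp only [asmP_eq_eval]
    exact key

/-- **Primitivity is preserved.** -/
theorem IsPrim.asmP {p : Fin 3 → F[X]} (hp : IsPrim p) : IsPrim (asmP W p) := by
  unfold IsPrim at hp ⊢
  rw [← Ideal.radical_eq_top, eq_top_iff, ← hp, Ideal.span_le]
  rintro _ ⟨i, rfl⟩
  refine ⟨4, ?_⟩
  obtain ⟨c, -, hc⟩ := asmP_condition W p i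
  rw [← hc]
  refine Ideal.sum_mem _ fun j _ => Ideal.mul_mem_left _ _ (Ideal.subset_span ⟨j, rfl⟩)

/-- **Exact degree doubling.** -/
theorem maxDeg_asmP (p : Fin 3 → F[X]) : maxDeg (asmP W p) = 2 * maxDeg p := by
  refine le_antisymm (maxDeg_le (natDegree_asmP_le W p)) ?_
  obtain ⟨i, hi⟩ := exists_natDegree_eq_maxDeg p
  obtain ⟨c, hcdeg, hc⟩ := asmP_condition W p i
  have h4 : (p i ^ 4).natDegree = 4 * maxDeg p := by rw [natDegree_pow, hi]
  have hle : (p i ^ 4).natDegree ≤ 2 * maxDeg p + maxDeg (asmP W p) := by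
    rw [← hc]
    refine natDegree_sum_le_of_forall_le _ _ fun j _ => ?_
    exact natDegree_mul_le.trans (Nat.add_le_add (hcdeg j) (natDegree_le_maxDeg _ j))
  omega

end Fermat.Agent.S52.H311

end
-- ===== PACK-END S52/H311/Core.lean

-- ===== PACK-BEGIN A2/Alg/H34/Val.lean
section


/-!
# WALL A2 / ALG — the `w`-adic valuation at a component (helper34), Mathlib-only

`B` a noetherian domain, `p` a prime with `p B_p = w B_p` (elementwise: every `a ∈ p` satisfies
`a * s = w * a'` with `s ∉ p`).  Then every `b ≠ 0` is `w ^ k * a / t` with `a, t ∉ p`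
(`exists_pow_mul_eq`): `B_p` is a discrete valuation ring with uniformiser `w`.
-/

set_option autoImplicit false
set_option linter.unusedSectionVars false

namespace Fermat.Agent.A2.Alg.H34

open IsLocalRing

variable {B : Type*} [CommRing B] [IsDomain B] [IsNoetherianRing B]

theorem maximalIdeal_atPrime_eq_span (p : Ideal B) [hp : p.IsPrime] (w : B) (hw : w ∈ p)
    (hloc : ∀ a ∈ p, ∃ s, s ∉ p ∧ ∃ a', a * s = w * a') :
    maximalIdeal (Localization.AtPrime p) =
      Ideal.span {algebraMap B (Localization.AtPrime p) w} := by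
  rw [← Localization.AtPrime.map_eq_maximalIdeal]
  set L := Localization.AtPrime p with hL
  apply le_antisymm
  · rw [Ideal.map_le_iff_le_comap]
    intro a ha
    obtain ⟨s, hs, a', h⟩ := hloc a ha
    rw [Ideal.mem_comap, Ideal.mem_span_singleton']
    have hsu : IsUnit (algebraMap B L s) :=
      (IsLocalization.AtPrime.isUnit_to_map_iff _ p s).2 hs
    obtain ⟨v, hv⟩ := hsu
    refine ⟨algebraMap B L a' * (↑v⁻¹ : L), ?_⟩
    have h2 := congrArg (algebraMap B L) h
    rw [map_mul, map_mul, ← hv] at h2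
    calc algebraMap B L a' * (↑v⁻¹ : L) * algebraMap B L w
        = (algebraMap B L w * algebraMap B L a') * (↑v⁻¹ : L) := by ring
      _ = (algebraMap B L a * (↑v : L)) * (↑v⁻¹ : L) := by rw [h2]
      _ = algebraMap B L a := by rw [mul_assoc, Units.mul_inv, mul_one]
  · rw [Ideal.span_le, Set.singleton_subset_iff]
    exact Ideal.mem_map_of_mem _ hw

/-- `B_p` is a discrete valuation ring with uniformiser `w`, elementwise. -/
theorem exists_pow_mul_eq (p : Ideal B) [hp : p.IsPrime] (w : B) (hw : w ∈ p)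
    (hloc : ∀ a ∈ p, ∃ s, s ∉ p ∧ ∃ a', a * s = w * a')
    (b : B) (hb : b ≠ 0) : ∃ (k : ℕ) (a t : B), a ∉ p ∧ t ∉ p ∧ t * b = w ^ k * a := by
  set L := Localization.AtPrime p with hL
  have hinj : Function.Injective (algebraMap B L) :=
    IsLocalization.injective L p.primeCompl_le_nonZeroDivisors
  have : IsNoetherianRing L := IsLocalization.isNoetherianRing p.primeCompl L inferInstance
  have hm := maximalIdeal_atPrime_eq_span p w hw hloc
  have hkrull : ⨅ i, maximalIdeal L ^ i = ⊥ :=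
    Ideal.iInf_pow_eq_bot_of_isLocalRing _ (maximalIdeal.isMaximal L).ne_top
  have hφb : algebraMap B L b ≠ 0 := fun h => hb (hinj (by rw [h, map_zero]))
  have hex : ∃ k, algebraMap B L b ∉ maximalIdeal L ^ k := by
    by_contra hcon
    push Not at hcon
    apply hφb
    have : algebraMap B L b ∈ ⨅ i, maximalIdeal L ^ i := by
      rw [Ideal.mem_iInf]
      exact hcon
    rw [hkrull] at this
    exact this
  classical
  set k₀ := Nat.find hex with hk₀
  have hk₀spec : algebraMap B L b ∉ maximalIdeal L ^ k₀ := Nat.find_spec hex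
  have hk₀pos : k₀ ≠ 0 := by
    intro h0
    rw [h0, pow_zero, Ideal.one_eq_top] at hk₀spec
    exact hk₀spec Submodule.mem_top
  obtain ⟨k, hk⟩ := Nat.exists_eq_succ_of_ne_zero hk₀pos
  have hmem : algebraMap B L b ∈ maximalIdeal L ^ k := by
    by_contra hcon
    have := Nat.find_min' hex hcon
    omega
  rw [hm, Ideal.span_singleton_pow, Ideal.mem_span_singleton'] at hmem
  obtain ⟨y, hy⟩ := hmem
  obtain ⟨⟨a, t⟩, hat⟩ := IsLocalization.mk'_surjective p.primeCompl y
  simp only at hat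
  have htu : IsUnit (algebraMap B L t) :=
    (IsLocalization.AtPrime.isUnit_to_map_iff _ p t).2 t.2
  have hspec : y * algebraMap B L t = algebraMap B L a := by
    rw [← hat]
    exact IsLocalization.mk'_spec L a t
  refine ⟨k, a, t, ?_, t.2, ?_⟩
  · intro ha
    apply hk₀spec
    rw [hk, pow_succ]
    have hya : y ∈ maximalIdeal L := by
      have h1 : algebraMap B L a ∈ maximalIdeal L :=
        (IsLocalization.AtPrime.to_map_mem_maximal_iff L p a).2 ha
      rw [← hspec] at h1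
      rcases (maximalIdeal.isMaximal L).isPrime.mem_or_mem h1 with h | h
      · exact h
      · exact absurd htu ((IsLocalRing.mem_maximalIdeal _).1 h)
    have h1 : algebraMap B L w ^ k ∈ maximalIdeal L ^ k := by
      rw [hm, Ideal.span_singleton_pow]
      exact Ideal.mem_span_singleton_self _
    have h2 : algebraMap B L w ^ k * y ∈ maximalIdeal L ^ k * maximalIdeal L :=
      Ideal.mul_mem_mul h1 hya
    rw [← hy, mul_comm y]
    exact h2
  · apply hinj
    rw [map_mul, map_mul, map_pow, ← hspec, ← hy]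
    ring

end Fermat.Agent.A2.Alg.H34

end
-- ===== PACK-END A2/Alg/H34/Val.lean

-- ===== PACK-BEGIN S35/G/H199/NRCore.lean
section



/-!
# S35 / cell FROB, leaf NR (norm residues) — abstract core (author: helper502)

VERBATIM copy of `origin/helper502:Fermat/Agent/S35/H502/NRAbs.lean` (commit 81317922, author
helper502), re-namespaced to `Fermat.Agent.S35.G.H199.NR` so that the closure of
`S35/G/H199/ToricMod.lean` (leaf TORIC / GLUE of the (G') route) is self-contained on main.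

Mathlib-only.  Abstract form of step (e) of `origin/helper891:coord/S35-FROB-helper891.md`.

Setting: two fields `FM` (level `M'`) and `F` (level `N = M' q`), two embeddings `α β : FM →+* F`,
automorphisms `σM` of `FM` and `σ` of `F` (a Frobenius lift) commuting with `α`, `β`, valuation
subrings `VM ⊆ FM`, `V₁ V₂ ⊆ F` (the Gauss valuations `V∞`, `V₀`), constants `CM ⊆ FM`, `C ⊆ F`,
multiplicative "norm" maps `Nα Nβ : F →* FM`.

`GSplitAt V C m u` : `u ≡ c * y ^ m` modulo the maximal ideal of `V`, `c ∈ C` a constant unit, `y` a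
unit of `V` (i.e. the residue of `u` is trivial in `κ^× / (k^× (κ^×)^m)`).

Hypotheses (`NRSetting`), all elementwise:
* `comm_α`, `comm_β`, `norm_α`, `norm_β` : `σ` commutes with `α`, `β`, `Nα`, `Nβ`;
* `val_M`, `val₁`, `val₂` : `σM`, `σ` preserve the valuations;
* `unit_α`, `max_α` (at `V₁`), `unit_β`, `max_β` (at `V₂`) : `α`, `β` are local;
* `res_α`, `res_β` : residue degree one (`V₁` over `α VM`, `V₂` over `β VM`)   [A2 MOD leaf L11];
* `kron₁`, `kron₂` : semilinear Kronecker congruences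
  `β (σM b) ≡ (α b)^q mod 𝔪_{V₁}`, `α (σM b) ≡ (β b)^q mod 𝔪_{V₂}`       [A2 `H612.kron_inf/zero`];
* `normRes_α`, `normRes_β` : residue of the norm of a unit `g` of `V₁ ∩ V₂`:
  `Nα g ≡ x₁ x₂` if `α x₁ ≡ g mod 𝔪_{V₁}` and `α x₂ ≡ g^q mod 𝔪_{V₂}`      [leaf NORM];
* `const_σ`, `const_α`, `const_β` : constants are preserved.

Main theorem `gSplit_of_qNew` (NR): if `Nα f = c h^m`, `Nβ f = c' h'^m` (`f` is `q`-new), then
`g₂ := (φ - 1)² f = φ(g)/g`, `g := φ(f)/f`, `φ := σ²`, is `G`-split at `V₁` and at `V₂`.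
-/

set_option autoImplicit false

namespace Fermat.Agent.S35.G.H199.NR

section Cong

variable {K : Type*} [Field K] (V : ValuationSubring K)

theorem val_lt_one_trans {a b c : K} (h1 : V.valuation (a - b) < 1)
    (h2 : V.valuation (b - c) < 1) : V.valuation (a - c) < 1 := by
  have : a - c = (a - b) + (b - c) := by ring
  rw [this]
  exact Valuation.map_add_lt _ h1 h2

theorem val_lt_one_symm {a b : K} (h : V.valuation (a - b) < 1) : V.valuation (b - a) < 1 := by
  rw [← Valuation.map_neg, neg_sub]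
  exact h

theorem val_eq_one_of_cong {a b : K} (h : V.valuation (a - b) < 1) (hb : V.valuation b = 1) :
    V.valuation a = 1 := by
  have hlt : V.valuation (a - b) < V.valuation b := by
    rw [hb]
    exact h
  have h2 : V.valuation (a - b + b) = V.valuation b :=
    Valuation.map_add_eq_of_lt_right _ hlt
  rw [sub_add_cancel] at h2
  rw [h2, hb]

theorem val_le_one_of_cong {a b : K} (h : V.valuation (a - b) < 1) (hb : V.valuation b ≤ 1) :
    V.valuation a ≤ 1 := by
  have : a = (a - b) + b := by ring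
  rw [this]
  exact (Valuation.map_add_le_max' _ _ _).trans (max_le h.le hb)

theorem val_mul_lt_one_left {a b : K} (ha : V.valuation a < 1) (hb : V.valuation b ≤ 1) :
    V.valuation (a * b) < 1 := by
  rw [Valuation.map_mul]
  calc V.valuation a * V.valuation b ≤ V.valuation a * 1 := by gcongr
    _ = V.valuation a := mul_one _
    _ < 1 := ha

theorem val_mul_lt_one_right {a b : K} (ha : V.valuation a ≤ 1) (hb : V.valuation b < 1) :
    V.valuation (a * b) < 1 := by
  rw [mul_comm]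
  exact val_mul_lt_one_left V hb ha

theorem cong_mul {a a' b b' : K} (ha : V.valuation (a - a') < 1) (hb : V.valuation (b - b') < 1)
    (ha' : V.valuation a' ≤ 1) (hb1 : V.valuation b ≤ 1) :
    V.valuation (a * b - a' * b') < 1 := by
  have : a * b - a' * b' = (a - a') * b + a' * (b - b') := by ring
  rw [this]
  exact Valuation.map_add_lt _ (val_mul_lt_one_left V ha hb1) (val_mul_lt_one_right V ha' hb)

theorem cong_pow {a b : K} (h : V.valuation (a - b) < 1) (hb : V.valuation b ≤ 1) (n : ℕ)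
    (hn : 0 < n) : V.valuation (a ^ n - b ^ n) < 1 := by
  have ha : V.valuation a ≤ 1 := val_le_one_of_cong V h hb
  induction n with
  | zero => exact absurd hn (lt_irrefl 0)
  | succ k ih =>
    rcases Nat.eq_zero_or_pos k with rfl | hk
    · simpa using h
    · rw [pow_succ, pow_succ]
      refine cong_mul V (ih hk) h ?_ ha
      rw [Valuation.map_pow]
      exact pow_le_one₀ zero_le hb

theorem cong_pow' {a b : K} (h : V.valuation (a - b) < 1) (hb : V.valuation b ≤ 1) (n : ℕ) :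
    V.valuation (a ^ n - b ^ n) < 1 := by
  rcases Nat.eq_zero_or_pos n with rfl | hn
  · simp
  · exact cong_pow V h hb n hn

theorem val_inv_eq_one {a : K} (ha : V.valuation a = 1) : V.valuation a⁻¹ = 1 := by
  rw [map_inv₀, ha, inv_one]

theorem ne_zero_of_val_eq_one {a : K} (ha : V.valuation a = 1) : a ≠ 0 := by
  rintro rfl
  rw [Valuation.map_zero] at ha
  exact zero_ne_one ha

theorem cong_div {a a' b b' : K} (ha : V.valuation (a - a') < 1)
    (hb : V.valuation (b - b') < 1) (ha' : V.valuation a' ≤ 1) (hb1 : V.valuation b = 1)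
    (hb' : V.valuation b' = 1) : V.valuation (a / b - a' / b') < 1 := by
  have hb0 : b ≠ 0 := ne_zero_of_val_eq_one V hb1
  have hb'0 : b' ≠ 0 := ne_zero_of_val_eq_one V hb'
  have h1 : a / b - a' / b' = ((a - a') * b' - a' * (b - b')) * (b * b')⁻¹ := by
    field_simp
    ring
  rw [h1]
  refine val_mul_lt_one_left V ?_ ?_
  · exact Valuation.map_sub_lt _ (val_mul_lt_one_left V ha hb'.le)
      (val_mul_lt_one_right V ha' hb)
  · rw [map_inv₀, Valuation.map_mul, hb1, hb', mul_one, inv_one]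

theorem val_div_eq_one {a b : K} (ha : V.valuation a = 1) (hb : V.valuation b = 1) :
    V.valuation (a / b) = 1 := by
  rw [map_div₀, ha, hb, div_one]

theorem val_mul_eq_one {a b : K} (ha : V.valuation a = 1) (hb : V.valuation b = 1) :
    V.valuation (a * b) = 1 := by
  rw [Valuation.map_mul, ha, hb, mul_one]

theorem val_pow_eq_one {a : K} (ha : V.valuation a = 1) (n : ℕ) : V.valuation (a ^ n) = 1 := by
  rw [Valuation.map_pow, ha, one_pow]

end Cong

/-- `u` is **`G`-split at `V`**: `u ≡ c * y ^ m` modulo the maximal ideal of `V`, with `c ∈ C` a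
constant which is a unit of `V` and `y` a unit of `V`. -/
def GSplitAt {K : Type*} [Field K] (V : ValuationSubring K) (C : Subfield K) (m : ℕ) (u : K) :
    Prop :=
  ∃ c ∈ C, ∃ y : K, V.valuation c = 1 ∧ V.valuation y = 1 ∧ V.valuation (u - c * y ^ m) < 1

theorem GSplitAt.val_eq_one {K : Type*} [Field K] {V : ValuationSubring K} {C : Subfield K}
    {m : ℕ} {u : K} (h : GSplitAt V C m u) : V.valuation u = 1 := by
  obtain ⟨c, _, y, hc, hy, hu⟩ := h
  exact val_eq_one_of_cong V hu (val_mul_eq_one V hc (val_pow_eq_one V hy m))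

variable {FM F : Type*} [Field FM] [Field F]

/-- The abstract setting of leaf NR (see the module docstring). -/
structure NRSetting (q : ℕ) (α β : FM →+* F) (σM : FM ≃+* FM) (σ : F ≃+* F)
    (VM : ValuationSubring FM) (V₁ V₂ : ValuationSubring F) (CM : Subfield FM) (C : Subfield F)
    (Nα Nβ : F →* FM) : Prop where
  comm_α : ∀ a, σ (α a) = α (σM a)
  comm_β : ∀ a, σ (β a) = β (σM a)
  norm_α : ∀ g, Nα (σ g) = σM (Nα g)
  norm_β : ∀ g, Nβ (σ g) = σM (Nβ g)
  val_M : ∀ h, VM.valuation (σM h) = 1 ↔ VM.valuation h = 1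
  max_M : ∀ h, VM.valuation (σM h) < 1 ↔ VM.valuation h < 1
  ratio_M : ∀ h, h ≠ 0 → VM.valuation (σM h / h) = 1
  max₁ : ∀ f, V₁.valuation (σ f) < 1 ↔ V₁.valuation f < 1
  ratio₁ : ∀ f, f ≠ 0 → V₁.valuation (σ f / f) = 1
  max₂ : ∀ f, V₂.valuation (σ f) < 1 ↔ V₂.valuation f < 1
  ratio₂ : ∀ f, f ≠ 0 → V₂.valuation (σ f / f) = 1
  unit_α : ∀ a, VM.valuation a = 1 → V₁.valuation (α a) = 1
  max_α : ∀ a, VM.valuation a < 1 → V₁.valuation (α a) < 1
  unit_β : ∀ a, VM.valuation a = 1 → V₂.valuation (β a) = 1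
  max_β : ∀ a, VM.valuation a < 1 → V₂.valuation (β a) < 1
  res_α : ∀ g, V₁.valuation g = 1 → ∃ x, VM.valuation x = 1 ∧ V₁.valuation (α x - g) < 1
  res_β : ∀ g, V₂.valuation g = 1 → ∃ y, VM.valuation y = 1 ∧ V₂.valuation (β y - g) < 1
  kron₁ : ∀ b, VM.valuation b = 1 → V₁.valuation (β (σM b) - (α b) ^ q) < 1
  kron₂ : ∀ b, VM.valuation b = 1 → V₂.valuation (α (σM b) - (β b) ^ q) < 1
  normRes_α : ∀ g x₁ x₂, V₁.valuation g = 1 → V₂.valuation g = 1 →
    VM.valuation x₁ = 1 → VM.valuation x₂ = 1 →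
    V₁.valuation (α x₁ - g) < 1 → V₂.valuation (α x₂ - g ^ q) < 1 →
    VM.valuation (Nα g - x₁ * x₂) < 1
  normRes_β : ∀ g y₁ y₂, V₁.valuation g = 1 → V₂.valuation g = 1 →
    VM.valuation y₁ = 1 → VM.valuation y₂ = 1 →
    V₁.valuation (β y₁ - g ^ q) < 1 → V₂.valuation (β y₂ - g) < 1 →
    VM.valuation (Nβ g - y₁ * y₂) < 1
  const_σ : ∀ c ∈ CM, σM c ∈ CM
  const_α : ∀ c ∈ CM, α c ∈ C
  const_β : ∀ c ∈ CM, β c ∈ C

namespace NRSetting

variable {q : ℕ} {α β : FM →+* F} {σM : FM ≃+* FM} {σ : F ≃+* F}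
  {VM : ValuationSubring FM} {V₁ V₂ : ValuationSubring F} {CM : Subfield FM} {C : Subfield F}
  {Nα Nβ : F →* FM}

omit [Field FM] [Field F] in
theorem map_div_of_ne_zero {G H : Type*} [Field G] [Field H] (N : G →* H) (a b : G)
    (hb : b ≠ 0) : N (a / b) = N a / N b := by
  have hNb : N b ≠ 0 := by
    intro h0
    have h1 : N b * N b⁻¹ = 1 := by rw [← map_mul, mul_inv_cancel₀ hb, map_one]
    rw [h0, zero_mul] at h1
    exact zero_ne_one h1
  rw [eq_div_iff hNb, ← map_mul, div_mul_cancel₀ a hb]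

omit [Field FM] [Field F] in
theorem map_ne_zero_of_ne_zero {G H : Type*} [Field G] [Field H] (N : G →* H) {b : G}
    (hb : b ≠ 0) : N b ≠ 0 := by
  intro h0
  have h1 : N b * N b⁻¹ = 1 := by rw [← map_mul, mul_inv_cancel₀ hb, map_one]
  rw [h0, zero_mul] at h1
  exact zero_ne_one h1

/-- The norm of `g = σ²(f)/f` when `N f = c h^m`. -/
theorem norm_ratio (N : F →* FM) (hN : ∀ g, N (σ g) = σM (N g)) {f : F} (hf : f ≠ 0) {m : ℕ}
    {c h : FM} (hNf : N f = c * h ^ m) :
    N (σ (σ f) / f) = (σM (σM c) / c) * (σM (σM h) / h) ^ m := by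
  have hNf0 : N f ≠ 0 := map_ne_zero_of_ne_zero N hf
  have hc : c ≠ 0 := by
    rintro rfl
    rw [zero_mul] at hNf
    exact hNf0 hNf
  have hh : h ^ m ≠ 0 := by
    intro h0
    rw [h0, mul_zero] at hNf
    exact hNf0 hNf
  rw [map_div_of_ne_zero N _ _ hf, hN, hN, hNf, map_mul, map_mul, map_pow, map_pow, div_pow]
  field_simp

variable (S : NRSetting q α β σM σ VM V₁ V₂ CM C Nα Nβ)
include S

theorem val_ratio_sq_M {h : FM} (hh : h ≠ 0) : VM.valuation (σM (σM h) / h) = 1 := by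
  have h1 := S.ratio_M h hh
  have hσh : σM h ≠ 0 := (map_ne_zero_iff σM σM.injective).2 hh
  have h2 := S.ratio_M (σM h) hσh
  have : σM (σM h) / h = (σM (σM h) / σM h) * (σM h / h) := by
    field_simp
  rw [this]
  exact val_mul_eq_one VM h2 h1

theorem val_ratio_sq₁ {f : F} (hf : f ≠ 0) : V₁.valuation (σ (σ f) / f) = 1 := by
  have h1 := S.ratio₁ f hf
  have hσf : σ f ≠ 0 := (map_ne_zero_iff σ σ.injective).2 hf
  have h2 := S.ratio₁ (σ f) hσf
  have : σ (σ f) / f = (σ (σ f) / σ f) * (σ f / f) := by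
    field_simp
  rw [this]
  exact val_mul_eq_one V₁ h2 h1

theorem val_ratio_sq₂ {f : F} (hf : f ≠ 0) : V₂.valuation (σ (σ f) / f) = 1 := by
  have h1 := S.ratio₂ f hf
  have hσf : σ f ≠ 0 := (map_ne_zero_iff σ σ.injective).2 hf
  have h2 := S.ratio₂ (σ f) hσf
  have : σ (σ f) / f = (σ (σ f) / σ f) * (σ f / f) := by
    field_simp
  rw [this]
  exact val_mul_eq_one V₂ h2 h1

theorem cong_σM {a b : FM} (h : VM.valuation (a - b) < 1) :
    VM.valuation (σM a - σM b) < 1 := by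
  rw [← map_sub]
  exact (S.max_M _).2 h

theorem cong_σ₁ {a b : F} (h : V₁.valuation (a - b) < 1) : V₁.valuation (σ a - σ b) < 1 := by
  rw [← map_sub]
  exact (S.max₁ _).2 h

theorem cong_σ₂ {a b : F} (h : V₂.valuation (a - b) < 1) : V₂.valuation (σ a - σ b) < 1 := by
  rw [← map_sub]
  exact (S.max₂ _).2 h

theorem cong_α {a b : FM} (h : VM.valuation (a - b) < 1) : V₁.valuation (α a - α b) < 1 := by
  rw [← map_sub]
  exact S.max_α _ h

theorem cong_β {a b : FM} (h : VM.valuation (a - b) < 1) : V₂.valuation (β a - β b) < 1 := by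
  rw [← map_sub]
  exact S.max_β _ h

/-- **NR, abstract form.**  If `f ≠ 0` is `q`-new (`Nα f = c h^m`, `Nβ f = c' h'^m` with constants
`c, c'`), then `(φ - 1)² f`, `φ = σ²`, is `G`-split at `V₁` and at `V₂`. -/
theorem gSplit_of_qNew {m : ℕ} {f : F} (hf : f ≠ 0) {c c' h h' : FM} (hc : c ∈ CM)
    (hc' : c' ∈ CM) (hNα : Nα f = c * h ^ m) (hNβ : Nβ f = c' * h' ^ m) :
    GSplitAt V₁ C m (σ (σ (σ (σ f) / f)) / (σ (σ f) / f)) ∧
      GSplitAt V₂ C m (σ (σ (σ (σ f) / f)) / (σ (σ f) / f)) := by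
  -- nonvanishing
  have hNf0 : Nα f ≠ 0 := map_ne_zero_of_ne_zero Nα hf
  have hNf0' : Nβ f ≠ 0 := map_ne_zero_of_ne_zero Nβ hf
  have hc0 : c ≠ 0 := by
    rintro rfl; rw [zero_mul] at hNα; exact hNf0 hNα
  have hc0' : c' ≠ 0 := by
    rintro rfl; rw [zero_mul] at hNβ; exact hNf0' hNβ
  have hh0 : h ≠ 0 ∨ m = 0 := by
    by_cases hm : m = 0
    · exact Or.inr hm
    · left
      rintro rfl
      rw [zero_pow hm, mul_zero] at hNα
      exact hNf0 hNα
  have hh0' : h' ≠ 0 ∨ m = 0 := by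
    by_cases hm : m = 0
    · exact Or.inr hm
    · left
      rintro rfl
      rw [zero_pow hm, mul_zero] at hNβ
      exact hNf0' hNβ
  -- the unit `g`
  set g : F := σ (σ f) / f with hg
  have hg1 : V₁.valuation g = 1 := S.val_ratio_sq₁ hf
  have hg2 : V₂.valuation g = 1 := S.val_ratio_sq₂ hf
  have hg0 : g ≠ 0 := ne_zero_of_val_eq_one V₁ hg1
  -- norms of `g`
  set c₁ : FM := σM (σM c) / c with hc₁
  set c₂ : FM := σM (σM c') / c' with hc₂
  -- replace `h`, `h'` by `1` if `m = 0`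
  obtain ⟨u₁, hu₁, hNαg⟩ : ∃ u₁ : FM, VM.valuation u₁ = 1 ∧ Nα g = c₁ * u₁ ^ m := by
    rcases hh0 with hh | hm
    · exact ⟨σM (σM h) / h, S.val_ratio_sq_M hh, norm_ratio Nα S.norm_α hf hNα⟩
    · refine ⟨1, Valuation.map_one _, ?_⟩
      have := norm_ratio Nα S.norm_α hf hNα
      rw [this, hm, pow_zero, pow_zero]
  obtain ⟨u₂, hu₂, hNβg⟩ : ∃ u₂ : FM, VM.valuation u₂ = 1 ∧ Nβ g = c₂ * u₂ ^ m := by
    rcases hh0' with hh | hm
    · exact ⟨σM (σM h') / h', S.val_ratio_sq_M hh, norm_ratio Nβ S.norm_β hf hNβ⟩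
    · refine ⟨1, Valuation.map_one _, ?_⟩
      have := norm_ratio Nβ S.norm_β hf hNβ
      rw [this, hm, pow_zero, pow_zero]
  have hc₁v : VM.valuation c₁ = 1 := S.val_ratio_sq_M hc0
  have hc₂v : VM.valuation c₂ = 1 := S.val_ratio_sq_M hc0'
  have hc₁C : c₁ ∈ CM := div_mem (S.const_σ _ (S.const_σ _ hc)) hc
  have hc₂C : c₂ ∈ CM := div_mem (S.const_σ _ (S.const_σ _ hc')) hc'
  -- residues of `g`
  obtain ⟨x, hx, hxg⟩ := S.res_α g hg1
  obtain ⟨y, hy, hyg⟩ := S.res_β g hg2
  have hσx : VM.valuation (σM x) = 1 := (S.val_M x).2 hx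
  have hσy : VM.valuation (σM y) = 1 := (S.val_M y).2 hy
  -- the two norm relations
  have hA : VM.valuation (Nα g - x * σM y) < 1 := by
    refine S.normRes_α g x (σM y) hg1 hg2 hx hσy hxg ?_
    refine val_lt_one_trans V₂ (S.kron₂ y hy) ?_
    exact cong_pow' V₂ hyg hg2.le q
  have hB : VM.valuation (Nβ g - σM x * y) < 1 := by
    refine S.normRes_β g (σM x) y hg1 hg2 hσx hy ?_ hyg
    refine val_lt_one_trans V₁ (S.kron₁ x hx) ?_
    exact cong_pow' V₁ hxg hg1.le q
  rw [hNαg] at hA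
  rw [hNβg] at hB
  -- units
  have hP₁ : VM.valuation (c₁ * u₁ ^ m) = 1 := val_mul_eq_one VM hc₁v (val_pow_eq_one VM hu₁ m)
  have hP₂ : VM.valuation (c₂ * u₂ ^ m) = 1 := val_mul_eq_one VM hc₂v (val_pow_eq_one VM hu₂ m)
  have hσc₁ : VM.valuation (σM c₁) = 1 := (S.val_M _).2 hc₁v
  have hσc₂ : VM.valuation (σM c₂) = 1 := (S.val_M _).2 hc₂v
  have hσu₁ : VM.valuation (σM u₁) = 1 := (S.val_M _).2 hu₁
  have hσu₂ : VM.valuation (σM u₂) = 1 := (S.val_M _).2 hu₂
  have hσσx : VM.valuation (σM (σM x)) = 1 := (S.val_M _).2 hσx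
  have hσσy : VM.valuation (σM (σM y)) = 1 := (S.val_M _).2 hσy
  have hx0 : x ≠ 0 := ne_zero_of_val_eq_one VM hx
  have hy0 : y ≠ 0 := ne_zero_of_val_eq_one VM hy
  have hσx0 : σM x ≠ 0 := ne_zero_of_val_eq_one VM hσx
  have hσy0 : σM y ≠ 0 := ne_zero_of_val_eq_one VM hσy
  have hu₁0 : u₁ ≠ 0 := ne_zero_of_val_eq_one VM hu₁
  have hu₂0 : u₂ ≠ 0 := ne_zero_of_val_eq_one VM hu₂
  have hc₁0 : c₁ ≠ 0 := ne_zero_of_val_eq_one VM hc₁v
  have hc₂0 : c₂ ≠ 0 := ne_zero_of_val_eq_one VM hc₂v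
  -- `σM` applied to the relations
  have hA' : VM.valuation (σM c₁ * σM u₁ ^ m - σM x * σM (σM y)) < 1 := by
    have := S.cong_σM hA
    rwa [map_mul, map_pow, map_mul] at this
  have hB' : VM.valuation (σM c₂ * σM u₂ ^ m - σM (σM x) * σM y) < 1 := by
    have := S.cong_σM hB
    rwa [map_mul, map_pow, map_mul] at this
  -- `φ x / x` and `φ y / y`
  have hX : VM.valuation (σM (σM x) / x - (σM c₂ / c₁) * (σM u₂ / u₁) ^ m) < 1 := by
    have h1 : VM.valuation ((σM (σM x) * σM y) / (x * σM y)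
        - (σM c₂ * σM u₂ ^ m) / (c₁ * u₁ ^ m)) < 1 :=
      cong_div VM (val_lt_one_symm VM hB') (val_lt_one_symm VM hA)
        (val_mul_eq_one VM hσc₂ (val_pow_eq_one VM hσu₂ m)).le
        (val_mul_eq_one VM hx hσy) hP₁
    have e1 : (σM (σM x) * σM y) / (x * σM y) = σM (σM x) / x := by
      field_simp
    have e2 : (σM c₂ * σM u₂ ^ m) / (c₁ * u₁ ^ m) = (σM c₂ / c₁) * (σM u₂ / u₁) ^ m := by
      rw [div_pow]
      field_simp
    rwa [e1, e2] at h1
  have hY : VM.valuation (σM (σM y) / y - (σM c₁ / c₂) * (σM u₁ / u₂) ^ m) < 1 := by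
    have h1 : VM.valuation ((σM x * σM (σM y)) / (σM x * y)
        - (σM c₁ * σM u₁ ^ m) / (c₂ * u₂ ^ m)) < 1 :=
      cong_div VM (val_lt_one_symm VM hA') (val_lt_one_symm VM hB)
        (val_mul_eq_one VM hσc₁ (val_pow_eq_one VM hσu₁ m)).le
        (val_mul_eq_one VM hσx hy) hP₂
    have e1 : (σM x * σM (σM y)) / (σM x * y) = σM (σM y) / y := by
      field_simp
    have e2 : (σM c₁ * σM u₁ ^ m) / (c₂ * u₂ ^ m) = (σM c₁ / c₂) * (σM u₁ / u₂) ^ m := by
      rw [div_pow]
      field_simp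
    rwa [e1, e2] at h1
  constructor
  · -- at `V₁`, through `α` and `x`
    refine ⟨α (σM c₂ / c₁), S.const_α _ (div_mem (S.const_σ _ hc₂C) hc₁C), α (σM u₂ / u₁),
      S.unit_α _ (val_div_eq_one VM hσc₂ hc₁v), S.unit_α _ (val_div_eq_one VM hσu₂ hu₁), ?_⟩
    have hαx : V₁.valuation (α x) = 1 := S.unit_α _ hx
    have h1 : V₁.valuation (σ (σ g) - α (σM (σM x))) < 1 := by
      have := S.cong_σ₁ (S.cong_σ₁ (val_lt_one_symm V₁ hxg))
      rwa [S.comm_α, S.comm_α] at this
    have h2 : V₁.valuation (σ (σ g) / g - α (σM (σM x)) / α x) < 1 :=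
      cong_div V₁ h1 (val_lt_one_symm V₁ hxg) (S.unit_α _ hσσx).le hg1 hαx
    have h3 : V₁.valuation (α (σM (σM x)) / α x - α (σM c₂ / c₁) * α (σM u₂ / u₁) ^ m) < 1 := by
      have := S.cong_α hX
      rwa [map_mul, map_pow, map_div₀ α (σM (σM x)) x] at this
    exact val_lt_one_trans V₁ h2 h3
  · -- at `V₂`, through `β` and `y`
    refine ⟨β (σM c₁ / c₂), S.const_β _ (div_mem (S.const_σ _ hc₁C) hc₂C), β (σM u₁ / u₂),
      S.unit_β _ (val_div_eq_one VM hσc₁ hc₂v), S.unit_β _ (val_div_eq_one VM hσu₁ hu₂), ?_⟩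
    have hβy : V₂.valuation (β y) = 1 := S.unit_β _ hy
    have h1 : V₂.valuation (σ (σ g) - β (σM (σM y))) < 1 := by
      have := S.cong_σ₂ (S.cong_σ₂ (val_lt_one_symm V₂ hyg))
      rwa [S.comm_β, S.comm_β] at this
    have h2 : V₂.valuation (σ (σ g) / g - β (σM (σM y)) / β y) < 1 :=
      cong_div V₂ h1 (val_lt_one_symm V₂ hyg) (S.unit_β _ hσσy).le hg2 hβy
    have h3 : V₂.valuation (β (σM (σM y)) / β y - β (σM c₁ / c₂) * β (σM u₁ / u₂) ^ m) < 1 := by
      have := S.cong_β hY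
      rwa [map_mul, map_pow, map_div₀ β (σM (σM y)) y] at this
    exact val_lt_one_trans V₂ h2 h3

end NRSetting

end Fermat.Agent.S35.G.H199.NR

end
-- ===== PACK-END S35/G/H199/NRCore.lean

-- ===== PACK-BEGIN S28/H86/PoleTrans.lean
section




/-!
# A Laurent series of nonzero order is transcendental over the coefficient field

For a field `k` and `y : LaurentSeries k` with `y ≠ 0` and `y.order ≠ 0`, the evaluation map
`Polynomial k → LaurentSeries k`, `P ↦ P(y)` is injective; more precisely the order of `P(y)` is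
`i₀ • y.order` for the exponent `i₀` of the dominant term.
-/

namespace Fermat.Agent.S28.H86

open Polynomial

variable {k : Type*} [Field k]

theorem hahn_pow_ne_zero {y : LaurentSeries k} (hy : y ≠ 0) (n : ℕ) : y ^ n ≠ 0 :=
  pow_ne_zero n hy

theorem order_pow_eq {y : LaurentSeries k} (hy : y ≠ 0) (n : ℕ) :
    (y ^ n).order = n • y.order := by
  induction n with
  | zero => simp
  | succ n ih =>
    rw [pow_succ, HahnSeries.order_mul (pow_ne_zero n hy) hy, ih, succ_nsmul]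

theorem coeff_algebraMap_mul (c : k) (x : LaurentSeries k) (n : ℤ) :
    (algebraMap k (LaurentSeries k) c * x).coeff n = c * x.coeff n := by
  rw [ModularCurve.algebraMap_laurentSeries_eq_single, HahnSeries.coeff_single_zero_mul]

/-- The coefficient of `P(y)` at `n` as a finite sum. -/
theorem coeff_aeval_eq_sum (y : LaurentSeries k) (P : k[X]) (n : ℤ) :
    (aeval y P).coeff n = ∑ i ∈ P.support, P.coeff i * (y ^ i).coeff n := by
  rw [aeval_def, eval₂_eq_sum, Polynomial.sum, HahnSeries.coeff_sum]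
  refine Finset.sum_congr rfl fun i _ => ?_
  exact coeff_algebraMap_mul _ _ _

/-- If `i₀ ∈ P.support` strictly minimises `i • y.order` over the support, then the coefficient
of `P(y)` at `i₀ • y.order` is nonzero. -/
theorem coeff_aeval_ne_zero_of_min {y : LaurentSeries k} (hy : y ≠ 0) (P : k[X]) (i₀ : ℕ)
    (hi₀ : i₀ ∈ P.support)
    (hmin : ∀ i ∈ P.support, i ≠ i₀ → i₀ • y.order < i • y.order) :
    (aeval y P).coeff (i₀ • y.order) ≠ 0 := by
  rw [coeff_aeval_eq_sum, Finset.sum_eq_single_of_mem i₀ hi₀]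
  · refine mul_ne_zero (Polynomial.mem_support_iff.mp hi₀) ?_
    rw [← order_pow_eq hy, ← HahnSeries.leadingCoeff_eq]
    exact HahnSeries.leadingCoeff_ne_zero.mpr (pow_ne_zero _ hy)
  · intro i hi hne
    rw [HahnSeries.coeff_eq_zero_of_lt_order, mul_zero]
    rw [order_pow_eq hy]
    exact hmin i hi hne

/-- **Transcendence**: a Laurent series of nonzero order is not a root of a nonzero polynomial
with constant coefficients. -/
theorem aeval_ne_zero_of_order_ne_zero {y : LaurentSeries k} (hy : y ≠ 0) (ho : y.order ≠ 0)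
    {P : k[X]} (hP : P ≠ 0) : aeval y P ≠ 0 := by
  have hne : P.support.Nonempty := Polynomial.support_nonempty.mpr hP
  rcases lt_or_gt_of_ne ho with hneg | hpos
  · -- dominant term: the top degree
    have h := coeff_aeval_ne_zero_of_min hy P (P.support.max' hne) (Finset.max'_mem _ _) (by
      intro i hi hne'
      have hlt : i < P.support.max' hne :=
        lt_of_le_of_ne (Finset.le_max' _ _ hi) hne'
      have h1 : (i : ℤ) < (P.support.max' hne : ℤ) := by exact_mod_cast hlt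
      rw [nsmul_eq_mul, nsmul_eq_mul]
      exact mul_lt_mul_of_neg_right h1 hneg)
    intro h0
    rw [h0, HahnSeries.coeff_zero] at h
    exact h rfl
  · have h := coeff_aeval_ne_zero_of_min hy P (P.support.min' hne) (Finset.min'_mem _ _) (by
      intro i hi hne'
      have hlt : P.support.min' hne < i :=
        lt_of_le_of_ne (Finset.min'_le _ _ hi) (Ne.symm hne')
      have h1 : (P.support.min' hne : ℤ) < (i : ℤ) := by exact_mod_cast hlt
      rw [nsmul_eq_mul, nsmul_eq_mul]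
      exact mul_lt_mul_of_pos_right h1 hpos)
    intro h0
    rw [h0, HahnSeries.coeff_zero] at h
    exact h rfl

theorem aeval_injective_of_order_ne_zero {y : LaurentSeries k} (hy : y ≠ 0) (ho : y.order ≠ 0) :
    Function.Injective (aeval y : k[X] →ₐ[k] LaurentSeries k) := by
  rw [injective_iff_map_eq_zero]
  intro P hP
  by_contra h
  exact aeval_ne_zero_of_order_ne_zero hy ho h hP

/-- For `y` of negative order, the order of `P(y)` is `natDegree P • order y`. -/
theorem order_aeval_of_order_neg {y : LaurentSeries k} (hy : y ≠ 0) (ho : y.order < 0)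
    {P : k[X]} (hP : P ≠ 0) : (aeval y P).order ≤ P.natDegree • y.order := by
  have hne : P.support.Nonempty := Polynomial.support_nonempty.mpr hP
  have hdeg : P.natDegree ∈ P.support := Polynomial.natDegree_mem_support_of_nonzero hP
  have h := coeff_aeval_ne_zero_of_min hy P P.natDegree hdeg (by
    intro i hi hne'
    have hlt : i < P.natDegree :=
      lt_of_le_of_ne (Polynomial.le_natDegree_of_mem_supp i hi) hne'
    have h1 : (i : ℤ) < (P.natDegree : ℤ) := by exact_mod_cast hlt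
    rw [nsmul_eq_mul, nsmul_eq_mul]
    exact mul_lt_mul_of_neg_right h1 ho)
  exact HahnSeries.order_le_of_coeff_ne_zero h

/-- For `y` of negative order, `P(y)` has order `≤ 0`. -/
theorem order_aeval_le_zero_of_order_neg {y : LaurentSeries k} (hy : y ≠ 0) (ho : y.order < 0)
    {P : k[X]} (hP : P ≠ 0) : (aeval y P).order ≤ 0 := by
  refine le_trans (order_aeval_of_order_neg hy ho hP) ?_
  rw [nsmul_eq_mul]
  exact mul_nonpos_of_nonneg_of_nonpos (by positivity) ho.le

end Fermat.Agent.S28.H86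

end
-- ===== PACK-END S28/H86/PoleTrans.lean

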