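import Mathlib.AlgebraicGeometry.EllipticCurve.Affine.Point
import Mathlib.RingTheory.Valuation.ValuationSubring
import Mathlib.RingTheory.Valuation.RamificationGroup
import Mathlib.Tactic
import Mathlib
import Fermat.Prelude.Def_GaloisRep_Residual
import Fermat.Prelude.Def_GaloisRep_Adic
import Fermat.Prelude.Def_FLTPrelim_FreyPackage
import Fermat.Prelude.Def_FLTPrelim_GaloisRep
import Fermat.Prelude.Def_FLTPrelim_Modularity
import Fermat.Prelude.Def_FLTPrelim_ModularRep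
import Fermat.Prelude.Def_FLTPrelim_Ramification
import Fermat.Prelude.Def_FLTPrelim_CofixedLine
import Fermat.Prelude.Def_FreyPackage_IsConductorLevel
import Fermat.Prelude.Def_FreyPackage_LevelRaising
import Fermat.Prelude.Def_FreyPackage_EigenformResidualAttachment
import Fermat.Prelude.Def_WeierstrassCurve_PeuRamifiee
import Fermat.Prelude.Def_ModularCurve_HeckeModule
import Fermat.Prelude.Def_ModularCurve_ReductionModL

-- ===== PACK-BEGIN S05/SameRed.lean
section





/-!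
# S05, piece (C2): integral points with the same nonsingular reduction differ by a point of `E₁`

Abstract setting: `K` a field, `v : Valuation K Γ₀`, `W` a Weierstrass curve over `K` with
`v`-integral coefficients.
-/

set_option autoImplicit false

namespace Fermat.Agent.S05.SameRed

open WeierstrassCurve WeierstrassCurve.Affine

set_option linter.unusedSectionVars false
set_option linter.unusedVariables false

variable {K : Type*} [Field K] [DecidableEq K]
  {Γ₀ : Type*} [LinearOrderedCommGroupWithZero Γ₀]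

/-- The coefficients of `W` are `v`-integral. -/
structure IntegralCoeffs (W : Affine K) (v : Valuation K Γ₀) : Prop where
  a₁ : v W.a₁ ≤ 1
  a₂ : v W.a₂ ≤ 1
  a₃ : v W.a₃ ≤ 1
  a₄ : v W.a₄ ≤ 1
  a₆ : v W.a₆ ≤ 1

/-- The "kernel of reduction" `E₁`: the point at infinity together with the affine points whose
`x`-coordinate is not `v`-integral. -/
def InKer (W : Affine K) (v : Valuation K Γ₀) : W.Point → Prop
  | .zero => True
  | .some x _ _ => 1 < v x

variable {W : Affine K} {v : Valuation K Γ₀}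

@[simp] lemma inKer_zero : InKer W v 0 := trivial

@[simp] lemma inKer_some {x y : K} (h : W.Nonsingular x y) :
    InKer W v (Point.some x y h) ↔ 1 < v x := Iff.rfl

lemma val_add_le_one {a b : K} (ha : v a ≤ 1) (hb : v b ≤ 1) : v (a + b) ≤ 1 :=
  (v.map_add a b).trans (max_le ha hb)

lemma val_sub_le_one {a b : K} (ha : v a ≤ 1) (hb : v b ≤ 1) : v (a - b) ≤ 1 :=
  (v.map_sub a b).trans (max_le ha hb)

lemma val_mul_le_one {a b : K} (ha : v a ≤ 1) (hb : v b ≤ 1) : v (a * b) ≤ 1 := by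
  rw [map_mul]; exact mul_le_one' ha hb

lemma val_mul_lt_one_left {a b : K} (ha : v a < 1) (hb : v b ≤ 1) : v (a * b) < 1 := by
  rw [map_mul]; exact (mul_le_of_le_one_right' hb).trans_lt ha

lemma val_mul_lt_one_right {a b : K} (ha : v a ≤ 1) (hb : v b < 1) : v (a * b) < 1 := by
  rw [map_mul]; exact (mul_le_of_le_one_left' ha).trans_lt hb

lemma val_add_lt_one {a b : K} (ha : v a < 1) (hb : v b < 1) : v (a + b) < 1 :=
  (v.map_add a b).trans_lt (max_lt ha hb)

lemma val_natCast_le_one (n : ℕ) : v (n : K) ≤ 1 := by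
  induction n with
  | zero => simp
  | succ n ih => push_cast; exact val_add_le_one ih (by simp)

/-- If `a ≡ b mod 𝔪` and `v b = 1`-ness: `v a = 1 ↔ v b = 1` is what we need in the form:
`v (a - b) < 1` and `v a = 1` imply `v b = 1`. -/
lemma val_eq_one_of_sub_lt {a b : K} (hab : v (a - b) < 1) (ha : v a = 1) : v b = 1 := by
  have : b = a + -(a - b) := by ring
  rw [this, v.map_add_eq_of_lt_left (by rwa [Valuation.map_neg, ha]), ha]

lemma val_lt_one_of_sub_lt {a b : K} (hab : v (a - b) < 1) (ha : v a < 1) : v b < 1 := by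
  have : b = a + -(a - b) := by ring
  rw [this]
  exact val_add_lt_one ha (by rwa [Valuation.map_neg])

/-- If the slope is non-integral, then so is the `x`-coordinate of the sum. -/
theorem one_lt_val_addX (hW : IntegralCoeffs W v) {x₁ x₂ ℓ : K} (hx₁ : v x₁ ≤ 1)
    (hx₂ : v x₂ ≤ 1) (hℓ : 1 < v ℓ) : 1 < v (W.addX x₁ x₂ ℓ) := by
  have hℓ0 : 0 < v ℓ := lt_trans zero_lt_one hℓ
  have h2 : v ℓ < v (ℓ ^ 2) := by
    rw [map_pow, pow_two]
    exact lt_mul_of_one_lt_left hℓ0 hℓ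
  have h3 : v (W.a₁ * ℓ) ≤ v ℓ := by
    rw [map_mul]; exact mul_le_of_le_one_left' hW.a₁
  have h4 : v (ℓ ^ 2 + W.a₁ * ℓ) = v (ℓ ^ 2) :=
    v.map_add_eq_of_lt_left (h3.trans_lt h2)
  have h5 : v (W.a₂ + x₁ + x₂) ≤ 1 := val_add_le_one (val_add_le_one hW.a₂ hx₁) hx₂
  have h6 : W.addX x₁ x₂ ℓ = (ℓ ^ 2 + W.a₁ * ℓ) + -(W.a₂ + x₁ + x₂) := by
    simp only [Affine.addX]; ring
  rw [h6, v.map_add_eq_of_lt_left (by
    rw [Valuation.map_neg, h4]; exact h5.trans_lt (hℓ.trans h2)), h4]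
  exact hℓ.trans h2

/-- **(C2)** Two integral affine points whose coordinates are congruent modulo the maximal ideal
and whose common reduction is nonsingular differ by a point in the kernel of reduction. -/
theorem inKer_sub_of_same_reduction (hW : IntegralCoeffs W v) {x₁ y₁ x₂ y₂ : K}
    (h₁ : W.Nonsingular x₁ y₁) (h₂ : W.Nonsingular x₂ y₂)
    (hx₁ : v x₁ ≤ 1) (hy₁ : v y₁ ≤ 1) (hx₂ : v x₂ ≤ 1) (hy₂ : v y₂ ≤ 1)
    (hx : v (x₁ - x₂) < 1) (hy : v (y₁ - y₂) < 1)
    (hns : v (W.a₁ * y₁ - (3 * x₁ ^ 2 + 2 * W.a₂ * x₁ + W.a₄)) = 1 ∨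
      v (2 * y₁ + W.a₁ * x₁ + W.a₃) = 1) :
    InKer W v (Point.some x₁ y₁ h₁ - Point.some x₂ y₂ h₂) := by
  rw [sub_eq_add_neg, Point.neg_some]
  -- abbreviations
  set n : K := y₁ + y₂ + W.a₁ * x₂ + W.a₃ with hn
  set g : K := x₁ ^ 2 + x₁ * x₂ + x₂ ^ 2 + W.a₂ * (x₁ + x₂) + W.a₄ - W.a₁ * y₁ with hg
  have hnegY : W.negY x₂ y₂ = -y₂ - W.a₁ * x₂ - W.a₃ := rfl
  have e₁ := (Affine.equation_iff x₁ y₁).mp h₁.1
  have e₂ := (Affine.equation_iff x₂ y₂).mp h₂.1
  -- the key identity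
  have key : (y₁ - y₂) * n = (x₁ - x₂) * g := by
    simp only [hn, hg]; linear_combination e₁ - e₂
  -- congruences
  have hn_cong : v (n - (2 * y₁ + W.a₁ * x₁ + W.a₃)) < 1 := by
    have : n - (2 * y₁ + W.a₁ * x₁ + W.a₃) = -(y₁ - y₂) + -(W.a₁ * (x₁ - x₂)) := by
      simp only [hn]; ring
    rw [this]
    exact val_add_lt_one (by rwa [Valuation.map_neg])
      (by rw [Valuation.map_neg]; exact val_mul_lt_one_right hW.a₁ hx)
  have hg_cong : v (g + (W.a₁ * y₁ - (3 * x₁ ^ 2 + 2 * W.a₂ * x₁ + W.a₄))) < 1 := by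
    have : g + (W.a₁ * y₁ - (3 * x₁ ^ 2 + 2 * W.a₂ * x₁ + W.a₄)) =
        -((x₁ - x₂) * (x₁ + (x₁ + x₂) + W.a₂)) := by
      simp only [hg]; ring
    rw [this, Valuation.map_neg]
    exact val_mul_lt_one_left hx
      (val_add_le_one (val_add_le_one hx₁ (val_add_le_one hx₁ hx₂)) hW.a₂)
  by_cases hxx : x₁ = x₂
  · -- same `x`-coordinate
    rcases Affine.Y_eq_of_X_eq h₁.1 h₂.1 hxx with hyy | hyy
    · -- `P₁ = P₂`
      subst hxx; subst hyy
      rw [Point.add_of_Y_eq rfl (by rw [Affine.negY_negY])]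
      exact inKer_zero
    · -- `P₁ = -P₂`, so the difference is `2 P₁`
      subst hxx
      by_cases hyy' : y₁ = y₂
      · subst hyy'
        rw [Point.add_of_Y_eq rfl (by rw [Affine.negY_negY])]
        exact inKer_zero
      · have hne : y₁ ≠ W.negY x₁ (W.negY x₁ y₂) := by rwa [Affine.negY_negY]
        rw [Point.add_of_Y_ne hne, inKer_some]
        apply one_lt_val_addX hW hx₁ hx₁
        rw [Affine.slope_of_Y_ne rfl hne]
        -- denominator: `y₁ - negY x₁ y₁ = 2 y₁ + a₁ x₁ + a₃ = y₁ - y₂`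
        have hden : y₁ - W.negY x₁ y₁ = y₁ - y₂ := by
          rw [hyy, hnegY]; simp only [Affine.negY]; ring
        have hden' : 2 * y₁ + W.a₁ * x₁ + W.a₃ = y₁ - y₂ := by
          rw [hyy, hnegY]; ring
        have hY : v (2 * y₁ + W.a₁ * x₁ + W.a₃) < 1 := by rw [hden']; exact hy
        have hX : v (W.a₁ * y₁ - (3 * x₁ ^ 2 + 2 * W.a₂ * x₁ + W.a₄)) = 1 := by
          rcases hns with h | h
          · exact h
          · exact absurd h hY.ne
        have hnum : v (3 * x₁ ^ 2 + 2 * W.a₂ * x₁ + W.a₄ - W.a₁ * y₁) = 1 := by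
          rw [← Valuation.map_neg, neg_sub]; exact hX
        have hd0 : y₁ - y₂ ≠ 0 := sub_ne_zero.mpr hyy'
        rw [hden, map_div₀, hnum, one_div]
        exact (one_lt_inv₀ ((Valuation.pos_iff v).mpr hd0)).mpr hy
  · -- distinct `x`-coordinates
    rw [Point.add_of_X_ne hxx, inKer_some]
    apply one_lt_val_addX hW hx₁ hx₂
    rw [Affine.slope_of_X_ne hxx]
    have hd0 : x₁ - x₂ ≠ 0 := sub_ne_zero.mpr hxx
    have hnum : y₁ - W.negY x₂ y₂ = n := by rw [hnegY]; simp only [hn]; ring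
    rw [hnum, map_div₀, one_lt_div₀ ((Valuation.pos_iff v).mpr hd0)]
    by_cases hY : v (2 * y₁ + W.a₁ * x₁ + W.a₃) = 1
    · -- `n` is a unit
      have hn1 : v n = 1 := by
        have h := hn_cong
        rw [← Valuation.map_neg, neg_sub] at h
        exact val_eq_one_of_sub_lt h hY
      rw [hn1]; exact hx
    · have hX : v (W.a₁ * y₁ - (3 * x₁ ^ 2 + 2 * W.a₂ * x₁ + W.a₄)) = 1 :=
        hns.resolve_right hY
      -- `g` is a unit
      have hg1 : v g = 1 := by
        have h : v (-(W.a₁ * y₁ - (3 * x₁ ^ 2 + 2 * W.a₂ * x₁ + W.a₄)) - g) < 1 := by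
          rw [← Valuation.map_neg]
          convert hg_cong using 2; ring
        have h' : v (-(W.a₁ * y₁ - (3 * x₁ ^ 2 + 2 * W.a₂ * x₁ + W.a₄))) = 1 := by
          rw [Valuation.map_neg]; exact hX
        exact val_eq_one_of_sub_lt h h'
      have hvkey : v (y₁ - y₂) * v n = v (x₁ - x₂) := by
        rw [← map_mul, key, map_mul, hg1, mul_one]
      have hn0 : n ≠ 0 := by
        intro h0
        rw [h0, mul_zero] at key
        rcases mul_eq_zero.mp key.symm with h | h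
        · exact hd0 h
        · rw [h, map_zero] at hg1; exact zero_ne_one hg1
      have hvn : 0 < v n := (Valuation.pos_iff v).mpr hn0
      rw [← hvkey]
      exact mul_lt_of_lt_one_left hvn hy

end Fermat.Agent.S05.SameRed

end
-- ===== PACK-END S05/SameRed.lean

-- ===== PACK-BEGIN S05/XId.lean
section


/-!
# x-coordinate identities for the affine group law (S05 helper library)

For nonsingular affine points `P = (x₁, y₁)`, `Q = (x₂, y₂)` with `x₁ ≠ x₂` on a Weierstrass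
curve over a field, with `x₃ = x(P + Q)` and `x₄ = x(P - Q)`:

* `(x₁ - x₂)² (x₃ + x₄) = 2 x₁ x₂ (x₁ + x₂) + b₂ x₁ x₂ + b₄ (x₁ + x₂) + b₆`
* `(x₁ - x₂)² (x₃ x₄) = x₁² x₂² - b₄ x₁ x₂ - b₆ (x₁ + x₂) - b₈`

and the duplication formula
`x(2P) (4 x³ + b₂ x² + 2 b₄ x + b₆) = x⁴ - b₄ x² - 2 b₆ x - b₈`.
-/

set_option autoImplicit false

namespace Fermat.Agent.S05.XId

open WeierstrassCurve WeierstrassCurve.Affine

variable {F : Type*} [Field F] (W : Affine F)

/-- numerator of `x(P+Q) + x(P-Q)` -/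
def sumNum (x₁ x₂ : F) : F :=
  2 * x₁ * x₂ * (x₁ + x₂) + W.b₂ * x₁ * x₂ + W.b₄ * (x₁ + x₂) + W.b₆

/-- numerator of `x(P+Q) * x(P-Q)` -/
def prodNum (x₁ x₂ : F) : F :=
  x₁ ^ 2 * x₂ ^ 2 - W.b₄ * x₁ * x₂ - W.b₆ * (x₁ + x₂) - W.b₈

/-- denominator of the duplication formula, `ψ₂² = 4x³ + b₂x² + 2b₄x + b₆` -/
def dblDen (x : F) : F :=
  4 * x ^ 3 + W.b₂ * x ^ 2 + 2 * W.b₄ * x + W.b₆

/-- numerator of the duplication formula -/
def dblNum (x : F) : F :=
  x ^ 4 - W.b₄ * x ^ 2 - 2 * W.b₆ * x - W.b₈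

lemma addX_div (x₁ x₂ n d : F) (hd : d ≠ 0) :
    d ^ 2 * W.addX x₁ x₂ (n / d) = n ^ 2 + W.a₁ * d * n - (W.a₂ + x₁ + x₂) * d ^ 2 := by
  simp only [addX]
  field_simp
  ring

/-- `ψ₂(P)² = 4x³ + b₂x² + 2b₄x + b₆` on the curve, where `ψ₂(P) = y - negY x y = 2y + a₁x + a₃`. -/
lemma sub_negY_sq {x y : F} (h : W.Equation x y) :
    (y - W.negY x y) ^ 2 = dblDen W x := by
  rw [Affine.equation_iff] at h
  simp only [negY, dblDen, WeierstrassCurve.b₂, WeierstrassCurve.b₄, WeierstrassCurve.b₆]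
  linear_combination 4 * h

section

variable [DecidableEq F]

lemma addX_sum {x₁ x₂ y₁ y₂ : F} (h₁ : W.Equation x₁ y₁) (h₂ : W.Equation x₂ y₂)
    (hx : x₁ ≠ x₂) :
    (x₁ - x₂) ^ 2 * (W.addX x₁ x₂ (W.slope x₁ x₂ y₁ y₂) +
        W.addX x₁ x₂ (W.slope x₁ x₂ y₁ (W.negY x₂ y₂))) = sumNum W x₁ x₂ := by
  rw [Affine.equation_iff] at h₁ h₂
  have hd : x₁ - x₂ ≠ 0 := sub_ne_zero.mpr hx
  rw [slope_of_X_ne hx, slope_of_X_ne hx, mul_add, addX_div W _ _ _ _ hd,
    addX_div W _ _ _ _ hd]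
  simp only [negY, sumNum, WeierstrassCurve.b₂, WeierstrassCurve.b₄, WeierstrassCurve.b₆]
  linear_combination 2 * h₁ + 2 * h₂

lemma addX_prod {x₁ x₂ y₁ y₂ : F} (h₁ : W.Equation x₁ y₁) (h₂ : W.Equation x₂ y₂)
    (hx : x₁ ≠ x₂) :
    (x₁ - x₂) ^ 2 * (W.addX x₁ x₂ (W.slope x₁ x₂ y₁ y₂) *
        W.addX x₁ x₂ (W.slope x₁ x₂ y₁ (W.negY x₂ y₂))) = prodNum W x₁ x₂ := by
  rw [Affine.equation_iff] at h₁ h₂
  have hd : x₁ - x₂ ≠ 0 := sub_ne_zero.mpr hx
  have hd2 : (x₁ - x₂) ^ 2 ≠ 0 := pow_ne_zero 2 hd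
  apply mul_left_cancel₀ hd2
  have e3 := addX_div W x₁ x₂ (y₁ - y₂) (x₁ - x₂) hd
  have e4 := addX_div W x₁ x₂ (y₁ - W.negY x₂ y₂) (x₁ - x₂) hd
  rw [slope_of_X_ne hx, slope_of_X_ne hx]
  have key : (x₁ - x₂) ^ 2 * ((x₁ - x₂) ^ 2 * (W.addX x₁ x₂ ((y₁ - y₂) / (x₁ - x₂)) *
      W.addX x₁ x₂ ((y₁ - W.negY x₂ y₂) / (x₁ - x₂)))) =
      ((x₁ - x₂) ^ 2 * W.addX x₁ x₂ ((y₁ - y₂) / (x₁ - x₂))) *
      ((x₁ - x₂) ^ 2 * W.addX x₁ x₂ ((y₁ - W.negY x₂ y₂) / (x₁ - x₂))) := by ring
  rw [key, e3, e4]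
  simp only [negY, prodNum, WeierstrassCurve.b₄, WeierstrassCurve.b₆, WeierstrassCurve.b₈]
  linear_combination
    (y₁ ^ 2 + y₁ * x₁ * W.a₁ + y₁ * W.a₃ - 2 * y₂ ^ 2 - 2 * y₂ * x₂ * W.a₁ - 2 * y₂ * W.a₃
      - x₁ ^ 3 + 2 * x₁ ^ 2 * x₂ - x₁ ^ 2 * W.a₂ + 2 * x₁ * x₂ ^ 2 + x₁ * x₂ * W.a₁ ^ 2
      + 4 * x₁ * x₂ * W.a₂ + x₁ * W.a₁ * W.a₃ + x₁ * W.a₄ - 2 * x₂ ^ 3 - x₂ ^ 2 * W.a₁ ^ 2
      - 2 * x₂ ^ 2 * W.a₂ - x₂ * W.a₁ * W.a₃ + W.a₆) * h₁ +
    (y₂ ^ 2 + y₂ * x₂ * W.a₁ + y₂ * W.a₃ - 4 * x₁ ^ 3 + 2 * x₁ ^ 2 * x₂ - x₁ ^ 2 * W.a₁ ^ 2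
      - 4 * x₁ ^ 2 * W.a₂ + 2 * x₁ * x₂ ^ 2 + x₁ * x₂ * W.a₁ ^ 2 + 4 * x₁ * x₂ * W.a₂
      - x₁ * W.a₁ * W.a₃ - 2 * x₁ * W.a₄ - x₂ ^ 3 - x₂ ^ 2 * W.a₂ + x₂ * W.a₁ * W.a₃
      + x₂ * W.a₄ - W.a₆) * h₂

lemma addX_dbl {x y : F} (h : W.Equation x y) (hy : y ≠ W.negY x y) :
    W.addX x x (W.slope x x y y) * dblDen W x = dblNum W x := by
  have hd : y - W.negY x y ≠ 0 := sub_ne_zero.mpr hy
  rw [slope_of_Y_ne rfl hy, ← sub_negY_sq W h, mul_comm, addX_div W _ _ _ _ hd]
  rw [Affine.equation_iff] at h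
  simp only [negY, dblNum, WeierstrassCurve.b₄, WeierstrassCurve.b₆, WeierstrassCurve.b₈]
  linear_combination (-8 * x - W.a₁ ^ 2 - 4 * W.a₂) * h


variable {W}

/-- `P + Q` and `P - Q` for affine points with distinct `x`-coordinates, with the sum and product
formulas for their `x`-coordinates. -/
theorem add_sub_some {x₁ x₂ y₁ y₂ : F} (h₁ : W.Nonsingular x₁ y₁) (h₂ : W.Nonsingular x₂ y₂)
    (hx : x₁ ≠ x₂) :
    ∃ (x₃ y₃ x₄ y₄ : F) (h₃ : W.Nonsingular x₃ y₃) (h₄ : W.Nonsingular x₄ y₄),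
      Point.some x₁ y₁ h₁ + Point.some x₂ y₂ h₂ = Point.some x₃ y₃ h₃ ∧
      Point.some x₁ y₁ h₁ - Point.some x₂ y₂ h₂ = Point.some x₄ y₄ h₄ ∧
      (x₁ - x₂) ^ 2 * (x₃ + x₄) = sumNum W x₁ x₂ ∧
      (x₁ - x₂) ^ 2 * (x₃ * x₄) = prodNum W x₁ x₂ := by
  have h₂' : W.Nonsingular x₂ (W.negY x₂ y₂) := (nonsingular_neg ..).mpr h₂
  refine ⟨_, _, _, _, nonsingular_add h₁ h₂ fun hxy => hx hxy.left,
    nonsingular_add h₁ h₂' fun hxy => hx hxy.left, Point.add_of_X_ne hx, ?_,
    addX_sum W h₁.1 h₂.1 hx, addX_prod W h₁.1 h₂.1 hx⟩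
  rw [sub_eq_add_neg, Point.neg_some, Point.add_of_X_ne hx]

/-- Duplication: if `P = (x, y)` is not 2-torsion then `2P = (x', y')` with
`x' * (4x³ + b₂x² + 2b₄x + b₆) = x⁴ - b₄x² - 2b₆x - b₈`. -/
theorem add_self_some {x y : F} (h : W.Nonsingular x y) (hy : y ≠ W.negY x y) :
    ∃ (x' y' : F) (h' : W.Nonsingular x' y'),
      Point.some x y h + Point.some x y h = Point.some x' y' h' ∧
      x' * dblDen W x = dblNum W x ∧ dblDen W x ≠ 0 := by
  refine ⟨_, _, nonsingular_add h h fun hxy => hy hxy.right, Point.add_self_of_Y_ne hy,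
    addX_dbl W h.1 hy, ?_⟩
  rw [← sub_negY_sq W h.1]
  exact pow_ne_zero 2 (sub_ne_zero.mpr hy)

omit [DecidableEq F] in
/-- If `P = (x, y)` is 2-torsion then `4x³ + b₂x² + 2b₄x + b₆ = 0`. -/
theorem dblDen_eq_zero_of_Y_eq {x y : F} (h : W.Equation x y) (hy : y = W.negY x y) :
    dblDen W x = 0 := by
  rw [← sub_negY_sq W h, sub_eq_zero.mpr hy]
  ring

end

end Fermat.Agent.S05.XId

end
-- ===== PACK-END S05/XId.lean

-- ===== PACK-BEGIN S51/FiveAlg.lean
section


/-!
# S51, the `5`-side: algebraic identities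

Pure polynomial identities behind the `x`-coordinate duplication map on a Weierstrass curve,
the `5`-division polynomial, and the Hauptmodul `h = Δ / (x(P) - x(2P))^6` of `X₀(5)`.
-/

open WeierstrassCurve WeierstrassCurve.Affine

namespace Fermat.Agent.S51.Five

variable {K : Type*} [Field K]

/-- value of the `2`-torsion polynomial -/
def dD (b₂ b₄ b₆ x : K) : K := 4*x^3 + b₂*x^2 + 2*b₄*x + b₆
/-- numerator of the duplication map -/
def dN (b₄ b₆ b₈ x : K) : K := x^4 - b₄*x^2 - 2*b₆*x - b₈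
/-- value of the `3`-division polynomial -/
def dPsi3 (b₂ b₄ b₆ b₈ x : K) : K := 3*x^4 + b₂*x^3 + 3*b₄*x^2 + 3*b₆*x + b₈
/-- value of `ψ₄ / ψ₂` -/
def dPre4 (b₂ b₄ b₆ b₈ x : K) : K :=
  2*x^6 + b₂*x^5 + 5*b₄*x^4 + 10*b₆*x^3 + 10*b₈*x^2 + (b₂*b₈ - b₄*b₆)*x + (b₄*b₈ - b₆^2)
/-- value of the `5`-division polynomial -/
def dPsi5 (b₂ b₄ b₆ b₈ x : K) : K :=
  dPre4 b₂ b₄ b₆ b₈ x * (dD b₂ b₄ b₆ x)^2 - (dPsi3 b₂ b₄ b₆ b₈ x)^3
/-- `D(N/D) * D^3` -/
def dD2 (b₂ b₄ b₆ b₈ x : K) : K :=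
  4*(dN b₄ b₆ b₈ x)^3 + b₂*(dN b₄ b₆ b₈ x)^2*(dD b₂ b₄ b₆ x)
    + 2*b₄*(dN b₄ b₆ b₈ x)*(dD b₂ b₄ b₆ x)^2 + b₆*(dD b₂ b₄ b₆ x)^3
/-- `N(N/D) * D^4` -/
def dN2 (b₂ b₄ b₆ b₈ x : K) : K :=
  (dN b₄ b₆ b₈ x)^4 - b₄*(dN b₄ b₆ b₈ x)^2*(dD b₂ b₄ b₆ x)^2
    - 2*b₆*(dN b₄ b₆ b₈ x)*(dD b₂ b₄ b₆ x)^3 - b₈*(dD b₂ b₄ b₆ x)^4

lemma id1 (b₂ b₄ b₆ b₈ x : K) :
    dN b₄ b₆ b₈ x - x * dD b₂ b₄ b₆ x = - dPsi3 b₂ b₄ b₆ b₈ x := by
  simp only [dN, dD, dPsi3]; ring

lemma id2 (b₂ b₄ b₆ b₈ x : K) (hb : 4 * b₈ = b₂ * b₆ - b₄^2) (h4 : (4:K) ≠ 0) :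
    dD2 b₂ b₄ b₆ b₈ x = (dPre4 b₂ b₄ b₆ b₈ x)^2 := by
  have hb8 : b₈ = (b₂ * b₆ - b₄^2)/4 := by field_simp; linear_combination hb
  subst hb8
  simp only [dD2, dN, dD, dPre4]
  field_simp
  ring

lemma id3 (b₂ b₄ b₆ b₈ x : K) (hb : 4 * b₈ = b₂ * b₆ - b₄^2) (h4 : (4:K) ≠ 0) :
    dN2 b₂ b₄ b₆ b₈ x - x * dD b₂ b₄ b₆ x * dD2 b₂ b₄ b₆ b₈ x
      = - dPsi3 b₂ b₄ b₆ b₈ x * dPsi5 b₂ b₄ b₆ b₈ x := by
  have hb8 : b₈ = (b₂ * b₆ - b₄^2)/4 := by field_simp; linear_combination hb
  subst hb8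
  simp only [dN2, dD2, dN, dD, dPre4, dPsi5, dPsi3]
  field_simp
  ring

/-- `D(N/D) = D2 / D^3` -/
lemma dD_div (b₂ b₄ b₆ b₈ x : K) (hD : dD b₂ b₄ b₆ x ≠ 0) :
    dD b₂ b₄ b₆ (dN b₄ b₆ b₈ x / dD b₂ b₄ b₆ x) * (dD b₂ b₄ b₆ x)^3 = dD2 b₂ b₄ b₆ b₈ x := by
  rw [dD2]
  generalize dN b₄ b₆ b₈ x = n at *
  generalize dD b₂ b₄ b₆ x = d at *
  simp only [dD]
  field_simp

/-- `N(N/D) = N2 / D^4` -/
lemma dN_div (b₂ b₄ b₆ b₈ x : K) (hD : dD b₂ b₄ b₆ x ≠ 0) :
    dN b₄ b₆ b₈ (dN b₄ b₆ b₈ x / dD b₂ b₄ b₆ x) * (dD b₂ b₄ b₆ x)^4 = dN2 b₂ b₄ b₆ b₈ x := by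
  rw [dN2]
  generalize dN b₄ b₆ b₈ x = n at *
  generalize dD b₂ b₄ b₆ x = d at *
  simp only [dN]
  field_simp

variable (E : WeierstrassCurve.Affine K)

lemma dD_eq {x y : K} (h : E.Equation x y) :
    dD E.b₂ E.b₄ E.b₆ x = (y - E.negY x y)^2 := by
  rw [Affine.equation_iff] at h
  simp only [dD, Affine.negY, WeierstrassCurve.b₂, WeierstrassCurve.b₄, WeierstrassCurve.b₆]
  linear_combination (-4) * h

lemma dN_eq {x y : K} (h : E.Equation x y) :
    dN E.b₄ E.b₆ E.b₈ x = (3 * x ^ 2 + 2 * E.a₂ * x + E.a₄ - E.a₁ * y)^2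
      + E.a₁ * (3 * x ^ 2 + 2 * E.a₂ * x + E.a₄ - E.a₁ * y) * (y - E.negY x y)
      - (E.a₂ + 2 * x) * (y - E.negY x y)^2 := by
  rw [Affine.equation_iff] at h
  simp only [dN, Affine.negY, WeierstrassCurve.b₄, WeierstrassCurve.b₆,
    WeierstrassCurve.b₈]
  linear_combination (4 * E.a₂ + 8 * x + E.a₁^2) * h

lemma dup_X [DecidableEq K] {x y : K} (h : E.Equation x y) (hy : y ≠ E.negY x y) :
    E.addX x x (E.slope x x y y) * dD E.b₂ E.b₄ E.b₆ x = dN E.b₄ E.b₆ E.b₈ x := by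
  rw [Affine.slope_of_Y_ne rfl hy, dD_eq E h, dN_eq E h]
  have h2 : y - E.negY x y ≠ 0 := sub_ne_zero.mpr hy
  simp only [Affine.addX]
  field_simp
  ring

/-- The key identity for the `X₀(5)` Hauptmodul `h = Δ / (u - v)^6`: if `u = x(P)`, `v = x(2P)`
for a point `P` of order `5`, then `c₄ d^5 = Δ^2 + 10 Δ d^3 + 5 d^6` for `d = (u - v)^2`. -/
lemma hauptmodul_identity [CharZero K] (b₂ b₄ b₆ b₈ u v : K)
    (hb : 4 * b₈ = b₂ * b₆ - b₄^2)
    (R₁ : u^4 - b₄*u^2 - 2*b₆*u - b₈ = v * (4*u^3 + b₂*u^2 + 2*b₄*u + b₆))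
    (R₂ : v^4 - b₄*v^2 - 2*b₆*v - b₈ = u * (4*v^3 + b₂*v^2 + 2*b₄*v + b₆))
    (huv : u ≠ v) :
    (b₂^2 - 24*b₄) * ((u - v)^2)^5 =
      (-b₂^2*b₈ - 8*b₄^3 - 27*b₆^2 + 9*b₂*b₄*b₆)^2
      + 10 * (-b₂^2*b₈ - 8*b₄^3 - 27*b₆^2 + 9*b₂*b₄*b₆) * ((u - v)^2)^3
      + 5 * ((u - v)^2)^6 := by
  have huv' : u - v ≠ 0 := sub_ne_zero.mpr huv
  have R₃ : b₆ = (u+v)*(u^2 - 4*u*v + v^2) - b₂*u*v - b₄*(u+v) := by
    apply mul_left_cancel₀ huv'
    linear_combination R₂ - R₁
  subst R₃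
  linear_combination
    (464*u^8 - 5104*u^7*v - 116*u^7*b₂ + 15440*u^6*v^2 - 404*u^6*v*b₂ + 28*u^6*b₂^2 - 1888*u^6*b₄ +
      944*u^5*v^3 + 7956*u^5*v^2*b₂ + 52*u^5*v*b₂^2 + 12240*u^5*v*b₄ + 4*u^5*b₂^3 + 76*u^5*b₂*b₄ -
      44224*u^4*v^4 - 14348*u^4*v^3*b₂ + 188*u^4*v^2*b₂^2 - 7776*u^4*v^2*b₄ - 88*u^4*v*b₂^3 +
      3804*u^4*v*b₂*b₄ - u^4*b₂^4 - 20*u^4*b₂^2*b₄ + 2332*u^4*b₄^2 + 944*u^3*v^5 - 14348*u^3*v^4*b₂ -
      3128*u^3*v^3*b₂^2 - 39712*u^3*v^3*b₄ + 108*u^3*v^2*b₂^3 - 12520*u^3*v^2*b₂*b₄ - 3*u^3*v*b₂^4 +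
      8*u^3*v*b₂^2*b₄ - 5008*u^3*v*b₄^2 + (1/4)*u^3*b₂^5 - 22*u^3*b₂^3*b₄ + 360*u^3*b₂*b₄^2 +
      15440*u^2*v^6 + 7956*u^2*v^5*b₂ + 188*u^2*v^4*b₂^2 - 7776*u^2*v^4*b₄ + 108*u^2*v^3*b₂^3 -
      12520*u^2*v^3*b₂*b₄ + 55*u^2*v^2*b₂^4 - 1992*u^2*v^2*b₂^2*b₄ - 13656*u^2*v^2*b₄^2 +
      (1/4)*u^2*v*b₂^5 + 86*u^2*v*b₂^3*b₄ - 3528*u^2*v*b₂*b₄^2 + u^2*b₂^4*b₄ - 14*u^2*b₂^2*b₄^2 -
      704*u^2*b₄^3 - 5104*u*v^7 - 404*u*v^6*b₂ + 52*u*v^5*b₂^2 + 12240*u*v^5*b₄ - 88*u*v^4*b₂^3 +
      3804*u*v^4*b₂*b₄ - 3*u*v^3*b₂^4 + 8*u*v^3*b₂^2*b₄ - 5008*u*v^3*b₄^2 + (1/4)*u*v^2*b₂^5 +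
      86*u*v^2*b₂^3*b₄ - 3528*u*v^2*b₂*b₄^2 - (1/4)*u*v*b₂^6 + 19*u*v*b₂^4*b₄ - 284*u*v*b₂^2*b₄^2 -
      2432*u*v*b₄^3 - (1/4)*u*b₂^5*b₄ + 18*u*b₂^3*b₄^2 - 320*u*b₂*b₄^3 + 464*v^8 - 116*v^7*b₂ +
      28*v^6*b₂^2 - 1888*v^6*b₄ + 4*v^5*b₂^3 + 76*v^5*b₂*b₄ - v^4*b₂^4 - 20*v^4*b₂^2*b₄ +
      2332*v^4*b₄^2 + (1/4)*v^3*b₂^5 - 22*v^3*b₂^3*b₄ + 360*v^3*b₂*b₄^2 + v^2*b₂^4*b₄ -
      14*v^2*b₂^2*b₄^2 - 704*v^2*b₄^3 - (1/4)*v*b₂^5*b₄ + 18*v*b₂^3*b₄^2 - 320*v*b₂*b₄^3 -
      (1/4)*b₂^4*b₄^2 + 16*b₂^2*b₄^3 - 256*b₄^4) * R₁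
    + (116*u^8 - 1276*u^7*v - 29*u^7*b₂ + 3860*u^6*v^2 - 101*u^6*v*b₂ - 4*u^6*b₂^2 - 472*u^6*b₄ +
      236*u^5*v^3 + 1989*u^5*v^2*b₂ + 79*u^5*v*b₂^2 + 3060*u^5*v*b₄ + u^5*b₂^3 + 19*u^5*b₂*b₄ -
      11056*u^4*v^4 - 3587*u^4*v^3*b₂ + 44*u^4*v^2*b₂^2 - 1944*u^4*v^2*b₄ + 5*u^4*v*b₂^3 +
      951*u^4*v*b₂*b₄ - (1/4)*u^4*b₂^4 + 22*u^4*b₂^2*b₄ + 583*u^4*b₄^2 + 236*u^3*v^5 - 3587*u^3*v^4*b₂
      - 1102*u^3*v^3*b₂^2 - 9928*u^3*v^3*b₄ - 54*u^3*v^2*b₂^3 - 3130*u^3*v^2*b₂*b₄ - (3/4)*u^3*v*b₂^4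
      - 52*u^3*v*b₂^2*b₄ - 1252*u^3*v*b₄^2 - u^3*b₂^3*b₄ + 90*u^3*b₂*b₄^2 + 3860*u^2*v^6 +
      1989*u^2*v^5*b₂ + 44*u^2*v^4*b₂^2 - 1944*u^2*v^4*b₄ - 54*u^2*v^3*b₂^3 - 3130*u^2*v^3*b₂*b₄ +
      (1/4)*u^2*v^2*b₂^4 - 660*u^2*v^2*b₂^2*b₄ - 3414*u^2*v^2*b₄^2 + (1/4)*u^2*v*b₂^5 -
      19*u^2*v*b₂^3*b₄ - 882*u^2*v*b₂*b₄^2 + (1/4)*u^2*b₂^4*b₄ - 17*u^2*b₂^2*b₄^2 - 176*u^2*b₄^3 -
      1276*u*v^7 - 101*u*v^6*b₂ + 79*u*v^5*b₂^2 + 3060*u*v^5*b₄ + 5*u*v^4*b₂^3 + 951*u*v^4*b₂*b₄ -
      (3/4)*u*v^3*b₂^4 - 52*u*v^3*b₂^2*b₄ - 1252*u*v^3*b₄^2 + (1/4)*u*v^2*b₂^5 - 19*u*v^2*b₂^3*b₄ -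
      882*u*v^2*b₂*b₄^2 + (1/4)*u*v*b₂^4*b₄ - 98*u*v*b₂^2*b₄^2 - 608*u*v*b₄^3 - 80*u*b₂*b₄^3 + 116*v^8
      - 29*v^7*b₂ - 4*v^6*b₂^2 - 472*v^6*b₄ + v^5*b₂^3 + 19*v^5*b₂*b₄ - (1/4)*v^4*b₂^4 +
      22*v^4*b₂^2*b₄ + 583*v^4*b₄^2 - v^3*b₂^3*b₄ + 90*v^3*b₂*b₄^2 + (1/4)*v^2*b₂^4*b₄ -
      17*v^2*b₂^2*b₄^2 - 176*v^2*b₄^3 - 80*v*b₂*b₄^3 - (1/4)*b₂^4*b₈ - 64*b₄^4) * hb

end Fermat.Agent.S51.Five

end
-- ===== PACK-END S51/FiveAlg.lean

-- ===== PACK-BEGIN S52/H621/RatDeg.lean
section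


/-!
# S52 / Part A (Frobenius relation, Manin's proof): degree of a rational function

`ratDeg R = max (natDegree R.num) (natDegree R.denom)` and its multiplicativity under
composition (piece A2d of `coord/S52-route.md`).
-/

set_option autoImplicit false

open Polynomial

namespace Fermat.Agent.S52.H621

variable {F : Type*} [Field F]

/-- The degree (height) of a rational function: `max (deg num) (deg denom)`. -/
noncomputable def ratDeg (R : RatFunc F) : ℕ := max R.num.natDegree R.denom.natDegree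

theorem ratDeg_def (R : RatFunc F) : ratDeg R = max R.num.natDegree R.denom.natDegree := rfl

@[simp] theorem ratDeg_zero : ratDeg (0 : RatFunc F) = 0 := by
  simp [ratDeg]

@[simp] theorem ratDeg_one : ratDeg (1 : RatFunc F) = 0 := by
  simp [ratDeg]

@[simp] theorem ratDeg_algebraMap (p : F[X]) :
    ratDeg (algebraMap F[X] (RatFunc F) p) = p.natDegree := by
  simp [ratDeg]

@[simp] theorem ratDeg_C (c : F) : ratDeg (RatFunc.C c : RatFunc F) = 0 := by
  have : (RatFunc.C c : RatFunc F) = algebraMap F[X] (RatFunc F) (Polynomial.C c) := by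
    simp [RatFunc.algebraMap_C]
  rw [this, ratDeg_algebraMap, natDegree_C]

@[simp] theorem ratDeg_X : ratDeg (RatFunc.X : RatFunc F) = 1 := by
  have : (RatFunc.X : RatFunc F) = algebraMap F[X] (RatFunc F) Polynomial.X := by
    simp [RatFunc.algebraMap_X]
  rw [this, ratDeg_algebraMap, natDegree_X]

/-- The degree of a quotient of coprime polynomials. -/
theorem ratDeg_div_of_isCoprime (N D : F[X]) (hD : D ≠ 0) (h : IsCoprime N D) :
    ratDeg (algebraMap F[X] (RatFunc F) N / algebraMap F[X] (RatFunc F) D)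
      = max N.natDegree D.natDegree := by
  classical
  have hg : IsUnit (gcd N D) := by
    rw [← EuclideanDomain.gcd_isUnit_iff] at h
    -- `gcd` here is `GCDMonoid.gcd`
    have h1 : gcd N D ∣ EuclideanDomain.gcd N D :=
      EuclideanDomain.dvd_gcd (gcd_dvd_left N D) (gcd_dvd_right N D)
    exact isUnit_of_dvd_unit h1 h
  have hDg : D / gcd N D ≠ 0 := right_div_gcd_ne_zero hD
  have hc : (D / gcd N D).leadingCoeff⁻¹ ≠ 0 := inv_ne_zero (leadingCoeff_ne_zero.mpr hDg)
  have key : ∀ p : F[X], gcd N D ∣ p → (p / gcd N D).natDegree = p.natDegree := by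
    intro p hp
    obtain ⟨q, rfl⟩ := hp
    have hg0 : gcd N D ≠ 0 := hg.ne_zero
    rw [← EuclideanDomain.eq_div_of_mul_eq_right hg0 rfl]
    by_cases hq : q = 0
    · simp [hq]
    · rw [natDegree_mul hg0 hq, natDegree_eq_zero_of_isUnit hg, zero_add]
  rw [ratDeg, RatFunc.num_div, RatFunc.denom_div N hD, natDegree_C_mul hc, natDegree_C_mul hc,
    key N (gcd_dvd_left N D), key D (gcd_dvd_right N D)]

/-- The degree of a quotient of polynomials with a common factor removed. -/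
theorem ratDeg_div_of_eq_mul (N D G N' D' : F[X]) (hD : D ≠ 0) (hN : N = G * N')
    (hD' : D = G * D') (h : IsCoprime N' D') :
    ratDeg (algebraMap F[X] (RatFunc F) N / algebraMap F[X] (RatFunc F) D)
      = max N'.natDegree D'.natDegree := by
  have hG : G ≠ 0 := by rintro rfl; exact hD (by simp [hD'])
  have hD0 : D' ≠ 0 := by rintro rfl; exact hD (by simp [hD'])
  rw [← ratDeg_div_of_isCoprime N' D' hD0 h, hN, hD', map_mul, map_mul,
    mul_div_mul_left _ _ (RatFunc.algebraMap_ne_zero hG)]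

/-! ### Homogenisation -/

/-- `homog n N P Q = ∑_{i ≤ n} N_i P^i Q^(n-i)`, the homogenisation of `N` in degree `n`
evaluated at `(P, Q)`. -/
noncomputable def homog {R : Type*} [CommRing R] [Algebra F R] (n : ℕ) (N : F[X]) (P Q : R) : R :=
  ∑ i ∈ Finset.range (n + 1), algebraMap F R (N.coeff i) * P ^ i * Q ^ (n - i)

theorem homog_map {R S : Type*} [CommRing R] [Algebra F R] [CommRing S] [Algebra F S]
    (φ : R →ₐ[F] S) (n : ℕ) (N : F[X]) (P Q : R) :
    φ (homog n N P Q) = homog n N (φ P) (φ Q) := by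
  simp [homog, map_sum]

/-- In a field: if `q ≠ 0` then `homog n N p q = q ^ n * N(p/q)`. -/
theorem homog_eq_of_ne_zero {L : Type*} [Field L] [Algebra F L] (n : ℕ) (N : F[X])
    (hn : N.natDegree ≤ n) (p q : L) (hq : q ≠ 0) :
    homog n N p q = q ^ n * aeval (p / q) N := by
  rw [aeval_eq_sum_range' (Nat.lt_succ_of_le hn), Finset.mul_sum, homog]
  refine Finset.sum_congr rfl fun i hi => ?_
  have hi' : i ≤ n := Nat.lt_succ_iff.mp (Finset.mem_range.mp hi)
  rw [Algebra.smul_def, div_pow]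
  have : q ^ n = q ^ (n - i) * q ^ i := by rw [← pow_add, Nat.sub_add_cancel hi']
  rw [this]
  field_simp

/-- `homog n N p 0 = N_n p^n`. -/
theorem homog_zero_right {R : Type*} [CommRing R] [Algebra F R] (n : ℕ) (N : F[X]) (p : R) :
    homog n N p 0 = algebraMap F R (N.coeff n) * p ^ n := by
  rw [homog, Finset.sum_eq_single n]
  · simp
  · intro i hi hin
    have hi' : i < n := lt_of_le_of_ne (Nat.lt_succ_iff.mp (Finset.mem_range.mp hi)) hin
    have : n - i ≠ 0 := by omega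
    simp [zero_pow this]
  · intro h; exact absurd (Finset.mem_range.mpr (Nat.lt_succ_self n)) h

/-- Key non-vanishing: coprime `N`, `D` with `max (deg N) (deg D) = n` have no common
"projective zero". -/
theorem homog_ne_zero_of_isCoprime {L : Type*} [Field L] [Algebra F L] (N D : F[X])
    (h : IsCoprime N D) (n : ℕ) (hn : max N.natDegree D.natDegree = n) (p q : L)
    (hpq : p ≠ 0 ∨ q ≠ 0) : homog n N p q ≠ 0 ∨ homog n D p q ≠ 0 := by
  by_contra hcon
  push Not at hcon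
  obtain ⟨h1, h2⟩ := hcon
  have hNn : N.natDegree ≤ n := hn ▸ le_max_left _ _
  have hDn : D.natDegree ≤ n := hn ▸ le_max_right _ _
  by_cases hq : q = 0
  · subst hq
    have hp : p ≠ 0 := by tauto
    rw [homog_zero_right] at h1 h2
    have hpn : p ^ n ≠ 0 := pow_ne_zero n hp
    have h1' : N.coeff n = 0 := by
      have := (mul_eq_zero.mp h1).resolve_right hpn
      exact (map_eq_zero (algebraMap F L)).mp this
    have h2' : D.coeff n = 0 := by
      have := (mul_eq_zero.mp h2).resolve_right hpn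
      exact (map_eq_zero (algebraMap F L)).mp this
    -- both leading coefficients vanish: contradiction with `max = n`
    rcases max_cases N.natDegree D.natDegree with ⟨hm, -⟩ | ⟨hm, -⟩
    · have hNd : N.natDegree = n := hm ▸ hn
      have hN0 : N = 0 := by
        by_contra hN0
        have := leadingCoeff_ne_zero.mpr hN0
        rw [leadingCoeff, hNd] at this
        exact this h1'
      subst hN0
      have hn0 : n = 0 := by simpa using hNd.symm
      subst hn0
      have hD0 : D = 0 := by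
        have : D.natDegree = 0 := Nat.le_zero.mp hDn
        rw [eq_C_of_natDegree_eq_zero this, h2', C_0]
      subst hD0
      obtain ⟨u, v, huv⟩ := h
      simp at huv
    · have hDd : D.natDegree = n := hm ▸ hn
      have hD0 : D = 0 := by
        by_contra hD0
        have := leadingCoeff_ne_zero.mpr hD0
        rw [leadingCoeff, hDd] at this
        exact this h2'
      subst hD0
      have hn0 : n = 0 := by simpa using hDd.symm
      subst hn0
      have hN0 : N = 0 := by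
        have : N.natDegree = 0 := Nat.le_zero.mp hNn
        rw [eq_C_of_natDegree_eq_zero this, h1', C_0]
      subst hN0
      obtain ⟨u, v, huv⟩ := h
      simp at huv
  · rw [homog_eq_of_ne_zero n N hNn p q hq] at h1
    rw [homog_eq_of_ne_zero n D hDn p q hq] at h2
    have hqn : q ^ n ≠ 0 := pow_ne_zero n hq
    have h1' := (mul_eq_zero.mp h1).resolve_left hqn
    have h2' := (mul_eq_zero.mp h2).resolve_left hqn
    obtain ⟨u, v, huv⟩ := h
    have := congrArg (aeval (p / q)) huv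
    simp [h1', h2'] at this

end Fermat.Agent.S52.H621

end
-- ===== PACK-END S52/H621/RatDeg.lean

-- ===== PACK-BEGIN S52/H545/Fq.lean
section


/-!
# S52 Part A (helper545): `X^q - X = ∏ (X - c)` over a finite field and its roots in extensions
-/

set_option autoImplicit false

namespace Fermat.Agent.S52.H545

open Polynomial

variable (F : Type*) [Field F] [Fintype F]

lemma prod_X_sub_C_eq : ∏ c : F, (X - C c) = (X ^ Fintype.card F - X : F[X]) := by
  have hq : 1 < Fintype.card F := Fintype.one_lt_card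
  have hmon : (X ^ Fintype.card F - X : F[X]).Monic := by
    apply monic_X_pow_sub
    rw [degree_X]
    exact_mod_cast hq
  have hroots := FiniteField.roots_X_pow_card_sub_X F
  have hcard : (X ^ Fintype.card F - X : F[X]).roots.card =
      (X ^ Fintype.card F - X : F[X]).natDegree := by
    rw [hroots, FiniteField.X_pow_card_sub_X_natDegree_eq F hq]
    simp
  have := prod_multiset_X_sub_C_of_monic_of_roots_card_eq hmon hcard
  rw [hroots] at this
  rw [← this]
  rfl

variable {F}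

lemma pow_card_sub_eq_prod {L : Type*} [CommRing L] [Algebra F L] (z : L) :
    z ^ Fintype.card F - z = ∏ c : F, (z - algebraMap F L c) := by
  have := congrArg (eval₂ (algebraMap F L) z) (prod_X_sub_C_eq F)
  rw [eval₂_finsetProd] at this
  simpa using this.symm

/-- In a domain containing the finite field `F`, the solutions of `z^q = z` are the elements of
`F`. -/
lemma exists_eq_algebraMap_of_pow_card_eq {L : Type*} [CommRing L] [IsDomain L] [Algebra F L]
    {z : L} (hz : z ^ Fintype.card F = z) : ∃ c : F, z = algebraMap F L c := by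
  have h := pow_card_sub_eq_prod (F := F) z
  rw [hz, sub_self] at h
  obtain ⟨c, -, hc⟩ := Finset.prod_eq_zero_iff.mp h.symm
  exact ⟨c, sub_eq_zero.mp hc⟩

end Fermat.Agent.S52.H545

end
-- ===== PACK-END S52/H545/Fq.lean

-- ===== PACK-BEGIN S52/H127/QuadForm.lean
section


/-!
# S52, Part A, pieces A2b + A2e (abstract form) — helper127

Pure algebra, Mathlib only.

* `IsPar h` : the parallelogram law `h (P + Q) + h (P - Q) = 2 * h P + 2 * h Q` for an
  integer-valued function on an abelian group.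
* `IsPar.polar h P Q = h (P + Q) - h P - h Q` is symmetric and biadditive (A2b).
* `IsPar.frobenius_relation` (A2e): if `Φ : M →+ M` satisfies `h (Φ Q) = ℓ * h Q` and
  `h (Φ Q - Q) = (ℓ + 1 - a) * h Q` for all `Q`, then `h (Φ (Φ Q) - a • Φ Q + ℓ • Q) = 0`.
* `ℕ`-valued variants `frobenius_relation_nat`.
-/

set_option autoImplicit false

namespace Fermat.Agent.S52.H127

variable {M : Type*} [AddCommGroup M]

/-- The parallelogram law for an integer-valued function on an abelian group. -/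
def IsPar (h : M → ℤ) : Prop :=
  ∀ P Q : M, h (P + Q) + h (P - Q) = 2 * h P + 2 * h Q

namespace IsPar

variable {h : M → ℤ}

theorem height_zero (hp : IsPar h) : h 0 = 0 := by
  have := hp 0 0
  simp only [add_zero, sub_zero] at this
  omega

theorem height_neg (hp : IsPar h) (Q : M) : h (-Q) = h Q := by
  have h1 := hp 0 Q
  have h0 := hp.height_zero
  simp only [zero_add, zero_sub] at h1
  omega

theorem height_sub_comm (hp : IsPar h) (P Q : M) : h (P - Q) = h (Q - P) := by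
  rw [← hp.height_neg (P - Q), neg_sub]

theorem height_two_nsmul (hp : IsPar h) (P : M) : h (P + P) = 4 * h P := by
  have h1 := hp P P
  have h0 := hp.height_zero
  simp only [sub_self] at h1
  omega

/-- The polar form of `h`. -/
def polar (h : M → ℤ) (P Q : M) : ℤ := h (P + Q) - h P - h Q

theorem polar_def (h : M → ℤ) (P Q : M) : polar h P Q = h (P + Q) - h P - h Q := rfl

theorem height_add (h : M → ℤ) (P Q : M) : h (P + Q) = h P + h Q + polar h P Q := by
  rw [polar_def]; ring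

theorem height_sub (hp : IsPar h) (P Q : M) : h (P - Q) = h P + h Q - polar h P Q := by
  have := hp P Q
  rw [polar_def]
  omega

theorem polar_comm (h : M → ℤ) (P Q : M) : polar h P Q = polar h Q P := by
  rw [polar_def, polar_def, add_comm P Q]; ring

theorem polar_self (hp : IsPar h) (P : M) : polar h P P = 2 * h P := by
  rw [polar_def, hp.height_two_nsmul]; ring

/-- The cube identity. -/
theorem cube (hp : IsPar h) (P P' Q : M) :
    h (P + P' + Q) + h P + h P' + h Q = h (P + P') + h (P + Q) + h (P' + Q) := by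
  have h1 := hp (P + Q) (P' + Q)
  have h2 := hp (P + P' + Q) Q
  have h3 := hp P P'
  have e1 : P + Q + (P' + Q) = P + P' + Q + Q := by abel
  have e2 : P + Q - (P' + Q) = P - P' := by abel
  have e3 : P + P' + Q - Q = P + P' := by abel
  rw [e1, e2] at h1
  rw [e3] at h2
  omega

theorem polar_add_left (hp : IsPar h) (P P' Q : M) :
    polar h (P + P') Q = polar h P Q + polar h P' Q := by
  have := hp.cube P P' Q
  simp only [polar_def]
  omega

theorem polar_add_right (hp : IsPar h) (P Q Q' : M) :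
    polar h P (Q + Q') = polar h P Q + polar h P Q' := by
  rw [polar_comm, hp.polar_add_left, polar_comm h Q P, polar_comm h Q' P]

/-- The polar form as a homomorphism in the first variable. -/
def polarHom (hp : IsPar h) (Q : M) : M →+ ℤ :=
  AddMonoidHom.mk' (fun P => polar h P Q) fun P P' => hp.polar_add_left P P' Q

@[simp] theorem polarHom_apply (hp : IsPar h) (Q P : M) : hp.polarHom Q P = polar h P Q := rfl

theorem polar_zero_left (hp : IsPar h) (Q : M) : polar h 0 Q = 0 :=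
  _root_.map_zero (hp.polarHom Q)

theorem polar_zero_right (hp : IsPar h) (P : M) : polar h P 0 = 0 := by
  rw [polar_comm, hp.polar_zero_left]

theorem polar_neg_left (hp : IsPar h) (P Q : M) : polar h (-P) Q = -polar h P Q :=
  _root_.map_neg (hp.polarHom Q) P

theorem polar_neg_right (hp : IsPar h) (P Q : M) : polar h P (-Q) = -polar h P Q := by
  rw [polar_comm, hp.polar_neg_left, polar_comm]

theorem polar_sub_left (hp : IsPar h) (P P' Q : M) :
    polar h (P - P') Q = polar h P Q - polar h P' Q :=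
  _root_.map_sub (hp.polarHom Q) P P'

theorem polar_sub_right (hp : IsPar h) (P Q Q' : M) :
    polar h P (Q - Q') = polar h P Q - polar h P Q' := by
  rw [polar_comm, hp.polar_sub_left, polar_comm h Q P, polar_comm h Q' P]

theorem polar_zsmul_left (hp : IsPar h) (n : ℤ) (P Q : M) :
    polar h (n • P) Q = n * polar h P Q := by
  have := _root_.map_zsmul (hp.polarHom Q) n P
  simpa [smul_eq_mul] using this

theorem polar_zsmul_right (hp : IsPar h) (n : ℤ) (P Q : M) :
    polar h P (n • Q) = n * polar h P Q := by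
  rw [polar_comm, hp.polar_zsmul_left, polar_comm]

theorem polar_nsmul_left (hp : IsPar h) (n : ℕ) (P Q : M) :
    polar h (n • P) Q = n * polar h P Q := by
  have := _root_.map_nsmul (hp.polarHom Q) n P
  simpa [smul_eq_mul] using this

theorem polar_nsmul_right (hp : IsPar h) (n : ℕ) (P Q : M) :
    polar h P (n • Q) = n * polar h P Q := by
  rw [polar_comm, hp.polar_nsmul_left, polar_comm]

theorem polar_sum_left (hp : IsPar h) {ι : Type*} (s : Finset ι) (P : ι → M) (Q : M) :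
    polar h (∑ i ∈ s, P i) Q = ∑ i ∈ s, polar h (P i) Q := by
  show hp.polarHom Q (∑ i ∈ s, P i) = ∑ i ∈ s, hp.polarHom Q (P i)
  exact _root_.map_sum (hp.polarHom Q) P s

/-- `h` is homogeneous of degree two. -/
theorem height_zsmul (hp : IsPar h) (n : ℤ) (P : M) : h (n • P) = n ^ 2 * h P := by
  have h1 : polar h (n • P) (n • P) = 2 * h (n • P) := hp.polar_self _
  rw [hp.polar_zsmul_left, hp.polar_zsmul_right, hp.polar_self] at h1
  have h2 : 2 * h (n • P) = 2 * (n ^ 2 * h P) := by rw [← h1]; ring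
  omega

theorem height_nsmul (hp : IsPar h) (n : ℕ) (P : M) : h (n • P) = (n : ℤ) ^ 2 * h P := by
  have := hp.height_zsmul (n : ℤ) P
  rwa [natCast_zsmul] at this

/-! ### Endomorphisms scaling `h` -/

section Endo

variable (hp : IsPar h) (Φ : M →+ M) (ℓ a : ℤ)

/-- If `h ∘ Φ = ℓ * h` then `polar (Φ P) (Φ Q) = ℓ * polar P Q`. -/
theorem polar_map_map (hΦ : ∀ Q, h (Φ Q) = ℓ * h Q) (P Q : M) :
    polar h (Φ P) (Φ Q) = ℓ * polar h P Q := by
  have h1 := hΦ (P + Q)
  rw [_root_.map_add Φ] at h1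
  simp only [polar_def]
  rw [h1, hΦ P, hΦ Q]
  ring

include hp in
/-- `polar (Φ Q) Q = a * h Q`. -/
theorem polar_map_self (hΦ : ∀ Q, h (Φ Q) = ℓ * h Q)
    (hΦ1 : ∀ Q, h (Φ Q - Q) = (ℓ + 1 - a) * h Q) (Q : M) :
    polar h (Φ Q) Q = a * h Q := by
  have h1 := hΦ1 Q
  rw [hp.height_sub, hΦ Q] at h1
  linear_combination -h1

include hp in
/-- Polarised form: `polar (Φ P) Q + polar (Φ Q) P = a * polar P Q`. -/
theorem polar_map_add_polar_map (hΦ : ∀ Q, h (Φ Q) = ℓ * h Q)
    (hΦ1 : ∀ Q, h (Φ Q - Q) = (ℓ + 1 - a) * h Q) (P Q : M) :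
    polar h (Φ P) Q + polar h (Φ Q) P = a * polar h P Q := by
  have h1 := hp.polar_map_self Φ ℓ a hΦ hΦ1 (P + Q)
  rw [_root_.map_add Φ, hp.polar_add_left, hp.polar_add_right, hp.polar_add_right,
    hp.polar_map_self Φ ℓ a hΦ hΦ1 P, hp.polar_map_self Φ ℓ a hΦ hΦ1 Q, height_add h P Q] at h1
  linear_combination h1

include hp in
/-- `polar (Φ (Φ Q)) Q = (a ^ 2 - 2 * ℓ) * h Q`. -/
theorem polar_map_map_self (hΦ : ∀ Q, h (Φ Q) = ℓ * h Q)
    (hΦ1 : ∀ Q, h (Φ Q - Q) = (ℓ + 1 - a) * h Q) (Q : M) :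
    polar h (Φ (Φ Q)) Q = (a ^ 2 - 2 * ℓ) * h Q := by
  have h1 := hp.polar_map_add_polar_map Φ ℓ a hΦ hΦ1 (Φ Q) Q
  rw [hp.polar_self, hΦ Q, hp.polar_map_self Φ ℓ a hΦ hΦ1 Q] at h1
  linear_combination h1

include hp in
/-- **A2e (abstract Frobenius relation).**  If `h` satisfies the parallelogram law and the
endomorphism `Φ` satisfies `h (Φ Q) = ℓ * h Q` and `h (Φ Q - Q) = (ℓ + 1 - a) * h Q`, then
`h` vanishes on `(Φ² - a Φ + ℓ) Q`. -/
theorem frobenius_relation (hΦ : ∀ Q, h (Φ Q) = ℓ * h Q)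
    (hΦ1 : ∀ Q, h (Φ Q - Q) = (ℓ + 1 - a) * h Q) (Q : M) :
    h (Φ (Φ Q) - a • Φ Q + ℓ • Q) = 0 := by
  have e1 := hp.polar_map_self Φ ℓ a hΦ hΦ1 Q
  have e2 := hp.polar_map_self Φ ℓ a hΦ hΦ1 (Φ Q)
  have e3 := hp.polar_map_map_self Φ ℓ a hΦ hΦ1 Q
  rw [height_add h (Φ (Φ Q) - a • Φ Q) (ℓ • Q), hp.height_sub, hp.height_zsmul, hp.height_zsmul,
    hp.polar_sub_left,
    hp.polar_zsmul_right, hp.polar_zsmul_right, hp.polar_zsmul_right, hp.polar_zsmul_left,
    hΦ (Φ Q), hΦ Q, e2, e3, e1, hΦ Q]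
  ring

include hp in
/-- The same with the relation written as `Φ² Q + ℓ Q = a Φ Q` up to a point of height `0`. -/
theorem frobenius_relation' (hΦ : ∀ Q, h (Φ Q) = ℓ * h Q)
    (hΦ1 : ∀ Q, h (Φ Q - Q) = (ℓ + 1 - a) * h Q) (Q : M) :
    h (Φ (Φ Q) + ℓ • Q - a • Φ Q) = 0 := by
  have := hp.frobenius_relation Φ ℓ a hΦ hΦ1 Q
  have e : Φ (Φ Q) + ℓ • Q - a • Φ Q = Φ (Φ Q) - a • Φ Q + ℓ • Q := by abel
  rw [e]; exact this

end Endo

end IsPar

/-! ### `ℕ`-valued heights -/

/-- The parallelogram law for a `ℕ`-valued function. -/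
def IsParNat (h : M → ℕ) : Prop :=
  ∀ P Q : M, h (P + Q) + h (P - Q) = 2 * h P + 2 * h Q

theorem IsParNat.isPar {h : M → ℕ} (hp : IsParNat h) : IsPar fun P => (h P : ℤ) := by
  intro P Q
  have := hp P Q
  push_cast [← this]
  exact_mod_cast this

/-- **A2e for `ℕ`-valued heights.**  `N` plays the role of `#E(𝔽_ℓ)`, `a = ℓ + 1 - N`. -/
theorem IsParNat.frobenius_relation {h : M → ℕ} (hp : IsParNat h) (Φ : M →+ M) (ℓ N : ℕ)
    (hΦ : ∀ Q, h (Φ Q) = ℓ * h Q) (hΦ1 : ∀ Q, h (Φ Q - Q) = N * h Q) (Q : M) :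
    h (Φ (Φ Q) - ((ℓ : ℤ) + 1 - N) • Φ Q + ℓ • Q) = 0 := by
  have key := hp.isPar.frobenius_relation Φ (ℓ : ℤ) ((ℓ : ℤ) + 1 - N)
    (fun Q => by
      show ((h (Φ Q) : ℕ) : ℤ) = (ℓ : ℤ) * ((h Q : ℕ) : ℤ)
      rw [hΦ Q]; push_cast; ring)
    (fun Q => by
      show ((h (Φ Q - Q) : ℕ) : ℤ) = ((ℓ : ℤ) + 1 - ((ℓ : ℤ) + 1 - N)) * ((h Q : ℕ) : ℤ)
      rw [hΦ1 Q]; push_cast; ring) Q
  have key' : ((h (Φ (Φ Q) - ((ℓ : ℤ) + 1 - N) • Φ Q + (ℓ : ℤ) • Q) : ℕ) : ℤ) = 0 := key
  rw [natCast_zsmul] at key'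
  exact_mod_cast key'

end Fermat.Agent.S52.H127

end
-- ===== PACK-END S52/H127/QuadForm.lean

-- ===== PACK-BEGIN Lib/Newform/H23/EigLift.lean
section


/-!
# NEWFORM library (helper23) — linear algebra: an eigensystem of a quotient occurs in the module

`exists_eigenvector_of_quotient`: let `T i` be commuting endomorphisms of a finite-dimensional
vector space, `F ≤ E` subspaces with `F ≠ E` and `(T i - a i) E ⊆ F` for all `i`
(so that the `T i` act on `E / F ≠ 0` through the scalars `a i`).  Then `E` contains a common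
eigenvector of the `T i` with eigenvalues `a i`.  No algebraic closedness is needed.
-/

set_option autoImplicit false

namespace Fermat.Agent.Lib.Newform.H23

open Module

theorem exists_eigenvector_of_quotient {K V : Type*} [Field K] [AddCommGroup V]
    [Module K V] [FiniteDimensional K V] {ι : Type*} (T : ι → Module.End K V)
    (hcomm : ∀ i j, Commute (T i) (T j)) (a : ι → K) :
    ∀ (E F : Submodule K V), F ≤ E → ¬ E ≤ F → (∀ i, ∀ v ∈ E, T i v - a i • v ∈ F) →
      ∃ v ∈ E, v ≠ 0 ∧ ∀ i, T i v = a i • v := by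
  intro E
  induction h : finrank K E using Nat.strong_induction_on generalizing E with
  | _ d ih =>
    intro F hFE hEF hS
    by_cases hall : ∀ i, ∀ v ∈ E, T i v = a i • v
    · obtain ⟨v, hvE, hvF⟩ := Set.not_subset.mp hEF
      refine ⟨v, hvE, ?_, fun i => hall i v hvE⟩
      rintro rfl
      exact hvF F.zero_mem
    · push Not at hall
      obtain ⟨i₀, w, hwE, hw⟩ := hall
      -- `S = T i₀ - a i₀`
      set S : Module.End K V := T i₀ - a i₀ • (1 : Module.End K V) with hSdef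
      have hSapp : ∀ v, S v = T i₀ v - a i₀ • v := fun v => by simp [hSdef]
      have hScomm : ∀ i v, S (T i v) = T i (S v) := by
        intro i v
        have := congrArg (fun f : Module.End K V => f v) (hcomm i₀ i).eq
        simp only [Module.End.mul_apply] at this
        rw [hSapp, hSapp, this, map_sub, map_smul]
      have hSE : ∀ v ∈ E, S v ∈ F := fun v hv => by rw [hSapp]; exact hS i₀ v hv
      have hSw : S w ≠ 0 := by
        rw [hSapp]
        exact fun h0 => hw (sub_eq_zero.mp h0)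
      by_cases hker : E ⊓ LinearMap.ker S ≤ F
      · -- Case 2: pass to `S(E)`, `S(F)`
        have hlt : finrank K (E.map S) < finrank K E := by
          -- `S : E → E` is not surjective, hence not injective
          have hmaps : ∀ v ∈ E, S v ∈ E := fun v hv => hFE (hSE v hv)
          let SE : Module.End K E := S.restrict hmaps
          have hnotsurj : ¬ Function.Surjective SE := by
            intro hsurj
            apply hEF
            intro v hv
            obtain ⟨u, hu⟩ := hsurj ⟨v, hv⟩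
            have : S (u : V) = v := by
              have := congrArg (fun x : E => (x : V)) hu
              simpa [SE] using this
            rw [← this]
            exact hSE u u.2
          have hnotinj : ¬ Function.Injective SE := fun hinj =>
            hnotsurj (LinearMap.injective_iff_surjective.mp hinj)
          have hkerne : LinearMap.ker SE ≠ ⊥ := fun hbot =>
            hnotinj (LinearMap.ker_eq_bot.mp hbot)
          have hrange : finrank K (LinearMap.range SE) + finrank K (LinearMap.ker SE) =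
              finrank K E := LinearMap.finrank_range_add_finrank_ker SE
          have hkerpos : 0 < finrank K (LinearMap.ker SE) := by
            rw [Module.finrank_pos_iff]
            exact Submodule.nontrivial_iff_ne_bot.mpr hkerne
          have hmapeq : finrank K (E.map S) = finrank K (LinearMap.range SE) := by
            have hinj : Function.Injective (E.subtype) := E.injective_subtype
            have : (LinearMap.range SE).map E.subtype = E.map S := by
              ext x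
              constructor
              · rintro ⟨y, ⟨u, rfl⟩, rfl⟩
                exact ⟨u, u.2, by simp [SE]⟩
              · rintro ⟨u, hu, rfl⟩
                exact ⟨SE ⟨u, hu⟩, ⟨⟨u, hu⟩, rfl⟩, by simp [SE]⟩
            rw [← this]
            exact (LinearEquiv.finrank_eq (Submodule.equivMapOfInjective E.subtype hinj _)).symm
          omega
        have hFE' : F.map S ≤ E.map S := Submodule.map_mono hFE
        have hEF' : ¬ E.map S ≤ F.map S := by
          intro hle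
          apply hEF
          intro u hu
          obtain ⟨f, hf, hfu⟩ := hle (Submodule.mem_map_of_mem hu)
          have hmem : u - f ∈ E ⊓ LinearMap.ker S := by
            refine ⟨E.sub_mem hu (hFE hf), ?_⟩
            show u - f ∈ LinearMap.ker S
            rw [LinearMap.mem_ker, map_sub, hfu, sub_self]
          have := F.add_mem (hker hmem) hf
          simpa using this
        have hS' : ∀ i, ∀ v ∈ E.map S, T i v - a i • v ∈ F.map S := by
          rintro i _ ⟨u, hu, rfl⟩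
          refine ⟨T i u - a i • u, hS i u hu, ?_⟩
          rw [map_sub, map_smul]
          exact congrArg (· - a i • S u) (hScomm i u)
        obtain ⟨v, hv, hv0, hveig⟩ := ih (finrank K (E.map S)) (h ▸ hlt) (E.map S) rfl
          (F.map S) hFE' hEF' hS'
        obtain ⟨u, hu, rfl⟩ := hv
        exact ⟨S u, hFE (hSE u hu), hv0, hveig⟩
      · -- Case 1: pass to `E ∩ ker S`, `F ∩ ker S`
        have hlt : finrank K ↥(E ⊓ LinearMap.ker S) < finrank K E := by
          apply Submodule.finrank_lt_finrank_of_lt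
          refine lt_of_le_of_ne inf_le_left ?_
          intro heq
          have hw' : w ∈ E ⊓ LinearMap.ker S := by rw [heq]; exact hwE
          exact hSw (LinearMap.mem_ker.mp hw'.2)
        have hFE' : F ⊓ LinearMap.ker S ≤ E ⊓ LinearMap.ker S :=
          inf_le_inf hFE le_rfl
        have hEF' : ¬ E ⊓ LinearMap.ker S ≤ F ⊓ LinearMap.ker S := fun hle =>
          hker (hle.trans inf_le_left)
        have hS' : ∀ i, ∀ v ∈ E ⊓ LinearMap.ker S, T i v - a i • v ∈ F ⊓ LinearMap.ker S := by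
          intro i v hv
          refine ⟨hS i v hv.1, ?_⟩
          have hv0 : S v = 0 := LinearMap.mem_ker.mp hv.2
          show T i v - a i • v ∈ LinearMap.ker S
          rw [LinearMap.mem_ker, map_sub, map_smul, hScomm i v, hv0]
          simp
        obtain ⟨v, hv, hv0, hveig⟩ := ih _ (h ▸ hlt) (E ⊓ LinearMap.ker S) rfl
          (F ⊓ LinearMap.ker S) hFE' hEF' hS'
        exact ⟨v, hv.1, hv0, hveig⟩

end Fermat.Agent.Lib.Newform.H23

end
-- ===== PACK-END Lib/Newform/H23/EigLift.lean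

-- ===== PACK-BEGIN S58/H273/AbsIrrOdd.lean
section



/-!
# Row S58, leaf HRES, part 1 (helper273): irreducible + odd ⇒ absolutely irreducible

Pure linear algebra.  Let `V` be a vector space of dimension two over a field `k` with `2 ≠ 0`,
let a monoid `G` act on `V` through `r : G →* End_k(V)` without nontrivial stable `k`-subspace,
and let `c ∈ G` satisfy `r(c)² = 1`, `det r(c) = -1`.  Then for every field extension `K / k`
the module `K ⊗ V` has no nontrivial `G`-stable `K`-subspace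
(`eq_bot_or_eq_top_of_involution`).

Consequence for the Prelude's residual representations: an irreducible `ρ̄` which has determinant
`-1` at some involution is absolutely irreducible (`absIrr_of_irr_of_involution`).
-/

set_option autoImplicit false

open scoped TensorProduct

namespace Fermat.Agent.S58.H273

section LinAlg

variable {k : Type*} [Field k] {V : Type*} [AddCommGroup V] [Module k V]

/-- An involution of determinant `-1` of a plane (`2 ≠ 0`) has an eigenvector for `1` and an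
eigenvector for `-1`. -/
theorem exists_eigenvectors_of_involution (h2 : (2 : k) ≠ 0) (hV : Module.finrank k V = 2)
    (T : Module.End k V) (hT : T * T = 1) (hdet : LinearMap.det T = -1) :
    ∃ v w : V, v ≠ 0 ∧ w ≠ 0 ∧ T v = v ∧ T w = -w := by
  have hTT : ∀ x, T (T x) = x := fun x => by
    have := congrArg (fun f : Module.End k V => f x) hT
    simpa using this
  have hne : (1 : k) ≠ -1 := by
    intro h
    apply h2
    have : (2 : k) = 1 + 1 := by norm_num
    rw [this]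
    nth_rewrite 1 [h]
    ring
  -- `T ≠ -1`
  have h1 : ∃ x, T x + x ≠ 0 := by
    by_contra hcon
    have hcon' : ∀ x, T x + x = 0 := fun x => by
      by_contra hx
      exact hcon ⟨x, hx⟩
    have hTe : T = (-1 : k) • (1 : Module.End k V) := by
      ext x
      have := hcon' x
      rw [neg_smul, one_smul]
      exact eq_neg_of_add_eq_zero_left this
    rw [hTe, LinearMap.det_smul, hV, map_one] at hdet
    apply hne
    rw [← hdet]
    ring
  -- `T ≠ 1`
  have h2' : ∃ y, T y - y ≠ 0 := by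
    by_contra hcon
    have hcon' : ∀ x, T x - x = 0 := fun x => by
      by_contra hx
      exact hcon ⟨x, hx⟩
    have hTe : T = 1 := by
      ext x
      have := hcon' x
      rw [Module.End.one_apply]
      exact sub_eq_zero.mp this
    rw [hTe, map_one] at hdet
    exact hne hdet
  obtain ⟨x, hx⟩ := h1
  obtain ⟨y, hy⟩ := h2'
  refine ⟨T x + x, T y - y, hx, hy, ?_, ?_⟩
  · rw [map_add, hTT, add_comm]
  · rw [map_sub, hTT, neg_sub]

/-- The two eigenvectors form a basis. -/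
theorem linearIndependent_eigenvectors (h2 : (2 : k) ≠ 0) (T : Module.End k V) {v w : V}
    (hv : v ≠ 0) (hw : w ≠ 0) (hTv : T v = v) (hTw : T w = -w) :
    LinearIndependent k ![v, w] := by
  rw [LinearIndependent.pair_iff]
  intro s t hst
  have h1 : s • v - t • w = 0 := by
    have := congrArg T hst
    rw [map_add, map_smul, map_smul, hTv, hTw, map_zero, smul_neg, ← sub_eq_add_neg] at this
    exact this
  have h3 : (2 * s) • v = 0 := by
    have : (2 * s) • v = (s • v + t • w) + (s • v - t • w) := by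
      rw [mul_smul, two_smul]; abel
    rw [this, hst, h1, add_zero]
  have hs : s = 0 := by
    rcases smul_eq_zero.mp h3 with h | h
    · rcases mul_eq_zero.mp h with h' | h'
      · exact absurd h' h2
      · exact h'
    · exact absurd h hv
  refine ⟨hs, ?_⟩
  rw [hs, zero_smul, zero_add] at hst
  rcases smul_eq_zero.mp hst with h | h
  · exact h
  · exact absurd h hw

variable {G : Type*} [Monoid G]

/-- **Irreducible + odd ⇒ absolutely irreducible**, linear algebra form. -/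
theorem eq_bot_or_eq_top_of_involution (h2 : (2 : k) ≠ 0) (hV : Module.finrank k V = 2)
    (r : G →* Module.End k V)
    (hirr : ∀ W : Submodule k V, (∀ σ : G, ∀ x ∈ W, r σ x ∈ W) → W = ⊥ ∨ W = ⊤)
    (c : G) (hc : c * c = 1) (hdet : LinearMap.det (r c) = -1)
    (K : Type*) [Field K] [Algebra k K]
    (L : Submodule K (K ⊗[k] V))
    (hL : ∀ σ : G, ∀ x ∈ L, (r σ).baseChange K x ∈ L) :
    L = ⊥ ∨ L = ⊤ := by
  classical
  have hT : r c * r c = 1 := by rw [← map_mul, hc, map_one]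
  obtain ⟨v, w, hv, hw, hTv, hTw⟩ := exists_eigenvectors_of_involution h2 hV (r c) hT hdet
  have hli := linearIndependent_eigenvectors h2 (r c) hv hw hTv hTw
  have hcard : Fintype.card (Fin 2) = Module.finrank k V := by rw [hV]; rfl
  let b : Module.Basis (Fin 2) k V := basisOfLinearIndependentOfCardEqFinrank hli hcard
  have hb0 : b 0 = v := by
    simp [b, coe_basisOfLinearIndependentOfCardEqFinrank]
  have hb1 : b 1 = w := by
    simp [b, coe_basisOfLinearIndependentOfCardEqFinrank]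
  let bK : Module.Basis (Fin 2) K (K ⊗[k] V) := Algebra.TensorProduct.basis K b
  have hbK0 : bK 0 = (1 : K) ⊗ₜ[k] v := by
    rw [← hb0]; exact Algebra.TensorProduct.basis_apply b 0
  have hbK1 : bK 1 = (1 : K) ⊗ₜ[k] w := by
    rw [← hb1]; exact Algebra.TensorProduct.basis_apply b 1
  -- the `k`-subspace of the `x` with `1 ⊗ x ∈ L`
  let L₀ : Submodule k V :=
    { carrier := {x | (1 : K) ⊗ₜ[k] x ∈ L}
      add_mem' := by
        intro x y hx hy
        change (1 : K) ⊗ₜ[k] (x + y) ∈ L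
        rw [TensorProduct.tmul_add]
        exact L.add_mem hx hy
      zero_mem' := by
        change (1 : K) ⊗ₜ[k] (0 : V) ∈ L
        rw [TensorProduct.tmul_zero]
        exact L.zero_mem
      smul_mem' := by
        intro a x hx
        change (1 : K) ⊗ₜ[k] (a • x) ∈ L
        have : (1 : K) ⊗ₜ[k] (a • x) = (algebraMap k K a) • ((1 : K) ⊗ₜ[k] x) := by
          rw [TensorProduct.tmul_smul, TensorProduct.smul_tmul', TensorProduct.smul_tmul',
            Algebra.smul_def, mul_one, smul_eq_mul, mul_one]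
        rw [this]
        exact L.smul_mem _ hx }
  have hL₀mem : ∀ x, x ∈ L₀ ↔ (1 : K) ⊗ₜ[k] x ∈ L := fun x => Iff.rfl
  have hL₀ : ∀ σ : G, ∀ x ∈ L₀, r σ x ∈ L₀ := by
    intro σ x hx
    rw [hL₀mem] at hx ⊢
    have := hL σ _ hx
    rwa [LinearMap.baseChange_tmul] at this
  rcases hirr L₀ hL₀ with hbot | htop
  · -- `L = ⊥`
    left
    rw [eq_bot_iff]
    intro u hu
    rw [Submodule.mem_bot]
    obtain ⟨α, β, hexp⟩ : ∃ α β : K, u = α • bK 0 + β • bK 1 :=
      ⟨bK.repr u 0, bK.repr u 1, by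
        rw [← Fin.sum_univ_two (f := fun i => bK.repr u i • bK i)]
        exact (bK.sum_repr u).symm⟩
    have hTu : (r c).baseChange K u = α • bK 0 - β • bK 1 := by
      rw [hexp, map_add, map_smul, map_smul, hbK0, hbK1, LinearMap.baseChange_tmul,
        LinearMap.baseChange_tmul, hTv, hTw, TensorProduct.tmul_neg, smul_neg, sub_eq_add_neg]
    have hTuL : (r c).baseChange K u ∈ L := hL c u hu
    have h2K : (2 : K) ≠ 0 := by
      have : (2 : K) = algebraMap k K 2 := (map_ofNat (algebraMap k K) 2).symm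
      rw [this]
      exact (map_ne_zero (algebraMap k K)).mpr h2
    have hα : α = 0 := by
      by_contra hα
      have hmem : (2 * α) • bK 0 ∈ L := by
        have : (2 * α) • bK 0 = u + (r c).baseChange K u := by
          rw [hTu, hexp, mul_smul, two_smul]; abel
        rw [this]
        exact L.add_mem hu hTuL
      have hmem' : bK 0 ∈ L := by
        have := L.smul_mem (2 * α)⁻¹ hmem
        rwa [smul_smul, inv_mul_cancel₀ (mul_ne_zero h2K hα), one_smul] at this
      rw [hbK0, ← hL₀mem, hbot, Submodule.mem_bot] at hmem'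
      exact hv hmem'
    have hβ : β = 0 := by
      by_contra hβ
      have hmem : (2 * β) • bK 1 ∈ L := by
        have : (2 * β) • bK 1 = u - (r c).baseChange K u := by
          rw [hTu, hexp, mul_smul, two_smul]; abel
        rw [this]
        exact L.sub_mem hu hTuL
      have hmem' : bK 1 ∈ L := by
        have := L.smul_mem (2 * β)⁻¹ hmem
        rwa [smul_smul, inv_mul_cancel₀ (mul_ne_zero h2K hβ), one_smul] at this
      rw [hbK1, ← hL₀mem, hbot, Submodule.mem_bot] at hmem'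
      exact hw hmem'
    rw [hexp, hα, hβ, zero_smul, zero_smul, add_zero]
  · -- `L = ⊤`
    right
    have hall : ∀ u : K ⊗[k] V, u ∈ L := by
      intro u
      induction u using TensorProduct.induction_on with
      | zero => exact L.zero_mem
      | tmul a x =>
        have hx : (1 : K) ⊗ₜ[k] x ∈ L := by
          rw [← hL₀mem, htop]; trivial
        have : a ⊗ₜ[k] x = a • ((1 : K) ⊗ₜ[k] x) := by
          rw [TensorProduct.smul_tmul', smul_eq_mul, mul_one]
        rw [this]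
        exact L.smul_mem _ hx
      | add x y hx hy => exact L.add_mem hx hy
    rw [eq_top_iff]
    intro u _
    exact hall u

end LinAlg

/-- **Irreducible + odd ⇒ absolutely irreducible** for the Prelude's residual representations:
if `ρ̄` is irreducible, `2 ≠ 0` in `k`, and `det ρ̄(c) = -1` for some involution `c`, then `ρ̄` is
absolutely irreducible. -/
theorem absIrr_of_irr_of_involution {k : Type} [Field k] (h2 : (2 : k) ≠ 0)
    (ρbar : ResidualGaloisRep k) (hirr : ρbar.IsIrreducible)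
    (c : AlgebraicClosure ℚ ≃ₐ[ℚ] AlgebraicClosure ℚ) (hc : c * c = 1)
    (hdet : LinearMap.det (ρbar.ρ c) = -1) :
    ρbar.IsAbsolutelyIrreducible := by
  intro L hL
  exact eq_bot_or_eq_top_of_involution h2 ρbar.finrank_eq ρbar.ρ hirr c hc hdet
    (AlgebraicClosure k) L hL

end Fermat.Agent.S58.H273

end
-- ===== PACK-END S58/H273/AbsIrrOdd.lean

-- ===== PACK-BEGIN S53/Dict.lean
section



set_option autoImplicit false
set_option linter.unusedSectionVars false

open scoped TensorProduct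

namespace Fermat.Agent.S53

/-- The absolute Galois group of `ℚ`. -/
abbrev GQ : Type := AlgebraicClosure ℚ ≃ₐ[ℚ] AlgebraicClosure ℚ

/-- `2 × 2` matrices. -/
abbrev M2 (A : Type) : Type := Matrix (Fin 2) (Fin 2) A

/-- Matrices acting on column vectors, as a monoid homomorphism. -/
noncomputable def matEnd (A : Type) [CommRing A] : M2 A →* Module.End A (Fin 2 → A) :=
  (Matrix.toLinAlgEquiv' (R := A) (n := Fin 2)).toAlgHom.toRingHom.toMonoidHom

@[simp] lemma matEnd_apply {A : Type} [CommRing A] (P : M2 A) (v : Fin 2 → A) :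
    matEnd A P v = P.mulVec v := rfl

lemma matEnd_injective (A : Type) [CommRing A] : Function.Injective (matEnd A) :=
  (Matrix.toLinAlgEquiv' (R := A) (n := Fin 2)).injective

section Adic

variable {A : Type} [CommRing A] [IsLocalRing A]

/-- Adic continuity of a matrix-valued representation. -/
def MatCont (r : GQ →* M2 A) : Prop :=
  ∀ n : ℕ, ∃ L : IntermediateField ℚ (AlgebraicClosure ℚ), FiniteDimensional ℚ L ∧
    ∀ σ : GQ, (∀ x ∈ L, σ x = x) → ∀ i j, (r σ - 1) i j ∈ IsLocalRing.maximalIdeal A ^ n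

lemma mem_smul_top_pi_iff (I : Ideal A) (w : Fin 2 → A) :
    w ∈ I • (⊤ : Submodule A (Fin 2 → A)) ↔ ∀ i, w i ∈ I := by
  constructor
  · intro hw
    refine Submodule.smul_induction_on hw ?_ ?_
    · intro a ha v _ i
      simpa [smul_eq_mul] using I.mul_mem_right (v i) ha
    · intro x y hx hy i
      simpa using I.add_mem (hx i) (hy i)
  · intro hw
    have : w = ∑ i, w i • (Pi.single i (1 : A) : Fin 2 → A) := by
      ext j
      simp [Finset.sum_apply, Pi.single_apply]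
    rw [this]
    exact Submodule.sum_mem _ fun i _ => Submodule.smul_mem_smul (hw i) Submodule.mem_top

/-- The adic Galois representation attached to a matrix-valued representation. -/
noncomputable def toAdic (r : GQ →* M2 A) (hr : MatCont r) : GaloisRepAdic A where
  V := Fin 2 → A
  finrank_eq := by simp
  ρ := (matEnd A).comp r
  isAdicContinuous := by
    intro n
    obtain ⟨L, hL, h⟩ := hr n
    refine ⟨L, hL, fun σ hσ v => ?_⟩
    rw [mem_smul_top_pi_iff]
    intro i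
    have : ((matEnd A).comp r) σ v - v = (r σ - 1).mulVec v := by
      simp [Matrix.sub_mulVec]
    rw [this]
    simp only [Matrix.mulVec, dotProduct]
    exact Ideal.sum_mem _ fun j _ => Ideal.mul_mem_right _ _ (h σ hσ i j)

@[simp] lemma toAdic_ρ_apply (r : GQ →* M2 A) (hr : MatCont r) (σ : GQ) (v : Fin 2 → A) :
    (toAdic r hr).ρ σ v = (r σ).mulVec v := rfl

lemma repr_mem_of_mem_smul_top {V : Type} [AddCommGroup V] [Module A V]
    (b : Module.Basis (Fin 2) A V) (I : Ideal A) {w : V}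
    (hw : w ∈ I • (⊤ : Submodule A V)) (i : Fin 2) : b.repr w i ∈ I := by
  refine Submodule.smul_induction_on hw ?_ ?_
  · intro a ha v _
    simpa [smul_eq_mul] using I.mul_mem_right (b.repr v i) ha
  · intro x y hx hy
    simpa using I.add_mem hx hy

/-- Every adic Galois representation is equivalent to a matrix one. -/
theorem exists_toAdic (ρ : GaloisRepAdic A) :
    ∃ (r : GQ →* M2 A) (hr : MatCont r), ρ.IsEquiv (toAdic r hr) := by
  classical
  let b : Module.Basis (Fin 2) A ρ.V := Module.finBasisOfFinrankEq A ρ.V ρ.finrank_eq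
  let r : GQ →* M2 A := (LinearMap.toMatrixAlgEquiv b).toAlgHom.toRingHom.toMonoidHom.comp ρ.ρ
  have hrσ : ∀ σ, r σ = LinearMap.toMatrix b b (ρ.ρ σ) := fun σ => rfl
  have hr : MatCont r := by
    intro n
    obtain ⟨L, hL, h⟩ := ρ.isAdicContinuous n
    refine ⟨L, hL, fun σ hσ i j => ?_⟩
    have h1 : (r σ - 1) i j = b.repr (ρ.ρ σ (b j) - b j) i := by
      rw [hrσ, ← LinearMap.toMatrix_one b, ← map_sub, LinearMap.toMatrix_apply]
      rfl
    rw [h1]
    exact repr_mem_of_mem_smul_top b _ (h σ hσ (b j)) i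
  refine ⟨r, hr, ⟨⟨b.equivFun, fun σ x => ?_⟩⟩⟩
  rw [toAdic_ρ_apply, hrσ]
  exact (LinearMap.toMatrix_mulVec_repr b b (ρ.ρ σ) x).symm

/-- The linear automorphism of `A²` given by an invertible matrix. -/
noncomputable def unitEquiv (P : (M2 A)ˣ) : (Fin 2 → A) ≃ₗ[A] (Fin 2 → A) :=
  Matrix.toLin'OfInv (M := ((P⁻¹ : (M2 A)ˣ) : M2 A)) (M' := (P : M2 A)) (by simp) (by simp)

@[simp] lemma unitEquiv_apply (P : (M2 A)ˣ) (v : Fin 2 → A) :
    unitEquiv P v = (P : M2 A).mulVec v := rfl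

/-- The invertible matrix of a linear automorphism of `A²`. -/
noncomputable def equivUnit (f : (Fin 2 → A) ≃ₗ[A] (Fin 2 → A)) : (M2 A)ˣ :=
  ⟨LinearMap.toMatrix' f.toLinearMap, LinearMap.toMatrix' f.symm.toLinearMap,
    by rw [← LinearMap.toMatrix'_comp]; simp, by rw [← LinearMap.toMatrix'_comp]; simp⟩

lemma equivUnit_mulVec (f : (Fin 2 → A) ≃ₗ[A] (Fin 2 → A)) (v : Fin 2 → A) :
    ((equivUnit f : (M2 A)ˣ) : M2 A).mulVec v = f v := by
  show (LinearMap.toMatrix' f.toLinearMap).mulVec v = f v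
  rw [LinearMap.toMatrix'_mulVec]; rfl

lemma mulVec_injective_M2 {P Q : M2 A} (h : ∀ v : Fin 2 → A, P.mulVec v = Q.mulVec v) : P = Q := by
  apply Matrix.toLin'.injective
  exact LinearMap.ext fun v => by simpa using h v

/-- Equivalence of matrix representations is conjugacy. -/
theorem toAdic_isEquiv_iff (r r' : GQ →* M2 A) (hr : MatCont r) (hr' : MatCont r') :
    (toAdic r hr).IsEquiv (toAdic r' hr') ↔ ∃ P : (M2 A)ˣ, ∀ σ, (P : M2 A) * r σ = r' σ * P := by
  constructor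
  · rintro ⟨e⟩
    let f : (Fin 2 → A) ≃ₗ[A] (Fin 2 → A) := e.toLinearEquiv
    have hf : ∀ σ x, f ((r σ).mulVec x) = (r' σ).mulVec (f x) := e.map_apply
    refine ⟨equivUnit f, fun σ => mulVec_injective_M2 fun v => ?_⟩
    rw [← Matrix.mulVec_mulVec, ← Matrix.mulVec_mulVec, equivUnit_mulVec, equivUnit_mulVec]
    exact hf σ v
  · rintro ⟨P, hP⟩
    refine ⟨⟨unitEquiv P, fun σ x => ?_⟩⟩
    show (P : M2 A).mulVec ((r σ).mulVec x) = (r' σ).mulVec ((P : M2 A).mulVec x)
    rw [Matrix.mulVec_mulVec, Matrix.mulVec_mulVec, hP]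

/-- Conjugating a matrix representation by a unit. -/
noncomputable def conjRep (P : (M2 A)ˣ) (r : GQ →* M2 A) : GQ →* M2 A where
  toFun σ := (P : M2 A) * r σ * ((P⁻¹ : (M2 A)ˣ) : M2 A)
  map_one' := by simp
  map_mul' σ τ := by
    rw [map_mul]
    simp only [mul_assoc]
    congr 2
    rw [← mul_assoc (((P⁻¹ : (M2 A)ˣ) : M2 A)), Units.inv_mul, one_mul]

@[simp] lemma conjRep_apply (P : (M2 A)ˣ) (r : GQ →* M2 A) (σ : GQ) :
    conjRep P r σ = (P : M2 A) * r σ * ((P⁻¹ : (M2 A)ˣ) : M2 A) := rfl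

lemma conjRep_mul_eq (P : (M2 A)ˣ) (r : GQ →* M2 A) (σ : GQ) :
    (P : M2 A) * r σ = conjRep P r σ * P := by
  simp [mul_assoc]

lemma entry_mul_mul_mem (I : Ideal A) (P X Q : M2 A) (hX : ∀ i j, X i j ∈ I) (i j : Fin 2) :
    (P * X * Q) i j ∈ I := by
  rw [Matrix.mul_apply]
  refine Ideal.sum_mem _ fun l _ => Ideal.mul_mem_right _ _ ?_
  rw [Matrix.mul_apply]
  exact Ideal.sum_mem _ fun k _ => Ideal.mul_mem_left _ _ (hX k l)

lemma MatCont.conj {r : GQ →* M2 A} (hr : MatCont r) (P : (M2 A)ˣ) : MatCont (conjRep P r) := by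
  intro n
  obtain ⟨L, hL, h⟩ := hr n
  refine ⟨L, hL, fun σ hσ i j => ?_⟩
  have h1 : conjRep P r σ - 1 = (P : M2 A) * (r σ - 1) * ((P⁻¹ : (M2 A)ˣ) : M2 A) := by
    simp [mul_sub, sub_mul]
  rw [h1]
  exact entry_mul_mul_mem _ _ _ _ (h σ hσ) i j

lemma toAdic_conjRep_isEquiv (r : GQ →* M2 A) (hr : MatCont r) (P : (M2 A)ˣ) :
    (toAdic r hr).IsEquiv (toAdic (conjRep P r) (hr.conj P)) :=
  (toAdic_isEquiv_iff _ _ _ _).2 ⟨P, conjRep_mul_eq P r⟩

end Adic

section Map

variable {A B : Type} [CommRing A] [CommRing B]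

/-- Push a matrix representation forward along a ring homomorphism. -/
noncomputable def mapRep (φ : A →+* B) (r : GQ →* M2 A) : GQ →* M2 B :=
  φ.mapMatrix.toMonoidHom.comp r

@[simp] lemma mapRep_apply (φ : A →+* B) (r : GQ →* M2 A) (σ : GQ) :
    mapRep φ r σ = (r σ).map φ := rfl

lemma mapRep_apply_apply (φ : A →+* B) (r : GQ →* M2 A) (σ : GQ) (i j : Fin 2) :
    mapRep φ r σ i j = φ (r σ i j) := rfl

lemma mapRep_comp {C : Type} [CommRing C] (ψ : B →+* C) (φ : A →+* B) (r : GQ →* M2 A) :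
    mapRep ψ (mapRep φ r) = mapRep (ψ.comp φ) r := by
  ext σ i j; rfl

lemma mapRep_id (r : GQ →* M2 A) : mapRep (RingHom.id A) r = r := by
  ext σ i j; rfl

lemma MatCont.map [IsLocalRing A] [IsLocalRing B] {r : GQ →* M2 A} (hr : MatCont r)
    (φ : A →+* B) (hφ : IsLocalHom φ) : MatCont (mapRep φ r) := by
  intro n
  obtain ⟨L, hL, h⟩ := hr n
  refine ⟨L, hL, fun σ hσ i j => ?_⟩
  have hmap : (IsLocalRing.maximalIdeal A ^ n).map φ ≤ IsLocalRing.maximalIdeal B ^ n := by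
    rw [Ideal.map_pow]
    exact Ideal.pow_right_mono (Ideal.map_le_iff_le_comap.mpr fun a ha =>
      Ideal.mem_comap.mpr (haveI := hφ; map_nonunit φ a ha)) n
  have h1 : (mapRep φ r σ - 1) i j = φ ((r σ - 1) i j) := by
    simp only [mapRep_apply, Matrix.sub_apply, Matrix.map_apply, map_sub]
    congr 1
    by_cases hij : i = j
    · subst hij; simp
    · simp [hij]
  rw [h1]
  exact hmap (Ideal.mem_map_of_mem φ (h σ hσ i j))

/-- Compatibility of `piScalarRight` with base change of a matrix endomorphism. -/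
lemma piScalarRight_baseChange [Algebra A B] (P : M2 A) (x : B ⊗[A] (Fin 2 → A)) :
    TensorProduct.piScalarRight A B B (Fin 2) ((matEnd A P).baseChange B x) =
      (P.map (algebraMap A B)).mulVec (TensorProduct.piScalarRight A B B (Fin 2) x) := by
  induction x using TensorProduct.induction_on with
  | zero => simp
  | tmul b v =>
    rw [LinearMap.baseChange_tmul]
    ext i
    simp only [TensorProduct.piScalarRight_apply, TensorProduct.piScalarRightHom_tmul,
      matEnd_apply, Matrix.mulVec, dotProduct, Matrix.map_apply, Algebra.smul_def, map_sum,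
      map_mul, Finset.sum_mul, mul_assoc]
  | add x y hx hy => simp only [map_add, hx, hy, Matrix.mulVec_add]

theorem baseChangeAlong_toAdic [IsLocalRing A] [IsLocalRing B] (φ : A →+* B) (hφ : IsLocalHom φ)
    (r : GQ →* M2 A) (hr : MatCont r) :
    ((toAdic r hr).baseChangeAlong φ hφ).IsEquiv (toAdic (mapRep φ r) (hr.map φ hφ)) := by
  let _ : Algebra A B := φ.toAlgebra
  let e : B ⊗[A] (Fin 2 → A) ≃ₗ[B] (Fin 2 → B) := TensorProduct.piScalarRight A B B (Fin 2)
  refine ⟨⟨e, fun σ x => ?_⟩⟩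
  exact piScalarRight_baseChange (r σ) x

end Map

section Res

variable {k : Type} [Field k]

/-- The residual Galois representation attached to a matrix-valued representation. -/
noncomputable def toRes (rb : GQ →* M2 k) (h : GaloisFactorsThroughFiniteLevel rb) :
    ResidualGaloisRep k where
  V := Fin 2 → k
  finrank_eq := by simp
  ρ := (matEnd k).comp rb
  factorsThroughFiniteLevel := by
    obtain ⟨L, hL, h1⟩ := h
    exact ⟨L, hL, fun σ hσ => by rw [MonoidHom.comp_apply, h1 σ hσ, map_one]⟩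

@[simp] lemma toRes_ρ_apply (rb : GQ →* M2 k) (h : GaloisFactorsThroughFiniteLevel rb) (σ : GQ)
    (v : Fin 2 → k) : (toRes rb h).ρ σ v = (rb σ).mulVec v := rfl

/-- Every residual Galois representation is equivalent to a matrix one. -/
theorem exists_toRes (ρ : ResidualGaloisRep k) :
    ∃ (rb : GQ →* M2 k) (h : GaloisFactorsThroughFiniteLevel rb), ρ.IsEquiv (toRes rb h) := by
  classical
  let b : Module.Basis (Fin 2) k ρ.V := Module.finBasisOfFinrankEq k ρ.V ρ.finrank_eq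
  let r : GQ →* M2 k := (LinearMap.toMatrixAlgEquiv b).toAlgHom.toRingHom.toMonoidHom.comp ρ.ρ
  have hrσ : ∀ σ, r σ = LinearMap.toMatrix b b (ρ.ρ σ) := fun σ => rfl
  have hr : GaloisFactorsThroughFiniteLevel r := by
    obtain ⟨L, hL, h⟩ := ρ.factorsThroughFiniteLevel
    exact ⟨L, hL, fun σ hσ => by rw [MonoidHom.comp_apply, h σ hσ, map_one]⟩
  refine ⟨r, hr, ⟨⟨b.equivFun, fun σ x => ?_⟩⟩⟩
  rw [toRes_ρ_apply, hrσ]
  exact (LinearMap.toMatrix_mulVec_repr b b (ρ.ρ σ) x).symm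

/-- Equivalence of residual matrix representations is conjugacy. -/
theorem toRes_isEquiv_iff (r r' : GQ →* M2 k) (hr : GaloisFactorsThroughFiniteLevel r)
    (hr' : GaloisFactorsThroughFiniteLevel r') :
    (toRes r hr).IsEquiv (toRes r' hr') ↔ ∃ P : (M2 k)ˣ, ∀ σ, (P : M2 k) * r σ = r' σ * P := by
  constructor
  · rintro ⟨e⟩
    let f : (Fin 2 → k) ≃ₗ[k] (Fin 2 → k) := e.toLinearEquiv
    have hf : ∀ σ x, f ((r σ).mulVec x) = (r' σ).mulVec (f x) := e.map_apply
    refine ⟨equivUnit f, fun σ => mulVec_injective_M2 fun v => ?_⟩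
    rw [← Matrix.mulVec_mulVec, ← Matrix.mulVec_mulVec, equivUnit_mulVec, equivUnit_mulVec]
    exact hf σ v
  · rintro ⟨P, hP⟩
    refine ⟨⟨unitEquiv P, fun σ x => ?_⟩⟩
    show (P : M2 k).mulVec ((r σ).mulVec x) = (r' σ).mulVec ((P : M2 k).mulVec x)
    rw [Matrix.mulVec_mulVec, Matrix.mulVec_mulVec, hP]

lemma factors_mapRep {k' : Type} [Field k'] (ψ : k →+* k') {rb : GQ →* M2 k}
    (h : GaloisFactorsThroughFiniteLevel rb) : GaloisFactorsThroughFiniteLevel (mapRep ψ rb) := by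
  obtain ⟨L, hL, h1⟩ := h
  refine ⟨L, hL, fun σ hσ => ?_⟩
  show ψ.mapMatrix (rb σ) = 1
  rw [h1 σ hσ, map_one]

theorem baseChangeAlong_toRes {k' : Type} [Field k'] (ψ : k →+* k') (rb : GQ →* M2 k)
    (h : GaloisFactorsThroughFiniteLevel rb) :
    ((toRes rb h).baseChangeAlong ψ).IsEquiv (toRes (mapRep ψ rb) (factors_mapRep ψ h)) := by
  let _ : Algebra k k' := ψ.toAlgebra
  let e : k' ⊗[k] (Fin 2 → k) ≃ₗ[k'] (Fin 2 → k') := TensorProduct.piScalarRight k k' k' (Fin 2)
  refine ⟨⟨e, fun σ x => ?_⟩⟩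
  exact piScalarRight_baseChange (rb σ) x

end Res

section Residual

variable {A : Type} [CommRing A] [IsLocalRing A]

lemma MatCont.factors_residue {r : GQ →* M2 A} (hr : MatCont r) :
    GaloisFactorsThroughFiniteLevel (mapRep (IsLocalRing.residue A) r) := by
  obtain ⟨L, hL, h⟩ := hr 1
  refine ⟨L, hL, fun σ hσ => ?_⟩
  ext i j
  have h1 := h σ hσ i j
  rw [pow_one, ← IsLocalRing.residue_eq_zero_iff, Matrix.sub_apply, map_sub, sub_eq_zero] at h1
  rw [mapRep_apply, Matrix.map_apply, h1]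
  by_cases hij : i = j
  · subst hij; simp
  · simp [hij]

theorem residual_toAdic (r : GQ →* M2 A) (hr : MatCont r) :
    (toAdic r hr).residual.IsEquiv
      (toRes (mapRep (IsLocalRing.residue A) r) hr.factors_residue) := by
  let e : IsLocalRing.ResidueField A ⊗[A] (Fin 2 → A) ≃ₗ[IsLocalRing.ResidueField A]
      (Fin 2 → IsLocalRing.ResidueField A) :=
    TensorProduct.piScalarRight A (IsLocalRing.ResidueField A) (IsLocalRing.ResidueField A) (Fin 2)
  refine ⟨⟨e, fun σ x => ?_⟩⟩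
  exact piScalarRight_baseChange (r σ) x

end Residual

section Lift

open IsLocalRing

variable {A : Type} [CommRing A] [IsLocalRing A]

/-- Every invertible matrix over the residue field lifts to an invertible matrix. -/
theorem exists_unit_lift (Pb : (M2 (ResidueField A))ˣ) :
    ∃ P : (M2 A)ˣ, (P : M2 A).map (residue A) = (Pb : M2 (ResidueField A)) := by
  classical
  choose f hf using fun (ij : Fin 2 × Fin 2) =>
    residue_surjective ((Pb : M2 (ResidueField A)) ij.1 ij.2)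
  let P : M2 A := Matrix.of fun i j => f (i, j)
  have hP : P.map (residue A) = (Pb : M2 (ResidueField A)) := by
    ext i j
    simp [P, hf]
  have hdet : IsUnit P.det := by
    rw [← residue_ne_zero_iff_isUnit]
    have h1 : residue A P.det = (Pb : M2 (ResidueField A)).det := by
      rw [RingHom.map_det, RingHom.mapMatrix_apply, hP]
    rw [h1]
    exact ((Matrix.isUnit_iff_isUnit_det _).1 Pb.isUnit).ne_zero
  obtain ⟨u, hu⟩ := (Matrix.isUnit_iff_isUnit_det P).2 hdet
  exact ⟨u, by rw [hu]; exact hP⟩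

lemma map_unit_inv {B : Type} [CommRing B] (φ : A →+* B) (P : (M2 A)ˣ) :
    (((P⁻¹ : (M2 A)ˣ) : M2 A)).map φ = ((Units.map φ.mapMatrix.toMonoidHom P)⁻¹ : (M2 B)ˣ) := by
  rw [← map_inv]
  rfl

variable {𝒪 : Type} [CommRing 𝒪] [IsLocalRing 𝒪] [Algebra 𝒪 A] [IsLocalHom (algebraMap 𝒪 A)]

/-- A matrix representation lifting `rb` has residual representation `ρbar`. -/
theorem residual_isEquiv_of_lift (ρbar : ResidualGaloisRep (ResidueField 𝒪))
    (rb : GQ →* M2 (ResidueField 𝒪)) (hrb : GaloisFactorsThroughFiniteLevel rb)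
    (hρbar : ρbar.IsEquiv (toRes rb hrb)) (r : GQ →* M2 A) (hr : MatCont r)
    (hlift : ∀ σ, (r σ).map (residue A) = (rb σ).map (ResidueField.map (algebraMap 𝒪 A))) :
    (toAdic r hr).residual.IsEquiv
      (ρbar.baseChangeAlong (ResidueField.map (algebraMap 𝒪 A))) := by
  obtain ⟨e1⟩ := residual_toAdic r hr
  obtain ⟨e2⟩ := baseChangeAlong_toRes (ResidueField.map (algebraMap 𝒪 A)) rb hrb
  obtain ⟨e3⟩ := hρbar
  have e4 : (toRes (mapRep (residue A) r) hr.factors_residue).IsEquiv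
      (toRes (mapRep (ResidueField.map (algebraMap 𝒪 A)) rb)
        (factors_mapRep (ResidueField.map (algebraMap 𝒪 A)) hrb)) := by
    rw [toRes_isEquiv_iff]
    exact ⟨1, fun σ => by simp [hlift σ]⟩
  obtain ⟨e4⟩ := e4
  exact ⟨(e1.trans e4).trans
    ((e3.baseChangeAlong (ResidueField.map (algebraMap 𝒪 A))).trans e2).symm⟩

/-- Every deformation of `ρbar ≅ toRes rb` is equivalent to a matrix representation
lifting `rb` on the nose. -/
theorem exists_lift_of_residual_isEquiv (ρbar : ResidualGaloisRep (ResidueField 𝒪))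
    (rb : GQ →* M2 (ResidueField 𝒪)) (hrb : GaloisFactorsThroughFiniteLevel rb)
    (hρbar : ρbar.IsEquiv (toRes rb hrb)) (ρA : GaloisRepAdic A)
    (hres : ρA.residual.IsEquiv (ρbar.baseChangeAlong (ResidueField.map (algebraMap 𝒪 A)))) :
    ∃ (r : GQ →* M2 A) (hr : MatCont r),
      (∀ σ, (r σ).map (residue A) = (rb σ).map (ResidueField.map (algebraMap 𝒪 A))) ∧
      ρA.IsEquiv (toAdic r hr) := by
  obtain ⟨r0, hr0, ⟨e0⟩⟩ := exists_toAdic ρA
  obtain ⟨e1⟩ := residual_toAdic r0 hr0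
  obtain ⟨e2⟩ := baseChangeAlong_toRes (ResidueField.map (algebraMap 𝒪 A)) rb hrb
  obtain ⟨e3⟩ := hρbar
  obtain ⟨e4⟩ := hres
  have e5 : (toRes (mapRep (residue A) r0) hr0.factors_residue).IsEquiv
      (toRes (mapRep (ResidueField.map (algebraMap 𝒪 A)) rb)
        (factors_mapRep (ResidueField.map (algebraMap 𝒪 A)) hrb)) :=
    ⟨(e1.symm.trans (e0.residual.symm.trans e4)).trans
      ((e3.baseChangeAlong (ResidueField.map (algebraMap 𝒪 A))).trans e2)⟩
  rw [toRes_isEquiv_iff] at e5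
  obtain ⟨Pb, hPb⟩ := e5
  obtain ⟨P, hP⟩ := exists_unit_lift Pb
  obtain ⟨e6⟩ := toAdic_conjRep_isEquiv r0 hr0 P
  refine ⟨conjRep P r0, hr0.conj P, fun σ => ?_, ⟨e0.trans e6⟩⟩
  have h1 : (conjRep P r0 σ).map (residue A) =
      (P : M2 A).map (residue A) * (r0 σ).map (residue A) *
        (((P⁻¹ : (M2 A)ˣ) : M2 A)).map (residue A) := by
    rw [conjRep_apply, Matrix.map_mul, Matrix.map_mul]
  have h2 : (P : M2 A).map (residue A) * (((P⁻¹ : (M2 A)ˣ) : M2 A)).map (residue A) = 1 := by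
    rw [← Matrix.map_mul, Units.mul_inv]
    exact (residue A).mapMatrix.map_one
  have h3 := hPb σ
  rw [mapRep_apply, mapRep_apply, ← hP] at h3
  rw [h1, h3, mul_assoc, h2, mul_one]

end Lift

end Fermat.Agent.S53

end
-- ===== PACK-END S53/Dict.lean

-- ===== PACK-BEGIN Ribet/Spec.lean
section













/-!
# Row RIBET (S38/S43, S39/S40/S44, S45): interface statements

Row-lead file (helper943).  Everything here is a `Prop`-valued *definition*: no proofs, no
`sorry`.  Owners prove `theorem foo : Spec.FooStatement`; glue consumes the statements as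
hypotheses.  Plan, layers and owners: `coord/RIBET.md` on branch `origin/helper943`.

Layers
* L0  frozen statements of this row and of the rows it consumes, as `Prop`s;
* L1  eigenform-level interfaces (Frey form): model transport, Mazur principle at `q ≠ p`,
      Mazur-Ribet at `p`, auxiliary prime, old/new dichotomy, Ribet pivot;
* L3  geometric interfaces on `J₀(N)(ℚ̄)` requested from rows A2 / A3 / S29.
-/

set_option autoImplicit false

open WeierstrassCurve WeierstrassCurve.Affine WeierstrassCurve.Affine.Point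
open CuspForm ModularFormClass UpperHalfPlane

namespace Fermat.Agent.Ribet.Spec

/-- Absolute Galois group of `ℚ`. -/
abbrev GQ : Type := AlgebraicClosure ℚ ≃ₐ[ℚ] AlgebraicClosure ℚ

/-! ## L0. Frozen statements, as Props -/

/-- Frozen S43 (row 37, Frey form). -/
def S43Statement : Prop :=
  ∀ (P : FreyPackage) {N q : ℕ}, P.IsConductorLevel N → q.Prime → q ≠ 2 → q ≠ P.p → q ∣ N →
    GaloisRepIsIrreducible (K := AlgebraicClosure ℚ) ℚ P.freyCurve P.p →
    P.ModularRepOfLevel N → P.GaloisRepUnramifiedAt q →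
    ∃ M : ℕ, M ∣ N ∧ ¬ q ∣ M ∧ P.ModularRepOfLevel M

/-- Frozen S44 (row 38, Frey form). -/
def S44Statement : Prop :=
  ∀ (P : FreyPackage) {N : ℕ}, P.IsConductorLevel N → P.p ∣ N →
    GaloisRepIsIrreducible (K := AlgebraicClosure ℚ) ℚ P.freyCurve P.p →
    P.ModularRepOfLevel N →
    ∃ M : ℕ, M ∣ N ∧ ¬ P.p ∣ M ∧ P.ModularRepOfLevel M

/-- Frozen S39 (row 38, peu ramifié form). -/
def S39Statement : Prop :=
  ∀ (W : WeierstrassCurve ℤ), W.Δ ≠ 0 → ∀ {p : ℕ}, p.Prime → p ≠ 2 →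
    ((p : ℤ) ∣ W.Δ → ¬ (p : ℤ) ∣ W.c₄) → W.ModRepIsIrreducible p →
    (W.map (Int.castRingHom ℚ)).IsPeuRamifieeAt p p →
    ∀ {M : ℕ}, 0 < M → p ∣ M → ¬ p ^ 2 ∣ M → W.IsResiduallyModularOfLevel p M →
    W.IsResiduallyModularOfLevel p (M / p)

/-- Frozen S40 (row 38, good reduction form). -/
def S40Statement : Prop :=
  ∀ (W : WeierstrassCurve ℤ), W.Δ ≠ 0 → ∀ {p : ℕ}, p.Prime → p ≠ 2 →
    W.IsGoodPrimeFor p → W.ModRepIsIrreducible p →
    ∀ {M : ℕ}, 0 < M → p ∣ M → ¬ p ^ 2 ∣ M → W.IsResiduallyModularOfLevel p M →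
    W.IsResiduallyModularOfLevel p (M / p)

/-- Frozen S45. -/
def S45Statement : Prop :=
  ∀ (P : FreyPackage), P.freyCurve.IsModular →
    GaloisRepIsIrreducible (K := AlgebraicClosure ℚ) ℚ P.freyCurve P.p →
    ∃ f : CuspForm (CongruenceSubgroup.Gamma0 2) 2, f ≠ 0

/-- Frozen S05 (landed on main as `Fermat.Agent.S05.result`). -/
def S05Statement : Prop :=
  ∀ (P : FreyPackage) {q : ℕ}, q.Prime → q ≠ 2 → q ≠ P.p → P.GaloisRepUnramifiedAt q

/-- Frozen S06 (glue row; consumed by S45). -/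
def S06Statement : Prop :=
  ∀ (P : FreyPackage), ∃ N : ℕ, P.IsConductorLevel N ∧ P.ModularRepOfLevel N

/-- Frozen S42 (row S29/S42). -/
def S42Statement : Prop :=
  ∀ (P : FreyPackage) (M : ℕ), 0 < M → P.EigenformResidualAttachmentAt M

/-- Level raising in the Frey form of the Prelude (`FreyPackage.LevelRaising`); this is what
frozen S41 gives after unfolding `IsCongruentWitness` (adapter = piece G4). -/
def LevelRaisingStatement : Prop :=
  ∀ (P : FreyPackage) (N q' : ℕ), P.LevelRaising N q'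

/-! ## L1. Eigenform-level interfaces -/

/-- (G1a) ELEMENTARY.  When `p ∣ abc` the Frey curve has an integral model which is
semistable at `p` and peu ramifié at `p` (`v_p(Δ) = 2p·v_p(abc)`; take `P.freyCurveInt`). -/
def FreyModelAtPStatement : Prop :=
  ∀ (P : FreyPackage), (P.p : ℤ) ∣ P.a * P.b * P.c →
    ∃ W : WeierstrassCurve ℤ, W.IsIntegralModelOf P.freyCurve ∧ W.Δ ≠ 0 ∧
      ((P.p : ℤ) ∣ W.Δ → ¬ (P.p : ℤ) ∣ W.c₄) ∧
      (W.map (Int.castRingHom ℚ)).IsPeuRamifieeAt P.p P.p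

/-- (G1b) ELEMENTARY.  Irreducibility of the mod-`n` representation only depends on the
`ℚ`-isomorphism class. -/
def IrrTransportStatement : Prop :=
  ∀ (E : WeierstrassCurve ℚ) (W : WeierstrassCurve ℤ) (n : ℕ), W.IsIntegralModelOf E →
    GaloisRepIsIrreducible (K := AlgebraicClosure ℚ) ℚ E n → W.ModRepIsIrreducible n

/-- (G1c) ELEMENTARY.  An integral model of the Frey curve is bad at every odd prime
dividing `abc` (`j`-invariant is not `q`-integral). -/
def FreyBadPrimeStatement : Prop :=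
  ∀ (P : FreyPackage) (W : WeierstrassCurve ℤ) (q : ℕ), W.IsIntegralModelOf P.freyCurve →
    q.Prime → q ≠ 2 → (q : ℤ) ∣ P.a * P.b * P.c → ¬ W.IsGoodPrimeFor q

/-- (G2) MODEL TRANSPORT.  A congruence witness for one integral model of the Frey curve is
a congruence witness for every integral model.  Inputs: frozen S42 + `Lib/Cheb` Tier 1 + the
trace formula `a_ℓ(W) ≡ tr(Frob_ℓ | E[p])`. -/
def ModelTransportStatement : Prop :=
  ∀ (P : FreyPackage) (N : ℕ), 0 < N → P.ModularRepOfLevel N →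
    ∀ W : WeierstrassCurve ℤ, W.IsIntegralModelOf P.freyCurve →
      W.IsResiduallyModularOfLevel P.p N

/-- (TF) TRACE FORMULA.  For an integral model `W` of `E`, a prime `ℓ ≠ n` of good reduction
of `W` and any Frobenius `τ` at a place over `ℓ`, the trace of `τ` on `E[n]` is `a_ℓ(W)`.
(Shared with rows S52 / S29-S42.) -/
def TraceFormulaStatement : Prop :=
  ∀ (E : WeierstrassCurve ℚ) [E.IsElliptic] (W : WeierstrassCurve ℤ), W.IsIntegralModelOf E →
    ∀ (n ℓ : ℕ), n.Prime → ℓ.Prime → ℓ ≠ n → W.IsGoodPrimeFor ℓ →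
    ∀ A : ValuationSubring (AlgebraicClosure ℚ), A.LiesOverPrime ℓ →
    ∀ τ : GQ, A.IsFrobeniusAt τ ℓ →
      galoisTrace (S := ℚ) (K := AlgebraicClosure ℚ) E n τ = ((W.apOfModel ℓ : ℤ) : ZMod n)

/-- (MPq) MAZUR'S PRINCIPLE at `q ≠ p`, Frey form, general level `L` with `q ‖ L`,
for `q ≢ 1 mod p`. -/
def MazurPrincipleStatement : Prop :=
  ∀ (P : FreyPackage) {L q : ℕ}, 0 < L → q.Prime → q ≠ P.p → q ∣ L → ¬ q ^ 2 ∣ L →
    GaloisRepIsIrreducible (K := AlgebraicClosure ℚ) ℚ P.freyCurve P.p →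
    P.ModularRepOfLevel L → P.GaloisRepUnramifiedAt q → ¬ P.p ∣ q - 1 →
    P.ModularRepOfLevel (L / q)

/-- (MPq-weak) the same with the weaker exclusion `q ≢ ±1 mod p` (what the Prelude predicate
`ToricFrobeniusSq` gives). -/
def MazurPrincipleWeakStatement : Prop :=
  ∀ (P : FreyPackage) {L q : ℕ}, 0 < L → q.Prime → q ≠ P.p → q ∣ L → ¬ q ^ 2 ∣ L →
    GaloisRepIsIrreducible (K := AlgebraicClosure ℚ) ℚ P.freyCurve P.p →
    P.ModularRepOfLevel L → P.GaloisRepUnramifiedAt q → ¬ P.p ∣ q - 1 → ¬ P.p ∣ q + 1 →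
    P.ModularRepOfLevel (L / q)

/-- (AUX) AUXILIARY PRIME.  For every integral model `W` there is a prime `q'` of good
reduction of `W`, not dividing `N`, with `q' ≡ -1 mod p` and `a_{q'}(W) ≡ 0 mod p`
(Frobenius at `q'` = complex conjugation on `ℚ(E[p])`; `Lib/Cheb` Tier 1 + TF + det = cyclotomic). -/
def AuxPrimeStatement : Prop :=
  ∀ (P : FreyPackage) (N : ℕ) (W : WeierstrassCurve ℤ), 0 < N →
    W.IsIntegralModelOf P.freyCurve →
    GaloisRepIsIrreducible (K := AlgebraicClosure ℚ) ℚ P.freyCurve P.p →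
    ∃ q' : ℕ, q'.Prime ∧ ¬ q' ∣ N ∧ q' ≠ P.p ∧ q' ≠ 2 ∧ W.IsGoodPrimeFor q' ∧
      P.p ∣ q' + 1 ∧ (P.p : ℤ) ∣ W.apOfModel q'

/-- (ON) OLD/NEW DICHOTOMY (Atkin-Lehner; NEWFORM lib).  A normalised eigenform of level `L`
with `q ‖ L` either has `a_q² = 1` or its eigensystem away from `L` occurs at level `L / q`. -/
def OldNewStatement : Prop :=
  ∀ (L q : ℕ), 0 < L → q.Prime → q ∣ L → ¬ q ^ 2 ∣ L →
    ∀ g : CuspForm (CongruenceSubgroup.Gamma0 L) 2, g.IsNormalizedEigenform →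
      g.IsNewAt q ∨
      ∃ g' : CuspForm (CongruenceSubgroup.Gamma0 (L / q)) 2, g'.IsNormalizedEigenform ∧
        ∀ ℓ : ℕ, ℓ.Prime → ¬ ℓ ∣ L → qCoeff g' ℓ = qCoeff g ℓ

/-- (PIV) RIBET'S PIVOT = THE SHIMURA-CURVE WALL.  A witness of level `L` which is new at two
distinct primes `q, q' ‖ L` (both `≠ p`), with the representation unramified at `q`, gives a
witness of level `L / q`.  (Cerednik-Drinfeld + Ribet's exact sequence of character groups.) -/
def RibetPivotStatement : Prop :=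
  ∀ (P : FreyPackage) {L q q' : ℕ}, 0 < L → q.Prime → q'.Prime → q ≠ q' → q ≠ P.p → q' ≠ P.p →
    q ∣ L → ¬ q ^ 2 ∣ L → q' ∣ L → ¬ q' ^ 2 ∣ L →
    GaloisRepIsIrreducible (K := AlgebraicClosure ℚ) ℚ P.freyCurve P.p →
    P.GaloisRepUnramifiedAt q →
    ∀ (g : CuspForm (CongruenceSubgroup.Gamma0 L) 2) (W : WeierstrassCurve ℤ)
      (𝔪 : Ideal (integralClosure ℤ ℂ)),
      P.IsCongruentWitness L g W 𝔪 → g.IsNewAt q → g.IsNewAt q' →
      P.ModularRepOfLevel (L / q)

/-! ## L3. Geometric interfaces on `J₀(N)(ℚ̄)` (requests to rows A2, A3, S29)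

Conventions: `J₀(N) = ModularCurve.JZero N` with its Prelude Galois action; the Hecke operator
at a prime `ℓ` is `ModularCurve.heckeOperatorBar N ℓ`.  `E[p]` is
`Submodule.torsionBy ℤ (P.freyCurve⁄ℚ̄).Point P.p`.  All eigenvalues are integers acting by
`zsmul` (the eigensystem of `E[p]` is `𝔽_p`-valued, so no tensor products are needed). -/

open ModularCurve

/-- `E[p]` for the Frey curve. -/
abbrev FreyTorsion (P : FreyPackage) : Type :=
  Submodule.torsionBy ℤ (P.freyCurve⁄(AlgebraicClosure ℚ)).Point P.p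

/-- "The eigensystem `a` (integers, taken mod `p`) occurs in `J₀(N)[p]` away from `S`". -/
def OccursIn (N p : ℕ) [NeZero N] (S : Finset ℕ) (a : ℕ → ℤ) : Prop :=
  ∃ x : JZero N, x ≠ 0 ∧ p • x = 0 ∧
    ∀ ℓ : Nat.Primes, (ℓ : ℕ) ∉ S → heckeOperatorBar N ℓ x = a ℓ • x

/-- A Galois- and Hecke-equivariant embedding of `E[p]` into `J₀(N)`, away from `S`. -/
def FreyEmbedsIn (P : FreyPackage) (N : ℕ) [NeZero N] (S : Finset ℕ) (a : ℕ → ℤ) : Prop :=
  ∃ ι : FreyTorsion P →+ JZero N, Function.Injective ι ∧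
    (∀ (σ : GQ) (x : FreyTorsion P), ι (σ • x) = σ • ι x) ∧
    ∀ ℓ : Nat.Primes, (ℓ : ℕ) ∉ S → ∀ x : FreyTorsion P,
      heckeOperatorBar N ℓ (ι x) = a ℓ • ι x

/-- (BLR) [row S29/S42 + S37 + Tier 1]  Boston-Lenstra-Ribet: a congruence witness of level `N`
for an irreducible `E[p]` gives an equivariant embedding `E[p] ↪ J₀(N)[p]`, with `T_ℓ` acting
through `a_ℓ(W)` for all `ℓ` outside a finite set. -/
def EmbedStatement : Prop :=
  ∀ (P : FreyPackage) (N : ℕ) [NeZero N],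
    GaloisRepIsIrreducible (K := AlgebraicClosure ℚ) ℚ P.freyCurve P.p →
    ∀ (f : CuspForm (CongruenceSubgroup.Gamma0 N) 2) (W : WeierstrassCurve ℤ)
      (𝔪 : Ideal (integralClosure ℤ ℂ)), P.IsCongruentWitness N f W 𝔪 →
      ∃ S : Finset ℕ, FreyEmbedsIn P N S (fun ℓ => W.apOfModel ℓ)

/-- (R3) [row S29 dictionary + S21 + Deligne-Serre lifting]  An eigensystem occurring in
`J₀(M)[p]` away from a finite set `S` is the reduction of a normalised eigenform of level `M`
(congruence for the primes outside `S`). -/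
def EigenformOfOccursStatement : Prop :=
  ∀ (M p : ℕ) [NeZero M], p.Prime → ∀ (S : Finset ℕ) (a : ℕ → ℤ), OccursIn M p S a →
    ∃ (g : CuspForm (CongruenceSubgroup.Gamma0 M) 2) (𝔪 : Ideal (integralClosure ℤ ℂ)),
      g.IsNormalizedEigenform ∧ 𝔪.IsMaximal ∧ (p : integralClosure ℤ ℂ) ∈ 𝔪 ∧
      ∀ ℓ : ℕ, ℓ.Prime → ℓ ∉ S →
        ∃ b : integralClosure ℤ ℂ, (b : ℂ) = qCoeff g ℓ ∧
          b - ((a ℓ : ℤ) : integralClosure ℤ ℂ) ∈ 𝔪

/-- (R3') [S42 + Tier 1 + TF]  Upgrade "congruent outside a finite set `S`" to a congruence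
witness (all good primes not dividing `M·p`). -/
def AlmostAllToWitnessStatement : Prop :=
  ∀ (P : FreyPackage) (M : ℕ), 0 < M →
    ∀ (g : CuspForm (CongruenceSubgroup.Gamma0 M) 2) (W : WeierstrassCurve ℤ)
      (𝔪 : Ideal (integralClosure ℤ ℂ)) (S : Finset ℕ),
      g.IsNormalizedEigenform → W.IsIntegralModelOf P.freyCurve → 𝔪.IsMaximal →
      (P.p : integralClosure ℤ ℂ) ∈ 𝔪 →
      (∀ ℓ : ℕ, ℓ.Prime → ℓ ∉ S →
        ∃ b : integralClosure ℤ ℂ, (b : ℂ) = qCoeff g ℓ ∧
          b - ((W.apOfModel ℓ : ℤ) : integralClosure ℤ ℂ) ∈ 𝔪) →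
      P.IsCongruentWitness M g W 𝔪

/-- (A2+) TORIC PACKAGE at `q ‖ N = q·M'`, for `p`-torsion, `p ≠ q` [row A2, helper13].
At a place `A` over `q` there are subgroups `𝒯 ≤ 𝓕` of the inertia-fixed `p`-torsion of
`J₀(qM')` ("toric part" and "finite part") such that
* `J[p]^I / 𝓕` is Eisenstein (`T_ℓ - ℓ - 1` maps `J[p]^I` into `𝓕`; component group),
* `𝓕 / 𝒯` embeds Hecke-equivariantly (away from `q·M'·p`) in `J₀(M')²` ("abelian part"),
* Frobenius at `A` preserves `𝒯` and acts on it as `q·u` with `u` an involution commuting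
  with Galois and Hecke (`u = U_q`); in particular `φ² = q²` (`ToricFrobeniusSq`). -/
def ToricPackageStatement : Prop :=
  ∀ (M' q p : ℕ) [NeZero M'] [NeZero (q * M')], q.Prime → p.Prime → q ≠ p → ¬ q ∣ M' →
    ∀ A : ValuationSubring (AlgebraicClosure ℚ), A.LiesOverPrime q →
    ∃ (𝒯 𝓕 : AddSubgroup (JZero (q * M'))) (β : 𝓕 →+ JZero M' × JZero M')
      (u : JZero (q * M') →+ JZero (q * M')),
      𝒯 ≤ 𝓕 ∧
      (∀ x ∈ 𝓕, p • x = 0 ∧ ∀ σ ∈ A.inertiaSubgroupIn ℚ, σ • x = x) ∧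
      (∀ x : JZero (q * M'), p • x = 0 → (∀ σ ∈ A.inertiaSubgroupIn ℚ, σ • x = x) →
        ∀ ℓ : Nat.Primes, ¬ (ℓ : ℕ) ∣ q * M' * p →
          heckeOperatorBar (q * M') ℓ x - ((ℓ : ℕ) + 1) • x ∈ 𝓕) ∧
      (∀ ℓ : Nat.Primes, ¬ (ℓ : ℕ) ∣ q * M' * p → ∀ x : 𝓕,
        ∃ hx : heckeOperatorBar (q * M') ℓ (x : JZero (q * M')) ∈ 𝓕,
          β ⟨_, hx⟩ = (heckeOperatorBar M' ℓ (β x).1, heckeOperatorBar M' ℓ (β x).2)) ∧
      (∀ x : 𝓕, β x = 0 → (x : JZero (q * M')) ∈ 𝒯) ∧
      (∀ (σ : GQ) (x : JZero (q * M')), u (σ • x) = σ • u x) ∧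
      (∀ (ℓ : Nat.Primes) (x : JZero (q * M')),
        u (heckeOperatorBar (q * M') ℓ x) = heckeOperatorBar (q * M') ℓ (u x)) ∧
      (∀ x ∈ 𝒯, u (u x) = x) ∧
      (∀ φ : GQ, A.IsFrobeniusAt φ q → ∀ x ∈ 𝒯, φ • x = q • u x)

/-- (A3+) AT-`p` PACKAGE at `p ‖ N = p·M'` [rows A3 (helper15) + A2 (helper13)].
At a place `A` over `p` there are subgroups `𝒲 ≤ 𝓕 ≤ J₀(pM')[p]` ("multiplicative-type part"
and "finite part") such that
* inertia acts on `𝒲` through the mod-`p` cyclotomic character (`MultiplicativeType`),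
  encoded as: `σ x = c • x` whenever `σ ζ = ζ ^ c` for all `p`-th roots of unity `ζ`;
* `𝓕 / 𝒲` embeds Hecke-equivariantly (away from `M'·p`) in `J₀(M')²`;
* (FLAT ⇒ FINITE) the image of every Galois-equivariant map `E[p] → J₀(pM')[p]` lies in `𝓕`,
  when `E` is the Frey curve and `p ∣ abc` (Tate curve, peu ramifié). -/
def AtPPackageStatement : Prop :=
  ∀ (P : FreyPackage) (M' : ℕ) [NeZero M'] [NeZero (P.p * M')], ¬ P.p ∣ M' →
    (P.p : ℤ) ∣ P.a * P.b * P.c →
    ∀ A : ValuationSubring (AlgebraicClosure ℚ), A.LiesOverPrime P.p →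
    ∃ (𝒲 𝓕 : AddSubgroup (JZero (P.p * M'))) (β : 𝓕 →+ JZero M' × JZero M'),
      𝒲 ≤ 𝓕 ∧
      (∀ x ∈ 𝓕, P.p • x = 0) ∧
      (∀ σ ∈ A.inertiaSubgroupIn ℚ, ∀ c : ℕ,
        (∀ ζ : AlgebraicClosure ℚ, ζ ^ P.p = 1 → σ ζ = ζ ^ c) → ∀ x ∈ 𝒲, σ • x = c • x) ∧
      (∀ ℓ : Nat.Primes, ¬ (ℓ : ℕ) ∣ M' * P.p → ∀ x : 𝓕,
        ∃ hx : heckeOperatorBar (P.p * M') ℓ (x : JZero (P.p * M')) ∈ 𝓕,
          β ⟨_, hx⟩ = (heckeOperatorBar M' ℓ (β x).1, heckeOperatorBar M' ℓ (β x).2)) ∧
      (∀ x : 𝓕, β x = 0 → (x : JZero (P.p * M')) ∈ 𝒲) ∧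
      (∀ ι : FreyTorsion P →+ JZero (P.p * M'),
        (∀ (σ : GQ) (x : FreyTorsion P), ι (σ • x) = σ • ι x) → ∀ x, ι x ∈ 𝓕)

/-- (NMT) [Weil pairing: `det = cyclotomic`, Prelude `GaloisRepDetEqCyclotomic`]  `E[p]` is not
of multiplicative type at `p`: inertia at `p` does not act on all of `E[p]` through the
cyclotomic scalar (otherwise `det = χ²` on inertia, but `det = χ ≠ 1` there, `p ≥ 3`). -/
def NotMultiplicativeTypeStatement : Prop :=
  ∀ (P : FreyPackage) (A : ValuationSubring (AlgebraicClosure ℚ)), A.LiesOverPrime P.p →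
    ¬ ∀ σ ∈ A.inertiaSubgroupIn ℚ, ∀ c : ℕ,
      (∀ ζ : AlgebraicClosure ℚ, ζ ^ P.p = 1 → σ ζ = ζ ^ c) →
      ∀ x : FreyTorsion P, σ • x = c • x

/-- (DETF) [Weil pairing]  The determinant of a Frobenius at `q ≠ p` on `E[p]` is `q`. -/
def DetFrobStatement : Prop :=
  ∀ (P : FreyPackage) (q : ℕ), q.Prime → q ≠ P.p →
    ∀ A : ValuationSubring (AlgebraicClosure ℚ), A.LiesOverPrime q →
    ∀ φ : GQ, A.IsFrobeniusAt φ q →
      LinearMap.det (galoisRepModuleEnd (S := ℚ) (K := AlgebraicClosure ℚ) P.freyCurve P.p φ)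
        = (q : ZMod P.p)

/-- (DIM) `E[p]` has rank two over `𝔽_p` (landed libs only have `card ≤ p²`). -/
def TorsionRankStatement : Prop :=
  ∀ (P : FreyPackage), Module.finrank (ZMod P.p) (FreyTorsion P) = 2

/-- (NE) NON-EISENSTEIN [Tier 1 + TF + elementary group theory]  An irreducible `E[p]` has,
outside any finite set, a good prime `ℓ` with `a_ℓ(W) ≢ ℓ + 1 mod p`. -/
def NonEisensteinStatement : Prop :=
  ∀ (P : FreyPackage) (W : WeierstrassCurve ℤ), W.IsIntegralModelOf P.freyCurve →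
    GaloisRepIsIrreducible (K := AlgebraicClosure ℚ) ℚ P.freyCurve P.p →
    ∀ S : Finset ℕ, ∃ ℓ : ℕ, ℓ.Prime ∧ ℓ ∉ S ∧ W.IsGoodPrimeFor ℓ ∧
      ¬ (P.p : ℤ) ∣ W.apOfModel ℓ - (ℓ + 1)

/-- (PL) [Tier 1 lib / Mathlib]  Places and Frobenius elements exist. -/
def PlacesStatement : Prop :=
  ∀ q : ℕ, q.Prime → ∃ A : ValuationSubring (AlgebraicClosure ℚ), A.LiesOverPrime q ∧
    ∃ φ : GQ, A.IsFrobeniusAt φ q

end Fermat.Agent.Ribet.Spec

end
-- ===== PACK-END Ribet/Spec.lean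

-- ===== PACK-BEGIN Ribet/H52/LinAlg.lean
section


/-!
# Row RIBET, piece TF (helper52): linear algebra

`trace_eq_of_quadratic_h52`: on a two-dimensional vector space, a nonzero endomorphism `f` with
`f² - a f + ℓ = 0` and `det f = ℓ` has trace `a` (Cayley-Hamilton in rank two).
-/

set_option autoImplicit false

namespace Fermat.Agent.Ribet.H52

/-- Cayley-Hamilton for `2 × 2` matrices, explicit form. -/
theorem matrix_two_cayley_h52 {R : Type*} [CommRing R] (M : Matrix (Fin 2) (Fin 2) R) :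
    M * M - M.trace • M + M.det • (1 : Matrix (Fin 2) (Fin 2) R) = 0 := by
  ext i j
  fin_cases i <;> fin_cases j <;>
    simp [Matrix.mul_apply, Fin.sum_univ_two, Matrix.det_fin_two, Matrix.trace_fin_two] <;> ring

/-- Cayley-Hamilton for endomorphisms of a free module of rank two, explicit form. -/
theorem linearMap_two_cayley_h52 {k V : Type*} [Field k] [AddCommGroup V] [Module k V]
    (hV : Module.finrank k V = 2) (f : V →ₗ[k] V) :
    f * f - LinearMap.trace k V f • f + LinearMap.det f • (1 : V →ₗ[k] V) = 0 := by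
  have : Module.Finite k V := Module.finite_of_finrank_pos (by rw [hV]; norm_num)
  let b : Module.Basis (Fin 2) k V := Module.finBasisOfFinrankEq k V hV
  have hM := matrix_two_cayley_h52 (LinearMap.toMatrix b b f)
  apply (LinearMap.toMatrix b b).injective
  rw [map_zero, map_add, map_sub, map_smul, map_smul, LinearMap.toMatrix_mul,
    LinearMap.toMatrix_one]
  rw [LinearMap.trace_eq_matrix_trace k b f, ← LinearMap.det_toMatrix b f]
  exact hM

/-- On a two-dimensional space, `f ≠ 0`, `f² - a f + ℓ = 0`, `det f = ℓ` imply `tr f = a`. -/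
theorem trace_eq_of_quadratic_h52 {k V : Type*} [Field k] [AddCommGroup V] [Module k V]
    (hV : Module.finrank k V = 2) (f : V →ₗ[k] V) (a ℓ : k)
    (hrel : f * f - a • f + ℓ • (1 : V →ₗ[k] V) = 0) (hdet : LinearMap.det f = ℓ)
    (hf : f ≠ 0) : LinearMap.trace k V f = a := by
  have hCH := linearMap_two_cayley_h52 hV f
  rw [hdet] at hCH
  have hsub : (LinearMap.trace k V f - a) • f = 0 := by
    have := congrArg₂ (· - ·) hrel hCH
    simp only [sub_zero] at this
    rw [sub_smul]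
    rw [← this]
    abel
  rcases smul_eq_zero.mp hsub with h | h
  · exact sub_eq_zero.mp h
  · exact absurd h hf

end Fermat.Agent.Ribet.H52

end
-- ===== PACK-END Ribet/H52/LinAlg.lean

-- ===== PACK-BEGIN S35/H891/Cubic.lean
section
/-
S35 top glue for the CUBIC relation, pure algebra (helper891).  Mathlib only.

`trace_of_cubicFrob` : on a nontrivial torsion-free module over a domain in which `q ≠ 0`, an
endomorphism `s` with `s² - a s + q = 0` and `(s² - q²)(s² - 1)² = 0` has `a = ± (q + 1)`.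
`quartic_of_cubicFrob` : hence `(s² - 1)(s² - q²) = 0`.
-/


set_option autoImplicit false

namespace Fermat.Agent.S35.H891

section

variable {𝒪 M : Type*} [CommRing 𝒪] [IsDomain 𝒪] [AddCommGroup M] [Module 𝒪 M]
  [Module.IsTorsionFree 𝒪 M]

/-- The cubic bad-Frobenius relation `(φ - q²)(φ - 1)² = 0`, `φ = s²`, applied to vectors:
`φ³ v - (2 + q²) φ² v + (1 + 2 q²) φ v - q² v = 0`. -/
def CubicFrobRel (q : 𝒪) (s : Module.End 𝒪 M) : Prop :=
  ∀ v : M, s (s (s (s (s (s v))))) - (2 + q ^ 2) • s (s (s (s v))) + (1 + 2 * q ^ 2) • s (s v)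
    - (q ^ 2) • v = 0

/-- An eigenvector of `s` for the eigenvalue `c` forces `c² - a c + q = 0`. -/
theorem quad_of_eigenvector {q a c : 𝒪} {s : Module.End 𝒪 M}
    (hrel : ∀ v : M, s (s v) - a • s v + q • v = 0) {v : M} (hv : v ≠ 0) (hsv : s v = c • v) :
    c * c - a * c + q = 0 := by
  have h := hrel v
  rw [hsv, map_smul, hsv, smul_smul, smul_smul, ← sub_smul, ← add_smul] at h
  rcases smul_eq_zero.mp h with h0 | h0
  · exact h0
  · exact absurd h0 hv

/-- **Algebraic core.**  A quadratic relation with constant term `q` together with the cubic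
bad-Frobenius relation pins the trace down to `± (q + 1)`. -/
theorem trace_of_cubicFrob [Nontrivial M] {q a : 𝒪} (hq : q ≠ 0) {s : Module.End 𝒪 M}
    (hrel : ∀ v : M, s (s v) - a • s v + q • v = 0) (hcub : CubicFrobRel q s) :
    a = q + 1 ∨ a = -(q + 1) := by
  obtain ⟨v, hv⟩ := exists_ne (0 : M)
  -- eigenvalue cases
  have case_one : ∀ u : M, u ≠ 0 → s u - u = 0 → a = q + 1 ∨ a = -(q + 1) := by
    intro u hu h
    have hsu : s u = (1 : 𝒪) • u := by rw [one_smul]; exact sub_eq_zero.mp h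
    have := quad_of_eigenvector hrel hu hsu
    left
    linear_combination -this
  have case_neg_one : ∀ u : M, u ≠ 0 → s u + u = 0 → a = q + 1 ∨ a = -(q + 1) := by
    intro u hu h
    have hsu : s u = (-1 : 𝒪) • u := by
      rw [neg_smul, one_smul]; exact eq_neg_of_add_eq_zero_left h
    have := quad_of_eigenvector hrel hu hsu
    right
    linear_combination this
  have case_q : ∀ u : M, u ≠ 0 → s u - q • u = 0 → a = q + 1 ∨ a = -(q + 1) := by
    intro u hu h
    have hsu : s u = q • u := sub_eq_zero.mp h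
    have := quad_of_eigenvector hrel hu hsu
    left
    have h5 : q * (q - a + 1) = 0 := by linear_combination this
    rcases mul_eq_zero.mp h5 with h6 | h6
    · exact absurd h6 hq
    · linear_combination -h6
  have case_neg_q : ∀ u : M, u ≠ 0 → s u + q • u = 0 → a = q + 1 ∨ a = -(q + 1) := by
    intro u hu h
    have hsu : s u = (-q) • u := by
      rw [neg_smul]; exact eq_neg_of_add_eq_zero_left h
    have := quad_of_eigenvector hrel hu hsu
    right
    have h5 : q * (q + a + 1) = 0 := by linear_combination this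
    rcases mul_eq_zero.mp h5 with h6 | h6
    · exact absurd h6 hq
    · linear_combination h6
  -- the six factors `(s+1)(s+1)(s-1)(s-1)(s+q)(s-q)`
  set v₁ : M := s v + v with hv₁
  set v₂ : M := s v₁ + v₁ with hv₂
  set v₃ : M := s v₂ - v₂ with hv₃
  set v₄ : M := s v₃ - v₃ with hv₄
  set v₅ : M := s v₄ + q • v₄ with hv₅
  have h6 : s v₅ - q • v₅ = 0 := by
    have := hcub v
    rw [hv₅, hv₄, hv₃, hv₂, hv₁]
    simp only [map_add, map_sub, map_smul]
    rw [← this]
    module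
  by_cases h1 : v₁ = 0
  · exact case_neg_one v hv (by rw [← hv₁]; exact h1)
  by_cases h2 : v₂ = 0
  · exact case_neg_one v₁ h1 (by rw [← hv₂]; exact h2)
  by_cases h3 : v₃ = 0
  · exact case_one v₂ h2 (by rw [← hv₃]; exact h3)
  by_cases h4 : v₄ = 0
  · exact case_one v₃ h3 (by rw [← hv₄]; exact h4)
  by_cases h5 : v₅ = 0
  · exact case_neg_q v₄ h4 (by rw [← hv₅]; exact h5)
  exact case_q v₅ h5 h6

/-- The quartic relation `(s² - 1)(s² - q²) = 0` from the quadratic relation with trace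
`± (q + 1)`. -/
theorem quartic_of_trace {q a : 𝒪} {s : Module.End 𝒪 M}
    (hrel : ∀ v : M, s (s v) - a • s v + q • v = 0) (ha : a = q + 1 ∨ a = -(q + 1)) (v : M) :
    s (s (s (s v))) - (1 + q ^ 2) • s (s v) + (q ^ 2) • v = 0 := by
  have h2 : s (s v) = a • s v - q • v := by
    have h := hrel v
    have h' : s (s v) = s (s v) - a • s v + q • v + (a • s v - q • v) := by abel
    rw [h', h, zero_add]
  have h3 : s (s (s v)) = (a ^ 2 - q) • s v - (a * q) • v := by
    rw [h2, map_sub, map_smul, map_smul, h2]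
    module
  have h4 : s (s (s (s v))) = (a ^ 3 - 2 * a * q) • s v + (q ^ 2 - a ^ 2 * q) • v := by
    rw [h3, map_sub, map_smul, map_smul, h2]
    module
  rw [h4, h2]
  rcases ha with rfl | rfl
  · module
  · module

/-- **The quartic relation from the cubic one.** -/
theorem quartic_of_cubicFrob [Nontrivial M] {q a : 𝒪} (hq : q ≠ 0) {s : Module.End 𝒪 M}
    (hrel : ∀ v : M, s (s v) - a • s v + q • v = 0) (hcub : CubicFrobRel q s) (v : M) :
    s (s (s (s v))) - (1 + q ^ 2) • s (s v) + (q ^ 2) • v = 0 :=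
  quartic_of_trace hrel (trace_of_cubicFrob hq hrel hcub) v

end

end Fermat.Agent.S35.H891

end
-- ===== PACK-END S35/H891/Cubic.lean

-- ===== PACK-BEGIN S37/H697/FrobF.lean
section


/-!
# S37 (helper697): coefficientwise automorphisms of the function field `k(j(q^d) : d ∣ N)`

For a field `k` and a ring automorphism `φ` of `k`, the coefficientwise map `coeffMap φ` on
`k((q))` preserves `modularFunctionFieldFullC k N` (its generators have coefficients in the prime
ring).  This gives a semilinear automorphism `coeffSL N φ` of the function field, hence an action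
on places and divisors (Prelude `SemilinearAut`).  For `φ` = Frobenius this is the map `Φ` of the
Eichler–Shimura relation.
-/

set_option autoImplicit false

noncomputable section

open HahnSeries IntermediateField AlgebraicCurve ModularCurve

namespace Fermat.Agent.S37.H697

variable {k : Type*} [Field k] (N : ℕ)

theorem mem_fullC_iff {x : LaurentSeries k} :
    x ∈ modularFunctionFieldFullC k N ↔
      x ∈ Subfield.closure
        (Set.range (algebraMap k (LaurentSeries k)) ∪ divisorExpansionsC k N) :=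
  Iff.rfl

theorem coeffMap_mem_fullC (φ : k →+* k) {x : LaurentSeries k}
    (hx : x ∈ modularFunctionFieldFullC k N) :
    coeffMap φ x ∈ modularFunctionFieldFullC k N := by
  rw [mem_fullC_iff] at hx
  induction hx using Subfield.closure_induction with
  | mem y hy =>
      rcases hy with ⟨a, rfl⟩ | ⟨d, hd, hdN, rfl⟩
      · rw [coeffMap_algebraMap]
        exact (modularFunctionFieldFullC k N).algebraMap_mem _
      · have := hd
        rw [coeffMap_qExpand, coeffMap_jqModC]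
        exact jqModCd_mem_full k N hdN
  | one => simp
  | add x y _ _ hx hy => simpa using add_mem hx hy
  | neg x _ hx => simpa using neg_mem hx
  | inv x _ hx => simpa using inv_mem hx
  | mul x y _ _ hx hy => simpa using mul_mem hx hy

/-- The coefficientwise ring automorphism of `modularFunctionFieldFullC k N` induced by a ring
automorphism of `k`. -/
def coeffRingAut (φ : k ≃+* k) :
    (modularFunctionFieldFullC k N) ≃+* (modularFunctionFieldFullC k N) where
  toFun x := ⟨coeffMap (φ : k →+* k) (x : LaurentSeries k), coeffMap_mem_fullC N _ x.2⟩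
  invFun x := ⟨coeffMap (φ.symm : k →+* k) (x : LaurentSeries k), coeffMap_mem_fullC N _ x.2⟩
  left_inv x := Subtype.ext <| by
    show coeffMap (φ.symm : k →+* k) (coeffMap (φ : k →+* k) (x : LaurentSeries k))
      = (x : LaurentSeries k)
    rw [coeffMap_coeffMap,
      coeffMap_congr (g := RingHom.id k) (RingHom.ext fun a => φ.symm_apply_apply a)
        (x : LaurentSeries k),
      coeffMap_id]
  right_inv x := Subtype.ext <| by
    show coeffMap (φ : k →+* k) (coeffMap (φ.symm : k →+* k) (x : LaurentSeries k))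
      = (x : LaurentSeries k)
    rw [coeffMap_coeffMap,
      coeffMap_congr (g := RingHom.id k) (RingHom.ext fun a => φ.apply_symm_apply a)
        (x : LaurentSeries k),
      coeffMap_id]
  map_mul' x y :=
    Subtype.ext (map_mul (coeffMap (φ : k →+* k)) (x : LaurentSeries k) (y : LaurentSeries k))
  map_add' x y :=
    Subtype.ext (map_add (coeffMap (φ : k →+* k)) (x : LaurentSeries k) (y : LaurentSeries k))

@[simp]
theorem coe_coeffRingAut_apply (φ : k ≃+* k) (x : modularFunctionFieldFullC k N) :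
    (coeffRingAut N φ x : LaurentSeries k) = coeffMap (φ : k →+* k) (x : LaurentSeries k) :=
  rfl

theorem coeffRingAut_algebraMap (φ : k ≃+* k) (a : k) :
    coeffRingAut N φ (algebraMap k (modularFunctionFieldFullC k N) a)
      = algebraMap k (modularFunctionFieldFullC k N) (φ a) :=
  Subtype.ext (coeffMap_algebraMap (φ : k →+* k) a)

/-- The semilinear automorphism of `modularFunctionFieldFullC k N` induced by a ring automorphism
of `k`. -/
def coeffSL (φ : k ≃+* k) : SemilinearAut k (modularFunctionFieldFullC k N) :=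
  ⟨(coeffRingAut N φ, φ), fun a => coeffRingAut_algebraMap N φ a⟩

@[simp]
theorem coe_coeffSL_smul (φ : k ≃+* k) (x : modularFunctionFieldFullC k N) :
    ((coeffSL N φ • x : modularFunctionFieldFullC k N) : LaurentSeries k)
      = coeffMap (φ : k →+* k) (x : LaurentSeries k) :=
  rfl

theorem coeffSL_symm (φ : k ≃+* k) : coeffSL N φ.symm = (coeffSL N φ)⁻¹ := rfl

theorem coeffSL_refl : coeffSL N (RingEquiv.refl k) = 1 := by
  refine Subtype.ext (Prod.ext (RingEquiv.ext fun x => Subtype.ext ?_) rfl)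
  show coeffMap ((RingEquiv.refl k : k ≃+* k) : k →+* k) (x : LaurentSeries k)
    = (x : LaurentSeries k)
  rw [show ((RingEquiv.refl k : k ≃+* k) : k →+* k) = RingHom.id k from RingHom.ext fun _ => rfl,
    coeffMap_id]

end Fermat.Agent.S37.H697

end
end
-- ===== PACK-END S37/H697/FrobF.lean

-- ===== PACK-BEGIN S28/H865Integral.lean
section
/-
S28 helper (helper865): abstract integrality lemma (c).

If `P` is an integrally closed domain, `ℓ ∈ P` is prime, `s ∈ P` is not divisible by `ℓ`, and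
both `ℓ • a` and `s • a` are integral over `P`, then `a` is integral over `P`.
-/


set_option autoImplicit false

noncomputable section

namespace Fermat.Agent.S28.H865

open Polynomial

/-- A monic polynomial all of whose coefficients are suitably divisible is a `scaleRoots`. -/
theorem exists_monic_scaleRoots_eq {P : Type*} [CommRing P] [IsDomain P] {ν : P[X]}
    (hν : ν.Monic) {ℓ : P} (h : ∀ i, ℓ ^ (ν.natDegree - i) ∣ ν.coeff i) :
    ∃ μ : P[X], μ.Monic ∧ μ.scaleRoots ℓ = ν := by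
  classical
  choose c hc using h
  set m := ν.natDegree with hm
  by_cases hℓ : ℓ = 0
  · -- then all lower coefficients vanish, `ν = X ^ m`
    refine ⟨ν, hν, ?_⟩
    ext i
    rw [coeff_scaleRoots]
    rcases lt_trichotomy i m with hi | hi | hi
    · have h0 : ν.coeff i = 0 := by
        rw [hc i, hℓ, zero_pow (by omega), zero_mul]
      rw [h0, zero_mul]
    · rw [hi, ← hm, Nat.sub_self, pow_zero, mul_one]
    · rw [coeff_eq_zero_of_natDegree_lt (by omega), zero_mul]
  set μ : P[X] := ∑ i ∈ Finset.range (m + 1), monomial i (c i) with hμ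
  have hμcoeff : ∀ i, μ.coeff i = if i ≤ m then c i else 0 := by
    intro i
    rw [hμ, finsetSum_coeff]
    simp only [coeff_monomial]
    rw [Finset.sum_ite_eq' (Finset.range (m + 1)) i]
    simp
  have hcm : c m = 1 := by
    have h1 := hc m
    rw [Nat.sub_self, pow_zero, one_mul] at h1
    rw [← h1]
    exact hν.coeff_natDegree
  have hμdeg : μ.natDegree ≤ m := by
    rw [hμ]
    refine natDegree_sum_le_of_forall_le _ _ fun i hi => ?_
    exact (natDegree_monomial_le _).trans (Nat.lt_succ_iff.mp (Finset.mem_range.mp hi))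
  have hμmonic : μ.Monic := by
    refine monic_of_natDegree_le_of_coeff_eq_one m hμdeg ?_
    rw [hμcoeff, if_pos le_rfl, hcm]
  have hμdeg' : μ.natDegree = m := by
    refine le_antisymm hμdeg ?_
    refine le_natDegree_of_ne_zero ?_
    rw [hμcoeff, if_pos le_rfl, hcm]
    exact one_ne_zero
  refine ⟨μ, hμmonic, ?_⟩
  ext i
  rw [coeff_scaleRoots, hμdeg', hμcoeff]
  by_cases hi : i ≤ m
  · rw [if_pos hi, hc i, mul_comm]
  · rw [if_neg hi, zero_mul, coeff_eq_zero_of_natDegree_lt (by omega)]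

/-- **Abstract integrality lemma.** -/
theorem isIntegral_of_smul_of_smul {P F : Type*} [CommRing P] [IsDomain P]
    [IsIntegrallyClosed P] [CommRing F] [IsDomain F] [Algebra P F] [FaithfulSMul P F]
    {ℓ s : P} (hℓ : Prime ℓ) (hs : ¬ ℓ ∣ s) {a : F}
    (h1 : IsIntegral P (ℓ • a)) (h2 : IsIntegral P (s • a)) : IsIntegral P a := by
  have hs0 : s ≠ 0 := fun h => hs (h ▸ dvd_zero ℓ)
  have hℓ0 : ℓ ≠ 0 := hℓ.ne_zero
  have key : (minpoly P (ℓ • a)).scaleRoots s = (minpoly P (s • a)).scaleRoots ℓ := by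
    rw [← IsIntegrallyClosed.minpoly_smul hs0 h1, ← IsIntegrallyClosed.minpoly_smul hℓ0 h2,
      smul_smul, smul_smul, mul_comm]
  have hdeg : (minpoly P (ℓ • a)).natDegree = (minpoly P (s • a)).natDegree := by
    have := congrArg Polynomial.natDegree key
    simpa [Polynomial.natDegree_scaleRoots] using this
  have hcoeff : ∀ i, ℓ ^ ((minpoly P (ℓ • a)).natDegree - i) ∣ (minpoly P (ℓ • a)).coeff i := by
    intro i
    have h3 := congrArg (fun p => Polynomial.coeff p i) key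
    simp only [Polynomial.coeff_scaleRoots] at h3
    rw [← hdeg] at h3
    refine hℓ.pow_dvd_of_dvd_mul_right (b := s ^ ((minpoly P (ℓ • a)).natDegree - i)) _
      (fun h => hs (hℓ.dvd_of_dvd_pow h)) ?_
    rw [h3]
    exact dvd_mul_left _ _
  obtain ⟨μ, hμ, hμν⟩ := exists_monic_scaleRoots_eq (minpoly.monic h1) hcoeff
  refine ⟨μ, hμ, ?_⟩
  have h4 : Polynomial.eval₂ (algebraMap P F) (algebraMap P F ℓ * a) (μ.scaleRoots ℓ) = 0 := by
    rw [hμν, ← Algebra.smul_def, ← Polynomial.aeval_def]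
    exact minpoly.aeval P _
  rw [Polynomial.scaleRoots_eval₂_mul] at h4
  have h5 : (algebraMap P F ℓ) ^ μ.natDegree ≠ 0 :=
    pow_ne_zero _ (by
      rw [Ne, FaithfulSMul.algebraMap_eq_zero_iff]
      exact hℓ0)
  exact (mul_eq_zero.mp h4).resolve_left h5

end Fermat.Agent.S28.H865

end
end
-- ===== PACK-END S28/H865Integral.lean

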