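import Mathlib.AlgebraicGeometry.EllipticCurve.Affine.Point
import Mathlib.RingTheory.Valuation.Basic
import Mathlib.Tactic
import Mathlib
import Fermat.Prelude.Def_FLTPrelim_Ramification
import Fermat.Prelude.Def_WeierstrassCurve_Mlc1RowStatement
import Fermat.Prelude.Def_WeierstrassCurve_ConductorLevel
import Fermat.Prelude.Def_FLTPrelim_ModularRep
import Fermat.Prelude.Def_CuspForm_HeckeAlgebra
import Fermat.Prelude.Def_GaloisRep_Flat
import Fermat.Prelude.Def_ModularCurve_ArithmeticGalois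
import Mathlib.NumberTheory.ModularForms.LevelOne.GradedRing

-- ===== PACK-BEGIN S59/H240/Node/Basic.lean
section




/-!
# S59 / CR-I (helper240): the nodal normal form `y² + xy = x³ + a·x`, `0 < |a| < 1`

`K` a field with a valuation `v`.  Every Weierstrass curve over an algebraically closed valued
field with multiplicative reduction can be brought (by an integral change of variables) into the
form `N(a) : y² + xy = x³ + a x` with `0 < v a < 1`; the node of the reduction is `(0, 0)` and the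
points reducing to the node form the "annulus" `v x < 1`.

Here: the elementary valuation analysis of `N(a)` (no Weierstrass-curve API yet):

* classes of the points of the annulus: `ClM` (`v x ≤ v a`), `BrP` (`v a < v x`, `v y < v x`),
  `BrN` (`v a < v x`, `v (y + x) < v x`);
* `chord_bound` : two points of the same class (and same `v x` in the branch classes) with
  `x' ≠ x`: the slope `λ` of the chord through `P'` and `-P` satisfies `1 ≤ v λ`, `1 ≤ v (λ + 1)`;
* `tangent_bound` : the same for the tangent at a point of class `ClM`.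
-/

set_option autoImplicit false
set_option linter.unusedSectionVars false

namespace Fermat.Agent.S59.H240

variable {K : Type*} [Field K] {Γ₀ : Type*} [LinearOrderedCommGroupWithZero Γ₀]
  {v : Valuation K Γ₀}

/-! ### ultrametric toolkit -/

lemma vadd_le {a b : K} {g : Γ₀} (ha : v a ≤ g) (hb : v b ≤ g) : v (a + b) ≤ g :=
  (v.map_add a b).trans (max_le ha hb)

lemma vadd_lt {a b : K} {g : Γ₀} (ha : v a < g) (hb : v b < g) : v (a + b) < g :=
  (v.map_add a b).trans_lt (max_lt ha hb)

lemma vsub_le {a b : K} {g : Γ₀} (ha : v a ≤ g) (hb : v b ≤ g) : v (a - b) ≤ g :=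
  (v.map_sub a b).trans (max_le ha hb)

lemma vsub_lt {a b : K} {g : Γ₀} (ha : v a < g) (hb : v b < g) : v (a - b) < g :=
  (v.map_sub a b).trans_lt (max_lt ha hb)

lemma vneg_le {a : K} {g : Γ₀} (ha : v a ≤ g) : v (-a) ≤ g := by rwa [Valuation.map_neg]

lemma vneg_lt {a : K} {g : Γ₀} (ha : v a < g) : v (-a) < g := by rwa [Valuation.map_neg]

/-- `v (a + b) = v a` if `v b < v a`. -/
lemma vadd_eq_left {a b : K} (h : v b < v a) : v (a + b) = v a :=
  v.map_add_eq_of_lt_left h

/-- `v (a + b) = v b` if `v a < v b`. -/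
lemma vadd_eq_right {a b : K} (h : v a < v b) : v (a + b) = v b := by
  rw [add_comm]; exact v.map_add_eq_of_lt_left h

lemma vnat_le_one (n : ℕ) : v (n : K) ≤ 1 := by
  induction n with
  | zero => simp
  | succ n ih => push_cast; exact vadd_le ih (by simp)

lemma vtwo_le_one : v (2 : K) ≤ 1 := by
  have := vnat_le_one (v := v) 2
  simpa using this

lemma vthree_le_one : v (3 : K) ≤ 1 := by
  have := vnat_le_one (v := v) 3
  simpa using this

lemma vmul_le_of_le_one_left {a b : K} (ha : v a ≤ 1) : v (a * b) ≤ v b := by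
  rw [map_mul]; exact mul_le_of_le_one_left' ha

lemma vmul_le_of_le_one_right {a b : K} (hb : v b ≤ 1) : v (a * b) ≤ v a := by
  rw [map_mul]; exact mul_le_of_le_one_right' hb

lemma vmul_lt_of_lt_one_right {a b : K} (ha : a ≠ 0) (hb : v b < 1) : v (a * b) < v a := by
  rw [map_mul]
  exact mul_lt_of_lt_one_right ((Valuation.pos_iff v).mpr ha) hb

lemma vmul_lt_of_lt_one_left {a b : K} (hb : b ≠ 0) (ha : v a < 1) : v (a * b) < v b := by
  rw [map_mul]
  exact mul_lt_of_lt_one_left ((Valuation.pos_iff v).mpr hb) ha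

lemma vsq_lt_self {x : K} (hx0 : x ≠ 0) (hx : v x < 1) : v (x ^ 2) < v x := by
  rw [pow_two]; exact vmul_lt_of_lt_one_right hx0 hx

lemma vsq_le_self {x : K} (hx : v x ≤ 1) : v (x ^ 2) ≤ v x := by
  rw [pow_two]; exact vmul_le_of_le_one_right hx

/-- In a linearly ordered group with zero, `g * g ≤ h * h → g ≤ h`. -/
lemma le_of_mul_self_le {g h : Γ₀} (hgh : g * g ≤ h * h) : g ≤ h := by
  by_contra hlt
  rw [not_le] at hlt
  have h0 : 0 ≤ h := zero_le
  have hg0 : 0 < g := lt_of_le_of_lt h0 hlt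
  have h1 : h * h ≤ h * g := mul_le_mul' le_rfl hlt.le
  have h2 : h * g < g * g := by
    exact mul_lt_mul_of_pos_right hlt hg0
  exact absurd (lt_of_le_of_lt h1 h2) (not_lt.mpr hgh)

lemma lt_of_mul_self_lt {g h : Γ₀} (hgh : g * g < h * h) : g < h := by
  by_contra hle
  rw [not_lt] at hle
  have : h * h ≤ g * g := mul_le_mul' hle hle
  exact absurd hgh (not_lt.mpr this)

/-! ### the normal form -/

/-- The equation of the normal form `N(a)`. -/
def NodeEq (a x y : K) : Prop := y ^ 2 + x * y = x ^ 3 + a * x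

/-- middle class -/
def ClM (v : Valuation K Γ₀) (a x : K) : Prop := v x ≤ v a

/-- branch `y ≈ 0` -/
def BrP (v : Valuation K Γ₀) (a x y : K) : Prop := v a < v x ∧ v y < v x

/-- branch `y ≈ -x` -/
def BrN (v : Valuation K Γ₀) (a x y : K) : Prop := v a < v x ∧ v (y + x) < v x

variable {a x y x' y' : K}

lemma NodeEq.neg (h : NodeEq a x y) : NodeEq a x (-y - x) := by
  unfold NodeEq at h ⊢
  linear_combination h

lemma NodeEq.factor (h : NodeEq a x y) : y * (y + x) = x * (x ^ 2 + a) := by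
  unfold NodeEq at h
  linear_combination h

/-- On the annulus, `y` is small as well. -/
lemma NodeEq.val_y_lt_one (h : NodeEq a x y) (ha : v a < 1) (hx : v x < 1) : v y < 1 := by
  by_contra hy
  rw [not_lt] at hy
  have hxy : v x < v y := hx.trans_le hy
  have h1 : v (y + x) = v y := vadd_eq_left hxy
  have h2 : v (x ^ 2 + a) < 1 :=
    vadd_lt (by rw [map_pow]; exact pow_lt_one₀ zero_le hx (by norm_num)) ha
  have h3 := congrArg v h.factor
  rw [map_mul, map_mul, h1] at h3
  have h4 : v x * v (x ^ 2 + a) < 1 := by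
    calc v x * v (x ^ 2 + a) ≤ 1 * v (x ^ 2 + a) := mul_le_mul' hx.le le_rfl
      _ = v (x ^ 2 + a) := one_mul _
      _ < 1 := h2
  have h5 : (1 : Γ₀) ≤ v y * v y := by
    calc (1 : Γ₀) = 1 * 1 := (one_mul 1).symm
      _ ≤ v y * v y := mul_le_mul' hy hy
  rw [h3] at h5
  exact absurd h4 (not_lt.mpr h5)

/-- The three classes exhaust the annulus. -/
lemma NodeEq.class_cases (h : NodeEq a x y) (hx : v x < 1) :
    ClM v a x ∨ BrP v a x y ∨ BrN v a x y := by
  rcases le_or_gt (v x) (v a) with hM | hlo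
  · exact Or.inl hM
  right
  have hx0 : x ≠ 0 := by
    rintro rfl
    rw [map_zero] at hlo
    exact not_lt_zero hlo
  by_contra hcon
  rw [not_or] at hcon
  have hy : v x ≤ v y := by
    by_contra hlt
    exact hcon.1 ⟨hlo, not_le.mp hlt⟩
  have hyx : v x ≤ v (y + x) := by
    by_contra hlt
    exact hcon.2 ⟨hlo, not_le.mp hlt⟩
  have h2 : v (x ^ 2 + a) < v x := vadd_lt (vsq_lt_self hx0 hx) hlo
  have h3 := congrArg v h.factor
  rw [map_mul, map_mul] at h3
  have h4 : v x * v (x ^ 2 + a) < v x * v x :=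
    mul_lt_mul_of_pos_left h2 ((Valuation.pos_iff v).mpr hx0)
  have h5 : v x * v x ≤ v y * v (y + x) := mul_le_mul' hy hyx
  rw [h3] at h5
  exact absurd h4 (not_lt.mpr h5)

/-- The two branches are exchanged by negation. -/
lemma BrP.neg (h : BrP v a x y) : BrN v a x (-y - x) := by
  refine ⟨h.1, ?_⟩
  have : -y - x + x = -y := by ring
  rw [this, Valuation.map_neg]
  exact h.2

lemma BrN.neg (h : BrN v a x y) : BrP v a x (-y - x) := by
  refine ⟨h.1, ?_⟩
  have : -y - x = -(y + x) := by ring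
  rw [this, Valuation.map_neg]
  exact h.2

lemma BrN.val_y (h : BrN v a x y) : v y = v x := by
  have : y = -x + (y + x) := by ring
  rw [this, vadd_eq_left (by rw [Valuation.map_neg]; exact h.2), Valuation.map_neg]

/-- The branches are disjoint. -/
lemma BrP.not_brN (h : BrP v a x y) : ¬ BrN v a x y := by
  intro hN
  have := hN.val_y
  exact absurd h.2 (by rw [this]; exact lt_irrefl _)

/-! ### the middle class -/

section Middle

variable (ha0 : a ≠ 0) (ha : v a < 1)
include ha0 ha

lemma ClM.val_y_le (hM : ClM v a x) (h : NodeEq a x y) : v y ≤ v a := by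
  by_contra hy
  rw [not_le] at hy
  have hxy : v x < v y := lt_of_le_of_lt hM hy
  have h1 : v (y + x) = v y := vadd_eq_left hxy
  have h2 : v (x ^ 2 + a) ≤ v a := by
    refine vadd_le ?_ le_rfl
    rw [map_pow]
    calc v x ^ 2 = v x * v x := pow_two _
      _ ≤ v a * 1 := mul_le_mul' hM (hM.trans ha.le)
      _ = v a := mul_one _
  have h3 := congrArg v h.factor
  rw [map_mul, map_mul, h1] at h3
  have h4 : v x * v (x ^ 2 + a) ≤ v a * v a := mul_le_mul' hM h2
  rw [← h3] at h4
  exact absurd (le_of_mul_self_le h4) (not_le.mpr hy)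

lemma ClM.val_x_cube_lt (hM : ClM v a x) : v (x ^ 3) < v a * v a := by
  have hapos : 0 < v a := (Valuation.pos_iff v).mpr ha0
  rw [map_pow]
  calc v x ^ 3 = v x * v x * v x := by rw [pow_succ, pow_two]
    _ ≤ v a * v a * v a := mul_le_mul' (mul_le_mul' hM hM) hM
    _ < v a * v a * 1 := by
        apply mul_lt_mul_of_pos_left ha
        exact mul_pos hapos hapos
    _ = v a * v a := mul_one _

lemma ClM.val_x_sq_lt (hM : ClM v a x) : v (x ^ 2) < v a := by
  have hapos : 0 < v a := (Valuation.pos_iff v).mpr ha0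
  rw [map_pow]
  calc v x ^ 2 = v x * v x := pow_two _
    _ ≤ v a * v a := mul_le_mul' hM hM
    _ < v a * 1 := mul_lt_mul_of_pos_left ha hapos
    _ = v a := mul_one _

/-- In the middle class `v (y - a) = v a`. -/
lemma ClM.val_y_sub (hM : ClM v a x) (h : NodeEq a x y) : v (y - a) = v a := by
  have hapos : 0 < v a := (Valuation.pos_iff v).mpr ha0
  have hy := hM.val_y_le ha0 ha h
  refine le_antisymm (vsub_le hy le_rfl) ?_
  by_contra hlt
  rw [not_le] at hlt
  -- `v y = v a`
  have hya : v y = v a := by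
    have : y = a + (y - a) := by ring
    rw [this, vadd_eq_left hlt]
  -- `y² = x³ - x (y - a)`
  have key : y ^ 2 = x ^ 3 - x * (y - a) := by
    unfold NodeEq at h
    linear_combination h
  have h1 : v (x * (y - a)) < v a * v a := by
    rw [map_mul]
    calc v x * v (y - a) ≤ v a * v (y - a) := mul_le_mul' hM le_rfl
      _ < v a * v a := mul_lt_mul_of_pos_left hlt hapos
  have h2 : v (y ^ 2) < v a * v a := by
    rw [key]
    exact vsub_lt (hM.val_x_cube_lt ha0 ha) h1
  rw [map_pow, pow_two, hya] at h2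
  exact lt_irrefl _ h2

/-- In the middle class `v (y + x + a) = v a`. -/
lemma ClM.val_y_add (hM : ClM v a x) (h : NodeEq a x y) : v (y + x + a) = v a := by
  have := hM.val_y_sub ha0 ha h.neg
  have e : -y - x - a = -(y + x + a) := by ring
  rwa [e, Valuation.map_neg] at this

end Middle

/-! ### the chord through `P'` and `-P` -/

/-- The basic identity behind the chord bound. -/
lemma chord_identity (h : NodeEq a x y) (h' : NodeEq a x' y') :
    (y' + y + x) * (y' - y - x + x') = (x' - x) * (x' ^ 2 + x' * x + x ^ 2 + a + y + x) := by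
  unfold NodeEq at h h'
  linear_combination h' - h

/-- Middle class: `v (x' - x) ≤ v (y' + y + x)`. -/
lemma chord_bound_M (ha0 : a ≠ 0) (ha : v a < 1) (h : NodeEq a x y) (h' : NodeEq a x' y')
    (hM : ClM v a x) (hM' : ClM v a x') : v (x' - x) ≤ v (y' + y + x) := by
  have hapos : 0 < v a := (Valuation.pos_iff v).mpr ha0
  have hy := hM.val_y_le ha0 ha h
  have hy' := hM'.val_y_le ha0 ha h'
  have hR : v (x' ^ 2 + x' * x + x ^ 2 + a + y + x) = v a := by
    have e : x' ^ 2 + x' * x + x ^ 2 + a + y + x = (y + x + a) + (x' ^ 2 + x' * x + x ^ 2) := by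
      ring
    rw [e, vadd_eq_left, hM.val_y_add ha0 ha h]
    rw [hM.val_y_add ha0 ha h]
    refine vadd_lt (vadd_lt (hM'.val_x_sq_lt ha0 ha) ?_) (hM.val_x_sq_lt ha0 ha)
    rw [map_mul]
    calc v x' * v x ≤ v a * v a := mul_le_mul' hM' hM
      _ < v a * 1 := mul_lt_mul_of_pos_left ha hapos
      _ = v a := mul_one _
  have hL : v (y' - y - x + x') ≤ v a :=
    vadd_le (vsub_le (vsub_le hy' hy) hM) hM'
  have key := congrArg v (chord_identity h h')
  rw [map_mul, map_mul, hR] at key
  by_contra hlt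
  rw [not_le] at hlt
  have h0 : 0 < v (x' - x) := lt_of_le_of_lt zero_le hlt
  have h1 : v (y' + y + x) * v (y' - y - x + x') < v (x' - x) * v a := by
    calc v (y' + y + x) * v (y' - y - x + x') ≤ v (y' + y + x) * v a :=
          mul_le_mul' le_rfl hL
      _ < v (x' - x) * v a := mul_lt_mul_of_pos_right hlt hapos
  rw [key] at h1
  exact lt_irrefl _ h1

/-- Branch classes: `v (y' + y + x) = v x`. -/
lemma chord_val_P (hxx : v x = v x') (hP : BrP v a x y) (hP' : BrP v a x' y') :
    v (y' + y + x) = v x := by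
  have : y' + y + x = x + (y' + y) := by ring
  rw [this, vadd_eq_left]
  exact vadd_lt (hxx ▸ hP'.2) hP.2

lemma chord_val_N (hxx : v x = v x') (hN : BrN v a x y) (hN' : BrN v a x' y') :
    v (y' + y + x) = v x := by
  have : y' + y + x = y' + (y + x) := by ring
  rw [this, vadd_eq_left, hN'.val_y, hxx]
  rw [hN'.val_y, ← hxx]
  exact hN.2

/-- **Chord bound**: two points of the annulus in the same class. -/
theorem chord_bound (ha0 : a ≠ 0) (ha : v a < 1) (h : NodeEq a x y) (h' : NodeEq a x' y')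
    (hcl : (ClM v a x ∧ ClM v a x') ∨ (v x = v x' ∧ BrP v a x y ∧ BrP v a x' y') ∨
      (v x = v x' ∧ BrN v a x y ∧ BrN v a x' y')) :
    v (x' - x) ≤ v (y' + y + x) ∧ v (x' - x) ≤ v (y' + y + x') := by
  have hsub : ∀ {g : Γ₀}, v x ≤ g → v x' ≤ g → v (x' - x) ≤ g := fun h1 h2 => vsub_le h2 h1
  rcases hcl with ⟨hM, hM'⟩ | ⟨hxx, hP, hP'⟩ | ⟨hxx, hN, hN'⟩
  · refine ⟨chord_bound_M ha0 ha h h' hM hM', ?_⟩
    -- apply the bound to the negated points
    have := chord_bound_M ha0 ha h.neg h'.neg hM hM'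
    have e : -y' - x' + (-y - x) + x = -(y' + y + x') := by ring
    rwa [e, Valuation.map_neg] at this
  · refine ⟨?_, ?_⟩
    · rw [chord_val_P hxx hP hP']
      exact hsub le_rfl hxx.ge
    · have := chord_val_N hxx hP.neg hP'.neg
      have e : -y' - x' + (-y - x) + x = -(y' + y + x') := by ring
      rw [e, Valuation.map_neg] at this
      rw [this]
      exact hsub le_rfl hxx.ge
  · refine ⟨?_, ?_⟩
    · rw [chord_val_N hxx hN hN']
      exact hsub le_rfl hxx.ge
    · have := chord_val_P hxx hN.neg hN'.neg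
      have e : -y' - x' + (-y - x) + x = -(y' + y + x') := by ring
      rw [e, Valuation.map_neg] at this
      rw [this]
      exact hsub le_rfl hxx.ge

/-- **Tangent bound** at a point of the middle class. -/
theorem tangent_bound (ha0 : a ≠ 0) (ha : v a < 1) (h : NodeEq a x y) (hM : ClM v a x) :
    v (2 * y + x) ≤ v (3 * x ^ 2 + a - y) ∧ v (2 * y + x) ≤ v (3 * x ^ 2 + a + y + x) := by
  have hy := hM.val_y_le ha0 ha h
  have hH : v (2 * y + x) ≤ v a := vadd_le ((vmul_le_of_le_one_left vtwo_le_one).trans hy) hM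
  have h3 : v (3 * x ^ 2) < v a :=
    lt_of_le_of_lt (vmul_le_of_le_one_left vthree_le_one) (hM.val_x_sq_lt ha0 ha)
  constructor
  · have e : 3 * x ^ 2 + a - y = -(y - a) + 3 * x ^ 2 := by ring
    have h1 : v (-(y - a)) = v a := by rw [Valuation.map_neg, hM.val_y_sub ha0 ha h]
    have h2 : v (-(y - a) + 3 * x ^ 2) = v a := by
      rw [vadd_eq_left (by rw [h1]; exact h3), h1]
    rw [e, h2]
    exact hH
  · have e : 3 * x ^ 2 + a + y + x = (y + x + a) + 3 * x ^ 2 := by ring
    have h1 : v (y + x + a) = v a := hM.val_y_add ha0 ha h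
    have h2 : v ((y + x + a) + 3 * x ^ 2) = v a := by
      rw [vadd_eq_left (by rw [h1]; exact h3), h1]
    rw [e, h2]
    exact hH

end Fermat.Agent.S59.H240

end
-- ===== PACK-END S59/H240/Node/Basic.lean

-- ===== PACK-BEGIN S05/Sq12/Inertia.lean
section



/-!
# Inertia / decomposition group facts for valuation subrings (squad S05/S12, warmups W1 + W2)
-/

set_option autoImplicit false

namespace Fermat.Agent.S05.Sq12

open ValuationSubring
open scoped Pointwise

section Decomp

variable {K L : Type*} [Field K] [Field L] [Algebra K L]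

theorem smul_eq_of_mem_decomp (A : ValuationSubring L) {σ : L ≃ₐ[K] L}
    (hσ : σ ∈ A.decompositionSubgroup K) : σ • A = A := hσ

theorem apply_mem_of_mem_decomp (A : ValuationSubring L) {σ : L ≃ₐ[K] L}
    (hσ : σ ∈ A.decompositionSubgroup K) {x : L} (hx : x ∈ A) : σ x ∈ A := by
  have h : σ • x ∈ σ • A := ValuationSubring.smul_mem_pointwise_smul σ x A hx
  rw [smul_eq_of_mem_decomp A hσ] at h
  exact h

theorem apply_mem_iff_of_mem_decomp (A : ValuationSubring L) {σ : L ≃ₐ[K] L}
    (hσ : σ ∈ A.decompositionSubgroup K) (x : L) : σ x ∈ A ↔ x ∈ A := by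
  constructor
  · intro h
    have hinv : σ⁻¹ ∈ A.decompositionSubgroup K := inv_mem hσ
    have := apply_mem_of_mem_decomp A hinv h
    simpa using this
  · exact apply_mem_of_mem_decomp A hσ

theorem valuation_le_of_mem_decomp (A : ValuationSubring L) {σ : L ≃ₐ[K] L}
    (hσ : σ ∈ A.decompositionSubgroup K) {x y : L}
    (h : A.valuation x ≤ A.valuation y) : A.valuation (σ x) ≤ A.valuation (σ y) := by
  rw [ValuationSubring.valuation_le_iff] at h ⊢
  obtain ⟨a, ha⟩ := h
  refine ⟨⟨σ a, apply_mem_of_mem_decomp A hσ a.2⟩, ?_⟩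
  simp only
  rw [← map_mul, ha]

theorem valuation_le_iff_of_mem_decomp (A : ValuationSubring L) {σ : L ≃ₐ[K] L}
    (hσ : σ ∈ A.decompositionSubgroup K) (x y : L) :
    A.valuation (σ x) ≤ A.valuation (σ y) ↔ A.valuation x ≤ A.valuation y := by
  constructor
  · intro h
    have hinv : σ⁻¹ ∈ A.decompositionSubgroup K := inv_mem hσ
    have := valuation_le_of_mem_decomp A hinv h
    simpa using this
  · exact valuation_le_of_mem_decomp A hσ

theorem valuation_lt_iff_of_mem_decomp (A : ValuationSubring L) {σ : L ≃ₐ[K] L}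
    (hσ : σ ∈ A.decompositionSubgroup K) (x y : L) :
    A.valuation (σ x) < A.valuation (σ y) ↔ A.valuation x < A.valuation y := by
  rw [← not_le, ← not_le, valuation_le_iff_of_mem_decomp A hσ]

/-- Some positive power of `σ` fixes a given algebraic element. -/
theorem exists_pow_apply_eq_self {σ : L ≃ₐ[K] L} {x : L} (hx : IsAlgebraic K x) :
    ∃ n : ℕ, 0 < n ∧ (σ ^ n) x = x := by
  classical
  have hint : IsIntegral K x := hx.isIntegral
  have hfin : ((minpoly K x).rootSet L).Finite := Polynomial.rootSet_finite _ _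
  have hmem : ∀ k : ℕ, (σ ^ k) x ∈ (minpoly K x).rootSet L := by
    intro k
    rw [Polynomial.mem_rootSet]
    refine ⟨minpoly.ne_zero hint, ?_⟩
    have : Polynomial.aeval ((σ ^ k) x) (minpoly K x) = (σ ^ k) (Polynomial.aeval x (minpoly K x)) := by
      exact Polynomial.aeval_algHom_apply ((σ ^ k : L ≃ₐ[K] L) : L →ₐ[K] L) x (minpoly K x)
    rw [this, minpoly.aeval, map_zero]
  obtain ⟨i, j, hij, heq⟩ : ∃ i j : ℕ, i < j ∧ (σ ^ i) x = (σ ^ j) x := by
    by_contra hcon
    push Not at hcon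
    have hinj : Function.Injective (fun k : ℕ => (⟨(σ ^ k) x, hmem k⟩ : (minpoly K x).rootSet L)) := by
      intro a b hab
      simp only [Subtype.mk.injEq] at hab
      rcases lt_trichotomy a b with h | h | h
      · exact absurd hab (hcon a b h)
      · exact h
      · exact absurd hab.symm (hcon b a h)
    have : Finite ((minpoly K x).rootSet L) := hfin.to_subtype
    exact not_injective_infinite_finite _ hinj
  refine ⟨j - i, Nat.sub_pos_of_lt hij, ?_⟩
  have hpow : σ ^ j = σ ^ i * σ ^ (j - i) := by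
    rw [← pow_add]; congr 1; omega
  rw [hpow, AlgEquiv.mul_apply] at heq
  exact ((σ ^ i).injective heq).symm

theorem valuation_apply_eq_of_mem_decomp (A : ValuationSubring L) {σ : L ≃ₐ[K] L}
    (hσ : σ ∈ A.decompositionSubgroup K) {x : L} (hx : IsAlgebraic K x) :
    A.valuation (σ x) = A.valuation x := by
  obtain ⟨n, hn, hfix⟩ := exists_pow_apply_eq_self (σ := σ) hx
  -- monotone chains
  have hup : A.valuation x < A.valuation (σ x) →
      ∀ k : ℕ, A.valuation x < A.valuation ((σ ^ (k + 1)) x) := by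
    intro h k
    induction k with
    | zero => simpa using h
    | succ k ih =>
      have h1 : A.valuation (σ x) < A.valuation (σ ((σ ^ (k + 1)) x)) :=
        (valuation_lt_iff_of_mem_decomp A hσ _ _).2 ih
      have h2 : σ ((σ ^ (k + 1)) x) = (σ ^ (k + 1 + 1)) x := by
        rw [pow_succ' σ (k + 1), AlgEquiv.mul_apply]
      rw [h2] at h1
      exact lt_trans h h1
  have hdown : A.valuation (σ x) < A.valuation x →
      ∀ k : ℕ, A.valuation ((σ ^ (k + 1)) x) < A.valuation x := by
    intro h k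
    induction k with
    | zero => simpa using h
    | succ k ih =>
      have h1 : A.valuation (σ ((σ ^ (k + 1)) x)) < A.valuation (σ x) :=
        (valuation_lt_iff_of_mem_decomp A hσ _ _).2 ih
      have h2 : σ ((σ ^ (k + 1)) x) = (σ ^ (k + 1 + 1)) x := by
        rw [pow_succ' σ (k + 1), AlgEquiv.mul_apply]
      rw [h2] at h1
      exact lt_trans h1 h
  obtain ⟨m, rfl⟩ : ∃ m, n = m + 1 := ⟨n - 1, by omega⟩
  rcases lt_trichotomy (A.valuation (σ x)) (A.valuation x) with h | h | h
  · have := hdown h m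
    rw [hfix] at this
    exact absurd this (lt_irrefl _)
  · exact h
  · have := hup h m
    rw [hfix] at this
    exact absurd this (lt_irrefl _)

theorem mem_decomp_of_mem_inertiaIn (A : ValuationSubring L) {σ : L ≃ₐ[K] L}
    (hσ : σ ∈ A.inertiaSubgroupIn K) : σ ∈ A.decompositionSubgroup K := by
  obtain ⟨τ, _, rfl⟩ := hσ
  exact τ.2

theorem sub_mem_nonunits_of_mem_inertiaIn (A : ValuationSubring L) {σ : L ≃ₐ[K] L}
    (hσ : σ ∈ A.inertiaSubgroupIn K) {x : L} (hx : x ∈ A) : σ x - x ∈ A.nonunits := by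
  obtain ⟨τ, hτ, rfl⟩ := hσ
  have hτ' : MulSemiringAction.toRingAut (A.decompositionSubgroup K)
      (IsLocalRing.ResidueField A) τ = 1 := hτ
  have h1 : τ • (IsLocalRing.residue A ⟨x, hx⟩) = IsLocalRing.residue A ⟨x, hx⟩ := by
    have := congrArg (fun f : RingAut (IsLocalRing.ResidueField A) =>
      f (IsLocalRing.residue A ⟨x, hx⟩)) hτ'
    simpa using this
  rw [← IsLocalRing.ResidueField.residue_smul] at h1
  have h2 : IsLocalRing.residue A (τ • (⟨x, hx⟩ : A) - ⟨x, hx⟩) = 0 := by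
    rw [map_sub, h1, sub_self]
  have h3 : (τ • (⟨x, hx⟩ : A) - ⟨x, hx⟩) ∈ IsLocalRing.maximalIdeal A :=
    (IsLocalRing.residue_eq_zero_iff _).1 h2
  have h4 := (ValuationSubring.coe_mem_nonunits_iff (A := A)).2 h3
  exact h4

end Decomp


section Integers

variable {L : Type*} [Field L] (A : ValuationSubring L)

theorem intCast_mem_vs (n : ℤ) : (n : L) ∈ A := _root_.intCast_mem A n

theorem natCast_mem_vs (n : ℕ) : (n : L) ∈ A := _root_.natCast_mem A n

theorem valuation_intCast_le_one (n : ℤ) : A.valuation (n : L) ≤ 1 :=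
  (A.valuation_le_one_iff _).2 (intCast_mem_vs A n)

theorem valuation_natCast_le_one (n : ℕ) : A.valuation (n : L) ≤ 1 :=
  (A.valuation_le_one_iff _).2 (natCast_mem_vs A n)

theorem valuation_intCast_lt_one_of_dvd {q : ℕ} (hq : A.LiesOverPrime q) {n : ℤ}
    (h : (q : ℤ) ∣ n) : A.valuation (n : L) < 1 := by
  obtain ⟨m, rfl⟩ := h
  have hq' : A.valuation (q : L) < 1 := (A.mem_nonunits_iff).1 hq
  push_cast
  rw [map_mul]
  calc A.valuation (q : L) * A.valuation (m : L)
      ≤ A.valuation (q : L) * 1 := by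
        gcongr
        exact valuation_intCast_le_one A m
    _ = A.valuation (q : L) := mul_one _
    _ < 1 := hq'

theorem valuation_intCast_eq_one_of_not_dvd {q : ℕ} (hqp : q.Prime) (hq : A.LiesOverPrime q)
    {n : ℤ} (h : ¬ (q : ℤ) ∣ n) : A.valuation (n : L) = 1 := by
  have hq' : A.valuation (q : L) < 1 := (A.mem_nonunits_iff).1 hq
  have hcop : IsCoprime (q : ℤ) n := by
    have hprime : Prime (q : ℤ) := Nat.prime_iff_prime_int.1 hqp
    exact (Prime.coprime_iff_not_dvd hprime).2 h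
  obtain ⟨u, v, huv⟩ := hcop
  have hL : (u : L) * (q : L) + (v : L) * (n : L) = 1 := by
    have := congrArg (fun z : ℤ => (z : L)) huv
    push_cast at this
    exact this
  rcases lt_or_eq_of_le (valuation_intCast_le_one A n) with hlt | heq
  · exfalso
    have h1 : A.valuation ((u : L) * (q : L)) < 1 := by
      rw [map_mul]
      calc A.valuation (u : L) * A.valuation (q : L)
          ≤ 1 * A.valuation (q : L) := by
            gcongr
            exact valuation_intCast_le_one A u
        _ = A.valuation (q : L) := one_mul _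
        _ < 1 := hq'
    have h2 : A.valuation ((v : L) * (n : L)) < 1 := by
      rw [map_mul]
      calc A.valuation (v : L) * A.valuation (n : L)
          ≤ 1 * A.valuation (n : L) := by
            gcongr
            exact valuation_intCast_le_one A v
        _ = A.valuation (n : L) := one_mul _
        _ < 1 := hlt
    have h3 : A.valuation ((u : L) * (q : L) + (v : L) * (n : L)) < 1 :=
      lt_of_le_of_lt (A.valuation.map_add _ _) (max_lt h1 h2)
    rw [hL, map_one] at h3
    exact lt_irrefl _ h3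
  · exact heq

theorem valuation_natCast_eq_one_of_not_dvd {q : ℕ} (hqp : q.Prime) (hq : A.LiesOverPrime q)
    {n : ℕ} (h : ¬ q ∣ n) : A.valuation (n : L) = 1 := by
  have := valuation_intCast_eq_one_of_not_dvd A hqp hq (n := (n : ℤ))
    (by rwa [Int.natCast_dvd_natCast])
  simpa using this

theorem valuation_prime_eq_one {q p : ℕ} (hqp : q.Prime) (hq : A.LiesOverPrime q)
    (hp : p.Prime) (hne : q ≠ p) : A.valuation (p : L) = 1 :=
  valuation_natCast_eq_one_of_not_dvd A hqp hq
    (fun h => hne ((Nat.prime_dvd_prime_iff_eq hqp hp).1 h))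

theorem valuation_two_eq_one {q : ℕ} (hqp : q.Prime) (hq : A.LiesOverPrime q)
    (hne : q ≠ 2) : A.valuation (2 : L) = 1 := by
  have := valuation_prime_eq_one A hqp hq Nat.prime_two hne
  simpa using this

end Integers

section Rat

/-- every element of `AlgebraicClosure ℚ` is algebraic over `ℚ` for the algebra structure
used by the Prelude (`DivisionRing.toRatAlgebra`). -/
theorem isAlgebraic_algebraicClosure_rat (x : AlgebraicClosure ℚ) : IsAlgebraic ℚ x := by
  have h : (AlgebraicClosure.instAlgebra ℚ : Algebra ℚ (AlgebraicClosure ℚ)) =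
      DivisionRing.toRatAlgebra := Subsingleton.elim _ _
  have hx : @IsAlgebraic ℚ (AlgebraicClosure ℚ) _ _ (AlgebraicClosure.instAlgebra ℚ) x :=
    @Algebra.IsAlgebraic.isAlgebraic ℚ (AlgebraicClosure ℚ) _ _ (AlgebraicClosure.instAlgebra ℚ)
      (AlgebraicClosure.isAlgebraic ℚ) x
  rw [h] at hx
  exact hx

variable (A : ValuationSubring (AlgebraicClosure ℚ))
  {σ : AlgebraicClosure ℚ ≃ₐ[ℚ] AlgebraicClosure ℚ}

theorem valuation_apply_eq_of_mem_inertiaIn (hσ : σ ∈ A.inertiaSubgroupIn ℚ)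
    (x : AlgebraicClosure ℚ) : A.valuation (σ x) = A.valuation x :=
  valuation_apply_eq_of_mem_decomp A (mem_decomp_of_mem_inertiaIn A hσ)
    (isAlgebraic_algebraicClosure_rat x)

theorem valuation_sub_lt_one_of_mem_inertiaIn (hσ : σ ∈ A.inertiaSubgroupIn ℚ)
    {x : AlgebraicClosure ℚ} (hx : A.valuation x ≤ 1) : A.valuation (σ x - x) < 1 :=
  (A.mem_nonunits_iff).1
    (sub_mem_nonunits_of_mem_inertiaIn A hσ ((A.valuation_le_one_iff x).1 hx))

theorem apply_ratCast (r : ℚ) : σ (r : AlgebraicClosure ℚ) = r := map_ratCast σ r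

theorem apply_intCast (n : ℤ) : σ (n : AlgebraicClosure ℚ) = n := map_intCast σ n

theorem apply_natCast (n : ℕ) : σ (n : AlgebraicClosure ℚ) = n := map_natCast σ n

end Rat

end Fermat.Agent.S05.Sq12

end
-- ===== PACK-END S05/Sq12/Inertia.lean

-- ===== PACK-BEGIN S59/H239/Top.lean
section





/-!
# Row S59 — top layer glue (helper239)

Architecture: `coord/S59-arch-helper239.md` (origin/helper239).

* `S58Statement`, `S59Statement` : the frozen statements S58, S59 as `Prop`s.
* `MLStatement`  : modularity at SOME cube-free level (output of the `R = T` machine).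
* `RTStatement`  : the `R = T` output in Hecke-algebra form (an integral character of the anemic
  Hecke algebra with values `a_ℓ(W)`).
* `EigenformOfCharStatement` : (E1) an integral character gives a normalised eigenform after
  stabilisation at the primes of `S` not dividing the level.
* `s59_of : S58Statement → MLStatement → S59Statement`   (T0)
* `ml_of : RTStatement → EigenformOfCharStatement → MLStatement`   (T1)
-/

set_option autoImplicit false

namespace Fermat.Agent.S59.H239

open WeierstrassCurve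

/-- The frozen statement S58 (conductor-level matching). -/
def S58Statement : Prop :=
  ∀ (W : WeierstrassCurve ℤ) (_hss : W.IsSemistableModel) (N : ℕ)
    (p : ℕ) [Fact p.Prime] (_hp2 : p ≠ 2) (_hirr : W.ModRepIsIrreducible p)
    (_hp2N : ¬ p ^ 2 ∣ N)
    (_hN : W.IsModularModelOfLevel N) (_hbad : ∀ ℓ : ℕ, ℓ.Prime → (ℓ : ℤ) ∣ W.Δ → ℓ ∣ N)
    (_hN3 : ∀ q : ℕ, q.Prime → ¬ q ^ 3 ∣ N),
    W.IsModularModelOfLevel W.conductorLevel

/-- The frozen statement S59 (modularity lifting at `p = 3, 5`). -/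
def S59Statement : Prop :=
  ∀ (p : ℕ) (_hp : p = 3 ∨ p = 5)
    (W : WeierstrassCurve ℤ) (_hΔ : W.Δ ≠ 0) (_hW : W.IsSemistableModel)
    (_hirr : W.ModRepIsIrreducible p)
    (M₀ : ℕ) [NeZero M₀] (_hres₀ : W.IsResiduallyModularOfLevel p M₀)
    (_hM₀ : ¬ p ^ 2 ∣ M₀)
    (_hM₀3 : ∀ q : ℕ, q.Prime → q ≠ p → ¬ q ^ 3 ∣ M₀),
    Mlc1IsModularModelOfExactConductorLevel W

/-- (ML) modularity of `W` at some cube-free level, prime-to-`p²`, divisible by the bad primes. -/
def MLStatement : Prop :=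
  ∀ (p : ℕ) (_hp : p = 3 ∨ p = 5)
    (W : WeierstrassCurve ℤ) (_hΔ : W.Δ ≠ 0) (_hW : W.IsSemistableModel)
    (_hirr : W.ModRepIsIrreducible p)
    (M₀ : ℕ) [NeZero M₀] (_hres₀ : W.IsResiduallyModularOfLevel p M₀)
    (_hM₀ : ¬ p ^ 2 ∣ M₀)
    (_hM₀3 : ∀ q : ℕ, q.Prime → q ≠ p → ¬ q ^ 3 ∣ M₀),
    ∃ N : ℕ, ¬ p ^ 2 ∣ N ∧ (∀ q : ℕ, q.Prime → ¬ q ^ 3 ∣ N) ∧
      (∀ ℓ : ℕ, ℓ.Prime → (ℓ : ℤ) ∣ W.Δ → ℓ ∣ N) ∧ W.IsModularModelOfLevel N

/-- **T0**: S59 from S58 and (ML). -/
theorem s59_of (h58 : S58Statement) (hML : MLStatement) : S59Statement := by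
  intro p hp W hΔ hW hirr M₀ _ hres hM₀ hM₀3
  obtain ⟨N, hpN, hN3, hbad, hmod⟩ := hML p hp W hΔ hW hirr M₀ hres hM₀ hM₀3
  have hpp : p.Prime := by
    rcases hp with rfl | rfl
    · exact Nat.prime_three
    · exact Nat.prime_five
  haveI : Fact p.Prime := ⟨hpp⟩
  have hp2 : p ≠ 2 := by
    rcases hp with rfl | rfl <;> decide
  have h := h58 W hW N p hp2 hirr hpN hmod hbad hN3
  exact ⟨W.conductorLevel, W.conductorLevel_pos, W.squarefree_conductorLevel,
    fun q hq => W.prime_dvd_conductorLevel_iff hΔ hq, h⟩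

/-- The set of primes of `S` not dividing `N`, multiplied into the level. -/
noncomputable def stabLevel (N : ℕ) (S : Finset ℕ) : ℕ :=
  N * ∏ ℓ ∈ S.filter (fun ℓ => ℓ.Prime ∧ ¬ ℓ ∣ N), ℓ

/-- (RT) the output of `R = T`: an integral character of the anemic Hecke algebra of a cube-free
level `N` (prime to `p²`, divisible by the bad primes), away from a finite set `S` of primes
containing the primes of `N`, with `χ(T_ℓ) = a_ℓ(W)` for all primes `ℓ ∉ S`. -/
def RTStatement : Prop :=
  ∀ (p : ℕ) (_hp : p = 3 ∨ p = 5)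
    (W : WeierstrassCurve ℤ) (_hΔ : W.Δ ≠ 0) (_hW : W.IsSemistableModel)
    (_hirr : W.ModRepIsIrreducible p)
    (M₀ : ℕ) [NeZero M₀] (_hres₀ : W.IsResiduallyModularOfLevel p M₀)
    (_hM₀ : ¬ p ^ 2 ∣ M₀)
    (_hM₀3 : ∀ q : ℕ, q.Prime → q ≠ p → ¬ q ^ 3 ∣ M₀),
    ∃ (N : ℕ) (_ : NeZero N) (S : Finset ℕ),
      ¬ p ^ 2 ∣ N ∧ (∀ q : ℕ, q.Prime → ¬ q ^ 3 ∣ N) ∧
      (∀ ℓ : ℕ, ℓ.Prime → (ℓ : ℤ) ∣ W.Δ → ℓ ∣ N) ∧
      (∀ ℓ ∈ S, ℓ.Prime) ∧ (∀ ℓ ∈ S, ℓ = p ∨ ℓ ∣ N) ∧
      ∃ χ : CuspForm.heckeAlgebra N 2 (↑S : Set ℕ) →+* ℤ,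
        ∀ (ℓ : ℕ) (hℓ : ℓ.Prime) (hℓN : ¬ ℓ ∣ N) (hℓS : ℓ ∉ (↑S : Set ℕ)),
          χ (CuspForm.heckeAlgebra.T hℓ hℓN hℓS) = W.apOfModel ℓ

/-- (E1) An integral character of the anemic Hecke algebra of level `N` away from `S` with values
`a_ℓ(W)` gives a normalised eigenform of level `N` (if `p ∣ N`) or `N * p`, whose coefficients at
the good primes not dividing the level are the `a_ℓ(W)`. -/
def EigenformOfCharStatement : Prop :=
  ∀ (W : WeierstrassCurve ℤ) (N : ℕ) [NeZero N] (S : Finset ℕ) (p : ℕ), p.Prime →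
    (∀ ℓ ∈ S, ℓ.Prime) → (∀ ℓ ∈ S, ℓ = p ∨ ℓ ∣ N) →
    (χ : CuspForm.heckeAlgebra N 2 (↑S : Set ℕ) →+* ℤ) →
    (∀ (ℓ : ℕ) (hℓ : ℓ.Prime) (hℓN : ¬ ℓ ∣ N) (hℓS : ℓ ∉ (↑S : Set ℕ)),
      χ (CuspForm.heckeAlgebra.T hℓ hℓN hℓS) = W.apOfModel ℓ) →
    W.IsModularModelOfLevel (if p ∣ N then N else N * p)

/-- **T1**: (ML) from (RT) and (E1). -/
theorem ml_of (hRT : RTStatement) (hE1 : EigenformOfCharStatement) : MLStatement := by
  intro p hp W hΔ hW hirr M₀ _ hres hM₀ hM₀3
  obtain ⟨N, hNZ, S, hpN, hN3, hbad, hSprime, hSN, χ, hχ⟩ :=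
    hRT p hp W hΔ hW hirr M₀ hres hM₀ hM₀3
  have hpp : p.Prime := by
    rcases hp with rfl | rfl
    · exact Nat.prime_three
    · exact Nat.prime_five
  have hmod := hE1 W N S p hpp hSprime hSN χ hχ
  by_cases hdvd : p ∣ N
  · rw [if_pos hdvd] at hmod
    exact ⟨N, hpN, hN3, hbad, hmod⟩
  · rw [if_neg hdvd] at hmod
    refine ⟨N * p, ?_, ?_, fun ℓ hℓ hℓΔ => Dvd.dvd.mul_right (hbad ℓ hℓ hℓΔ) p, hmod⟩
    · -- `p² ∤ N p` since `p ∤ N`
      intro h
      rw [pow_two] at h
      exact hdvd ((Nat.mul_dvd_mul_iff_right hpp.pos).mp h)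
    · intro q hq h
      by_cases hqp : q = p
      · subst hqp
        -- `q³ ∣ N q` forces `q ∣ N`
        have h2 : q ^ 2 ∣ N := by
          have : q ^ 2 * q ∣ N * q := by rwa [← pow_succ]
          exact (Nat.mul_dvd_mul_iff_right hq.pos).mp this
        exact hdvd (dvd_trans (dvd_pow_self q two_ne_zero) h2)
      · -- `q ≠ p`: `q³` is coprime to `p`
        have hcop : Nat.Coprime (q ^ 3) p :=
          Nat.Coprime.pow_left 3 ((Nat.coprime_primes hq hpp).mpr hqp)
        exact hN3 q hq (hcop.dvd_of_dvd_mul_right h)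

end Fermat.Agent.S59.H239

end
-- ===== PACK-END S59/H239/Top.lean

-- ===== PACK-BEGIN S19/Defs.lean
section




/-!
# Cell A3 (S19) — FROZEN top-level interface (row-lead helper15)

Route Z (origin/helper15:coord/A3.md, origin/helper19:coord/A3-route-helper19.md):

    frozen S19  <==  FIN (torsion finite)  +  ORDER (an `OrderDatum` for the torsion)
    ORD block   :  `OrdStatement`   : OrderDatum  ==>  HopfModel          (pure algebra)
    glue        :  `S19_of_hopfModel` (file `Glue.lean`)                  (unfolding)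

Everything here is definitions only.  Interfaces are frozen; ask helper15 (note kind 'interface')
before proposing a change.
-/

set_option autoImplicit false

noncomputable section

namespace Fermat.Agent.S19

/-- `Q̄`. -/
abbrev Qb : Type := AlgebraicClosure ℚ

/-- `Gal(Q̄/Q)`. -/
abbrev GalQ : Type := Qb ≃ₐ[ℚ] Qb

/-- `Z_(ℓ)` as a subring of `ℚ` (the Prelude ring). -/
abbrev Rl (ℓ : ℕ) : Subring ℚ := GaloisRep.ratLocalizedAt ℓ

/-- The integral closure of `Z_(ℓ)` in `Q̄`. -/
abbrev Zb (ℓ : ℕ) : Subalgebra (Rl ℓ) Qb := integralClosure (Rl ℓ) Qb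

/-- The S19-shaped conclusion for an abstract module `M` with a map `act : Gal → M → M`:
a finite flat commutative cocommutative Hopf algebra over `Z_(ℓ)` whose `Q̄`-points are `M`,
additively and Galois-equivariantly. -/
def HopfModel (ℓ : ℕ) (M : Type) [AddCommGroup M] (act : GalQ → M → M) : Prop :=
  ∃ (H : Type) (_ : CommRing H) (_ : HopfAlgebra (Rl ℓ) H),
    Module.Finite (Rl ℓ) H ∧ Module.Flat (Rl ℓ) H ∧ Coalgebra.IsCocomm (Rl ℓ) H ∧
    ∃ e : WithConv (H →ₐ[Rl ℓ] Qb) ≃ M,
      (∀ f g, e (f * g) = e f + e g) ∧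
      ∀ (σ : GalQ) (f g : WithConv (H →ₐ[Rl ℓ] Qb)),
        (∀ h : H, g h = σ (f h)) → e g = act σ (e f)

/-- The two families of "coordinate functions" on `M × M` coming from a set of functions on `M`. -/
def coordFunctions {M : Type} (S : Set (M → Qb)) : Set (M × M → Qb) :=
  {g | ∃ h ∈ S, g = fun p => h p.1} ∪ {g | ∃ h ∈ S, g = fun p => h p.2}

/-- **ORDER datum** (route Z, §0): a set `gens` of functions `M → Q̄` which are
Galois-equivariant, have values integral over `Z_(ℓ)`, separate the points of `M`, and whose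
translates `(s,t) ↦ f (s+t)` are `Z̄_(ℓ)`-polynomial in the coordinate functions
`(s,t) ↦ h s`, `(s,t) ↦ h t`  (`h ∈ gens`).

* The only axiom on `act` is additivity `act_add` (v2, 18:30Z: without it `OrdStatement` is
  false — counterexamples by helper979, helper259, helper79); no finiteness of `gens`, no
  closure of `gens` under anything.
* `add_mem` is over `Zb ℓ` (integral closure in `Q̄`), which is WEAKER than over `Z_(ℓ)`;
  the ORD block proves that it implies the statement over `Z_(ℓ)`. -/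
structure OrderDatum (ℓ : ℕ) (M : Type) [AddCommGroup M] (act : GalQ → M → M) where
  act_add : ∀ (σ : GalQ) (a b : M), act σ (a + b) = act σ a + act σ b
  gens : Set (M → Qb)
  equivariant : ∀ f ∈ gens, ∀ (σ : GalQ) (m : M), f (act σ m) = σ (f m)
  integral : ∀ f ∈ gens, ∀ m : M, IsIntegral (Rl ℓ) (f m)
  separates : ∀ m m' : M, (∀ f ∈ gens, f m = f m') → m = m'
  add_mem : ∀ f ∈ gens, (fun p : M × M => f (p.1 + p.2)) ∈
    Algebra.adjoin (Zb ℓ) (coordFunctions gens)

/-- **ORD block** (pure algebra): an order datum on a finite module gives a Hopf model. -/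
def OrdStatement : Prop :=
  ∀ (ℓ : ℕ) [Fact ℓ.Prime] (M : Type) [AddCommGroup M] [Finite M] (act : GalQ → M → M),
    Nonempty (OrderDatum ℓ M act) → HopfModel ℓ M act

/-- The torsion module of S19 with its Galois action. -/
abbrev Tors (N ℓ k : ℕ) : Type := ↥(Submodule.torsionBy ℤ (ModularCurve.JZero N) ((ℓ : ℤ) ^ k))

/-- Galois action on the torsion. -/
def torsAct (N ℓ k : ℕ) (σ : GalQ) (m : Tors N ℓ k) : Tors N ℓ k :=
  ⟨σ • (m : ModularCurve.JZero N), by
    have h := m.2
    rw [Submodule.mem_torsionBy_iff] at h ⊢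
    have h2 := (DistribSMul.toAddMonoidHom (ModularCurve.JZero N) σ).map_zsmul
      ((ℓ : ℤ) ^ k) (m : ModularCurve.JZero N)
    rw [h, map_zero] at h2
    exact h2.symm⟩

@[simp] theorem coe_torsAct (N ℓ k : ℕ) (σ : GalQ) (m : Tors N ℓ k) :
    ((torsAct N ℓ k σ m : Tors N ℓ k) : ModularCurve.JZero N) = σ • (m : ModularCurve.JZero N) :=
  rfl

/-- **FIN block**: the torsion is finite. -/
def FinStatement : Prop :=
  ∀ (N : ℕ) [NeZero N] (ℓ : ℕ) [Fact ℓ.Prime] (k : ℕ), Finite (Tors N ℓ k)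

theorem torsAct_add (N ℓ k : ℕ) (σ : GalQ) (a b : Tors N ℓ k) :
    torsAct N ℓ k σ (a + b) = torsAct N ℓ k σ a + torsAct N ℓ k σ b :=
  Subtype.ext (smul_add σ (a : ModularCurve.JZero N) (b : ModularCurve.JZero N))

/-- **ORDER block** (the geometric wall): the torsion carries an order datum. -/
def OrderStatement : Prop :=
  ∀ (N : ℕ) [NeZero N] (ℓ : ℕ) [Fact ℓ.Prime], ¬ ℓ ∣ N → ∀ k : ℕ,
    Nonempty (OrderDatum ℓ (Tors N ℓ k) (torsAct N ℓ k))

end Fermat.Agent.S19

end

end
-- ===== PACK-END S19/Defs.lean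

-- ===== PACK-BEGIN S52/H545/Core.lean
section


/-!
# S52 Part A (helper545): exact heights of polynomial vectors under the add-sub map

Pure polynomial algebra over a field `k`.  For a vector `v : Fin n → k[X]` put
`maxDeg v = max_i natDegree (v i)` and call `v` *primitive* if its entries generate the unit
ideal.  We show:

* `prim_asv`, `maxDeg_asv` : Mathlib's `addSubMap` of an elliptic curve `W/k` maps primitive
  vectors to primitive vectors and exactly doubles `maxDeg`;
* `prim_sv`, `maxDeg_sv` : (Gauss) the symmetric product `(a₀b₀, a₀b₁ + a₁b₀, a₁b₁)` of two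
  primitive pairs is primitive and `maxDeg` is additive;
* `maxDeg_eq_of_cross` : two primitive vectors with vanishing cross products have the same
  `maxDeg`.
-/

set_option autoImplicit false

namespace Fermat.Agent.S52.H545

open Polynomial

section Defs

variable {R : Type*} [CommRing R]

/-- The explicit add-sub vector (values of Mathlib's `WeierstrassCurve.addSubMap`). -/
def asv (W : WeierstrassCurve R) (v : Fin 3 → R) : Fin 3 → R :=
  ![v 0 ^ 2 - W.b₄ * v 0 * v 2 - W.b₆ * v 1 * v 2 - W.b₈ * v 2 ^ 2,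
    2 * v 1 * v 0 + W.b₂ * v 0 * v 2 + W.b₄ * v 1 * v 2 + W.b₆ * v 2 ^ 2,
    v 1 ^ 2 - 4 * v 0 * v 2]

lemma asv_eq_eval (W : WeierstrassCurve R) (v : Fin 3 → R) :
    asv W v = fun i => MvPolynomial.eval v (W.addSubMap i) := by
  funext i
  fin_cases i <;> simp [asv, WeierstrassCurve.addSubMap]

/-- The symmetric product of two pairs (as in Mathlib's `Point.sym2x`). -/
def sv (a b : Fin 2 → R) : Fin 3 → R :=
  ![a 0 * b 0, a 0 * b 1 + a 1 * b 0, a 1 * b 1]

lemma asv_smul (W : WeierstrassCurve R) (c : R) (v : Fin 3 → R) :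
    asv W (c • v) = c ^ 2 • asv W v := by
  funext i
  fin_cases i <;> simp [asv] <;> ring

lemma sv_smul (c d : R) (a b : Fin 2 → R) : sv (c • a) (d • b) = (c * d) • sv a b := by
  funext i
  fin_cases i <;> simp [sv] <;> ring

lemma asv_map {S : Type*} [CommRing S] (φ : R →+* S) (W : WeierstrassCurve R) (v : Fin 3 → R) :
    asv (W.map φ) (φ ∘ v) = φ ∘ asv W v := by
  funext i
  fin_cases i <;> simp [asv, map_ofNat]

lemma sv_map {S : Type*} [CommRing S] (φ : R →+* S) (a b : Fin 2 → R) :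
    sv (φ ∘ a) (φ ∘ b) = φ ∘ sv a b := by
  funext i
  fin_cases i <;> simp [sv]

/-- A vector is primitive if its entries generate the unit ideal. -/
def Prim {n : ℕ} (v : Fin n → R) : Prop := Ideal.span (Set.range v) = ⊤

lemma prim_iff {n : ℕ} (v : Fin n → R) : Prim v ↔ ∃ c : Fin n → R, ∑ i, c i * v i = 1 := by
  rw [Prim, Ideal.eq_top_iff_one, Ideal.mem_span_range_iff_exists_fun]

lemma Prim.ne_zero [Nontrivial R] {n : ℕ} {v : Fin n → R} (h : Prim v) : v ≠ 0 := by
  rintro rfl
  obtain ⟨c, hc⟩ := (prim_iff _).mp h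
  simp at hc

lemma prim_pair_iff (a : Fin 2 → R) : Prim a ↔ IsCoprime (a 0) (a 1) := by
  rw [prim_iff]
  constructor
  · rintro ⟨c, hc⟩
    exact ⟨c 0, c 1, by simpa [Fin.sum_univ_two] using hc⟩
  · rintro ⟨x, y, h⟩
    exact ⟨![x, y], by simpa [Fin.sum_univ_two] using h⟩

/-- If an ideal contains all entries of `asv W v` then it contains the fourth powers of the
entries of `v` (for `W` elliptic). -/
lemma pow_four_mem_of_asv_mem (W : WeierstrassCurve R) [W.IsElliptic] (v : Fin 3 → R)
    (I : Ideal R) (h : ∀ j, asv W v j ∈ I) (i : Fin 3) : v i ^ 4 ∈ I := by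
  rw [← W.addSubMapCoeff_condition v i]
  refine Ideal.sum_mem _ fun j _ => Ideal.mul_mem_left _ _ ?_
  have := h j
  rwa [asv_eq_eval] at this

theorem prim_asv (W : WeierstrassCurve R) [W.IsElliptic] {v : Fin 3 → R} (hv : Prim v) :
    Prim (asv W v) := by
  have h4 := Ideal.span_pow_eq_top _ hv 4
  rw [Prim, eq_top_iff, ← h4, Ideal.span_le]
  rintro _ ⟨_, ⟨i, rfl⟩, rfl⟩
  exact pow_four_mem_of_asv_mem W v (Ideal.span (Set.range (asv W v)))
    (fun j => Ideal.subset_span ⟨j, rfl⟩) i

theorem prim_sv {a b : Fin 2 → R} (ha : Prim a) (hb : Prim b) : Prim (sv a b) := by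
  rw [prim_pair_iff] at ha hb
  by_contra hne
  obtain ⟨m, hm, hle⟩ := Ideal.exists_le_maximal _ hne
  have hp := hm.isPrime
  have h0 : a 0 * b 0 ∈ m := hle (Ideal.subset_span ⟨0, rfl⟩)
  have h1 : a 0 * b 1 + a 1 * b 0 ∈ m := hle (Ideal.subset_span ⟨1, rfl⟩)
  have h2 : a 1 * b 1 ∈ m := hle (Ideal.subset_span ⟨2, rfl⟩)
  have hac : ¬ (a 0 ∈ m ∧ a 1 ∈ m) := by
    rintro ⟨x0, x1⟩
    obtain ⟨x, y, hxy⟩ := ha
    apply hp.ne_top
    rw [Ideal.eq_top_iff_one, ← hxy]
    exact Ideal.add_mem _ (Ideal.mul_mem_left _ _ x0) (Ideal.mul_mem_left _ _ x1)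
  have hbc : ¬ (b 0 ∈ m ∧ b 1 ∈ m) := by
    rintro ⟨x0, x1⟩
    obtain ⟨x, y, hxy⟩ := hb
    apply hp.ne_top
    rw [Ideal.eq_top_iff_one, ← hxy]
    exact Ideal.add_mem _ (Ideal.mul_mem_left _ _ x0) (Ideal.mul_mem_left _ _ x1)
  rcases hp.mem_or_mem h0 with ha0 | hb0
  · have ha1 : a 1 ∉ m := fun h => hac ⟨ha0, h⟩
    have hb1 : b 1 ∈ m := (hp.mem_or_mem h2).resolve_left ha1
    have : a 1 * b 0 ∈ m := by
      have := Ideal.sub_mem _ h1 (Ideal.mul_mem_left _ (a 0) hb1)
      simpa using this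
    exact hbc ⟨(hp.mem_or_mem this).resolve_left ha1, hb1⟩
  · have hb1 : b 1 ∉ m := fun h => hbc ⟨hb0, h⟩
    have ha1 : a 1 ∈ m := (hp.mem_or_mem h2).resolve_right hb1
    have : a 0 * b 1 ∈ m := by
      have := Ideal.sub_mem _ h1 (Ideal.mul_mem_right (b 0) _ ha1)
      simpa using this
    exact hac ⟨(hp.mem_or_mem this).resolve_right hb1, ha1⟩

end Defs

section Poly

variable {k : Type*} [Field k]

/-- The maximum of the degrees of the entries. -/
noncomputable def maxDeg {n : ℕ} (v : Fin n → k[X]) : ℕ :=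
  Finset.univ.sup fun i => (v i).natDegree

lemma natDegree_le_maxDeg {n : ℕ} (v : Fin n → k[X]) (i : Fin n) :
    (v i).natDegree ≤ maxDeg v :=
  Finset.le_sup (f := fun i => (v i).natDegree) (Finset.mem_univ i)

lemma maxDeg_le {n : ℕ} {v : Fin n → k[X]} {D : ℕ} (h : ∀ i, (v i).natDegree ≤ D) :
    maxDeg v ≤ D :=
  Finset.sup_le fun i _ => h i

/-- The vector of coefficients in degree `D`. -/
noncomputable def topc {n : ℕ} (D : ℕ) (v : Fin n → k[X]) : Fin n → k := fun i => (v i).coeff D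

lemma topc_ne_zero {n : ℕ} {v : Fin n → k[X]} (hv : v ≠ 0) : topc (maxDeg v) v ≠ 0 := by
  have hn : (Finset.univ : Finset (Fin n)).Nonempty := by
    by_contra h
    rw [Finset.not_nonempty_iff_eq_empty, Finset.univ_eq_empty_iff] at h
    exact hv (funext fun i => (h.false i).elim)
  obtain ⟨i₀, -, hi₀⟩ := Finset.exists_mem_eq_sup _ hn fun i => (v i).natDegree
  intro h0
  by_cases hz : v i₀ = 0
  · -- all degrees are zero
    have hD : maxDeg v = 0 := by rw [maxDeg, hi₀, hz, natDegree_zero]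
    apply hv
    funext j
    have hj : (v j).natDegree = 0 := Nat.le_zero.mp (hD ▸ natDegree_le_maxDeg v j)
    have hc := congrFun h0 j
    rw [topc, hD] at hc
    rw [eq_C_of_natDegree_eq_zero hj, hc]
    simp
  · have hc := congrFun h0 i₀
    rw [topc, maxDeg, hi₀, coeff_natDegree] at hc
    exact hz (leadingCoeff_eq_zero.mp hc)

lemma maxDeg_eq_of_topc_ne_zero {n : ℕ} {v : Fin n → k[X]} {D : ℕ}
    (hle : ∀ i, (v i).natDegree ≤ D) (h : topc D v ≠ 0) : maxDeg v = D := by
  apply le_antisymm (maxDeg_le hle)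
  by_contra hlt
  push Not at hlt
  apply h
  funext i
  exact coeff_eq_zero_of_natDegree_lt (lt_of_le_of_lt (natDegree_le_maxDeg v i) hlt)

variable (W : WeierstrassCurve k)

/-- The curve with constant coefficients over `k[X]`. -/
noncomputable abbrev polyCurve : WeierstrassCurve k[X] := W.map (C : k →+* k[X])

lemma nd_sub {p q : k[X]} {n : ℕ} (hp : p.natDegree ≤ n) (hq : q.natDegree ≤ n) :
    (p - q).natDegree ≤ n :=
  (natDegree_sub_le _ _).trans (max_le hp hq)

lemma natDegree_asv_le (v : Fin 3 → k[X]) {D : ℕ} (h : ∀ i, (v i).natDegree ≤ D) (j : Fin 3) :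
    (asv (polyCurve W) v j).natDegree ≤ D + D := by
  have hC : ∀ (a : k) (i₁ i₂ : Fin 3), (C a * v i₁ * v i₂).natDegree ≤ D + D := fun a i₁ i₂ => by
    rw [mul_assoc]
    exact (natDegree_C_mul_le _ _).trans (natDegree_mul_le_of_le (h i₁) (h i₂))
  have hsq : ∀ i : Fin 3, (v i ^ 2).natDegree ≤ D + D := fun i => by
    rw [sq]; exact natDegree_mul_le_of_le (h i) (h i)
  have hCsq : ∀ (a : k) (i : Fin 3), (C a * v i ^ 2).natDegree ≤ D + D := fun a i =>
    (natDegree_C_mul_le _ _).trans (hsq i)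
  have h2 : ((2 : k[X]) * v 1 * v 0).natDegree ≤ D + D := by
    have := hC 2 1 0
    rwa [C_ofNat] at this
  have h4 : ((4 : k[X]) * v 0 * v 2).natDegree ≤ D + D := by
    have := hC 4 0 2
    rwa [C_ofNat] at this
  fin_cases j
  · simp only [asv, polyCurve, WeierstrassCurve.map_b₄, WeierstrassCurve.map_b₆,
      WeierstrassCurve.map_b₈, Fin.zero_eta, Fin.isValue, Matrix.cons_val_zero]
    exact nd_sub (nd_sub (nd_sub (hsq 0) (hC _ 0 2)) (hC _ 1 2)) (hCsq _ 2)
  · simp only [asv, polyCurve, WeierstrassCurve.map_b₂, WeierstrassCurve.map_b₄,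
      WeierstrassCurve.map_b₆, Fin.mk_one, Fin.isValue, Matrix.cons_val_one, Matrix.cons_val_zero]
    exact natDegree_add_le_of_degree_le (natDegree_add_le_of_degree_le
      (natDegree_add_le_of_degree_le h2 (hC _ 0 2)) (hC _ 1 2)) (hCsq _ 2)
  · simp only [asv, Fin.reduceFinMk, Fin.isValue, Matrix.cons_val]
    exact nd_sub (hsq 1) h4

lemma topc_asv (v : Fin 3 → k[X]) {D : ℕ} (h : ∀ i, (v i).natDegree ≤ D) :
    topc (D + D) (asv (polyCurve W) v) = asv W (topc D v) := by
  have hm : ∀ i₁ i₂ : Fin 3, (v i₁ * v i₂).coeff (D + D) = (v i₁).coeff D * (v i₂).coeff D :=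
    fun i₁ i₂ => coeff_mul_add_eq_of_natDegree_le (h i₁) (h i₂)
  have h2 : (2 : k[X]) = C 2 := (C_ofNat 2).symm
  have h4 : (4 : k[X]) = C 4 := (C_ofNat 4).symm
  funext j
  fin_cases j
  · simp only [topc, asv, polyCurve, WeierstrassCurve.map_b₄, WeierstrassCurve.map_b₆,
      WeierstrassCurve.map_b₈, Fin.zero_eta, Fin.isValue, Matrix.cons_val_zero, sq, mul_assoc,
      coeff_sub, coeff_C_mul, hm]
  · simp only [topc, asv, polyCurve, WeierstrassCurve.map_b₂, WeierstrassCurve.map_b₄,
      WeierstrassCurve.map_b₆, Fin.mk_one, Fin.isValue, Matrix.cons_val_one,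
      Matrix.cons_val_zero, sq, mul_assoc, coeff_add, coeff_C_mul, hm, h2]
  · simp only [topc, asv, Fin.reduceFinMk, Fin.isValue, Matrix.cons_val, sq, mul_assoc,
      coeff_sub, coeff_C_mul, hm, h4]

/-- **Exactness**: the add-sub map of an elliptic curve doubles `maxDeg`. -/
theorem maxDeg_asv [W.IsElliptic] {v : Fin 3 → k[X]} (hv : v ≠ 0) :
    maxDeg (asv (polyCurve W) v) = 2 * maxDeg v := by
  rw [two_mul]
  apply maxDeg_eq_of_topc_ne_zero (natDegree_asv_le W v (natDegree_le_maxDeg v))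
  rw [topc_asv W v (natDegree_le_maxDeg v), asv_eq_eval]
  exact W.addSubMap_ne_zero (topc_ne_zero hv)

lemma natDegree_sv_le (a b : Fin 2 → k[X]) {D E : ℕ} (ha : ∀ i, (a i).natDegree ≤ D)
    (hb : ∀ i, (b i).natDegree ≤ E) (j : Fin 3) : (sv a b j).natDegree ≤ D + E := by
  fin_cases j
  · exact natDegree_mul_le_of_le (ha 0) (hb 0)
  · exact natDegree_add_le_of_degree_le (natDegree_mul_le_of_le (ha 0) (hb 1))
      (natDegree_mul_le_of_le (ha 1) (hb 0))
  · exact natDegree_mul_le_of_le (ha 1) (hb 1)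

lemma topc_sv (a b : Fin 2 → k[X]) {D E : ℕ} (ha : ∀ i, (a i).natDegree ≤ D)
    (hb : ∀ i, (b i).natDegree ≤ E) : topc (D + E) (sv a b) = sv (topc D a) (topc E b) := by
  have hm : ∀ i₁ i₂ : Fin 2, (a i₁ * b i₂).coeff (D + E) = (a i₁).coeff D * (b i₂).coeff E :=
    fun i₁ i₂ => coeff_mul_add_eq_of_natDegree_le (ha i₁) (hb i₂)
  funext j
  fin_cases j <;> simp [topc, sv, hm]

lemma sv_ne_zero {F : Type*} [Field F] {a b : Fin 2 → F} (ha : a ≠ 0) (hb : b ≠ 0) :
    sv a b ≠ 0 := by
  intro h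
  have h0 : a 0 * b 0 = 0 := congrFun h 0
  have h1 : a 0 * b 1 + a 1 * b 0 = 0 := congrFun h 1
  have h2 : a 1 * b 1 = 0 := congrFun h 2
  have ha' : ¬ (a 0 = 0 ∧ a 1 = 0) := fun ⟨x, y⟩ => ha (by
    funext i; fin_cases i
    · exact x
    · exact y)
  have hb' : ¬ (b 0 = 0 ∧ b 1 = 0) := fun ⟨x, y⟩ => hb (by
    funext i; fin_cases i
    · exact x
    · exact y)
  rcases mul_eq_zero.mp h0 with ha0 | hb0
  · have ha1 : a 1 ≠ 0 := fun h => ha' ⟨ha0, h⟩
    have hb1 : b 1 = 0 := (mul_eq_zero.mp h2).resolve_left ha1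
    rw [ha0, zero_mul, zero_add] at h1
    exact hb' ⟨(mul_eq_zero.mp h1).resolve_left ha1, hb1⟩
  · have hb1 : b 1 ≠ 0 := fun h => hb' ⟨hb0, h⟩
    have ha1 : a 1 = 0 := (mul_eq_zero.mp h2).resolve_right hb1
    rw [ha1, zero_mul, add_zero] at h1
    exact ha' ⟨(mul_eq_zero.mp h1).resolve_right hb1, ha1⟩

/-- **Gauss**: `maxDeg` is additive on symmetric products. -/
theorem maxDeg_sv {a b : Fin 2 → k[X]} (ha : a ≠ 0) (hb : b ≠ 0) :
    maxDeg (sv a b) = maxDeg a + maxDeg b := by
  apply maxDeg_eq_of_topc_ne_zero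
    (natDegree_sv_le a b (natDegree_le_maxDeg a) (natDegree_le_maxDeg b))
  rw [topc_sv a b (natDegree_le_maxDeg a) (natDegree_le_maxDeg b)]
  exact sv_ne_zero (topc_ne_zero ha) (topc_ne_zero hb)

/-- Two primitive vectors with vanishing cross products have the same `maxDeg`. -/
theorem maxDeg_eq_of_cross {n : ℕ} {v w : Fin n → k[X]} (hv : Prim v) (hw : Prim w)
    (h : ∀ i j, v i * w j = v j * w i) : maxDeg v = maxDeg w := by
  obtain ⟨c, hc⟩ := (prim_iff v).mp hv
  obtain ⟨d, hd⟩ := (prim_iff w).mp hw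
  set u := ∑ j, c j * w j with hu
  set u' := ∑ j, d j * v j with hu'
  have h1 : ∀ i, w i = v i * u := fun i => by
    calc w i = w i * ∑ j, c j * v j := by rw [hc, mul_one]
      _ = ∑ j, c j * (v j * w i) := by rw [Finset.mul_sum]; congr 1; funext j; ring
      _ = ∑ j, c j * (v i * w j) := by congr 1; funext j; rw [h i j]
      _ = v i * u := by rw [hu, Finset.mul_sum]; congr 1; funext j; ring
  have h2 : ∀ i, v i = w i * u' := fun i => by
    calc v i = v i * ∑ j, d j * w j := by rw [hd, mul_one]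
      _ = ∑ j, d j * (v i * w j) := by rw [Finset.mul_sum]; congr 1; funext j; ring
      _ = ∑ j, d j * (v j * w i) := by congr 1; funext j; rw [h i j]
      _ = w i * u' := by rw [hu', Finset.mul_sum]; congr 1; funext j; ring
  have hv0 := hv.ne_zero
  obtain ⟨i₀, hi₀⟩ : ∃ i, v i ≠ 0 := by
    by_contra hne
    push Not at hne
    exact hv0 (funext hne)
  have huu : u * u' = 1 := by
    have := h2 i₀
    rw [h1 i₀, mul_assoc] at this
    exact (mul_eq_left₀ hi₀).mp this.symm
  have hunit : IsUnit u := IsUnit.of_mul_eq_one _ huu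
  obtain ⟨a, ha, hau⟩ : ∃ a : k, a ≠ 0 ∧ C a = u := by
    obtain ⟨a, ha, hau⟩ := Polynomial.isUnit_iff.mp hunit
    exact ⟨a, ha.ne_zero, hau⟩
  have hdeg : ∀ i, (w i).natDegree = (v i).natDegree := fun i => by
    rw [h1 i, ← hau, mul_comm, natDegree_C_mul ha]
  simp only [maxDeg, hdeg]

end Poly

end Fermat.Agent.S52.H545

end
-- ===== PACK-END S52/H545/Core.lean

-- ===== PACK-BEGIN S31/H202/MatOrth.lean
section


/-!
# S31 / ALG-1, matrix core (helper202)

`A` a local ring, `r : A →+* K` a ring hom to a field killing the maximal ideal, `F : G → Mₙ(A)` a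
family of matrices whose reductions span `Mₙ(K)`.  Then

* `mat_eq_zero_of_trace_orth`: `tr (F g * X) = 0` for all `g` implies `X = 0`;
* `span_eq_top_of_span_map_eq_top`: the `F g` span `Mₙ(A)` over `A`.
-/

set_option autoImplicit false

namespace Fermat.Agent.S31.H202

open Matrix

section Core

variable {A K : Type*} [CommRing A] [IsLocalRing A] [Field K] (r : A →+* K)
variable {ι G : Type*} [Fintype ι] [DecidableEq ι]

/-- the reductions of a spanning family contain a family indexed by `ι × ι` whose coefficient matrix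
is invertible. -/
theorem exists_invertible_coeff (hr : ∀ a ∈ IsLocalRing.maximalIdeal A, r a = 0)
    (F : G → Matrix ι ι A)
    (hspan : Submodule.span K (Set.range fun g => (F g).map r) = ⊤) :
    ∃ f : ι × ι → G, IsUnit (Matrix.of fun (a b : ι × ι) => F (f a) b.1 b.2) := by
  classical
  set s : Set (Matrix ι ι K) := Set.range fun g => (F g).map r with hs
  obtain ⟨f0, hf0, -, hli⟩ := Submodule.exists_fun_fin_finrank_span_eq K s
  have hcard : Module.finrank K (Submodule.span K s) = Fintype.card (ι × ι) := by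
    rw [hspan, finrank_top, Module.finrank_matrix, Module.finrank_self, mul_one,
      Fintype.card_prod]
  let e : ι × ι ≃ Fin (Module.finrank K (Submodule.span K s)) :=
    (Fintype.equivFinOfCardEq hcard.symm)
  choose f1 hf1 using hf0
  refine ⟨fun a => f1 (e a), ?_⟩
  set P : Matrix (ι × ι) (ι × ι) A := Matrix.of fun (a b : ι × ι) => F (f1 (e a)) b.1 b.2 with hP
  -- the reduction of `P` has linearly independent rows
  have hrow : LinearIndependent K (P.map r).row := by
    have h1 : LinearIndependent K (f0 ∘ e) := hli.comp _ e.injective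
    have h2 := h1.map' ((LinearEquiv.curry K K ι ι).symm : (ι → ι → K) →ₗ[K] (ι × ι → K))
      (LinearEquiv.ker _)
    have heq : (P.map r).row
        = ((LinearEquiv.curry K K ι ι).symm : (ι → ι → K) →ₗ[K] (ι × ι → K)) ∘ (f0 ∘ e) := by
      funext a
      funext b
      have := hf1 (e a)
      show r (F (f1 (e a)) b.1 b.2) = (f0 (e a)) b.1 b.2
      rw [← this]
      rfl
    rw [heq]
    exact h2
  have hunit : IsUnit (P.map r) := Matrix.linearIndependent_rows_iff_isUnit.mp hrow
  rw [Matrix.isUnit_iff_isUnit_det] at hunit ⊢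
  have hdet : (P.map r).det = r P.det := by
    rw [← RingHom.mapMatrix_apply, ← RingHom.map_det]
  rw [hdet] at hunit
  by_contra hnu
  have : P.det ∈ IsLocalRing.maximalIdeal A := (IsLocalRing.mem_maximalIdeal _).mpr hnu
  exact hunit.ne_zero (hr _ this)

/-- **Trace orthogonality**: if the reductions of `F g` span `Mₙ(K)` and `tr (F g * X) = 0` for all
`g`, then `X = 0`. -/
theorem mat_eq_zero_of_trace_orth (hr : ∀ a ∈ IsLocalRing.maximalIdeal A, r a = 0)
    (F : G → Matrix ι ι A)
    (hspan : Submodule.span K (Set.range fun g => (F g).map r) = ⊤)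
    (X : Matrix ι ι A) (hX : ∀ g, Matrix.trace (F g * X) = 0) : X = 0 := by
  classical
  obtain ⟨f, hf⟩ := exists_invertible_coeff r hr F hspan
  set P : Matrix (ι × ι) (ι × ι) A := Matrix.of fun (a b : ι × ι) => F (f a) b.1 b.2 with hP
  have hPx : P *ᵥ (fun b : ι × ι => X b.2 b.1) = 0 := by
    funext a
    have := hX (f a)
    simp only [Matrix.trace, Matrix.diag, Matrix.mul_apply] at this
    simp only [Matrix.mulVec, dotProduct, hP, Matrix.of_apply, Pi.zero_apply]
    rw [Fintype.sum_prod_type]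
    exact this
  have hx : (fun b : ι × ι => X b.2 b.1) = 0 := by
    have := Matrix.mulVec_injective_of_isUnit hf
    exact this (by rw [hPx, Matrix.mulVec_zero])
  ext i j
  have := congrFun hx (j, i)
  simpa using this

/-- **Lifting a spanning family**: if the reductions of `F g` span `Mₙ(K)` over `K`, then the
`F g` span `Mₙ(A)` over `A`. -/
theorem span_eq_top_of_span_map_eq_top (hr : ∀ a ∈ IsLocalRing.maximalIdeal A, r a = 0)
    (F : G → Matrix ι ι A)
    (hspan : Submodule.span K (Set.range fun g => (F g).map r) = ⊤) :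
    Submodule.span A (Set.range F) = ⊤ := by
  classical
  obtain ⟨f, hf⟩ := exists_invertible_coeff r hr F hspan
  set P : Matrix (ι × ι) (ι × ι) A := Matrix.of fun (a b : ι × ι) => F (f a) b.1 b.2 with hP
  obtain ⟨Q, hQ⟩ : ∃ Q : Matrix (ι × ι) (ι × ι) A, Q * P = 1 := by
    obtain ⟨u, hu⟩ := hf
    exact ⟨(u⁻¹ : (Matrix (ι × ι) (ι × ι) A)ˣ), by rw [← hu]; exact Units.inv_mul u⟩
  rw [eq_top_iff]
  intro M _
  -- `M = ∑_a (∑_b M b * Q b a) • F (f a)`
  have hM : M = ∑ a : ι × ι, (∑ b : ι × ι, M b.1 b.2 * Q b a) • F (f a) := by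
    ext i j
    rw [Matrix.sum_apply]
    simp only [Matrix.smul_apply, smul_eq_mul]
    have h1 : ∀ a : ι × ι, (∑ b : ι × ι, M b.1 b.2 * Q b a) * F (f a) i j
        = ∑ b : ι × ι, M b.1 b.2 * (Q b a * P a (i, j)) := by
      intro a
      rw [Finset.sum_mul]
      refine Finset.sum_congr rfl fun b _ => ?_
      rw [hP, Matrix.of_apply, mul_assoc]
    simp_rw [h1]
    rw [Finset.sum_comm]
    have h2 : ∀ b : ι × ι, ∑ a : ι × ι, M b.1 b.2 * (Q b a * P a (i, j))
        = M b.1 b.2 * (1 : Matrix (ι × ι) (ι × ι) A) b (i, j) := by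
      intro b
      rw [← hQ, Matrix.mul_apply, Finset.mul_sum]
    simp_rw [h2]
    rw [Finset.sum_eq_single (i, j)]
    · simp
    · intro b _ hb
      rw [Matrix.one_apply_ne hb, mul_zero]
    · intro h
      exact absurd (Finset.mem_univ _) h
  rw [hM]
  refine Submodule.sum_mem _ fun a _ => Submodule.smul_mem _ _ (Submodule.subset_span ⟨f a, rfl⟩)

end Core

end Fermat.Agent.S31.H202

end
-- ===== PACK-END S31/H202/MatOrth.lean

-- ===== PACK-BEGIN Lib/Cheb/H221/LogEuler.lean
section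
/-
CHEB shared library, piece A (helper221): abstract Euler products and their logarithms.

`P` is an index set of "primes", `N : P → ℝ` their norms (`2 ≤ N r`), `c : P → ℂ` unimodular
coefficients.  We study `Λ c s = ∑' r, log (1 - c r * N r ^ (-s))⁻¹`.
-/


set_option autoImplicit false

namespace Fermat.Agent.Lib.Cheb.H221

open Filter Topology Complex

variable {P : Type*}

/-- The basic quantity `N r ^ (-s)`. -/
noncomputable def xs (N : P → ℝ) (s : ℝ) (r : P) : ℝ := N r ^ (-s)

lemma xs_pos {N : P → ℝ} (hN : ∀ r, 2 ≤ N r) (s : ℝ) (r : P) : 0 < xs N s r :=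
  Real.rpow_pos_of_pos (by linarith [hN r]) _

lemma xs_le_half {N : P → ℝ} (hN : ∀ r, 2 ≤ N r) {s : ℝ} (hs : 1 ≤ s) (r : P) :
    xs N s r ≤ 1 / 2 := by
  unfold xs
  have h2 : (0 : ℝ) < 2 := by norm_num
  calc N r ^ (-s) ≤ (2 : ℝ) ^ (-s) :=
        Real.rpow_le_rpow_of_nonpos h2 (hN r) (by linarith)
    _ ≤ (2 : ℝ) ^ (-1 : ℝ) :=
        Real.rpow_le_rpow_of_exponent_le (by norm_num) (by linarith)
    _ = 1 / 2 := by rw [Real.rpow_neg_one]; norm_num

lemma xs_anti {N : P → ℝ} (hN : ∀ r, 2 ≤ N r) {s t : ℝ} (hst : s ≤ t) (r : P) :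
    xs N t r ≤ xs N s r := by
  unfold xs
  exact Real.rpow_le_rpow_of_exponent_le (by linarith [hN r]) (by linarith)

/-- The logarithmic Euler factor. -/
noncomputable def logFactor (N : P → ℝ) (c : P → ℂ) (s : ℝ) (r : P) : ℂ :=
  Complex.log (1 - c r * (xs N s r : ℂ))⁻¹

/-- The logarithm of the Euler product. -/
noncomputable def logEuler (N : P → ℝ) (c : P → ℂ) (s : ℝ) : ℂ :=
  ∑' r, logFactor N c s r

lemma norm_z_le {N : P → ℝ} (hN : ∀ r, 2 ≤ N r) {c : P → ℂ} (hc : ∀ r, ‖c r‖ ≤ 1)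
    (s : ℝ) (r : P) : ‖c r * (xs N s r : ℂ)‖ ≤ xs N s r := by
  rw [norm_mul, Complex.norm_real, Real.norm_of_nonneg (xs_pos hN s r).le]
  calc ‖c r‖ * xs N s r ≤ 1 * xs N s r :=
        mul_le_mul_of_nonneg_right (hc r) (xs_pos hN s r).le
    _ = xs N s r := one_mul _

lemma norm_z_lt_one {N : P → ℝ} (hN : ∀ r, 2 ≤ N r) {c : P → ℂ} (hc : ∀ r, ‖c r‖ ≤ 1)
    {s : ℝ} (hs : 1 ≤ s) (r : P) : ‖c r * (xs N s r : ℂ)‖ < 1 :=
  lt_of_le_of_lt (norm_z_le hN hc s r) (by linarith [xs_le_half hN hs r])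

/-- `‖log (1 - z)⁻¹ - z‖ ≤ x²` for the Euler factors. -/
lemma norm_logFactor_sub_le {N : P → ℝ} (hN : ∀ r, 2 ≤ N r) {c : P → ℂ} (hc : ∀ r, ‖c r‖ ≤ 1)
    {s : ℝ} (hs : 1 ≤ s) (r : P) :
    ‖logFactor N c s r - c r * (xs N s r : ℂ)‖ ≤ xs N s r ^ 2 := by
  have hz := norm_z_lt_one hN hc hs r
  have hzle := norm_z_le hN hc s r
  have hx := xs_le_half hN hs r
  have hxpos := xs_pos hN s r
  have h1 := Complex.norm_log_one_sub_inv_sub_self_le hz
  refine le_trans h1 ?_
  have hnn : 0 ≤ ‖c r * (xs N s r : ℂ)‖ := norm_nonneg _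
  have hinv : (1 - ‖c r * (xs N s r : ℂ)‖)⁻¹ ≤ 2 := by
    rw [inv_le_comm₀ (by linarith) (by norm_num)]
    linarith
  have hsq : ‖c r * (xs N s r : ℂ)‖ ^ 2 ≤ xs N s r ^ 2 :=
    pow_le_pow_left₀ hnn hzle 2
  calc ‖c r * (xs N s r : ℂ)‖ ^ 2 * (1 - ‖c r * (xs N s r : ℂ)‖)⁻¹ / 2
      ≤ xs N s r ^ 2 * 2 / 2 := by
        apply div_le_div_of_nonneg_right _ (by norm_num : (0 : ℝ) ≤ 2)
        exact mul_le_mul hsq hinv (inv_nonneg.mpr (by linarith)) (by positivity)
    _ = xs N s r ^ 2 := by ring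

lemma norm_logFactor_le {N : P → ℝ} (hN : ∀ r, 2 ≤ N r) {c : P → ℂ} (hc : ∀ r, ‖c r‖ ≤ 1)
    {s : ℝ} (hs : 1 ≤ s) (r : P) :
    ‖logFactor N c s r‖ ≤ 2 * xs N s r := by
  have h1 := norm_logFactor_sub_le hN hc hs r
  have h2 := norm_z_le hN hc s r
  have hx := xs_le_half hN hs r
  have hxpos := xs_pos hN s r
  have h3 : ‖logFactor N c s r‖ ≤ ‖logFactor N c s r - c r * (xs N s r : ℂ)‖
      + ‖c r * (xs N s r : ℂ)‖ := by
    have := norm_add_le (logFactor N c s r - c r * (xs N s r : ℂ)) (c r * (xs N s r : ℂ))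
    simpa using this
  have h4 : xs N s r ^ 2 ≤ xs N s r := by
    rw [pow_two]
    calc xs N s r * xs N s r ≤ 1 * xs N s r :=
          mul_le_mul_of_nonneg_right (by linarith) hxpos.le
      _ = xs N s r := one_mul _
  linarith


section summable

variable {N : P → ℝ} (hN : ∀ r, 2 ≤ N r) (hsum : ∀ s : ℝ, 1 < s → Summable (xs N s))
  {c : P → ℂ} (hc : ∀ r, ‖c r‖ ≤ 1)

include hN hsum hc

lemma summable_logFactor {s : ℝ} (hs : 1 < s) : Summable (logFactor N c s) := by
  refine Summable.of_norm_bounded ((hsum s hs).mul_left 2) ?_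
  intro r
  exact norm_logFactor_le hN hc hs.le r

lemma hasSum_logEuler {s : ℝ} (hs : 1 < s) :
    HasSum (logFactor N c s) (logEuler N c s) :=
  (summable_logFactor hN hsum hc hs).hasSum

/-- The Euler product is the exponential of `logEuler`. -/
lemma hasProd_exp_logEuler {s : ℝ} (hs : 1 < s) :
    HasProd (fun r => (1 - c r * (xs N s r : ℂ))⁻¹) (Complex.exp (logEuler N c s)) := by
  have h := (hasSum_logEuler hN hsum hc hs).cexp
  have e : (Complex.exp ∘ logFactor N c s) = fun r => (1 - c r * (xs N s r : ℂ))⁻¹ := by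
    funext r
    simp only [Function.comp, logFactor]
    apply Complex.exp_log
    apply inv_ne_zero
    intro h0
    have hz := norm_z_lt_one hN hc hs.le r
    have : c r * (xs N s r : ℂ) = 1 := by linear_combination -h0
    rw [this, norm_one] at hz
    exact lt_irrefl _ hz
  rwa [e] at h

/-- Uniqueness: any value of the Euler product is `exp (logEuler)`. -/
lemma exp_logEuler_eq {s : ℝ} (hs : 1 < s) {L : ℂ}
    (hL : HasProd (fun r => (1 - c r * (xs N s r : ℂ))⁻¹) L) :
    Complex.exp (logEuler N c s) = L :=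
  (hasProd_exp_logEuler hN hsum hc hs).unique hL

/-- Continuity of the logarithm of the Euler product on `(1, ∞)`. -/
lemma continuousOn_logEuler : ContinuousOn (logEuler N c) (Set.Ioi 1) := by
  intro s hs
  have hs1 : (1 : ℝ) < s := hs
  -- work on the neighbourhood `Ioi s₀`, `s₀ = (1 + s) / 2`
  obtain ⟨s₀, hs₀1, hs₀s⟩ : ∃ s₀ : ℝ, 1 < s₀ ∧ s₀ < s := ⟨(1 + s) / 2, by linarith, by linarith⟩
  have hcont : ContinuousOn (logEuler N c) (Set.Ioi s₀) := by
    unfold logEuler
    refine continuousOn_tsum (u := fun r => 2 * xs N s₀ r) ?_ ((hsum s₀ hs₀1).mul_left 2) ?_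
    · intro r
      -- continuity of each factor
      have hx : ContinuousOn (fun t : ℝ => (xs N t r : ℂ)) (Set.Ioi s₀) := by
        apply Continuous.continuousOn
        unfold xs
        have hpos : 0 < N r := by linarith [hN r]
        exact Complex.continuous_ofReal.comp
          ((Real.continuous_const_rpow hpos.ne').comp continuous_neg)
      have hw : ContinuousOn (fun t : ℝ => (1 - c r * (xs N t r : ℂ))⁻¹) (Set.Ioi s₀) := by
        refine ContinuousOn.inv₀ (continuousOn_const.sub (continuousOn_const.mul hx)) ?_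
        intro t ht h0
        have ht1 : (1 : ℝ) ≤ t := le_of_lt (lt_trans hs₀1 ht)
        have hz := norm_z_lt_one hN hc ht1 r
        have : c r * (xs N t r : ℂ) = 1 := by linear_combination -h0
        rw [this, norm_one] at hz
        exact lt_irrefl _ hz
      refine ContinuousOn.clog hw ?_
      intro t ht
      have ht1 : (1 : ℝ) ≤ t := le_of_lt (lt_trans hs₀1 ht)
      have hz := norm_z_lt_one hN hc ht1 r
      -- `(1 - z)⁻¹` lies in the slit plane: its real part is positive
      have hre : 0 < (1 - c r * (xs N t r : ℂ)).re := by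
        have h1 : (c r * (xs N t r : ℂ)).re ≤ ‖c r * (xs N t r : ℂ)‖ := Complex.re_le_norm _
        rw [Complex.sub_re, Complex.one_re]
        linarith
      have hne : (1 - c r * (xs N t r : ℂ)) ≠ 0 := by
        intro h0
        rw [h0] at hre
        simp at hre
      rw [Complex.mem_slitPlane_iff]
      left
      rw [Complex.inv_re]
      exact div_pos hre (Complex.normSq_pos.mpr hne)
    · intro r t ht
      have ht1 : (1 : ℝ) ≤ t := le_of_lt (lt_trans hs₀1 ht)
      refine le_trans (norm_logFactor_le hN hc ht1 r) ?_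
      have := xs_anti hN (le_of_lt ht) r
      linarith
  exact (hcont.continuousAt (Ioi_mem_nhds hs₀s)).continuousWithinAt

end summable

end Fermat.Agent.Lib.Cheb.H221

end
-- ===== PACK-END Lib/Cheb/H221/LogEuler.lean

-- ===== PACK-BEGIN S14/H74/Defs.lean
section


/-!
# S14, analytic block N1 (helper74): definitions

Partial zeta functions of ideal classes and the smoothed lattice sums used to compare them.
-/

namespace Fermat.Agent.S14.H74

open NumberField NumberField.mixedEmbedding NumberField.Units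
  NumberField.Units.dirichletUnitTheorem

open scoped nonZeroDivisors

variable (K : Type*) [Field K] [NumberField K]

/-- The partial zeta function of the ideal class `C`, for a real argument `s`. -/
noncomputable def classZeta (C : ClassGroup (𝓞 K)) (s : ℝ) : ℝ :=
  ∑' I : {I : (Ideal (𝓞 K))⁰ // ClassGroup.mk0 I = C},
    (Ideal.absNorm (I.1 : Ideal (𝓞 K)) : ℝ) ^ (-s)

/-- The sum over all nonzero ideals of `N(I)^(-s)`. -/
noncomputable def idealZeta (s : ℝ) : ℝ :=
  ∑' I : (Ideal (𝓞 K))⁰, (Ideal.absNorm (I : Ideal (𝓞 K)) : ℝ) ^ (-s)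

/-- The tent function `max 0 (1 - |c|)`. -/
noncomputable def tent (c : ℝ) : ℝ := max 0 (1 - |c|)

open scoped Classical in
/-- Coordinates of `logMap x` in the real basis of `logSpace K` given by the unit lattice. -/
noncomputable def logCoord (x : mixedSpace K) (j : Fin (rank K)) : ℝ :=
  ((basisUnitLattice K).ofZLatticeBasis ℝ (unitLattice K)).repr (logMap x) j

/-- The smooth cut-off: a partition of unity for the action of the units. -/
noncomputable def rho (x : mixedSpace K) : ℝ :=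
  if mixedEmbedding.norm x = 0 then 0 else ∏ j, tent (logCoord K x j)

/-- The summand `ρ(x) N(x)^(-s)`. -/
noncomputable def fS (s : ℝ) (x : mixedSpace K) : ℝ :=
  rho K x * (mixedEmbedding.norm x) ^ (-s)

end Fermat.Agent.S14.H74

end
-- ===== PACK-END S14/H74/Defs.lean

-- ===== PACK-BEGIN S59/H540/DetCong.lean
section


/-!
# S59 / G-DET, algebra part (helper540) — Mathlib only

* `mem_of_forall_mem_sup_pow` : in a noetherian local ring every ideal is closed for the
  `𝔪`-adic topology (Krull's intersection theorem for `A ⧸ J`).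
* `det_sub_one_mem` : an endomorphism of a finite free module which is congruent to the identity
  modulo `I` has determinant congruent to `1` modulo `I`.
* `det_eq_coeff_zero_of_charpoly` : the determinant of an endomorphism of a free module of rank `2`
  with characteristic polynomial `X² - tX + d` is `d`.
-/

set_option autoImplicit false

namespace Fermat.Agent.S59.H540

open IsLocalRing

/-- In a noetherian local ring, an element lying in `J ⊔ 𝔪 ^ k` for every `k` lies in `J`. -/
theorem mem_of_forall_mem_sup_pow {A : Type*} [CommRing A] [IsLocalRing A] [IsNoetherianRing A]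
    (J : Ideal A) (x : A) (h : ∀ k : ℕ, x ∈ J ⊔ maximalIdeal A ^ k) : x ∈ J := by
  have hbot := Ideal.iInf_pow_smul_eq_bot_of_isLocalRing (R := A) (M := A ⧸ J)
    (maximalIdeal A) (Ideal.IsPrime.ne_top')
  have hx : (Ideal.Quotient.mk J x : A ⧸ J) ∈
      (⨅ i : ℕ, maximalIdeal A ^ i • (⊤ : Submodule A (A ⧸ J))) := by
    rw [Submodule.mem_iInf]
    intro k
    obtain ⟨j, hj, t, ht, rfl⟩ := Submodule.mem_sup.mp (h k)
    have e : (Ideal.Quotient.mk J (j + t) : A ⧸ J) = t • (1 : A ⧸ J) := by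
      rw [map_add, Ideal.Quotient.eq_zero_iff_mem.mpr hj, zero_add, Algebra.smul_def, mul_one]
      rfl
    rw [e]
    exact Submodule.smul_mem_smul ht Submodule.mem_top
  rw [hbot] at hx
  exact Ideal.Quotient.eq_zero_iff_mem.mp ((Submodule.mem_bot A).mp hx)

/-- Coordinates of an element of `I • ⊤` lie in `I`. -/
theorem repr_mem_of_mem_smul_top {A : Type*} [CommRing A] {V : Type*} [AddCommGroup V]
    [Module A V] {ι : Type*} (b : Module.Basis ι A V) (I : Ideal A) {x : V}
    (hx : x ∈ I • (⊤ : Submodule A V)) (i : ι) : b.repr x i ∈ I := by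
  refine Submodule.smul_induction_on (p := fun x => b.repr x i ∈ I) hx ?_ ?_
  · intro r hr m _
    rw [map_smul, Finsupp.smul_apply, smul_eq_mul]
    exact I.mul_mem_right _ hr
  · intro x y hx hy
    rw [map_add, Finsupp.add_apply]
    exact I.add_mem hx hy

/-- An endomorphism congruent to the identity modulo `I` has determinant `≡ 1` modulo `I`. -/
theorem det_sub_one_mem {A : Type*} [CommRing A] {V : Type*} [AddCommGroup V] [Module A V]
    [Module.Free A V] [Module.Finite A V] (I : Ideal A) (f : V →ₗ[A] V)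
    (hf : ∀ v : V, f v - v ∈ I • (⊤ : Submodule A V)) : LinearMap.det f - 1 ∈ I := by
  classical
  let b := Module.Free.chooseBasis A V
  have hM : (Ideal.Quotient.mk I).mapMatrix (LinearMap.toMatrix b b f) = 1 := by
    ext i j
    rw [RingHom.mapMatrix_apply, Matrix.map_apply, LinearMap.toMatrix_apply, Matrix.one_apply]
    have h1 : b.repr (f (b j)) i = b.repr (f (b j) - b j) i + b.repr (b j) i := by
      rw [map_sub, Finsupp.sub_apply, sub_add_cancel]
    have h2 : b.repr (f (b j) - b j) i ∈ I := repr_mem_of_mem_smul_top b I (hf (b j)) i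
    rw [h1, map_add, Ideal.Quotient.eq_zero_iff_mem.mpr h2, zero_add, Module.Basis.repr_self,
      Finsupp.single_apply]
    by_cases hij : i = j
    · subst hij; simp
    · have hji : ¬ j = i := fun h => hij h.symm
      simp [hij, hji]
  have hdet : Ideal.Quotient.mk I (LinearMap.det f) = 1 := by
    rw [← LinearMap.det_toMatrix b f, RingHom.map_det, hM, Matrix.det_one]
  rw [← Ideal.Quotient.eq_zero_iff_mem, map_sub, hdet, map_one, sub_self]

/-- Determinant from a characteristic polynomial of the shape `X² - t X + d`. -/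
theorem det_eq_of_charpoly {A : Type*} [CommRing A] [Nontrivial A] {V : Type*} [AddCommGroup V]
    [Module A V] [Module.Free A V] [Module.Finite A V] (hrank : Module.finrank A V = 2)
    (f : V →ₗ[A] V) (t d : A)
    (h : LinearMap.charpoly f = Polynomial.X ^ 2 - Polynomial.C t * Polynomial.X + Polynomial.C d) :
    LinearMap.det f = d := by
  rw [LinearMap.det_eq_sign_charpoly_coeff, hrank, h]
  simp [Polynomial.coeff_X, Polynomial.coeff_C]

end Fermat.Agent.S59.H540

end
-- ===== PACK-END S59/H540/DetCong.lean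

-- ===== PACK-BEGIN S41/H701/GenericFibre.lean
section


/-!
# Generic fibres of a rational function are separable (helper701, S41 piece D1)

Abstract polynomial input for `Nat.card E[n] = n ^ 2`.
-/

open Polynomial

set_option autoImplicit false

namespace Fermat.Agent.S41.H701

section GenericFibre

variable {K : Type*} [Field K] [IsAlgClosed K]

/-- Over an algebraically closed field, polynomials without common root are coprime. -/
lemma isCoprime_of_no_common_root_h701 (p q : K[X])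
    (h : ∀ x : K, ¬ (p.eval x = 0 ∧ q.eval x = 0)) : IsCoprime p q := by
  rw [Polynomial.isCoprime_iff_aeval_ne_zero_of_isAlgClosed K K]
  intro a
  by_contra hcon
  rw [not_or, not_not, not_not] at hcon
  exact h a ⟨by simpa using hcon.1, by simpa using hcon.2⟩

/-- **Generic fibre is separable.**  Let `N, D` be polynomials over an algebraically closed field
of characteristic zero without common root, with `N` non-constant.  Then for all but finitely
many `t`, the polynomial `N - t D` is separable. -/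
theorem exists_finset_separable_h701 [CharZero K] (N D : K[X]) (hN : 0 < N.natDegree)
    (hcop : ∀ x : K, ¬ (N.eval x = 0 ∧ D.eval x = 0)) :
    ∃ B : Finset K, ∀ t : K, t ∉ B → (N - C t * D).Separable := by
  classical
  set H : K[X] := N * derivative D - derivative N * D with hH
  have hND : IsCoprime N D := isCoprime_of_no_common_root_h701 N D hcop
  have hN' : derivative N ≠ 0 := by
    intro h0
    have := Polynomial.derivative_eq_zero.mp h0
    omega
  have hH0 : H ≠ 0 := by
    intro h0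
    have h1 : N * derivative D = derivative N * D := sub_eq_zero.mp h0
    have h2 : N ∣ derivative N * D := ⟨derivative D, h1.symm⟩
    have h3 : N ∣ derivative N := hND.dvd_of_dvd_mul_right h2
    have h4 := natDegree_le_of_dvd h3 hN'
    have h5 := natDegree_derivative_lt (p := N) (by omega)
    omega
  refine ⟨H.roots.toFinset.image (fun x => N.eval x / D.eval x), ?_⟩
  intro t ht
  rw [separable_def]
  apply isCoprime_of_no_common_root_h701
  rintro x ⟨hx1, hx2⟩
  simp only [eval_sub, eval_mul, eval_C, derivative_sub, derivative_mul, derivative_C, zero_mul,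
    zero_add] at hx1 hx2
  have hDx : D.eval x ≠ 0 := by
    intro hD
    rw [hD, mul_zero, sub_zero] at hx1
    exact hcop x ⟨hx1, hD⟩
  have ht' : t = N.eval x / D.eval x := by
    rw [eq_div_iff hDx]; linear_combination -hx1
  apply ht
  rw [Finset.mem_image]
  refine ⟨x, ?_, ht'.symm⟩
  rw [Multiset.mem_toFinset, mem_roots hH0, IsRoot.def, hH]
  simp only [eval_sub, eval_mul]
  have e1 : N.eval x = t * D.eval x := by linear_combination hx1
  have e2 : (derivative N).eval x = t * (derivative D).eval x := by linear_combination hx2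
  rw [e1, e2]; ring

/-- A separable polynomial over an algebraically closed field has `natDegree` roots. -/
theorem card_roots_of_separable_h701 (G : K[X]) (hG : G.Separable) :
    Nat.card {x : K // G.eval x = 0} = G.natDegree := by
  classical
  have hG0 : G ≠ 0 := hG.ne_zero
  have h1 := card_rootSet_eq_natDegree (K := K) hG (IsAlgClosed.splits _)
  rw [← h1, ← Nat.card_eq_fintype_card]
  apply Nat.card_congr
  refine Equiv.subtypeEquivRight ?_
  intro x
  rw [mem_rootSet]
  simp [hG0]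

end GenericFibre

end Fermat.Agent.S41.H701

end
-- ===== PACK-END S41/H701/GenericFibre.lean

-- ===== PACK-BEGIN Ribet/H403/DetLin.lean
section


/-!
# RIBET / DETF (helper403): the determinant from quadratic relations, pure linear algebra

`V` a vector space of dimension `2` over a field `k`.

* `det_eq_of_quadratic_of_not_scalar` : if `f² - a f + c = 0` and `f` is not a scalar then
  `det f = c` (Cayley–Hamilton).
* `det_eq_of_forall_quadratic` : if `ρ : G →* End V`, `χ : G →* kˣ`, every `ρ g` satisfies a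
  relation `ρ(g)² - a ρ(g) + χ(g) = 0` (for some `a` depending on `g`) and SOME `ρ h` is not a
  scalar, then `det ρ(g) = χ(g)` for all `g`.
-/

set_option autoImplicit false

namespace Fermat.Agent.Ribet.H403

open Polynomial

section LinAlg

variable {k V : Type*} [Field k] [AddCommGroup V] [Module k V] [Module.Finite k V]

/-- Cayley–Hamilton in dimension two, applied to a vector. -/
theorem cayley_hamilton_two (h2 : Module.finrank k V = 2) (f : Module.End k V) (x : V) :
    f (f x) + f.charpoly.coeff 1 • f x + f.charpoly.coeff 0 • x = 0 := by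
  have hmon : f.charpoly.Monic := LinearMap.charpoly_monic f
  have hdeg : f.charpoly.natDegree = 2 := by rw [LinearMap.charpoly_natDegree, h2]
  have hsum := hmon.as_sum
  rw [hdeg] at hsum
  have hch := LinearMap.aeval_self_charpoly f
  rw [hsum] at hch
  simp only [Finset.sum_range_succ, Finset.sum_range_zero, zero_add, pow_zero, mul_one, pow_one,
    map_add, map_pow, map_mul, aeval_X, aeval_C] at hch
  have := congrArg (fun g : Module.End k V => g x) hch
  simp only [LinearMap.add_apply, LinearMap.zero_apply, Module.algebraMap_end_apply,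
    Module.End.mul_apply, pow_two] at this
  rw [← this]
  abel

/-- If `f² - a f + c = 0` on a 2-dimensional space and `f` is not a scalar, then `det f = c`. -/
theorem det_eq_of_quadratic_of_not_scalar (h2 : Module.finrank k V = 2) (f : Module.End k V)
    (a c : k) (hrel : ∀ x, f (f x) - a • f x + c • x = 0)
    (hns : ¬ ∃ s : k, ∀ x, f x = s • x) : LinearMap.det f = c := by
  have hCH := cayley_hamilton_two h2 f
  set u := f.charpoly.coeff 1 with hu
  set d := f.charpoly.coeff 0 with hd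
  have hdiff : ∀ x, (u + a) • f x + (d - c) • x = 0 := by
    intro x
    have h1 := hCH x
    have h2' := hrel x
    have : (u + a) • f x + (d - c) • x
        = (f (f x) + u • f x + d • x) - (f (f x) - a • f x + c • x) := by
      rw [add_smul, sub_smul]; abel
    rw [this, h1, h2', sub_zero]
  have hua : u + a = 0 := by
    by_contra hne
    apply hns
    refine ⟨-(d - c) / (u + a), fun x => ?_⟩
    have h := hdiff x
    have h3 : (u + a) • f x = -((d - c) • x) := eq_neg_of_add_eq_zero_left h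
    have h4 : f x = (u + a)⁻¹ • ((u + a) • f x) := by
      rw [smul_smul, inv_mul_cancel₀ hne, one_smul]
    rw [h4, h3, ← neg_smul, smul_smul]
    congr 1
    field_simp
  have hnt : Nontrivial V := by
    apply Module.nontrivial_of_finrank_pos (R := k)
    rw [h2]; norm_num
  obtain ⟨x, hx⟩ := exists_ne (0 : V)
  have hdc : d = c := by
    have h := hdiff x
    rw [hua, zero_smul, zero_add] at h
    rcases smul_eq_zero.1 h with h | h
    · exact sub_eq_zero.1 h
    · exact absurd h hx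
  rw [LinearMap.det_eq_sign_charpoly_coeff, h2, ← hd, hdc]
  norm_num

/-- The determinant is the multiplier `χ` as soon as every element satisfies a quadratic relation
with constant term `χ` and one element is not a scalar. -/
theorem det_eq_of_forall_quadratic {G : Type*} [Group G] (h2 : Module.finrank k V = 2)
    (ρ : G →* Module.End k V) (χ : G →* kˣ)
    (hrel : ∀ g, ∃ a : k, ∀ x, ρ g (ρ g x) - a • ρ g x + (χ g : k) • x = 0)
    (hns : ∃ h, ¬ ∃ s : k, ∀ x, ρ h x = s • x) (g : G) :
    LinearMap.det (ρ g) = (χ g : k) := by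
  have key : ∀ g, (¬ ∃ s : k, ∀ x, ρ g x = s • x) → LinearMap.det (ρ g) = (χ g : k) := by
    intro g hg
    obtain ⟨a, ha⟩ := hrel g
    exact det_eq_of_quadratic_of_not_scalar h2 (ρ g) a (χ g) ha hg
  by_cases hg : ∃ s : k, ∀ x, ρ g x = s • x
  · obtain ⟨s, hs⟩ := hg
    obtain ⟨h, hh⟩ := hns
    have hnt : Nontrivial V := by
      apply Module.nontrivial_of_finrank_pos (R := k)
      rw [h2]; norm_num
    have hs0 : s ≠ 0 := by
      rintro rfl
      obtain ⟨x, hx⟩ := exists_ne (0 : V)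
      have h1 : ρ (g * g⁻¹) x = x := by rw [mul_inv_cancel, map_one]; rfl
      rw [map_mul, Module.End.mul_apply, hs, zero_smul] at h1
      exact hx h1.symm
    have hgh : ¬ ∃ t : k, ∀ x, ρ (g * h) x = t • x := by
      rintro ⟨t, ht⟩
      apply hh
      refine ⟨s⁻¹ * t, fun x => ?_⟩
      have h1 := ht x
      rw [map_mul, Module.End.mul_apply, hs] at h1
      rw [← smul_smul, ← h1, smul_smul, inv_mul_cancel₀ hs0, one_smul]
    have e1 := key (g * h) hgh
    have e2 := key h hh
    rw [map_mul, map_mul, map_mul, e2, Units.val_mul] at e1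
    exact mul_right_cancel₀ (χ h).ne_zero e1
  · exact key g hg

end LinAlg

end Fermat.Agent.Ribet.H403

end
-- ===== PACK-END Ribet/H403/DetLin.lean

-- ===== PACK-BEGIN S48/H368/Split.lean
section


/-!
# Row S48 (Deligne–Serre), piece SPLIT (helper368)

For a domain `O` of characteristic zero which is finite over `ℤ` (an order in a number field),
there are infinitely many primes `ℓ` with a ring homomorphism `O →+* ℤ_[ℓ]`
(`exists_padicInt_hom`).  This is the infinite set `L` of Deligne–Serre §8.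

Ingredients: Schur's theorem (infinitely many primes divide the values of a non-constant integer
polynomial), Hensel's lemma, the primitive element theorem and the integral closedness of `ℤ_[ℓ]`.
-/

set_option autoImplicit false

open Polynomial

namespace Fermat.Agent.S48.H368

/-- **Schur.** Infinitely many primes divide some value of a non-constant integer polynomial. -/
theorem exists_prime_dvd_eval (P : ℤ[X]) (hP : 0 < P.natDegree) (S : Finset ℕ) :
    ∃ ℓ : ℕ, ℓ.Prime ∧ ℓ ∉ S ∧ ∃ m : ℤ, (ℓ : ℤ) ∣ P.eval m := by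
  classical
  set c := P.eval 0 with hc
  by_cases hc0 : c = 0
  · obtain ⟨ℓ, hℓ, hprime⟩ := Nat.exists_infinite_primes (S.sup id + 1)
    refine ⟨ℓ, hprime, ?_, 0, by rw [← hc, hc0]; exact dvd_zero _⟩
    intro hmem
    have := Finset.le_sup (f := id) hmem
    simp only [id] at this
    omega
  · obtain ⟨Q, hQ⟩ : X ∣ P - C c := by
      rw [Polynomial.X_dvd_iff]
      simp [hc, coeff_zero_eq_eval_zero]
    have hPQ : ∀ x : ℤ, P.eval x = c + x * Q.eval x := by
      intro x
      have := congrArg (Polynomial.eval x) hQ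
      simp only [eval_sub, eval_C, eval_mul, eval_X] at this
      linarith
    set Pr : ℤ := ∏ p ∈ S.filter Nat.Prime, (p : ℤ) with hPrdef
    have hPr : Pr ≠ 0 := by
      refine Finset.prod_ne_zero_iff.2 fun p hp => ?_
      have := (Finset.mem_filter.1 hp).2
      exact_mod_cast this.ne_zero
    have hcPr : c * Pr ≠ 0 := mul_ne_zero hc0 hPr
    -- the polynomial `G(t) = P(cPr t)`
    set G : ℤ[X] := P.comp (C (c * Pr) * X) with hG
    have hGdeg : G.natDegree = P.natDegree := by
      rw [hG, natDegree_comp, natDegree_C_mul_X _ hcPr, mul_one]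
    have hGeval : ∀ t : ℤ, G.eval t = P.eval (c * Pr * t) := by
      intro t
      simp [hG, eval_comp]
    have hne : ∀ a : ℤ, G - C a ≠ 0 := by
      intro a h0
      have : G = C a := sub_eq_zero.1 h0
      rw [this, natDegree_C] at hGdeg
      omega
    set H : ℤ[X] := (G - C (-c)) * (G - C 0) * (G - C c) with hH
    have hHne : H ≠ 0 := mul_ne_zero (mul_ne_zero (hne _) (hne _)) (hne _)
    obtain ⟨t, ht⟩ := Infinite.exists_notMem_finset H.roots.toFinset
    have hHt : H.eval t ≠ 0 := by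
      intro h0
      exact ht (Multiset.mem_toFinset.2 ((mem_roots hHne).2 h0))
    simp only [hH, eval_mul, eval_sub, eval_C, hGeval, hPQ (c * Pr * t), mul_ne_zero_iff] at hHt
    obtain ⟨⟨h1, h2⟩, h3⟩ := hHt
    set F : ℤ := 1 + Pr * t * Q.eval (c * Pr * t) with hF
    have hcF : c + c * Pr * t * Q.eval (c * Pr * t) = c * F := by rw [hF]; ring
    rw [hcF] at h1 h2 h3
    have hF0 : F ≠ 0 := by
      intro h; apply h2; rw [h]; ring
    have hF1 : F ≠ 1 := by
      intro h; apply h3; rw [h]; ring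
    have hFm1 : F ≠ -1 := by
      intro h; apply h1; rw [h]; ring
    have hnat : F.natAbs ≠ 1 := by
      intro h
      rcases Int.natAbs_eq F with h' | h'
      · exact hF1 (by rw [h', h]; rfl)
      · exact hFm1 (by rw [h', h]; rfl)
    obtain ⟨ℓ, hℓ, hdvd⟩ := Nat.exists_prime_and_dvd hnat
    have hdvdF : (ℓ : ℤ) ∣ F := Int.natCast_dvd.2 hdvd
    refine ⟨ℓ, hℓ, ?_, c * Pr * t, ?_⟩
    · intro hmem
      have h4 : (ℓ : ℤ) ∣ Pr :=
        Finset.dvd_prod_of_mem (fun p : ℕ => (p : ℤ)) (Finset.mem_filter.2 ⟨hmem, hℓ⟩)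
      have h5 : (ℓ : ℤ) ∣ 1 := by
        have h6 : (ℓ : ℤ) ∣ Pr * t * Q.eval (c * Pr * t) := (h4.mul_right _).mul_right _
        have h7 := dvd_sub hdvdF h6
        simpa [hF] using h7
      have h8 := Int.natCast_dvd_natCast.1 (by simpa using h5 : ((ℓ : ℕ) : ℤ) ∣ ((1 : ℕ) : ℤ))
      exact hℓ.one_lt.ne' (Nat.dvd_one.1 h8)
    · rw [hPQ, hcF]
      exact hdvdF.mul_left _

/-- A separable integer polynomial and its derivative generate an ideal containing a non-zero
integer. -/
theorem exists_int_bezout (P : ℤ[X]) (hsep : (P.map (Int.castRingHom ℚ)).Separable) :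
    ∃ (R : ℤ) (U V : ℤ[X]), R ≠ 0 ∧ U * P + V * derivative P = C R := by
  obtain ⟨a, b, hab⟩ := hsep
  obtain ⟨na, hna, hA⟩ := IsLocalization.integerNormalization_spec (nonZeroDivisors ℤ) a
  obtain ⟨nb, hnb, hB⟩ := IsLocalization.integerNormalization_spec (nonZeroDivisors ℤ) b
  set A := IsLocalization.integerNormalization (nonZeroDivisors ℤ) a
  set B := IsLocalization.integerNormalization (nonZeroDivisors ℤ) b
  refine ⟨na * nb, C nb * A, C na * B, mul_ne_zero (nonZeroDivisors.ne_zero hna)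
    (nonZeroDivisors.ne_zero hnb), ?_⟩
  apply Polynomial.map_injective (Int.castRingHom ℚ) Int.cast_injective
  have hA' : A.map (Int.castRingHom ℚ) = C (Int.castRingHom ℚ na) * a := by
    rw [← algebraMap_int_eq, hA]
    ext i
    simp [zsmul_eq_mul]
  have hB' : B.map (Int.castRingHom ℚ) = C (Int.castRingHom ℚ nb) * b := by
    rw [← algebraMap_int_eq, hB]
    ext i
    simp [zsmul_eq_mul]
  rw [Polynomial.map_add, Polynomial.map_mul, Polynomial.map_mul, Polynomial.map_mul,
    Polynomial.map_mul, Polynomial.map_C, Polynomial.map_C, Polynomial.map_C, hA', hB',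
    ← derivative_map, map_mul, C_mul]
  have h2 : C (Int.castRingHom ℚ nb) * (C (Int.castRingHom ℚ na) * a) * P.map (Int.castRingHom ℚ)
      + C (Int.castRingHom ℚ na) * (C (Int.castRingHom ℚ nb) * b)
        * derivative (P.map (Int.castRingHom ℚ))
      = C (Int.castRingHom ℚ na) * C (Int.castRingHom ℚ nb) * (a * P.map (Int.castRingHom ℚ)
        + b * derivative (P.map (Int.castRingHom ℚ))) := by
    ring
  rw [h2, hab, mul_one]

/-- **Hensel.** A simple root modulo `ℓ` of an integer polynomial lifts to `ℤ_[ℓ]`. -/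
theorem exists_padicInt_root (ℓ : ℕ) [Fact ℓ.Prime] (P : ℤ[X]) (m : ℤ)
    (h0 : (ℓ : ℤ) ∣ P.eval m) (h1 : ¬ (ℓ : ℤ) ∣ (derivative P).eval m) :
    ∃ z : ℤ_[ℓ], aeval z P = 0 := by
  have e : ∀ Q : ℤ[X], aeval (m : ℤ_[ℓ]) Q = ((Q.eval m : ℤ) : ℤ_[ℓ]) := by
    intro Q
    have := Polynomial.aeval_algebraMap_apply (A := ℤ) ℤ_[ℓ] m Q
    simpa using this
  have hn0 : ‖aeval (m : ℤ_[ℓ]) P‖ < 1 := by
    rw [e, PadicInt.norm_intCast_lt_one_iff]
    exact h0
  have hn1 : ‖aeval (m : ℤ_[ℓ]) (derivative P)‖ = 1 := by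
    rw [e, PadicInt.norm_intCast_eq_one_iff]
    have hp : Prime (ℓ : ℤ) := Nat.prime_iff_prime_int.1 Fact.out
    exact (hp.coprime_iff_not_dvd.2 h1).symm
  obtain ⟨z, hz, -⟩ := hensels_lemma (F := P) (a := (m : ℤ_[ℓ])) (by rw [hn1]; simpa using hn0)
  exact ⟨z, hz⟩

/-- Infinitely many primes `ℓ` for which a non-constant separable integer polynomial has a root in
`ℤ_[ℓ]`. -/
theorem exists_padicInt_root_of_separable (P : ℤ[X]) (hP : 0 < P.natDegree)
    (hsep : (P.map (Int.castRingHom ℚ)).Separable) (S : Finset ℕ) :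
    ∃ (ℓ : ℕ) (_ : Fact ℓ.Prime), ℓ ∉ S ∧ ∃ z : ℤ_[ℓ], aeval z P = 0 := by
  obtain ⟨R, U, V, hR, hUV⟩ := exists_int_bezout P hsep
  obtain ⟨ℓ, hℓ, hℓS, m, hm⟩ := exists_prime_dvd_eval P hP (S ∪ R.natAbs.primeFactors)
  have hfact : Fact ℓ.Prime := ⟨hℓ⟩
  refine ⟨ℓ, hfact, fun h => hℓS (Finset.mem_union_left _ h), ?_⟩
  apply exists_padicInt_root ℓ P m hm
  intro hd
  have h1 := congrArg (Polynomial.eval m) hUV
  simp only [eval_add, eval_mul, eval_C] at h1
  have hR' : (ℓ : ℤ) ∣ R := by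
    rw [← h1]
    exact dvd_add (hm.mul_left _) (hd.mul_left _)
  apply hℓS
  apply Finset.mem_union_right
  rw [Nat.mem_primeFactors]
  exact ⟨hℓ, Int.natCast_dvd.1 hR', by simpa using hR⟩

/-- **SPLIT.**  For a domain `O` of characteristic zero, finite over `ℤ`, and any finite set `S`
of primes, there are a prime `ℓ ∉ S` and an injective ring homomorphism `O →+* ℤ_[ℓ]`. -/
theorem exists_padicInt_hom (O : Type*) [CommRing O] [IsDomain O] [CharZero O]
    [Module.Finite ℤ O] (S : Finset ℕ) :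
    ∃ (ℓ : ℕ) (_ : Fact ℓ.Prime), ℓ ∉ S ∧ ∃ ι : O →+* ℤ_[ℓ], Function.Injective ι := by
  classical
  have hinj : Function.Injective (algebraMap O (FractionRing O)) := IsFractionRing.injective O (FractionRing O)
  have : CharZero (FractionRing O) := charZero_of_injective_algebraMap hinj
  have htower : @IsScalarTower ℤ ℚ (FractionRing O) _ _ (Algebra.toSMul) := by
    refine IsScalarTower.of_algebraMap_eq ?_
    intro x
    simp
  have : FiniteDimensional ℚ (FractionRing O) :=
    Module.Finite.of_isLocalization ℤ O (Rₚ := ℚ) (Sₚ := FractionRing O) (nonZeroDivisors ℤ)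
  let pb : PowerBasis ℚ (FractionRing O) :=
    Field.powerBasisOfFiniteOfSeparable ℚ (FractionRing O)
  have hgen : IsIntegral ℚ pb.gen := pb.isIntegral_gen
  obtain ⟨n, hn, hP⟩ := IsLocalization.integerNormalization_spec (nonZeroDivisors ℤ)
    (minpoly ℚ pb.gen)
  set P := IsLocalization.integerNormalization (nonZeroDivisors ℤ) (minpoly ℚ pb.gen) with hPdef
  have hn0 : (n : ℚ) ≠ 0 := by exact_mod_cast nonZeroDivisors.ne_zero hn
  have hP' : P.map (Int.castRingHom ℚ) = C (n : ℚ) * minpoly ℚ pb.gen := by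
    rw [← algebraMap_int_eq, hP]
    ext i
    simp [zsmul_eq_mul]
  have hsep : (P.map (Int.castRingHom ℚ)).Separable := by
    rw [hP']
    have h1 : (minpoly ℚ pb.gen).Separable := (minpoly.irreducible hgen).separable
    have h2 : IsUnit (C (n : ℚ)) := Polynomial.isUnit_C.2 (isUnit_iff_ne_zero.2 hn0)
    exact Polynomial.Separable.unit_mul h2 h1
  have hdeg : 0 < P.natDegree := by
    have h1 : (P.map (Int.castRingHom ℚ)).natDegree = (minpoly ℚ pb.gen).natDegree := by
      rw [hP', natDegree_C_mul hn0]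
    have h2 : (P.map (Int.castRingHom ℚ)).natDegree = P.natDegree :=
      natDegree_map_eq_of_injective Int.cast_injective P
    rw [← h2, h1]
    exact minpoly.natDegree_pos hgen
  obtain ⟨ℓ, hfact, hℓS, z, hz⟩ := exists_padicInt_root_of_separable P hdeg hsep S
  refine ⟨ℓ, hfact, hℓS, ?_⟩
  -- the root in `ℚ_[ℓ]`
  have hroot : aeval (z : ℚ_[ℓ]) (minpoly ℚ pb.gen) = 0 := by
    have h1 : aeval (z : ℚ_[ℓ]) P = 0 := by
      have := congrArg (fun y : ℤ_[ℓ] => (y : ℚ_[ℓ])) hz
      simp only [PadicInt.coe_zero] at this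
      rw [← this]
      have h3 := Polynomial.aeval_algebraMap_apply (A := ℤ_[ℓ]) ℚ_[ℓ] z P
      simpa using h3
    have h2 : aeval (z : ℚ_[ℓ]) P = (n : ℚ_[ℓ]) * aeval (z : ℚ_[ℓ]) (minpoly ℚ pb.gen) := by
      have h4 : aeval (z : ℚ_[ℓ]) P = aeval (z : ℚ_[ℓ]) (P.map (Int.castRingHom ℚ)) := by
        rw [← algebraMap_int_eq, Polynomial.aeval_map_algebraMap]
      rw [h4, hP', map_mul, aeval_C]
      simp
    rw [h2] at h1
    have hn' : (n : ℚ_[ℓ]) ≠ 0 := by exact_mod_cast nonZeroDivisors.ne_zero hn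
    exact (mul_eq_zero.1 h1).resolve_left hn'
  let ψ : FractionRing O →ₐ[ℚ] ℚ_[ℓ] := pb.lift (z : ℚ_[ℓ]) hroot
  let f : O →+* ℚ_[ℓ] := ψ.toRingHom.comp (algebraMap O (FractionRing O))
  have hfinj : Function.Injective f := ψ.toRingHom.injective.comp hinj
  have hf : ∀ x, f x ∈ PadicInt.subring ℓ := by
    intro x
    have h1 : IsIntegral ℤ x := Algebra.IsIntegral.isIntegral x
    have h2 : IsIntegral ℤ (f x) := map_isIntegral_int f h1
    have h3 : IsIntegral ℤ_[ℓ] (f x) := h2.tower_top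
    obtain ⟨y, hy⟩ := IsIntegrallyClosed.isIntegral_iff.1 h3
    rw [← hy]
    exact y.2
  refine ⟨(f.codRestrict (PadicInt.subring ℓ) hf : O →+* ℤ_[ℓ]), ?_⟩
  intro x y hxy
  apply hfinj
  exact congrArg Subtype.val hxy

/-- **SPLIT (infinite form).** -/
theorem infinite_setOf_padicInt_hom (O : Type*) [CommRing O] [IsDomain O] [CharZero O]
    [Module.Finite ℤ O] :
    {ℓ : ℕ | ∃ (_ : Fact ℓ.Prime) (ι : O →+* ℤ_[ℓ]), Function.Injective ι}.Infinite := by
  intro hfin
  obtain ⟨ℓ, hfact, hℓ, ι, hι⟩ := exists_padicInt_hom O hfin.toFinset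
  exact hℓ (hfin.mem_toFinset.2 ⟨hfact, ι, hι⟩)

/-- A finite `ℤ`-module is countable. -/
theorem countable_of_finite_int (O : Type*) [AddCommGroup O] [Module.Finite ℤ O] :
    Countable O := by
  obtain ⟨n, f, hf⟩ := Module.Finite.exists_fin' ℤ O
  exact hf.countable

end Fermat.Agent.S48.H368

end
-- ===== PACK-END S48/H368/Split.lean

-- ===== PACK-BEGIN S24/D5/H108Poly.lean
section


/-!
# D5: level-one modular functions are polynomials in `J = E₄³ / Δ`

Mathlib-only.  Main results (namespace `Fermat.Agent.S24.H108`):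

* `modularForm_eq_discriminant_pow_mul_eval` : every `g : ModularForm 𝒮ℒ (12 * m)` is
  `Δ ^ m * P (E₄³ / Δ)` for a polynomial `P` of degree `≤ m`.
* `exists_polynomial_of_invariant` : an `SL(2,ℤ)`-invariant holomorphic `f : ℍ → ℂ` with
  `f * Δ ^ m` bounded at `i∞` is `P (E₄³ / Δ)` for a polynomial `P` of degree `≤ m`.
-/

noncomputable section

open UpperHalfPlane ModularForm SlashInvariantForm SlashInvariantFormClass ModularFormClass
  CuspFormClass MatrixGroups OnePoint Filter EisensteinSeries Asymptotics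

open scoped Topology Manifold

namespace Fermat.Agent.S24.H108

local notation "Δ" => ModularForm.discriminant

/-- The (un-normalised) `J`-function `E₄³ / Δ` on the upper half plane. -/
def jFun (τ : ℍ) : ℂ := E₄ τ ^ 3 / Δ τ

lemma jFun_def (τ : ℍ) : jFun τ = E₄ τ ^ 3 / Δ τ := rfl

/-- `E₄ ^ (3 * m)` as a modular form of weight `12 * m`. -/
def e4Pow (m : ℕ) : ModularForm 𝒮ℒ (12 * (m : ℤ)) :=
  ModularForm.mcast (by push_cast; ring) (E₄.pow (3 * m))

lemma e4Pow_coe (m : ℕ) : (e4Pow m : ℍ → ℂ) = (E₄.pow (3 * m) : ℍ → ℂ) := by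
  simp [e4Pow, coe_mcast]

lemma e4Pow_apply (m : ℕ) (τ : ℍ) : e4Pow m τ = E₄ τ ^ (3 * m) := by
  rw [e4Pow_coe, coe_pow, Pi.pow_apply]

lemma e4Pow_qExpansion_coeff_zero (m : ℕ) : (qExpansion 1 (e4Pow m)).coeff 0 = 1 := by
  rw [e4Pow_coe, ModularForm.qExpansion_pow one_pos one_mem_strictPeriods_SL]
  have h1 : (qExpansion 1 E₄).coeff 0 = 1 := E_qExpansion_coeff_zero _ ⟨2, rfl⟩
  rw [PowerSeries.coeff_zero_eq_constantCoeff_apply] at h1 ⊢
  rw [map_pow, h1, one_pow]

/-- Core statement: every level one modular form of weight `12 * m` is `Δ ^ m` times a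
polynomial of degree `≤ m` in `E₄³ / Δ`. -/
theorem modularForm_eq_discriminant_pow_mul_eval (m : ℕ) (g : ModularForm 𝒮ℒ (12 * (m : ℤ))) :
    ∃ P : Polynomial ℂ, P.natDegree ≤ m ∧ ∀ τ : ℍ, g τ = Δ τ ^ m * P.eval (jFun τ) := by
  induction m with
  | zero =>
    obtain ⟨c, hc⟩ := ModularFormClass.levelOne_weight_zero_const
      (ModularForm.mcast (show (12 * ((0 : ℕ) : ℤ)) = 0 by simp) g)
    refine ⟨Polynomial.C c, by simp, fun τ => ?_⟩
    have := congrFun hc τ
    simpa [coe_mcast] using this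
  | succ m ih =>
    set c : ℂ := (qExpansion 1 g).coeff 0 with hc
    -- h = g - c • E₄^(3(m+1)) has vanishing constant term
    set h : ModularForm 𝒮ℒ (12 * ((m + 1 : ℕ) : ℤ)) := g - c • e4Pow (m + 1) with hh
    have hcoeff : (qExpansion 1 h).coeff 0 = 0 := by
      have : (h : ℍ → ℂ) = (g : ℍ → ℂ) - ((c • e4Pow (m + 1) : ModularForm 𝒮ℒ _) : ℍ → ℂ) := rfl
      rw [this, ModularForm.qExpansion_sub one_pos one_mem_strictPeriods_SL]
      have h2 : ((c • e4Pow (m + 1) : ModularForm 𝒮ℒ _) : ℍ → ℂ) = c • (e4Pow (m + 1) : ℍ → ℂ) :=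
        rfl
      rw [h2, ModularForm.qExpansion_smul one_pos one_mem_strictPeriods_SL, map_sub,
        PowerSeries.coeff_smul, e4Pow_qExpansion_coeff_zero, smul_eq_mul, mul_one, sub_self]
    -- divide by Δ
    set h' : ModularForm 𝒮ℒ (12 * ((m + 1 : ℕ) : ℤ) - 12) :=
      CuspForm.discriminantEquiv (toCuspForm h hcoeff) with hh'
    obtain ⟨P', hP'deg, hP'⟩ := ih (ModularForm.mcast (by push_cast; ring) h')
    refine ⟨Polynomial.C c * Polynomial.X ^ (m + 1) + P', ?_, fun τ => ?_⟩
    · refine (Polynomial.natDegree_add_le _ _).trans (max_le ?_ (hP'deg.trans (Nat.le_succ m)))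
      exact (Polynomial.natDegree_C_mul_le _ _).trans (Polynomial.natDegree_X_pow_le _)
    · have hΔ : Δ τ ≠ 0 := discriminant_ne_zero τ
      have e1 : Δ τ * h' τ = h τ :=
        discriminant_mul_discriminantEquiv_apply (toCuspForm h hcoeff) τ
      have e2 : h' τ = Δ τ ^ m * P'.eval (jFun τ) := by
        have := hP' τ
        simpa [coe_mcast] using this
      have e3 : h τ = g τ - c * E₄ τ ^ (3 * (m + 1)) := by
        rw [← e4Pow_apply]; rfl
      have hJ : Δ τ ^ (m + 1) * jFun τ ^ (m + 1) = E₄ τ ^ (3 * (m + 1)) := by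
        rw [← mul_pow, jFun_def, mul_div_cancel₀ _ hΔ, ← pow_mul]
      simp only [Polynomial.eval_add, Polynomial.eval_mul, Polynomial.eval_C, Polynomial.eval_pow,
        Polynomial.eval_X]
      rw [e2] at e1
      linear_combination -e3 - e1 - c * hJ

/-! ### From invariant functions to modular forms -/

/-- `Δ ^ m` as a modular form of weight `12 * m`. -/
def deltaPow (m : ℕ) : ModularForm 𝒮ℒ (12 * (m : ℤ)) :=
  ModularForm.mcast (by ring)
    ((ModularFormClass.modularForm CuspForm.discriminant).pow m)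

lemma deltaPow_coe (m : ℕ) : (deltaPow m : ℍ → ℂ) = fun τ => Δ τ ^ m := by
  ext τ
  simp [deltaPow, coe_mcast, coe_pow]

lemma deltaPow_apply (m : ℕ) (τ : ℍ) : deltaPow m τ = Δ τ ^ m := by
  rw [deltaPow_coe]

/-- A function invariant under `SL(2,ℤ)` is weight-0 slash invariant. -/
lemma slash_zero_eq_of_invariant {f : ℍ → ℂ}
    (hinv : ∀ (γ : SL(2, ℤ)) (τ : ℍ), f (γ • τ) = f τ) (γ : SL(2, ℤ)) :
    f ∣[(0 : ℤ)] γ = f := by
  ext τ
  rw [SL_slash_apply, hinv]
  simp

lemma mul_deltaPow_slash {f : ℍ → ℂ}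
    (hinv : ∀ (γ : SL(2, ℤ)) (τ : ℍ), f (γ • τ) = f τ) (m : ℕ) (γ : SL(2, ℤ)) :
    (fun τ => f τ * Δ τ ^ m) ∣[(12 * (m : ℤ))] γ = fun τ => f τ * Δ τ ^ m := by
  have h1 : (fun τ => f τ * Δ τ ^ m) = f * (deltaPow m : ℍ → ℂ) := by
    ext τ; simp [deltaPow_apply]
  have h2 := mul_slash_SL2 0 (12 * (m : ℤ)) γ f (deltaPow m)
  rw [zero_add] at h2
  have hγ : (γ : GL (Fin 2) ℝ) ∈ 𝒮ℒ := ⟨γ, rfl⟩
  have h3 : (deltaPow m : ℍ → ℂ) ∣[(12 * (m : ℤ))] γ = deltaPow m := by
    rw [SL_slash]
    exact slash_action_eqn (deltaPow m) _ hγ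
  rw [h1, h2, slash_zero_eq_of_invariant hinv, h3]

/-- An `SL(2,ℤ)`-invariant holomorphic function `f` with `f * Δ ^ m` bounded at `i∞`
gives the modular form `f * Δ ^ m` of weight `12 * m`. -/
def ofInvariant (f : ℍ → ℂ) (hf : MDiff f)
    (hinv : ∀ (γ : SL(2, ℤ)) (τ : ℍ), f (γ • τ) = f τ) (m : ℕ)
    (hbd : IsBoundedAtImInfty (fun τ => f τ * Δ τ ^ m)) : ModularForm 𝒮ℒ (12 * (m : ℤ)) where
  toFun τ := f τ * Δ τ ^ m
  slash_action_eq' := fun _ ⟨γ, hγ⟩ => hγ ▸ mul_deltaPow_slash hinv m γ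
  holo' := by
    have h1 : (fun τ => f τ * Δ τ ^ m) = f * (deltaPow m : ℍ → ℂ) := by
      ext τ; simp [deltaPow_apply]
    change MDiff (fun τ => f τ * Δ τ ^ m)
    rw [h1]
    exact hf.mul (ModularFormClass.holo (deltaPow m))
  bdd_at_cusps' {c} hc := by
    rw [Subgroup.IsArithmetic.isCusp_iff_isCusp_SL2Z] at hc
    rw [isBoundedAt_iff_forall_SL2Z hc]
    intro γ _
    rw [mul_deltaPow_slash hinv m γ]
    exact hbd

lemma ofInvariant_apply (f : ℍ → ℂ) (hf : MDiff f)
    (hinv : ∀ (γ : SL(2, ℤ)) (τ : ℍ), f (γ • τ) = f τ) (m : ℕ)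
    (hbd : IsBoundedAtImInfty (fun τ => f τ * Δ τ ^ m)) (τ : ℍ) :
    ofInvariant f hf hinv m hbd τ = f τ * Δ τ ^ m := rfl

/-- **D5a.** An `SL(2,ℤ)`-invariant holomorphic function `f : ℍ → ℂ` such that `f * Δ ^ m` is
bounded at `i∞` is a polynomial of degree `≤ m` in `J = E₄³ / Δ`. -/
theorem exists_polynomial_of_invariant (f : ℍ → ℂ) (hf : MDiff f)
    (hinv : ∀ (γ : SL(2, ℤ)) (τ : ℍ), f (γ • τ) = f τ) (m : ℕ)
    (hbd : IsBoundedAtImInfty (fun τ => f τ * Δ τ ^ m)) :
    ∃ P : Polynomial ℂ, P.natDegree ≤ m ∧ ∀ τ : ℍ, f τ = P.eval (E₄ τ ^ 3 / Δ τ) := by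
  obtain ⟨P, hdeg, hP⟩ :=
    modularForm_eq_discriminant_pow_mul_eval m (ofInvariant f hf hinv m hbd)
  refine ⟨P, hdeg, fun τ => ?_⟩
  have h := hP τ
  rw [ofInvariant_apply, mul_comm] at h
  exact mul_left_cancel₀ (pow_ne_zero m (discriminant_ne_zero τ)) h

end Fermat.Agent.S24.H108

end
end
-- ===== PACK-END S24/D5/H108Poly.lean

-- ===== PACK-BEGIN A2/H348/SubLoc.lean
section


/-!
# A2 / piece E (ALG_ss), part 2: localisations of a subalgebra of a field, conductor argument

Mathlib-only.  `B ⊆ F` a subalgebra of a field, `F'` an `F`-algebra.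

* `exists_smul_isIntegral_of_subLoc` : if `O ⊇ B` is "a localisation of `B` at `S`" inside `F`
  (every `f ∈ O` has a denominator in `S`, elements of `S` are invertible in `O`), then an element
  of `F'` integral over `O` becomes integral over `B` after multiplication by some `s ∈ S`.
* `locAt B 𝔪` : the localisation of `B` at a prime ideal, as a subalgebra of `F`.
* `mem_of_forall_maximal` : the conductor argument: a `B`-submodule `M ⊆ F'` contains `c` as soon
  as for every maximal ideal `𝔪` some `s ∉ 𝔪` satisfies `s • c ∈ M`.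
-/

set_option autoImplicit false
set_option linter.unusedSectionVars false

namespace Fermat.Agent.A2.H348

variable {A F F' : Type*} [CommRing A] [Field F] [CommRing F'] [Algebra A F] [Algebra F F']
  [Algebra A F'] [IsScalarTower A F F']

section SubLoc

variable (B O : Subalgebra A F)

/-- integrality over a localisation descends up to a denominator. -/
theorem exists_smul_isIntegral_of_subLoc (hBO : B ≤ O) (S : Submonoid B)
    (hS0 : ∀ s ∈ S, (s : F) ≠ 0)
    (hS : ∀ f ∈ O, ∃ s ∈ S, (s : F) * f ∈ B) (hSinv : ∀ s ∈ S, ((s : F))⁻¹ ∈ O)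
    (c : F') (hc : IsIntegral O c) :
    ∃ s ∈ S, IsIntegral B (algebraMap F F' (s : F) * c) := by
  letI : Algebra B O := (Subalgebra.inclusion hBO).toRingHom.toAlgebra
  have halg : ∀ b : B, ((algebraMap B O b : O) : F) = (b : F) := fun b => rfl
  haveI : IsScalarTower B O F' := IsScalarTower.of_algebraMap_eq fun b => rfl
  haveI : IsLocalization S O := by
    rw [isLocalization_iff]
    refine ⟨?_, ?_, ?_⟩
    · intro y
      refine IsUnit.of_mul_eq_one (⟨((y : B) : F)⁻¹, hSinv y y.2⟩ : O) ?_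
      apply Subtype.ext
      show ((y : B) : F) * ((y : B) : F)⁻¹ = 1
      exact mul_inv_cancel₀ (hS0 y y.2)
    · intro z
      obtain ⟨s, hs, hsz⟩ := hS z z.2
      refine ⟨(⟨(s : F) * z, hsz⟩, ⟨s, hs⟩), ?_⟩
      apply Subtype.ext
      show (z : F) * (s : F) = (s : F) * z
      exact mul_comm _ _
    · intro x y hxy
      refine ⟨1, ?_⟩
      have : (x : F) = (y : F) := congrArg (fun t : O => (t : F)) hxy
      rw [Subtype.ext this]
  obtain ⟨m, hm⟩ := IsIntegral.exists_multiple_integral_of_isLocalization S c hc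
  refine ⟨m, m.2, ?_⟩
  have : (m • c : F') = algebraMap F F' ((m : B) : F) * c := by
    rw [Submonoid.smul_def, Algebra.smul_def]; rfl
  rwa [this] at hm

end SubLoc

section LocAt

variable (B : Subalgebra A F)

/-- The localisation of `B ⊆ F` at the prime ideal `𝔪`, as a subalgebra of `F`. -/
def locAt (𝔪 : Ideal B) [h𝔪 : 𝔪.IsPrime] : Subalgebra A F where
  carrier := {f | ∃ s : B, s ∉ 𝔪 ∧ (s : F) * f ∈ B}
  mul_mem' := by
    rintro f g ⟨s, hs, hsf⟩ ⟨t, ht, htg⟩
    refine ⟨s * t, fun h => (h𝔪.mem_or_mem h).elim hs ht, ?_⟩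
    have : ((s * t : B) : F) * (f * g) = ((s : F) * f) * ((t : F) * g) := by
      push_cast; ring
    rw [this]
    exact B.mul_mem hsf htg
  add_mem' := by
    rintro f g ⟨s, hs, hsf⟩ ⟨t, ht, htg⟩
    refine ⟨s * t, fun h => (h𝔪.mem_or_mem h).elim hs ht, ?_⟩
    have : ((s * t : B) : F) * (f + g) = (t : F) * ((s : F) * f) + (s : F) * ((t : F) * g) := by
      push_cast; ring
    rw [this]
    exact B.add_mem (B.mul_mem t.2 hsf) (B.mul_mem s.2 htg)
  algebraMap_mem' := by
    intro r
    refine ⟨1, fun h => h𝔪.ne_top ((Ideal.eq_top_iff_one _).2 h), ?_⟩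
    simp only [OneMemClass.coe_one, one_mul]
    exact B.algebraMap_mem r

variable {B}

theorem mem_locAt {𝔪 : Ideal B} [𝔪.IsPrime] {f : F} :
    f ∈ locAt B 𝔪 ↔ ∃ s : B, s ∉ 𝔪 ∧ (s : F) * f ∈ B := Iff.rfl

theorem le_locAt (𝔪 : Ideal B) [h𝔪 : 𝔪.IsPrime] : B ≤ locAt B 𝔪 := by
  intro f hf
  refine ⟨1, fun h => h𝔪.ne_top ((Ideal.eq_top_iff_one _).2 h), ?_⟩
  simpa using hf

theorem inv_mem_locAt (𝔪 : Ideal B) [𝔪.IsPrime] {s : B} (hs : s ∉ 𝔪) :
    ((s : F))⁻¹ ∈ locAt B 𝔪 := by
  refine ⟨s, hs, ?_⟩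
  rcases eq_or_ne (s : F) 0 with h | h
  · rw [h, zero_mul]; exact B.zero_mem
  · rw [mul_inv_cancel₀ h]; exact B.one_mem

theorem coe_ne_zero_of_notMem (𝔪 : Ideal B) {s : B} (hs : s ∉ 𝔪) : (s : F) ≠ 0 := by
  intro h
  apply hs
  have : s = 0 := Subtype.ext h
  rw [this]
  exact 𝔪.zero_mem

/-- integrality over `B_𝔪` descends to `B` up to a denominator outside `𝔪`. -/
theorem exists_smul_isIntegral_of_locAt (𝔪 : Ideal B) [𝔪.IsPrime] (c : F')
    (hc : IsIntegral (locAt B 𝔪) c) :
    ∃ s : B, s ∉ 𝔪 ∧ IsIntegral B (algebraMap F F' (s : F) * c) := by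
  obtain ⟨s, hs, h⟩ := exists_smul_isIntegral_of_subLoc B (locAt B 𝔪) (le_locAt 𝔪) 𝔪.primeCompl
    (fun s hs => coe_ne_zero_of_notMem 𝔪 hs)
    (fun f hf => by
      obtain ⟨s, hs, hsf⟩ := hf
      exact ⟨s, hs, hsf⟩)
    (fun s hs => inv_mem_locAt 𝔪 hs) c hc
  exact ⟨s, hs, h⟩

/-- `B_𝔪` is integrally closed in `F` if `B` is. -/
theorem locAt_integrallyClosed (hB : ∀ f : F, IsIntegral B f → f ∈ B) (𝔪 : Ideal B) [𝔪.IsPrime]
    (f : F) (hf : IsIntegral (locAt B 𝔪) f) : f ∈ locAt B 𝔪 := by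
  obtain ⟨s, hs, h⟩ := exists_smul_isIntegral_of_locAt (F' := F) 𝔪 f hf
  exact ⟨s, hs, hB _ h⟩

/-- `1 + ϖ t` is invertible in `B_𝔪` for `ϖ ∈ 𝔪`. -/
theorem one_add_mul_inv_mem_locAt (𝔪 : Ideal B) [𝔪.IsPrime] {ϖ : B} (hϖ : ϖ ∈ 𝔪) {t : F}
    (ht : t ∈ locAt B 𝔪) : (1 + (ϖ : F) * t)⁻¹ ∈ locAt B 𝔪 := by
  obtain ⟨s, hs, hst⟩ := ht
  have hmem : s + ϖ * ⟨(s : F) * t, hst⟩ ∉ 𝔪 := by
    intro h
    apply hs
    have h2 : ϖ * ⟨(s : F) * t, hst⟩ ∈ 𝔪 := 𝔪.mul_mem_right _ hϖ
    have := 𝔪.sub_mem h h2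
    simpa using this
  have hs0 : (s : F) ≠ 0 := coe_ne_zero_of_notMem 𝔪 hs
  have hne : ((s + ϖ * ⟨(s : F) * t, hst⟩ : B) : F) ≠ 0 := coe_ne_zero_of_notMem 𝔪 hmem
  have hval : ((s + ϖ * ⟨(s : F) * t, hst⟩ : B) : F) = (s : F) * (1 + (ϖ : F) * t) := by
    push_cast; ring
  have h1 : (1 + (ϖ : F) * t) ≠ 0 := by
    intro h
    rw [hval, h, mul_zero] at hne
    exact hne rfl
  refine ⟨s + ϖ * ⟨(s : F) * t, hst⟩, hmem, ?_⟩
  rw [hval, mul_assoc, mul_inv_cancel₀ h1, mul_one]
  exact s.2

end LocAt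

section Conductor

variable (B : Subalgebra A F)

/-- **Conductor argument.** -/
theorem mem_of_forall_maximal (M : Submodule B F') (c : F')
    (h : ∀ 𝔪 : Ideal B, 𝔪.IsMaximal → ∃ s : B, s ∉ 𝔪 ∧ s • c ∈ M) : c ∈ M := by
  let I : Ideal B := M.comap (LinearMap.toSpanSingleton B F' c)
  have hI : ∀ s : B, s ∈ I ↔ s • c ∈ M := fun s => by
    simp [I, Submodule.mem_comap, LinearMap.toSpanSingleton_apply]
  by_cases hIt : I = ⊤
  · have h1 : (1 : B) ∈ I := by rw [hIt]; trivial
    have := (hI 1).1 h1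
    simpa using this
  · obtain ⟨𝔪, h𝔪, hle⟩ := Ideal.exists_le_maximal I hIt
    obtain ⟨s, hs, hsc⟩ := h 𝔪 h𝔪
    exact absurd (hle ((hI s).2 hsc)) hs

end Conductor

end Fermat.Agent.A2.H348

end
-- ===== PACK-END A2/H348/SubLoc.lean

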