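import Mathlib
import Mathlib.AlgebraicGeometry.EllipticCurve.Affine.Point
import Mathlib.AlgebraicGeometry.EllipticCurve.VariableChange
import Mathlib.Tactic.FieldSimp
import Mathlib.Tactic.LinearCombination
import Mathlib.Tactic
import Mathlib.RingTheory.Valuation.ValuationSubring
import Fermat.Prelude.Def_ModularForm_HeckeOperator
import Fermat.Prelude.Def_FLTPrelim_Modularity
import Fermat.Prelude.Thm_UpperHalfPlane_qExpansion_coeff_nat_mul

-- ===== PACK-BEGIN S58/H94/Spec.lean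
section


/-!
# Row S58 (architect helper94): the one extra leaf of the relation-based glue

`Fermat.Agent.S58.H94.s58_of` (file `S58/H94/Top.lean`) proves the frozen S58 from the Props of
`Fermat/Agent/S58/Spec.lean` (helper41, on main)

* `S35Statement`, `S36Statement` (frozen statements, as hypotheses),
* `ResidualStatement` (leaf RES),
* `PointCountStatement` (leaf COUNT, proved on main: `S58.H285.pointCount`),

and from the leaf below.  The leaves TATE / COEFF / CHEB of `S58/Spec.lean` are NOT used.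

* `CoeffHenselStatement` (Mathlib only): the ring generated by an algebraic integer maps to
  `ℤ_[lam]` for some prime `lam` outside any given finite set (a nonconstant integer polynomial
  has roots modulo infinitely many primes; Hensel at a simple root of the minimal polynomial).
-/

set_option autoImplicit false

namespace Fermat.Agent.S58.H94

/-- **Leaf COEFF-HENSEL** (Mathlib only). -/
def CoeffHenselStatement : Prop :=
  ∀ (α : ℂ), IsIntegral ℤ α → ∀ B : Finset ℕ,
    ∃ (lam : ℕ) (_ : Fact lam.Prime), lam ∉ B ∧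
      Nonempty (Algebra.adjoin ℤ ({α} : Set ℂ) →+* ℤ_[lam])

end Fermat.Agent.S58.H94

end
-- ===== PACK-END S58/H94/Spec.lean

-- ===== PACK-BEGIN Lib/VC/Basic.lean
section





/-!
# Shared lib `VC`: admissible changes of variables act on POINTS

Mathlib defines the action of `WeierstrassCurve.VariableChange` on Weierstrass curves only.
Here we show that, over a field `F`, the change of variables
`(x, y) ↦ (u² x + r, u³ y + u² s x + t)` induces an isomorphism of groups
`(C • W).Point ≃+ W.Point`  (`vcPoint`), compatible with field homomorphisms (`Point.map`).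

(helper240)
-/

set_option autoImplicit false
set_option linter.unusedSectionVars false

namespace Fermat.Agent.Lib.VC

open WeierstrassCurve WeierstrassCurve.Affine

variable {F : Type*} [Field F]

/-- The `x`-coordinate of the image of `(x, y)` under the change of variables `C`. -/
def vcX (C : VariableChange F) (x : F) : F := (C.u : F) ^ 2 * x + C.r

/-- The `y`-coordinate of the image of `(x, y)` under the change of variables `C`. -/
def vcY (C : VariableChange F) (x y : F) : F := (C.u : F) ^ 3 * y + (C.u : F) ^ 2 * C.s * x + C.t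

theorem vcX_injective (C : VariableChange F) : Function.Injective (vcX C) := by
  intro x x' h
  have hu : (C.u : F) ^ 2 ≠ 0 := pow_ne_zero _ C.u.ne_zero
  unfold vcX at h
  exact mul_left_cancel₀ hu (add_right_cancel h)

theorem vcY_injective (C : VariableChange F) (x : F) : Function.Injective (vcY C x) := by
  intro y y' h
  have hu : (C.u : F) ^ 3 ≠ 0 := pow_ne_zero _ C.u.ne_zero
  unfold vcY at h
  exact mul_left_cancel₀ hu (add_right_cancel (add_right_cancel h))

section formulas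

variable (W : WeierstrassCurve F) (C : VariableChange F)

theorem a₁_smul : (C • W).a₁ = (C.u : F)⁻¹ * (W.a₁ + 2 * C.s) := by
  rw [variableChange_a₁, Units.val_inv_eq_inv_val]

theorem a₂_smul : (C • W).a₂ = (C.u : F)⁻¹ ^ 2 * (W.a₂ - C.s * W.a₁ + 3 * C.r - C.s ^ 2) := by
  rw [variableChange_a₂, Units.val_inv_eq_inv_val]

theorem a₃_smul : (C • W).a₃ = (C.u : F)⁻¹ ^ 3 * (W.a₃ + C.r * W.a₁ + 2 * C.t) := by
  rw [variableChange_a₃, Units.val_inv_eq_inv_val]

theorem a₄_smul : (C • W).a₄ = (C.u : F)⁻¹ ^ 4 * (W.a₄ - C.s * W.a₃ + 2 * C.r * W.a₂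
    - (C.t + C.r * C.s) * W.a₁ + 3 * C.r ^ 2 - 2 * C.s * C.t) := by
  rw [variableChange_a₄, Units.val_inv_eq_inv_val]

theorem a₆_smul : (C • W).a₆ = (C.u : F)⁻¹ ^ 6 * (W.a₆ + C.r * W.a₄ + C.r ^ 2 * W.a₂ + C.r ^ 3
    - C.t * W.a₃ - C.t ^ 2 - C.r * C.t * W.a₁) := by
  rw [variableChange_a₆, Units.val_inv_eq_inv_val]

/-- The Weierstrass polynomial transforms by the factor `u⁶`. -/
theorem polynomial_eval_vc (x y : F) :
    (vcY C x y) ^ 2 + W.a₁ * (vcX C x) * (vcY C x y) + W.a₃ * (vcY C x y)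
      - ((vcX C x) ^ 3 + W.a₂ * (vcX C x) ^ 2 + W.a₄ * (vcX C x) + W.a₆)
    = (C.u : F) ^ 6 * (y ^ 2 + (C • W).a₁ * x * y + (C • W).a₃ * y
      - (x ^ 3 + (C • W).a₂ * x ^ 2 + (C • W).a₄ * x + (C • W).a₆)) := by
  have hu : (C.u : F) ≠ 0 := C.u.ne_zero
  rw [a₁_smul, a₂_smul, a₃_smul, a₄_smul, a₆_smul]
  unfold vcX vcY
  field_simp
  ring

theorem equation_smul_iff (x y : F) :
    (C • W).toAffine.Equation x y ↔ W.toAffine.Equation (vcX C x) (vcY C x y) := by
  have hu : (C.u : F) ^ 6 ≠ 0 := pow_ne_zero _ C.u.ne_zero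
  rw [equation_iff, equation_iff, ← sub_eq_zero, ← sub_eq_zero (a := (vcY C x y) ^ 2 + _ + _)]
  show _ ↔ (vcY C x y) ^ 2 + W.a₁ * (vcX C x) * (vcY C x y) + W.a₃ * (vcY C x y)
      - ((vcX C x) ^ 3 + W.a₂ * (vcX C x) ^ 2 + W.a₄ * (vcX C x) + W.a₆) = 0
  rw [polynomial_eval_vc, mul_eq_zero]
  constructor
  · intro h; exact Or.inr h
  · rintro (h | h)
    · exact absurd h hu
    · exact h

/-- Transformation of the partial derivative in `y`. -/
theorem polynomialY_eval_vc (x y : F) :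
    2 * vcY C x y + W.a₁ * vcX C x + W.a₃
      = (C.u : F) ^ 3 * (2 * y + (C • W).a₁ * x + (C • W).a₃) := by
  have hu : (C.u : F) ≠ 0 := C.u.ne_zero
  rw [a₁_smul, a₃_smul]
  unfold vcX vcY
  field_simp
  ring

/-- Transformation of the partial derivative in `x`. -/
theorem polynomialX_eval_vc (x y : F) :
    W.a₁ * vcY C x y - (3 * vcX C x ^ 2 + 2 * W.a₂ * vcX C x + W.a₄)
      = (C.u : F) ^ 4 * ((C • W).a₁ * y - (3 * x ^ 2 + 2 * (C • W).a₂ * x + (C • W).a₄))
        - C.s * ((C.u : F) ^ 3 * (2 * y + (C • W).a₁ * x + (C • W).a₃)) := by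
  have hu : (C.u : F) ≠ 0 := C.u.ne_zero
  rw [a₁_smul, a₂_smul, a₃_smul, a₄_smul]
  unfold vcX vcY
  field_simp
  ring

theorem nonsingular_smul_iff (x y : F) :
    (C • W).toAffine.Nonsingular x y ↔ W.toAffine.Nonsingular (vcX C x) (vcY C x y) := by
  have hu3 : (C.u : F) ^ 3 ≠ 0 := pow_ne_zero _ C.u.ne_zero
  have hu4 : (C.u : F) ^ 4 ≠ 0 := pow_ne_zero _ C.u.ne_zero
  rw [nonsingular_iff', nonsingular_iff', equation_smul_iff, polynomialX_eval_vc,
    polynomialY_eval_vc]
  refine and_congr_right fun _ => ?_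
  by_cases hY : 2 * y + (C • W).a₁ * x + (C • W).a₃ = 0
  · rw [hY]
    simp only [mul_zero, sub_zero, ne_eq, not_true_eq_false, or_false, mul_eq_zero, hu4, false_or]
  · have : (C.u : F) ^ 3 * (2 * y + (C • W).a₁ * x + (C • W).a₃) ≠ 0 := mul_ne_zero hu3 hY
    simp only [ne_eq, hY, not_false_eq_true, or_true, this]

theorem negY_vc (x y : F) :
    W.toAffine.negY (vcX C x) (vcY C x y) = vcY C x ((C • W).toAffine.negY x y) := by
  have hu : (C.u : F) ≠ 0 := C.u.ne_zero
  simp only [negY]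
  rw [a₁_smul, a₃_smul]
  unfold vcX vcY
  field_simp
  ring

theorem addX_vc (x₁ x₂ ℓ : F) :
    W.toAffine.addX (vcX C x₁) (vcX C x₂) ((C.u : F) * ℓ + C.s)
      = vcX C ((C • W).toAffine.addX x₁ x₂ ℓ) := by
  have hu : (C.u : F) ≠ 0 := C.u.ne_zero
  simp only [addX]
  rw [a₁_smul, a₂_smul]
  unfold vcX
  field_simp
  ring

theorem negAddY_vc (x₁ x₂ y₁ ℓ : F) :
    W.toAffine.negAddY (vcX C x₁) (vcX C x₂) (vcY C x₁ y₁) ((C.u : F) * ℓ + C.s)
      = vcY C ((C • W).toAffine.addX x₁ x₂ ℓ) ((C • W).toAffine.negAddY x₁ x₂ y₁ ℓ) := by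
  rw [negAddY, addX_vc, negAddY]
  unfold vcX vcY
  ring

theorem addY_vc (x₁ x₂ y₁ ℓ : F) :
    W.toAffine.addY (vcX C x₁) (vcX C x₂) (vcY C x₁ y₁) ((C.u : F) * ℓ + C.s)
      = vcY C ((C • W).toAffine.addX x₁ x₂ ℓ) ((C • W).toAffine.addY x₁ x₂ y₁ ℓ) := by
  rw [addY, negAddY_vc, addX_vc, negY_vc, addY]

variable [DecidableEq F]

theorem slope_vc {x₁ x₂ y₁ y₂ : F} (h₁ : (C • W).toAffine.Equation x₁ y₁)
    (h₂ : (C • W).toAffine.Equation x₂ y₂)
    (hxy : ¬(x₁ = x₂ ∧ y₁ = (C • W).toAffine.negY x₂ y₂)) :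
    W.toAffine.slope (vcX C x₁) (vcX C x₂) (vcY C x₁ y₁) (vcY C x₂ y₂)
      = (C.u : F) * (C • W).toAffine.slope x₁ x₂ y₁ y₂ + C.s := by
  have hu : (C.u : F) ≠ 0 := C.u.ne_zero
  by_cases hx : x₁ = x₂
  · have hy : y₁ ≠ (C • W).toAffine.negY x₂ y₂ := fun h => hxy ⟨hx, h⟩
    have hyy : y₁ = y₂ := Y_eq_of_Y_ne h₁ h₂ hx hy
    subst hx hyy
    have hy' : vcY C x₁ y₁ ≠ W.toAffine.negY (vcX C x₁) (vcY C x₁ y₁) := by
      rw [negY_vc]
      exact fun h => hy (vcY_injective C x₁ h)
    rw [slope_of_Y_ne rfl hy', slope_of_Y_ne rfl hy]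
    have hd : y₁ - (C • W).toAffine.negY x₁ y₁ ≠ 0 := sub_ne_zero.mpr hy
    have hd' : vcY C x₁ y₁ - W.toAffine.negY (vcX C x₁) (vcY C x₁ y₁) ≠ 0 := sub_ne_zero.mpr hy'
    have e1 : vcY C x₁ y₁ - W.toAffine.negY (vcX C x₁) (vcY C x₁ y₁)
        = (C.u : F) ^ 3 * (y₁ - (C • W).toAffine.negY x₁ y₁) := by
      have := polynomialY_eval_vc W C x₁ y₁
      simp only [negY]
      linear_combination this
    have e2 : 3 * vcX C x₁ ^ 2 + 2 * W.a₂ * vcX C x₁ + W.a₄ - W.a₁ * vcY C x₁ y₁
        = (C.u : F) ^ 4 * (3 * x₁ ^ 2 + 2 * (C • W).a₂ * x₁ + (C • W).a₄ - (C • W).a₁ * y₁)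
          + C.s * ((C.u : F) ^ 3 * (y₁ - (C • W).toAffine.negY x₁ y₁)) := by
      have := polynomialX_eval_vc W C x₁ y₁
      simp only [negY]
      linear_combination -this
    rw [e2, e1]
    field_simp
  · have hx' : vcX C x₁ ≠ vcX C x₂ := fun h => hx (vcX_injective C h)
    rw [slope_of_X_ne hx', slope_of_X_ne hx]
    have hd : x₁ - x₂ ≠ 0 := sub_ne_zero.mpr hx
    have hd' : vcX C x₁ - vcX C x₂ ≠ 0 := sub_ne_zero.mpr hx'
    have e1 : vcX C x₁ - vcX C x₂ = (C.u : F) ^ 2 * (x₁ - x₂) := by unfold vcX; ring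
    have e2 : vcY C x₁ y₁ - vcY C x₂ y₂
        = (C.u : F) ^ 3 * (y₁ - y₂) + (C.u : F) ^ 2 * C.s * (x₁ - x₂) := by unfold vcY; ring
    rw [e2, e1]
    field_simp

/-- The map on points induced by the change of variables `C`. -/
def toFun : (C • W).toAffine.Point → W.toAffine.Point
  | .zero => .zero
  | .some x y h => .some (vcX C x) (vcY C x y) ((nonsingular_smul_iff W C x y).mp h)

@[simp] theorem toFun_zero : toFun W C (0 : (C • W).toAffine.Point) = 0 := rfl

@[simp] theorem toFun_some {x y : F} (h : (C • W).toAffine.Nonsingular x y) :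
    toFun W C (.some x y h) = .some (vcX C x) (vcY C x y) ((nonsingular_smul_iff W C x y).mp h) :=
  rfl

theorem toFun_add (P Q : (C • W).toAffine.Point) :
    toFun W C (P + Q) = toFun W C P + toFun W C Q := by
  rcases P with _ | ⟨x₁, y₁, h₁⟩
  · change toFun W C (0 + Q) = 0 + toFun W C Q
    rw [zero_add, zero_add]
  rcases Q with _ | ⟨x₂, y₂, h₂⟩
  · change toFun W C (_ + 0) = _ + 0
    rw [add_zero, add_zero]
  by_cases hxy : x₁ = x₂ ∧ y₁ = (C • W).toAffine.negY x₂ y₂
  · rw [Point.add_of_Y_eq hxy.1 hxy.2, toFun_zero, toFun_some, toFun_some,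
      Point.add_of_Y_eq (congrArg _ hxy.1) (by rw [negY_vc, hxy.2, hxy.1])]
  · have hxy' : ¬(vcX C x₁ = vcX C x₂ ∧
        vcY C x₁ y₁ = W.toAffine.negY (vcX C x₂) (vcY C x₂ y₂)) := by
      rintro ⟨hx, hy⟩
      have hx0 := vcX_injective C hx
      subst hx0
      rw [negY_vc] at hy
      exact hxy ⟨rfl, vcY_injective C x₁ hy⟩
    rw [Point.add_some hxy, toFun_some, toFun_some, toFun_some, Point.add_some hxy']
    simp only [Point.some.injEq]
    rw [slope_vc W C h₁.1 h₂.1 hxy]
    exact ⟨(addX_vc W C _ _ _).symm, (addY_vc W C _ _ _ _).symm⟩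

theorem toFun_injective : Function.Injective (toFun W C) := by
  rintro (_ | ⟨x₁, y₁, h₁⟩) (_ | ⟨x₂, y₂, h₂⟩) h
  · rfl
  · simp [toFun] at h
  · simp [toFun] at h
  · simp only [toFun, Point.some.injEq] at h
    obtain ⟨hx, hy⟩ := h
    have hx0 := vcX_injective C hx
    subst hx0
    have hy0 := vcY_injective C x₁ hy
    subst hy0
    rfl

theorem toFun_surjective : Function.Surjective (toFun W C) := by
  have hu : (C.u : F) ≠ 0 := C.u.ne_zero
  rintro (_ | ⟨X, Y, h⟩)
  · exact ⟨0, rfl⟩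
  · set x : F := (X - C.r) / (C.u : F) ^ 2 with hx
    set y : F := (Y - (C.u : F) ^ 2 * C.s * x - C.t) / (C.u : F) ^ 3 with hy
    have eX : vcX C x = X := by
      rw [hx]; unfold vcX; field_simp; ring
    have eY : vcY C x y = Y := by
      rw [hy]; unfold vcY; field_simp; ring
    have h' : (C • W).toAffine.Nonsingular x y := by
      rw [nonsingular_smul_iff, eX, eY]; exact h
    refine ⟨.some x y h', ?_⟩
    simp only [toFun, Point.some.injEq]
    exact ⟨eX, eY⟩

/-- **The change of variables on points**: `(C • W).Point ≃+ W.Point`,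
`(x, y) ↦ (u² x + r, u³ y + u² s x + t)`. -/
noncomputable def vcPoint : (C • W).toAffine.Point ≃+ W.toAffine.Point :=
  AddEquiv.ofBijective
    ({ toFun := toFun W C
       map_zero' := rfl
       map_add' := toFun_add W C } : (C • W).toAffine.Point →+ W.toAffine.Point)
    ⟨toFun_injective W C, toFun_surjective W C⟩

@[simp] theorem vcPoint_zero : vcPoint W C 0 = 0 := rfl

@[simp] theorem vcPoint_some {x y : F} (h : (C • W).toAffine.Nonsingular x y) :
    vcPoint W C (.some x y h)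
      = .some (vcX C x) (vcY C x y) ((nonsingular_smul_iff W C x y).mp h) := rfl

end formulas

end Fermat.Agent.Lib.VC

end
-- ===== PACK-END Lib/VC/Basic.lean

-- ===== PACK-BEGIN S59/H127/PDiv.lean
section


/-!
# E-side foundation, part 3: compatible bases of the `p`-power torsion

Abstract algebra (Mathlib only).  Let `A` be an abelian group and `p` a prime such that

* multiplication by `p` is surjective on `A`, and
* `#A[p] = p ^ h`.

Then there is a *compatible system of bases* `B k : Fin h → A[p^k]` (`CompatBasis A p h`):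
`p • B (k+1) i = B k i`, and `(B k i)_i` is a basis of `A[p^k]` over `ℤ / p^k`
(`nonempty_compatBasis`).  In particular `A[p^k] ≃ (ℤ/p^k)^h` for all `k`.
-/

namespace Fermat.Agent.S59.H127

/-- a compatible system of bases of the `p^k`-torsion of an abelian group `A` -/
structure CompatBasis (A : Type*) [AddCommGroup A] (p h : ℕ) where
  /-- the basis of the `p^k`-torsion -/
  B : ℕ → Fin h → A
  zero : ∀ i, B 0 i = 0
  succ : ∀ k i, p • B (k + 1) i = B k i
  indep : ∀ k (c : Fin h → ℤ), ∑ i, c i • B k i = 0 → ∀ i, ((p : ℤ) ^ k) ∣ c i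
  span : ∀ k (x : A), p ^ k • x = 0 → ∃ c : Fin h → ℤ, x = ∑ i, c i • B k i

section basis

variable {A : Type*} [AddCommGroup A] (p : ℕ) [hp : Fact p.Prime] (h : ℕ)

/-- a basis of a finite `ZMod p`-module of cardinality `p ^ h`, in elementary terms -/
lemma exists_basis_of_zmod_module {M : Type*} [AddCommGroup M] [Module (ZMod p) M]
    (hcard : Nat.card M = p ^ h) :
    ∃ b : Fin h → M,
      (∀ c : Fin h → ℤ, ∑ i, c i • b i = 0 → ∀ i, (p : ℤ) ∣ c i) ∧
      (∀ x : M, ∃ c : Fin h → ℤ, x = ∑ i, c i • b i) := by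
  classical
  have hfin : Finite M :=
    Nat.finite_of_card_ne_zero (by rw [hcard]; exact pow_ne_zero _ hp.out.ne_zero)
  have hMf : Module.Finite (ZMod p) M := Module.Finite.of_finite
  have hrank : Module.finrank (ZMod p) M = h := by
    have := Module.natCard_eq_pow_finrank (K := ZMod p) (V := M)
    rw [hcard, Nat.card_zmod] at this
    exact (Nat.pow_right_injective hp.out.two_le this).symm
  let b := Module.finBasisOfFinrankEq (ZMod p) M hrank
  refine ⟨fun i => b i, ?_, ?_⟩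
  · intro c hc i
    have h1 : ∑ i, ((c i : ℤ) : ZMod p) • b i = 0 := by
      rw [← hc]
      refine Finset.sum_congr rfl fun j _ => ?_
      rw [Int.cast_smul_eq_zsmul]
    have h2 := Fintype.linearIndependent_iff.mp b.linearIndependent _ h1 i
    exact (ZMod.intCast_zmod_eq_zero_iff_dvd _ p).mp h2
  · intro x
    refine ⟨fun i => ((b.repr x i).val : ℤ), ?_⟩
    have h1 := b.sum_repr x
    conv_lhs => rw [← h1]
    refine Finset.sum_congr rfl fun j _ => ?_
    rw [← Int.cast_smul_eq_zsmul (ZMod p)]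
    congr 1
    rw [Int.cast_natCast, ZMod.natCast_zmod_val]

/-- a basis of the `p`-torsion, in elementary terms -/
lemma exists_basis_torsion_p
    (hcard : Nat.card (Submodule.torsionBy ℤ A ((p : ℕ) : ℤ)) = p ^ h) :
    ∃ b : Fin h → A, (∀ i, p • b i = 0) ∧
      (∀ c : Fin h → ℤ, ∑ i, c i • b i = 0 → ∀ i, (p : ℤ) ∣ c i) ∧
      (∀ x : A, p • x = 0 → ∃ c : Fin h → ℤ, x = ∑ i, c i • b i) := by
  classical
  have hmem : ∀ x : A, x ∈ Submodule.torsionBy ℤ A ((p : ℕ) : ℤ) ↔ p • x = 0 := by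
    intro x
    rw [Submodule.mem_torsionBy_iff, natCast_zsmul]
  have hkill : ∀ x : Submodule.torsionBy ℤ A ((p : ℕ) : ℤ), p • x = 0 := by
    intro x
    apply Subtype.ext
    rw [Submodule.coe_smul_of_tower, Submodule.coe_zero]
    exact (hmem _).mp x.2
  obtain ⟨b, hbi, hbs⟩ := @exists_basis_of_zmod_module p hp h
    (Submodule.torsionBy ℤ A ((p : ℕ) : ℤ)) _ (AddCommGroup.zmodModule hkill) hcard
  refine ⟨fun i => ((b i : Submodule.torsionBy ℤ A ((p : ℕ) : ℤ)) : A), ?_, ?_, ?_⟩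
  · intro i
    exact (hmem _).mp (b i).2
  · intro c hc i
    refine hbi c ?_ i
    apply Subtype.ext
    rw [Submodule.coe_sum, Submodule.coe_zero, ← hc]
    refine Finset.sum_congr rfl fun j _ => ?_
    rw [Submodule.coe_smul_of_tower]
  · intro x hx
    obtain ⟨c, hc⟩ := hbs ⟨x, (hmem x).mpr hx⟩
    refine ⟨c, ?_⟩
    have h2 := congrArg (Subtype.val) hc
    rw [Submodule.coe_sum] at h2
    rw [show x = ((⟨x, (hmem x).mpr hx⟩ : Submodule.torsionBy ℤ A ((p : ℕ) : ℤ)) : A) from rfl, h2]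
    refine Finset.sum_congr rfl fun j _ => ?_
    rw [Submodule.coe_smul_of_tower]

end basis

section tower

variable {A : Type*} [AddCommGroup A] (p : ℕ) (h : ℕ)

/-- the tower of `p`-division points above a given family -/
noncomputable def divTower (hdiv : ∀ x : A, ∃ y : A, p • y = x) (b : Fin h → A) :
    ℕ → Fin h → A
  | 0 => b
  | (k + 1) => fun i => Classical.choose (hdiv (divTower hdiv b k i))

lemma divTower_succ (hdiv : ∀ x : A, ∃ y : A, p • y = x) (b : Fin h → A) (k : ℕ) (i : Fin h) :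
    p • divTower p h hdiv b (k + 1) i = divTower p h hdiv b k i :=
  Classical.choose_spec (hdiv (divTower p h hdiv b k i))

end tower

section compat

variable {A : Type*} [AddCommGroup A] {p h : ℕ}

lemma pow_smul_of_succ {B : ℕ → Fin h → A} (hsucc : ∀ k i, p • B (k + 1) i = B k i)
    (j k : ℕ) (i : Fin h) : p ^ j • B (k + j) i = B k i := by
  induction j with
  | zero => simp
  | succ j ih =>
    rw [pow_succ, mul_smul, ← add_assoc, hsucc, ih]

variable (p h) [hp : Fact p.Prime]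

/-- **existence of a compatible system of bases** for a `p`-divisible group with `#A[p] = p^h` -/
theorem nonempty_compatBasis (hdiv : ∀ x : A, ∃ y : A, p • y = x)
    (hcard : Nat.card (Submodule.torsionBy ℤ A ((p : ℕ) : ℤ)) = p ^ h) :
    Nonempty (CompatBasis A p h) := by
  classical
  obtain ⟨b, hb0, hbi, hbs⟩ := exists_basis_torsion_p p h hcard
  -- the tower
  let C := divTower p h hdiv b
  let B : ℕ → Fin h → A := fun k => match k with
    | 0 => fun _ => 0
    | (k + 1) => C k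
  have hB0 : ∀ i, B 0 i = 0 := fun i => rfl
  have hB1 : ∀ i, B 1 i = b i := fun i => rfl
  have hsucc : ∀ k i, p • B (k + 1) i = B k i := by
    intro k i
    cases k with
    | zero => exact hb0 i
    | succ k => exact divTower_succ p h hdiv b k i
  have hpow : ∀ k i, p ^ k • B (k + 1) i = b i := by
    intro k i
    have := pow_smul_of_succ hsucc k 1 i
    rw [add_comm 1 k] at this
    rw [this, hB1]
  have hkill : ∀ k i, p ^ k • B k i = 0 := by
    intro k i
    have := pow_smul_of_succ hsucc k 0 i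
    rw [zero_add] at this
    rw [this]
  refine ⟨⟨B, hB0, hsucc, ?_, ?_⟩⟩
  · -- independence
    intro k
    induction k with
    | zero => intro c _ i; simp
    | succ k ih =>
      intro c hc i
      -- multiply by `p^k`
      have h1 : ∑ i, c i • b i = 0 := by
        have := congrArg (fun x => p ^ k • x) hc
        simp only [Finset.smul_sum, smul_zero] at this
        rw [← this]
        refine Finset.sum_congr rfl fun j _ => ?_
        rw [smul_comm, hpow]
      have h2 := hbi c h1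
      choose c' hc' using h2
      have h3 : ∑ i, c' i • B k i = 0 := by
        rw [← hc]
        refine Finset.sum_congr rfl fun j _ => ?_
        rw [hc' j, mul_comm, mul_smul, natCast_zsmul, hsucc]
      have h4 := ih c' h3 i
      rw [hc' i, pow_succ']
      exact mul_dvd_mul_left _ h4
  · -- spanning
    intro k
    induction k with
    | zero =>
      intro x hx
      refine ⟨fun _ => 0, ?_⟩
      rw [pow_zero, one_smul] at hx
      simp [hx]
    | succ k ih =>
      intro x hx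
      have hx' : p ^ k • (p • x) = 0 := by
        rw [← mul_smul, ← pow_succ]; exact hx
      obtain ⟨c, hc⟩ := ih (p • x) hx'
      have hy : p • (x - ∑ i, c i • B (k + 1) i) = 0 := by
        rw [smul_sub, hc, Finset.smul_sum, sub_eq_zero]
        refine Finset.sum_congr rfl fun j _ => ?_
        rw [smul_comm, hsucc]
      obtain ⟨d, hd⟩ := hbs _ hy
      refine ⟨fun i => c i + d i * (p : ℤ) ^ k, ?_⟩
      have : x = ∑ i, c i • B (k + 1) i + ∑ i, d i • b i := by
        rw [← hd]; abel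
      rw [this, ← Finset.sum_add_distrib]
      refine Finset.sum_congr rfl fun j _ => ?_
      rw [add_smul, mul_smul, ← Nat.cast_pow, natCast_zsmul, hpow]

end compat

end Fermat.Agent.S59.H127

end
-- ===== PACK-END S59/H127/PDiv.lean

-- ===== PACK-BEGIN S05/XOnlyFormulas.lean
section



/-!
# x-only addition formulas for Mathlib's affine points on a Weierstrass curve

For a Weierstrass curve `W` over a field, with `twoF x = 4x³ + b₂x² + 2b₄x + b₆` and
`eta x y = 2y + a₁x + a₃` (so `eta² = twoF` on the curve), we prove, for affine points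
`P = (x₁, y₁)`, `Q = (x₂, y₂)` with `x₁ ≠ x₂`:

* `4 (x₁ - x₂)² x(P + Q) = 2 sumNum - 2 η₁ η₂`,
* `4 (x₁ - x₂)² x(P - Q) = 2 sumNum + 2 η₁ η₂`,
* `(x₁ - x₂)² (x(P + Q) + x(P - Q)) = sumNum`,
* `(x₁ - x₂)² (x(P + Q) x(P - Q)) = prodNum`,

and the duplication formula `twoF x * x(2P) = dupNum x`.
-/

set_option autoImplicit false

namespace Fermat.Agent.S05.XOnly

open WeierstrassCurve

variable {F : Type*} [Field F] (W : WeierstrassCurve.Affine F)

/-- `4x³ + b₂x² + 2b₄x + b₆`, the square of `2y + a₁x + a₃` on the curve. -/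
def twoF (x : F) : F := 4 * x ^ 3 + W.b₂ * x ^ 2 + 2 * W.b₄ * x + W.b₆

/-- `2y + a₁x + a₃`. -/
def eta (x y : F) : F := 2 * y + W.a₁ * x + W.a₃

/-- Numerator of `x(P+Q) + x(P-Q)`. -/
def sumNum (x₁ x₂ : F) : F :=
  2 * (x₁ + x₂) * (x₁ * x₂) + W.b₂ * (x₁ * x₂) + W.b₄ * (x₁ + x₂) + W.b₆

/-- Numerator of `x(P+Q) * x(P-Q)`. -/
def prodNum (x₁ x₂ : F) : F :=
  (x₁ * x₂) ^ 2 - W.b₄ * (x₁ * x₂) - W.b₆ * (x₁ + x₂) - W.b₈

/-- Numerator of `x(2P)`. -/
def dupNum (x : F) : F := x ^ 4 - W.b₄ * x ^ 2 - 2 * W.b₆ * x - W.b₈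

lemma eta_sq {x y : F} (h : W.Equation x y) : eta W x y ^ 2 = twoF W x := by
  rw [Affine.equation_iff] at h
  simp only [eta, twoF, WeierstrassCurve.b₂, WeierstrassCurve.b₄, WeierstrassCurve.b₆]
  linear_combination 4 * h

lemma eta_negY (x y : F) : eta W x (W.negY x y) = - eta W x y := by
  simp only [eta, Affine.negY]
  ring

lemma sumNum_sq_sub (x₁ x₂ : F) :
    sumNum W x₁ x₂ ^ 2 - twoF W x₁ * twoF W x₂ = 4 * (x₁ - x₂) ^ 2 * prodNum W x₁ x₂ := by
  have hb := W.b_relation
  simp only [sumNum, twoF, prodNum]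
  linear_combination ((x₁ - x₂) ^ 2) * hb

lemma eta_ne_zero_of_Y_ne {x y : F} (hy : y ≠ W.negY x y) : eta W x y ≠ 0 := by
  intro h0
  apply hy
  simp only [eta] at h0
  simp only [Affine.negY]
  linear_combination h0

lemma eta_eq_zero_of_Y_eq {x y : F} (hy : y = W.negY x y) : eta W x y = 0 := by
  simp only [Affine.negY] at hy
  simp only [eta]
  linear_combination hy

lemma Y_eq_negY_of_eta_eq_zero {x y : F} (h0 : eta W x y = 0) : y = W.negY x y := by
  by_contra hy
  exact eta_ne_zero_of_Y_ne W hy h0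

variable [DecidableEq F]

lemma addX_of_X_ne {x₁ x₂ y₁ y₂ : F} (hx : x₁ ≠ x₂) (h₁ : W.Equation x₁ y₁)
    (h₂ : W.Equation x₂ y₂) :
    4 * (x₁ - x₂) ^ 2 * W.addX x₁ x₂ (W.slope x₁ x₂ y₁ y₂) =
      2 * sumNum W x₁ x₂ - 2 * eta W x₁ y₁ * eta W x₂ y₂ := by
  rw [Affine.equation_iff] at h₁ h₂
  have hd : x₁ - x₂ ≠ 0 := sub_ne_zero.mpr hx
  rw [Affine.slope_of_X_ne hx]
  simp only [Affine.addX, sumNum, eta, WeierstrassCurve.b₂, WeierstrassCurve.b₄,
    WeierstrassCurve.b₆]
  field_simp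
  linear_combination 4 * h₁ + 4 * h₂

lemma addX_neg_of_X_ne {x₁ x₂ y₁ y₂ : F} (hx : x₁ ≠ x₂) (h₁ : W.Equation x₁ y₁)
    (h₂ : W.Equation x₂ y₂) :
    4 * (x₁ - x₂) ^ 2 * W.addX x₁ x₂ (W.slope x₁ x₂ y₁ (W.negY x₂ y₂)) =
      2 * sumNum W x₁ x₂ + 2 * eta W x₁ y₁ * eta W x₂ y₂ := by
  rw [addX_of_X_ne W hx h₁ ((Affine.equation_neg x₂ y₂).mpr h₂), eta_negY]
  ring

lemma slope_mul_eta {x y : F} (hy : y ≠ W.negY x y) :
    W.slope x x y y * eta W x y = 3 * x ^ 2 + 2 * W.a₂ * x + W.a₄ - W.a₁ * y := by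
  have hη : eta W x y ≠ 0 := eta_ne_zero_of_Y_ne W hy
  have h2 : y - W.negY x y = eta W x y := by
    simp only [eta, Affine.negY]; ring
  rw [Affine.slope_of_Y_ne rfl hy, h2, div_mul_cancel₀ _ hη]

lemma addX_of_Y_ne {x y : F} (h : W.Equation x y) (hy : y ≠ W.negY x y) :
    twoF W x * W.addX x x (W.slope x x y y) = dupNum W x := by
  have hℓ := slope_mul_eta W hy
  rw [← eta_sq W h]
  rw [Affine.equation_iff] at h
  generalize W.slope x x y y = ℓ at hℓ ⊢
  simp only [Affine.addX, dupNum, eta, WeierstrassCurve.b₄,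
    WeierstrassCurve.b₆, WeierstrassCurve.b₈] at hℓ ⊢
  linear_combination (ℓ * (2 * y + W.a₁ * x + W.a₃) + (3 * x ^ 2 + 2 * W.a₂ * x + W.a₄ - W.a₁ * y)
    + W.a₁ * (2 * y + W.a₁ * x + W.a₃)) * hℓ + (-(W.a₁ ^ 2 + 4 * W.a₂ + 8 * x)) * h

open WeierstrassCurve.Affine in
/-- Chord case: for affine points with distinct `x`-coordinates, both `P + Q` and `P - Q` are
affine and their `x`-coordinates are given by the classical formulas. -/
theorem add_sub_of_X_ne {x₁ x₂ y₁ y₂ : F} (h₁ : W.Nonsingular x₁ y₁) (h₂ : W.Nonsingular x₂ y₂)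
    (hx : x₁ ≠ x₂) :
    ∃ (xp yp xm ym : F) (hp : W.Nonsingular xp yp) (hm : W.Nonsingular xm ym),
      Point.some x₁ y₁ h₁ + Point.some x₂ y₂ h₂ = Point.some xp yp hp ∧
      Point.some x₁ y₁ h₁ - Point.some x₂ y₂ h₂ = Point.some xm ym hm ∧
      4 * (x₁ - x₂) ^ 2 * xp = 2 * sumNum W x₁ x₂ - 2 * eta W x₁ y₁ * eta W x₂ y₂ ∧
      4 * (x₁ - x₂) ^ 2 * xm = 2 * sumNum W x₁ x₂ + 2 * eta W x₁ y₁ * eta W x₂ y₂ := by
  refine ⟨_, _, _, _, nonsingular_add h₁ h₂ fun hxy => hx hxy.left,
    nonsingular_add h₁ ((nonsingular_neg ..).mpr h₂) fun hxy => hx hxy.left,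
    Point.add_of_X_ne hx, ?_, addX_of_X_ne W hx h₁.1 h₂.1, addX_neg_of_X_ne W hx h₁.1 h₂.1⟩
  rw [sub_eq_add_neg, Point.neg_some, Point.add_of_X_ne hx]

omit [DecidableEq F] in
/-- Sum and product of the `x`-coordinates of `P ± Q` (characteristic `≠ 2`). -/
theorem sum_prod_of_add_sub {x₁ x₂ y₁ y₂ xp xm : F} (h2 : (2 : F) ≠ 0)
    (h₁ : W.Equation x₁ y₁) (h₂ : W.Equation x₂ y₂)
    (hp : 4 * (x₁ - x₂) ^ 2 * xp = 2 * sumNum W x₁ x₂ - 2 * eta W x₁ y₁ * eta W x₂ y₂)
    (hm : 4 * (x₁ - x₂) ^ 2 * xm = 2 * sumNum W x₁ x₂ + 2 * eta W x₁ y₁ * eta W x₂ y₂) :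
    (x₁ - x₂) ^ 2 * (xp + xm) = sumNum W x₁ x₂ ∧
      (x₁ - x₂) ^ 2 * ((x₁ - x₂) ^ 2 * (xp * xm)) = (x₁ - x₂) ^ 2 * prodNum W x₁ x₂ := by
  have h4 : (4 : F) ≠ 0 := by
    have : (4 : F) = 2 * 2 := by norm_num
    rw [this]; exact mul_ne_zero h2 h2
  have e₁ := eta_sq W h₁
  have e₂ := eta_sq W h₂
  have hs := sumNum_sq_sub W x₁ x₂
  constructor
  · apply mul_left_cancel₀ h4
    linear_combination hp + hm
  · apply mul_left_cancel₀ h4
    apply mul_left_cancel₀ h4
    linear_combination hp * (4 * (x₁ - x₂) ^ 2 * xm) +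
      (2 * sumNum W x₁ x₂ - 2 * eta W x₁ y₁ * eta W x₂ y₂) * hm + 4 * hs
      - 4 * eta W x₂ y₂ ^ 2 * e₁ - 4 * twoF W x₁ * e₂

open WeierstrassCurve.Affine in
/-- Tangent case: if `2y + a₁x + a₃ ≠ 0` then `P + P` is affine with `x`-coordinate
`dupNum / twoF`. -/
theorem add_self_of_eta_ne {x y : F} (h : W.Nonsingular x y) (hη : eta W x y ≠ 0) :
    ∃ (x' y' : F) (h' : W.Nonsingular x' y'),
      Point.some x y h + Point.some x y h = Point.some x' y' h' ∧
      twoF W x * x' = dupNum W x := by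
  have hy : y ≠ W.negY x y := fun hy => hη (eta_eq_zero_of_Y_eq W hy)
  exact ⟨_, _, nonsingular_add h h fun hxy => hy hxy.right, Point.add_self_of_Y_ne hy,
    addX_of_Y_ne W h.1 hy⟩

end Fermat.Agent.S05.XOnly

end
-- ===== PACK-END S05/XOnlyFormulas.lean

-- ===== PACK-BEGIN Lib/FrobRel/H230Translate.lean
section


/-!
# Translation automorphisms of the function field of a Weierstrass curve (helper230)

Setting: `W` a Weierstrass curve over a commutative ring `R`, `k` a field over `R` with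
`(W⁄k).Δ ≠ 0`, `FF W k = (W⁄k).FunctionField`, `P₀ = (x, y)` the tautological ("generic")
point of `W` over `FF W k`.

* `sigma`: for a field `L` over `k` and a point `(x', y')` of `W` over `L` with `x'`
  transcendental over `k`, the `k`-algebra homomorphism `FF W k →ₐ[k] L` sending the generic
  point to `(x', y')`.
* `exists_translation`: if `κ` is algebraically closed, then for every `T : (W⁄κ).Point` there is
  a `κ`-algebra endomorphism `σ` of `FF W κ` with `Point.map σ P₀ = P₀ + T`.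
* `eq_zero_of_generic_const`: a family of additive endomorphisms of the points of `W` that
  commutes with `Point.map` and sends the generic point to a constant point vanishes on every
  `κ`-point.
-/

open WeierstrassCurve Polynomial
open scoped Polynomial.Bivariate WeierstrassCurve.Affine

namespace Fermat.Agent.Lib.FrobRel.H230

universe u v w

variable {R : Type u} [CommRing R] (W : WeierstrassCurve R) (k : Type v) [Field k] [Algebra R k]

/-- The function field of `W` over `k`. -/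
abbrev FF : Type v := (W⁄k).FunctionField

/-- The coordinate ring of `W` over `k`. -/
abbrev CR : Type v := (W⁄k).CoordinateRing

/-- The `x`-coordinate of the generic point. -/
noncomputable def gx : FF W k :=
  algebraMap (CR W k) (FF W k) (Affine.CoordinateRing.mk (W⁄k) (C X))

/-- The `y`-coordinate of the generic point. -/
noncomputable def gy : FF W k :=
  algebraMap (CR W k) (FF W k) (Affine.CoordinateRing.mk (W⁄k) Y)

lemma algebraMap_FF_eq (c : k) :
    algebraMap k (FF W k) c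
      = algebraMap (CR W k) (FF W k) (Affine.CoordinateRing.mk (W⁄k) (C (C c))) := by
  rw [IsScalarTower.algebraMap_apply k (CR W k) (FF W k)]
  rfl

/-- The Weierstrass relation in the coordinate ring. -/
lemma mk_relation :
    (Affine.CoordinateRing.mk (W⁄k) Y) ^ 2
      + Affine.CoordinateRing.mk (W⁄k) (C (C ((W⁄k).a₁))) * Affine.CoordinateRing.mk (W⁄k) (C X)
          * Affine.CoordinateRing.mk (W⁄k) Y
      + Affine.CoordinateRing.mk (W⁄k) (C (C ((W⁄k).a₃))) * Affine.CoordinateRing.mk (W⁄k) Y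
    = (Affine.CoordinateRing.mk (W⁄k) (C X)) ^ 3
      + Affine.CoordinateRing.mk (W⁄k) (C (C ((W⁄k).a₂)))
          * (Affine.CoordinateRing.mk (W⁄k) (C X)) ^ 2
      + Affine.CoordinateRing.mk (W⁄k) (C (C ((W⁄k).a₄))) * Affine.CoordinateRing.mk (W⁄k) (C X)
      + Affine.CoordinateRing.mk (W⁄k) (C (C ((W⁄k).a₆))) := by
  have h : Affine.CoordinateRing.mk (W⁄k)
      (Y ^ 2 + C (C (W⁄k).a₁ * X + C (W⁄k).a₃) * Y
        - C (X ^ 3 + C (W⁄k).a₂ * X ^ 2 + C (W⁄k).a₄ * X + C (W⁄k).a₆)) = 0 :=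
    AdjoinRoot.mk_self
  simp only [map_add, map_sub, map_mul, map_pow] at h
  rw [← sub_eq_zero]
  rw [← h]
  ring

/-! ### Coefficients of base changes along a tower -/

section Tower

variable {k}
variable (L : Type w) [Field L] [Algebra R L] [Algebra k L] [IsScalarTower R k L]

lemma algebraMap_tower (c : R) : algebraMap R L c = algebraMap k L (algebraMap R k c) :=
  IsScalarTower.algebraMap_apply R k L c

lemma baseChange_a₁ : (W⁄L).a₁ = algebraMap k L (W⁄k).a₁ := algebraMap_tower L W.a₁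

lemma baseChange_a₂ : (W⁄L).a₂ = algebraMap k L (W⁄k).a₂ := algebraMap_tower L W.a₂

lemma baseChange_a₃ : (W⁄L).a₃ = algebraMap k L (W⁄k).a₃ := algebraMap_tower L W.a₃

lemma baseChange_a₄ : (W⁄L).a₄ = algebraMap k L (W⁄k).a₄ := algebraMap_tower L W.a₄

lemma baseChange_a₆ : (W⁄L).a₆ = algebraMap k L (W⁄k).a₆ := algebraMap_tower L W.a₆

lemma baseChange_eq_map : (W⁄L) = (W⁄k).map (algebraMap k L) :=
  (Affine.map_baseChange (R := R) (S := k) (A := k) (B := L) W (Algebra.ofId k L)).symm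

lemma baseChange_Δ_ne_zero (hΔ : (W⁄k).Δ ≠ 0) : (W⁄L).Δ ≠ 0 := by
  rw [baseChange_eq_map (k := k)]
  show (WeierstrassCurve.map (W⁄k) (algebraMap k L)).Δ ≠ 0
  rw [WeierstrassCurve.map_Δ]
  exact (map_ne_zero_iff _ (algebraMap k L).injective).mpr hΔ

end Tower

/-! ### The generic point -/

lemma generic_equation : (W⁄(FF W k)).Equation (gx W k) (gy W k) := by
  rw [Affine.equation_iff]
  have h := congrArg (algebraMap (CR W k) (FF W k)) (mk_relation W k)
  simp only [map_add, map_mul, map_pow, ← algebraMap_FF_eq] at h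
  rw [baseChange_a₁ (k := k), baseChange_a₂ (k := k), baseChange_a₃ (k := k),
    baseChange_a₄ (k := k), baseChange_a₆ (k := k)]
  exact h

lemma gx_eq_algebraMap_X : gx W k = algebraMap k[X] (FF W k) X := by
  rw [IsScalarTower.algebraMap_apply k[X] (CR W k) (FF W k)]
  rfl

lemma algebraMap_poly_FF_injective : Function.Injective (algebraMap k[X] (FF W k)) := by
  rw [IsScalarTower.algebraMap_eq k[X] (CR W k) (FF W k)]
  exact (IsFractionRing.injective (CR W k) (FF W k)).comp
    (FaithfulSMul.algebraMap_injective k[X] (CR W k))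

/-- The `x`-coordinate of the generic point is transcendental over the base field. -/
lemma gx_transcendental : Transcendental k (gx W k) := by
  rw [gx_eq_algebraMap_X]
  exact (transcendental_algebraMap_iff (algebraMap_poly_FF_injective W k)).mpr
    (Polynomial.transcendental_X k)

/-- The `x`-coordinate of the generic point is not a constant. -/
lemma gx_not_const (c : k) : gx W k ≠ algebraMap k (FF W k) c := by
  intro h
  exact gx_transcendental W k (h ▸ isAlgebraic_algebraMap c)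

lemma generic_nonsingular (hΔ : (W⁄k).Δ ≠ 0) :
    (W⁄(FF W k)).Nonsingular (gx W k) (gy W k) :=
  (Affine.equation_iff_nonsingular_of_Δ_ne_zero (baseChange_Δ_ne_zero W (FF W k) hΔ)).mp
    (generic_equation W k)

/-- The generic point of `W` over the function field of `W⁄k`. -/
noncomputable def genericPoint (hΔ : (W⁄k).Δ ≠ 0) : (W⁄(FF W k)).Point :=
  Affine.Point.some (gx W k) (gy W k) (generic_nonsingular W k hΔ)

/-! ### The homomorphism attached to a point with transcendental `x`-coordinate -/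

section Lift

variable {W}
variable {L : Type w} [Field L] [Algebra R L] [Algebra k L] [IsScalarTower R k L]
variable {x' y' : L}

lemma eval₂_polynomial_eq_zero (heq : (W⁄L).Equation x' y') :
    ((W⁄k).polynomial).eval₂ ((Polynomial.aeval x' : k[X] →ₐ[k] L) : k[X] →+* L) y' = 0 := by
  rw [Affine.equation_iff] at heq
  rw [baseChange_a₁ (k := k), baseChange_a₂ (k := k), baseChange_a₃ (k := k),
    baseChange_a₄ (k := k), baseChange_a₆ (k := k)] at heq
  show (Y ^ 2 + C (C (W⁄k).a₁ * X + C (W⁄k).a₃) * Y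
        - C (X ^ 3 + C (W⁄k).a₂ * X ^ 2 + C (W⁄k).a₄ * X + C (W⁄k).a₆) : k[X][Y]).eval₂
      ((Polynomial.aeval x' : k[X] →ₐ[k] L) : k[X] →+* L) y' = 0
  simp only [eval₂_add, eval₂_sub, eval₂_mul, eval₂_pow, eval₂_X, eval₂_C, RingHom.coe_coe,
    map_add, map_mul, map_pow, aeval_X, aeval_C]
  linear_combination heq

/-- The `k`-algebra homomorphism from the coordinate ring sending `(X, Y)` to `(x', y')`. -/
noncomputable def liftCR (heq : (W⁄L).Equation x' y') : CR W k →ₐ[k] L :=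
  AdjoinRoot.liftAlgHom (W⁄k).polynomial (Polynomial.aeval x' : k[X] →ₐ[k] L) y'
    (eval₂_polynomial_eq_zero k heq)

lemma liftCR_mk (heq : (W⁄L).Equation x' y') (f : k[X][Y]) :
    liftCR k heq (Affine.CoordinateRing.mk (W⁄k) f)
      = f.eval₂ ((Polynomial.aeval x' : k[X] →ₐ[k] L) : k[X] →+* L) y' :=
  AdjoinRoot.liftAlgHom_mk _ _ _ _ f

lemma liftCR_C (heq : (W⁄L).Equation x' y') (p : k[X]) :
    liftCR k heq (Affine.CoordinateRing.mk (W⁄k) (C p)) = Polynomial.aeval x' p := by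
  rw [liftCR_mk, eval₂_C]; rfl

lemma liftCR_X (heq : (W⁄L).Equation x' y') :
    liftCR k heq (Affine.CoordinateRing.mk (W⁄k) (C X)) = x' := by
  rw [liftCR_C, aeval_X]

lemma liftCR_Y (heq : (W⁄L).Equation x' y') :
    liftCR k heq (Affine.CoordinateRing.mk (W⁄k) Y) = y' := by
  rw [liftCR_mk, eval₂_X]

lemma liftCR_injective (heq : (W⁄L).Equation x' y') (hx : Transcendental k x') :
    Function.Injective (liftCR k heq) := by
  rw [injective_iff_map_eq_zero]
  intro z hz
  obtain ⟨p, q, rfl⟩ := Affine.CoordinateRing.exists_smul_basis_eq z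
  by_contra hne
  have : Module.Finite k[X] (CR W k) :=
    Module.Finite.of_basis (Affine.CoordinateRing.basis (W⁄k))
  have hN : Algebra.norm k[X] (p • (1 : CR W k) + q • Affine.CoordinateRing.mk (W⁄k) Y) ≠ 0 :=
    Algebra.norm_ne_zero_iff.mpr hne
  have hcoe := Affine.CoordinateRing.coe_norm_smul_basis (W' := W⁄k) p q
  have hfac : Affine.CoordinateRing.mk (W⁄k) (C p + C q * Y)
      = p • (1 : CR W k) + q • Affine.CoordinateRing.mk (W⁄k) Y := by
    simp only [Affine.CoordinateRing.smul, map_add, map_mul, mul_one]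
  have h0 : Polynomial.aeval x'
      (Algebra.norm k[X] (p • (1 : CR W k) + q • Affine.CoordinateRing.mk (W⁄k) Y)) = 0 := by
    rw [← liftCR_C k heq]
    have h1 : Affine.CoordinateRing.mk (W⁄k) (C (Algebra.norm k[X]
        (p • (1 : CR W k) + q • Affine.CoordinateRing.mk (W⁄k) Y)))
        = Affine.CoordinateRing.mk (W⁄k) ((C p + C q * X) *
            (C p + C q * (-(Y : k[X][Y]) - C (C (W⁄k).a₁ * X + C (W⁄k).a₃)))) := hcoe
    rw [h1, map_mul, map_mul, hfac, hz, zero_mul]
  exact hx ⟨_, hN, h0⟩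

/-- The `k`-algebra homomorphism from the function field of `W⁄k` to `L` sending the generic
point `(x, y)` to a point `(x', y')` with `x'` transcendental over `k`. -/
noncomputable def sigma (heq : (W⁄L).Equation x' y') (hx : Transcendental k x') :
    FF W k →ₐ[k] L :=
  IsFractionRing.liftAlgHom (g := liftCR k heq) (liftCR_injective k heq hx)

lemma sigma_gx (heq : (W⁄L).Equation x' y') (hx : Transcendental k x') :
    sigma k heq hx (gx W k) = x' := by
  rw [sigma, IsFractionRing.liftAlgHom_apply, gx, IsFractionRing.lift_algebraMap]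
  exact liftCR_X k heq

lemma sigma_gy (heq : (W⁄L).Equation x' y') (hx : Transcendental k x') :
    sigma k heq hx (gy W k) = y' := by
  rw [sigma, IsFractionRing.liftAlgHom_apply, gy, IsFractionRing.lift_algebraMap]
  exact liftCR_Y k heq

/-- `Point.map (sigma ..)` sends the generic point to the given point. -/
lemma map_sigma_genericPoint [DecidableEq (FF W k)] [DecidableEq L] (hΔ : (W⁄k).Δ ≠ 0)
    (h : (W⁄L).Nonsingular x' y') (hx : Transcendental k x') :
    Affine.Point.map (W' := W) (sigma k h.1 hx) (genericPoint W k hΔ)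
      = Affine.Point.some x' y' h := by
  rw [genericPoint, Affine.Point.map_some]
  congr 1
  · exact sigma_gx k h.1 hx
  · exact sigma_gy k h.1 hx

end Lift

/-! ### Algebraically closed base field: constant points -/

section AlgClosed

variable (κ : Type v) [Field κ] [Algebra R κ]
variable {L : Type w} [Field L] [Algebra R L] [Algebra κ L] [IsScalarTower R κ L]

lemma mem_range_of_isAlgebraic [IsAlgClosed κ] {x' : L} (halg : IsAlgebraic κ x') :
    ∃ c : κ, x' = algebraMap κ L c := by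
  have hint : IsIntegral κ x' := halg.isIntegral
  have hdeg := IsAlgClosed.degree_eq_one_of_irreducible κ (minpoly.irreducible hint)
  obtain ⟨c, hc⟩ := minpoly.mem_range_of_degree_eq_one κ x' hdeg
  exact ⟨c, hc.symm⟩

lemma transcendental_of_not_const [IsAlgClosed κ] {x' : L}
    (hx : ∀ c : κ, x' ≠ algebraMap κ L c) : Transcendental κ x' := by
  intro halg
  obtain ⟨c, hc⟩ := mem_range_of_isAlgebraic κ halg
  exact hx c hc

lemma exists_y_const [IsAlgClosed κ] {x' y' : L} (h : (W⁄L).Equation x' y') (c : κ)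
    (hc : x' = algebraMap κ L c) : ∃ d : κ, y' = algebraMap κ L d := by
  rw [Affine.equation_iff] at h
  set u : κ := (W⁄κ).a₁ * c + (W⁄κ).a₃ with hu
  set v : κ := c ^ 3 + (W⁄κ).a₂ * c ^ 2 + (W⁄κ).a₄ * c + (W⁄κ).a₆ with hv
  obtain ⟨d, hd⟩ : ∃ d : κ, d ^ 2 + u * d - v = 0 := by
    have hdeg : (X ^ 2 + C u * X - C v : κ[X]).degree ≠ 0 := by
      have : (X ^ 2 + C u * X - C v : κ[X]).degree = 2 := by
        compute_degree!
      rw [this]; decide
    obtain ⟨d, hd⟩ := IsAlgClosed.exists_root (X ^ 2 + C u * X - C v : κ[X]) hdeg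
    exact ⟨d, by simpa using hd⟩
  have hprod : (y' - algebraMap κ L d) * (y' + algebraMap κ L (u + d)) = 0 := by
    have hd' := congrArg (algebraMap κ L) hd
    simp only [map_add, map_sub, map_mul, map_pow, map_zero, hu, hv] at hd' ⊢
    rw [baseChange_a₁ (k := κ), baseChange_a₂ (k := κ), baseChange_a₃ (k := κ),
      baseChange_a₄ (k := κ), baseChange_a₆ (k := κ), hc] at h
    linear_combination h - hd'
  rcases mul_eq_zero.mp hprod with h1 | h1
  · exact ⟨d, sub_eq_zero.mp h1⟩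
  · exact ⟨-(u + d), by rw [map_neg]; exact eq_neg_of_add_eq_zero_left h1⟩

end AlgClosed

/-! ### Translation automorphisms -/

section Translation

variable (κ : Type v) [Field κ] [Algebra R κ] [DecidableEq κ] [DecidableEq (FF W κ)]

/-- The base change map on points from `κ` to the function field. -/
noncomputable abbrev bc : (W⁄κ).Point →+ (W⁄(FF W κ)).Point :=
  Affine.Point.baseChange (W' := W) κ (FF W κ)

lemma bc_some {c d : κ} (h : (W⁄κ).Nonsingular c d) :
    bc W κ (Affine.Point.some c d h)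
      = Affine.Point.some (algebraMap κ (FF W κ) c) (algebraMap κ (FF W κ) d)
          ((Affine.baseChange_nonsingular (W := W) (f := Algebra.ofId κ (FF W κ))
            (Algebra.ofId κ (FF W κ)).injective c d).mpr h) :=
  rfl

lemma bc_injective : Function.Injective (bc W κ) :=
  Affine.Point.map_injective (W' := W) (Algebra.ofId κ (FF W κ))

lemma exists_of_x_const [IsAlgClosed κ] {x' y' : FF W κ}
    (h : (W⁄(FF W κ)).Nonsingular x' y') (c : κ) (hc : x' = algebraMap κ (FF W κ) c) :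
    ∃ T : (W⁄κ).Point, Affine.Point.some x' y' h = bc W κ T := by
  obtain ⟨d, hd⟩ := exists_y_const W κ h.1 c hc
  subst hc hd
  have h' : (W⁄κ).Nonsingular c d :=
    (Affine.baseChange_nonsingular (W := W) (f := Algebra.ofId κ (FF W κ))
      (Algebra.ofId κ (FF W κ)).injective c d).mp h
  exact ⟨Affine.Point.some c d h', rfl⟩

/-- The generic point is not a constant point. -/
lemma generic_ne_bc (hΔ : (W⁄κ).Δ ≠ 0) (T : (W⁄κ).Point) : genericPoint W κ hΔ ≠ bc W κ T := by
  rcases T with _ | ⟨c, d, hcd⟩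
  · intro h
    exact Affine.Point.some_ne_zero _ h
  · intro h
    rw [bc_some, genericPoint] at h
    have := (Affine.Point.some.injEq ..).mp h
    exact gx_not_const W κ c this.1

/-- The translate of the generic point by a constant point is an affine point whose
`x`-coordinate is not constant. -/
lemma generic_add_bc [IsAlgClosed κ] (hΔ : (W⁄κ).Δ ≠ 0) (T : (W⁄κ).Point) :
    ∃ (x' y' : FF W κ) (h : (W⁄(FF W κ)).Nonsingular x' y'),
      genericPoint W κ hΔ + bc W κ T = Affine.Point.some x' y' h ∧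
      ∀ c : κ, x' ≠ algebraMap κ (FF W κ) c := by
  rcases hQ : genericPoint W κ hΔ + bc W κ T with _ | ⟨x', y', h⟩
  · exfalso
    have h0 : genericPoint W κ hΔ + bc W κ T = 0 := hQ
    have : genericPoint W κ hΔ = bc W κ (-T) := by
      rw [map_neg]
      exact eq_neg_of_add_eq_zero_left h0
    exact generic_ne_bc W κ hΔ _ this
  · refine ⟨x', y', h, rfl, fun c hc => ?_⟩
    obtain ⟨Q₀, hQ₀⟩ := exists_of_x_const W κ h c hc
    have : genericPoint W κ hΔ = bc W κ (Q₀ - T) := by
      rw [map_sub, ← hQ₀, ← hQ, add_sub_cancel_right]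
    exact generic_ne_bc W κ hΔ _ this

variable [IsAlgClosed κ]

/-- **Translation automorphism.** For every `κ`-point `T` there is a `κ`-algebra endomorphism
`σ` of the function field such that `σ` maps the generic point `P₀` to `P₀ + T`. -/
theorem exists_translation (hΔ : (W⁄κ).Δ ≠ 0) (T : (W⁄κ).Point) :
    ∃ σ : FF W κ →ₐ[κ] FF W κ,
      Affine.Point.map (W' := W) σ (genericPoint W κ hΔ) = genericPoint W κ hΔ + bc W κ T := by
  obtain ⟨x', y', h, hQ, hx⟩ := generic_add_bc W κ hΔ T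
  exact ⟨sigma κ h.1 (transcendental_of_not_const κ hx),
    (map_sigma_genericPoint κ hΔ h _).trans hQ.symm⟩

/-- **Generic to all points (abstract form).** Let `ψK`, `ψκ` be additive endomorphisms of the
points of `W` over the function field and over `κ`, such that `ψK` commutes with `Point.map σ`
for every `κ`-algebra endomorphism `σ` of the function field, and `ψK` restricts to `ψκ` on
constant points. If `ψK` sends the generic point to a constant point, then `ψκ = 0`. -/
theorem eq_zero_of_generic_const (hΔ : (W⁄κ).Δ ≠ 0)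
    (ψK : (W⁄(FF W κ)).Point →+ (W⁄(FF W κ)).Point) (ψκ : (W⁄κ).Point →+ (W⁄κ).Point)
    (hnat : ∀ (σ : FF W κ →ₐ[κ] FF W κ) (P : (W⁄(FF W κ)).Point),
      ψK (Affine.Point.map (W' := W) σ P) = Affine.Point.map (W' := W) σ (ψK P))
    (hbc : ∀ T : (W⁄κ).Point, ψK (bc W κ T) = bc W κ (ψκ T))
    (C : (W⁄κ).Point) (hC : ψK (genericPoint W κ hΔ) = bc W κ C) (T : (W⁄κ).Point) :
    ψκ T = 0 := by
  obtain ⟨σ, hσ⟩ := exists_translation W κ hΔ T
  have h1 : ψK (genericPoint W κ hΔ + bc W κ T) = ψK (genericPoint W κ hΔ) := by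
    rw [← hσ, hnat, hC]
    exact Affine.Point.map_baseChange (W' := W) σ C
  rw [map_add, hbc] at h1
  have h2 : bc W κ (ψκ T) = 0 := by
    have := congrArg (fun P => P - ψK (genericPoint W κ hΔ)) h1
    simpa using this
  exact bc_injective W κ (h2.trans (map_zero _).symm)

end Translation

end Fermat.Agent.Lib.FrobRel.H230

end
-- ===== PACK-END Lib/FrobRel/H230Translate.lean

-- ===== PACK-BEGIN S52/H297/Hgt.lean
section


/-!
# Height (degree) of a rational function, and its multiplicativity under composition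

`hgt g = max (natDegree g.num) (natDegree g.denom)`.

Main results:
* `hgt_div_of_isCoprime` : for coprime `p q`, `q ≠ 0`, `hgt (p / q) = max (deg p) (deg q)`.
* `hgt_eq_finrank` : `hgt g = [K(X) : K(g)]` (Mathlib's `RatFunc.finrank_eq_max_natDegree`).
* `subst S hS` : the `K`-algebra endomorphism `X ↦ S` of `K(X)` for a non-constant `S`.
* `hgt_subst` : `hgt (subst S hS R) = hgt R * hgt S`.
* `hgt_aeval_div` : for coprime polynomials `N D`, `D ≠ 0` and non-constant `S`:
  `hgt (N(S) / D(S)) = max (deg N) (deg D) * hgt S`.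
-/

set_option autoImplicit false

open Polynomial

namespace Fermat.Agent.S52.H297

variable {K : Type*} [Field K]

/-- The height of a rational function: the maximum of the degrees of numerator and denominator
(in lowest terms). -/
noncomputable def hgt (g : RatFunc K) : ℕ := max g.num.natDegree g.denom.natDegree

lemma hgt_eq_finrank (g : RatFunc K) :
    hgt g = Module.finrank (IntermediateField.adjoin K {g}) (RatFunc K) :=
  (RatFunc.finrank_eq_max_natDegree g).symm

lemma hgt_C (c : K) : hgt (RatFunc.C c : RatFunc K) = 0 := by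
  simp [hgt]

lemma hgt_X : hgt (RatFunc.X : RatFunc K) = 1 := by
  simp [hgt]

/-- Height of a quotient of coprime polynomials. -/
lemma hgt_div_of_isCoprime {p q : K[X]} (hq : q ≠ 0) (h : IsCoprime p q) :
    hgt (algebraMap K[X] (RatFunc K) p / algebraMap K[X] (RatFunc K) q) =
      max p.natDegree q.natDegree := by
  classical
  have hg : gcd p q = 1 := by
    have h1 : IsUnit (gcd p q) := by
      rw [← gcd_isUnit_iff] at h
      exact h
    have h2 := normalize_gcd p q
    rw [← h2]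
    exact normalize_eq_one.mpr h1
  have hlc : (q.leadingCoeff)⁻¹ ≠ 0 := inv_ne_zero (leadingCoeff_ne_zero.mpr hq)
  unfold hgt
  rw [RatFunc.num_div, RatFunc.denom_div _ hq, hg, EuclideanDomain.div_one,
    EuclideanDomain.div_one, natDegree_C_mul hlc, natDegree_C_mul hlc]

lemma transcendental_of_hgt_ne_zero {S : RatFunc K} (hS : hgt S ≠ 0) :
    Transcendental K S := by
  apply RatFunc.transcendental_of_ne_C
  rintro ⟨c, rfl⟩
  exact hS (hgt_C c)

/-- Substitution `X ↦ S` as a `K`-algebra endomorphism of `K(X)` (for non-constant `S`). -/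
noncomputable def subst (S : RatFunc K) (hS : hgt S ≠ 0) : RatFunc K →ₐ[K] RatFunc K :=
  RatFunc.liftAlgHom (Polynomial.aeval S)
    (nonZeroDivisors_le_comap_nonZeroDivisors_of_injective _
      ((transcendental_iff_injective).mp (transcendental_of_hgt_ne_zero hS)))

lemma subst_algebraMap (S : RatFunc K) (hS : hgt S ≠ 0) (p : K[X]) :
    subst S hS (algebraMap K[X] (RatFunc K) p) = Polynomial.aeval S p := by
  have := RatFunc.liftAlgHom_apply_div (Polynomial.aeval S)
    (nonZeroDivisors_le_comap_nonZeroDivisors_of_injective _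
      ((transcendental_iff_injective).mp (transcendental_of_hgt_ne_zero hS))) p 1
  simpa [subst] using this

lemma subst_X (S : RatFunc K) (hS : hgt S ≠ 0) : subst S hS RatFunc.X = S := by
  have := subst_algebraMap S hS (Polynomial.X)
  simpa using this

lemma subst_div (S : RatFunc K) (hS : hgt S ≠ 0) (p q : K[X]) :
    subst S hS (algebraMap K[X] (RatFunc K) p / algebraMap K[X] (RatFunc K) q) =
      Polynomial.aeval S p / Polynomial.aeval S q := by
  rw [map_div₀, subst_algebraMap, subst_algebraMap]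

/-- **Multiplicativity of the height under composition.** -/
theorem hgt_subst (R S : RatFunc K) (hS : hgt S ≠ 0) :
    hgt (subst S hS R) = hgt R * hgt S := by
  set φ := subst S hS with hφ
  -- the three intermediate fields `K(φ R) ≤ K(S) ≤ ⊤`
  have hmapR : (IntermediateField.adjoin K {R}).map φ = IntermediateField.adjoin K {φ R} := by
    rw [IntermediateField.adjoin_map]; simp
  have hmapTop : (⊤ : IntermediateField K (RatFunc K)).map φ = IntermediateField.adjoin K {S} := by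
    rw [← RatFunc.adjoin_X, IntermediateField.adjoin_map]; simp [hφ, subst_X]
  have hle : IntermediateField.adjoin K {φ R} ≤ IntermediateField.adjoin K {S} := by
    rw [← hmapR, ← hmapTop]
    exact IntermediateField.map_mono φ le_top
  have h1 : IntermediateField.relfinrank (IntermediateField.adjoin K {φ R})
      (IntermediateField.adjoin K {S}) = hgt R := by
    rw [← hmapR, ← hmapTop, IntermediateField.relfinrank_map_map,
      IntermediateField.relfinrank_top_right, hgt_eq_finrank]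
  have h2 : IntermediateField.relfinrank (IntermediateField.adjoin K {S}) ⊤ = hgt S := by
    rw [IntermediateField.relfinrank_top_right, hgt_eq_finrank]
  have h3 := IntermediateField.relfinrank_mul_relfinrank hle
    (le_top : IntermediateField.adjoin K {S} ≤ ⊤)
  rw [h1, h2, IntermediateField.relfinrank_top_right, ← hgt_eq_finrank] at h3
  exact h3.symm

/-- Height of `N(S)/D(S)` for coprime polynomials `N`, `D` and a non-constant `S`. -/
theorem hgt_aeval_div {N D : K[X]} (hD : D ≠ 0) (hND : IsCoprime N D) (S : RatFunc K)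
    (hS : hgt S ≠ 0) :
    hgt (Polynomial.aeval S N / Polynomial.aeval S D) =
      max N.natDegree D.natDegree * hgt S := by
  rw [← subst_div S hS, hgt_subst, hgt_div_of_isCoprime hD hND]

/-- General version: height of `N(S)/D(S)` for arbitrary polynomials `N`, `D ≠ 0`, in terms of the
height of the rational function `N/D`. -/
theorem hgt_aeval_div' (N D : K[X]) (S : RatFunc K) (hS : hgt S ≠ 0) :
    hgt (Polynomial.aeval S N / Polynomial.aeval S D) =
      hgt (algebraMap K[X] (RatFunc K) N / algebraMap K[X] (RatFunc K) D) * hgt S := by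
  rw [← subst_div S hS, hgt_subst]

end Fermat.Agent.S52.H297

end
-- ===== PACK-END S52/H297/Hgt.lean

-- ===== PACK-BEGIN Lib/Frob/A2/H720/AddSub.lean
section


/-!
# S52 / piece A2a (helper720): `addSubMap` really computes `x(P+Q)`, `x(P-Q)`

For points `P`, `Q` on an elliptic curve `W` over a field, the vector
`addSubMap W (sym2x P Q)` is a nonzero multiple of `sym2x (P + Q) (P - Q)`, i.e.
`(x(P) x(Q) : x(P) + x(Q) : 1) ↦ (x(P+Q) x(P-Q) : x(P+Q) + x(P-Q) : 1)` projectively, in ALL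
cases (including `P = O`, `Q = O`, `P = ± Q`, 2-torsion).  This is the TODO of Mathlib's
`Mathlib/AlgebraicGeometry/EllipticCurve/Affine/AddSubMap.lean`.

The three x-coordinate identities used are those of `Fermat/Agent/S05/XId.lean` (helper845),
repeated here under fresh names so that this file only depends on Mathlib.
-/

set_option autoImplicit false

namespace Fermat.Agent.Lib.Frob.A2.H720

open WeierstrassCurve WeierstrassCurve.Affine

section Eval

variable {R : Type*} [CommRing R] (W : WeierstrassCurve R)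

lemma eval_addSubMap_zero (x : Fin 3 → R) : MvPolynomial.eval x (W.addSubMap 0)
    = x 0 ^ 2 - W.b₄ * x 0 * x 2 - W.b₆ * x 1 * x 2 - W.b₈ * x 2 ^ 2 := by
  simp [WeierstrassCurve.addSubMap]

lemma eval_addSubMap_one (x : Fin 3 → R) : MvPolynomial.eval x (W.addSubMap 1)
    = 2 * x 1 * x 0 + W.b₂ * x 0 * x 2 + W.b₄ * x 1 * x 2 + W.b₆ * x 2 ^ 2 := by
  simp [WeierstrassCurve.addSubMap]

lemma eval_addSubMap_two (x : Fin 3 → R) : MvPolynomial.eval x (W.addSubMap 2)
    = x 1 ^ 2 - 4 * x 0 * x 2 := by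
  simp [WeierstrassCurve.addSubMap]

end Eval

variable {L : Type*} [Field L] (W : Affine L)

/-- numerator of `x(P+Q) + x(P-Q)` -/
def xSumNum (x₁ x₂ : L) : L :=
  2 * x₁ * x₂ * (x₁ + x₂) + W.b₂ * x₁ * x₂ + W.b₄ * (x₁ + x₂) + W.b₆

/-- numerator of `x(P+Q) * x(P-Q)` -/
def xProdNum (x₁ x₂ : L) : L :=
  x₁ ^ 2 * x₂ ^ 2 - W.b₄ * x₁ * x₂ - W.b₆ * (x₁ + x₂) - W.b₈

/-- denominator of the duplication formula -/
def xDblDen (x : L) : L :=
  4 * x ^ 3 + W.b₂ * x ^ 2 + 2 * W.b₄ * x + W.b₆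

/-- numerator of the duplication formula -/
def xDblNum (x : L) : L :=
  x ^ 4 - W.b₄ * x ^ 2 - 2 * W.b₆ * x - W.b₈

lemma addX_div_aux (x₁ x₂ n d : L) (hd : d ≠ 0) :
    d ^ 2 * W.addX x₁ x₂ (n / d) = n ^ 2 + W.a₁ * d * n - (W.a₂ + x₁ + x₂) * d ^ 2 := by
  simp only [addX]
  field_simp
  ring

lemma sub_negY_sq_aux {x y : L} (h : W.Equation x y) :
    (y - W.negY x y) ^ 2 = xDblDen W x := by
  rw [Affine.equation_iff] at h
  simp only [negY, xDblDen, WeierstrassCurve.b₂, WeierstrassCurve.b₄, WeierstrassCurve.b₆]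
  linear_combination 4 * h

section

variable [DecidableEq L]

lemma addX_sum_aux {x₁ x₂ y₁ y₂ : L} (h₁ : W.Equation x₁ y₁) (h₂ : W.Equation x₂ y₂)
    (hx : x₁ ≠ x₂) :
    (x₁ - x₂) ^ 2 * (W.addX x₁ x₂ (W.slope x₁ x₂ y₁ y₂) +
        W.addX x₁ x₂ (W.slope x₁ x₂ y₁ (W.negY x₂ y₂))) = xSumNum W x₁ x₂ := by
  rw [Affine.equation_iff] at h₁ h₂
  have hd : x₁ - x₂ ≠ 0 := sub_ne_zero.mpr hx
  rw [slope_of_X_ne hx, slope_of_X_ne hx, mul_add, addX_div_aux W _ _ _ _ hd,
    addX_div_aux W _ _ _ _ hd]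
  simp only [negY, xSumNum, WeierstrassCurve.b₂, WeierstrassCurve.b₄, WeierstrassCurve.b₆]
  linear_combination 2 * h₁ + 2 * h₂

lemma addX_prod_aux {x₁ x₂ y₁ y₂ : L} (h₁ : W.Equation x₁ y₁) (h₂ : W.Equation x₂ y₂)
    (hx : x₁ ≠ x₂) :
    (x₁ - x₂) ^ 2 * (W.addX x₁ x₂ (W.slope x₁ x₂ y₁ y₂) *
        W.addX x₁ x₂ (W.slope x₁ x₂ y₁ (W.negY x₂ y₂))) = xProdNum W x₁ x₂ := by
  rw [Affine.equation_iff] at h₁ h₂
  have hd : x₁ - x₂ ≠ 0 := sub_ne_zero.mpr hx
  have hd2 : (x₁ - x₂) ^ 2 ≠ 0 := pow_ne_zero 2 hd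
  apply mul_left_cancel₀ hd2
  have e3 := addX_div_aux W x₁ x₂ (y₁ - y₂) (x₁ - x₂) hd
  have e4 := addX_div_aux W x₁ x₂ (y₁ - W.negY x₂ y₂) (x₁ - x₂) hd
  rw [slope_of_X_ne hx, slope_of_X_ne hx]
  have key : (x₁ - x₂) ^ 2 * ((x₁ - x₂) ^ 2 * (W.addX x₁ x₂ ((y₁ - y₂) / (x₁ - x₂)) *
      W.addX x₁ x₂ ((y₁ - W.negY x₂ y₂) / (x₁ - x₂)))) =
      ((x₁ - x₂) ^ 2 * W.addX x₁ x₂ ((y₁ - y₂) / (x₁ - x₂))) *
      ((x₁ - x₂) ^ 2 * W.addX x₁ x₂ ((y₁ - W.negY x₂ y₂) / (x₁ - x₂))) := by ring
  rw [key, e3, e4]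
  simp only [negY, xProdNum, WeierstrassCurve.b₄, WeierstrassCurve.b₆, WeierstrassCurve.b₈]
  linear_combination
    (y₁ ^ 2 + y₁ * x₁ * W.a₁ + y₁ * W.a₃ - 2 * y₂ ^ 2 - 2 * y₂ * x₂ * W.a₁ - 2 * y₂ * W.a₃
      - x₁ ^ 3 + 2 * x₁ ^ 2 * x₂ - x₁ ^ 2 * W.a₂ + 2 * x₁ * x₂ ^ 2 + x₁ * x₂ * W.a₁ ^ 2
      + 4 * x₁ * x₂ * W.a₂ + x₁ * W.a₁ * W.a₃ + x₁ * W.a₄ - 2 * x₂ ^ 3 - x₂ ^ 2 * W.a₁ ^ 2
      - 2 * x₂ ^ 2 * W.a₂ - x₂ * W.a₁ * W.a₃ + W.a₆) * h₁ +
    (y₂ ^ 2 + y₂ * x₂ * W.a₁ + y₂ * W.a₃ - 4 * x₁ ^ 3 + 2 * x₁ ^ 2 * x₂ - x₁ ^ 2 * W.a₁ ^ 2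
      - 4 * x₁ ^ 2 * W.a₂ + 2 * x₁ * x₂ ^ 2 + x₁ * x₂ * W.a₁ ^ 2 + 4 * x₁ * x₂ * W.a₂
      - x₁ * W.a₁ * W.a₃ - 2 * x₁ * W.a₄ - x₂ ^ 3 - x₂ ^ 2 * W.a₂ + x₂ * W.a₁ * W.a₃
      + x₂ * W.a₄ - W.a₆) * h₂

lemma addX_dbl_aux {x y : L} (h : W.Equation x y) (hy : y ≠ W.negY x y) :
    W.addX x x (W.slope x x y y) * xDblDen W x = xDblNum W x := by
  have hd : y - W.negY x y ≠ 0 := sub_ne_zero.mpr hy
  rw [slope_of_Y_ne rfl hy, ← sub_negY_sq_aux W h, mul_comm, addX_div_aux W _ _ _ _ hd]
  rw [Affine.equation_iff] at h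
  simp only [negY, xDblNum, WeierstrassCurve.b₄, WeierstrassCurve.b₆, WeierstrassCurve.b₈]
  linear_combination (-8 * x - W.a₁ ^ 2 - 4 * W.a₂) * h

variable {W}

/-- `P + Q` and `P - Q` for affine points with distinct `x`-coordinates. -/
theorem add_sub_some_aux {x₁ x₂ y₁ y₂ : L} (h₁ : W.Nonsingular x₁ y₁) (h₂ : W.Nonsingular x₂ y₂)
    (hx : x₁ ≠ x₂) :
    ∃ (x₃ y₃ x₄ y₄ : L) (h₃ : W.Nonsingular x₃ y₃) (h₄ : W.Nonsingular x₄ y₄),
      Point.some x₁ y₁ h₁ + Point.some x₂ y₂ h₂ = Point.some x₃ y₃ h₃ ∧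
      Point.some x₁ y₁ h₁ - Point.some x₂ y₂ h₂ = Point.some x₄ y₄ h₄ ∧
      (x₁ - x₂) ^ 2 * (x₃ + x₄) = xSumNum W x₁ x₂ ∧
      (x₁ - x₂) ^ 2 * (x₃ * x₄) = xProdNum W x₁ x₂ := by
  have h₂' : W.Nonsingular x₂ (W.negY x₂ y₂) := (nonsingular_neg ..).mpr h₂
  refine ⟨_, _, _, _, nonsingular_add h₁ h₂ fun hxy => hx hxy.left,
    nonsingular_add h₁ h₂' fun hxy => hx hxy.left, Point.add_of_X_ne hx, ?_,
    addX_sum_aux W h₁.1 h₂.1 hx, addX_prod_aux W h₁.1 h₂.1 hx⟩
  rw [sub_eq_add_neg, Point.neg_some, Point.add_of_X_ne hx]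

/-- Duplication for a point which is not 2-torsion. -/
theorem add_self_some_aux {x y : L} (h : W.Nonsingular x y) (hy : y ≠ W.negY x y) :
    ∃ (x' y' : L) (h' : W.Nonsingular x' y'),
      Point.some x y h + Point.some x y h = Point.some x' y' h' ∧
      x' * xDblDen W x = xDblNum W x ∧ xDblDen W x ≠ 0 := by
  refine ⟨_, _, nonsingular_add h h fun hxy => hy hxy.right, Point.add_self_of_Y_ne hy,
    addX_dbl_aux W h.1 hy, ?_⟩
  rw [← sub_negY_sq_aux W h.1]
  exact pow_ne_zero 2 (sub_ne_zero.mpr hy)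

omit [DecidableEq L] in
theorem xDblDen_eq_zero_of_Y_eq {x y : L} (h : W.Equation x y) (hy : y = W.negY x y) :
    xDblDen W x = 0 := by
  rw [← sub_negY_sq_aux W h, sub_eq_zero.mpr hy]
  ring

end

end Fermat.Agent.Lib.Frob.A2.H720

end
-- ===== PACK-END Lib/Frob/A2/H720/AddSub.lean

-- ===== PACK-BEGIN Lib/Red/H290/RedElt.lean
section



/-!
# Reduction of elements of a valuation ring (S52 piece A1b, part 1)

`A : ValuationSubring K`, `φ : A →+* κ` a ring homomorphism to a field whose kernel is the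
maximal ideal of `A` (stated as `hφ : ∀ a : A, φ a = 0 ↔ A.valuation a < 1`).

`rd A φ : K → κ` is the total function extending `φ` by `0` outside `A`.  It is additive and
multiplicative on `A`, kills exactly the non-units among the elements of `A`, and commutes with
division by units.
-/

set_option autoImplicit false

namespace Fermat.Agent.Lib.Red.H290

variable {K : Type*} [Field K] {κ : Type*} [Field κ]

/-- The reduction `K → κ` extending `φ : A →+* κ` by zero outside `A`. -/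
noncomputable def rd (A : ValuationSubring K) (φ : A →+* κ) (x : K) : κ :=
  open Classical in if h : x ∈ A then φ ⟨x, h⟩ else 0

section

variable {A : ValuationSubring K} {φ : A →+* κ}

lemma rd_of_mem {x : K} (h : x ∈ A) : rd A φ x = φ ⟨x, h⟩ := by
  simp only [rd, h, dite_true]

lemma rd_coe (a : A) : rd A φ (a : K) = φ a := by
  rw [rd_of_mem a.2]

lemma rd_of_not_mem {x : K} (h : x ∉ A) : rd A φ x = 0 := by
  simp only [rd, h, dite_false]

@[simp] lemma rd_zero : rd A φ 0 = 0 := by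
  rw [rd_of_mem A.zero_mem]; exact map_zero φ

@[simp] lemma rd_one : rd A φ 1 = 1 := by
  rw [rd_of_mem A.one_mem]; exact map_one φ

lemma rd_add {x y : K} (hx : x ∈ A) (hy : y ∈ A) : rd A φ (x + y) = rd A φ x + rd A φ y := by
  rw [rd_of_mem hx, rd_of_mem hy, rd_of_mem (A.add_mem _ _ hx hy), ← map_add]; rfl

lemma rd_mul {x y : K} (hx : x ∈ A) (hy : y ∈ A) : rd A φ (x * y) = rd A φ x * rd A φ y := by
  rw [rd_of_mem hx, rd_of_mem hy, rd_of_mem (A.mul_mem _ _ hx hy), ← map_mul]; rfl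

lemma rd_neg {x : K} (hx : x ∈ A) : rd A φ (-x) = - rd A φ x := by
  rw [rd_of_mem hx, rd_of_mem (A.neg_mem _ hx), ← map_neg]; rfl

lemma rd_sub {x y : K} (hx : x ∈ A) (hy : y ∈ A) : rd A φ (x - y) = rd A φ x - rd A φ y := by
  rw [rd_of_mem hx, rd_of_mem hy, rd_of_mem (A.sub_mem hx hy), ← map_sub]; rfl

lemma rd_pow {x : K} (hx : x ∈ A) (n : ℕ) : rd A φ (x ^ n) = rd A φ x ^ n := by
  rw [rd_of_mem hx, rd_of_mem (pow_mem hx n), ← map_pow]; rfl

lemma rd_natCast (n : ℕ) : rd A φ (n : K) = (n : κ) := by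
  rw [rd_of_mem (natCast_mem A n)]
  have : (⟨(n : K), natCast_mem A n⟩ : A) = (n : A) := rfl
  rw [this, map_natCast]

lemma rd_ofNat (n : ℕ) [n.AtLeastTwo] : rd A φ (OfNat.ofNat n : K) = (OfNat.ofNat n : κ) := by
  have := rd_natCast (A := A) (φ := φ) (OfNat.ofNat n)
  rwa [Nat.cast_ofNat, Nat.cast_ofNat] at this

lemma mem_of_val_le {x : K} (h : A.valuation x ≤ 1) : x ∈ A := (A.valuation_le_one_iff x).mp h

lemma val_le_of_mem {x : K} (h : x ∈ A) : A.valuation x ≤ 1 := (A.valuation_le_one_iff x).mpr h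

omit [Field κ] in
lemma inv_mem_of_val_eq_one {x : K} (hx : A.valuation x = 1) : x⁻¹ ∈ A := by
  apply (A.valuation_le_one_iff _).mp
  rw [map_inv₀, hx, inv_one]

omit [Field κ] in
lemma div_mem_of_val_eq_one {x y : K} (hx : x ∈ A) (hy : A.valuation y = 1) : x / y ∈ A := by
  rw [div_eq_mul_inv]; exact A.mul_mem _ _ hx (inv_mem_of_val_eq_one hy)

end

/-- The kernel of `φ` is the maximal ideal. -/
def KerMax (A : ValuationSubring K) (φ : A →+* κ) : Prop :=
  ∀ a : A, φ a = 0 ↔ A.valuation (a : K) < 1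

lemma kerMax_of_isLocalHom (A : ValuationSubring K) (φ : A →+* κ) [IsLocalHom φ] :
    KerMax A φ := by
  intro a
  rw [← A.valuation_lt_one_iff, IsLocalRing.mem_maximalIdeal, mem_nonunits_iff]
  constructor
  · intro h hu
    have := hu.map φ
    rw [h] at this
    exact not_isUnit_zero this
  · intro h
    by_contra h0
    exact h (IsLocalHom.map_nonunit a (isUnit_iff_ne_zero.mpr h0))

/-- The residue map of `A` has kernel the maximal ideal. -/
lemma kerMax_residue (A : ValuationSubring K) :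
    KerMax A (IsLocalRing.residue A) := by
  intro a
  rw [← A.valuation_lt_one_iff]
  exact IsLocalRing.residue_eq_zero_iff a

section

variable {A : ValuationSubring K} {φ : A →+* κ} (hφ : KerMax A φ)
include hφ

lemma rd_eq_zero_iff {x : K} (hx : x ∈ A) : rd A φ x = 0 ↔ A.valuation x < 1 := by
  rw [rd_of_mem hx]; exact hφ ⟨x, hx⟩

lemma rd_eq_zero_of_lt {x : K} (hx : A.valuation x < 1) : rd A φ x = 0 :=
  (rd_eq_zero_iff hφ (mem_of_val_le hx.le)).mpr hx

lemma rd_ne_zero_iff {x : K} (hx : x ∈ A) : rd A φ x ≠ 0 ↔ A.valuation x = 1 := by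
  rw [Ne, rd_eq_zero_iff hφ hx, not_lt]
  exact ⟨fun h => le_antisymm (val_le_of_mem hx) h, fun h => h.ge⟩

lemma rd_eq_iff {x y : K} (hx : x ∈ A) (hy : y ∈ A) :
    rd A φ x = rd A φ y ↔ A.valuation (x - y) < 1 := by
  rw [← rd_eq_zero_iff hφ (A.sub_mem hx hy), rd_sub hx hy, sub_eq_zero]

omit hφ in
lemma rd_inv {x : K} (hx : A.valuation x = 1) : rd A φ x⁻¹ = (rd A φ x)⁻¹ := by
  have hxA : x ∈ A := mem_of_val_le hx.le
  have hiA : x⁻¹ ∈ A := inv_mem_of_val_eq_one hx
  have hx0 : x ≠ 0 := by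
    rintro rfl; rw [map_zero] at hx; exact zero_ne_one hx
  have h1 : rd A φ x * rd A φ x⁻¹ = 1 := by
    rw [← rd_mul hxA hiA, mul_inv_cancel₀ hx0, rd_one]
  exact eq_inv_of_mul_eq_one_right h1

omit hφ in
lemma rd_div {x y : K} (hx : x ∈ A) (hy : A.valuation y = 1) :
    rd A φ (x / y) = rd A φ x / rd A φ y := by
  rw [div_eq_mul_inv, rd_mul hx (inv_mem_of_val_eq_one hy), rd_inv hy, div_eq_mul_inv]

end

end Fermat.Agent.Lib.Red.H290

end
-- ===== PACK-END Lib/Red/H290/RedElt.lean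

-- ===== PACK-BEGIN S59/H127/LinAlg2.lean
section


/-!
# E-side foundation, part 8: two lemmas on `2 × 2` linear algebra over a domain

* `charpoly_eq_of_quadratic_of_det` : if `T² - a T + b = 0`, `det T = b ≠ 0` on a free module of
  rank `2` over a domain then `charpoly T = X² - a X + b`;
* `charpoly_eq_of_sub_one_sq` : if `T² - 2 T + 1 = 0` then `charpoly T = (X - 1)²`.
-/

open Polynomial

namespace Fermat.Agent.S59.H127

section matrix

variable {R : Type*} [CommRing R] [IsDomain R]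

omit [IsDomain R] in
/-- Cayley–Hamilton for `2 × 2` matrices, explicitly -/
lemma cayley_hamilton_fin_two (M : Matrix (Fin 2) (Fin 2) R) :
    M * M - M.trace • M + M.det • (1 : Matrix (Fin 2) (Fin 2) R) = 0 := by
  ext i j
  fin_cases i <;> fin_cases j <;>
    simp [Matrix.mul_apply, Matrix.trace_fin_two, Matrix.det_fin_two, Fin.sum_univ_two] <;>
    ring

lemma matrix_trace_eq_of_quadratic_of_det (M : Matrix (Fin 2) (Fin 2) R) (a b : R) (hb : b ≠ 0)
    (hrel : M * M - a • M + b • (1 : Matrix (Fin 2) (Fin 2) R) = 0) (hdet : M.det = b) :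
    M.trace = a := by
  have hch := cayley_hamilton_fin_two M
  rw [hdet] at hch
  have h1 : (M.trace - a) • M = 0 := by
    have : (M.trace - a) • M = (M * M - a • M + b • (1 : Matrix (Fin 2) (Fin 2) R))
        - (M * M - M.trace • M + b • (1 : Matrix (Fin 2) (Fin 2) R)) := by
      rw [sub_smul]; abel
    rw [this, hrel, hch, sub_zero]
  by_contra hne
  have hM : M = 0 := by
    rcases smul_eq_zero.mp h1 with h | h
    · exact absurd (sub_eq_zero.mp h) hne
    · exact h
  rw [hM, Matrix.det_zero] at hdet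
  exact hb hdet.symm

lemma matrix_charpoly_eq_of_sub_one_sq (M : Matrix (Fin 2) (Fin 2) R)
    (hrel : M * M - (2 : R) • M + (1 : Matrix (Fin 2) (Fin 2) R) = 0) :
    M.charpoly = (X - 1) ^ 2 := by
  have hN : IsNilpotent (M - 1) := by
    refine ⟨2, ?_⟩
    have : (M - 1) ^ 2 = M * M - (2 : R) • M + 1 := by
      rw [pow_two, sub_mul, mul_sub, mul_sub, mul_one, one_mul, mul_one, two_smul]
      abel
    rw [this, hrel]
  have h1 : (M - 1).charpoly = X ^ 2 := by
    have := Matrix.isNilpotent_charpoly_sub_pow_of_isNilpotent hN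
    rw [Fintype.card_fin] at this
    exact sub_eq_zero.mp (IsNilpotent.eq_zero this)
  have h2 : (M - 1).charpoly = M.charpoly.comp (X + C 1) := by
    have := Matrix.charpoly_sub_scalar M (1 : R)
    rwa [map_one] at this
  have h3 : M.charpoly = (M.charpoly.comp (X + C 1)).comp (X - C 1) := by
    rw [comp_assoc]
    simp
  rw [h3, ← h2, h1]
  simp

end matrix

section linearMap

variable {R : Type*} [CommRing R] [IsDomain R] {V : Type*} [AddCommGroup V] [Module R V]
  [Module.Free R V] [Module.Finite R V]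

/-- if `T² - a T + b = 0` and `det T = b ≠ 0` in rank `2`, then `charpoly T = X² - a X + b` -/
theorem charpoly_eq_of_quadratic_of_det (h2 : Module.finrank R V = 2) (T : Module.End R V)
    (a b : R) (hb : b ≠ 0) (hrel : T * T - a • T + b • (1 : Module.End R V) = 0)
    (hdet : LinearMap.det T = b) :
    LinearMap.charpoly T = X ^ 2 - C a * X + C b := by
  let e := Module.finBasisOfFinrankEq R V h2
  have hM : LinearMap.toMatrix e e T * LinearMap.toMatrix e e T
      - a • LinearMap.toMatrix e e T + b • (1 : Matrix (Fin 2) (Fin 2) R) = 0 := by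
    have := congrArg (LinearMap.toMatrixAlgEquiv e) hrel
    rw [map_add, map_sub, map_mul, map_smul, map_smul, map_one, map_zero] at this
    exact this
  have hd : (LinearMap.toMatrix e e T).det = b := by
    rw [LinearMap.det_toMatrix, hdet]
  have ht := matrix_trace_eq_of_quadratic_of_det _ a b hb hM hd
  rw [← LinearMap.charpoly_toMatrix T e, Matrix.charpoly_fin_two, ht, hd]

/-- if `(T - 1)² = 0` in rank `2`, then `charpoly T = (X - 1)²` -/
theorem charpoly_eq_of_sub_one_sq (h2 : Module.finrank R V = 2) (T : Module.End R V)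
    (hrel : T * T - (2 : R) • T + (1 : Module.End R V) = 0) :
    LinearMap.charpoly T = (X - 1) ^ 2 := by
  let e := Module.finBasisOfFinrankEq R V h2
  have hM : LinearMap.toMatrix e e T * LinearMap.toMatrix e e T
      - (2 : R) • LinearMap.toMatrix e e T + (1 : Matrix (Fin 2) (Fin 2) R) = 0 := by
    have := congrArg (LinearMap.toMatrixAlgEquiv e) hrel
    rw [map_add, map_sub, map_mul, map_smul, map_one, map_zero] at this
    exact this
  rw [← LinearMap.charpoly_toMatrix T e]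
  exact matrix_charpoly_eq_of_sub_one_sq _ hM

end linearMap

end Fermat.Agent.S59.H127

end
-- ===== PACK-END S59/H127/LinAlg2.lean

-- ===== PACK-BEGIN Lib/Newform/H743/Periodic.lean
section





/-!
# NEWFORM library (helper743), part 1: vanishing of `q`-expansion coefficients vs. periodicity

* `periodic_of_coeff_eq_zero` : if `a_n(F) = 0` for all `n` not divisible by `q`, then `F` has
  period `1/q`.
* `coeff_eq_zero_of_periodic` : conversely, if `F` has period `1/q`, then `a_n(F) = 0` unless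
  `q ∣ n`.
-/

set_option autoImplicit false

open UpperHalfPlane ModularForm Function Complex
open scoped MatrixGroups ModularForm Manifold Topology Real

namespace Fermat.Agent.Lib.Newform.H743

noncomputable section

/-- `𝕢 1 (w + 1/q) ^ n = 𝕢 1 w ^ n` when `q ∣ n`. -/
lemma qParam_add_inv_pow {q : ℕ} (hq : q ≠ 0) (w : ℂ) {n : ℕ} (hn : q ∣ n) :
    Function.Periodic.qParam 1 (w + ((1 / q : ℝ) : ℂ)) ^ n = Function.Periodic.qParam 1 w ^ n := by
  obtain ⟨m, rfl⟩ := hn
  have hq' : (q : ℂ) ≠ 0 := by exact_mod_cast hq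
  simp only [Function.Periodic.qParam, ← Complex.exp_nat_mul]
  rw [show ((q * m : ℕ) : ℂ) * (2 * π * Complex.I * (w + ((1 / q : ℝ) : ℂ)) / ((1 : ℝ) : ℂ)) =
      ((q * m : ℕ) : ℂ) * (2 * π * Complex.I * w / ((1 : ℝ) : ℂ)) +
        (m : ℂ) * (2 * π * Complex.I) by
    push_cast
    field_simp]
  rw [Complex.exp_add, Complex.exp_nat_mul_two_pi_mul_I, mul_one]

/-- If all `q`-expansion coefficients of index not divisible by `q` vanish, then the function has
period `1/q`. -/
theorem periodic_of_coeff_eq_zero {F : ℍ → ℂ} (hper : Periodic (F ∘ ofComplex) (1 : ℝ))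
    (hhol : MDiff F) (hbdd : IsBoundedAtImInfty F) {q : ℕ} (hq : q ≠ 0)
    (h0 : ∀ n : ℕ, ¬ q ∣ n → (qExpansion 1 F).coeff n = 0) :
    Periodic (F ∘ ofComplex) ((1 / q : ℝ) : ℝ) := by
  intro w
  by_cases! hw : 0 < im w
  · have hw' : 0 < im (w + ((1 / q : ℝ) : ℂ)) := by simpa using hw
    simp only [comp_apply, ofComplex_apply_of_im_pos hw', ofComplex_apply_of_im_pos hw]
    have h1 := hasSum_qExpansion one_pos hper hhol hbdd ⟨w + ((1 / q : ℝ) : ℂ), hw'⟩
    have h2 := hasSum_qExpansion one_pos hper hhol hbdd ⟨w, hw⟩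
    refine h1.unique ?_
    convert h2 using 2 with n
    by_cases hn : q ∣ n
    · rw [UpperHalfPlane.coe_mk, UpperHalfPlane.coe_mk, qParam_add_inv_pow hq w hn]
    · rw [h0 n hn, zero_smul, zero_smul]
  · have : im (w + ((1 / q : ℝ) : ℂ)) ≤ 0 := by simpa using hw
    rw [comp_apply, comp_apply, ofComplex_apply_of_im_nonpos this,
      ofComplex_apply_of_im_nonpos hw]

/-- If the function has period `1/q`, then all `q`-expansion coefficients of index not divisible by
`q` vanish. -/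
theorem coeff_eq_zero_of_periodic {F : ℍ → ℂ} {q : ℕ} (hq : q ≠ 0)
    (hper : Periodic (F ∘ ofComplex) ((1 / q : ℝ) : ℝ))
    (hhol : MDiff F) (hbdd : IsBoundedAtImInfty F) {n : ℕ} (hn : ¬ q ∣ n) :
    (qExpansion 1 F).coeff n = 0 := by
  have hq' : (0 : ℝ) < 1 / q := by
    have : (0 : ℝ) < q := by exact_mod_cast Nat.pos_of_ne_zero hq
    positivity
  have h := UpperHalfPlane.qExpansion_coeff_nat_mul hq' hper hhol hbdd (Nat.pos_of_ne_zero hq) n
  have e : ((q : ℝ) * (1 / q : ℝ)) = 1 := by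
    have : (q : ℝ) ≠ 0 := by exact_mod_cast hq
    field_simp
  rw [e, if_neg hn] at h
  exact h

/-- Pointwise form of periodicity. -/
lemma apply_vadd_of_periodic {F : ℍ → ℂ} {h : ℝ} (hper : Periodic (F ∘ ofComplex) h) (τ : ℍ) :
    F (h +ᵥ τ) = F τ := by
  have := hper (τ : ℂ)
  simp only [comp_apply, ofComplex_apply] at this
  rw [← this]
  congr 1
  have h2 : 0 < im ((τ : ℂ) + (h : ℂ)) := by simpa using τ.im_pos
  rw [ofComplex_apply_of_im_pos h2]
  ext
  simp [add_comm]

end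

end Fermat.Agent.Lib.Newform.H743

end
-- ===== PACK-END Lib/Newform/H743/Periodic.lean

-- ===== PACK-BEGIN Lib/Cheb/H341/Abstract.lean
section


/-!
# CHEB piece M, abstract part (helper341)

Prime Dirichlet sums `pSum b s = ∑' p, b p * p ^ (-s)` of bounded coefficient functions,
the relation `Near b c` (`pSum b s = c * log (1/(s-1)) + O(1)` on `(1, 2]`), and the
subgroup induction: if for every subgroup `H` of a finite group the sum over `X ≤ H` of `g X`
is `Near (card H)`, then each `g X` is `Near (psi X)`, `psi X` = number of generators of `X`.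
-/

set_option autoImplicit false

namespace Fermat.Agent.Lib.Cheb.H341

open Finset

/-- `ell s = log (1 / (s - 1))`. -/
noncomputable def ell (s : ℝ) : ℝ := Real.log (1 / (s - 1))

/-- The prime Dirichlet sum of a coefficient function. -/
noncomputable def pSum (b : Nat.Primes → ℝ) (s : ℝ) : ℝ :=
  ∑' p : Nat.Primes, b p * (p : ℝ) ^ (-s)

/-- Bounded coefficient function. -/
def Bdd (b : Nat.Primes → ℝ) : Prop := ∃ K : ℝ, ∀ p, |b p| ≤ K

/-- `pSum b s = c * ell s + O(1)` on `(1, 2]`. -/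
def Near (b : Nat.Primes → ℝ) (c : ℝ) : Prop :=
  ∃ C : ℝ, ∀ s : ℝ, 1 < s → s ≤ 2 → |pSum b s - c * ell s| ≤ C

theorem Bdd.add {b₁ b₂ : Nat.Primes → ℝ} (h₁ : Bdd b₁) (h₂ : Bdd b₂) :
    Bdd (fun p => b₁ p + b₂ p) := by
  obtain ⟨K₁, hK₁⟩ := h₁
  obtain ⟨K₂, hK₂⟩ := h₂
  exact ⟨K₁ + K₂, fun p => (abs_add_le _ _).trans (add_le_add (hK₁ p) (hK₂ p))⟩

theorem Bdd.neg {b : Nat.Primes → ℝ} (h : Bdd b) : Bdd (fun p => - b p) := by
  obtain ⟨K, hK⟩ := h
  exact ⟨K, fun p => by rw [abs_neg]; exact hK p⟩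

theorem Bdd.sub {b₁ b₂ : Nat.Primes → ℝ} (h₁ : Bdd b₁) (h₂ : Bdd b₂) :
    Bdd (fun p => b₁ p - b₂ p) := by
  simpa [sub_eq_add_neg] using h₁.add h₂.neg

theorem Bdd.const_mul {b : Nat.Primes → ℝ} (h : Bdd b) (k : ℝ) : Bdd (fun p => k * b p) := by
  obtain ⟨K, hK⟩ := h
  refine ⟨|k| * K, fun p => ?_⟩
  rw [abs_mul]
  exact mul_le_mul_of_nonneg_left (hK p) (abs_nonneg k)

theorem bdd_zero : Bdd (fun _ => 0) := ⟨0, fun _ => by simp⟩

theorem Bdd.finset_sum {ι : Type*} (t : Finset ι) (b : ι → Nat.Primes → ℝ)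
    (h : ∀ i ∈ t, Bdd (b i)) : Bdd (fun p => ∑ i ∈ t, b i p) := by
  classical
  induction t using Finset.induction_on with
  | empty => simpa using bdd_zero
  | insert a t ha ih =>
    have h1 : Bdd (b a) := h a (mem_insert_self a t)
    have h2 : Bdd (fun p => ∑ i ∈ t, b i p) := ih (fun i hi => h i (mem_insert_of_mem hi))
    obtain ⟨K, hK⟩ := h1.add h2
    refine ⟨K, fun p => ?_⟩
    simpa [sum_insert ha] using hK p

theorem summable_of_bdd {b : Nat.Primes → ℝ} (hb : Bdd b) {s : ℝ} (hs : 1 < s) :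
    Summable (fun p : Nat.Primes => b p * (p : ℝ) ^ (-s)) := by
  obtain ⟨K, hK⟩ := hb
  have h1 : Summable (fun p : Nat.Primes => K * (p : ℝ) ^ (-s)) :=
    (Nat.Primes.summable_rpow.mpr (by linarith)).mul_left K
  refine Summable.of_norm_bounded h1 (fun p => ?_)
  rw [Real.norm_eq_abs, abs_mul]
  have hp : (0:ℝ) ≤ (p : ℝ) ^ (-s) := Real.rpow_nonneg (Nat.cast_nonneg _) _
  rw [abs_of_nonneg hp]
  exact mul_le_mul_of_nonneg_right (hK p) hp

theorem pSum_add {b₁ b₂ : Nat.Primes → ℝ} (h₁ : Bdd b₁) (h₂ : Bdd b₂) {s : ℝ} (hs : 1 < s) :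
    pSum (fun p => b₁ p + b₂ p) s = pSum b₁ s + pSum b₂ s := by
  unfold pSum
  rw [← (summable_of_bdd h₁ hs).tsum_add (summable_of_bdd h₂ hs)]
  exact tsum_congr (fun p => by ring)

theorem pSum_neg (b : Nat.Primes → ℝ) (s : ℝ) :
    pSum (fun p => - b p) s = - pSum b s := by
  unfold pSum
  rw [← tsum_neg]
  exact tsum_congr (fun p => by ring)

theorem pSum_sub {b₁ b₂ : Nat.Primes → ℝ} (h₁ : Bdd b₁) (h₂ : Bdd b₂) {s : ℝ} (hs : 1 < s) :
    pSum (fun p => b₁ p - b₂ p) s = pSum b₁ s - pSum b₂ s := by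
  have := pSum_add h₁ h₂.neg hs
  simp only [pSum_neg] at this
  simpa [sub_eq_add_neg] using this

theorem pSum_const_mul (b : Nat.Primes → ℝ) (k : ℝ) (s : ℝ) :
    pSum (fun p => k * b p) s = k * pSum b s := by
  unfold pSum
  rw [← tsum_mul_left]
  exact tsum_congr (fun p => by ring)

theorem pSum_zero (s : ℝ) : pSum (fun _ => 0) s = 0 := by
  unfold pSum
  simp

theorem Near.add {b₁ b₂ : Nat.Primes → ℝ} {c₁ c₂ : ℝ} (hb₁ : Bdd b₁) (hb₂ : Bdd b₂)
    (h₁ : Near b₁ c₁) (h₂ : Near b₂ c₂) : Near (fun p => b₁ p + b₂ p) (c₁ + c₂) := by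
  obtain ⟨C₁, hC₁⟩ := h₁
  obtain ⟨C₂, hC₂⟩ := h₂
  refine ⟨C₁ + C₂, fun s hs hs2 => ?_⟩
  rw [pSum_add hb₁ hb₂ hs]
  have e : pSum b₁ s + pSum b₂ s - (c₁ + c₂) * ell s =
      (pSum b₁ s - c₁ * ell s) + (pSum b₂ s - c₂ * ell s) := by ring
  rw [e]
  exact (abs_add_le _ _).trans (add_le_add (hC₁ s hs hs2) (hC₂ s hs hs2))

theorem Near.neg {b : Nat.Primes → ℝ} {c : ℝ} (h : Near b c) : Near (fun p => - b p) (-c) := by
  obtain ⟨C, hC⟩ := h
  refine ⟨C, fun s hs hs2 => ?_⟩
  rw [pSum_neg]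
  have e : -pSum b s - -c * ell s = -(pSum b s - c * ell s) := by ring
  rw [e, abs_neg]
  exact hC s hs hs2

theorem Near.sub {b₁ b₂ : Nat.Primes → ℝ} {c₁ c₂ : ℝ} (hb₁ : Bdd b₁) (hb₂ : Bdd b₂)
    (h₁ : Near b₁ c₁) (h₂ : Near b₂ c₂) : Near (fun p => b₁ p - b₂ p) (c₁ - c₂) := by
  simpa [sub_eq_add_neg] using Near.add hb₁ hb₂.neg h₁ h₂.neg

theorem Near.const_mul {b : Nat.Primes → ℝ} {c : ℝ} (h : Near b c) (k : ℝ) :
    Near (fun p => k * b p) (k * c) := by
  obtain ⟨C, hC⟩ := h
  refine ⟨|k| * C, fun s hs hs2 => ?_⟩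
  rw [pSum_const_mul]
  have e : k * pSum b s - k * c * ell s = k * (pSum b s - c * ell s) := by ring
  rw [e, abs_mul]
  exact mul_le_mul_of_nonneg_left (hC s hs hs2) (abs_nonneg k)

theorem near_zero : Near (fun _ => 0) 0 :=
  ⟨0, fun s _ _ => by simp [pSum_zero]⟩

theorem Near.finset_sum {ι : Type*} (t : Finset ι) (b : ι → Nat.Primes → ℝ) (c : ι → ℝ)
    (hb : ∀ i ∈ t, Bdd (b i)) (h : ∀ i ∈ t, Near (b i) (c i)) :
    Near (fun p => ∑ i ∈ t, b i p) (∑ i ∈ t, c i) := by
  classical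
  induction t using Finset.induction_on with
  | empty => simpa using near_zero
  | insert a t ha ih =>
    have h1 : Near (b a) (c a) := h a (mem_insert_self a t)
    have hb1 : Bdd (b a) := hb a (mem_insert_self a t)
    have hb2 : Bdd (fun p => ∑ i ∈ t, b i p) :=
      Bdd.finset_sum t b (fun i hi => hb i (mem_insert_of_mem hi))
    have h2 := ih (fun i hi => hb i (mem_insert_of_mem hi)) (fun i hi => h i (mem_insert_of_mem hi))
    have := Near.add hb1 hb2 h1 h2
    rw [sum_insert ha]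
    refine ⟨this.choose, fun s hs hs2 => ?_⟩
    have e : (fun p => ∑ i ∈ insert a t, b i p) = fun p => b a p + ∑ i ∈ t, b i p := by
      funext p
      rw [sum_insert ha]
    rw [e]
    exact this.choose_spec s hs hs2

/-- A finitely supported coefficient function has bounded prime sum. -/
theorem near_zero_of_finite_support {b : Nat.Primes → ℝ} (T : Finset Nat.Primes)
    (h : ∀ p, p ∉ T → b p = 0) : Near b 0 := by
  refine ⟨∑ p ∈ T, |b p|, fun s hs _ => ?_⟩
  have e : pSum b s = ∑ p ∈ T, b p * (p : ℝ) ^ (-s) := by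
    unfold pSum
    exact tsum_eq_sum (fun p hp => by rw [h p hp, zero_mul])
  rw [e, zero_mul, sub_zero]
  refine (abs_sum_le_sum_abs _ _).trans (sum_le_sum (fun p _ => ?_))
  rw [abs_mul]
  have hp0 : (0:ℝ) ≤ (p : ℝ) ^ (-s) := Real.rpow_nonneg (Nat.cast_nonneg _) _
  rw [abs_of_nonneg hp0]
  have hp1 : (p : ℝ) ^ (-s) ≤ 1 := by
    have h1 : (1:ℝ) ≤ (p : ℝ) := by exact_mod_cast p.2.one_lt.le
    exact Real.rpow_le_one_of_one_le_of_nonpos h1 (by linarith)
  calc |b p| * (p : ℝ) ^ (-s) ≤ |b p| * 1 := mul_le_mul_of_nonneg_left hp1 (abs_nonneg _)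
    _ = |b p| := mul_one _

theorem bdd_of_finite_support {b : Nat.Primes → ℝ} (T : Finset Nat.Primes)
    (h : ∀ p, p ∉ T → b p = 0) : Bdd b := by
  refine ⟨∑ p ∈ T, |b p|, fun p => ?_⟩
  by_cases hp : p ∈ T
  · exact single_le_sum (f := fun p => |b p|) (fun i _ => abs_nonneg _) hp
  · rw [h p hp, abs_zero]
    exact sum_nonneg (fun i _ => abs_nonneg _)

/-- Changing a bounded coefficient function on a finite set does not change `Near`. -/
theorem Near.congr_off_finite {b b' : Nat.Primes → ℝ} {c : ℝ} (hb : Bdd b) (h : Near b c)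
    (T : Finset Nat.Primes) (hT : ∀ p, p ∉ T → b' p = b p) : Near b' c := by
  have hd : ∀ p, p ∉ T → (fun p => b' p - b p) p = 0 := fun p hp => by simp [hT p hp]
  have h1 := near_zero_of_finite_support T hd
  have hb1 := bdd_of_finite_support T hd
  have := Near.add hb hb1 h h1
  have e : (fun p => b p + (b' p - b p)) = b' := by funext p; ring
  rw [e, add_zero] at this
  exact this

theorem ell_unbounded (M : ℝ) : ∃ s : ℝ, 1 < s ∧ s ≤ 2 ∧ M < ell s := by
  refine ⟨1 + Real.exp (-(max M 0 + 1)), ?_, ?_, ?_⟩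
  · have := Real.exp_pos (-(max M 0 + 1))
    linarith
  · have : Real.exp (-(max M 0 + 1)) ≤ 1 := by
      rw [Real.exp_le_one_iff]
      have := le_max_right M 0
      linarith
    linarith
  · unfold ell
    have e : (1 + Real.exp (-(max M 0 + 1)) - 1) = Real.exp (-(max M 0 + 1)) := by ring
    rw [e, one_div, ← Real.exp_neg, Real.log_exp]
    have := le_max_left M 0
    linarith

/-- If `pSum b = c * ell + O(1)` with `c ≠ 0`, then `b` is not identically zero. -/
theorem Near.exists_ne_zero {b : Nat.Primes → ℝ} {c : ℝ} (h : Near b c) (hc : c ≠ 0) :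
    ∃ p, b p ≠ 0 := by
  by_contra hcon
  push Not at hcon
  obtain ⟨C, hC⟩ := h
  have hb : b = fun _ => 0 := funext hcon
  obtain ⟨s, hs, hs2, hM⟩ := ell_unbounded (C / |c|)
  have := hC s hs hs2
  rw [hb, pSum_zero, zero_sub, abs_neg, abs_mul] at this
  have hcpos : 0 < |c| := abs_pos.mpr hc
  have h2 : C / |c| < |ell s| := lt_of_lt_of_le hM (le_abs_self _)
  rw [div_lt_iff₀ hcpos] at h2
  linarith [mul_comm |c| |ell s|]

/-! ## Subgroup induction -/

section Group

variable {G : Type*} [Group G] [Finite G]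

/-- Number of generators of the subgroup `X`. -/
noncomputable def psi (X : Subgroup G) : ℕ := Nat.card {x : G // Subgroup.zpowers x = X}

/-- The finite set of subgroups contained in `H`. -/
noncomputable def subLe (H : Subgroup G) : Finset (Subgroup G) :=
  (Set.toFinite {X : Subgroup G | X ≤ H}).toFinset

/-- The finite set of subgroups strictly contained in `H`. -/
noncomputable def subLt (H : Subgroup G) : Finset (Subgroup G) :=
  (Set.toFinite {X : Subgroup G | X < H}).toFinset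

@[simp] theorem mem_subLe {H X : Subgroup G} : X ∈ subLe H ↔ X ≤ H := by
  simp [subLe]

@[simp] theorem mem_subLt {H X : Subgroup G} : X ∈ subLt H ↔ X < H := by
  simp [subLt]

theorem subLe_eq_insert (X : Subgroup G) [DecidableEq (Subgroup G)] :
    subLe X = insert X (subLt X) := by
  ext Y
  simp only [mem_subLe, mem_insert, mem_subLt]
  constructor
  · intro hY
    rcases eq_or_lt_of_le hY with h1 | h1
    · exact Or.inl h1
    · exact Or.inr h1
  · rintro (h1 | h1)
    · exact h1.le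
    · exact h1.le

theorem sum_psi (H : Subgroup G) : ∑ X ∈ subLe H, psi X = Nat.card H := by
  classical
  have : Fintype G := Fintype.ofFinite _
  have h1 : ∀ X : Subgroup G,
      psi X = (Finset.univ.filter (fun x : G => Subgroup.zpowers x = X)).card := by
    intro X
    unfold psi
    rw [Nat.card_eq_fintype_card, Fintype.card_subtype]
  have h2 : Nat.card H = (Finset.univ.filter (fun x : G => x ∈ H)).card := by
    rw [Nat.card_eq_fintype_card, Fintype.card_subtype]
  rw [h2]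
  simp only [h1]
  rw [← Finset.card_biUnion]
  · congr 1
    ext x
    simp only [mem_biUnion, mem_filter, mem_univ, true_and, mem_subLe]
    constructor
    · rintro ⟨X, hX, rfl⟩
      exact hX (Subgroup.mem_zpowers x)
    · intro hx
      exact ⟨Subgroup.zpowers x, (Subgroup.zpowers_le).mpr hx, rfl⟩
  · intro X _ Y _ hXY
    rw [Function.onFun, Finset.disjoint_left]
    intro x hx hy
    simp only [mem_filter, mem_univ, true_and] at hx hy
    exact hXY (hx.symm.trans hy)

/-- **Subgroup induction.** -/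
theorem near_psi_of_near_card (g : Subgroup G → Nat.Primes → ℝ) (hb : ∀ X, Bdd (g X))
    (h : ∀ H : Subgroup G, Near (fun p => ∑ X ∈ subLe H, g X p) (Nat.card H)) :
    ∀ X : Subgroup G, Near (g X) (psi X) := by
  classical
  intro X
  induction X using WellFoundedLT.induction with
  | ind X ih =>
    have hsplit := subLe_eq_insert X
    have hnot : X ∉ subLt X := by simp
    have hlow : Near (fun p => ∑ Y ∈ subLt X, g Y p) (∑ Y ∈ subLt X, (psi Y : ℝ)) :=
      Near.finset_sum _ g (fun Y => (psi Y : ℝ)) (fun Y _ => hb Y)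
        (fun Y hY => ih Y (by simpa using hY))
    have hblow : Bdd (fun p => ∑ Y ∈ subLt X, g Y p) :=
      Bdd.finset_sum _ g (fun Y _ => hb Y)
    have hball : Bdd (fun p => ∑ Y ∈ subLe X, g Y p) :=
      Bdd.finset_sum _ g (fun Y _ => hb Y)
    have hsub := Near.sub hball hblow (h X) hlow
    have e1 : (fun p => (∑ Y ∈ subLe X, g Y p) - ∑ Y ∈ subLt X, g Y p) = g X := by
      funext p
      rw [hsplit, sum_insert hnot]
      ring
    have e2 : ((Nat.card X : ℝ) - ∑ Y ∈ subLt X, (psi Y : ℝ)) = psi X := by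
      have := sum_psi X
      rw [hsplit, sum_insert hnot] at this
      have h3 : ((psi X : ℝ) + ∑ Y ∈ subLt X, (psi Y : ℝ)) = (Nat.card X : ℝ) := by
        exact_mod_cast this
      linarith
    rw [e1, e2] at hsub
    exact hsub

theorem psi_zpowers_pos (σ : G) : 0 < psi (Subgroup.zpowers σ) := by
  unfold psi
  have : Nonempty {x : G // Subgroup.zpowers x = Subgroup.zpowers σ} := ⟨⟨σ, rfl⟩⟩
  exact Nat.card_pos

end Group

end Fermat.Agent.Lib.Cheb.H341

end
-- ===== PACK-END Lib/Cheb/H341/Abstract.lean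

-- ===== PACK-BEGIN Lib/EulerProd/EulerUFM.lean
section


/-!
# Euler products over a unique factorization monoid with trivial units

`Fermat.Agent.Lib.EulerProd.hasProd_one_sub_inv`: if `M` is a commutative monoid with
zero which is a unique factorization monoid with trivial unit group (e.g. the ideals of a
Dedekind domain), `F` is a complete normed field and `f : M → F` is completely multiplicative
(`f 0 = 0`, `f 1 = 1`, `f (a * b) = f a * f b`) and norm-summable, then
`∏ p prime, (1 - f p)⁻¹ = ∑ m, f m`.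

The proof follows `Mathlib/NumberTheory/EulerProduct/Basic.lean` (the case `M = ℕ`).
-/

set_option autoImplicit false
set_option linter.unusedSectionVars false
set_option linter.overlappingInstances false

namespace Fermat.Agent.Lib.EulerProd

open Finset

variable {M : Type*} [CommMonoidWithZero M] [UniqueFactorizationMonoid M]
  [Subsingleton Mˣ] [Nontrivial M]

/-- The nonzero elements of `M` all of whose prime divisors lie in `T`. -/
def smoothSet (T : Set M) : Set M := {m | m ≠ 0 ∧ ∀ p, Prime p → p ∣ m → p ∈ T}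

theorem mem_smoothSet {T : Set M} {m : M} :
    m ∈ smoothSet T ↔ m ≠ 0 ∧ ∀ p, Prime p → p ∣ m → p ∈ T := Iff.rfl

theorem smoothSet_mono {T T' : Set M} (h : T ⊆ T') : smoothSet T ⊆ smoothSet T' :=
  fun _ hm => ⟨hm.1, fun p hp hpm => h (hm.2 p hp hpm)⟩

theorem zero_notMem_smoothSet (T : Set M) : (0 : M) ∉ smoothSet T := fun h => h.1 rfl

theorem eq_one_of_forall_prime_not_dvd {m : M} (hm : m ≠ 0) (h : ∀ p, Prime p → ¬ p ∣ m) :
    m = 1 := by
  by_contra hne
  have hu : ¬ IsUnit m := fun hu => hne (by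
    obtain ⟨u, rfl⟩ := hu
    rw [Subsingleton.elim u 1, Units.val_one])
  obtain ⟨i, hi, hdvd⟩ := WfDvdMonoid.exists_irreducible_factor hu hm
  exact h i (UniqueFactorizationMonoid.irreducible_iff_prime.mp hi) hdvd

theorem smoothSet_empty : smoothSet (∅ : Set M) = {1} := by
  ext m
  simp only [mem_smoothSet, Set.mem_empty_iff_false, imp_false, Set.mem_singleton_iff]
  constructor
  · rintro ⟨hm, h⟩
    exact eq_one_of_forall_prime_not_dvd hm h
  · rintro rfl
    exact ⟨one_ne_zero, fun p hp hdvd => hp.not_isUnit (isUnit_of_dvd_one hdvd)⟩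

/-- Inserting a non-prime does not change the smooth set. -/
theorem smoothSet_insert_of_not_prime {T : Set M} {p : M} (hp : ¬ Prime p) :
    smoothSet (insert p T) = smoothSet T := by
  ext m
  simp only [mem_smoothSet, Set.mem_insert_iff]
  refine and_congr_right fun _ => forall_congr' fun q => ?_
  constructor
  · intro h hq hqm
    rcases h hq hqm with rfl | h'
    · exact absurd hq hp
    · exact h'
  · intro h hq hqm
    exact Or.inr (h hq hqm)

theorem pow_mul_mem_smoothSet {T : Set M} {p : M} (hp : Prime p) (e : ℕ) {m : M}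
    (hm : m ∈ smoothSet T) : p ^ e * m ∈ smoothSet (insert p T) := by
  refine ⟨mul_ne_zero (pow_ne_zero _ hp.ne_zero) hm.1, fun q hq hqd => ?_⟩
  rcases hq.dvd_or_dvd hqd with h | h
  · have := hq.dvd_of_dvd_pow h
    exact Or.inl ((prime_dvd_prime_iff_eq hq hp).mp this)
  · exact Or.inr (hm.2 q hq h)

/-- The bijection `(e, m) ↦ p ^ e * m`. -/
theorem bijective_pow_mul {T : Set M} {p : M} (hp : Prime p) (hpT : p ∉ T) :
    Function.Bijective (fun x : ℕ × smoothSet T =>
      (⟨p ^ x.1 * x.2.1, pow_mul_mem_smoothSet hp x.1 x.2.2⟩ : smoothSet (insert p T))) := by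
  have hnd : ∀ m ∈ smoothSet T, ¬ p ∣ m := fun m hm hd => hpT (hm.2 p hp hd)
  have key : ∀ (e e' : ℕ) (m m' : M), m ∈ smoothSet T → m' ∈ smoothSet T → e ≤ e' →
      p ^ e * m = p ^ e' * m' → e = e' ∧ m = m' := by
    intro e e' m m' hm hm' hle h
    obtain ⟨k, rfl⟩ := Nat.exists_eq_add_of_le hle
    rw [pow_add, mul_assoc] at h
    have h2 : m = p ^ k * m' := mul_left_cancel₀ (pow_ne_zero _ hp.ne_zero) h
    rcases Nat.eq_zero_or_pos k with rfl | hk
    · simpa using h2
    · exfalso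
      apply hnd m hm
      rw [h2]
      exact Dvd.dvd.mul_right (dvd_pow_self p hk.ne') _
  constructor
  · rintro ⟨e, m, hm⟩ ⟨e', m', hm'⟩ h
    simp only [Subtype.mk.injEq] at h
    rcases le_total e e' with hle | hle
    · obtain ⟨rfl, rfl⟩ := key e e' m m' hm hm' hle h
      rfl
    · obtain ⟨rfl, rfl⟩ := key e' e m' m hm' hm hle h.symm
      rfl
  · rintro ⟨m, hm⟩
    have hfin : FiniteMultiplicity p m := FiniteMultiplicity.of_not_isUnit hp.not_isUnit hm.1
    obtain ⟨c, hc, hnd'⟩ := hfin.exists_eq_pow_mul_and_not_dvd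
    have hc0 : c ≠ 0 := by
      rintro rfl
      exact hm.1 (by rw [hc, mul_zero])
    have hcs : c ∈ smoothSet T := by
      refine ⟨hc0, fun q hq hqc => ?_⟩
      have hqm : q ∣ m := by
        rw [hc]
        exact Dvd.dvd.mul_left hqc _
      rcases hm.2 q hq hqm with rfl | h
      · exact absurd hqc hnd'
      · exact h
    exact ⟨(multiplicity p m, ⟨c, hcs⟩), Subtype.ext hc.symm⟩

/-- The equivalence `ℕ × smoothSet T ≃ smoothSet (insert p T)`, `(e, m) ↦ p ^ e * m`. -/
noncomputable def equivProdNatSmooth {T : Set M} {p : M} (hp : Prime p) (hpT : p ∉ T) :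
    ℕ × smoothSet T ≃ smoothSet (insert p T) :=
  Equiv.ofBijective _ (bijective_pow_mul hp hpT)

@[simp]
theorem equivProdNatSmooth_apply {T : Set M} {p : M} (hp : Prime p) (hpT : p ∉ T)
    (x : ℕ × smoothSet T) : ((equivProdNatSmooth hp hpT x : smoothSet (insert p T)) : M) =
      p ^ x.1 * x.2.1 := rfl


/-! ### The analytic part -/

section Analytic

variable {F : Type*} [NormedField F] [CompleteSpace F] {f : M → F}

open Classical in
/-- A finite product over primes in `T` is the sum over `T`-smooth elements. -/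
theorem summable_and_hasSum_smoothSet (hf₁ : f 1 = 1) (hmul : ∀ a b, f (a * b) = f a * f b)
    (hlt : ∀ p, Prime p → ‖f p‖ < 1) (T : Finset M) :
    Summable (fun m : smoothSet (T : Set M) ↦ ‖f m‖) ∧
      HasSum (fun m : smoothSet (T : Set M) ↦ f m) (∏ p ∈ T with Prime p, (1 - f p)⁻¹) := by
  induction T using Finset.induction with
  | empty =>
    rw [Finset.coe_empty, smoothSet_empty]
    simp only [Finset.filter_empty, Finset.prod_empty]
    exact ⟨(Set.finite_singleton 1).summable (‖f ·‖), hf₁ ▸ hasSum_singleton 1 f⟩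
  | insert p T hp ih =>
    rw [Finset.coe_insert, Finset.filter_insert]
    split_ifs with hpp
    · have hpT : p ∉ (T : Set M) := by simpa using hp
      have hpow : ∀ e : ℕ, f (p ^ e) = f p ^ e := by
        intro e
        induction e with
        | zero => simp [hf₁]
        | succ e ihe => rw [pow_succ, hmul, ihe, pow_succ]
      have hgeo : Summable (fun e : ℕ => ‖f p ^ e‖) := by
        simp only [norm_pow]
        exact summable_geometric_of_lt_one (norm_nonneg _) (hlt p hpp)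
      constructor
      · rw [← (equivProdNatSmooth hpp hpT).summable_iff]
        simp only [Function.comp_def, equivProdNatSmooth_apply, hmul, hpow]
        refine Summable.of_nonneg_of_le (fun _ ↦ norm_nonneg _) (fun _ ↦ norm_mul_le ..) ?_
        apply Summable.mul_of_nonneg hgeo ih.1 <;> exact fun n ↦ norm_nonneg _
      · have hp' : p ∉ {p ∈ T | Prime p} := mt (Finset.mem_of_mem_filter p) hp
        rw [Finset.prod_insert hp', ← (equivProdNatSmooth hpp hpT).hasSum_iff, Function.comp_def]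
        simp only [equivProdNatSmooth_apply, hmul, hpow]
        apply (hasSum_geometric_of_norm_lt_one (hlt p hpp)).mul ih.2
        apply summable_mul_of_summable_norm hgeo ih.1
    · rwa [smoothSet_insert_of_not_prime hpp]


open Classical in
/-- Finitely many elements are simultaneously smooth for a finite set of primes. -/
theorem exists_finset_smooth (S : Finset M) :
    ∃ T : Finset M, ∀ m ∈ S, m ≠ 0 → m ∈ smoothSet (T : Set M) := by
  refine ⟨S.biUnion fun m => (UniqueFactorizationMonoid.factors m).toFinset, fun m hm hm0 => ?_⟩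
  refine ⟨hm0, fun p hp hpm => ?_⟩
  obtain ⟨q, hq, hpq⟩ := UniqueFactorizationMonoid.exists_mem_factors_of_dvd hm0 hp.irreducible hpm
  rw [associated_iff_eq] at hpq
  subst hpq
  simp only [Finset.coe_biUnion, Set.mem_iUnion, Finset.mem_coe, Multiset.mem_toFinset]
  exact ⟨m, hm, hq⟩

/-- Summing over `T`-smooth elements for `T` large gets arbitrarily close to the full sum. -/
theorem norm_tsum_smoothSet_sub_tsum_lt (hsum : Summable f) (hf₀ : f 0 = 0) {ε : ℝ}
    (εpos : 0 < ε) :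
    ∃ T₀ : Finset M, ∀ T : Finset M, T₀ ⊆ T →
      ‖(∑' m : M, f m) - ∑' m : smoothSet (T : Set M), f m‖ < ε := by
  obtain ⟨S, hS⟩ := hsum.tsum_vanishing (Metric.ball_mem_nhds 0 εpos)
  obtain ⟨T₀, hT₀⟩ := exists_finset_smooth S
  refine ⟨T₀, fun T hT => ?_⟩
  have hdisj : Disjoint ((smoothSet (T : Set M))ᶜ \ {0}) (S : Set M) := by
    rw [Set.disjoint_left]
    rintro m ⟨hm, hm0⟩ hmS
    exact hm (smoothSet_mono (by exact_mod_cast hT) (hT₀ m hmS hm0))
  have := hS _ hdisj
  rw [mem_ball_zero_iff] at this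
  rwa [← hsum.tsum_subtype_add_tsum_subtype_compl (smoothSet (T : Set M)),
    add_sub_cancel_left, tsum_eq_tsum_sdiff_singleton (smoothSet (T : Set M))ᶜ hf₀]

theorem norm_lt_one_of_summable (hf₁ : f 1 = 1) (hmul : ∀ a b, f (a * b) = f a * f b)
    (hsum : Summable (‖f ·‖)) {p : M} (hp : Prime p) : ‖f p‖ < 1 := by
  have hpow : ∀ e : ℕ, f (p ^ e) = f p ^ e := by
    intro e
    induction e with
    | zero => simp [hf₁]
    | succ e ihe => rw [pow_succ, hmul, ihe, pow_succ]
  have h1 : Summable (fun e : ℕ => ‖f (p ^ e)‖) :=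
    hsum.comp_injective (pow_injective_of_not_isUnit hp.not_isUnit hp.ne_zero)
  simp only [hpow, norm_pow] at h1
  have := summable_geometric_iff_norm_lt_one.mp h1
  simpa using this

open Classical in
/-- **Euler product** for a completely multiplicative norm-summable function on a unique
factorization monoid with trivial units. -/
theorem hasProd_one_sub_inv (hf₀ : f 0 = 0) (hf₁ : f 1 = 1)
    (hmul : ∀ a b, f (a * b) = f a * f b) (hsum : Summable (‖f ·‖)) :
    HasProd (fun p : {p : M // Prime p} ↦ (1 - f p)⁻¹) (∑' m, f m) := by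
  have hlt : ∀ p, Prime p → ‖f p‖ < 1 := fun p hp => norm_lt_one_of_summable hf₁ hmul hsum hp
  let G : M → F := fun p ↦ (1 - f p)⁻¹
  change HasProd (G ∘ Subtype.val (p := (· ∈ {x | Prime x}))) _
  rw [hasProd_subtype_iff_mulIndicator, HasProd, SummationFilter.unconditional,
    Metric.tendsto_atTop]
  intro ε hε
  obtain ⟨T₀, hT₀⟩ := norm_tsum_smoothSet_sub_tsum_lt hsum.of_norm hf₀ hε
  refine ⟨T₀, fun T hT ↦ ?_⟩
  have : ∏ p ∈ T, {p | Prime p}.mulIndicator G p = ∏ p ∈ T with Prime p, G p :=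
    Finset.prod_mulIndicator_eq_prod_filter T (fun _ ↦ G) _ id
  rw [this, dist_eq_norm, ← (summable_and_hasSum_smoothSet hf₁ hmul hlt T).2.tsum_eq,
    norm_sub_rev]
  exact hT₀ T hT

/-- Finite partial Euler products are sums over smooth elements. -/
theorem prod_one_sub_inv_eq_tsum_smoothSet (hf₁ : f 1 = 1)
    (hmul : ∀ a b, f (a * b) = f a * f b) (hsum : Summable (‖f ·‖)) (T : Finset M)
    (hT : ∀ p ∈ T, Prime p) :
    ∏ p ∈ T, (1 - f p)⁻¹ = ∑' m : smoothSet (T : Set M), f m := by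
  classical
  have hlt : ∀ p, Prime p → ‖f p‖ < 1 := fun p hp => norm_lt_one_of_summable hf₁ hmul hsum hp
  rw [(summable_and_hasSum_smoothSet hf₁ hmul hlt T).2.tsum_eq, Finset.filter_true_of_mem hT]

end Analytic

end Fermat.Agent.Lib.EulerProd

end
-- ===== PACK-END Lib/EulerProd/EulerUFM.lean

-- ===== PACK-BEGIN A2/H729/RegSeq.lean
section


/-!
# A2 (helper729): the regular-sequence lemma on a normal model

`A` an integrally closed domain, `F` a field containing `A`, `w ∈ A` prime, `s ∈ A` not divisible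
by `w`.  If `w t` and `s t` are integral over `A` then `t` is integral over `A`.
(No noetherian hypothesis, no Krull domains: minimal polynomials and `scaleRoots`.)
-/

set_option autoImplicit false

namespace Fermat.Agent.A2.H729

open Polynomial

variable {A : Type*} [CommRing A] [IsDomain A] [IsIntegrallyClosed A]
  {F : Type*} [Field F] [Algebra A F] [Module.IsTorsionFree A F]

theorem isIntegral_of_smul_of_smul {w s : A} (hw : Prime w) (hs : ¬ w ∣ s) {t : F}
    (h1 : IsIntegral A (w • t)) (h2 : IsIntegral A (s • t)) : IsIntegral A t := by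
  classical
  have hw0 : w ≠ 0 := hw.ne_zero
  have hs0 : s ≠ 0 := fun h => hs (h ▸ dvd_zero w)
  set p := minpoly A (w • t) with hp
  set p' := minpoly A (s • t) with hp'
  have hcomm : s • (w • t) = w • (s • t) := smul_comm s w t
  have hE : p.scaleRoots s = p'.scaleRoots w := by
    rw [hp, hp', ← IsIntegrallyClosed.minpoly_smul hs0 h1, ← IsIntegrallyClosed.minpoly_smul hw0 h2,
      hcomm]
  set n := p.natDegree with hn
  have hn' : p'.natDegree = n := by
    have := congrArg natDegree hE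
    rw [natDegree_scaleRoots, natDegree_scaleRoots] at this
    exact this.symm
  have hcoef : ∀ i, p.coeff i * s ^ (n - i) = p'.coeff i * w ^ (n - i) := by
    intro i
    have := congrArg (fun q => q.coeff i) hE
    simp only [coeff_scaleRoots] at this
    rw [hn'] at this
    exact this
  have hspow : ∀ k : ℕ, ¬ w ∣ s ^ k := fun k h => hs (hw.dvd_of_dvd_pow h)
  have hdvd : ∀ i, w ^ (n - i) ∣ p.coeff i := by
    intro i
    refine hw.pow_dvd_of_dvd_mul_right _ (hspow (n - i)) ?_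
    rw [hcoef i]
    exact Dvd.intro_left _ rfl
  choose c hc using hdvd
  have hmonic : p.Monic := minpoly.monic h1
  -- the monic polynomial annihilating `t`
  set q : A[X] := X ^ n + ∑ i : Fin n, C (c i) * X ^ (i : ℕ) with hq
  have hqm : q.Monic := monic_X_pow_add (degree_sum_fin_lt fun i : Fin n => c i)
  refine ⟨q, hqm, ?_⟩
  have hp_eval : aeval (w • t) p = 0 := minpoly.aeval A (w • t)
  -- expand `p` as a sum over `range (n+1)`
  have hpsum : aeval (w • t) p = ∑ i ∈ Finset.range (n + 1), p.coeff i • (w • t) ^ i := by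
    rw [aeval_eq_sum_range]
  have key : (w ^ n) • (eval₂ (algebraMap A F) t q) = aeval (w • t) p := by
    rw [hpsum, hq, eval₂_add, eval₂_pow, eval₂_X, eval₂_finsetSum, Finset.sum_range_succ,
      Finset.sum_range fun i => p.coeff i • (w • t) ^ i]
    have hlead : p.coeff n = 1 := hmonic.coeff_natDegree
    rw [hlead, one_smul, smul_add, Finset.smul_sum, add_comm]
    congr 1
    · refine Finset.sum_congr rfl fun i _ => ?_
      rw [eval₂_mul, eval₂_C, eval₂_pow, eval₂_X, hc i, _root_.smul_pow, Algebra.smul_def,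
        Algebra.smul_def, Algebra.smul_def, map_mul, map_pow, map_pow, map_pow]
      have hpow : (algebraMap A F w) ^ n =
          (algebraMap A F w) ^ (n - (i : ℕ)) * (algebraMap A F w) ^ (i : ℕ) := by
        rw [← pow_add]
        congr 1
        have := i.2
        omega
      rw [hpow]
      ring
    · rw [_root_.smul_pow]
  have h0 : (w ^ n) • (eval₂ (algebraMap A F) t q) = 0 := by rw [key, hp_eval]
  rcases smul_eq_zero.1 h0 with h | h
  · exact absurd h (pow_ne_zero _ hw0)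
  · exact h

end Fermat.Agent.A2.H729

end
-- ===== PACK-END A2/H729/RegSeq.lean

-- ===== PACK-BEGIN S35/H558/FixCore.lean
section


/-!
# S35 / FROB — leaf FIX, abstract core (helper558), Mathlib only

*Nodes are fixed by the square of a Frobenius lift.*

Setting: two ring homomorphisms `α β : A →+* B` (the two degeneracy maps between the charts of
levels `M` and `Mq`), two ideals `P₁ P₂` of `B` (the two components of the special fibre), a ring
endomorphism `ψ` of `A` (the action of `σ⁻¹` on coefficients, `σ` a Frobenius lift) with the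
PRECISE semilinear Kronecker congruences

    β a ≡ (α (ψ a)) ^ q  mod P₁,        α a ≡ (β (ψ a)) ^ q  mod P₂,

ring endomorphisms `Φ` of `B` and `Φ₀` of `A` (the action of `σ²`) with `Φ ∘ α = α ∘ Φ₀`,
`ψ ∘ ψ ∘ Φ₀ = id`, `Φ P₁ ⊆ P₁`, and `B = α A + P₁` (the first component is parametrised by `α`).

Then for every ideal `n ⊇ P₁ + P₂` (a NODE):

* `frob_sq_sub_pow_mem`  : `Φ b - b ^ (q ^ 2) ∈ n` for every `b : B`
                           (`Φ` induces the `q²`-Frobenius on `B / n`);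
* `frob_sq_mem`          : `b ∈ n → Φ b ∈ n`   (`Φ n ⊆ n`: the node is fixed);
* `frob_sq_mem_iff`      : `Φ b ∈ n ↔ b ∈ n` for prime `n`.

No noetherian hypothesis, no normality, nothing about valuations.
-/

set_option autoImplicit false

namespace Fermat.Agent.S35.H558

variable {A B : Type*} [CommRing A] [CommRing B]

/-- `x - y ∈ n` implies `x ^ k - y ^ k ∈ n` (`x - y ∣ x ^ k - y ^ k`). -/
theorem pow_sub_pow_mem_fix {n : Ideal B} {x y : B} (h : x - y ∈ n) (k : ℕ) :
    x ^ k - y ^ k ∈ n := by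
  obtain ⟨c, hc⟩ := sub_dvd_pow_sub_pow x y k
  rw [hc]
  exact n.mul_mem_right c h

section Core

variable {q : ℕ} {α β : A →+* B} {P₁ P₂ n : Ideal B} {ψ Φ₀ : A →+* A} {Φ : B →+* B}

/-- **Two Kronecker steps at a node**: `α a ≡ (α (ψ (ψ a))) ^ (q ^ 2)` modulo `n ⊇ P₁ + P₂`. -/
theorem alpha_sub_pow_sq_mem (hP₁ : P₁ ≤ n) (hP₂ : P₂ ≤ n)
    (hK₁ : ∀ a : A, β a - (α (ψ a)) ^ q ∈ P₁) (hK₂ : ∀ a : A, α a - (β (ψ a)) ^ q ∈ P₂)
    (a : A) : α a - (α (ψ (ψ a))) ^ (q ^ 2) ∈ n := by
  have h1 : α a - (β (ψ a)) ^ q ∈ n := hP₂ (hK₂ a)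
  have h2 : β (ψ a) - (α (ψ (ψ a))) ^ q ∈ n := hP₁ (hK₁ (ψ a))
  have h3 : (β (ψ a)) ^ q - ((α (ψ (ψ a))) ^ q) ^ q ∈ n := pow_sub_pow_mem_fix h2 q
  have h4 : α a - (α (ψ (ψ a))) ^ (q ^ 2) =
      (α a - (β (ψ a)) ^ q) + ((β (ψ a)) ^ q - ((α (ψ (ψ a))) ^ q) ^ q) := by
    rw [pow_two, pow_mul]
    ring
  rw [h4]
  exact n.add_mem h1 h3

/-- **FIX, core.**  `Φ` (the square of a Frobenius lift) induces the `q²`-power map on `B / n`
for every ideal `n ⊇ P₁ + P₂` (the characteristic plays no role here). -/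
theorem frob_sq_sub_pow_mem (hP₁ : P₁ ≤ n) (hP₂ : P₂ ≤ n)
    (hK₁ : ∀ a : A, β a - (α (ψ a)) ^ q ∈ P₁) (hK₂ : ∀ a : A, α a - (β (ψ a)) ^ q ∈ P₂)
    (hΦα : ∀ a : A, Φ (α a) = α (Φ₀ a)) (hψΦ : ∀ a : A, ψ (ψ (Φ₀ a)) = a)
    (hΦP : ∀ p ∈ P₁, Φ p ∈ P₁) (hsurj : ∀ b : B, ∃ a : A, b - α a ∈ P₁) (b : B) :
    Φ b - b ^ (q ^ 2) ∈ n := by
  obtain ⟨a, ha⟩ := hsurj b
  -- `Φ b ≡ Φ (α a) = α (Φ₀ a) ≡ (α a) ^ (q²) ≡ b ^ (q²)`
  have h1 : Φ b - α (Φ₀ a) ∈ n := by
    have := hΦP _ ha
    rw [map_sub, hΦα] at this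
    exact hP₁ this
  have h2 : α (Φ₀ a) - (α a) ^ (q ^ 2) ∈ n := by
    have := alpha_sub_pow_sq_mem (q := q) hP₁ hP₂ hK₁ hK₂ (Φ₀ a)
    rwa [hψΦ] at this
  have h3 : b ^ (q ^ 2) - (α a) ^ (q ^ 2) ∈ n := by
    have hb : b - α a ∈ n := hP₁ ha
    exact pow_sub_pow_mem_fix hb (q ^ 2)
  have h4 : Φ b - b ^ (q ^ 2) =
      (Φ b - α (Φ₀ a)) + (α (Φ₀ a) - (α a) ^ (q ^ 2)) - (b ^ (q ^ 2) - (α a) ^ (q ^ 2)) := by ring
  rw [h4]
  exact n.sub_mem (n.add_mem h1 h2) h3

/-- **FIX.**  Every node `n ⊇ P₁ + P₂` is mapped into itself by `Φ`. -/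
theorem frob_sq_mem (hq0 : 0 < q) (hP₁ : P₁ ≤ n) (hP₂ : P₂ ≤ n)
    (hK₁ : ∀ a : A, β a - (α (ψ a)) ^ q ∈ P₁) (hK₂ : ∀ a : A, α a - (β (ψ a)) ^ q ∈ P₂)
    (hΦα : ∀ a : A, Φ (α a) = α (Φ₀ a)) (hψΦ : ∀ a : A, ψ (ψ (Φ₀ a)) = a)
    (hΦP : ∀ p ∈ P₁, Φ p ∈ P₁) (hsurj : ∀ b : B, ∃ a : A, b - α a ∈ P₁)
    {b : B} (hb : b ∈ n) : Φ b ∈ n := by
  have h1 := frob_sq_sub_pow_mem hP₁ hP₂ hK₁ hK₂ hΦα hψΦ hΦP hsurj b
  have h2 : b ^ (q ^ 2) ∈ n := n.pow_mem_of_mem hb _ (pow_pos hq0 2)
  have h3 : Φ b = (Φ b - b ^ (q ^ 2)) + b ^ (q ^ 2) := by ring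
  rw [h3]
  exact n.add_mem h1 h2

/-- **FIX, iff form** for a prime (e.g. maximal) node. -/
theorem frob_sq_mem_iff [n.IsPrime] (hP₁ : P₁ ≤ n) (hP₂ : P₂ ≤ n)
    (hK₁ : ∀ a : A, β a - (α (ψ a)) ^ q ∈ P₁) (hK₂ : ∀ a : A, α a - (β (ψ a)) ^ q ∈ P₂)
    (hΦα : ∀ a : A, Φ (α a) = α (Φ₀ a)) (hψΦ : ∀ a : A, ψ (ψ (Φ₀ a)) = a)
    (hΦP : ∀ p ∈ P₁, Φ p ∈ P₁) (hsurj : ∀ b : B, ∃ a : A, b - α a ∈ P₁) (b : B) :
    Φ b ∈ n ↔ b ∈ n := by
  refine ⟨fun h => ?_, fun h => ?_⟩
  swap
  · rcases Nat.eq_zero_or_pos q with h0 | hq0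
    · -- `q = 0`: `b ^ (0 ^ 2) = 1`, so `Φ b - 1 ∈ n`; impossible for `b ∈ n` unless trivial
      have h1 := frob_sq_sub_pow_mem hP₁ hP₂ hK₁ hK₂ hΦα hψΦ hΦP hsurj (0 : B)
      rw [h0] at h1
      simp at h1
      exact absurd ((Ideal.eq_top_iff_one n).mpr h1) (Ideal.IsPrime.ne_top inferInstance)
    · exact frob_sq_mem hq0 hP₁ hP₂ hK₁ hK₂ hΦα hψΦ hΦP hsurj h
  have h1 := frob_sq_sub_pow_mem hP₁ hP₂ hK₁ hK₂ hΦα hψΦ hΦP hsurj b
  have h2 : b ^ (q ^ 2) ∈ n := by
    have h3 : b ^ (q ^ 2) = Φ b - (Φ b - b ^ (q ^ 2)) := by ring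
    rw [h3]
    exact n.sub_mem h h1
  exact Ideal.IsPrime.mem_of_pow_mem inferInstance _ h2

/-- `Φ` maps `n` ONTO `n` when `Φ` is bijective: `Ideal.map`/`comap` form. -/
theorem frob_sq_comap_eq [n.IsPrime] (hP₁ : P₁ ≤ n) (hP₂ : P₂ ≤ n)
    (hK₁ : ∀ a : A, β a - (α (ψ a)) ^ q ∈ P₁) (hK₂ : ∀ a : A, α a - (β (ψ a)) ^ q ∈ P₂)
    (hΦα : ∀ a : A, Φ (α a) = α (Φ₀ a)) (hψΦ : ∀ a : A, ψ (ψ (Φ₀ a)) = a)
    (hΦP : ∀ p ∈ P₁, Φ p ∈ P₁) (hsurj : ∀ b : B, ∃ a : A, b - α a ∈ P₁) :
    n.comap Φ = n := by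
  ext b
  rw [Ideal.mem_comap]
  exact frob_sq_mem_iff hP₁ hP₂ hK₁ hK₂ hΦα hψΦ hΦP hsurj b

end Core

end Fermat.Agent.S35.H558

end
-- ===== PACK-END S35/H558/FixCore.lean

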