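import Mathlib.AlgebraicGeometry.EllipticCurve.Affine.AddSubMap
import Mathlib.Tactic
import Mathlib
import Fermat.Prelude.Def_ModularForm_HeckeOperator
import Fermat.Prelude.Def_ModularForm_HeckeOperatorForms
import Fermat.Prelude.Def_FLTPrelim_Modularity
import Fermat.Prelude.Thm_CongruenceSubgroup_one_mem_strictPeriods_Gamma0
import Fermat.Prelude.Thm_ModularFormClass_qCoeff_heckeU
import Fermat.Prelude.Def_GaloisRep_Adic
import Fermat.Prelude.Def_ModularCurve_LaurentCoeff
import Mathlib.RingTheory.Length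
import Fermat.Agent.Pack.S58.E0L2
import Fermat.Agent.Pack.S58.E0L1
import Fermat.Agent.Pack.S58.E0L0
import Fermat.Agent.Pack.S58.E0L3

-- ===== PACK-BEGIN S59/H240/Node/Curve.lean
section


/-!
# S59 / CR-I (helper240): the nodal normal form as a Weierstrass curve

* `gX`, `gY` : the two partial derivatives of the Weierstrass polynomial (up to sign), the
  intrinsic "distance to the singular point of the reduction" is `max (v gX) (v gY)`;
* `InE0 W v P` : `P` has nonsingular reduction (or lies in the kernel of reduction);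
* `nodeCurve a` : `y² + xy = x³ + a x`;
* `node_sub_inE0` : on `nodeCurve a` (`0 < v a < 1`) the difference of two points of the annulus
  `v x < 1` lying in the same class belongs to `E₀`.
-/

set_option autoImplicit false
set_option linter.unusedSectionVars false

namespace Fermat.Agent.S59.H240

open WeierstrassCurve WeierstrassCurve.Affine

variable {K : Type*} [Field K] {Γ₀ : Type*} [LinearOrderedCommGroupWithZero Γ₀]
  {v : Valuation K Γ₀}

/-- `-∂F/∂x` of the Weierstrass polynomial. -/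
def gX (W : WeierstrassCurve K) (x y : K) : K := W.a₁ * y - (3 * x ^ 2 + 2 * W.a₂ * x + W.a₄)

/-- `∂F/∂y` of the Weierstrass polynomial. -/
def gY (W : WeierstrassCurve K) (x y : K) : K := 2 * y + W.a₁ * x + W.a₃

/-- The subgroup `E₀` (as a predicate): the point at infinity, the points with non-integral
`x`-coordinate, and the integral points with nonsingular reduction. -/
def InE0 (W : Affine K) (v : Valuation K Γ₀) : W.Point → Prop
  | .zero => True
  | .some x y _ => 1 < v x ∨ v (gX W x y) = 1 ∨ v (gY W x y) = 1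

@[simp] lemma inE0_zero (W : Affine K) : InE0 W v (0 : W.Point) := trivial

lemma inE0_some {W : Affine K} {x y : K} (h : W.Nonsingular x y) :
    InE0 W v (Point.some x y h) ↔ (1 < v x ∨ v (gX W x y) = 1 ∨ v (gY W x y) = 1) := Iff.rfl

/-- The normal form `N(a) : y² + xy = x³ + a x`. -/
def nodeCurve (a : K) : WeierstrassCurve K := ⟨1, 0, 0, a, 0⟩

variable {a x y x' y' : K}

@[simp] lemma nodeCurve_a₁ : (nodeCurve a).a₁ = 1 := rfl
@[simp] lemma nodeCurve_a₂ : (nodeCurve a).a₂ = 0 := rfl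
@[simp] lemma nodeCurve_a₃ : (nodeCurve a).a₃ = 0 := rfl
@[simp] lemma nodeCurve_a₄ : (nodeCurve a).a₄ = a := rfl
@[simp] lemma nodeCurve_a₆ : (nodeCurve a).a₆ = 0 := rfl

lemma nodeCurve_equation_iff : (nodeCurve a).toAffine.Equation x y ↔ NodeEq a x y := by
  rw [Affine.equation_iff]
  simp only [nodeCurve_a₁, nodeCurve_a₂, nodeCurve_a₃, nodeCurve_a₄, nodeCurve_a₆, NodeEq]
  constructor <;> intro h <;> linear_combination h

lemma nodeCurve_negY : (nodeCurve a).toAffine.negY x y = -y - x := by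
  simp [Affine.negY]

lemma nodeCurve_gX : gX (nodeCurve a) x y = y - 3 * x ^ 2 - a := by
  simp [gX]; ring

lemma nodeCurve_gY : gY (nodeCurve a) x y = 2 * y + x := by
  simp [gY]

lemma nodeCurve_addX (ℓ : K) : (nodeCurve a).toAffine.addX x' x ℓ = ℓ ^ 2 + ℓ - x' - x := by
  simp [Affine.addX]

/-- The key identity: `x³` lies in the ideal generated by `gX`, `gY`, `a` (modulo the equation). -/
lemma node_x_cube (h : NodeEq a x y) :
    x ^ 3 = (y - 3 * x ^ 2 - a) * (-2 * (y - 3 * x ^ 2 - a) - 6 * x ^ 2 - 4 * a - 2 * x)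
      - 3 * x ^ 2 * (2 * y + x) - a * (6 * x ^ 2 + 2 * a) := by
  unfold NodeEq at h
  linear_combination 2 * h

/-- A point of `N(a)` with `1 ≤ v x` belongs to `E₀`. -/
lemma node_inE0_of_le (ha : v a < 1) (h : (nodeCurve a).toAffine.Nonsingular x y)
    (hx : 1 ≤ v x) : InE0 (nodeCurve a).toAffine v (Point.some x y h) := by
  rw [inE0_some]
  rcases hx.lt_or_eq with hlt | heq
  · exact Or.inl hlt
  right
  have hE := nodeCurve_equation_iff.mp h.1
  have hx1 : v x ≤ 1 := heq.ge
  -- `y` is integral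
  have hy1 : v y ≤ 1 := by
    by_contra hy
    rw [not_le] at hy
    have h1 : v (y + x) = v y := vadd_eq_left (lt_of_le_of_lt hx1 hy)
    have h2 : v (x ^ 2 + a) ≤ 1 :=
      vadd_le (by rw [map_pow]; exact pow_le_one₀ zero_le hx1) ha.le
    have h3 := congrArg v hE.factor
    rw [map_mul, map_mul, h1] at h3
    have h4 : v x * v (x ^ 2 + a) ≤ 1 := by
      calc v x * v (x ^ 2 + a) ≤ 1 * 1 := mul_le_mul' hx1 h2
        _ = 1 := one_mul 1
    have h5 : (1 : Γ₀) < v y * v y := by
      calc (1 : Γ₀) = 1 * 1 := (one_mul 1).symm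
        _ < v y * v y := by
          calc (1 : Γ₀) * 1 < v y * 1 := by rw [one_mul, mul_one]; exact hy
            _ ≤ v y * v y := mul_le_mul' le_rfl hy.le
    rw [h3] at h5
    exact absurd h4 (not_le.mpr h5)
  rw [nodeCurve_gX, nodeCurve_gY]
  set G : K := y - 3 * x ^ 2 - a with hG
  set H : K := 2 * y + x with hH
  have hx2 : v (x ^ 2) ≤ 1 := by rw [map_pow]; exact pow_le_one₀ zero_le hx1
  have hG1 : v G ≤ 1 :=
    vsub_le (vsub_le hy1 ((vmul_le_of_le_one_left vthree_le_one).trans hx2)) ha.le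
  have hH1 : v H ≤ 1 := vadd_le ((vmul_le_of_le_one_left vtwo_le_one).trans hy1) hx1
  by_contra hcon
  rw [not_or] at hcon
  have hGlt : v G < 1 := lt_of_le_of_ne hG1 hcon.1
  have hHlt : v H < 1 := lt_of_le_of_ne hH1 hcon.2
  have key := node_x_cube hE
  rw [← hG, ← hH] at key
  have hc : v (x ^ 3) < 1 := by
    rw [key]
    refine vsub_lt (vsub_lt ?_ ?_) ?_
    · refine lt_of_le_of_lt (vmul_le_of_le_one_right ?_) hGlt
      refine vsub_le (vsub_le (vsub_le ?_ ?_) ?_) ?_
      · exact (vmul_le_of_le_one_left (by rw [Valuation.map_neg]; exact vtwo_le_one)).trans hG1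
      · exact (vmul_le_of_le_one_right hx2).trans (vnat_le_one 6 |> fun h => by simpa using h)
      · exact (vmul_le_of_le_one_right ha.le).trans (vnat_le_one 4 |> fun h => by simpa using h)
      · exact (vmul_le_of_le_one_left vtwo_le_one).trans hx1
    · exact lt_of_le_of_lt (vmul_le_of_le_one_left
        ((vmul_le_of_le_one_left vthree_le_one).trans hx2)) hHlt
    · refine lt_of_le_of_lt (vmul_le_of_le_one_right ?_) ha
      refine vadd_le ?_ ?_
      · exact (vmul_le_of_le_one_right hx2).trans (vnat_le_one 6 |> fun h => by simpa using h)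
      · exact (vmul_le_of_le_one_left vtwo_le_one).trans ha.le
  rw [map_pow, ← heq, one_pow] at hc
  exact lt_irrefl _ hc

/-- From the slope bounds to the bound on the `x`-coordinate of the sum. -/
lemma one_le_val_addX {ℓ : K} (hx : v x < 1) (hx' : v x' < 1) (h1 : 1 ≤ v ℓ)
    (h2 : 1 ≤ v (ℓ + 1)) : 1 ≤ v (ℓ ^ 2 + ℓ - x' - x) := by
  have e : ℓ ^ 2 + ℓ - x' - x = ℓ * (ℓ + 1) + (-x' - x) := by ring
  have h3 : (1 : Γ₀) ≤ v (ℓ * (ℓ + 1)) := by
    rw [map_mul]
    calc (1 : Γ₀) = 1 * 1 := (one_mul 1).symm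
      _ ≤ v ℓ * v (ℓ + 1) := mul_le_mul' h1 h2
  have h4 : v (-x' - x) < 1 := vsub_lt (vneg_lt hx') hx
  rw [e, vadd_eq_left (lt_of_lt_of_le h4 h3)]
  exact h3

variable [DecidableEq K]

/-- **Main theorem for the normal form.**  On `N(a)`, `0 < v a < 1`, the difference of two points
of the annulus `v x < 1` lying in the same class belongs to `E₀`. -/
theorem node_sub_inE0 (ha0 : a ≠ 0) (ha : v a < 1)
    (h : (nodeCurve a).toAffine.Nonsingular x y) (h' : (nodeCurve a).toAffine.Nonsingular x' y')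
    (hx : v x < 1) (hx' : v x' < 1)
    (hcl : (ClM v a x ∧ ClM v a x') ∨ (v x = v x' ∧ BrP v a x y ∧ BrP v a x' y') ∨
      (v x = v x' ∧ BrN v a x y ∧ BrN v a x' y')) :
    InE0 (nodeCurve a).toAffine v (Point.some x' y' h' - Point.some x y h) := by
  have hE := nodeCurve_equation_iff.mp h.1
  have hE' := nodeCurve_equation_iff.mp h'.1
  rw [sub_eq_add_neg, Point.neg_some]
  by_cases hxx : x' = x
  · subst hxx
    rcases Affine.Y_eq_of_X_eq h'.1 h.1 rfl with hyy | hyy
    · -- `P' = P`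
      subst hyy
      rw [Point.add_of_Y_eq rfl (by rw [Affine.negY_negY])]
      exact inE0_zero _
    · by_cases hyy' : y' = y
      · subst hyy'
        rw [Point.add_of_Y_eq rfl (by rw [Affine.negY_negY])]
        exact inE0_zero _
      · -- `P' = -P ≠ P`: only in the middle class
        have hM : ClM v a x' := by
          rcases hcl with ⟨hM, -⟩ | ⟨-, hP, hP'⟩ | ⟨-, hN, hN'⟩
          · exact hM
          · exfalso
            have := hP.neg
            rw [← nodeCurve_negY (a := a), ← hyy] at this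
            exact hP'.not_brN this
          · exfalso
            have := hN.neg
            rw [← nodeCurve_negY (a := a), ← hyy] at this
            exact this.not_brN hN'
        have hne : y' ≠ (nodeCurve a).toAffine.negY x' ((nodeCurve a).toAffine.negY x' y) := by
          rwa [Affine.negY_negY]
        rw [Point.add_of_Y_ne hne]
        apply node_inE0_of_le ha
        have hs : (nodeCurve a).toAffine.slope x' x' y' ((nodeCurve a).toAffine.negY x' y)
            = (3 * x' ^ 2 + a - y') / (2 * y' + x') := by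
          rw [Affine.slope_of_Y_ne rfl hne, nodeCurve_negY]
          congr 1
          · simp
          · ring
        rw [nodeCurve_addX, hs]
        have hd0 : 2 * y' + x' ≠ 0 := by
          intro h0
          apply hyy'
          have hy : y' = -y - x' := by rw [hyy, nodeCurve_negY]
          linear_combination h0 - hy
        obtain ⟨hb1, hb2⟩ := tangent_bound ha0 ha hE' hM
        have hvd : 0 < v (2 * y' + x') := (Valuation.pos_iff v).mpr hd0
        apply one_le_val_addX hx' hx'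
        · rw [map_div₀, one_le_div₀ hvd]; exact hb1
        · have : (3 * x' ^ 2 + a - y') / (2 * y' + x') + 1
              = (3 * x' ^ 2 + a + y' + x') / (2 * y' + x') := by
            rw [div_add_one hd0]; congr 1; ring
          rw [this, map_div₀, one_le_div₀ hvd]; exact hb2
  · rw [Point.add_of_X_ne hxx]
    apply node_inE0_of_le ha
    rw [nodeCurve_addX, Affine.slope_of_X_ne hxx, nodeCurve_negY]
    have hd0 : x' - x ≠ 0 := sub_ne_zero.mpr hxx
    have hvd : 0 < v (x' - x) := (Valuation.pos_iff v).mpr hd0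
    obtain ⟨hb1, hb2⟩ := chord_bound ha0 ha hE hE' hcl
    have e1 : y' - (-y - x) = y' + y + x := by ring
    apply one_le_val_addX hx hx'
    · rw [e1, map_div₀, one_le_div₀ hvd]; exact hb1
    · have : (y' - (-y - x)) / (x' - x) + 1 = (y' + y + x') / (x' - x) := by
        rw [div_add_one hd0]; congr 1; ring
      rw [this, map_div₀, one_le_div₀ hvd]; exact hb2

end Fermat.Agent.S59.H240

end
-- ===== PACK-END S59/H240/Node/Curve.lean

-- ===== PACK-BEGIN S52/H309/AddSubValid.lean
section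




/-!
# S52, piece (A2a-point): validity of Mathlib's `addSubMap` on points

For nonsingular points `P`, `Q` of a Weierstrass curve over a field, the vector
`addSubMap W (P.sym2x Q)` is a nonzero multiple of `(P + Q).sym2x (P - Q)`, i.e.
`(x(P)x(Q) : x(P)+x(Q) : 1) ↦ (x(P+Q)x(P-Q) : x(P+Q)+x(P-Q) : 1)` (all degenerate cases
included).  This is the TODO of `Mathlib.AlgebraicGeometry.EllipticCurve.Affine.AddSubMap`.
-/

set_option autoImplicit false
set_option linter.unusedSectionVars false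

namespace Fermat.Agent.S52.H309

open WeierstrassCurve WeierstrassCurve.Affine MvPolynomial
open Fermat.Agent.S05

section Eval

variable {R : Type*} [CommRing R] (W : WeierstrassCurve R)

lemma eval_addSubMap_zero (v : Fin 3 → R) :
    (addSubMap W 0).eval v =
      v 0 ^ 2 - W.b₄ * v 0 * v 2 - W.b₆ * v 1 * v 2 - W.b₈ * v 2 ^ 2 := by
  simp [addSubMap]

lemma eval_addSubMap_one (v : Fin 3 → R) :
    (addSubMap W 1).eval v =
      2 * v 1 * v 0 + W.b₂ * v 0 * v 2 + W.b₄ * v 1 * v 2 + W.b₆ * v 2 ^ 2 := by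
  simp [addSubMap]

lemma eval_addSubMap_two (v : Fin 3 → R) :
    (addSubMap W 2).eval v = v 1 ^ 2 - 4 * v 0 * v 2 := by
  simp [addSubMap]

/-- The vector of values of `addSubMap`. -/
noncomputable def addSubVec (v : Fin 3 → R) : Fin 3 → R := fun i => (addSubMap W i).eval v

lemma addSubVec_eq (v : Fin 3 → R) :
    addSubVec W v =
      ![v 0 ^ 2 - W.b₄ * v 0 * v 2 - W.b₆ * v 1 * v 2 - W.b₈ * v 2 ^ 2,
        2 * v 1 * v 0 + W.b₂ * v 0 * v 2 + W.b₄ * v 1 * v 2 + W.b₆ * v 2 ^ 2,
        v 1 ^ 2 - 4 * v 0 * v 2] := by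
  funext i
  fin_cases i
  · exact eval_addSubMap_zero W v
  · exact eval_addSubMap_one W v
  · exact eval_addSubMap_two W v

end Eval

variable {F : Type*} [Field F] [DecidableEq F] {W : Affine F}

/-- At a nonsingular point with `y = negY x y` (a 2-torsion point), the numerator of the
duplication formula is the square of the nonzero partial derivative. -/
lemma dblNum_eq_sq_of_Y_eq {x y : F} (h : W.Equation x y) (hy : y = W.negY x y) :
    XId.dblNum W x = (W.a₁ * y - (3 * x ^ 2 + 2 * W.a₂ * x + W.a₄)) ^ 2 := by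
  have hη : 2 * y + W.a₁ * x + W.a₃ = 0 := by
    have : y - W.negY x y = 0 := sub_eq_zero.mpr hy
    simp only [negY] at this
    linear_combination this
  rw [Affine.equation_iff] at h
  simp only [XId.dblNum, WeierstrassCurve.b₄, WeierstrassCurve.b₆, WeierstrassCurve.b₈]
  linear_combination (8 * x + W.a₁ ^ 2 + 4 * W.a₂) * h -
    (W.a₁ * (W.a₁ * y - (3 * x ^ 2 + 2 * W.a₂ * x + W.a₄)) +
      (W.a₂ + 2 * x) * (2 * y + W.a₁ * x + W.a₃)) * hη

lemma dblNum_ne_zero_of_Y_eq {x y : F} (h : W.Nonsingular x y) (hy : y = W.negY x y) :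
    XId.dblNum W x ≠ 0 := by
  rw [dblNum_eq_sq_of_Y_eq h.1 hy]
  apply pow_ne_zero
  have hη : 2 * y + W.a₁ * x + W.a₃ = 0 := by
    have : y - W.negY x y = 0 := sub_eq_zero.mpr hy
    simp only [negY] at this
    linear_combination this
  rcases (Affine.nonsingular_iff' x y).mp h with ⟨_, h1 | h1⟩
  · exact h1
  · exact absurd hη h1

/-- The doubling case: `addSubVec (x², 2x, 1)` is a nonzero multiple of `sym2x (2P) 0`. -/
lemma addSubVec_self {x y : F} (h : W.Nonsingular x y) :
    ∃ c : F, c ≠ 0 ∧ addSubVec W ![x * x, x + x, 1] =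
      c • (Point.some x y h + Point.some x y h).sym2x 0 := by
  by_cases hy : y = W.negY x y
  · refine ⟨XId.dblNum W x, dblNum_ne_zero_of_Y_eq h hy, ?_⟩
    rw [Point.add_self_of_Y_eq hy, Point.sym2x_zero_zero, addSubVec_eq]
    have hd := XId.dblDen_eq_zero_of_Y_eq h.1 hy
    simp only [XId.dblDen] at hd
    funext i
    fin_cases i
    · simp [XId.dblNum]; ring
    · simp; linear_combination hd
    · simp; ring
  · obtain ⟨x', y', h', hadd, hdup, hden⟩ := XId.add_self_some h hy
    refine ⟨XId.dblDen W x, hden, ?_⟩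
    rw [hadd, Point.sym2x_some_zero, addSubVec_eq]
    simp only [XId.dblDen, XId.dblNum] at hdup ⊢
    funext i
    fin_cases i
    · simp; linear_combination -hdup
    · simp; ring
    · simp; ring

/-- **Validity of `addSubMap`.** For all points `P`, `Q`, the image of `P.sym2x Q` under
`addSubMap` is a nonzero multiple of `(P + Q).sym2x (P - Q)`. -/
theorem addSubVec_sym2x (P Q : W.Point) :
    ∃ c : F, c ≠ 0 ∧ addSubVec W (P.sym2x Q) = c • (P + Q).sym2x (P - Q) := by
  cases P with
  | zero =>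
    cases Q with
    | zero =>
      refine ⟨1, one_ne_zero, ?_⟩
      have e : (Point.zero : W.Point) = 0 := rfl
      rw [e, add_zero, sub_zero, Point.sym2x_zero_zero, addSubVec_eq, one_smul]
      funext i
      fin_cases i <;> simp
    | some x y h =>
      refine ⟨1, one_ne_zero, ?_⟩
      have e : (Point.zero : W.Point) = 0 := rfl
      rw [e, zero_add, zero_sub, Point.sym2x_neg_right, Point.sym2x_zero_some,
        Point.sym2x_some_some, addSubVec_eq, one_smul]
      funext i
      fin_cases i <;> simp <;> ring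
  | some x₁ y₁ h₁ =>
    cases Q with
    | zero =>
      refine ⟨1, one_ne_zero, ?_⟩
      have e : (Point.zero : W.Point) = 0 := rfl
      rw [e, add_zero, sub_zero, Point.sym2x_some_zero, Point.sym2x_some_some, addSubVec_eq,
        one_smul]
      funext i
      fin_cases i <;> simp <;> ring
    | some x₂ y₂ h₂ =>
      rw [Point.sym2x_some_some]
      by_cases hx : x₁ = x₂
      · subst hx
        rcases Affine.Y_eq_of_X_eq h₁.1 h₂.1 rfl with hy | hy
        · -- `P = Q`
          subst hy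
          rw [sub_self]
          exact addSubVec_self h₁
        · -- `P = -Q`
          have hPQ : Point.some x₁ y₁ h₁ = -Point.some x₁ y₂ h₂ := by
            rw [Point.neg_some]; congr
          obtain ⟨c, hc, hcv⟩ := addSubVec_self h₁
          refine ⟨c, hc, ?_⟩
          rw [hcv]
          have e1 : Point.some x₁ y₁ h₁ + Point.some x₁ y₂ h₂ = 0 := by
            rw [hPQ, neg_add_cancel]
          have e2 : Point.some x₁ y₁ h₁ - Point.some x₁ y₂ h₂ =
              Point.some x₁ y₁ h₁ + Point.some x₁ y₁ h₁ := by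
            rw [sub_eq_add_neg, ← hPQ]
          rw [e1, e2, Point.sym2x_comm]
      · obtain ⟨x₃, y₃, x₄, y₄, h₃, h₄, hadd, hsub, hsum, hprod⟩ := XId.add_sub_some h₁ h₂ hx
        refine ⟨(x₁ - x₂) ^ 2, pow_ne_zero 2 (sub_ne_zero.mpr hx), ?_⟩
        rw [hadd, hsub, Point.sym2x_some_some, addSubVec_eq]
        simp only [XId.sumNum, XId.prodNum] at hsum hprod
        funext i
        fin_cases i
        · simp; linear_combination -hprod
        · simp; linear_combination -hsum
        · simp; ring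

end Fermat.Agent.S52.H309

end
-- ===== PACK-END S52/H309/AddSubValid.lean

-- ===== PACK-BEGIN Lib/Frob/A2/H720/Gauss.lean
section


/-!
# S52 / piece A2a-core (helper720): uniqueness of primitive representatives and the Gauss lemma

* `IsPrim.exists_bezout` : a primitive vector has a Bezout combination equal to `1`.
* `exists_unit_mul_of_minors` : two primitive vectors with vanishing `2 × 2` minors differ by a
  unit; `maxDeg_eq_of_minors` : hence they have the same maximal degree.
* `gaussVec n₁ d₁ n₂ d₂ = ![n₁ n₂, n₁ d₂ + n₂ d₁, d₁ d₂]` (the coefficient vector of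
  `(d₁ Y + n₁)(d₂ Y + n₂)`); for coprime pairs it is primitive (`isPrim_gaussVec`) and
  `maxDeg = max (deg n₁) (deg d₁) + max (deg n₂) (deg d₂)` (`maxDeg_gaussVec`).
-/

set_option autoImplicit false

open Polynomial

namespace Fermat.Agent.Lib.Frob.A2.H720

variable {F : Type*} [Field F]

lemma IsPrim.exists_bezout {n : ℕ} {v : Fin n → F[X]} (hv : IsPrim v) :
    ∃ c : Fin n → F[X], ∑ i, c i * v i = 1 := by
  have hprinc : (Ideal.span (Set.range v)).IsPrincipal := inferInstance
  obtain ⟨g, hg⟩ := hprinc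
  have hgv : ∀ i, g ∣ v i := fun i => by
    have : v i ∈ Ideal.span (Set.range v) := Ideal.subset_span ⟨i, rfl⟩
    rw [hg] at this
    exact Ideal.mem_span_singleton.mp this
  have hu : IsUnit g := hv g hgv
  have h1 : (1 : F[X]) ∈ Ideal.span (Set.range v) := by
    rw [hg]
    exact Ideal.mem_span_singleton.mpr hu.dvd
  exact (Ideal.mem_span_range_iff_exists_fun).mp h1

/-- Two primitive vectors which are proportional (all `2 × 2` minors vanish) differ by a unit. -/
theorem exists_unit_mul_of_minors {n : ℕ} {v w : Fin n → F[X]} (hv : IsPrim v) (hw : IsPrim w)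
    (h : ∀ i j, v i * w j = v j * w i) : ∃ u : F[X]ˣ, ∀ i, w i = u * v i := by
  obtain ⟨c, hc⟩ := hv.exists_bezout
  obtain ⟨c', hc'⟩ := hw.exists_bezout
  set a : F[X] := ∑ i, c i * w i with ha
  set b : F[X] := ∑ i, c' i * v i with hb
  have hwa : ∀ j, w j = a * v j := fun j => by
    calc w j = (∑ i, c i * v i) * w j := by rw [hc, one_mul]
      _ = ∑ i, c i * (v i * w j) := by rw [Finset.sum_mul]; simp only [mul_assoc]
      _ = ∑ i, c i * (v j * w i) := by simp only [h _ j]
      _ = a * v j := by rw [ha, Finset.sum_mul]; exact Finset.sum_congr rfl fun i _ => by ring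
  have hvb : ∀ j, v j = b * w j := fun j => by
    calc v j = (∑ i, c' i * w i) * v j := by rw [hc', one_mul]
      _ = ∑ i, c' i * (v j * w i) := by
          rw [Finset.sum_mul]; exact Finset.sum_congr rfl fun i _ => by ring
      _ = ∑ i, c' i * (v i * w j) := by simp only [h _ j]
      _ = b * w j := by rw [hb, Finset.sum_mul]; exact Finset.sum_congr rfl fun i _ => by ring
  obtain ⟨j, hj⟩ : ∃ j, w j ≠ 0 := by
    by_contra hcon
    rw [not_exists] at hcon
    exact hw.ne_zero (funext fun j => not_not.mp (hcon j))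
  have hab : a * b = 1 := by
    have : a * b * w j = 1 * w j := by
      rw [one_mul, mul_assoc, ← hvb j, ← hwa j]
    exact mul_right_cancel₀ hj this
  exact ⟨⟨a, b, hab, by rw [mul_comm, hab]⟩, hwa⟩

lemma natDegree_unit_mul (u : F[X]ˣ) (p : F[X]) : ((u : F[X]) * p).natDegree = p.natDegree := by
  obtain ⟨c, hc, hcu⟩ := Polynomial.isUnit_iff.mp u.isUnit
  rw [← hcu]
  exact natDegree_C_mul hc.ne_zero

theorem maxDeg_eq_of_minors {n : ℕ} {v w : Fin n → F[X]} (hv : IsPrim v) (hw : IsPrim w)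
    (h : ∀ i j, v i * w j = v j * w i) : maxDeg w = maxDeg v := by
  obtain ⟨u, hu⟩ := exists_unit_mul_of_minors hv hw h
  unfold maxDeg
  congr 1
  funext i
  rw [hu i, natDegree_unit_mul]

/-! ### The Gauss lemma for products of two linear forms -/

/-- The coefficient vector of `(d₁ Y + n₁) (d₂ Y + n₂)`. -/
noncomputable def gaussVec (n₁ d₁ n₂ d₂ : F[X]) : Fin 3 → F[X] :=
  ![n₁ * n₂, n₁ * d₂ + n₂ * d₁, d₁ * d₂]

/-- The height of a pair: the larger of the two degrees. -/
noncomputable def ht (n d : F[X]) : ℕ := max n.natDegree d.natDegree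

theorem isPrim_gaussVec {n₁ d₁ n₂ d₂ : F[X]} (h₁ : IsCoprime n₁ d₁) (h₂ : IsCoprime n₂ d₂) :
    IsPrim (gaussVec n₁ d₁ n₂ d₂) := by
  intro d hd
  have h0 := hd 0
  have h1 := hd 1
  have h2 := hd 2
  simp only [gaussVec, Matrix.cons_val_zero, Matrix.cons_val_one, Matrix.cons_val] at h0 h1 h2
  obtain ⟨a, b, hab⟩ := h₂
  -- `d ∣ n₁ ^ 2`
  have e1 : d ∣ n₁ ^ 2 * n₂ := by
    have : n₁ ^ 2 * n₂ = n₁ * (n₁ * n₂) := by ring
    rw [this]; exact Dvd.dvd.mul_left h0 _
  have e2 : d ∣ n₁ ^ 2 * d₂ := by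
    have : n₁ ^ 2 * d₂ = n₁ * (n₁ * d₂ + n₂ * d₁) - d₁ * (n₁ * n₂) := by ring
    rw [this]; exact dvd_sub (Dvd.dvd.mul_left h1 _) (Dvd.dvd.mul_left h0 _)
  have hn : d ∣ n₁ ^ 2 := by
    have : n₁ ^ 2 = a * (n₁ ^ 2 * n₂) + b * (n₁ ^ 2 * d₂) := by
      linear_combination (-(n₁ ^ 2)) * hab
    rw [this]; exact dvd_add (Dvd.dvd.mul_left e1 _) (Dvd.dvd.mul_left e2 _)
  -- `d ∣ d₁ ^ 2`
  have e3 : d ∣ d₁ ^ 2 * n₂ := by
    have : d₁ ^ 2 * n₂ = d₁ * (n₁ * d₂ + n₂ * d₁) - n₁ * (d₁ * d₂) := by ring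
    rw [this]; exact dvd_sub (Dvd.dvd.mul_left h1 _) (Dvd.dvd.mul_left h2 _)
  have e4 : d ∣ d₁ ^ 2 * d₂ := by
    have : d₁ ^ 2 * d₂ = d₁ * (d₁ * d₂) := by ring
    rw [this]; exact Dvd.dvd.mul_left h2 _
  have hd' : d ∣ d₁ ^ 2 := by
    have : d₁ ^ 2 = a * (d₁ ^ 2 * n₂) + b * (d₁ ^ 2 * d₂) := by
      linear_combination (-(d₁ ^ 2)) * hab
    rw [this]; exact dvd_add (Dvd.dvd.mul_left e3 _) (Dvd.dvd.mul_left e4 _)
  exact (h₁.pow (m := 2) (n := 2)).isUnit_of_dvd' hn hd'

lemma coeff_ht_ne_zero {n d : F[X]} (h : IsCoprime n d) :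
    n.coeff (ht n d) ≠ 0 ∨ d.coeff (ht n d) ≠ 0 := by
  by_contra hcon
  rw [not_or, not_not, not_not] at hcon
  obtain ⟨hn, hd⟩ := hcon
  rcases le_total n.natDegree d.natDegree with hle | hle
  · have hht : ht n d = d.natDegree := max_eq_right hle
    rw [hht, coeff_natDegree, leadingCoeff_eq_zero] at hd
    rw [hd, natDegree_zero] at hle
    have hn0 : n = 0 := by
      rw [hht, hd, natDegree_zero] at hn
      rw [eq_C_of_natDegree_le_zero hle, hn, C_0]
    exact not_isUnit_zero (h.isUnit_of_dvd' (hn0 ▸ dvd_refl (0 : F[X]))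
      (hd ▸ dvd_refl (0 : F[X])))
  · have hht : ht n d = n.natDegree := max_eq_left hle
    rw [hht, coeff_natDegree, leadingCoeff_eq_zero] at hn
    rw [hn, natDegree_zero] at hle
    have hd0 : d = 0 := by
      rw [hht, hn, natDegree_zero] at hd
      rw [eq_C_of_natDegree_le_zero hle, hd, C_0]
    exact not_isUnit_zero (h.isUnit_of_dvd' (hn ▸ dvd_refl (0 : F[X]))
      (hd0 ▸ dvd_refl (0 : F[X])))

theorem maxDeg_gaussVec {n₁ d₁ n₂ d₂ : F[X]} (h₁ : IsCoprime n₁ d₁) (h₂ : IsCoprime n₂ d₂) :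
    maxDeg (gaussVec n₁ d₁ n₂ d₂) = ht n₁ d₁ + ht n₂ d₂ := by
  have hn₁ : n₁.natDegree ≤ ht n₁ d₁ := le_max_left _ _
  have hd₁ : d₁.natDegree ≤ ht n₁ d₁ := le_max_right _ _
  have hn₂ : n₂.natDegree ≤ ht n₂ d₂ := le_max_left _ _
  have hd₂ : d₂.natDegree ≤ ht n₂ d₂ := le_max_right _ _
  have hle : ∀ {p q : F[X]}, p.natDegree ≤ ht n₁ d₁ → q.natDegree ≤ ht n₂ d₂ →
      (p * q).natDegree ≤ ht n₁ d₁ + ht n₂ d₂ := fun hp hq =>
    natDegree_mul_le.trans (Nat.add_le_add hp hq)
  have hle' : ∀ {p q : F[X]}, p.natDegree ≤ ht n₂ d₂ → q.natDegree ≤ ht n₁ d₁ →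
      (p * q).natDegree ≤ ht n₁ d₁ + ht n₂ d₂ := fun hp hq => by
    rw [mul_comm]; exact hle hq hp
  refine le_antisymm (maxDeg_le fun i => ?_) ?_
  · fin_cases i
    · exact hle hn₁ hn₂
    · exact (natDegree_add_le _ _).trans (max_le (hle hn₁ hd₂) (hle' hn₂ hd₁))
    · exact hle hd₁ hd₂
  · -- some entry has a nonzero coefficient in degree `ht₁ + ht₂`
    set D₁ := ht n₁ d₁
    set D₂ := ht n₂ d₂
    have c0 : (n₁ * n₂).coeff (D₁ + D₂) = n₁.coeff D₁ * n₂.coeff D₂ :=
      coeff_mul_add_eq_of_natDegree_le hn₁ hn₂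
    have c2 : (d₁ * d₂).coeff (D₁ + D₂) = d₁.coeff D₁ * d₂.coeff D₂ :=
      coeff_mul_add_eq_of_natDegree_le hd₁ hd₂
    have c1 : (n₁ * d₂ + n₂ * d₁).coeff (D₁ + D₂)
        = n₁.coeff D₁ * d₂.coeff D₂ + n₂.coeff D₂ * d₁.coeff D₁ := by
      rw [coeff_add, coeff_mul_add_eq_of_natDegree_le hn₁ hd₂, add_comm D₁ D₂,
        coeff_mul_add_eq_of_natDegree_le hn₂ hd₁]
    have hex : ∃ i, (gaussVec n₁ d₁ n₂ d₂ i).coeff (D₁ + D₂) ≠ 0 := by
      by_contra hcon
      rw [not_exists] at hcon
      have e0 := not_not.mp (hcon 0)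
      have e1 := not_not.mp (hcon 1)
      have e2 := not_not.mp (hcon 2)
      simp only [gaussVec, Matrix.cons_val_zero, Matrix.cons_val_one, Matrix.cons_val] at e0 e1 e2
      rw [c0] at e0
      rw [c1] at e1
      rw [c2] at e2
      rcases coeff_ht_ne_zero h₁ with hA | hA <;> rcases coeff_ht_ne_zero h₂ with hB | hB
      · exact (mul_ne_zero hA hB) e0
      · rcases mul_eq_zero.mp e0 with h | h
        · exact hA h
        · rw [h, zero_mul, add_zero] at e1
          exact (mul_ne_zero hA hB) e1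
      · rcases mul_eq_zero.mp e0 with h | h
        · rw [h, zero_mul, zero_add] at e1
          exact (mul_ne_zero hB hA) e1
        · exact hB h
      · exact (mul_ne_zero hA hB) e2
    obtain ⟨i, hi⟩ := hex
    exact (le_natDegree_of_ne_zero hi).trans (natDegree_le_maxDeg _ i)

end Fermat.Agent.Lib.Frob.A2.H720

end
-- ===== PACK-END Lib/Frob/A2/H720/Gauss.lean

-- ===== PACK-BEGIN Lib/Newform/H743/Lemma16.lean
section








/-!
# NEWFORM library (helper743), part 2: Atkin–Lehner "Lemma 16"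

Let `f ∈ S_k(Γ₀(N))`, `q` prime, and assume `a_n(f) = 0` whenever `q ∤ n`.  For every `M` with
`N ∣ q * M` (for instance `M = N`, or `M = N / q` when `q ∣ N`) the function `U_q f` (Prelude
`ModularForm.heckeU k q f`) is a cusp form of level `Γ₀(M)`, `f(τ) = (U_q f)(q τ)` and
`a_n(U_q f) = a_{nq}(f)`.
-/

set_option autoImplicit false

open UpperHalfPlane ModularForm Function Complex CongruenceSubgroup Matrix.SpecialLinearGroup
open scoped MatrixGroups ModularForm Manifold Topology Real

namespace Fermat.Agent.Lib.Newform.H743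

noncomputable section

/-- Slash by the unipotent matrix `[1, x; 0, 1]` is translation by `x`. -/
lemma slash_upperRightHom_apply (k : ℤ) (F : ℍ → ℂ) (x : ℝ) (τ : ℍ) :
    (F ∣[k] Matrix.GeneralLinearGroup.upperRightHom x) τ = F (x +ᵥ τ) := by
  have : Matrix.GeneralLinearGroup.upperRightHom x • τ = x +ᵥ τ := by
    ext
    simp [σ, num, denom, coe_vadd, UpperHalfPlane.coe_smul, add_comm]
  simp_rw [slash_def, this]
  simp [σ, denom, Matrix.GeneralLinearGroup.val_det_apply]

/-- `[1, j; 0, q] • τ = j/q + [1, 0; 0, q] • τ`. -/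
lemma heckeMatrix_smul_eq_vadd {q : ℕ} (hq : q ≠ 0) (j : ℕ) (τ : ℍ) :
    heckeMatrix q j • τ = ((j : ℝ) * (1 / q : ℝ)) +ᵥ (heckeMatrix q 0 • τ) := by
  ext
  have hq' : (q : ℂ) ≠ 0 := by exact_mod_cast hq
  rw [coe_vadd, coe_heckeMatrix_smul hq, coe_heckeMatrix_smul hq]
  push_cast
  field_simp
  ring

/-- For a function of period `1/q`, `U_q F (τ) = F (τ / q)`. -/
theorem heckeU_apply_of_periodic (k : ℤ) {q : ℕ} (hq : q ≠ 0) {F : ℍ → ℂ}
    (hper : Periodic (F ∘ ofComplex) ((1 / q : ℝ) : ℝ)) (τ : ℍ) :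
    heckeU k q F τ = F (heckeMatrix q 0 • τ) := by
  have hq' : (q : ℂ) ≠ 0 := by exact_mod_cast hq
  rw [heckeU_apply k hq]
  have h1 : ∀ j ∈ Finset.range q, F (heckeMatrix q j • τ) = F (heckeMatrix q 0 • τ) := by
    intro j _
    rw [heckeMatrix_smul_eq_vadd hq]
    have := (hper.nat_mul j)
    have h2 := apply_vadd_of_periodic (F := F) (h := (j : ℝ) * (1 / q : ℝ))
      (by simpa using this) (heckeMatrix q 0 • τ)
    exact h2
  rw [Finset.sum_congr rfl h1, Finset.sum_const, Finset.card_range, nsmul_eq_mul, ← mul_assoc,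
    inv_mul_cancel₀ hq', one_mul]

/-- For a function of period `1/q`, all the slashes `F ∣[k] [1, j; 0, q]` coincide. -/
theorem slash_heckeMatrix_eq_of_periodic (k : ℤ) {q : ℕ} (hq : q ≠ 0) {F : ℍ → ℂ}
    (hper : Periodic (F ∘ ofComplex) ((1 / q : ℝ) : ℝ)) (j : ℕ) :
    F ∣[k] heckeMatrix q j = F ∣[k] heckeMatrix q 0 := by
  funext τ
  rw [slash_heckeMatrix_apply k hq, slash_heckeMatrix_apply k hq, heckeMatrix_smul_eq_vadd hq]
  congr 1
  have := (hper.nat_mul j)
  exact apply_vadd_of_periodic (F := F) (h := (j : ℝ) * (1 / q : ℝ))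
    (by simpa using this) (heckeMatrix q 0 • τ)

theorem heckeU_eq_sum_of_periodic (k : ℤ) {q : ℕ} (hq : q ≠ 0) {F : ℍ → ℂ}
    (hper : Periodic (F ∘ ofComplex) ((1 / q : ℝ) : ℝ)) :
    heckeU k q F = ∑ _j ∈ Finset.range q, F ∣[k] heckeMatrix q 0 := by
  rw [heckeU_def]
  exact Finset.sum_congr rfl fun j _ => slash_heckeMatrix_eq_of_periodic k hq hper j

/-- Entries of `T ^ i * γ * T ^ j`. -/
lemma T_zpow_mul_mul_T_zpow_apply (γ : SL(2, ℤ)) (i j : ℤ) :
    (ModularGroup.T ^ i * γ * ModularGroup.T ^ j) 0 0 = γ 0 0 + i * γ 1 0 ∧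
    (ModularGroup.T ^ i * γ * ModularGroup.T ^ j) 0 1 =
      (γ 0 0 + i * γ 1 0) * j + (γ 0 1 + i * γ 1 1) ∧
    (ModularGroup.T ^ i * γ * ModularGroup.T ^ j) 1 0 = γ 1 0 ∧
    (ModularGroup.T ^ i * γ * ModularGroup.T ^ j) 1 1 = γ 1 0 * j + γ 1 1 := by
  simp only [Matrix.SpecialLinearGroup.coe_mul, ModularGroup.coe_T_zpow, Matrix.mul_apply,
    Fin.sum_univ_two, Matrix.of_apply, Matrix.cons_val', Matrix.cons_val_zero,
    Matrix.cons_val_one, Matrix.cons_val_fin_one]
  refine ⟨by ring, by ring, by ring, by ring⟩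

/-- The group lemma: every element of `Γ₀(M)` is of the form `T ^ i * γ' * T ^ j` with
`γ' ∈ Γ₀(M) ∩ Γ⁰(q)`. -/
theorem exists_T_zpow_mul_mem_Gamma0 {q : ℕ} (hq : q.Prime) (M : ℕ) (γ : SL(2, ℤ))
    (hγ : γ ∈ Gamma0 M) :
    ∃ (i j : ℤ) (γ' : SL(2, ℤ)), γ' ∈ Gamma0 M ∧ (q : ℤ) ∣ γ' 0 1 ∧
      γ = ModularGroup.T ^ i * γ' * ModularGroup.T ^ j := by
  have hdet : γ 0 0 * γ 1 1 - γ 0 1 * γ 1 0 = 1 := by
    have := γ.det_coe
    rw [Matrix.det_fin_two] at this
    exact this
  have hqZ : Prime (q : ℤ) := Nat.prime_iff_prime_int.mp hq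
  -- choose `i ∈ {0, 1}` with `q ∤ a + i c`
  obtain ⟨i, hi⟩ : ∃ i : ℤ, ¬ (q : ℤ) ∣ γ 0 0 + i * γ 1 0 := by
    by_cases ha : (q : ℤ) ∣ γ 0 0
    · refine ⟨1, fun h => ?_⟩
      have hc : (q : ℤ) ∣ γ 1 0 := by
        have := dvd_sub h ha
        simpa using this
      have h1 : (q : ℤ) ∣ 1 := by
        rw [← hdet]
        exact dvd_sub (ha.mul_right _) (hc.mul_left _)
      exact hqZ.not_dvd_one h1
    · exact ⟨0, by simpa using ha⟩
  have hcop : IsCoprime (γ 0 0 + i * γ 1 0) (q : ℤ) :=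
    ((Prime.coprime_iff_not_dvd hqZ).mpr hi).symm
  obtain ⟨x, y, hxy⟩ := hcop
  set j : ℤ := -x * (γ 0 1 + i * γ 1 1) with hj
  obtain ⟨h00, h01, h10, h11⟩ := T_zpow_mul_mul_T_zpow_apply γ i j
  have hT : ∀ n : ℤ, ModularGroup.T ^ n ∈ Gamma0 M := by
    intro n
    rw [Gamma0_mem, ModularGroup.coe_T_zpow]
    simp
  refine ⟨-i, -j, ModularGroup.T ^ i * γ * ModularGroup.T ^ j, ?_, ?_, ?_⟩
  · exact mul_mem (mul_mem (hT i) hγ) (hT j)
  · rw [h01]
    refine ⟨y * (γ 0 1 + i * γ 1 1), ?_⟩
    rw [hj]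
    linear_combination (-(γ 0 1 + i * γ 1 1)) * hxy
  · group

lemma heckeMatrix_zero_mul_mapGL {q : ℕ} (hq : q ≠ 0) (γ δ : SL(2, ℤ))
    (h00 : γ 0 0 = δ 0 0) (h01 : γ 0 1 = q * δ 0 1) (h10 : q * γ 1 0 = δ 1 0)
    (h11 : γ 1 1 = δ 1 1) :
    heckeMatrix q 0 * mapGL ℝ γ = mapGL ℝ δ * heckeMatrix q 0 := by
  apply Units.ext
  ext i j
  fin_cases i <;> fin_cases j
  · simp [Matrix.mul_apply, Fin.sum_univ_two, val_heckeMatrix hq]
    exact_mod_cast h00
  · simp [Matrix.mul_apply, Fin.sum_univ_two, val_heckeMatrix hq]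
    rw [mul_comm]
    exact_mod_cast h01
  · simp [Matrix.mul_apply, Fin.sum_univ_two, val_heckeMatrix hq]
    exact_mod_cast h10
  · simp [Matrix.mul_apply, Fin.sum_univ_two, val_heckeMatrix hq]
    rw [h11, mul_comm]

/-- Conjugating an element of `Γ₀(M) ∩ Γ⁰(q)` by `[1, 0; 0, q]` gives an element of `Γ₀(N)`
as soon as `N ∣ q * M`. -/
theorem exists_conj_heckeMatrix_zero {N M q : ℕ} (hq : q ≠ 0) (hNM : N ∣ q * M) (γ : SL(2, ℤ))
    (hγ : γ ∈ Gamma0 M) (hb : (q : ℤ) ∣ γ 0 1) :
    ∃ δ ∈ Gamma0 N, heckeMatrix q 0 * mapGL ℝ γ = mapGL ℝ δ * heckeMatrix q 0 := by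
  rw [Gamma0_mem, ZMod.intCast_zmod_eq_zero_iff_dvd] at hγ
  obtain ⟨c', hc'⟩ := hγ
  obtain ⟨b', hb'⟩ := hb
  have hdet : γ 0 0 * γ 1 1 - γ 0 1 * γ 1 0 = 1 := by
    have := γ.det_coe
    rw [Matrix.det_fin_two] at this
    exact this
  have hδdet : (!![γ 0 0, b'; q * γ 1 0, γ 1 1] : Matrix (Fin 2) (Fin 2) ℤ).det = 1 := by
    rw [Matrix.det_fin_two_of]
    rw [hb'] at hdet
    linear_combination hdet
  let δ : SL(2, ℤ) := ⟨!![γ 0 0, b'; q * γ 1 0, γ 1 1], hδdet⟩
  have hδ00 : δ 0 0 = γ 0 0 := rfl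
  have hδ01 : δ 0 1 = b' := rfl
  have hδ10 : δ 1 0 = q * γ 1 0 := rfl
  have hδ11 : δ 1 1 = γ 1 1 := rfl
  refine ⟨δ, ?_, ?_⟩
  · rw [Gamma0_mem, ZMod.intCast_zmod_eq_zero_iff_dvd, hδ10, hc']
    have : (N : ℤ) ∣ (q : ℤ) * (M : ℤ) := by exact_mod_cast hNM
    obtain ⟨e, he⟩ := this
    exact ⟨e * c', by linear_combination c' * he⟩
  · exact heckeMatrix_zero_mul_mapGL hq γ δ hδ00.symm (by rw [hδ01, hb']) hδ10.symm hδ11.symm

lemma Gamma0_mul_le (q N : ℕ) : Gamma0 (q * N) ≤ Gamma0 N := by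
  intro γ hγ
  rw [Gamma0_mem, ZMod.intCast_zmod_eq_zero_iff_dvd] at hγ ⊢
  refine dvd_trans ?_ hγ
  exact_mod_cast dvd_mul_left N q

lemma T_zpow_mem_Gamma0 (N : ℕ) (n : ℤ) : ModularGroup.T ^ n ∈ Gamma0 N := by
  rw [Gamma0_mem, ModularGroup.coe_T_zpow]
  simp

/-- **Function level Lemma 16.**  If `F` is `Γ₀(N)`-invariant of weight `k` and has period `1/q`,
then `U_q F` is `Γ₀(M)`-invariant for every `M` with `N ∣ q * M`. -/
theorem heckeU_slash_eq_self_of_periodic {N M q : ℕ} (hq : q.Prime) (hNM : N ∣ q * M) (k : ℤ)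
    {F : ℍ → ℂ} (hF : ∀ γ ∈ (Gamma0 N : Subgroup (GL (Fin 2) ℝ)), F ∣[k] γ = F)
    (hper : Periodic (F ∘ ofComplex) ((1 / q : ℝ) : ℝ))
    (γ : GL (Fin 2) ℝ) (hγ : γ ∈ (Gamma0 M : Subgroup (GL (Fin 2) ℝ))) :
    heckeU k q F ∣[k] γ = heckeU k q F := by
  obtain ⟨γ₀, hγ₀, rfl⟩ := hγ
  obtain ⟨i, j, γ', hγ', hb, rfl⟩ := exists_T_zpow_mul_mem_Gamma0 hq M γ₀ hγ₀
  have hT : ∀ n : ℤ, heckeU k q F ∣[k] mapGL ℝ (ModularGroup.T ^ n) = heckeU k q F := by
    intro n
    have hF' : ∀ γ ∈ (Gamma0 (q * N) : Subgroup (GL (Fin 2) ℝ)), F ∣[k] γ = F := by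
      rintro _ ⟨γ, hγ, rfl⟩
      exact hF _ ⟨γ, Gamma0_mul_le q N hγ, rfl⟩
    exact heckeU_slash_eq_self_of_mem_Gamma0 k (dvd_mul_right q N) hF' _
      ⟨_, T_zpow_mem_Gamma0 (q * N) n, rfl⟩
  have hγ'' : heckeU k q F ∣[k] mapGL ℝ γ' = heckeU k q F := by
    obtain ⟨δ, hδ, hconj⟩ := exists_conj_heckeMatrix_zero hq.ne_zero hNM γ' hγ' hb
    rw [heckeU_eq_sum_of_periodic k hq.ne_zero hper, SlashAction.sum_slash]
    refine Finset.sum_congr rfl fun _ _ => ?_
    rw [← SlashAction.slash_mul, hconj, SlashAction.slash_mul, hF _ ⟨δ, hδ, rfl⟩]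
  rw [map_mul, map_mul, SlashAction.slash_mul, SlashAction.slash_mul, hT, hγ'', hT]

/-- Periodicity `1/q` of a cusp form all of whose coefficients of index prime to `q` vanish. -/
theorem periodic_of_qCoeff_eq_zero {N : ℕ} [NeZero N] {k : ℤ} (f : CuspForm (Gamma0 N) k)
    {q : ℕ} (hq : q ≠ 0) (h0 : ∀ n : ℕ, ¬ q ∣ n → ModularFormClass.qCoeff f n = 0) :
    Periodic ((f : ℍ → ℂ) ∘ ofComplex) ((1 / q : ℝ) : ℝ) := by
  have hΓ := CongruenceSubgroup.one_mem_strictPeriods_Gamma0 N
  have : Fact (IsCusp OnePoint.infty (Gamma0 N : Subgroup (GL (Fin 2) ℝ))) :=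
    ⟨Subgroup.isCusp_of_mem_strictPeriods one_pos hΓ⟩
  exact periodic_of_coeff_eq_zero (SlashInvariantFormClass.periodic_comp_ofComplex f hΓ)
    (CuspFormClass.holo f) (ModularFormClass.bdd_at_infty f) hq h0

/-- **Lemma 16** (Atkin–Lehner).  If `f ∈ S_k(Γ₀(N))` has `a_n(f) = 0` for all `n` prime to `q`,
then `U_q f` is a cusp form of level `Γ₀(M)` for every `M` with `N ∣ q * M`. -/
def heckeULower {N M q : ℕ} [NeZero N] [NeZero M] (hq : q.Prime) (hNM : N ∣ q * M) {k : ℤ}
    (f : CuspForm (Gamma0 N) k) (h0 : ∀ n : ℕ, ¬ q ∣ n → ModularFormClass.qCoeff f n = 0) :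
    CuspForm (Gamma0 M) k where
  toFun := heckeU k q f
  slash_action_eq' := fun γ hγ => heckeU_slash_eq_self_of_periodic hq hNM k
    (fun γ hγ => SlashInvariantFormClass.slash_action_eq f γ hγ)
    (periodic_of_qCoeff_eq_zero f hq.ne_zero h0) γ hγ
  holo' := mdifferentiable_heckeU (CuspFormClass.holo f) k q
  zero_at_cusps' := fun {c} hc => CuspFormClass.isZeroAt_heckeU f q
    (by rw [Subgroup.IsArithmetic.isCusp_iff_isCusp_SL2Z] at hc ⊢; exact hc)

@[simp] theorem coe_heckeULower {N M q : ℕ} [NeZero N] [NeZero M] (hq : q.Prime)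
    (hNM : N ∣ q * M) {k : ℤ} (f : CuspForm (Gamma0 N) k)
    (h0 : ∀ n : ℕ, ¬ q ∣ n → ModularFormClass.qCoeff f n = 0) :
    ⇑(heckeULower hq hNM f h0) = heckeU k q ⇑f := rfl

theorem qCoeff_heckeULower {N M q : ℕ} [NeZero N] [NeZero M] (hq : q.Prime)
    (hNM : N ∣ q * M) {k : ℤ} (f : CuspForm (Gamma0 N) k)
    (h0 : ∀ n : ℕ, ¬ q ∣ n → ModularFormClass.qCoeff f n = 0) (n : ℕ) :
    ModularFormClass.qCoeff (heckeULower hq hNM f h0) n = ModularFormClass.qCoeff f (n * q) := by
  rw [coe_heckeULower, ModularFormClass.qCoeff_heckeU f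
    (CongruenceSubgroup.one_mem_strictPeriods_Gamma0 N) hq.ne_zero, coeffHeckeU_apply]

/-- `f(τ) = (U_q f)(q τ)`. -/
theorem apply_eq_heckeULower {N M q : ℕ} [NeZero N] [NeZero M] (hq : q.Prime)
    (hNM : N ∣ q * M) {k : ℤ} (f : CuspForm (Gamma0 N) k)
    (h0 : ∀ n : ℕ, ¬ q ∣ n → ModularFormClass.qCoeff f n = 0) (τ : ℍ) :
    f τ = heckeULower hq hNM f h0 (heckeDiagMatrix q • τ) := by
  rw [coe_heckeULower, heckeU_apply_of_periodic k hq.ne_zero
    (periodic_of_qCoeff_eq_zero f hq.ne_zero h0)]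
  congr 1
  ext
  have hq' : (q : ℂ) ≠ 0 := by exact_mod_cast hq.ne_zero
  rw [coe_heckeMatrix_smul hq.ne_zero, coe_heckeDiagMatrix_smul hq.ne_zero]
  push_cast
  field_simp
  simp

end

end Fermat.Agent.Lib.Newform.H743

end
-- ===== PACK-END Lib/Newform/H743/Lemma16.lean

-- ===== PACK-BEGIN S59/G4/H109/Res2Alg.lean
section



/-!
# Row S59, layer G4, piece RES2 — linear algebra core (helper109)

For a family `B : Fin 2 × Fin 2 → M₂(R)` of four `2 × 2` matrices we compare

* the coefficient matrix `coeffMat B` (rows = the matrices, flattened) and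
* the Gram matrix `gramMat B = (tr (B a * B c))` of the trace form.

`gramMat B = coeffMat B * (coeffMat B with columns swapped)ᵀ`, hence `det (gramMat B)` is a unit
iff `det (coeffMat B)` is.  The Gram matrix only depends on the traces, so "the four matrices form
a basis of `M₂`" is a property of the trace function alone.  A family of endomorphisms of a
2-dimensional space containing such a basis has no nontrivial invariant subspace.
-/

set_option autoImplicit false

namespace Fermat.Agent.S59.G4.H109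

open Matrix

section Coeff

variable {R : Type*} [CommRing R]

/-- The coefficient matrix of a family of `2 × 2` matrices indexed by `Fin 2 × Fin 2`. -/
def coeffMat (B : Fin 2 × Fin 2 → Matrix (Fin 2) (Fin 2) R) :
    Matrix (Fin 2 × Fin 2) (Fin 2 × Fin 2) R :=
  Matrix.of fun a b => B a b.1 b.2

/-- The Gram matrix of the trace form on a family of `2 × 2` matrices. -/
def gramMat (B : Fin 2 × Fin 2 → Matrix (Fin 2) (Fin 2) R) :
    Matrix (Fin 2 × Fin 2) (Fin 2 × Fin 2) R :=
  Matrix.of fun a c => Matrix.trace (B a * B c)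

theorem gramMat_eq (B : Fin 2 × Fin 2 → Matrix (Fin 2) (Fin 2) R) :
    gramMat B = coeffMat B * ((coeffMat B).submatrix id (Equiv.prodComm (Fin 2) (Fin 2)))ᵀ := by
  ext a c
  simp only [gramMat, coeffMat, Matrix.of_apply, Matrix.trace, Matrix.diag, Matrix.mul_apply,
    Matrix.transpose_apply, Matrix.submatrix_apply, id_eq, Equiv.prodComm_apply, Prod.fst_swap,
    Prod.snd_swap]
  rw [Fintype.sum_prod_type]

theorem det_gramMat (B : Fin 2 × Fin 2 → Matrix (Fin 2) (Fin 2) R) :
    (gramMat B).det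
      = ((Equiv.Perm.sign (Equiv.prodComm (Fin 2) (Fin 2)) : ℤˣ) : ℤ) *
        ((coeffMat B).det * (coeffMat B).det) := by
  rw [gramMat_eq, Matrix.det_mul, Matrix.det_transpose, Matrix.det_permute']
  ring

theorem isUnit_det_coeffMat_iff (B : Fin 2 × Fin 2 → Matrix (Fin 2) (Fin 2) R) :
    IsUnit (coeffMat B).det ↔ IsUnit (gramMat B).det := by
  rw [det_gramMat]
  have hu : IsUnit (((Equiv.Perm.sign (Equiv.prodComm (Fin 2) (Fin 2)) : ℤˣ) : ℤ) : R) :=
    ((Equiv.Perm.sign (Equiv.prodComm (Fin 2) (Fin 2))).isUnit.map (Int.castRingHom R))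
  constructor
  · intro h
    exact hu.mul (h.mul h)
  · intro h
    have h2 : IsUnit ((coeffMat B).det * (coeffMat B).det) := (IsUnit.mul_iff.mp h).2
    exact (IsUnit.mul_iff.mp h2).1

/-- The Gram matrix commutes with ring homomorphisms. -/
theorem gramMat_map {R' : Type*} [CommRing R'] (φ : R →+* R')
    (B : Fin 2 × Fin 2 → Matrix (Fin 2) (Fin 2) R) :
    gramMat (fun a => (B a).map φ) = (gramMat B).map φ := by
  ext a c
  simp only [gramMat, Matrix.of_apply, Matrix.map_apply]
  rw [← Matrix.map_mul, Matrix.trace, Matrix.trace]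
  simp only [Matrix.diag_apply, Matrix.map_apply, map_sum]

theorem coeffMat_map {R' : Type*} [CommRing R'] (φ : R →+* R')
    (B : Fin 2 × Fin 2 → Matrix (Fin 2) (Fin 2) R) :
    coeffMat (fun a => (B a).map φ) = (coeffMat B).map φ := by
  ext a c
  simp only [coeffMat, Matrix.of_apply, Matrix.map_apply]

/-- If the coefficient matrix of `B` is invertible, the four matrices `B a` span `M₂(R)`. -/
theorem mem_span_range_of_isUnit (B : Fin 2 × Fin 2 → Matrix (Fin 2) (Fin 2) R)
    (h : IsUnit (coeffMat B).det) (M : Matrix (Fin 2) (Fin 2) R) :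
    ∃ c : Fin 2 × Fin 2 → R, M = ∑ a, c a • B a := by
  classical
  have hP : IsUnit (coeffMat B) := (Matrix.isUnit_iff_isUnit_det _).mpr h
  obtain ⟨u, hu⟩ := hP
  set Q : Matrix (Fin 2 × Fin 2) (Fin 2 × Fin 2) R := ↑(u⁻¹) with hQ
  have hQP : Q * coeffMat B = 1 := by
    rw [hQ, ← hu]
    exact Units.inv_mul u
  set m : Fin 2 × Fin 2 → R := fun b => M b.1 b.2 with hm
  refine ⟨m ᵥ* Q, ?_⟩
  ext i j
  have h1 : (m ᵥ* Q) ᵥ* coeffMat B = m := by
    rw [Matrix.vecMul_vecMul, hQP, Matrix.vecMul_one]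
  have h2 := congrFun h1 (i, j)
  simp only [Matrix.vecMul, dotProduct, coeffMat, Matrix.of_apply, hm] at h2
  rw [Matrix.sum_apply]
  simp only [Matrix.smul_apply, smul_eq_mul]
  exact h2.symm

end Coeff

section Irr

variable {K : Type*} [Field K] {V : Type*} [AddCommGroup V] [Module K V]

/-- A family of endomorphisms of a 2-dimensional space which contains four elements with
invertible coefficient matrix has no nontrivial invariant subspace. -/
theorem eq_bot_or_eq_top_of_isUnit (b : Module.Basis (Fin 2) K V) {G : Type*}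
    (r : G → Module.End K V) (f : Fin 2 × Fin 2 → G)
    (hP : IsUnit (coeffMat fun a => LinearMap.toMatrix b b (r (f a))).det)
    (W : Submodule K V) (hW : ∀ g, ∀ x ∈ W, r g x ∈ W) : W = ⊥ ∨ W = ⊤ := by
  classical
  -- every endomorphism preserves `W`
  have hall : ∀ T : Module.End K V, ∀ x ∈ W, T x ∈ W := by
    intro T x hx
    obtain ⟨c, hc⟩ := mem_span_range_of_isUnit _ hP (LinearMap.toMatrix b b T)
    have hT : T = ∑ a, c a • r (f a) := by
      apply (LinearMap.toMatrix b b).injective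
      rw [hc, map_sum]
      refine Finset.sum_congr rfl fun a _ => ?_
      rw [map_smul]
    rw [hT, LinearMap.sum_apply]
    refine Submodule.sum_mem _ fun a _ => ?_
    rw [LinearMap.smul_apply]
    exact W.smul_mem _ (hW (f a) x hx)
  by_cases hbot : W = ⊥
  · exact Or.inl hbot
  right
  obtain ⟨w, hwW, hw0⟩ := (Submodule.ne_bot_iff W).mp hbot
  -- a coordinate of `w` is nonzero
  obtain ⟨i, hi⟩ : ∃ i, b.repr w i ≠ 0 := by
    by_contra hcon
    apply hw0
    apply b.repr.injective
    ext i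
    rw [map_zero, Finsupp.zero_apply]
    by_contra hi
    exact hcon ⟨i, hi⟩
  rw [eq_top_iff]
  intro v _
  have h := hall ((b.coord i).smulRight v) w hwW
  rw [LinearMap.smulRight_apply, Module.Basis.coord_apply] at h
  have := W.smul_mem (b.repr w i)⁻¹ h
  rwa [smul_smul, inv_mul_cancel₀ hi, one_smul] at this

/-- The trace of an endomorphism of a 2-dimensional space from its characteristic polynomial. -/
theorem trace_eq_neg_coeff_charpoly [Module.Finite K V] [Module.Free K V]
    (b : Module.Basis (Fin 2) K V) (T : Module.End K V) :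
    LinearMap.trace K V T = - (LinearMap.charpoly T).coeff 1 := by
  classical
  rw [LinearMap.trace_eq_matrix_trace K b, Matrix.trace_eq_neg_charpoly_coeff,
    LinearMap.charpoly_toMatrix]
  simp

end Irr

end Fermat.Agent.S59.G4.H109

end
-- ===== PACK-END S59/G4/H109/Res2Alg.lean

-- ===== PACK-BEGIN S14/H74/Tent.lean
section


/-!
# S14/N1 (helper74): the tent function and its partition of unity (piece P1)
-/

namespace Fermat.Agent.S14.H74

theorem tent_nonneg (c : ℝ) : 0 ≤ tent c := le_max_left _ _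

theorem tent_le_one (c : ℝ) : tent c ≤ 1 := by
  unfold tent
  exact max_le zero_le_one (by linarith [abs_nonneg c])

theorem tent_eq_zero_of_one_le {c : ℝ} (h : 1 ≤ |c|) : tent c = 0 := by
  unfold tent
  exact max_eq_left (by linarith)

theorem tent_of_abs_le_one {c : ℝ} (h : |c| ≤ 1) : tent c = 1 - |c| := by
  unfold tent
  exact max_eq_right (by linarith)

theorem abs_lt_one_of_tent_ne_zero {c : ℝ} (h : tent c ≠ 0) : |c| < 1 := by
  by_contra h'
  exact h (tent_eq_zero_of_one_le (not_lt.mp h'))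

theorem tent_lipschitz (a b : ℝ) : |tent a - tent b| ≤ |a - b| := by
  unfold tent
  rw [max_comm 0 (1 - |a|), max_comm 0 (1 - |b|)]
  have h1 := abs_max_sub_max_le_abs (1 - |a|) (1 - |b|) 0
  have h2 : |(1 - |a|) - (1 - |b|)| ≤ |a - b| := by
    have : (1 - |a|) - (1 - |b|) = |b| - |a| := by ring
    rw [this, abs_sub_comm a b]
    exact abs_abs_sub_abs_le_abs_sub b a
  exact h1.trans h2

/-- `|∏ a - ∏ b| ≤ ∑ |a - b|` for families with values in `[0, 1]`. -/
theorem abs_prod_sub_prod_le_sum {ι : Type*} (s : Finset ι) (a b : ι → ℝ)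
    (ha0 : ∀ i, 0 ≤ a i) (ha1 : ∀ i, a i ≤ 1) (hb0 : ∀ i, 0 ≤ b i) (hb1 : ∀ i, b i ≤ 1) :
    |∏ i ∈ s, a i - ∏ i ∈ s, b i| ≤ ∑ i ∈ s, |a i - b i| := by
  classical
  induction s using Finset.induction_on with
  | empty => simp
  | insert i s hi ih =>
    rw [Finset.prod_insert hi, Finset.prod_insert hi, Finset.sum_insert hi]
    have hA0 : 0 ≤ ∏ j ∈ s, a j := Finset.prod_nonneg fun j _ ↦ ha0 j
    have hA1 : ∏ j ∈ s, a j ≤ 1 := Finset.prod_le_one (fun j _ ↦ ha0 j) fun j _ ↦ ha1 j
    have key : a i * ∏ j ∈ s, a j - b i * ∏ j ∈ s, b j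
        = (a i - b i) * ∏ j ∈ s, a j + b i * (∏ j ∈ s, a j - ∏ j ∈ s, b j) := by ring
    rw [key]
    refine (abs_add_le _ _).trans (add_le_add ?_ ?_)
    · rw [abs_mul, abs_of_nonneg hA0]
      exact mul_le_of_le_one_right (abs_nonneg _) hA1
    · rw [abs_mul, abs_of_nonneg (hb0 i)]
      exact (mul_le_of_le_one_left (abs_nonneg _) (hb1 i)).trans ih

/-- The integer translates of the tent function sum to `1`. -/
theorem tent_hasSum (c : ℝ) : HasSum (fun k : ℤ ↦ tent (c + k)) 1 := by
  have hfl := Int.floor_le c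
  have hlt := Int.lt_floor_add_one c
  set m : ℤ := ⌊c⌋ with hm
  have hne : (-m : ℤ) ≠ -m - 1 := by omega
  have hsupp : ∀ k : ℤ, k ∉ ({-m, -m - 1} : Finset ℤ) → tent (c + k) = 0 := by
    intro k hk
    simp only [Finset.mem_insert, Finset.mem_singleton, not_or] at hk
    apply tent_eq_zero_of_one_le
    rcases lt_or_gt_of_ne hk.1 with h | h
    · have h2 : k ≤ -m - 2 := by
        have : k ≠ -m - 1 := hk.2
        omega
      have h3 : (k : ℝ) ≤ -m - 2 := by exact_mod_cast h2
      rw [abs_of_nonpos (by linarith)]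
      linarith
    · have h2 : -m + 1 ≤ k := by omega
      have h3 : (-m : ℝ) + 1 ≤ k := by exact_mod_cast h2
      rw [abs_of_nonneg (by linarith)]
      linarith
  have h : HasSum (fun k : ℤ ↦ tent (c + k)) (∑ k ∈ ({-m, -m - 1} : Finset ℤ), tent (c + k)) :=
    hasSum_sum_of_ne_finset_zero hsupp
  convert h using 1
  rw [Finset.sum_pair hne]
  have e1 : tent (c + ((-m : ℤ) : ℝ)) = 1 - (c - m) := by
    rw [tent_of_abs_le_one]
    · rw [abs_of_nonneg] <;> push_cast <;> linarith
    · rw [abs_of_nonneg] <;> push_cast <;> linarith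
  have e2 : tent (c + ((-m - 1 : ℤ) : ℝ)) = c - m := by
    rw [tent_of_abs_le_one]
    · rw [abs_of_nonpos] <;> push_cast <;> linarith
    · rw [abs_of_nonpos] <;> push_cast <;> linarith
  rw [e1, e2]
  ring

/-- Product version of the partition of unity. -/
theorem tent_prod_hasSum {ι : Type*} [Fintype ι] (c : ι → ℝ) :
    HasSum (fun k : ι → ℤ ↦ ∏ j, tent (c j + k j)) 1 := by
  classical
  let S : ι → Finset ℤ := fun j ↦ {-⌊c j⌋, -⌊c j⌋ - 1}
  have hS : ∀ j (k : ℤ), k ∉ S j → tent (c j + k) = 0 := by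
    intro j k hk
    by_contra h
    have h1 := abs_lt_one_of_tent_ne_zero h
    have hfl := Int.floor_le (c j)
    have hlt := Int.lt_floor_add_one (c j)
    rw [abs_lt] at h1
    apply hk
    simp only [S, Finset.mem_insert, Finset.mem_singleton]
    have h2 : (-⌊c j⌋ - 2 : ℝ) < k := by linarith
    have h3 : (k : ℝ) < -⌊c j⌋ + 1 := by linarith
    have h2' : -⌊c j⌋ - 2 < k := by exact_mod_cast h2
    have h3' : k < -⌊c j⌋ + 1 := by exact_mod_cast h3
    omega
  have hsum : ∀ j, ∑ k ∈ S j, tent (c j + k) = 1 := by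
    intro j
    have h : HasSum (fun k : ℤ ↦ tent (c j + k)) (∑ k ∈ S j, tent (c j + k)) :=
      hasSum_sum_of_ne_finset_zero (hS j)
    exact h.unique (tent_hasSum (c j))
  have hsupp : ∀ k : ι → ℤ, k ∉ Fintype.piFinset S → ∏ j, tent (c j + k j) = 0 := by
    intro k hk
    rw [Fintype.mem_piFinset] at hk
    push Not at hk
    obtain ⟨j, hj⟩ := hk
    exact Finset.prod_eq_zero (Finset.mem_univ j) (hS j _ hj)
  have h : HasSum (fun k : ι → ℤ ↦ ∏ j, tent (c j + k j))
      (∑ k ∈ Fintype.piFinset S, ∏ j, tent (c j + k j)) :=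
    hasSum_sum_of_ne_finset_zero hsupp
  convert h using 1
  have := Finset.prod_univ_sum S (fun j (k : ℤ) ↦ tent (c j + k))
  rw [← this]
  simp [hsum]

end Fermat.Agent.S14.H74

end
-- ===== PACK-END S14/H74/Tent.lean

-- ===== PACK-BEGIN S59/H307/GlueRep.lean
section




/-!
# S59 / layer G4, piece GLUE (helper307): dictionary `GaloisRepAdic` ↔ `2 × 2` matrices

* `Realizes ρ e m` : in the coordinates `e : ρ.V ≃ₗ (Fin 2 → A)` the representation `ρ` is given
  by the matrices `m σ`.
* `exists_realizes`, `Realizes.conj`, `Realizes.trace_eq`, `Realizes.charpoly_eq`.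
* `Realizes.exists_isUnit_of_irreducible` : residual irreducibility gives unit off-diagonal
  entries.
* `ofMat M hM` : the `GaloisRepAdic` on `Fin 2 → A` defined by an entrywise continuous matrix
  representation; `baseChange_ofMat_isEquiv`.
-/

set_option autoImplicit false
set_option linter.unusedSectionVars false
set_option linter.unusedVariables false
set_option linter.unusedSimpArgs false

noncomputable section

namespace Fermat.Agent.S59.H307

open scoped TensorProduct
open Matrix Polynomial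

/-- `Gal(ℚ̄/ℚ)`. -/
abbrev GalQ : Type := AlgebraicClosure ℚ ≃ₐ[ℚ] AlgebraicClosure ℚ

section Coord

variable {A : Type*} [CommRing A]

theorem mem_smul_top_of_forall_mem (I : Ideal A) (w : Fin 2 → A) (hw : ∀ j, w j ∈ I) :
    w ∈ I • (⊤ : Submodule A (Fin 2 → A)) := by
  have h := (Pi.basisFun A (Fin 2)).sum_repr w
  rw [← h]
  refine Submodule.sum_mem _ fun j _ => ?_
  refine Submodule.smul_mem_smul ?_ Submodule.mem_top
  rw [Pi.basisFun_repr]
  exact hw j

theorem forall_mem_of_mem_smul_top (I : Ideal A) (w : Fin 2 → A)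
    (hw : w ∈ I • (⊤ : Submodule A (Fin 2 → A))) (j : Fin 2) : w j ∈ I := by
  refine Submodule.smul_induction_on (p := fun x => x j ∈ I) hw ?_ ?_
  · intro a ha v _
    rw [Pi.smul_apply, smul_eq_mul]
    exact I.mul_mem_right _ ha
  · intro x y hx hy
    rw [Pi.add_apply]
    exact I.add_mem hx hy

theorem mul_entries_mem (I : Ideal A) (X Y : Matrix (Fin 2) (Fin 2) A)
    (hX : ∀ j k, X j k ∈ I) (j k : Fin 2) : (Y * X) j k ∈ I := by
  rw [mat2_mul_apply]
  exact I.add_mem (I.mul_mem_left _ (hX _ _)) (I.mul_mem_left _ (hX _ _))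

theorem entries_mul_mem (I : Ideal A) (X Y : Matrix (Fin 2) (Fin 2) A)
    (hX : ∀ j k, X j k ∈ I) (j k : Fin 2) : (X * Y) j k ∈ I := by
  rw [mat2_mul_apply]
  exact I.add_mem (I.mul_mem_right _ (hX _ _)) (I.mul_mem_right _ (hX _ _))

end Coord

section Realize

variable {A : Type} [CommRing A] [IsLocalRing A]

/-- In the coordinates `e`, the representation `ρ` is given by the matrices `m σ`. -/
def Realizes (ρ : GaloisRepAdic A) (e : ρ.V ≃ₗ[A] (Fin 2 → A))
    (m : GalQ → Matrix (Fin 2) (Fin 2) A) : Prop :=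
  ∀ (σ : GalQ) (v : ρ.V), e (ρ.ρ σ v) = m σ *ᵥ e v

theorem exists_realizes (ρ : GaloisRepAdic A) :
    ∃ (e : ρ.V ≃ₗ[A] (Fin 2 → A)) (m : GalQ →* Matrix (Fin 2) (Fin 2) A), Realizes ρ e m := by
  classical
  let b : Module.Basis (Fin 2) A ρ.V := Module.finBasisOfFinrankEq A ρ.V ρ.finrank_eq
  refine ⟨b.equivFun,
    { toFun := fun σ => LinearMap.toMatrix b b (ρ.ρ σ)
      map_one' := by rw [map_one]; exact LinearMap.toMatrix_one b
      map_mul' := fun σ σ' => by rw [map_mul]; exact LinearMap.toMatrix_mul b _ _ }, ?_⟩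
  intro σ v
  exact (LinearMap.toMatrix_mulVec_repr b b (ρ.ρ σ) v).symm

variable {ρ : GaloisRepAdic A} {e : ρ.V ≃ₗ[A] (Fin 2 → A)}
  {m : GalQ → Matrix (Fin 2) (Fin 2) A}

theorem toLin'OfInv_eq_mulVec {P Q : Matrix (Fin 2) (Fin 2) A}
    (hPQ : P * Q = 1) (hQP : Q * P = 1) (w : Fin 2 → A) :
    Matrix.toLin'OfInv hPQ hQP w = Q *ᵥ w := by
  ext j
  rw [Matrix.toLin'OfInv_apply, Matrix.toLin'_apply]

theorem toLin'OfInv_symm_eq_mulVec {P Q : Matrix (Fin 2) (Fin 2) A}
    (hPQ : P * Q = 1) (hQP : Q * P = 1) (w : Fin 2 → A) :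
    (Matrix.toLin'OfInv hPQ hQP).symm w = P *ᵥ w := by
  ext j
  rw [Matrix.toLin'OfInv_symm_apply, Matrix.toLin'_apply]

theorem Realizes.conj (h : Realizes ρ e m) {P Q : Matrix (Fin 2) (Fin 2) A}
    (hPQ : P * Q = 1) (hQP : Q * P = 1) :
    Realizes ρ (e.trans (Matrix.toLin'OfInv hPQ hQP)) (fun σ => Q * m σ * P) := by
  intro σ v
  rw [LinearEquiv.trans_apply, LinearEquiv.trans_apply, toLin'OfInv_eq_mulVec,
    toLin'OfInv_eq_mulVec, h σ v]
  show Q *ᵥ m σ *ᵥ e v = (Q * m σ * P) *ᵥ Q *ᵥ e v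
  rw [Matrix.mulVec_mulVec, Matrix.mulVec_mulVec, Matrix.mul_assoc (Q * m σ), hPQ, Matrix.mul_one]

theorem Realizes.conj_eq (h : Realizes ρ e m) (σ : GalQ) :
    e.conj (ρ.ρ σ) = Matrix.toLin' (m σ) := by
  apply LinearMap.ext
  intro w
  rw [LinearEquiv.conj_apply_apply, h σ, LinearEquiv.apply_symm_apply, Matrix.toLin'_apply]

theorem Realizes.trace_eq (h : Realizes ρ e m) (σ : GalQ) : ρ.trace σ = (m σ).trace := by
  unfold GaloisRepAdic.trace
  rw [← LinearMap.trace_conj' (ρ.ρ σ) e, h.conj_eq, Matrix.trace_toLin'_eq]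

theorem Realizes.charpoly_eq (h : Realizes ρ e m) (σ : GalQ) :
    LinearMap.charpoly (ρ.ρ σ) = X ^ 2 - C (m σ).trace * X + C (m σ).det := by
  rw [← LinearEquiv.charpoly_conj e, h.conj_eq, Matrix.charpoly_toLin', Matrix.charpoly_fin_two]

/-- Image of the `k`-th coordinate vector. -/
theorem Realizes.apply_symm_single (h : Realizes ρ e m) (σ : GalQ) (k : Fin 2) :
    e (ρ.ρ σ (e.symm (Pi.single k 1))) = fun j => m σ j k := by
  rw [h σ, LinearEquiv.apply_symm_apply, Matrix.mulVec_single_one]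
  rfl

/-- Residual irreducibility: the upper right entry takes a unit value. -/
theorem Realizes.exists_isUnit_01 (h : Realizes ρ e m) (hirr : ρ.residual.IsIrreducible) :
    ∃ σ, IsUnit (m σ 0 1) := by
  classical
  by_contra hcon
  rw [not_exists] at hcon
  have hirr' : ∀ W : Submodule (IsLocalRing.ResidueField A)
      (IsLocalRing.ResidueField A ⊗[A] ρ.V),
      (∀ σ : GalQ, ∀ x ∈ W, (ρ.ρ σ).baseChange (IsLocalRing.ResidueField A) x ∈ W) →
        W = ⊥ ∨ W = ⊤ := hirr
  let b : Module.Basis (Fin 2) A ρ.V := Module.Basis.ofEquivFun e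
  let bk : Module.Basis (Fin 2) (IsLocalRing.ResidueField A)
    (IsLocalRing.ResidueField A ⊗[A] ρ.V) := b.baseChange (IsLocalRing.ResidueField A)
  have hb : ∀ j, b j = e.symm (Pi.single j 1) := fun j => by
    rw [Module.Basis.coe_ofEquivFun]
  have hbk : ∀ j, bk j = (1 : IsLocalRing.ResidueField A) ⊗ₜ[A] b j :=
    fun j => Module.Basis.baseChange_apply _ _ _
  have hact : ∀ σ, ρ.ρ σ (b 1) = m σ 0 1 • b 0 + m σ 1 1 • b 1 := by
    intro σ
    apply e.injective
    rw [hb 1, h.apply_symm_single, map_add, map_smul, map_smul, hb 0,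
      LinearEquiv.apply_symm_apply, LinearEquiv.apply_symm_apply]
    ext j
    fin_cases j <;> simp
  have hsm : ∀ (a : A) (w : ρ.V), (1 : IsLocalRing.ResidueField A) ⊗ₜ[A] (a • w) =
      IsLocalRing.residue A a • ((1 : IsLocalRing.ResidueField A) ⊗ₜ[A] w) := by
    intro a w
    rw [TensorProduct.tmul_smul, TensorProduct.smul_tmul', TensorProduct.smul_tmul',
      Algebra.smul_def, IsLocalRing.ResidueField.algebraMap_eq, smul_eq_mul]
  have hres : ∀ σ, (ρ.ρ σ).baseChange (IsLocalRing.ResidueField A) (bk 1) =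
      IsLocalRing.residue A (m σ 1 1) • bk 1 := by
    intro σ
    rw [hbk 1, LinearMap.baseChange_tmul, hact σ, TensorProduct.tmul_add, hsm, hsm,
      (IsLocalRing.residue_eq_zero_iff (m σ 0 1)).mpr (hcon σ), zero_smul, zero_add]
  have hW := hirr' (Submodule.span (IsLocalRing.ResidueField A) {bk 1}) (by
    intro σ x hx
    obtain ⟨a, rfl⟩ := Submodule.mem_span_singleton.mp hx
    rw [map_smul, hres σ, smul_smul]
    exact Submodule.smul_mem _ _ (Submodule.mem_span_singleton_self _))
  rcases hW with hW | hW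
  · have h1 : bk 1 ∈ Submodule.span (IsLocalRing.ResidueField A) {bk 1} :=
      Submodule.mem_span_singleton_self _
    rw [hW] at h1
    exact bk.ne_zero 1 ((Submodule.mem_bot _).mp h1)
  · have h0 : bk 0 ∈ Submodule.span (IsLocalRing.ResidueField A) {bk 1} := by
      rw [hW]; exact Submodule.mem_top
    obtain ⟨a, ha⟩ := Submodule.mem_span_singleton.mp h0
    have h2 := congrArg (fun x => bk.repr x 0) ha
    simp at h2

theorem swap_mul_swap : (!![0, 1; 1, 0] : Matrix (Fin 2) (Fin 2) A) * !![0, 1; 1, 0] = 1 := by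
  apply mat2_ext <;> simp only [mat2_mul_apply, mat2_of_00, mat2_of_01, mat2_of_10, mat2_of_11,
    mat2_one_00, mat2_one_01, mat2_one_10, mat2_one_11] <;> ring

/-- Residual irreducibility: the lower left entry takes a unit value. -/
theorem Realizes.exists_isUnit_10 (h : Realizes ρ e m) (hirr : ρ.residual.IsIrreducible) :
    ∃ σ, IsUnit (m σ 1 0) := by
  obtain ⟨σ, hσ⟩ := (h.conj swap_mul_swap swap_mul_swap).exists_isUnit_01 hirr
  refine ⟨σ, ?_⟩
  have : (!![0, 1; 1, 0] * m σ * !![0, 1; 1, 0] : Matrix (Fin 2) (Fin 2) A) 0 1 = m σ 1 0 := by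
    simp only [mat2_mul_apply, mat2_of_00, mat2_of_01, mat2_of_10, mat2_of_11]; ring
  rw [← this]; exact hσ

end Realize

section OfMat

variable {A : Type} [CommRing A] [IsLocalRing A]

/-- Entrywise adic continuity of a matrix-valued function on `Gal(ℚ̄/ℚ)`. -/
def EntrywiseContinuous (m : GalQ → Matrix (Fin 2) (Fin 2) A) : Prop :=
  ∀ n : ℕ, ∃ L : IntermediateField ℚ (AlgebraicClosure ℚ), FiniteDimensional ℚ L ∧
    ∀ σ : GalQ, (∀ x ∈ L, σ x = x) →
      ∀ j k, (m σ - 1) j k ∈ IsLocalRing.maximalIdeal A ^ n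

theorem Realizes.entrywiseContinuous {ρ : GaloisRepAdic A} {e : ρ.V ≃ₗ[A] (Fin 2 → A)}
    {m : GalQ → Matrix (Fin 2) (Fin 2) A} (h : Realizes ρ e m) : EntrywiseContinuous m := by
  intro n
  obtain ⟨L, hL, hcont⟩ := ρ.isAdicContinuous n
  refine ⟨L, hL, fun σ hσ j k => ?_⟩
  have hmem := hcont σ hσ (e.symm (Pi.single k 1))
  have hkey : ∀ x ∈ (IsLocalRing.maximalIdeal A ^ n) • (⊤ : Submodule A ρ.V),
      e x j ∈ IsLocalRing.maximalIdeal A ^ n := by
    intro x hx
    refine Submodule.smul_induction_on (p := fun x => e x j ∈ IsLocalRing.maximalIdeal A ^ n)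
      hx ?_ ?_
    · intro a ha v _
      rw [map_smul, Pi.smul_apply, smul_eq_mul]
      exact Ideal.mul_mem_right _ _ ha
    · intro x y hx hy
      rw [map_add, Pi.add_apply]
      exact Ideal.add_mem _ hx hy
  have := hkey _ hmem
  rw [map_sub, h.apply_symm_single, LinearEquiv.apply_symm_apply, Pi.sub_apply] at this
  rw [Matrix.sub_apply, Matrix.one_apply]
  convert this using 2
  rw [Pi.single_apply]

theorem EntrywiseContinuous.conj {m : GalQ → Matrix (Fin 2) (Fin 2) A}
    (h : EntrywiseContinuous m) {P Q : Matrix (Fin 2) (Fin 2) A} (hQP : Q * P = 1) :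
    EntrywiseContinuous (fun σ => Q * m σ * P) := by
  intro n
  obtain ⟨L, hL, hcont⟩ := h n
  refine ⟨L, hL, fun σ hσ j k => ?_⟩
  have : Q * m σ * P - 1 = Q * (m σ - 1) * P := by
    rw [Matrix.mul_sub, Matrix.sub_mul, Matrix.mul_one, hQP]
  rw [this]
  exact entries_mul_mem _ _ _ (fun j k => mul_entries_mem _ _ _ (hcont σ hσ) j k) j k

/-- The linear action on `Fin 2 → A` defined by a matrix representation. -/
def matRho (M : GalQ →* Matrix (Fin 2) (Fin 2) A) : GalQ →* Module.End A (Fin 2 → A) where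
  toFun σ := Matrix.toLin' (M σ)
  map_one' := by rw [map_one, Matrix.toLin'_one]; rfl
  map_mul' σ σ' := by rw [map_mul, Matrix.toLin'_mul]; rfl

theorem matRho_apply (M : GalQ →* Matrix (Fin 2) (Fin 2) A) (σ : GalQ) (v : Fin 2 → A) :
    matRho M σ v = M σ *ᵥ v := Matrix.toLin'_apply _ _

/-- The `GaloisRepAdic` on `Fin 2 → A` defined by an entrywise continuous matrix
representation. -/
def ofMat (M : GalQ →* Matrix (Fin 2) (Fin 2) A) (hM : EntrywiseContinuous M) :
    GaloisRepAdic A where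
  V := Fin 2 → A
  finrank_eq := Module.finrank_fin_fun A
  ρ := matRho M
  isAdicContinuous := by
    intro n
    obtain ⟨L, hL, hcont⟩ := hM n
    refine ⟨L, hL, fun σ hσ v => ?_⟩
    apply mem_smul_top_of_forall_mem
    intro j
    have : matRho M σ v - v = (M σ - 1) *ᵥ v := by
      rw [matRho_apply, Matrix.sub_mulVec, Matrix.one_mulVec]
    rw [this, Matrix.mulVec, dotProduct, Fin.sum_univ_two]
    exact Ideal.add_mem _ (Ideal.mul_mem_right _ _ (hcont σ hσ _ _))
      (Ideal.mul_mem_right _ _ (hcont σ hσ _ _))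

theorem realizes_ofMat (M : GalQ →* Matrix (Fin 2) (Fin 2) A) (hM : EntrywiseContinuous M) :
    Realizes (ofMat M hM) (LinearEquiv.refl A (Fin 2 → A)) M := by
  intro σ v
  exact matRho_apply M σ v

theorem trace_ofMat (M : GalQ →* Matrix (Fin 2) (Fin 2) A) (hM : EntrywiseContinuous M)
    (σ : GalQ) : (ofMat M hM).trace σ = (M σ).trace :=
  (realizes_ofMat M hM).trace_eq σ

end OfMat

section BaseChange

variable {T O : Type} [CommRing T] [IsLocalRing T] [CommRing O] [IsLocalRing O]

/-- Two representations with the same matrices are equivalent. -/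
theorem isEquiv_of_realizes {ρ₁ ρ₂ : GaloisRepAdic O} {e₁ : ρ₁.V ≃ₗ[O] (Fin 2 → O)}
    {e₂ : ρ₂.V ≃ₗ[O] (Fin 2 → O)} {m : GalQ → Matrix (Fin 2) (Fin 2) O}
    (h₁ : Realizes ρ₁ e₁ m) (h₂ : Realizes ρ₂ e₂ m) : ρ₁.IsEquiv ρ₂ := by
  refine ⟨{ toLinearEquiv := e₁.trans e₂.symm, map_apply := fun σ x => ?_ }⟩
  apply e₂.injective
  rw [LinearEquiv.trans_apply, LinearEquiv.trans_apply, LinearEquiv.apply_symm_apply, h₁ σ x,
    h₂ σ, LinearEquiv.apply_symm_apply]

theorem piScalarRight_baseChange_toLin' {T' O' : Type*} [CommRing T'] [CommRing O']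
    [Algebra T' O'] (N : Matrix (Fin 2) (Fin 2) T') (x : O' ⊗[T'] (Fin 2 → T')) :
    TensorProduct.piScalarRight T' O' O' (Fin 2) ((Matrix.toLin' N).baseChange O' x) =
      (N.map (algebraMap T' O')) *ᵥ TensorProduct.piScalarRight T' O' O' (Fin 2) x := by
  induction x using TensorProduct.induction_on with
  | zero => rw [map_zero, map_zero, Matrix.mulVec_zero]
  | tmul o v =>
    rw [LinearMap.baseChange_tmul, TensorProduct.piScalarRight_apply,
      TensorProduct.piScalarRightHom_tmul, TensorProduct.piScalarRight_apply,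
      TensorProduct.piScalarRightHom_tmul, Matrix.toLin'_apply]
    ext j
    simp only [Matrix.mulVec, dotProduct, Fin.sum_univ_two, Matrix.map_apply, Algebra.smul_def,
      map_add, map_mul]
    ring
  | add x y hx hy =>
    rw [map_add, map_add, map_add, Matrix.mulVec_add, hx, hy]

/-- The base change of `ofMat M` along `ψ` is realised by the matrices `ψ (M σ)`. -/
theorem exists_realizes_baseChange_ofMat (ψ : T →+* O) (hψ : IsLocalHom ψ)
    (M : GalQ →* Matrix (Fin 2) (Fin 2) T) (hM : EntrywiseContinuous M) :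
    ∃ e : ((ofMat M hM).baseChangeAlong ψ hψ).V ≃ₗ[O] (Fin 2 → O),
      Realizes ((ofMat M hM).baseChangeAlong ψ hψ) e (fun σ => (M σ).map ψ) := by
  let _ : Algebra T O := ψ.toAlgebra
  refine ⟨TensorProduct.piScalarRight T O O (Fin 2), ?_⟩
  intro σ x
  exact piScalarRight_baseChange_toLin' (M σ) x

/-- If the matrices of `ρ'` are the images of the `M σ`, then `ρ'` is the base change of
`ofMat M`. -/
theorem baseChange_ofMat_isEquiv (ψ : T →+* O) (hψ : IsLocalHom ψ)
    (M : GalQ →* Matrix (Fin 2) (Fin 2) T) (hM : EntrywiseContinuous M)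
    {ρ' : GaloisRepAdic O} {e : ρ'.V ≃ₗ[O] (Fin 2 → O)} {m' : GalQ → Matrix (Fin 2) (Fin 2) O}
    (h : Realizes ρ' e m') (hMm : ∀ σ, (M σ).map ψ = m' σ) :
    ((ofMat M hM).baseChangeAlong ψ hψ).IsEquiv ρ' := by
  obtain ⟨e₁, h₁⟩ := exists_realizes_baseChange_ofMat ψ hψ M hM
  have : (fun σ => (M σ).map ψ) = m' := funext hMm
  rw [this] at h₁
  exact isEquiv_of_realizes h₁ h

end BaseChange

end Fermat.Agent.S59.H307

end
end
-- ===== PACK-END S59/H307/GlueRep.lean

-- ===== PACK-BEGIN S53/DictSchur.lean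
section


set_option autoImplicit false
set_option linter.unusedSectionVars false

open scoped TensorProduct

namespace Fermat.Agent.S53

section Schur

variable {k : Type} [Field k]

/-- Base change (along an arbitrary algebra structure) of an equivalence of residual
representations. -/
noncomputable def resEquivBaseChange (k' : Type) [Field k'] [Algebra k k']
    {ρ₁ ρ₂ : ResidualGaloisRep k} (e : ResidualGaloisRep.Equiv ρ₁ ρ₂) :
    ResidualGaloisRep.Equiv (ρ₁.baseChange k') (ρ₂.baseChange k') :=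
  { toLinearEquiv := e.toLinearEquiv.baseChange k k' ρ₁.V ρ₂.V
    map_apply := fun σ x => by
      show e.toLinearEquiv.baseChange k k' ρ₁.V ρ₂.V ((ρ₁.ρ σ).baseChange k' x) =
        (ρ₂.ρ σ).baseChange k' (e.toLinearEquiv.baseChange k k' ρ₁.V ρ₂.V x)
      induction x using TensorProduct.induction_on with
      | zero => simp only [map_zero]
      | tmul b v =>
        rw [LinearMap.baseChange_tmul, LinearEquiv.baseChange_tmul, LinearEquiv.baseChange_tmul,
          LinearMap.baseChange_tmul, e.map_apply]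
      | add x y hx hy => simp only [map_add, hx, hy] }

theorem baseChange_toRes (k' : Type) [Field k'] [Algebra k k'] (rb : GQ →* M2 k)
    (h : GaloisFactorsThroughFiniteLevel rb) :
    ((toRes rb h).baseChange k').IsEquiv
      (toRes (mapRep (algebraMap k k') rb) (factors_mapRep (algebraMap k k') h)) := by
  let e : k' ⊗[k] (Fin 2 → k) ≃ₗ[k'] (Fin 2 → k') := TensorProduct.piScalarRight k k' k' (Fin 2)
  refine ⟨⟨e, fun σ x => ?_⟩⟩
  exact piScalarRight_baseChange (rb σ) x

lemma isIrreducible_of_equiv {ρ₁ ρ₂ : ResidualGaloisRep k} (e : ResidualGaloisRep.Equiv ρ₁ ρ₂)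
    (h : ρ₁.IsIrreducible) : ρ₂.IsIrreducible := by
  intro W hW
  have hstab : ∀ σ : AlgebraicClosure ℚ ≃ₐ[ℚ] AlgebraicClosure ℚ,
      ∀ x ∈ W.comap e.toLinearEquiv.toLinearMap, ρ₁.ρ σ x ∈ W.comap e.toLinearEquiv.toLinearMap := by
    intro σ x hx
    rw [Submodule.mem_comap] at hx ⊢
    have := hW σ _ hx
    rw [LinearEquiv.coe_coe] at this ⊢
    rwa [e.map_apply]
  have hmap : (W.comap e.toLinearEquiv.toLinearMap).map e.toLinearEquiv.toLinearMap = W :=
    Submodule.map_comap_eq_of_surjective e.toLinearEquiv.surjective W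
  rcases h _ hstab with h0 | h1
  · left
    rw [← hmap, h0, Submodule.map_bot]
  · right
    rw [← hmap, h1, Submodule.map_top]
    exact LinearMap.range_eq_top.2 e.toLinearEquiv.surjective

/-- **Schur's lemma** in matrix form: a matrix commuting with an absolutely irreducible
matrix representation is scalar. -/
theorem schur_matrix (ρbar : ResidualGaloisRep k) (habs : ρbar.IsAbsolutelyIrreducible)
    (rb : GQ →* M2 k) (hrb : GaloisFactorsThroughFiniteLevel rb)
    (hρ : ρbar.IsEquiv (toRes rb hrb)) (X : M2 k) (hX : ∀ σ, X * rb σ = rb σ * X) :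
    ∃ c : k, X = c • (1 : M2 k) := by
  classical
  obtain ⟨e⟩ := hρ
  obtain ⟨e'⟩ := baseChange_toRes (AlgebraicClosure k) rb hrb
  have hirr : (toRes (mapRep (algebraMap k (AlgebraicClosure k)) rb)
      (factors_mapRep (algebraMap k (AlgebraicClosure k)) hrb)).IsIrreducible :=
    isIrreducible_of_equiv ((resEquivBaseChange (AlgebraicClosure k) e).trans e') habs
  set K := AlgebraicClosure k
  set XK : M2 K := X.map (algebraMap k K) with hXK
  have hcomm : ∀ σ, XK * (rb σ).map (algebraMap k K) = (rb σ).map (algebraMap k K) * XK := by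
    intro σ
    rw [hXK, ← Matrix.map_mul, ← Matrix.map_mul, hX]
  let f : Module.End K (Fin 2 → K) := Matrix.toLin' XK
  obtain ⟨c, hc⟩ := Module.End.exists_eigenvalue f
  have hstab : ∀ σ : AlgebraicClosure ℚ ≃ₐ[ℚ] AlgebraicClosure ℚ,
      ∀ x ∈ Module.End.eigenspace f c, ((rb σ).map (algebraMap k K)).mulVec x ∈
        Module.End.eigenspace f c := by
    intro σ x hx
    rw [Module.End.mem_eigenspace_iff] at hx ⊢
    have hx' : XK.mulVec x = c • x := hx
    show Matrix.toLin' XK _ = _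
    rw [Matrix.toLin'_apply, Matrix.mulVec_mulVec, hcomm, ← Matrix.mulVec_mulVec, hx',
      Matrix.mulVec_smul]
  have htop : Module.End.eigenspace f c = ⊤ := (hirr _ hstab).resolve_left hc
  have hall : ∀ x : Fin 2 → K, XK.mulVec x = c • x := by
    intro x
    have hx : x ∈ Module.End.eigenspace f c := by rw [htop]; exact Submodule.mem_top
    rw [Module.End.mem_eigenspace_iff] at hx
    exact hx
  have hentry : ∀ i j, XK i j = if i = j then c else 0 := by
    intro i j
    have := congrFun (hall (Pi.single j 1)) i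
    simpa [Matrix.mulVec_single, Pi.single_apply, eq_comm] using this
  have hinj : Function.Injective (algebraMap k K) := (algebraMap k K).injective
  refine ⟨X 0 0, ?_⟩
  ext i j
  apply hinj
  have h00 := hentry 0 0
  have hij := hentry i j
  simp only [hXK, Matrix.map_apply, if_true] at h00 hij
  rw [hij, Matrix.smul_apply, Matrix.one_apply, smul_eq_mul]
  split_ifs with h
  · simp [h00]
  · simp

end Schur

end Fermat.Agent.S53

end
-- ===== PACK-END S53/DictSchur.lean

-- ===== PACK-BEGIN S24/D5/H108Growth.lean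
section


/-!
# D5: growth adapters and uniqueness for the polynomial principle

Mathlib-only (plus `H108Poly`).  Namespace `Fermat.Agent.S24.H108`.
-/

noncomputable section

open UpperHalfPlane ModularForm SlashInvariantForm SlashInvariantFormClass ModularFormClass
  CuspFormClass MatrixGroups OnePoint Filter EisensteinSeries Asymptotics

open scoped Topology Manifold Real

namespace Fermat.Agent.S24.H108

local notation "Δ" => ModularForm.discriminant

/-! ### Growth of `Δ` at `i∞` -/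

lemma discriminant_isBigO_exp :
    (Δ : ℍ → ℂ) =O[atImInfty] fun τ : ℍ => Real.exp (-(2 * π * τ.im)) := by
  have h := CuspFormClass.exp_decay_atImInfty (h := 1) CuspForm.discriminant one_pos
    one_mem_strictPeriods_SL
  refine h.congr_right fun τ => ?_
  congr 1
  ring

lemma discriminant_pow_isBigO_exp (m : ℕ) :
    (fun τ : ℍ => Δ τ ^ m) =O[atImInfty] fun τ : ℍ => Real.exp (-(2 * π * m * τ.im)) := by
  have h := discriminant_isBigO_exp.pow m
  refine h.congr_right fun τ => ?_
  rw [← Real.exp_nat_mul]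
  congr 1
  ring

lemma norm_qParam_one (τ : ℍ) :
    ‖Complex.exp (2 * π * Complex.I * τ)‖ = Real.exp (-(2 * π * τ.im)) := by
  rw [Complex.norm_exp]
  congr 1
  simp [Complex.mul_re, Complex.mul_im]

lemma discriminant_isBigO_qParam :
    (Δ : ℍ → ℂ) =O[atImInfty] fun τ : ℍ => Complex.exp (2 * π * Complex.I * τ) := by
  refine discriminant_isBigO_exp.trans (IsBigO.of_bound 1 (Eventually.of_forall fun τ => ?_))
  rw [norm_qParam_one, Real.norm_eq_abs, abs_of_pos (Real.exp_pos _), one_mul]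

/-! ### Adapters -/

/-- Exponential growth of order `m` implies `f * Δ ^ m` bounded at `i∞`. -/
lemma isBoundedAtImInfty_mul_discriminant_pow_of_exp_growth {f : ℍ → ℂ} {m : ℕ}
    (hgr : ∃ C A : ℝ, ∀ τ : ℍ, A ≤ τ.im → ‖f τ‖ ≤ C * Real.exp (2 * π * m * τ.im)) :
    IsBoundedAtImInfty (fun τ => f τ * Δ τ ^ m) := by
  obtain ⟨C, A, h⟩ := hgr
  have hf : f =O[atImInfty] fun τ : ℍ => Real.exp (2 * π * m * τ.im) := by
    refine IsBigO.of_bound C ?_
    have hA : ∀ᶠ τ : ℍ in atImInfty, A ≤ τ.im :=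
      (Filter.eventually_ge_atTop A).comap UpperHalfPlane.im
    filter_upwards [hA] with τ hτ
    rw [Real.norm_eq_abs, abs_of_pos (Real.exp_pos _)]
    exact h τ hτ
  have hprod := hf.mul (discriminant_pow_isBigO_exp m)
  rw [IsBoundedAtImInfty, BoundedAtFilter]
  refine hprod.congr_right fun τ => ?_
  rw [← Real.exp_add]
  simp

/-- `f * q ^ m` bounded at `i∞` implies `f * Δ ^ m` bounded at `i∞`. -/
lemma isBoundedAtImInfty_mul_discriminant_pow_of_qParam {f : ℍ → ℂ} {m : ℕ}
    (hbd : IsBoundedAtImInfty (fun τ : ℍ => f τ * Complex.exp (2 * π * Complex.I * τ) ^ m)) :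
    IsBoundedAtImInfty (fun τ => f τ * Δ τ ^ m) := by
  rw [IsBoundedAtImInfty, BoundedAtFilter] at hbd ⊢
  exact ((isBigO_refl f atImInfty).mul (discriminant_isBigO_qParam.pow m)).trans hbd

/-- **D5b.** An `SL(2,ℤ)`-invariant holomorphic function `f : ℍ → ℂ` with
`‖f τ‖ ≤ C * exp (2π m Im τ)` for `Im τ ≥ A` is a polynomial of degree `≤ m` in
`J = E₄³ / Δ`. -/
theorem exists_polynomial_of_invariant_of_exp_growth (f : ℍ → ℂ) (hf : MDiff f)
    (hinv : ∀ (γ : SL(2, ℤ)) (τ : ℍ), f (γ • τ) = f τ) (m : ℕ)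
    (hgr : ∃ C A : ℝ, ∀ τ : ℍ, A ≤ τ.im → ‖f τ‖ ≤ C * Real.exp (2 * π * m * τ.im)) :
    ∃ P : Polynomial ℂ, P.natDegree ≤ m ∧ ∀ τ : ℍ, f τ = P.eval (E₄ τ ^ 3 / Δ τ) :=
  exists_polynomial_of_invariant f hf hinv m
    (isBoundedAtImInfty_mul_discriminant_pow_of_exp_growth hgr)

/-- **D5b'.** Same with the hypothesis `f * q ^ m` bounded at `i∞`, `q = exp (2πiτ)`. -/
theorem exists_polynomial_of_invariant_of_qParam (f : ℍ → ℂ) (hf : MDiff f)
    (hinv : ∀ (γ : SL(2, ℤ)) (τ : ℍ), f (γ • τ) = f τ) (m : ℕ)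
    (hbd : IsBoundedAtImInfty (fun τ : ℍ => f τ * Complex.exp (2 * π * Complex.I * τ) ^ m)) :
    ∃ P : Polynomial ℂ, P.natDegree ≤ m ∧ ∀ τ : ℍ, f τ = P.eval (E₄ τ ^ 3 / Δ τ) :=
  exists_polynomial_of_invariant f hf hinv m
    (isBoundedAtImInfty_mul_discriminant_pow_of_qParam hbd)

end Fermat.Agent.S24.H108

end
end
-- ===== PACK-END S24/D5/H108Growth.lean

-- ===== PACK-BEGIN S28/H86/GaussGen.lean
section




/-!
# The Gauss valuation ring of `O((t))` for a general coefficient DVR `O ⊆ E`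

`E` a field, `O : Subring E`, `res : O →+* k` onto-ish a field `k` with kernel `(π)`, such that
every nonzero element of `O` is `π ^ n * y` with `res y ≠ 0` (`UnifData`).

* `inclL O : LaurentSeries O →+* LaurentSeries E`, `redL res : LaurentSeries O →+* LaurentSeries k`
* `gaussRing O res : Subring (LaurentSeries E)` = localisation of `O((t))` at `(π)`
* `gaussRed : gaussRing O res →+* LaurentSeries k`, kernel `= π · gaussRing`
* `gaussFrac O : Subfield (LaurentSeries E)`, the valuation-ring dichotomy, integral closedness.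
-/

set_option autoImplicit false
set_option linter.unusedSectionVars false

noncomputable section

namespace Fermat.Agent.S28.H86

open ModularCurve

/-- Uniformiser data: `ker res = (π)`, `π ≠ 0`, every nonzero element is `π ^ n * (unit mod π)`. -/
structure UnifData {E : Type*} [Field E] (O : Subring E) {k : Type*} [Field k]
    (res : O →+* k) (π : O) : Prop where
  ker : ∀ x : O, res x = 0 ↔ ∃ y : O, x = π * y
  ne_zero : π ≠ 0
  prim : ∀ x : O, x ≠ 0 → ∃ (n : ℕ) (y : O), x = π ^ n * y ∧ res y ≠ 0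

section Basic

variable {E : Type*} [Field E] (O : Subring E) {k : Type*} [Field k] (res : O →+* k) {π : O}

/-- The inclusion `O((t)) → E((t))`. -/
def inclL : LaurentSeries O →+* LaurentSeries E := coeffMap O.subtype

@[simp] theorem inclL_coeff (a : LaurentSeries O) (n : ℤ) :
    (inclL O a).coeff n = (a.coeff n : E) := rfl

theorem inclL_injective : Function.Injective (inclL O) := by
  intro a b h
  ext n
  have := congrArg (fun x => x.coeff n) h
  simpa using this

theorem inclL_ne_zero {a : LaurentSeries O} (ha : a ≠ 0) : inclL O a ≠ 0 :=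
  fun h => ha (inclL_injective O (h.trans (map_zero _).symm))

variable {O} in
/-- Coefficientwise reduction `O((t)) → k((t))`. -/
def redL : LaurentSeries O →+* LaurentSeries k := coeffMap res

@[simp] theorem redL_coeff (a : LaurentSeries O) (n : ℤ) :
    (redL res a).coeff n = res (a.coeff n) := rfl

variable {O res}

theorem res_pi (h : UnifData O res π) : res π = 0 := (h.ker π).mpr ⟨1, (mul_one π).symm⟩

theorem coe_pi_ne_zero (h : UnifData O res π) : (π : E) ≠ 0 :=
  fun h0 => h.ne_zero (Subtype.ext h0)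

/-- Division by `π` on `O` (junk value `0` on non-multiples). -/
def divPi (π : O) : ZeroHom O O where
  toFun x := by
    classical
    exact if h : π ≠ 0 ∧ ∃ y : O, x = π * y then h.2.choose else 0
  map_zero' := by
    classical
    by_cases h : π ≠ 0 ∧ ∃ y : O, (0 : O) = π * y
    · simp only [dif_pos h]
      have := h.2.choose_spec
      rcases mul_eq_zero.mp this.symm with h' | h'
      · exact absurd h' h.1
      · exact h'
    · simp only [dif_neg h]

theorem pi_mul_divPi (h : UnifData O res π) {x : O} (hx : res x = 0) : π * divPi π x = x := by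
  classical
  have h1 : π ≠ 0 ∧ ∃ y : O, x = π * y := ⟨h.ne_zero, (h.ker x).mp hx⟩
  show π * (if h : π ≠ 0 ∧ ∃ y : O, x = π * y then h.2.choose else 0) = x
  rw [dif_pos h1]
  exact h1.2.choose_spec.symm

theorem redL_eq_zero_iff (h : UnifData O res π) (a : LaurentSeries O) :
    redL res a = 0 ↔ ∃ a' : LaurentSeries O, a = HahnSeries.C π * a' := by
  constructor
  · intro h0
    refine ⟨a.map (divPi π), ?_⟩
    ext n
    rw [HahnSeries.C_mul_eq_smul, HahnSeries.coeff_smul, HahnSeries.map_coeff, smul_eq_mul,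
      pi_mul_divPi h]
    have := congrArg (fun x => x.coeff n) h0
    simpa using this
  · rintro ⟨a', rfl⟩
    ext n
    rw [HahnSeries.C_mul_eq_smul, redL_coeff, HahnSeries.coeff_smul, smul_eq_mul, map_mul,
      res_pi h, zero_mul, HahnSeries.coeff_zero]

theorem redL_C_pi (h : UnifData O res π) : redL res (HahnSeries.C π) = 0 :=
  (redL_eq_zero_iff h _).mpr ⟨1, by rw [mul_one]⟩

variable (O) in
/-- The uniformiser as a constant Laurent series over `E`. -/
def piL (π : O) : LaurentSeries E := HahnSeries.C (π : E)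

theorem inclL_C (c : O) : inclL O (HahnSeries.C c) = HahnSeries.C (c : E) := by
  ext n
  by_cases hn : n = 0
  · subst hn; simp [HahnSeries.C_apply]
  · simp [HahnSeries.C_apply, HahnSeries.coeff_single_of_ne hn]

theorem inclL_C_pi : inclL O (HahnSeries.C π) = piL O π := inclL_C π

theorem piL_ne_zero (h : UnifData O res π) : piL O π ≠ 0 := by
  intro h0
  exact coe_pi_ne_zero h (HahnSeries.C_injective (by rw [← piL, h0, map_zero]))

theorem redL_cross {a b c d : LaurentSeries O}
    (h : inclL O a * inclL O d = inclL O c * inclL O b) :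
    redL res a * redL res d = redL res c * redL res b := by
  rw [← map_mul, ← map_mul] at h
  rw [← map_mul, ← map_mul, inclL_injective O h]

end Basic

section Ring

variable {E : Type*} [Field E] (O : Subring E) {k : Type*} [Field k] (res : O →+* k) {π : O}

/-! ### The Gauss valuation ring -/

/-- The Gauss valuation ring: the localisation of `O((t))` at the prime `(π)`, realised inside
`E((t))`. -/
def gaussRing : Subring (LaurentSeries E) where
  carrier := {x | ∃ a b : LaurentSeries O, redL res b ≠ 0 ∧ x * inclL O b = inclL O a}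
  mul_mem' := by
    rintro x y ⟨a, b, hb, hab⟩ ⟨c, d, hd, hcd⟩
    refine ⟨a * c, b * d, ?_, ?_⟩
    · rw [map_mul]; exact mul_ne_zero hb hd
    · rw [map_mul, map_mul, ← hab, ← hcd]; ring
  one_mem' := ⟨1, 1, by simp, by simp⟩
  add_mem' := by
    rintro x y ⟨a, b, hb, hab⟩ ⟨c, d, hd, hcd⟩
    refine ⟨a * d + c * b, b * d, ?_, ?_⟩
    · rw [map_mul]; exact mul_ne_zero hb hd
    · rw [map_add, map_mul, map_mul, map_mul, ← hab, ← hcd]; ring
  zero_mem' := ⟨0, 1, by simp, by simp⟩
  neg_mem' := by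
    rintro x ⟨a, b, hb, hab⟩
    exact ⟨-a, b, hb, by rw [map_neg, ← hab]; ring⟩

variable {O res}

theorem mem_gaussRing_iff {x : LaurentSeries E} :
    x ∈ gaussRing O res ↔ ∃ a b : LaurentSeries O,
      redL res b ≠ 0 ∧ x * inclL O b = inclL O a := Iff.rfl

variable (res) in
theorem inclL_mem_gaussRing (a : LaurentSeries O) : inclL O a ∈ gaussRing O res :=
  ⟨a, 1, by simp, by simp⟩

/-- A chosen numerator. -/
def gaussNum (x : gaussRing O res) : LaurentSeries O := x.2.choose

/-- A chosen denominator. -/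
def gaussDen (x : gaussRing O res) : LaurentSeries O := x.2.choose_spec.choose

theorem redL_gaussDen_ne_zero (x : gaussRing O res) : redL res (gaussDen x) ≠ 0 :=
  x.2.choose_spec.choose_spec.1

theorem gauss_spec (x : gaussRing O res) :
    (x : LaurentSeries E) * inclL O (gaussDen x) = inclL O (gaussNum x) :=
  x.2.choose_spec.choose_spec.2

/-- The reduction map on the Gauss ring, as a function. -/
def gaussRedFun (x : gaussRing O res) : LaurentSeries k :=
  redL res (gaussNum x) / redL res (gaussDen x)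

theorem gaussRedFun_eq (x : gaussRing O res) (a b : LaurentSeries O)
    (hb : redL res b ≠ 0) (h : (x : LaurentSeries E) * inclL O b = inclL O a) :
    gaussRedFun x = redL res a / redL res b := by
  rw [gaussRedFun, div_eq_div_iff (redL_gaussDen_ne_zero x) hb]
  apply redL_cross
  rw [← gauss_spec, ← h]; ring

variable (O res) in
/-- The reduction map `V → k((t))`. -/
def gaussRed : gaussRing O res →+* LaurentSeries k where
  toFun := gaussRedFun
  map_one' := by
    rw [gaussRedFun_eq 1 1 1 (by simp) (by simp)]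
    simp
  map_mul' x y := by
    rw [gaussRedFun_eq (x * y) (gaussNum x * gaussNum y) (gaussDen x * gaussDen y)
      (by rw [map_mul]; exact mul_ne_zero (redL_gaussDen_ne_zero x) (redL_gaussDen_ne_zero y))
      (by rw [map_mul, map_mul, ← gauss_spec, ← gauss_spec, Subring.coe_mul]; ring)]
    rw [map_mul, map_mul, gaussRedFun, gaussRedFun, div_mul_div_comm]
  map_zero' := by
    rw [gaussRedFun_eq 0 0 1 (by simp) (by simp)]
    simp
  map_add' x y := by
    rw [gaussRedFun_eq (x + y) (gaussNum x * gaussDen y + gaussNum y * gaussDen x)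
      (gaussDen x * gaussDen y)
      (by rw [map_mul]; exact mul_ne_zero (redL_gaussDen_ne_zero x) (redL_gaussDen_ne_zero y))
      (by rw [map_add, map_mul, map_mul, map_mul, ← gauss_spec, ← gauss_spec,
            Subring.coe_add]; ring)]
    rw [map_add, map_mul, map_mul, map_mul, gaussRedFun, gaussRedFun,
      div_add_div _ _ (redL_gaussDen_ne_zero x) (redL_gaussDen_ne_zero y)]
    ring

theorem gaussRed_eq (x : gaussRing O res) (a b : LaurentSeries O)
    (hb : redL res b ≠ 0) (h : (x : LaurentSeries E) * inclL O b = inclL O a) :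
    gaussRed O res x = redL res a / redL res b := gaussRedFun_eq x a b hb h

theorem gaussRed_inclL (a : LaurentSeries O) :
    gaussRed O res ⟨inclL O a, inclL_mem_gaussRing res a⟩ = redL res a := by
  rw [gaussRed_eq _ a 1 (by simp) (by simp)]
  simp

theorem piL_mem_gaussRing : piL O π ∈ gaussRing O res := by
  rw [← inclL_C_pi]; exact inclL_mem_gaussRing res _

theorem gaussRed_piL (h : UnifData O res π) :
    gaussRed O res ⟨piL O π, piL_mem_gaussRing⟩ = 0 := by
  have : (⟨piL O π, piL_mem_gaussRing⟩ : gaussRing O res) =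
      ⟨inclL O (HahnSeries.C π), inclL_mem_gaussRing res _⟩ := Subtype.ext inclL_C_pi.symm
  rw [this, gaussRed_inclL, redL_C_pi h]

/-- The kernel of the reduction is generated by `π`. -/
theorem gaussRed_eq_zero_iff (h : UnifData O res π) (x : gaussRing O res) :
    gaussRed O res x = 0 ↔ ∃ y : gaussRing O res, (x : LaurentSeries E) = piL O π * y := by
  constructor
  · intro h0
    have h1 : redL res (gaussNum x) = 0 := by
      have h2 : redL res (gaussNum x) / redL res (gaussDen x) = 0 := h0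
      rcases div_eq_zero_iff.mp h2 with h3 | h3
      · exact h3
      · exact absurd h3 (redL_gaussDen_ne_zero x)
    obtain ⟨a', ha'⟩ := (redL_eq_zero_iff h _).mp h1
    have hspec := gauss_spec x
    rw [ha', map_mul, inclL_C_pi] at hspec
    have hne := piL_ne_zero h
    have hy : (x : LaurentSeries E) * (piL O π)⁻¹ ∈ gaussRing O res := by
      refine ⟨a', gaussDen x, redL_gaussDen_ne_zero x, ?_⟩
      calc (x : LaurentSeries E) * (piL O π)⁻¹ * inclL O (gaussDen x)
          = ((x : LaurentSeries E) * inclL O (gaussDen x)) * (piL O π)⁻¹ := by ring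
        _ = inclL O a' := by rw [hspec]; field_simp
    refine ⟨⟨_, hy⟩, ?_⟩
    show (x : LaurentSeries E) = piL O π * ((x : LaurentSeries E) * (piL O π)⁻¹)
    field_simp
  · rintro ⟨y, hy⟩
    have : x = ⟨piL O π, piL_mem_gaussRing⟩ * y := Subtype.ext hy
    rw [this, map_mul, gaussRed_piL h, zero_mul]

/-! ### Primitive parts -/

theorem exists_primitive_aux (h : UnifData O res π) (m : ℕ) :
    ∀ (b : LaurentSeries O) (n0 : ℤ) (y : O), b.coeff n0 = π ^ m * y → res y ≠ 0 →
      ∃ (i : ℕ) (b' : LaurentSeries O), b = HahnSeries.C π ^ i * b' ∧ redL res b' ≠ 0 := by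
  induction m with
  | zero =>
    intro b n0 y hy hres
    refine ⟨0, b, by simp, ?_⟩
    intro h0
    have := congrArg (fun x => x.coeff n0) h0
    simp only [redL_coeff, HahnSeries.coeff_zero] at this
    rw [hy, pow_zero, one_mul] at this
    exact hres this
  | succ m ih =>
    intro b n0 y hy hres
    by_cases hb : redL res b = 0
    · obtain ⟨b1, rfl⟩ := (redL_eq_zero_iff h b).mp hb
      rw [HahnSeries.C_mul_eq_smul, HahnSeries.coeff_smul, smul_eq_mul, pow_succ', mul_assoc] at hy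
      have h1 : b1.coeff n0 = π ^ m * y := mul_left_cancel₀ h.ne_zero hy
      obtain ⟨i, b', hb', hred⟩ := ih b1 n0 y h1 hres
      refine ⟨i + 1, b', ?_, hred⟩
      rw [hb', pow_succ']
      ring
    · exact ⟨0, b, by simp, hb⟩

theorem exists_primitive (h : UnifData O res π) (b : LaurentSeries O) (hb : b ≠ 0) :
    ∃ (i : ℕ) (b' : LaurentSeries O), b = HahnSeries.C π ^ i * b' ∧ redL res b' ≠ 0 := by
  obtain ⟨n0, hn0⟩ : ∃ n0, b.coeff n0 ≠ 0 := by
    by_contra h0
    exact hb (HahnSeries.ext (funext fun n => not_not.mp (not_exists.mp h0 n)))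
  obtain ⟨m, y, hy, hres⟩ := h.prim _ hn0
  exact exists_primitive_aux h m b n0 y hy hres

/-! ### The fraction field of `O((t))` inside `E((t))` -/

variable (O) in
/-- The fraction field of `O((t))`, realised inside `E((t))`. -/
def gaussFrac : Subfield (LaurentSeries E) where
  carrier := {x | ∃ a b : LaurentSeries O, b ≠ 0 ∧ x * inclL O b = inclL O a}
  mul_mem' := by
    rintro x y ⟨a, b, hb, hab⟩ ⟨c, d, hd, hcd⟩
    refine ⟨a * c, b * d, mul_ne_zero hb hd, ?_⟩
    rw [map_mul, map_mul, ← hab, ← hcd]; ring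
  one_mem' := ⟨1, 1, one_ne_zero, by simp⟩
  add_mem' := by
    rintro x y ⟨a, b, hb, hab⟩ ⟨c, d, hd, hcd⟩
    refine ⟨a * d + c * b, b * d, mul_ne_zero hb hd, ?_⟩
    rw [map_add, map_mul, map_mul, map_mul, ← hab, ← hcd]; ring
  zero_mem' := ⟨0, 1, one_ne_zero, by simp⟩
  neg_mem' := by
    rintro x ⟨a, b, hb, hab⟩
    exact ⟨-a, b, hb, by rw [map_neg, ← hab]; ring⟩
  inv_mem' := by
    rintro x ⟨a, b, hb, hab⟩
    by_cases hx : x = 0
    · subst hx
      exact ⟨0, 1, one_ne_zero, by simp⟩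
    · have hb' : inclL O b ≠ 0 := inclL_ne_zero O hb
      have ha : a ≠ 0 := by
        rintro rfl
        rw [map_zero] at hab
        rcases mul_eq_zero.mp hab with h | h
        · exact hx h
        · exact hb' h
      refine ⟨b, a, ha, ?_⟩
      rw [← hab, ← mul_assoc, inv_mul_cancel₀ hx, one_mul]

theorem mem_gaussFrac_iff {x : LaurentSeries E} :
    x ∈ gaussFrac O ↔ ∃ a b : LaurentSeries O, b ≠ 0 ∧ x * inclL O b = inclL O a := Iff.rfl

theorem inclL_mem_gaussFrac (a : LaurentSeries O) : inclL O a ∈ gaussFrac O :=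
  ⟨a, 1, one_ne_zero, by simp⟩

theorem gaussRing_le_gaussFrac {x : LaurentSeries E} (hx : x ∈ gaussRing O res) :
    x ∈ gaussFrac O := by
  obtain ⟨a, b, hb, hab⟩ := hx
  exact ⟨a, b, fun h => hb (by rw [h, map_zero]), hab⟩

/-- The valuation-ring dichotomy: an element of the fraction field lies in the Gauss ring, or
it is the inverse of an element of the Gauss ring with vanishing reduction. -/
theorem mem_gaussRing_or_inv (h : UnifData O res π) {x : LaurentSeries E}
    (hx : x ∈ gaussFrac O) :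
    x ∈ gaussRing O res ∨
      ∃ y : gaussRing O res, gaussRed O res y = 0 ∧ x * (y : LaurentSeries E) = 1 := by
  obtain ⟨a, b, hb, hab⟩ := hx
  by_cases ha : a = 0
  · left
    subst ha
    rw [map_zero] at hab
    have hb' : inclL O b ≠ 0 := inclL_ne_zero O hb
    rcases mul_eq_zero.mp hab with h | h
    · rw [h]; exact zero_mem _
    · exact absurd h hb'
  obtain ⟨i, a', rfl, ha'⟩ := exists_primitive h a ha
  obtain ⟨j, b', rfl, hb'⟩ := exists_primitive h b hb
  have hπ := piL_ne_zero h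
  have ha'0 : inclL O a' ≠ 0 := by
    intro h0
    apply ha'
    rw [inclL_injective O (h0.trans (map_zero _).symm), map_zero]
  have hb'0 : inclL O b' ≠ 0 := by
    intro h0
    apply hb'
    rw [inclL_injective O (h0.trans (map_zero _).symm), map_zero]
  rw [map_mul, map_mul, map_pow, map_pow, inclL_C_pi] at hab
  rcases le_or_gt j i with hji | hji
  · left
    refine ⟨HahnSeries.C π ^ (i - j) * a', b', hb', ?_⟩
    rw [map_mul, map_pow, inclL_C_pi]
    have hpow : piL O π ^ i = piL O π ^ j * piL O π ^ (i - j) := by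
      rw [← pow_add]; congr 1; omega
    rw [hpow] at hab
    have hk : piL O π ^ j ≠ 0 := pow_ne_zero _ hπ
    apply mul_left_cancel₀ hk
    linear_combination hab
  · right
    have hy : piL O π ^ (j - i) * inclL O b' * (inclL O a')⁻¹ ∈ gaussRing O res := by
      refine ⟨HahnSeries.C π ^ (j - i) * b', a', ha', ?_⟩
      rw [map_mul, map_pow, inclL_C_pi]
      field_simp
    refine ⟨⟨_, hy⟩, ?_, ?_⟩
    · rw [gaussRed_eq _ (HahnSeries.C π ^ (j - i) * b') a' ha'
        (by rw [map_mul, map_pow, inclL_C_pi]; field_simp)]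
      rw [map_mul, map_pow, redL_C_pi h, zero_pow (by omega), zero_mul, zero_div]
    · show x * (piL O π ^ (j - i) * inclL O b' * (inclL O a')⁻¹) = 1
      have hpow : piL O π ^ j = piL O π ^ i * piL O π ^ (j - i) := by
        rw [← pow_add]; congr 1; omega
      rw [hpow] at hab
      have hi : piL O π ^ i ≠ 0 := pow_ne_zero _ hπ
      have h2 : x * (piL O π ^ (j - i) * inclL O b') = inclL O a' := by
        apply mul_left_cancel₀ hi
        linear_combination hab
      rw [← mul_assoc, ← mul_assoc, mul_assoc x, h2, mul_inv_cancel₀ ha'0]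

/-- Elements with nonzero reduction are units of the Gauss ring. -/
theorem inv_mem_gaussRing_of_gaussRed_ne_zero (x : gaussRing O res)
    (hx : gaussRed O res x ≠ 0) : (x : LaurentSeries E)⁻¹ ∈ gaussRing O res := by
  have hnum : redL res (gaussNum x) ≠ 0 := by
    intro h0
    apply hx
    show redL res (gaussNum x) / redL res (gaussDen x) = 0
    rw [h0, zero_div]
  have hden : inclL O (gaussDen x) ≠ 0 := by
    intro h0
    apply redL_gaussDen_ne_zero x
    rw [inclL_injective O (h0.trans (map_zero _).symm), map_zero]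
  have hnum' : inclL O (gaussNum x) ≠ 0 := by
    intro h0
    apply hnum
    rw [inclL_injective O (h0.trans (map_zero _).symm), map_zero]
  have hx0 : (x : LaurentSeries E) ≠ 0 := by
    intro h0
    have := gauss_spec x
    rw [h0, zero_mul] at this
    exact hnum' this.symm
  refine ⟨gaussDen x, gaussNum x, hnum, ?_⟩
  rw [← gauss_spec x, ← mul_assoc, inv_mul_cancel₀ hx0, one_mul]

/-- `π · V` is a prime ideal of `V` (product form). -/
theorem mem_pi_mul_of_mul_mem (h : UnifData O res π) {x y : LaurentSeries E}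
    (hx : x ∈ gaussRing O res) (hy : y ∈ gaussRing O res)
    (hxy : ∃ w ∈ gaussRing O res, x * y = piL O π * w) :
    (∃ w ∈ gaussRing O res, x = piL O π * w) ∨ (∃ w ∈ gaussRing O res, y = piL O π * w) := by
  obtain ⟨w, hw, hxyw⟩ := hxy
  have h0 : gaussRed O res (⟨x, hx⟩ * ⟨y, hy⟩) = 0 :=
    (gaussRed_eq_zero_iff h _).mpr ⟨⟨w, hw⟩, hxyw⟩
  rw [map_mul] at h0
  rcases mul_eq_zero.mp h0 with h1 | h1
  · left
    obtain ⟨w', hw'⟩ := (gaussRed_eq_zero_iff h _).mp h1
    exact ⟨w', w'.2, hw'⟩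
  · right
    obtain ⟨w', hw'⟩ := (gaussRed_eq_zero_iff h _).mp h1
    exact ⟨w', w'.2, hw'⟩

theorem one_notMem_pi_mul (h : UnifData O res π) :
    ¬ ∃ w ∈ gaussRing O res, (1 : LaurentSeries E) = piL O π * w := by
  rintro ⟨w, hw, h1⟩
  have h0 : gaussRed O res (1 : gaussRing O res) = 0 :=
    (gaussRed_eq_zero_iff h _).mpr ⟨⟨w, hw⟩, h1⟩
  rw [map_one] at h0
  exact one_ne_zero h0

/-- The Gauss ring is integrally closed in the fraction field `gaussFrac`. -/
theorem mem_gaussRing_of_isIntegral (h : UnifData O res π) {x : LaurentSeries E}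
    (hxF : x ∈ gaussFrac O) (hx : IsIntegral (gaussRing O res) x) : x ∈ gaussRing O res := by
  rcases mem_gaussRing_or_inv h hxF with h1 | ⟨y, hy0, hxy⟩
  · exact h1
  exfalso
  have hx0 : x ≠ 0 := by
    rintro rfl
    simp at hxy
  have hyx : (y : LaurentSeries E) = x⁻¹ := by
    apply mul_left_cancel₀ hx0
    rw [hxy, mul_inv_cancel₀ hx0]
  obtain ⟨p, hmonic, hroot⟩ := hx
  let _ : Invertible x := invertibleOfNonzero hx0
  have h1 := Polynomial.eval₂_reverse_mul_pow (algebraMap (gaussRing O res) (LaurentSeries E)) x p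
  rw [hroot] at h1
  have h2 : Polynomial.eval₂ (algebraMap (gaussRing O res) (LaurentSeries E)) (⅟x)
      p.reverse = 0 := by
    rcases mul_eq_zero.mp h1 with h | h
    · exact h
    · exact absurd h (pow_ne_zero _ hx0)
  have h3 : (⅟x : LaurentSeries E) = algebraMap (gaussRing O res) (LaurentSeries E) y := by
    rw [invOf_eq_inv, ← hyx]; rfl
  rw [h3, Polynomial.eval₂_at_apply] at h2
  have h4 : Polynomial.eval y p.reverse = 0 := by
    have hinj : Function.Injective (algebraMap (gaussRing O res) (LaurentSeries E)) :=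
      Subtype.val_injective
    exact hinj (by rw [h2, map_zero])
  have h5 := congrArg (gaussRed O res) h4
  rw [map_zero, ← Polynomial.eval₂_id, Polynomial.hom_eval₂, hy0, Polynomial.eval₂_at_zero,
    RingHom.comp_apply, RingHom.id_apply, Polynomial.coeff_zero_reverse, hmonic.leadingCoeff,
    map_one] at h5
  exact one_ne_zero h5

/-- Integral closedness, for integrality over any ring mapping into the Gauss ring. -/
theorem mem_gaussRing_of_isIntegral' (h : UnifData O res π) {A : Type*} [CommRing A]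
    [Algebra A (LaurentSeries E)]
    (hA : ∀ a : A, algebraMap A (LaurentSeries E) a ∈ gaussRing O res)
    {x : LaurentSeries E} (hxF : x ∈ gaussFrac O) (hx : IsIntegral A x) :
    x ∈ gaussRing O res := by
  apply mem_gaussRing_of_isIntegral h hxF
  let f : A →+* gaussRing O res :=
    (algebraMap A (LaurentSeries E)).codRestrict (gaussRing O res) hA
  exact hx.map_of_comp_eq f (RingHom.id (LaurentSeries E)) (by ext; rfl)

/-! ### Transport along coefficientwise-compatible ring homomorphisms -/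

/-- A ring endomorphism `f` of `E((t))` which restricts to `fO` on `O((t))`, where `fO`
preserves nonvanishing of the reduction, preserves the Gauss ring. -/
theorem map_mem_gaussRing (f : LaurentSeries E →+* LaurentSeries E)
    (fO : LaurentSeries O → LaurentSeries O)
    (hf : ∀ a, f (inclL O a) = inclL O (fO a))
    (hred : ∀ b, redL res b ≠ 0 → redL res (fO b) ≠ 0)
    {x : LaurentSeries E} (hx : x ∈ gaussRing O res) : f x ∈ gaussRing O res := by
  obtain ⟨a, b, hb, hab⟩ := hx
  refine ⟨fO a, fO b, hred b hb, ?_⟩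
  rw [← hf, ← hf, ← map_mul, hab]

/-- Same for the fraction field. -/
theorem map_mem_gaussFrac (f : LaurentSeries E →+* LaurentSeries E)
    (fO : LaurentSeries O → LaurentSeries O)
    (hf : ∀ a, f (inclL O a) = inclL O (fO a))
    {x : LaurentSeries E} (hx : x ∈ gaussFrac O) : f x ∈ gaussFrac O := by
  obtain ⟨a, b, hb, hab⟩ := hx
  have hfb : fO b ≠ 0 := by
    intro h0
    have h1 : f (inclL O b) = 0 := by rw [hf, h0, map_zero]
    exact inclL_ne_zero O hb ((map_eq_zero f).mp h1)
  refine ⟨fO a, fO b, hfb, ?_⟩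
  rw [← hf, ← hf, ← map_mul, hab]

/-! ### Twists `t ↦ c t` by units of `O` -/

/-- Coefficientwise twist on `O((t))`: `a_n ↦ c ^ n * a_n` for a unit `c` of `O`. -/
def twistO (c : Oˣ) (a : LaurentSeries O) : LaurentSeries O where
  coeff n := ((c ^ n : Oˣ) : O) * a.coeff n
  isPWO_support' := a.isPWO_support.mono (by
    intro n hn
    simp only [Function.mem_support, ne_eq] at hn
    simp only [HahnSeries.mem_support, ne_eq]
    intro h0
    exact hn (by rw [h0, mul_zero]))

@[simp] theorem twistO_coeff (c : Oˣ) (a : LaurentSeries O) (n : ℤ) :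
    (twistO c a).coeff n = ((c ^ n : Oˣ) : O) * a.coeff n := rfl

theorem redL_twistO_ne_zero (c : Oˣ) {b : LaurentSeries O} (hb : redL res b ≠ 0) :
    redL res (twistO c b) ≠ 0 := by
  intro h0
  apply hb
  ext n
  have h1 := congrArg (fun x => x.coeff n) h0
  simp only [redL_coeff, twistO_coeff, map_mul, HahnSeries.coeff_zero] at h1 ⊢
  have hu : IsUnit (res ((c ^ n : Oˣ) : O)) := (Units.isUnit _).map res
  exact (hu.mul_right_eq_zero).mp h1

/-- Any ring endomorphism of `E((t))` acting on coefficients by `φ_n ↦ c ^ n φ_n`, for a unit `c`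
of `O`, preserves the Gauss ring. -/
theorem twist_mem_gaussRing (c : Oˣ) (f : LaurentSeries E →+* LaurentSeries E)
    (hf : ∀ (φ : LaurentSeries E) (n : ℤ), (f φ).coeff n = (((c ^ n : Oˣ) : O) : E) * φ.coeff n)
    {x : LaurentSeries E} (hx : x ∈ gaussRing O res) : f x ∈ gaussRing O res := by
  refine map_mem_gaussRing f (twistO c) ?_ (fun b hb => redL_twistO_ne_zero c hb) hx
  intro a
  ext n
  rw [hf]
  simp

theorem twist_mem_gaussFrac (c : Oˣ) (f : LaurentSeries E →+* LaurentSeries E)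
    (hf : ∀ (φ : LaurentSeries E) (n : ℤ), (f φ).coeff n = (((c ^ n : Oˣ) : O) : E) * φ.coeff n)
    {x : LaurentSeries E} (hx : x ∈ gaussFrac O) : f x ∈ gaussFrac O := by
  refine map_mem_gaussFrac f (twistO c) ?_ hx
  intro a
  ext n
  rw [hf]
  simp

/-! ### The Gauss property for polynomials in a series with a pole -/

/-- Evaluation of a polynomial with `O`-coefficients at a Laurent series over `O`. -/
def evO (J : LaurentSeries O) : Polynomial O →+* LaurentSeries O :=
  Polynomial.eval₂RingHom (HahnSeries.C : O →+* LaurentSeries O) J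

theorem evO_apply (J : LaurentSeries O) (P : Polynomial O) :
    evO J P = P.eval₂ (HahnSeries.C : O →+* LaurentSeries O) J := rfl

theorem redL_C (c : O) : redL res (HahnSeries.C c) = HahnSeries.C (res c) := by
  ext n
  by_cases hn : n = 0
  · subst hn; simp [HahnSeries.C_apply]
  · simp [HahnSeries.C_apply, HahnSeries.coeff_single_of_ne hn]

theorem redL_evO (J : LaurentSeries O) (P : Polynomial O) :
    redL res (evO J P) = Polynomial.aeval (redL res J) (P.map res) := by
  rw [evO_apply, Polynomial.hom_eval₂, Polynomial.aeval_def, Polynomial.eval₂_map]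
  congr 1
  ext c : 1
  rw [RingHom.comp_apply, RingHom.comp_apply, redL_C, algebraMap_laurentSeries_eq_single]
  rfl

/-- **Gauss property.** If the reduction of `J` has nonzero order, a polynomial in `J` with
`O`-coefficients whose reduction vanishes is divisible by `π` as a polynomial. -/
theorem exists_eq_C_mul_of_redL_evO_eq_zero (h : UnifData O res π) (J : LaurentSeries O)
    (hJ0 : redL res J ≠ 0) (hJo : (redL res J).order ≠ 0) (P : Polynomial O)
    (hP : redL res (evO J P) = 0) : ∃ P' : Polynomial O, P = Polynomial.C π * P' := by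
  rw [redL_evO] at hP
  have h0 : P.map res = 0 := by
    by_contra hne
    exact aeval_ne_zero_of_order_ne_zero hJ0 hJo hne hP
  have hmem : P ∈ Ideal.map (Polynomial.C : O →+* Polynomial O) (Ideal.span {π}) := by
    rw [Ideal.mem_map_C_iff]
    intro n
    have hn : res (P.coeff n) = 0 := by
      have := congrArg (fun Q => Q.coeff n) h0
      simpa using this
    obtain ⟨y, hy⟩ := (h.ker _).mp hn
    exact Ideal.mem_span_singleton'.mpr ⟨y, by rw [hy, mul_comm]⟩
  rw [Ideal.map_span, Set.image_singleton, Ideal.mem_span_singleton'] at hmem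
  obtain ⟨P', hP'⟩ := hmem
  exact ⟨P', by rw [← hP', mul_comm]⟩

/-- **Gauss property**, in the form used by the abstract core: if `π · w = P(J)` with `w` in
the Gauss ring, then `w = P'(J)` for some polynomial `P'` over `O`. -/
theorem exists_evO_eq_of_pi_mul_eq (h : UnifData O res π) (J : LaurentSeries O)
    (hJ0 : redL res J ≠ 0) (hJo : (redL res J).order ≠ 0) (P : Polynomial O)
    {w : LaurentSeries E} (hw : w ∈ gaussRing O res)
    (heq : piL O π * w = inclL O (evO J P)) : ∃ P' : Polynomial O, w = inclL O (evO J P') := by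
  have hred : redL res (evO J P) = 0 := by
    rw [← gaussRed_inclL (res := res)]
    exact (gaussRed_eq_zero_iff h _).mpr ⟨⟨w, hw⟩, heq.symm⟩
  obtain ⟨P', rfl⟩ := exists_eq_C_mul_of_redL_evO_eq_zero h J hJ0 hJo P hred
  refine ⟨P', ?_⟩
  apply mul_left_cancel₀ (piL_ne_zero h)
  rw [heq, map_mul, map_mul, ← inclL_C_pi]
  congr 2
  rw [evO_apply, Polynomial.eval₂_C]

end Ring

section Transport

variable {E₁ : Type*} [Field E₁] {O₁ : Subring E₁} {k₁ : Type*} [Field k₁] {res₁ : O₁ →+* k₁}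
  {E₂ : Type*} [Field E₂] {O₂ : Subring E₂} {k₂ : Type*} [Field k₂] {res₂ : O₂ →+* k₂}

/-- Transport between two Gauss rings along a ring homomorphism `F : E₁((t)) → E₂((t))` which
restricts to `FO : O₁((t)) → O₂((t))` preserving nonvanishing of the reduction. -/
theorem map_mem_gaussRing₂ (F : LaurentSeries E₁ →+* LaurentSeries E₂)
    (FO : LaurentSeries O₁ → LaurentSeries O₂)
    (hF : ∀ a, F (inclL O₁ a) = inclL O₂ (FO a))
    (hred : ∀ b, redL res₁ b ≠ 0 → redL res₂ (FO b) ≠ 0)
    {x : LaurentSeries E₁} (hx : x ∈ gaussRing O₁ res₁) : F x ∈ gaussRing O₂ res₂ := by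
  obtain ⟨a, b, hb, hab⟩ := hx
  refine ⟨FO a, FO b, hred b hb, ?_⟩
  rw [← hF, ← hF, ← map_mul, hab]

/-- Transport of the fraction fields. -/
theorem map_mem_gaussFrac₂ (F : LaurentSeries E₁ →+* LaurentSeries E₂)
    (FO : LaurentSeries O₁ → LaurentSeries O₂)
    (hF : ∀ a, F (inclL O₁ a) = inclL O₂ (FO a))
    {x : LaurentSeries E₁} (hx : x ∈ gaussFrac O₁) : F x ∈ gaussFrac O₂ := by
  obtain ⟨a, b, hb, hab⟩ := hx
  have hfb : FO b ≠ 0 := by
    intro h0
    have h1 : F (inclL O₁ b) = 0 := by rw [hF, h0, map_zero]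
    exact inclL_ne_zero O₁ hb ((map_eq_zero F).mp h1)
  refine ⟨FO a, FO b, hfb, ?_⟩
  rw [← hF, ← hF, ← map_mul, hab]

/-- Compatibility of the reductions under transport. -/
theorem gaussRed_map₂ (F : LaurentSeries E₁ →+* LaurentSeries E₂)
    (FO : LaurentSeries O₁ → LaurentSeries O₂) (Fk : LaurentSeries k₁ →+* LaurentSeries k₂)
    (hF : ∀ a, F (inclL O₁ a) = inclL O₂ (FO a))
    (hk : ∀ a, redL res₂ (FO a) = Fk (redL res₁ a))
    (x : gaussRing O₁ res₁) (hFx : F x ∈ gaussRing O₂ res₂) :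
    gaussRed O₂ res₂ ⟨F x, hFx⟩ = Fk (gaussRed O₁ res₁ x) := by
  have hb : redL res₂ (FO (gaussDen x)) ≠ 0 := by
    rw [hk]
    exact (map_ne_zero Fk).mpr (redL_gaussDen_ne_zero x)
  rw [gaussRed_eq ⟨F x, hFx⟩ (FO (gaussNum x)) (FO (gaussDen x)) hb
    (by rw [← hF, ← hF, ← map_mul, gauss_spec]), hk, hk]
  show _ = Fk (redL res₁ (gaussNum x) / redL res₁ (gaussDen x))
  rw [map_div₀]

end Transport

end Fermat.Agent.S28.H86

end
end
-- ===== PACK-END S28/H86/GaussGen.lean

-- ===== PACK-BEGIN A2/H609/RelLen.lean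
section


/-!
# Node purity, part 2: relative lengths `ℓ(N / N')` of submodules

`relLen N' N = Module.length R (N ⧸ N')` for submodules `N' N` of `M` (meaningful for `N' ≤ N`),
with the chain rule and a transport lemma along a linear map.  Mathlib only.
-/

set_option autoImplicit false

namespace Fermat.Agent.A2.H609

open Submodule

variable {R : Type*} [CommRing R] {M M' : Type*} [AddCommGroup M] [Module R M]
  [AddCommGroup M'] [Module R M']

/-- The relative length `ℓ(N / N')`. -/
noncomputable def relLen (N' N : Submodule R M) : ℕ∞ :=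
  Module.length R (↥N ⧸ N'.submoduleOf N)

/-- The map `N / N' → P / P'` induced by a linear map `φ` with `φ N ⊆ P`, `φ N' ⊆ P'`. -/
noncomputable def relMap (φ : M →ₗ[R] M') {N' N : Submodule R M} {P' P : Submodule R M'}
    (hNP : ∀ x ∈ N, φ x ∈ P) (hNP' : ∀ x ∈ N', φ x ∈ P') :
    (↥N ⧸ N'.submoduleOf N) →ₗ[R] (↥P ⧸ P'.submoduleOf P) :=
  Submodule.mapQ (N'.submoduleOf N) (P'.submoduleOf P) (φ.restrict hNP) (by
    intro x hx
    rw [Submodule.mem_comap]
    exact hNP' _ hx)

theorem relMap_mk (φ : M →ₗ[R] M') {N' N : Submodule R M} {P' P : Submodule R M'}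
    (hNP : ∀ x ∈ N, φ x ∈ P) (hNP' : ∀ x ∈ N', φ x ∈ P') (x : N) :
    relMap φ hNP hNP' (Submodule.Quotient.mk x) =
      Submodule.Quotient.mk (⟨φ x, hNP x x.2⟩ : P) := rfl

theorem relMap_injective (φ : M →ₗ[R] M') {N' N : Submodule R M} {P' P : Submodule R M'}
    (hNP : ∀ x ∈ N, φ x ∈ P) (hNP' : ∀ x ∈ N', φ x ∈ P')
    (hinj : ∀ x ∈ N, φ x ∈ P' → x ∈ N') : Function.Injective (relMap φ hNP hNP') := by
  rw [← LinearMap.ker_eq_bot, eq_bot_iff]
  intro y hy
  obtain ⟨x, rfl⟩ := Submodule.Quotient.mk_surjective _ y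
  rw [LinearMap.mem_ker, relMap_mk, Submodule.Quotient.mk_eq_zero] at hy
  rw [Submodule.mem_bot, Submodule.Quotient.mk_eq_zero]
  exact hinj x x.2 hy

theorem relMap_surjective (φ : M →ₗ[R] M') {N' N : Submodule R M} {P' P : Submodule R M'}
    (hNP : ∀ x ∈ N, φ x ∈ P) (hNP' : ∀ x ∈ N', φ x ∈ P')
    (hsurj : ∀ y ∈ P, ∃ x ∈ N, y - φ x ∈ P') : Function.Surjective (relMap φ hNP hNP') := by
  intro z
  obtain ⟨y, rfl⟩ := Submodule.Quotient.mk_surjective _ z
  obtain ⟨x, hx, hxy⟩ := hsurj y y.2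
  refine ⟨Submodule.Quotient.mk ⟨x, hx⟩, ?_⟩
  rw [relMap_mk, eq_comm, Submodule.Quotient.eq]
  exact hxy

/-- Transport of relative length along a linear map inducing a bijection `N / N' → P / P'`. -/
theorem relLen_eq_of_map (φ : M →ₗ[R] M') {N' N : Submodule R M} {P' P : Submodule R M'}
    (hNP : ∀ x ∈ N, φ x ∈ P) (hNP' : ∀ x ∈ N', φ x ∈ P')
    (hinj : ∀ x ∈ N, φ x ∈ P' → x ∈ N')
    (hsurj : ∀ y ∈ P, ∃ x ∈ N, y - φ x ∈ P') : relLen N' N = relLen P' P :=
  (LinearEquiv.ofBijective (relMap φ hNP hNP')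
    ⟨relMap_injective φ hNP hNP' hinj, relMap_surjective φ hNP hNP' hsurj⟩).length_eq

/-- Chain rule for relative lengths. -/
theorem relLen_add {A B C : Submodule R M} (hAB : A ≤ B) (hBC : B ≤ C) :
    relLen A C = relLen A B + relLen B C := by
  have h1 : ∀ x ∈ B, (LinearMap.id : M →ₗ[R] M) x ∈ C := fun x hx => hBC hx
  have h2 : ∀ x ∈ A, (LinearMap.id : M →ₗ[R] M) x ∈ A := fun x hx => hx
  have h3 : ∀ x ∈ C, (LinearMap.id : M →ₗ[R] M) x ∈ C := fun x hx => hx
  have h4 : ∀ x ∈ A, (LinearMap.id : M →ₗ[R] M) x ∈ B := fun x hx => hAB hx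
  let f := relMap (LinearMap.id : M →ₗ[R] M) (N' := A) (N := B) (P' := A) (P := C) h1 h2
  let g := relMap (LinearMap.id : M →ₗ[R] M) (N' := A) (N := C) (P' := B) (P := C) h3 h4
  have hf : Function.Injective f := relMap_injective _ h1 h2 (fun x _ hx => hx)
  have hg : Function.Surjective g :=
    relMap_surjective _ h3 h4 (fun y hy => ⟨y, hy, by simp⟩)
  have hfg : Function.Exact f g := by
    intro z
    constructor
    · intro hz
      obtain ⟨y, rfl⟩ := Submodule.Quotient.mk_surjective _ z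
      have hy : (y : M) ∈ B := by
        have := hz
        simp only [g] at this
        rw [relMap_mk, Submodule.Quotient.mk_eq_zero] at this
        exact this
      refine ⟨Submodule.Quotient.mk ⟨y, hy⟩, ?_⟩
      simp only [f]
      rw [relMap_mk]
      rfl
    · rintro ⟨w, rfl⟩
      obtain ⟨x, rfl⟩ := Submodule.Quotient.mk_surjective _ w
      simp only [f, g]
      rw [relMap_mk, relMap_mk, Submodule.Quotient.mk_eq_zero]
      exact x.2
  exact Module.length_eq_add_of_exact f g hf hg hfg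

/-- A surjection `N / N' → P / P'` induced by a linear map bounds the relative length. -/
theorem relLen_le_of_map (φ : M →ₗ[R] M') {N' N : Submodule R M} {P' P : Submodule R M'}
    (hNP : ∀ x ∈ N, φ x ∈ P) (hNP' : ∀ x ∈ N', φ x ∈ P')
    (hsurj : ∀ y ∈ P, ∃ x ∈ N, y - φ x ∈ P') : relLen P' P ≤ relLen N' N :=
  Module.length_le_of_surjective (relMap φ hNP hNP') (relMap_surjective φ hNP hNP' hsurj)

theorem relLen_self (A : Submodule R M) : relLen A A = 0 := by
  rw [relLen, Module.length_eq_zero_iff]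
  refine ⟨fun x y => ?_⟩
  obtain ⟨a, rfl⟩ := Submodule.Quotient.mk_surjective _ x
  obtain ⟨b, rfl⟩ := Submodule.Quotient.mk_surjective _ y
  rw [Submodule.Quotient.eq]
  exact A.sub_mem a.2 b.2

theorem relLen_mono_right {A B C : Submodule R M} (hAB : A ≤ B) (hBC : B ≤ C) :
    relLen A B ≤ relLen A C := by
  rw [relLen_add hAB hBC]
  exact le_self_add

theorem relLen_mono_left {A B C : Submodule R M} (hAB : A ≤ B) (hBC : B ≤ C) :
    relLen B C ≤ relLen A C := by
  rw [relLen_add hAB hBC]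
  exact le_add_self

/-- `ℓ(M / N)` as a relative length. -/
theorem relLen_top (N : Submodule R M) : relLen N ⊤ = Module.length R (M ⧸ N) := by
  have h1 : ∀ x ∈ (⊤ : Submodule R M), (LinearMap.id : M →ₗ[R] M) x ∈ (⊤ : Submodule R M) :=
    fun _ _ => trivial
  -- build the equivalence `⊤ / N ≃ M / N`
  let φ : (↥(⊤ : Submodule R M) ⧸ N.submoduleOf ⊤) →ₗ[R] (M ⧸ N) :=
    Submodule.mapQ (N.submoduleOf ⊤) N (⊤ : Submodule R M).subtype (by
      intro x hx
      exact hx)
  have hφ : Function.Bijective φ := by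
    constructor
    · rw [← LinearMap.ker_eq_bot, eq_bot_iff]
      intro y hy
      obtain ⟨x, rfl⟩ := Submodule.Quotient.mk_surjective _ y
      rw [LinearMap.mem_ker] at hy
      have : (Submodule.Quotient.mk (x : M) : M ⧸ N) = 0 := hy
      rw [Submodule.Quotient.mk_eq_zero] at this
      rw [Submodule.mem_bot, Submodule.Quotient.mk_eq_zero]
      exact this
    · intro z
      obtain ⟨y, rfl⟩ := Submodule.Quotient.mk_surjective _ z
      exact ⟨Submodule.Quotient.mk ⟨y, trivial⟩, rfl⟩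
  exact (LinearEquiv.ofBijective φ hφ).length_eq

end Fermat.Agent.A2.H609

end
-- ===== PACK-END A2/H609/RelLen.lean

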