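import Mathlib.FieldTheory.IsAlgClosed.Basic
import Mathlib.Algebra.Polynomial.Degree.SmallDegree
import Mathlib.RingTheory.Valuation.ValuationSubring
import Mathlib
import Fermat.Prelude.Def_FLTPrelim_Modularity
import Fermat.Prelude.Def_FLTPrelim_Ramification
import Mathlib.RingTheory.IntegralClosure.IntegrallyClosed
import Mathlib.RingTheory.Ideal.Span
import Mathlib.Data.Nat.Choose.Sum
import Mathlib.Tactic.Ring
import Fermat.Agent.Pack.S58.E0L2
import Fermat.Agent.Pack.S58.E0L1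
import Fermat.Agent.Pack.S58.E0L0
import Fermat.Agent.Pack.S58.E0L3
import Fermat.Agent.Pack.S36.E0L1
import Fermat.Agent.Pack.S36.E2L1

-- ===== PACK-BEGIN S59/H240/Node/SmallRoot.lean
section




/-!
# S59 / CR-I (helper240): a small root of `4 X³ + B₂ X² + B₄ X + B₆`

`K` algebraically closed with a valuation `v`, `4 ≠ 0`, `v B₂ = 1`, `v B₄ < 1`, `v B₆ < 1`:
the cubic `4 X³ + B₂ X² + B₄ X + B₆` has a root `ε` with `v ε < 1` (uniformly in the residue
characteristic; in residue characteristic `2` the third root has `v (4 ε) = 1`).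
Also: integral roots of monic quadratics.
-/

set_option autoImplicit false
set_option linter.unusedSectionVars false

namespace Fermat.Agent.S59.H240

open Polynomial

variable {K : Type*} [Field K] {Γ₀ : Type*} [LinearOrderedCommGroupWithZero Γ₀]
  {v : Valuation K Γ₀}

lemma exists_cubic_root [IsAlgClosed K] {c₃ c₂ c₁ c₀ : K} (h : c₃ ≠ 0) :
    ∃ x : K, c₃ * x ^ 3 + c₂ * x ^ 2 + c₁ * x + c₀ = 0 := by
  have hdeg : (C c₃ * X ^ 3 + C c₂ * X ^ 2 + C c₁ * X + C c₀ : K[X]).degree ≠ 0 := by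
    rw [degree_cubic h]; decide
  obtain ⟨x, hx⟩ := IsAlgClosed.exists_root _ hdeg
  refine ⟨x, ?_⟩
  simpa [IsRoot] using hx

lemma exists_quadratic_root [IsAlgClosed K] {c₂ c₁ c₀ : K} (h : c₂ ≠ 0) :
    ∃ x : K, c₂ * x ^ 2 + c₁ * x + c₀ = 0 := by
  have hdeg : (C c₂ * X ^ 2 + C c₁ * X + C c₀ : K[X]).degree ≠ 0 := by
    rw [degree_quadratic h]; decide
  obtain ⟨x, hx⟩ := IsAlgClosed.exists_root _ hdeg
  refine ⟨x, ?_⟩
  simpa [IsRoot] using hx

/-- A root of a monic quadratic with integral coefficients is integral. -/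
lemma val_le_one_of_monic_quadratic {c₁ c₀ s : K} (h1 : v c₁ ≤ 1) (h0 : v c₀ ≤ 1)
    (hs : s ^ 2 + c₁ * s + c₀ = 0) : v s ≤ 1 := by
  by_contra hlt
  rw [not_le] at hlt
  have hs0 : 0 < v s := lt_trans zero_lt_one hlt
  have e : s ^ 2 = -(c₁ * s + c₀) := by linear_combination hs
  have h2 : v (s ^ 2) ≤ v s := by
    rw [e, Valuation.map_neg]
    refine vadd_le ?_ (h0.trans hlt.le)
    exact vmul_le_of_le_one_left h1
  rw [map_pow, pow_two] at h2
  have h3 : v s * 1 < v s * v s := mul_lt_mul_of_pos_left hlt hs0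
  rw [mul_one] at h3
  exact absurd h2 (not_le.mpr h3)

/-- A root of a monic quadratic with coefficients in the maximal ideal lies in the maximal
ideal. -/
lemma val_lt_one_of_monic_quadratic {c₁ c₀ s : K} (h0 : v c₀ < 1)
    (hs : s * (s + c₁) = c₀) : v s < 1 ∨ v (s + c₁) < 1 := by
  by_contra hcon
  rw [not_or, not_lt, not_lt] at hcon
  have := congrArg v hs
  rw [map_mul] at this
  have h2 : (1 : Γ₀) ≤ v s * v (s + c₁) := by
    calc (1 : Γ₀) = 1 * 1 := (one_mul 1).symm
      _ ≤ v s * v (s + c₁) := mul_le_mul' hcon.1 hcon.2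
  rw [this] at h2
  exact absurd h0 (not_lt.mpr h2)

/-- **Small root.** -/
theorem exists_small_root [IsAlgClosed K] (h4 : (4 : K) ≠ 0) {B₂ B₄ B₆ : K}
    (hB₂ : v B₂ = 1) (hB₄ : v B₄ < 1) (hB₆ : v B₆ < 1) :
    ∃ ε : K, 4 * ε ^ 3 + B₂ * ε ^ 2 + B₄ * ε + B₆ = 0 ∧ v ε < 1 := by
  obtain ⟨ε₁, h₁⟩ := exists_cubic_root (c₃ := (4 : K)) (c₂ := B₂) (c₁ := B₄) (c₀ := B₆) h4
  by_cases hsmall : v ε₁ < 1
  · exact ⟨ε₁, h₁, hsmall⟩
  rw [not_lt] at hsmall
  have hε₁0 : ε₁ ≠ 0 := by
    rintro rfl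
    rw [map_zero] at hsmall
    exact absurd hsmall (not_le.mpr zero_lt_one)
  have hpos : 0 < v ε₁ := (Valuation.pos_iff v).mpr hε₁0
  -- `1 ≤ v (4 ε₁)`
  have h4ε : 1 ≤ v (4 * ε₁) := by
    by_contra hlt
    rw [not_le] at hlt
    have e : B₂ * ε₁ ^ 2 = -(4 * ε₁ * ε₁ ^ 2 + (B₄ * ε₁ + B₆)) := by linear_combination h₁
    have hl : v (B₂ * ε₁ ^ 2) = v (ε₁ ^ 2) := by rw [map_mul, hB₂, one_mul]
    have hsq : v ε₁ ≤ v (ε₁ ^ 2) := by
      rw [map_pow, pow_two]
      calc v ε₁ = 1 * v ε₁ := (one_mul _).symm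
        _ ≤ v ε₁ * v ε₁ := mul_le_mul' hsmall le_rfl
    have hsq0 : 0 < v (ε₁ ^ 2) := lt_of_lt_of_le hpos hsq
    have hr : v (-(4 * ε₁ * ε₁ ^ 2 + (B₄ * ε₁ + B₆))) < v (ε₁ ^ 2) := by
      rw [Valuation.map_neg]
      refine vadd_lt ?_ (vadd_lt ?_ ?_)
      · rw [map_mul]
        calc v (4 * ε₁) * v (ε₁ ^ 2) < 1 * v (ε₁ ^ 2) := mul_lt_mul_of_pos_right hlt hsq0
          _ = v (ε₁ ^ 2) := one_mul _
      · rw [map_mul]
        calc v B₄ * v ε₁ < 1 * v ε₁ := mul_lt_mul_of_pos_right hB₄ hpos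
          _ = v ε₁ := one_mul _
          _ ≤ v (ε₁ ^ 2) := hsq
      · exact lt_of_lt_of_le hB₆ (hsmall.trans hsq)
    rw [← e, hl] at hr
    exact lt_irrefl _ hr
  -- the quadratic factor
  set c : K := 4 * ε₁ + B₂ with hc
  set d : K := 4 * ε₁ ^ 2 + B₂ * ε₁ + B₄ with hd
  have hd1 : ε₁ * d = -B₆ := by rw [hd]; linear_combination h₁
  have hc1 : ε₁ ^ 2 * c = -(B₄ * ε₁ + B₆) := by rw [hc]; linear_combination h₁
  have hvd : v d * v ε₁ < 1 := by
    have := congrArg v hd1
    rw [map_mul, Valuation.map_neg, mul_comm] at this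
    rw [this]; exact hB₆
  have hvc : v c * v ε₁ < 1 := by
    have h1 := congrArg v hc1
    rw [map_mul, Valuation.map_neg, map_pow, pow_two] at h1
    have h2 : v (B₄ * ε₁ + B₆) < v ε₁ := by
      refine vadd_lt ?_ (lt_of_lt_of_le hB₆ hsmall)
      rw [map_mul]
      calc v B₄ * v ε₁ < 1 * v ε₁ := mul_lt_mul_of_pos_right hB₄ hpos
        _ = v ε₁ := one_mul _
    rw [← h1] at h2
    -- `v ε₁ * v ε₁ * v c < v ε₁`
    by_contra hge
    rw [not_lt] at hge
    have : v ε₁ * 1 ≤ v ε₁ * (v c * v ε₁) := mul_le_mul' le_rfl hge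
    rw [mul_one] at this
    have e2 : v ε₁ * (v c * v ε₁) = v ε₁ * v ε₁ * v c := by
      rw [mul_comm (v c) (v ε₁), ← mul_assoc]
    rw [e2] at this
    exact absurd h2 (not_lt.mpr this)
  obtain ⟨ε₂, h₂⟩ := exists_quadratic_root (c₂ := (4 : K)) (c₁ := c) (c₀ := d) h4
  refine ⟨ε₂, ?_, ?_⟩
  · have : 4 * ε₂ ^ 3 + B₂ * ε₂ ^ 2 + B₄ * ε₂ + B₆
        = (ε₂ - ε₁) * (4 * ε₂ ^ 2 + c * ε₂ + d) + (4 * ε₁ ^ 3 + B₂ * ε₁ ^ 2 + B₄ * ε₁ + B₆) := by
      rw [hc, hd]; ring
    rw [this, h₂, h₁, mul_zero, add_zero]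
  · by_contra hbig
    rw [not_lt] at hbig
    have hε₂0 : ε₂ ≠ 0 := by
      rintro rfl
      rw [map_zero] at hbig
      exact absurd hbig (not_le.mpr zero_lt_one)
    have hpos₂ : 0 < v ε₂ := (Valuation.pos_iff v).mpr hε₂0
    have e : 4 * ε₁ * ε₂ ^ 2 = -(c * ε₁ * ε₂ + d * ε₁) := by linear_combination ε₁ * h₂
    have hL : v ε₂ ≤ v (4 * ε₁ * ε₂ ^ 2) := by
      rw [map_mul, map_pow, pow_two]
      calc v ε₂ = 1 * (1 * v ε₂) := by rw [one_mul, one_mul]
        _ ≤ v (4 * ε₁) * (v ε₂ * v ε₂) := mul_le_mul' h4ε (mul_le_mul' hbig le_rfl)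
    have hR : v (-(c * ε₁ * ε₂ + d * ε₁)) < v ε₂ := by
      rw [Valuation.map_neg]
      refine vadd_lt ?_ ?_
      · rw [map_mul, map_mul]
        calc v c * v ε₁ * v ε₂ < 1 * v ε₂ := mul_lt_mul_of_pos_right hvc hpos₂
          _ = v ε₂ := one_mul _
      · rw [map_mul]
        exact lt_of_lt_of_le hvd hbig
    rw [← e] at hR
    exact absurd hL (not_le.mpr hR)

end Fermat.Agent.S59.H240

end
-- ===== PACK-END S59/H240/Node/SmallRoot.lean

-- ===== PACK-BEGIN S05/FG.lean
section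



/-!
# The kernel of reduction has no prime-to-residue-characteristic torsion (S05 helper)

`K` a field with a valuation `v`, `W` a Weierstrass curve over `K` with `v`-integral coefficients.
If `P = (x, y)` is a nonsingular affine point with `n • P = 0` and `v n = 1`, then `v x ≤ 1`.

The proof only uses `x`-coordinates: with `s = 1/x` and `s_k = 1/x(kP)` one shows by induction
`s_k ≡ k² s` modulo `{t | v t < v s}`.  No assumption on the residue characteristic (in particular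
`v 2 < 1` is allowed).
-/

set_option autoImplicit false

namespace Fermat.Agent.S05.FG

open WeierstrassCurve WeierstrassCurve.Affine
open Fermat.Agent.S05.XId

variable {K : Type*} [Field K] {Γ₀ : Type*} [LinearOrderedCommGroupWithZero Γ₀]
  (v : Valuation K Γ₀)

/-- The Weierstrass curve `W` has `v`-integral coefficients. -/
def IsIntegralAt (W : Affine K) : Prop :=
  v W.a₁ ≤ 1 ∧ v W.a₂ ≤ 1 ∧ v W.a₃ ≤ 1 ∧ v W.a₄ ≤ 1 ∧ v W.a₆ ≤ 1

lemma v_natCast_le_one (n : ℕ) : v (n : K) ≤ 1 := by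
  induction n with
  | zero => simp
  | succ n ih =>
    push_cast
    exact v.map_add_le ih (by simp)

lemma v_ofNat_le_one (n : ℕ) [n.AtLeastTwo] : v (OfNat.ofNat n : K) ≤ 1 := by
  have := v_natCast_le_one v (OfNat.ofNat n)
  rwa [Nat.cast_ofNat] at this

variable {v}

lemma v_mul_le_one {a b : K} (ha : v a ≤ 1) (hb : v b ≤ 1) : v (a * b) ≤ 1 := by
  rw [map_mul]; exact Left.mul_le_one ha hb

lemma v_pow_le_one {a : K} (ha : v a ≤ 1) (n : ℕ) : v (a ^ n) ≤ 1 := by
  rw [map_pow]; exact pow_le_one' ha n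

lemma v_add_le_one {a b : K} (ha : v a ≤ 1) (hb : v b ≤ 1) : v (a + b) ≤ 1 :=
  v.map_add_le ha hb

lemma v_sub_le_one {a b : K} (ha : v a ≤ 1) (hb : v b ≤ 1) : v (a - b) ≤ 1 :=
  v.map_sub_le ha hb

lemma v_neg_le_one {a : K} (ha : v a ≤ 1) : v (-a) ≤ 1 := by
  rwa [v.map_neg]

/-- `v (a * t) < g` if `v a ≤ 1` and `v t < g`. -/
lemma v_mul_lt_left {a t : K} {g : Γ₀} (ha : v a ≤ 1) (ht : v t < g) : v (a * t) < g := by
  rw [map_mul]; exact mul_lt_of_le_one_of_lt ha ht

lemma v_mul_lt_right {a t : K} {g : Γ₀} (ha : v a ≤ 1) (ht : v t < g) : v (t * a) < g := by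
  rw [mul_comm]; exact v_mul_lt_left ha ht

/-- `v (a * t) < v t` if `v a < 1` and `t ≠ 0`. -/
lemma v_mul_lt_self {a t : K} (ha : v a < 1) (ht : t ≠ 0) : v (a * t) < v t := by
  rw [map_mul]
  exact mul_lt_of_lt_one_left (zero_lt_iff.mpr ((v.ne_zero_iff).mpr ht)) ha

lemma v_mul_lt_of_lt_one_of_le {a t : K} {g : Γ₀} (hg : g ≠ 0) (ha : v a < 1) (ht : v t ≤ g) :
    v (a * t) < g := by
  rw [map_mul]
  calc v a * v t ≤ v a * g := by gcongr
    _ < g := mul_lt_of_lt_one_left (zero_lt_iff.mpr hg) ha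

section coeffs

variable {W : Affine K} (hW : IsIntegralAt v W)
include hW

lemma v_b₂ : v W.b₂ ≤ 1 := by
  obtain ⟨h1, h2, h3, h4, h6⟩ := hW
  rw [WeierstrassCurve.b₂]
  exact v_add_le_one (v_pow_le_one h1 2) (v_mul_le_one (v_ofNat_le_one v 4) h2)

lemma v_b₄ : v W.b₄ ≤ 1 := by
  obtain ⟨h1, h2, h3, h4, h6⟩ := hW
  rw [WeierstrassCurve.b₄]
  exact v_add_le_one (v_mul_le_one (v_ofNat_le_one v 2) h4) (v_mul_le_one h1 h3)

lemma v_b₆ : v W.b₆ ≤ 1 := by
  obtain ⟨h1, h2, h3, h4, h6⟩ := hW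
  rw [WeierstrassCurve.b₆]
  exact v_add_le_one (v_pow_le_one h3 2) (v_mul_le_one (v_ofNat_le_one v 4) h6)

lemma v_b₈ : v W.b₈ ≤ 1 := by
  obtain ⟨h1, h2, h3, h4, h6⟩ := hW
  rw [WeierstrassCurve.b₈]
  refine v_sub_le_one (v_add_le_one (v_sub_le_one (v_add_le_one ?_ ?_) ?_) ?_) ?_
  · exact v_mul_le_one (v_pow_le_one h1 2) h6
  · exact v_mul_le_one (v_mul_le_one (v_ofNat_le_one v 4) h2) h6
  · exact v_mul_le_one (v_mul_le_one h1 h3) h4
  · exact v_mul_le_one h2 (v_pow_le_one h3 2)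
  · exact v_pow_le_one h4 2

end coeffs

section estimates

variable {W : Affine K} (hW : IsIntegralAt v W)
include hW

/-- Generic step: estimate for `1/x(Q+P) + 1/x(Q-P)` in terms of `s = 1/x(P)`, `s' = 1/x(Q)`. -/
lemma step_generic {s s' x₃ x₄ : K} (hs0 : s ≠ 0) (hs'0 : s' ≠ 0) (hs : v s < 1)
    (hs' : v s' ≤ v s)
    (hsum : (s'⁻¹ - s⁻¹) ^ 2 * (x₃ + x₄) = sumNum W s'⁻¹ s⁻¹)
    (hprod : (s'⁻¹ - s⁻¹) ^ 2 * (x₃ * x₄) = prodNum W s'⁻¹ s⁻¹) :
    x₃ ≠ 0 ∧ x₄ ≠ 0 ∧ v (x₃⁻¹ + x₄⁻¹ - 2 * (s + s')) < v s := by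
  have hb2 := v_b₂ hW
  have hb4 := v_b₄ hW
  have hb6 := v_b₆ hW
  have hb8 := v_b₈ hW
  have hs1 : v s ≤ 1 := hs.le
  have hs'1 : v s' ≤ 1 := hs'.trans hs1
  have hs'lt : v s' < 1 := lt_of_le_of_lt hs' hs
  have hss : v (s + s') ≤ 1 := v_add_le_one hs1 hs'1
  have h2 : v (2 : K) ≤ 1 := v_ofNat_le_one v 2
  set V : K := 1 - W.b₄ * s * s' - W.b₆ * s * s' * (s + s') - W.b₈ * (s * s') ^ 2 with hV
  set U : K := 2 * (s + s') + W.b₂ * s * s' + W.b₄ * s * s' * (s + s') + W.b₆ * (s * s') ^ 2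
    with hU
  have e1 : (s'⁻¹ - s⁻¹) ^ 2 * (s * s') ^ 2 = (s - s') ^ 2 := by
    field_simp
  have e2 : sumNum W s'⁻¹ s⁻¹ * (s * s') ^ 2 = U := by
    simp only [sumNum, hU]
    field_simp
  have e3 : prodNum W s'⁻¹ s⁻¹ * (s * s') ^ 2 = V := by
    simp only [prodNum, hV]
    field_simp
  have hsum' : (s - s') ^ 2 * (x₃ + x₄) = U := by
    rw [← e1, ← e2, ← hsum]; ring
  have hprod' : (s - s') ^ 2 * (x₃ * x₄) = V := by
    rw [← e1, ← e3, ← hprod]; ring
  -- `V` is a unit
  have hV1 : v (V - 1) < 1 := by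
    have : V - 1 = -(s' * (s * (W.b₄ + W.b₆ * (s + s') + W.b₈ * (s * s')))) := by
      simp only [hV]; ring
    rw [this, v.map_neg]
    refine v_mul_lt_right ?_ hs'lt
    exact v_mul_le_one hs1 (v_add_le_one (v_add_le_one hb4 (v_mul_le_one hb6 hss))
      (v_mul_le_one hb8 (v_mul_le_one hs1 hs'1)))
  have hVv : v V = 1 := by
    have : V = 1 + (V - 1) := by ring
    rw [this]
    exact v.map_one_add_of_lt hV1
  have hV0 : V ≠ 0 := by
    intro h
    rw [h, map_zero] at hVv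
    exact zero_ne_one hVv
  have h34 : x₃ * x₄ ≠ 0 := by
    intro h
    rw [h, mul_zero] at hprod'
    exact hV0 hprod'.symm
  have hx3 : x₃ ≠ 0 := left_ne_zero_of_mul h34
  have hx4 : x₄ ≠ 0 := right_ne_zero_of_mul h34
  refine ⟨hx3, hx4, ?_⟩
  have key : (x₃⁻¹ + x₄⁻¹ - 2 * (s + s')) * V = U - 2 * (s + s') * V := by
    have : (x₃⁻¹ + x₄⁻¹) * V = U := by
      rw [← hprod', ← hsum']
      field_simp
      ring
    rw [sub_mul, this]
  have hR : U - 2 * (s + s') * V = s' * (s * (W.b₂ + W.b₄ * (s + s') + W.b₆ * (s * s') +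
      2 * (s + s') * (W.b₄ + W.b₆ * (s + s') + W.b₈ * (s * s')))) := by
    simp only [hU, hV]; ring
  have hRv : v (U - 2 * (s + s') * V) < v s := by
    rw [hR]
    refine v_mul_lt_of_lt_one_of_le ((v.ne_zero_iff).mpr hs0) hs'lt ?_
    rw [map_mul]
    refine mul_le_of_le_one_right' ?_
    refine v_add_le_one (v_add_le_one (v_add_le_one hb2 (v_mul_le_one hb4 hss))
      (v_mul_le_one hb6 (v_mul_le_one hs1 hs'1))) ?_
    exact v_mul_le_one (v_mul_le_one h2 hss) (v_add_le_one (v_add_le_one hb4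
      (v_mul_le_one hb6 hss)) (v_mul_le_one hb8 (v_mul_le_one hs1 hs'1)))
  have : v ((x₃⁻¹ + x₄⁻¹ - 2 * (s + s')) * V) < v s := by rw [key]; exact hRv
  rwa [map_mul, hVv, mul_one] at this

/-- Duplication step. -/
lemma step_dbl {s x' : K} (hs0 : s ≠ 0) (hs : v s < 1)
    (h : x' * dblDen W s⁻¹ = dblNum W s⁻¹) :
    x' ≠ 0 ∧ v (x'⁻¹ - 4 * s) < v s := by
  have hb2 := v_b₂ hW
  have hb4 := v_b₄ hW
  have hb6 := v_b₆ hW
  have hb8 := v_b₈ hW
  have hs1 : v s ≤ 1 := hs.le
  have h2 : v (2 : K) ≤ 1 := v_ofNat_le_one v 2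
  have h4 : v (4 : K) ≤ 1 := v_ofNat_le_one v 4
  set V : K := 1 - W.b₄ * s ^ 2 - 2 * W.b₆ * s ^ 3 - W.b₈ * s ^ 4 with hV
  set U : K := 4 * s + W.b₂ * s ^ 2 + 2 * W.b₄ * s ^ 3 + W.b₆ * s ^ 4 with hU
  have e2 : dblDen W s⁻¹ * s ^ 4 = U := by
    simp only [dblDen, hU]
    field_simp
  have e3 : dblNum W s⁻¹ * s ^ 4 = V := by
    simp only [dblNum, hV]
    field_simp
  have h' : x' * U = V := by
    rw [← e2, ← e3, ← h]; ring
  have hV1 : v (V - 1) < 1 := by
    have : V - 1 = -(s * (s * (W.b₄ + 2 * W.b₆ * s + W.b₈ * s ^ 2))) := by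
      simp only [hV]; ring
    rw [this, v.map_neg]
    refine v_mul_lt_right ?_ hs
    exact v_mul_le_one hs1 (v_add_le_one (v_add_le_one hb4 (v_mul_le_one (v_mul_le_one h2 hb6) hs1))
      (v_mul_le_one hb8 (v_pow_le_one hs1 2)))
  have hVv : v V = 1 := by
    have : V = 1 + (V - 1) := by ring
    rw [this]
    exact v.map_one_add_of_lt hV1
  have hV0 : V ≠ 0 := by
    intro h
    rw [h, map_zero] at hVv
    exact zero_ne_one hVv
  have hxU : x' * U ≠ 0 := by rw [h']; exact hV0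
  have hx' : x' ≠ 0 := left_ne_zero_of_mul hxU
  have hU0 : U ≠ 0 := right_ne_zero_of_mul hxU
  refine ⟨hx', ?_⟩
  have key : (x'⁻¹ - 4 * s) * V = U - 4 * s * V := by
    have : x'⁻¹ * V = U := by
      rw [← h']; field_simp
    rw [sub_mul, this]
  have hR : U - 4 * s * V = s * (s * (W.b₂ + 2 * W.b₄ * s + W.b₆ * s ^ 2 +
      4 * (W.b₄ * s + 2 * W.b₆ * s ^ 2 + W.b₈ * s ^ 3))) := by
    simp only [hU, hV]; ring
  have hRv : v (U - 4 * s * V) < v s := by
    rw [hR]
    refine v_mul_lt_of_lt_one_of_le ((v.ne_zero_iff).mpr hs0) hs ?_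
    rw [map_mul]
    refine mul_le_of_le_one_right' ?_
    refine v_add_le_one (v_add_le_one (v_add_le_one hb2 (v_mul_le_one (v_mul_le_one h2 hb4) hs1))
      (v_mul_le_one hb6 (v_pow_le_one hs1 2))) ?_
    exact v_mul_le_one h4 (v_add_le_one (v_add_le_one (v_mul_le_one hb4 hs1)
      (v_mul_le_one (v_mul_le_one h2 hb6) (v_pow_le_one hs1 2)))
      (v_mul_le_one hb8 (v_pow_le_one hs1 3)))
  have : v ((x'⁻¹ - 4 * s) * V) < v s := by rw [key]; exact hRv
  rwa [map_mul, hVv, mul_one] at this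

/-- If `P = (1/s, y)` is 2-torsion and in the kernel of reduction then `v 2 < 1`. -/
lemma v_two_lt_one_of_dblDen_eq_zero {s : K} (hs0 : s ≠ 0) (hs : v s < 1)
    (h : dblDen W s⁻¹ = 0) : v (2 : K) < 1 := by
  have hb2 := v_b₂ hW
  have hb4 := v_b₄ hW
  have hb6 := v_b₆ hW
  have hs1 : v s ≤ 1 := hs.le
  have h2 : v (2 : K) ≤ 1 := v_ofNat_le_one v 2
  have e2 : dblDen W s⁻¹ * s ^ 3 = 4 + W.b₂ * s + 2 * W.b₄ * s ^ 2 + W.b₆ * s ^ 3 := by
    simp only [dblDen]
    field_simp
  rw [h, zero_mul] at e2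
  have h4 : (4 : K) = -(s * (W.b₂ + 2 * W.b₄ * s + W.b₆ * s ^ 2)) := by
    linear_combination -e2
  have hv4 : v (4 : K) < 1 := by
    rw [h4, v.map_neg]
    refine v_mul_lt_right ?_ hs
    exact v_add_le_one (v_add_le_one hb2 (v_mul_le_one (v_mul_le_one h2 hb4) hs1))
      (v_mul_le_one hb6 (v_pow_le_one hs1 2))
  by_contra hcon
  have h21 : v (2 : K) = 1 := le_antisymm h2 (not_lt.mp hcon)
  have : v (4 : K) = 1 := by
    have : (4 : K) = 2 * 2 := by norm_num
    rw [this, map_mul, h21, mul_one]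
  rw [this] at hv4
  exact lt_irrefl _ hv4

end estimates

section main

variable [DecidableEq K] {W : Affine K}

/-- The induction predicate: either `k • P = 0` and `v k < 1`, or `k • P = (xk, yk)` with
`1/xk ≡ k² s` modulo elements of valuation `< v s`. -/
def Good (v : Valuation K Γ₀) (W : Affine K) (P : W.Point) (s : K) (k : ℕ) : Prop :=
  (k • P = 0 ∧ v (k : K) < 1) ∨
  ∃ (xk yk : K) (hk : W.Nonsingular xk yk), k • P = Point.some xk yk hk ∧ xk ≠ 0 ∧
    v (xk⁻¹ - (k : K) ^ 2 * s) < v s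

theorem good_all (hW : IsIntegralAt v W) {x y : K} (h : W.Nonsingular x y) (hx : 1 < v x)
    (k : ℕ) :
    Good v W (Point.some x y h) x⁻¹ k ∧ Good v W (Point.some x y h) x⁻¹ (k + 1) := by
  have hx0 : x ≠ 0 := by
    rintro rfl
    rw [map_zero] at hx
    exact not_lt_zero hx
  have hs0 : x⁻¹ ≠ 0 := inv_ne_zero hx0
  have hs : v x⁻¹ < 1 := by
    rw [map_inv₀]; exact inv_lt_one_of_one_lt₀ hx
  have hvs0 : v x⁻¹ ≠ 0 := (v.ne_zero_iff).mpr hs0
  have hvspos : 0 < v x⁻¹ := zero_lt_iff.mpr hvs0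
  have h2 : v (2 : K) ≤ 1 := v_ofNat_le_one v 2
  induction k with
  | zero =>
    refine ⟨Or.inl ⟨zero_nsmul _, by simp⟩, Or.inr ⟨x, y, h, one_nsmul _, hx0, ?_⟩⟩
    simpa using hvspos
  | succ j ih =>
    obtain ⟨gj, gj1⟩ := ih
    refine ⟨gj1, ?_⟩
    have e1 : (j + 1 + 1) • Point.some x y h = (j + 1) • Point.some x y h + Point.some x y h :=
      succ_nsmul _ (j + 1)
    have e0 : (j + 1) • Point.some x y h = j • Point.some x y h + Point.some x y h :=
      succ_nsmul _ j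
    rcases gj1 with ⟨hQ0, hvk⟩ | ⟨xk, yk, hk, hQ, hxk0, hvk⟩
    · -- `(j+1) P = 0`
      refine Or.inr ⟨x, y, h, by rw [e1, hQ0, zero_add], hx0, ?_⟩
      have : x⁻¹ - ((j + 1 + 1 : ℕ) : K) ^ 2 * x⁻¹ =
          -(((j + 1 : ℕ) : K) * ((((j + 3 : ℕ) : K)) * x⁻¹)) := by
        push_cast; ring
      rw [this, v.map_neg]
      refine v_mul_lt_of_lt_one_of_le hvs0 hvk ?_
      rw [map_mul]
      exact mul_le_of_le_one_left' (v_natCast_le_one v _)
    · by_cases hxk : xk = x
      · subst hxk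
        by_cases hyy : yk = y
        · -- `(j+1) P = P`
          subst hyy
          have hj0 : j • Point.some xk yk h = 0 := by
            have := e0
            rw [hQ] at this
            exact add_eq_right.mp this.symm
          have hvj : v (j : K) < 1 := by
            rcases gj with ⟨-, hvj⟩ | ⟨xj, yj, hj, hjP, -, -⟩
            · exact hvj
            · rw [hj0] at hjP
              exact absurd hjP.symm (Point.some_ne_zero hj)
          by_cases hy2 : yk = W.negY xk yk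
          · -- `2P = 0`
            refine Or.inl ⟨by rw [e1, hQ]; exact Point.add_self_of_Y_eq hy2, ?_⟩
            have hd := dblDen_eq_zero_of_Y_eq h.1 hy2
            have h2lt := v_two_lt_one_of_dblDen_eq_zero hW hs0 hs (by rwa [inv_inv])
            push_cast
            have : (j : K) + 1 + 1 = j + 2 := by ring
            rw [this]
            exact v.map_add_lt hvj h2lt
          · obtain ⟨x', y', h', hPP, hdbl, -⟩ := add_self_some h hy2
            obtain ⟨hx'0, hvx'⟩ := step_dbl hW hs0 hs (x' := x') (by rwa [inv_inv])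
            refine Or.inr ⟨x', y', h', by rw [e1, hQ]; exact hPP, hx'0, ?_⟩
            have : x'⁻¹ - ((j + 1 + 1 : ℕ) : K) ^ 2 * xk⁻¹ =
                (x'⁻¹ - 4 * xk⁻¹) - (j : K) * ((((j + 4 : ℕ) : K)) * xk⁻¹) := by
              push_cast; ring
            rw [this]
            refine v.map_sub_lt hvx' (v_mul_lt_of_lt_one_of_le hvs0 hvj ?_)
            rw [map_mul]
            exact mul_le_of_le_one_left' (v_natCast_le_one v _)
        · -- `(j+1) P = -P ≠ P`
          have hy : yk = W.negY xk y := (Y_eq_of_X_eq hk.1 h.1 rfl).resolve_left hyy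
          have hy2 : y ≠ W.negY xk y := fun hcon => hyy (hy.trans hcon.symm)
          refine Or.inl ⟨by rw [e1, hQ]; exact Point.add_of_Y_eq rfl hy, ?_⟩
          obtain ⟨x', y', h', hPP, hdbl, -⟩ := add_self_some h hy2
          obtain ⟨hx'0, hvx'⟩ := step_dbl hW hs0 hs (x' := x') (by rwa [inv_inv])
          -- `j P = -(2P)`
          have hQneg : Point.some xk yk hk = -Point.some xk y h := by
            rw [Point.neg_some]
            congr 1
          have hjP' : j • Point.some xk y h = -Point.some x' y' h' := by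
            have : j • Point.some xk y h = (j + 1) • Point.some xk y h - Point.some xk y h :=
              eq_sub_of_add_eq e0.symm
            rw [this, hQ, hQneg, ← hPP]
            abel
          rw [Point.neg_some] at hjP'
          have hvj2 : v (x'⁻¹ - (j : K) ^ 2 * xk⁻¹) < v xk⁻¹ := by
            rcases gj with ⟨hj0, -⟩ | ⟨xj, yj, hj, hjP, -, hvj⟩
            · rw [hj0] at hjP'
              exact absurd hjP' (Point.some_ne_zero _).symm
            · rw [hjP'] at hjP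
              have hxx : x' = xj := (Point.some.inj hjP).1
              rw [hxx]
              exact hvj
          -- `v (j * (j+2)) < 1`
          have hA : v ((j : K) * ((j : K) + 2)) < 1 := by
            have e : xk⁻¹ - ((j + 1 : ℕ) : K) ^ 2 * xk⁻¹ = -(((j : K) * ((j : K) + 2)) * xk⁻¹) := by
              push_cast; ring
            rw [e, v.map_neg, map_mul] at hvk
            by_contra hcon
            exact absurd hvk (not_lt.mpr (le_mul_of_one_le_left' (not_lt.mp hcon)))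
          -- `v ((j-2) * (j+2)) < 1`
          have hB : v (((j : K) - 2) * ((j : K) + 2)) < 1 := by
            have e : (((j : K) - 2) * ((j : K) + 2)) * xk⁻¹ =
                (x'⁻¹ - 4 * xk⁻¹) - (x'⁻¹ - (j : K) ^ 2 * xk⁻¹) := by ring
            have hlt : v ((((j : K) - 2) * ((j : K) + 2)) * xk⁻¹) < v xk⁻¹ := by
              rw [e]; exact v.map_sub_lt hvx' hvj2
            rw [map_mul] at hlt
            by_contra hcon
            exact absurd hlt (not_lt.mpr (le_mul_of_one_le_left' (not_lt.mp hcon)))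
          have hle : v ((j : K) + 2) ≤ 1 := v_add_le_one (v_natCast_le_one v j) h2
          push_cast
          have e12 : (j : K) + 1 + 1 = j + 2 := by ring
          rw [e12]
          by_contra hcon
          have h1 : v ((j : K) + 2) = 1 := le_antisymm hle (not_lt.mp hcon)
          rw [map_mul, h1, mul_one] at hA hB
          have h2lt : v (2 : K) < 1 := by
            have : (2 : K) = (j : K) - ((j : K) - 2) := by ring
            rw [this]
            exact v.map_sub_lt hA hB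
          exact hcon (v.map_add_lt hA h2lt)
      · -- generic case
        obtain ⟨x₃, y₃, x₄, y₄, h₃, h₄, hadd, hsub, hsum, hprod⟩ := add_sub_some hk h hxk
        have hjP' : j • Point.some x y h = Point.some x₄ y₄ h₄ := by
          have : j • Point.some x y h = (j + 1) • Point.some x y h - Point.some x y h :=
            eq_sub_of_add_eq e0.symm
          rw [this, hQ, hsub]
        have hvj : v (x₄⁻¹ - (j : K) ^ 2 * x⁻¹) < v x⁻¹ := by
          rcases gj with ⟨hj0, -⟩ | ⟨xj, yj, hj, hjP, -, hvj⟩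
          · rw [hj0] at hjP'
            exact absurd hjP' (Point.some_ne_zero _).symm
          · rw [hjP'] at hjP
            have hxx : x₄ = xj := (Point.some.inj hjP).1
            rw [hxx]
            exact hvj
        have hs' : v xk⁻¹ ≤ v x⁻¹ := by
          have e : xk⁻¹ = (xk⁻¹ - ((j + 1 : ℕ) : K) ^ 2 * x⁻¹) + ((j + 1 : ℕ) : K) ^ 2 * x⁻¹ := by
            ring
          rw [e]
          refine v.map_add_le hvk.le ?_
          rw [map_mul]
          exact mul_le_of_le_one_left' (v_pow_le_one (v_natCast_le_one v _) 2)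
        obtain ⟨hx₃0, -, hv34⟩ := step_generic hW (s := x⁻¹) (s' := xk⁻¹) (x₃ := x₃) (x₄ := x₄)
          hs0 (inv_ne_zero hxk0) hs hs' (by rwa [inv_inv, inv_inv]) (by rwa [inv_inv, inv_inv])
        refine Or.inr ⟨x₃, y₃, h₃, by rw [e1, hQ]; exact hadd, hx₃0, ?_⟩
        have e : x₃⁻¹ - ((j + 1 + 1 : ℕ) : K) ^ 2 * x⁻¹ =
            (x₃⁻¹ + x₄⁻¹ - 2 * (x⁻¹ + xk⁻¹)) - (x₄⁻¹ - (j : K) ^ 2 * x⁻¹) +
              2 * (xk⁻¹ - ((j + 1 : ℕ) : K) ^ 2 * x⁻¹) := by
          push_cast; ring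
        rw [e]
        exact v.map_add_lt (v.map_sub_lt hv34 hvj) (v_mul_lt_left h2 hvk)

/-- **No torsion in the kernel of reduction.** If `W` has `v`-integral coefficients, `n` is a
`v`-unit and `n • (x, y) = 0`, then `x` is `v`-integral. -/
theorem v_x_le_one_of_nsmul_eq_zero (hW : IsIntegralAt v W) {x y : K} (h : W.Nonsingular x y)
    {n : ℕ} (hn : v (n : K) = 1) (hP : n • Point.some x y h = 0) : v x ≤ 1 := by
  by_contra hx
  rcases (good_all hW h (not_le.mp hx) n).1 with ⟨-, hlt⟩ | ⟨xk, yk, hk, hkP, -, -⟩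
  · rw [hn] at hlt
    exact lt_irrefl _ hlt
  · rw [hP] at hkP
    exact Point.some_ne_zero hk hkP.symm

/-- Point form of `v_x_le_one_of_nsmul_eq_zero`. -/
theorem eq_zero_or_v_x_le_one_of_nsmul_eq_zero (hW : IsIntegralAt v W) (P : W.Point)
    {n : ℕ} (hn : v (n : K) = 1) (hP : n • P = 0) :
    P = 0 ∨ ∃ (x y : K) (h : W.Nonsingular x y), P = Point.some x y h ∧ v x ≤ 1 := by
  rcases P with _ | ⟨x, y, h⟩
  · exact Or.inl rfl
  · exact Or.inr ⟨x, y, h, rfl, v_x_le_one_of_nsmul_eq_zero hW h hn hP⟩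

/-- A point in the kernel of reduction (`1 < v x`) killed by a `v`-unit integer does not exist. -/
theorem nsmul_ne_zero_of_one_lt_v_x (hW : IsIntegralAt v W) {x y : K} (h : W.Nonsingular x y)
    (hx : 1 < v x) {n : ℕ} (hn : v (n : K) = 1) : n • Point.some x y h ≠ 0 := fun hP =>
  absurd (v_x_le_one_of_nsmul_eq_zero hW h hn hP) (not_le.mpr hx)

/-- Integer-multiple version. -/
theorem v_x_le_one_of_zsmul_eq_zero (hW : IsIntegralAt v W) {x y : K} (h : W.Nonsingular x y)
    {n : ℕ} (hn : v (n : K) = 1) (hP : (n : ℤ) • Point.some x y h = 0) : v x ≤ 1 :=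
  v_x_le_one_of_nsmul_eq_zero hW h hn (by rwa [natCast_zsmul] at hP)

omit [DecidableEq K] in
/-- The `y`-coordinate of an affine point with `v`-integral `x`-coordinate is `v`-integral. -/
theorem v_y_le_one_of_v_x_le_one (hW : IsIntegralAt v W) {x y : K} (h : W.Equation x y)
    (hx : v x ≤ 1) : v y ≤ 1 := by
  obtain ⟨h1, h2, h3, h4, h6⟩ := hW
  rw [Affine.equation_iff] at h
  by_contra hy
  have hy1 : 1 < v y := not_le.mp hy
  have hy0 : v y ≠ 0 := (zero_lt_one.trans hy1).ne'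
  -- `y² = -(a₁ x + a₃) y + (x³ + a₂ x² + a₄ x + a₆)`, so `v y ^ 2 ≤ v y`
  have e : y ^ 2 = -((W.a₁ * x + W.a₃) * y) + (x ^ 3 + W.a₂ * x ^ 2 + W.a₄ * x + W.a₆) := by
    linear_combination h
  have hA : v ((W.a₁ * x + W.a₃) * y) ≤ v y := by
    rw [map_mul]
    exact mul_le_of_le_one_left' (v_add_le_one (v_mul_le_one h1 hx) h3)
  have hB : v (x ^ 3 + W.a₂ * x ^ 2 + W.a₄ * x + W.a₆) ≤ v y :=
    (v_add_le_one (v_add_le_one (v_add_le_one (v_pow_le_one hx 3)
      (v_mul_le_one h2 (v_pow_le_one hx 2))) (v_mul_le_one h4 hx)) h6).trans hy1.le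
  have hle : v (y ^ 2) ≤ v y := by
    rw [e]
    exact v.map_add_le (by rwa [v.map_neg]) hB
  rw [map_pow, sq] at hle
  have : v y * v y ≤ 1 * v y := by rwa [one_mul]
  have := le_of_mul_le_mul_right this (zero_lt_iff.mpr hy0)
  exact hy this

end main

section subring

variable {K : Type*} [Field K] [DecidableEq K] {W : Affine K}

/-- `ValuationSubring` form: if the coefficients of `W` lie in `A`, the natural number `n` is a
unit of `A` (i.e. `(n : K) ∉ A.nonunits`), and `n • (x, y) = 0`, then `x ∈ A` and `y ∈ A`. -/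
theorem mem_of_nsmul_eq_zero (A : ValuationSubring K)
    (h₁ : W.a₁ ∈ A) (h₂ : W.a₂ ∈ A) (h₃ : W.a₃ ∈ A) (h₄ : W.a₄ ∈ A) (h₆ : W.a₆ ∈ A)
    {x y : K} (h : W.Nonsingular x y) {n : ℕ} (hn : (n : K) ∉ A.nonunits)
    (hP : n • Point.some x y h = 0) : x ∈ A ∧ y ∈ A := by
  have hW : IsIntegralAt A.valuation W :=
    ⟨(A.valuation_le_one_iff _).mpr h₁, (A.valuation_le_one_iff _).mpr h₂,
      (A.valuation_le_one_iff _).mpr h₃, (A.valuation_le_one_iff _).mpr h₄,
      (A.valuation_le_one_iff _).mpr h₆⟩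
  have hn1 : A.valuation (n : K) = 1 := by
    refine le_antisymm (v_natCast_le_one _ n) (not_lt.mp ?_)
    rwa [← ValuationSubring.mem_nonunits_iff]
  have hx := v_x_le_one_of_nsmul_eq_zero hW h hn1 hP
  exact ⟨(A.valuation_le_one_iff _).mp hx,
    (A.valuation_le_one_iff _).mp (v_y_le_one_of_v_x_le_one hW h.1 hx)⟩

end subring

end Fermat.Agent.S05.FG

end
-- ===== PACK-END S05/FG.lean

-- ===== PACK-BEGIN S59/H899/ZModel.lean
section





/-!
# Row S59, layer E (helper899): an integral Weierstrass model over `ℚ̄` with a place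

Vocabulary shared by the pieces CR-U / CR-O: for `W : WeierstrassCurve ℤ` and a valuation
subring `A` of `ℚ̄`,

* `coeff lemmas` : the coefficients of `(W.map (Int.castRingHom ℚ))⁄ℚ̄` are the integers `W.aᵢ`;
* `integralCoeffs W A` : they are `A`-integral;
* `val_intCast_eq_one`, `val_intCast_lt_one` : valuations of integers at a place over `ℓ`;
* `inertia_val_sub_lt_one`, `decomp_val_eq` : the inertia group acts trivially on the residue
  field, the decomposition group preserves the valuation.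
-/

set_option autoImplicit false

namespace Fermat.Agent.S59.H899

open WeierstrassCurve WeierstrassCurve.Affine
open scoped WeierstrassCurve.Affine
open Fermat.Agent.S05.SameRed

/-- `ℚ̄` -/
abbrev QbarH : Type := AlgebraicClosure ℚ

/-- `Gal(ℚ̄/ℚ)` -/
abbrev GalQH : Type := QbarH ≃ₐ[ℚ] QbarH

section valuation

variable (A : ValuationSubring QbarH)

lemma val_intCast_le_one (n : ℤ) : A.valuation (n : QbarH) ≤ 1 :=
  (A.valuation_le_one_iff _).mpr (intCast_mem A n)

lemma val_natCast_le_one' (n : ℕ) : A.valuation (n : QbarH) ≤ 1 :=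
  (A.valuation_le_one_iff _).mpr (natCast_mem A n)

variable {A}

/-- An integer divisible by `q` lies in the maximal ideal. -/
lemma val_intCast_lt_one {q : ℕ} (hq : A.LiesOverPrime q) {n : ℤ} (hn : (q : ℤ) ∣ n) :
    A.valuation (n : QbarH) < 1 := by
  obtain ⟨m, rfl⟩ := hn
  have hq' : A.valuation (q : QbarH) < 1 := (A.mem_nonunits_iff).mp hq
  push_cast
  rw [map_mul]
  exact (mul_le_of_le_one_right' (val_intCast_le_one A m)).trans_lt hq'

/-- An integer prime to `q` is a unit. -/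
lemma val_intCast_eq_one {q : ℕ} (hq : A.LiesOverPrime q) (hqp : q.Prime) {n : ℤ}
    (hn : ¬ (q : ℤ) ∣ n) : A.valuation (n : QbarH) = 1 := by
  have hq' : A.valuation (q : QbarH) < 1 := (A.mem_nonunits_iff).mp hq
  have hcop : IsCoprime (q : ℤ) n :=
    (Prime.coprime_iff_not_dvd (Nat.prime_iff_prime_int.mp hqp)).mpr hn
  obtain ⟨u, w, huw⟩ := hcop
  have h1 : (u : QbarH) * (q : QbarH) + (w : QbarH) * (n : QbarH) = 1 := by
    exact_mod_cast congrArg (Int.cast : ℤ → QbarH) huw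
  have hsmall : A.valuation ((u : QbarH) * (q : QbarH)) < 1 := by
    rw [map_mul]
    exact (mul_le_of_le_one_left' (val_intCast_le_one A u)).trans_lt hq'
  have hwn : A.valuation ((w : QbarH) * (n : QbarH)) = 1 := by
    have h2 : (w : QbarH) * (n : QbarH) = 1 - (u : QbarH) * (q : QbarH) := by
      rw [← h1]; ring
    rw [h2]
    have := A.valuation.map_sub_eq_of_lt_left (x := (1 : QbarH))
      (y := (u : QbarH) * (q : QbarH)) (by rw [map_one]; exact hsmall)
    rw [this, map_one]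
  rw [map_mul] at hwn
  refine le_antisymm (val_intCast_le_one A n) ?_
  by_contra hlt
  rw [not_le] at hlt
  have : A.valuation (w : QbarH) * A.valuation (n : QbarH) < 1 :=
    (mul_le_of_le_one_left' (val_intCast_le_one A w)).trans_lt hlt
  exact absurd hwn (ne_of_lt this)

/-- A natural number prime to `q` is a unit. -/
lemma val_natCast_eq_one {q : ℕ} (hq : A.LiesOverPrime q) (hqp : q.Prime) {n : ℕ}
    (hn : ¬ q ∣ n) : A.valuation (n : QbarH) = 1 := by
  have := val_intCast_eq_one hq hqp (n := (n : ℤ)) (by exact_mod_cast hn)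
  simpa using this

/-- Elements of the inertia group act trivially on the residue field. -/
lemma inertia_val_sub_lt_one {σ : GalQH} (hσ : σ ∈ A.inertiaSubgroupIn ℚ) (z : QbarH)
    (hz : A.valuation z ≤ 1) : A.valuation (σ z - z) < 1 := by
  obtain ⟨g, hg, rfl⟩ := hσ
  have hzA : z ∈ A := (A.valuation_le_one_iff z).mp hz
  have h1 : MulSemiringAction.toRingAut (A.decompositionSubgroup ℚ)
      (IsLocalRing.ResidueField A) g = 1 := hg
  have h2 : g • (IsLocalRing.residue A ⟨z, hzA⟩) = IsLocalRing.residue A ⟨z, hzA⟩ := by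
    have := congrArg (fun f => f (IsLocalRing.residue A ⟨z, hzA⟩)) h1
    simpa using this
  rw [← IsLocalRing.ResidueField.residue_smul] at h2
  have h3 : (g • (⟨z, hzA⟩ : A)) - ⟨z, hzA⟩ ∈ IsLocalRing.maximalIdeal A := by
    rw [← Ideal.Quotient.eq]
    exact h2
  rw [ValuationSubring.valuation_lt_one_iff] at h3
  exact h3

end valuation

section model

variable (W : WeierstrassCurve ℤ)

/-- the curve over `ℚ̄` attached to the integral model `W` -/
noncomputable abbrev curveQbar : WeierstrassCurve.Affine QbarH := (W.map (Int.castRingHom ℚ))⁄QbarH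

lemma curveQbar_a₁ : (curveQbar W).a₁ = ((W.a₁ : ℤ) : QbarH) := by
  simp [WeierstrassCurve.baseChange]

lemma curveQbar_a₂ : (curveQbar W).a₂ = ((W.a₂ : ℤ) : QbarH) := by
  simp [WeierstrassCurve.baseChange]

lemma curveQbar_a₃ : (curveQbar W).a₃ = ((W.a₃ : ℤ) : QbarH) := by
  simp [WeierstrassCurve.baseChange]

lemma curveQbar_a₄ : (curveQbar W).a₄ = ((W.a₄ : ℤ) : QbarH) := by
  simp [WeierstrassCurve.baseChange]

lemma curveQbar_a₆ : (curveQbar W).a₆ = ((W.a₆ : ℤ) : QbarH) := by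
  simp [WeierstrassCurve.baseChange]

lemma curveQbar_eq_map : curveQbar W = W.map (Int.castRingHom QbarH) := by
  ext <;> simp [WeierstrassCurve.baseChange]

lemma curveQbar_Δ : (curveQbar W).Δ = ((W.Δ : ℤ) : QbarH) := by
  rw [curveQbar_eq_map, WeierstrassCurve.map_Δ]; rfl

lemma curveQbar_c₄ : (curveQbar W).c₄ = ((W.c₄ : ℤ) : QbarH) := by
  rw [curveQbar_eq_map, WeierstrassCurve.map_c₄]; rfl

lemma curveQbar_b₂ : (curveQbar W).b₂ = ((W.b₂ : ℤ) : QbarH) := by
  rw [curveQbar_eq_map, WeierstrassCurve.map_b₂]; rfl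

lemma curveQbar_b₄ : (curveQbar W).b₄ = ((W.b₄ : ℤ) : QbarH) := by
  rw [curveQbar_eq_map, WeierstrassCurve.map_b₄]; rfl

lemma curveQbar_b₆ : (curveQbar W).b₆ = ((W.b₆ : ℤ) : QbarH) := by
  rw [curveQbar_eq_map, WeierstrassCurve.map_b₆]; rfl

lemma curveQbar_b₈ : (curveQbar W).b₈ = ((W.b₈ : ℤ) : QbarH) := by
  rw [curveQbar_eq_map, WeierstrassCurve.map_b₈]; rfl

/-- the coefficients of the integral model are integral at every place -/
lemma integralCoeffs (A : ValuationSubring QbarH) :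
    IntegralCoeffs (curveQbar W) A.valuation :=
  ⟨by rw [curveQbar_a₁]; exact val_intCast_le_one A _,
   by rw [curveQbar_a₂]; exact val_intCast_le_one A _,
   by rw [curveQbar_a₃]; exact val_intCast_le_one A _,
   by rw [curveQbar_a₄]; exact val_intCast_le_one A _,
   by rw [curveQbar_a₆]; exact val_intCast_le_one A _⟩

variable {W}

lemma val_Δ_eq_one_of_good {A : ValuationSubring QbarH} {ℓ : ℕ} (hℓ : ℓ.Prime)
    (hA : A.LiesOverPrime ℓ) (hgood : W.IsGoodPrimeFor ℓ) :
    A.valuation (curveQbar W).Δ = 1 := by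
  rw [curveQbar_Δ]
  exact val_intCast_eq_one hA hℓ hgood

lemma val_Δ_lt_one_of_bad {A : ValuationSubring QbarH} {ℓ : ℕ}
    (hA : A.LiesOverPrime ℓ) (hbad : ¬ W.IsGoodPrimeFor ℓ) :
    A.valuation (curveQbar W).Δ < 1 := by
  rw [curveQbar_Δ]
  exact val_intCast_lt_one hA (not_not.mp hbad)

lemma val_c₄_eq_one_of_semistable {A : ValuationSubring QbarH} {ℓ : ℕ} (hℓ : ℓ.Prime)
    (hA : A.LiesOverPrime ℓ) (hss : W.IsSemistableModel) (hbad : ¬ W.IsGoodPrimeFor ℓ) :
    A.valuation (curveQbar W).c₄ = 1 := by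
  rw [curveQbar_c₄]
  exact val_intCast_eq_one hA hℓ (hss ℓ hℓ (not_not.mp hbad))

end model

end Fermat.Agent.S59.H899

end
-- ===== PACK-END S59/H899/ZModel.lean

-- ===== PACK-BEGIN S51/FiveTorsion.lean
section



/-!
# S51, the `5`-side: points of order `5` on a Weierstrass curve
-/

open WeierstrassCurve WeierstrassCurve.Affine

namespace Fermat.Agent.S51.Five

variable {K : Type*} [Field K] [DecidableEq K] {E : WeierstrassCurve.Affine K}

/-- the `x`-coordinate of a point, with junk value `0` at infinity -/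
def xc : E.Point → K
  | .zero => 0
  | .some x _ _ => x

@[simp] lemma xc_some {x y : K} (h : E.Nonsingular x y) : xc (Point.some x y h) = x := rfl

lemma xc_neg (P : E.Point) : xc (-P) = xc P := by
  cases P <;> rfl

lemma eq_or_eq_neg_of_xc_eq {P Q : E.Point} (hP : P ≠ 0) (hQ : Q ≠ 0) (h : xc P = xc Q) :
    P = Q ∨ P = -Q := by
  match P, Q with
  | .zero, _ => exact absurd rfl hP
  | _, .zero => exact absurd rfl hQ
  | .some x₁ y₁ h₁, .some x₂ y₂ h₂ => exact Point.X_eq_iff.mp h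

/-- doubling formula for `x`-coordinates -/
lemma xc_add_self {P : E.Point} (hP : P ≠ 0) (h2 : P + P ≠ 0) :
    dD E.b₂ E.b₄ E.b₆ (xc P) ≠ 0 ∧
      xc (P + P) * dD E.b₂ E.b₄ E.b₆ (xc P) = dN E.b₄ E.b₆ E.b₈ (xc P) := by
  match P with
  | .zero => exact absurd rfl hP
  | .some x y h =>
    have hy : y ≠ E.negY x y := fun hy => h2 (Point.add_self_of_Y_eq hy)
    constructor
    · rw [xc_some, dD_eq E h.1]; exact pow_ne_zero 2 (sub_ne_zero.mpr hy)
    · rw [Point.add_self_of_Y_ne hy, xc_some, xc_some]; exact dup_X E h.1 hy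

/-- if `D (x P) ≠ 0` then `2P ≠ 0` -/
lemma add_self_ne_zero_of_dD_ne_zero {P : E.Point} (hP : P ≠ 0)
    (hD : dD E.b₂ E.b₄ E.b₆ (xc P) ≠ 0) : P + P ≠ 0 := by
  match P with
  | .zero => exact absurd rfl hP
  | .some x y h =>
    have hy : y ≠ E.negY x y := by
      intro hy
      apply hD
      rw [xc_some, dD_eq E h.1, ← hy, sub_self]; ring
    rw [Point.add_self_of_Y_ne hy]
    exact Point.some_ne_zero _

section order5

lemma nsmul_eq_zero_iff_of_order5 {P : E.Point} (hP : P ≠ 0) (h5 : 5 • P = 0) (k : ℕ) :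
    k • P = 0 ↔ 5 ∣ k := by
  haveI : Fact (Nat.Prime 5) := ⟨by norm_num⟩
  have ho : addOrderOf P = 5 := addOrderOf_eq_prime h5 hP
  rw [← ho]
  exact addOrderOf_dvd_iff_nsmul_eq_zero.symm

/-- the relations satisfied by `u = x(P)`, `v = x(2P)` for a point `P` of order `5` -/
lemma order5_rel {P : E.Point} (hP : P ≠ 0) (h5 : 5 • P = 0) :
    dD E.b₂ E.b₄ E.b₆ (xc P) ≠ 0 ∧ dD E.b₂ E.b₄ E.b₆ (xc (2 • P)) ≠ 0 ∧
    xc (2 • P) * dD E.b₂ E.b₄ E.b₆ (xc P) = dN E.b₄ E.b₆ E.b₈ (xc P) ∧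
    xc P * dD E.b₂ E.b₄ E.b₆ (xc (2 • P)) = dN E.b₄ E.b₆ E.b₈ (xc (2 • P)) ∧
    xc P ≠ xc (2 • P) := by
  have key := nsmul_eq_zero_iff_of_order5 hP h5
  have h2 : 2 • P ≠ 0 := fun h => by have := (key 2).mp h; omega
  have h3 : 3 • P ≠ 0 := fun h => by have := (key 3).mp h; omega
  have h4 : 4 • P ≠ 0 := fun h => by have := (key 4).mp h; omega
  have e2 : P + P = 2 • P := (two_nsmul P).symm
  have e4 : 2 • P + 2 • P = 4 • P := by rw [← add_nsmul]
  have e4' : 4 • P = -P := by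
    rw [eq_neg_iff_add_eq_zero, ← succ_nsmul]; exact h5
  obtain ⟨hD1, hX1⟩ := xc_add_self hP (e2 ▸ h2)
  obtain ⟨hD2, hX2⟩ := xc_add_self h2 (e4 ▸ h4)
  rw [e2] at hX1
  rw [e4, e4', xc_neg] at hX2
  refine ⟨hD1, hD2, hX1, hX2, ?_⟩
  intro huv
  rcases eq_or_eq_neg_of_xc_eq hP h2 huv with h | h
  · apply hP
    have : P + P = P + 0 := by rw [e2, add_zero]; exact h.symm
    exact (add_left_cancel this)
  · apply h3
    have h' : 2 • P + P = 0 := by
      nth_rewrite 2 [h]
      exact add_neg_cancel _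
    rw [succ_nsmul]; exact h'

/-- the `x`-coordinate of a point of order `5` is a root of the `5`-division polynomial -/
lemma dPsi5_eq_zero_of_order5 [CharZero K] {P : E.Point} (hP : P ≠ 0) (h5 : 5 • P = 0) :
    dPsi5 E.b₂ E.b₄ E.b₆ E.b₈ (xc P) = 0 := by
  obtain ⟨hD1, hD2, hX1, hX2, huv⟩ := order5_rel hP h5
  have h4 : (4:K) ≠ 0 := by norm_num
  have hb := E.b_relation
  set u := xc P with hu
  set v := xc (2 • P) with hv
  have hv' : v = dN E.b₄ E.b₆ E.b₈ u / dD E.b₂ E.b₄ E.b₆ u := by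
    rw [eq_div_iff hD1]; exact hX1
  have e1 := dD_div E.b₂ E.b₄ E.b₆ E.b₈ u hD1
  have e2 := dN_div E.b₂ E.b₄ E.b₆ E.b₈ u hD1
  rw [← hv'] at e1 e2
  have e3 := id3 E.b₂ E.b₄ E.b₆ E.b₈ u hb h4
  have e0 := id1 E.b₂ E.b₄ E.b₆ E.b₈ u
  have hpsi3 : dPsi3 E.b₂ E.b₄ E.b₆ E.b₈ u ≠ 0 := by
    intro h0
    rw [h0, neg_zero, sub_eq_zero, ← hX1] at e0
    exact huv (mul_right_cancel₀ hD1 e0).symm
  have : dPsi3 E.b₂ E.b₄ E.b₆ E.b₈ u * dPsi5 E.b₂ E.b₄ E.b₆ E.b₈ u = 0 := by
    have : dN2 E.b₂ E.b₄ E.b₆ E.b₈ u = u * dD E.b₂ E.b₄ E.b₆ u * dD2 E.b₂ E.b₄ E.b₆ E.b₈ u := by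
      rw [← e1, ← e2, ← hX2]; ring
    rw [this, sub_self] at e3
    linear_combination e3
  exact (mul_eq_zero.mp this).resolve_left hpsi3

end order5

section existence

lemma eval_preΨ'_five (E : WeierstrassCurve.Affine K) (x : K) :
    (E.preΨ' 5).eval x = dPsi5 E.b₂ E.b₄ E.b₆ E.b₈ x := by
  have h := E.preΨ'_odd 0
  simp only [zero_add, Nat.reduceMul, Nat.reduceAdd, preΨ'_four, preΨ'_two, one_pow, mul_one,
    Even.zero, if_true, preΨ'_one, preΨ'_three, one_mul] at h
  rw [h]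
  simp only [dPsi5, dPre4, dD, dPsi3, WeierstrassCurve.preΨ₄, WeierstrassCurve.Ψ₂Sq,
    WeierstrassCurve.Ψ₃, Polynomial.eval_sub, Polynomial.eval_mul, Polynomial.eval_pow,
    Polynomial.eval_add, Polynomial.eval_C, Polynomial.eval_X, Polynomial.eval_ofNat]

/-- every point on the curve: existence of `y` for a given `x` over an algebraically closed
field -/
lemma exists_equation [IsAlgClosed K] [CharZero K] (E : WeierstrassCurve.Affine K) (x : K) :
    ∃ y : K, E.Equation x y := by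
  obtain ⟨s, hs⟩ := IsAlgClosed.exists_pow_nat_eq (dD E.b₂ E.b₄ E.b₆ x) (n := 2) (by norm_num)
  refine ⟨(s - E.a₁ * x - E.a₃) / 2, ?_⟩
  rw [Affine.equation_iff]
  simp only [dD, WeierstrassCurve.b₂, WeierstrassCurve.b₄, WeierstrassCurve.b₆] at hs
  field_simp
  linear_combination hs

/-- key nonvanishing statements at a root of the `5`-division polynomial -/
lemma nonvanishing_of_dPsi5 [CharZero K] {x y : K} (h : E.Nonsingular x y)
    (h5 : dPsi5 E.b₂ E.b₄ E.b₆ E.b₈ x = 0) :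
    dD E.b₂ E.b₄ E.b₆ x ≠ 0 ∧ dPsi3 E.b₂ E.b₄ E.b₆ E.b₈ x ≠ 0 ∧
      dPre4 E.b₂ E.b₄ E.b₆ E.b₈ x ≠ 0 := by
  have h4 : (4:K) ≠ 0 := by norm_num
  have hb := E.b_relation
  have e0 := id1 E.b₂ E.b₄ E.b₆ E.b₈ x
  have e2 := id2 E.b₂ E.b₄ E.b₆ E.b₈ x hb h4
  rw [dPsi5, sub_eq_zero] at h5
  have hD : dD E.b₂ E.b₄ E.b₆ x ≠ 0 := by
    intro hD
    rw [hD] at h5
    have h3 : dPsi3 E.b₂ E.b₄ E.b₆ E.b₈ x = 0 := by
      have : (dPsi3 E.b₂ E.b₄ E.b₆ E.b₈ x)^3 = 0 := by rw [← h5]; ring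
      exact pow_eq_zero_iff (by norm_num) |>.mp this
    rw [h3, hD] at e0
    have hN : dN E.b₄ E.b₆ E.b₈ x = 0 := by linear_combination e0
    have hy : y - E.negY x y = 0 := by
      have := dD_eq E h.1
      rw [hD] at this
      exact pow_eq_zero_iff (by norm_num) |>.mp this.symm
    have hn := dN_eq E h.1
    rw [hN, hy] at hn
    have hn' : 3 * x ^ 2 + 2 * E.a₂ * x + E.a₄ - E.a₁ * y = 0 := by
      have : (3 * x ^ 2 + 2 * E.a₂ * x + E.a₄ - E.a₁ * y)^2 = 0 := by linear_combination -hn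
      exact pow_eq_zero_iff (by norm_num) |>.mp this
    rcases (Affine.nonsingular_iff x y).mp h with ⟨-, h' | h'⟩
    · exact h' (by linear_combination -hn')
    · exact h' (by simp only [Affine.negY] at hy; linear_combination hy)
  have h3 : dPsi3 E.b₂ E.b₄ E.b₆ E.b₈ x ≠ 0 := by
    intro h3
    rw [h3] at h5 e0
    have hp : dPre4 E.b₂ E.b₄ E.b₆ E.b₈ x = 0 := by
      have : dPre4 E.b₂ E.b₄ E.b₆ E.b₈ x * dD E.b₂ E.b₄ E.b₆ x ^ 2 = 0 := by rw [h5]; ring
      exact (mul_eq_zero.mp this).resolve_right (pow_ne_zero 2 hD)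
    rw [hp] at e2
    have hN : dN E.b₄ E.b₆ E.b₈ x = x * dD E.b₂ E.b₄ E.b₆ x := by linear_combination e0
    have : dD2 E.b₂ E.b₄ E.b₆ E.b₈ x = (dD E.b₂ E.b₄ E.b₆ x)^4 := by
      rw [dD2, hN]
      generalize hd : dD E.b₂ E.b₄ E.b₆ x = d
      simp only [dD] at hd
      rw [← hd]; ring
    rw [this] at e2
    exact pow_ne_zero 4 hD (by rw [e2]; ring)
  refine ⟨hD, h3, ?_⟩
  intro hp
  rw [hp] at h5
  apply h3
  have : (dPsi3 E.b₂ E.b₄ E.b₆ E.b₈ x)^3 = 0 := by rw [← h5]; ring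
  exact pow_eq_zero_iff (by norm_num) |>.mp this

/-- a root of the `5`-division polynomial is the `x`-coordinate of a point of order `5` -/
lemma order5_of_dPsi5 [CharZero K] {x y : K} (h : E.Nonsingular x y)
    (h5 : dPsi5 E.b₂ E.b₄ E.b₆ E.b₈ x = 0) :
    5 • (Point.some x y h) = 0 := by
  obtain ⟨hD, h3, hp⟩ := nonvanishing_of_dPsi5 h h5
  have h4 : (4:K) ≠ 0 := by norm_num
  have hb := E.b_relation
  have e0 := id1 E.b₂ E.b₄ E.b₆ E.b₈ x
  have e2 := id2 E.b₂ E.b₄ E.b₆ E.b₈ x hb h4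
  have e3 := id3 E.b₂ E.b₄ E.b₆ E.b₈ x hb h4
  set P : E.Point := Point.some x y h with hPdef
  have hP : P ≠ 0 := Point.some_ne_zero _
  have hxP : xc P = x := rfl
  have h2P : P + P ≠ 0 := add_self_ne_zero_of_dD_ne_zero hP (by rw [hxP]; exact hD)
  obtain ⟨-, hX1⟩ := xc_add_self hP h2P
  rw [hxP] at hX1
  set v := xc (P + P) with hv
  have hv' : v = dN E.b₄ E.b₆ E.b₈ x / dD E.b₂ E.b₄ E.b₆ x := by
    rw [eq_div_iff hD]; exact hX1
  have e1' := dD_div E.b₂ E.b₄ E.b₆ E.b₈ x hD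
  have e2' := dN_div E.b₂ E.b₄ E.b₆ E.b₈ x hD
  rw [← hv'] at e1' e2'
  have hDv : dD E.b₂ E.b₄ E.b₆ v ≠ 0 := by
    intro h0
    rw [h0, zero_mul, e2] at e1'
    exact hp (pow_eq_zero_iff (by norm_num) |>.mp e1'.symm)
  have h4P : (P + P) + (P + P) ≠ 0 := add_self_ne_zero_of_dD_ne_zero h2P hDv
  obtain ⟨-, hX2⟩ := xc_add_self h2P h4P
  rw [← hv] at hX2
  have hx4 : xc ((P + P) + (P + P)) = xc P := by
    rw [hxP]
    have hD3 : dD E.b₂ E.b₄ E.b₆ x ^ 3 ≠ 0 := pow_ne_zero 3 hD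
    apply mul_right_cancel₀ hDv
    apply mul_right_cancel₀ (pow_ne_zero 4 hD)
    rw [hX2, e2']
    rw [h5, mul_zero, sub_eq_zero] at e3
    rw [e3, ← e1']; ring
  rcases eq_or_eq_neg_of_xc_eq h4P hP hx4 with h' | h'
  · -- 4P = P, so 3P = 0, so 2P = -P
    exfalso
    have h3P : P + P = -P := by
      have e : (P + P + P) + P = 0 + P := by
        rw [zero_add]
        exact (by abel : P + P + P + P = P + P + (P + P)).trans h'
      have := add_right_cancel e
      exact eq_neg_of_add_eq_zero_left this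
    have : v = x := by rw [hv, h3P, xc_neg, hxP]
    rw [this] at hX1
    rw [← hX1, sub_self] at e0
    exact h3 (by linear_combination e0)
  · have : 5 • P = (P + P) + (P + P) + P := by
      simp only [succ_nsmul, zero_nsmul, zero_add]; abel
    rw [this, h', neg_add_cancel]

/-- over an algebraically closed field of characteristic `0`, an elliptic curve has a point of
order `5` -/
theorem exists_order5 [IsAlgClosed K] [CharZero K] (E : WeierstrassCurve.Affine K)
    [E.IsElliptic] : ∃ P : E.Point, P ≠ 0 ∧ 5 • P = 0 := by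
  have h5K : ((5 : ℕ) : K) ≠ 0 := by norm_num
  have hdeg : (E.preΨ' 5).degree ≠ 0 := by
    have := E.natDegree_preΨ' h5K
    have hne := E.preΨ'_ne_zero h5K
    rw [Polynomial.degree_eq_natDegree hne, this]
    norm_num [Nat.not_even_iff_odd.mpr (by decide : Odd 5)]
  obtain ⟨x, hx⟩ := IsAlgClosed.exists_root (E.preΨ' 5) hdeg
  rw [Polynomial.IsRoot.def, eval_preΨ'_five] at hx
  obtain ⟨y, hy⟩ := exists_equation E x
  have hns : E.Nonsingular x y := Affine.equation_iff_nonsingular.mp hy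
  exact ⟨Point.some x y hns, Point.some_ne_zero _, order5_of_dPsi5 hns hx⟩

end existence

section counting

variable [CharZero K]

lemma isRoot_of_order5 {P : E.Point} (hP : P ≠ 0) (h5 : 5 • P = 0) :
    (E.preΨ' 5).IsRoot (xc P) := by
  rw [Polynomial.IsRoot.def, eval_preΨ'_five]
  exact dPsi5_eq_zero_of_order5 hP h5

open Classical in
/-- a finite set containing all nonzero points with a given set of `x`-coordinates -/
noncomputable def pointsOver (E : WeierstrassCurve.Affine K) (R : Finset K) : Finset E.Point :=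
  R.biUnion fun a =>
    if h : ∃ Q : E.Point, Q ≠ 0 ∧ xc Q = a then {Classical.choose h, -Classical.choose h} else ∅

lemma card_pointsOver_le (E : WeierstrassCurve.Affine K) (R : Finset K) :
    (pointsOver E R).card ≤ R.card * 2 := by
  classical
  unfold pointsOver
  apply Finset.card_biUnion_le_card_mul
  intro a _
  split_ifs with h
  · exact Finset.card_le_two
  · simp

lemma mem_pointsOver {R : Finset K} {P : E.Point} (hP : P ≠ 0) (hx : xc P ∈ R) :
    P ∈ pointsOver E R := by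
  classical
  unfold pointsOver
  rw [Finset.mem_biUnion]
  refine ⟨xc P, hx, ?_⟩
  have h : ∃ Q : E.Point, Q ≠ 0 ∧ xc Q = xc P := ⟨P, hP, rfl⟩
  rw [dif_pos h]
  obtain ⟨hQ0, hQx⟩ := Classical.choose_spec h
  rcases eq_or_eq_neg_of_xc_eq hP hQ0 hQx.symm with h' | h'
  · rw [Finset.mem_insert]; exact Or.inl h'
  · rw [Finset.mem_insert, Finset.mem_singleton]; exact Or.inr h'

/-- the finite set of candidates for the `5`-torsion points -/
noncomputable def fiveCandidates (E : WeierstrassCurve.Affine K) : Finset E.Point :=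
  insert 0 (pointsOver E (E.preΨ' 5).roots.toFinset)

lemma card_fiveCandidates_le (E : WeierstrassCurve.Affine K) : (fiveCandidates E).card ≤ 25 := by
  classical
  have h5K : ((5 : ℕ) : K) ≠ 0 := by norm_num
  have hdeg : (E.preΨ' 5).natDegree = 12 := by
    rw [E.natDegree_preΨ' h5K]
    norm_num [Nat.not_even_iff_odd.mpr (by decide : Odd 5)]
  have h1 : (E.preΨ' 5).roots.toFinset.card ≤ 12 := by
    calc (E.preΨ' 5).roots.toFinset.card ≤ Multiset.card (E.preΨ' 5).roots :=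
          Multiset.toFinset_card_le _
      _ ≤ (E.preΨ' 5).natDegree := Polynomial.card_roots' _
      _ = 12 := hdeg
  calc (fiveCandidates E).card ≤ (pointsOver E (E.preΨ' 5).roots.toFinset).card + 1 :=
        Finset.card_insert_le _ _
    _ ≤ (E.preΨ' 5).roots.toFinset.card * 2 + 1 :=
        Nat.add_le_add_right (card_pointsOver_le E _) 1
    _ ≤ 25 := by omega

lemma mem_fiveCandidates {P : E.Point} (h5 : 5 • P = 0) : P ∈ fiveCandidates E := by
  classical
  have h5K : ((5 : ℕ) : K) ≠ 0 := by norm_num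
  unfold fiveCandidates
  by_cases hP : P = 0
  · rw [hP]; exact Finset.mem_insert_self _ _
  · apply Finset.mem_insert_of_mem
    apply mem_pointsOver hP
    rw [Multiset.mem_toFinset, Polynomial.mem_roots (E.preΨ'_ne_zero h5K)]
    exact isRoot_of_order5 hP h5

end counting

end Fermat.Agent.S51.Five

end
-- ===== PACK-END S51/FiveTorsion.lean

-- ===== PACK-BEGIN Lib/Frob/Interfaces.lean
section


/-!
# Shared library `Frob` — second-level FROZEN interfaces (row S52, row-lead helper472)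

`FrobRelation ⇐ FrobRelationFin ∧ ReductionData`   (proved in `Glue.lean`).

* `FrobRelationFin` (piece A2): over `𝔽_ℓ`, `ℓ ≥ 5`:  `Φ² − a·Φ + ℓ = 0` on `E(k)` for every field
  `k ⊇ 𝔽_ℓ`, where `Φ` is the `ℓ`-power Frobenius on coordinates and `a = ℓ + 1 − #E(𝔽_ℓ)`.
* `ReductionData` (piece A1): reduction of prime-to-`ℓ` torsion at a valuation subring of `ℚ̄` above a
  good prime `ℓ` is an injective additive map into the points of the reduced curve over the residue
  field, intertwining a Frobenius element with `Φ`.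
No `sorry` in this file (definitions only).
-/

set_option autoImplicit false

open WeierstrassCurve WeierstrassCurve.Affine WeierstrassCurve.Affine.Point

namespace Fermat.Agent.Lib.Frob

/-- The `ℓ`-power Frobenius endomorphism of the group `E(k)`, `k ⊇ 𝔽_ℓ`. -/
noncomputable def frobPt (ℓ : ℕ) [Fact ℓ.Prime] (E : WeierstrassCurve (ZMod ℓ))
    (k : Type) [Field k] [Algebra (ZMod ℓ) k] [DecidableEq k] :
    (E⁄k).Point →+ (E⁄k).Point :=
  Point.map (W' := E) (FiniteField.frobeniusAlgHom (ZMod ℓ) k)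

/-- **Piece A2 (Hasse–Weil relation over `𝔽_ℓ`).** -/
def FrobRelationFin : Prop :=
  ∀ (ℓ : ℕ) [Fact ℓ.Prime], 5 ≤ ℓ → ∀ (E : WeierstrassCurve (ZMod ℓ)), E.Δ ≠ 0 →
    ∀ (k : Type) [Field k] [Algebra (ZMod ℓ) k] [DecidableEq k] (P : (E⁄k).Point),
      frobPt ℓ E k (frobPt ℓ E k P) - E.traceOfFrobenius • frobPt ℓ E k P + (ℓ : ℤ) • P = 0

/-- **Piece A1 (reduction of torsion).**  For `ℓ` prime, `W` good at `ℓ`, `A` a valuation subring of
`ℚ̄` over `ℓ`, `σ` a Frobenius at `A`, `n > 0` prime to `ℓ`: there are a field `k` of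
characteristic `ℓ` and an injective additive map `red : W[n](ℚ̄) → (W mod ℓ)(k)` with
`red (σ • P) = Φ (red P)`. -/
def ReductionData : Prop :=
  ∀ (W : WeierstrassCurve ℤ) (ℓ : ℕ) [Fact ℓ.Prime], W.IsGoodPrimeFor ℓ →
    ∀ (A : ValuationSubring Qb) (σ : Qb ≃ₐ[ℚ] Qb), A.LiesOverPrime ℓ → A.IsFrobeniusAt σ ℓ →
      ∀ (n : ℕ), 0 < n → ¬ ℓ ∣ n →
        ∃ (k : Type) (_ : Field k) (_ : Algebra (ZMod ℓ) k) (_ : DecidableEq k)
          (red : Submodule.torsionBy ℤ (Pts W) n →+ ((W.reductionMod ℓ)⁄k).Point),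
          Function.Injective red ∧
          ∀ P : Submodule.torsionBy ℤ (Pts W) n,
            red (σ • P) = frobPt ℓ (W.reductionMod ℓ) k (red P)

end Fermat.Agent.Lib.Frob

end
-- ===== PACK-END Lib/Frob/Interfaces.lean

-- ===== PACK-BEGIN Lib/VC/BaseChange.lean
section


/-!
# Shared lib `VC`: change of variables on points, base-changed version and naturality

For `W : WeierstrassCurve k`, `C : VariableChange k` and a field `F` over `k` we get
`vcPointBC : ((C • W)⁄F).Point ≃+ (W⁄F).Point`, natural in `F` (`Point.map`).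
Consequences: equality of point counts, and transfer of any relation between `Point.map f`'s
(e.g. the Frobenius relation `Φ² − aΦ + ℓ = 0`) from `C • W` to `W`.

(helper240)
-/

set_option autoImplicit false
set_option linter.unusedSectionVars false

namespace Fermat.Agent.Lib.VC

open WeierstrassCurve WeierstrassCurve.Affine

section congr

variable {F : Type*} [Field F] [DecidableEq F]

/-- Transport of points along an equality of curves. -/
def pointCongr {W₁ W₂ : WeierstrassCurve F} (h : W₁ = W₂) :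
    W₁.toAffine.Point ≃+ W₂.toAffine.Point := by
  subst h
  exact AddEquiv.refl _

theorem pointCongr_zero {W₁ W₂ : WeierstrassCurve F} (h : W₁ = W₂) :
    pointCongr h (0 : W₁.toAffine.Point) = 0 := by
  subst h; rfl

theorem pointCongr_some {W₁ W₂ : WeierstrassCurve F} (h : W₁ = W₂) {x y : F}
    (hxy : W₁.toAffine.Nonsingular x y) :
    pointCongr h (Point.some x y hxy) = Point.some x y (h ▸ hxy) := by
  subst h; rfl

end congr

section baseChange

variable {k : Type*} [CommRing k] (W : WeierstrassCurve k) (C : VariableChange k)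
variable (F : Type*) [Field F] [Algebra k F] [DecidableEq F]
variable (K : Type*) [Field K] [Algebra k K] [DecidableEq K]

theorem baseChange_smul :
    (C.baseChange F) • (W.baseChange F) = (C • W).baseChange F :=
  map_variableChange W C (algebraMap k F)

/-- The change of variables on `F`-points, for a curve and a change of variables defined
over `k`. -/
noncomputable def vcPointBC : ((C • W)⁄F).Point ≃+ (W⁄F).Point :=
  (pointCongr (baseChange_smul W C F).symm).trans (vcPoint (W.baseChange F) (C.baseChange F))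

theorem vcPointBC_zero : vcPointBC W C F 0 = 0 := by
  simp [vcPointBC, pointCongr_zero]

theorem vcPointBC_some {x y : F} (h : ((C • W)⁄F).Nonsingular x y) :
    ∃ h' : (W⁄F).Nonsingular (vcX (C.baseChange F) x) (vcY (C.baseChange F) x y),
      vcPointBC W C F (Point.some x y h) = Point.some _ _ h' := by
  refine ⟨?_, ?_⟩
  · exact (nonsingular_smul_iff (W.baseChange F) (C.baseChange F) x y).mp
      ((baseChange_smul W C F).symm ▸ h)
  · simp only [vcPointBC, AddEquiv.trans_apply, pointCongr_some, vcPoint_some]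

variable {F K}

theorem map_vcX (f : F →ₐ[k] K) (x : F) :
    f (vcX (C.baseChange F) x) = vcX (C.baseChange K) (f x) := by
  simp only [vcX, VariableChange.baseChange, VariableChange.map, Units.coe_map,
    MonoidHom.coe_coe, map_add, map_mul, map_pow, AlgHom.commutes]

theorem map_vcY (f : F →ₐ[k] K) (x y : F) :
    f (vcY (C.baseChange F) x y) = vcY (C.baseChange K) (f x) (f y) := by
  simp only [vcY, VariableChange.baseChange, VariableChange.map, Units.coe_map,
    MonoidHom.coe_coe, map_add, map_mul, map_pow, AlgHom.commutes]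

/-- **Naturality** of the change of variables on points. -/
theorem map_vcPointBC (f : F →ₐ[k] K) (P : ((C • W)⁄F).Point) :
    Point.map (W' := W) f (vcPointBC W C F P)
      = vcPointBC W C K (Point.map (W' := C • W) f P) := by
  rcases P with _ | ⟨x, y, h⟩
  · change Point.map (W' := W) f (vcPointBC W C F 0)
      = vcPointBC W C K (Point.map (W' := C • W) f 0)
    rw [vcPointBC_zero, map_zero, map_zero, vcPointBC_zero]
  · obtain ⟨h', e⟩ := vcPointBC_some W C F h
    rw [e, Point.map_some, Point.map_some]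
    obtain ⟨h'', e'⟩ := vcPointBC_some W C K
      ((WeierstrassCurve.Affine.baseChange_nonsingular (C • W) f.injective x y).mpr h)
    rw [e']
    simp only [Point.some.injEq]
    exact ⟨map_vcX C f x, map_vcY C f x y⟩

/-- The inverse direction of naturality. -/
theorem map_vcPointBC_symm (f : F →ₐ[k] K) (Q : (W⁄F).Point) :
    Point.map (W' := C • W) f ((vcPointBC W C F).symm Q)
      = (vcPointBC W C K).symm (Point.map (W' := W) f Q) := by
  apply (vcPointBC W C K).injective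
  rw [← map_vcPointBC, AddEquiv.apply_symm_apply, AddEquiv.apply_symm_apply]

variable (F)

/-- Point counts agree. -/
theorem natCard_point_smul :
    Nat.card ((C • W)⁄F).Point = Nat.card (W⁄F).Point :=
  Nat.card_congr (vcPointBC W C F).toEquiv

variable {F}

/-- **Transfer of a quadratic relation** for an endomorphism of the form `Point.map f`
(e.g. Frobenius) from `C • W` to `W`. -/
theorem relation_transfer (f : F →ₐ[k] F) (a b : ℤ)
    (h : ∀ P : ((C • W)⁄F).Point,
      Point.map (W' := C • W) f (Point.map (W' := C • W) f P)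
        - a • Point.map (W' := C • W) f P + b • P = 0)
    (Q : (W⁄F).Point) :
    Point.map (W' := W) f (Point.map (W' := W) f Q)
      - a • Point.map (W' := W) f Q + b • Q = 0 := by
  obtain ⟨P, rfl⟩ := (vcPointBC W C F).surjective Q
  have := congrArg (vcPointBC W C F) (h P)
  rw [map_zero, map_add, map_sub, map_zsmul, map_zsmul, ← map_vcPointBC, ← map_vcPointBC] at this
  exact this

end baseChange

end Fermat.Agent.Lib.VC

end
-- ===== PACK-END Lib/VC/BaseChange.lean

-- ===== PACK-BEGIN Lib/Cheb/H221/CycSpec.lean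
section



/-!
# CYC (helper221): internal interface statements for
`PrimeSum + Count + Frob + FrobFinite + DirichletLimit ⇒ CycStatement`

Definitions and `Prop`s only.
-/

set_option autoImplicit false

open NumberField IsDedekindDomain Filter Topology
open Fermat.Agent.Lib.Cheb

namespace Fermat.Agent.Lib.Cheb.H221

/-- (EP) twisted Euler product -/
def EulerProductStatement : Prop :=
  ∀ (F : Type) [Field F] [NumberField F] (m : ℕ) [NeZero m] (χ : DirichletCharacter ℂ m)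
    (s : ℝ), 1 < s →
    HasProd (fun 𝔭 : HeightOneSpectrum (𝓞 F) =>
      (1 - χ (Ideal.absNorm 𝔭.asIdeal : ZMod m) *
        (((Ideal.absNorm 𝔭.asIdeal : ℝ) ^ (-s) : ℝ) : ℂ))⁻¹)
      (LSeries (fun n => χ (n : ZMod m) * (Spec.idealCount F n : ℂ)) (s : ℂ))

/-- (DEG) twisted prime-ideal sums versus twisted sums over rational primes -/
def TwistedPrimeSumStatement : Prop :=
  Spec.PrimeSumStatement →
  ∀ (F : Type) [Field F] [NumberField F] (m : ℕ) [NeZero m] (χ : DirichletCharacter ℂ m),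
    ∃ C : ℝ, ∀ s : ℝ, 1 < s → s ≤ 2 →
      Summable (fun p : Nat.Primes => (Spec.primeCount F p : ℝ) * (p : ℝ) ^ (-s)) ∧
      ‖(∑' 𝔭 : HeightOneSpectrum (𝓞 F), χ (Ideal.absNorm 𝔭.asIdeal : ZMod m) *
          (((Ideal.absNorm 𝔭.asIdeal : ℝ) ^ (-s) : ℝ) : ℂ)) -
        ∑' p : Nat.Primes, χ ((p : ℕ) : ZMod m) *
          (((Spec.primeCount F p : ℝ) * (p : ℝ) ^ (-s) : ℝ) : ℂ)‖ ≤ C

/-- (ABS) abstract Dirichlet lemma -/
def AbstractDirichletStatement : Prop :=
  ∀ (m : ℕ) [NeZero m] (c : Nat.Primes → ℝ), (∀ p, 0 ≤ c p) →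
    (∀ s : ℝ, 1 < s → s ≤ 2 → Summable (fun p : Nat.Primes => c p * (p : ℝ) ^ (-s))) →
    ∀ A : Subgroup (ZMod m)ˣ,
    (∃ B : Finset ℕ, ∀ p : Nat.Primes, (p : ℕ) ∉ B → c p ≠ 0 →
      ∃ u ∈ A, ((u : (ZMod m)ˣ) : ZMod m) = ((p : ℕ) : ZMod m)) →
    (∃ C : ℝ, ∀ s : ℝ, 1 < s → s ≤ 2 →
      |(∑' p : Nat.Primes, c p * (p : ℝ) ^ (-s)) - Real.log (1 / (s - 1))| ≤ C) →
    (∃ C : ℝ, ∀ s : ℝ, 1 < s → s ≤ 2 →
      (Nat.card A : ℝ)⁻¹ * Real.log (1 / (s - 1)) - C ≤
        ∑' p : Nat.Primes, if ((p : ℕ) : ZMod m) = 1 then c p * (p : ℝ) ^ (-s) else 0) →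
    (∀ χ : DirichletCharacter ℂ m, (∃ u ∈ A, χ ((u : (ZMod m)ˣ) : ZMod m) ≠ 1) →
      ∃ (Λ : ℝ → ℂ) (ℓ : ℂ) (C : ℝ), ContinuousOn Λ (Set.Ioi 1) ∧
        Tendsto (fun s => Complex.exp (Λ s)) (𝓝[>] 1) (𝓝 ℓ) ∧
        ∀ s : ℝ, 1 < s → s ≤ 2 →
          ‖Λ s - ∑' p : Nat.Primes, χ ((p : ℕ) : ZMod m) * ((c p * (p : ℝ) ^ (-s) : ℝ) : ℂ)‖ ≤ C) →
    ∀ a ∈ A, ∀ S : Finset ℕ, ∃ p : Nat.Primes, (p : ℕ) ∉ S ∧
      ((p : ℕ) : ZMod m) = ((a : (ZMod m)ˣ) : ZMod m) ∧ c p ≠ 0

section alg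

variable (L : Type) [Field L] [NumberField L] [IsGalois ℚ L]

/-- the fixed field of `⟨g⟩` -/
abbrev fixM (g : L ≃ₐ[ℚ] L) : IntermediateField ℚ L :=
  IntermediateField.fixedField (Subgroup.zpowers g)

/-- the fixed field of the trivial group (a copy of `L`) -/
abbrev fixBot : IntermediateField ℚ L :=
  IntermediateField.fixedField (⊥ : Subgroup (L ≃ₐ[ℚ] L))

/-- (ALG) the algebraic input of CYC, in the situation of `Spec.CycStatement` -/
def CycAlgStatement : Prop :=
  Spec.CountStatement → Spec.FrobStatement → Spec.FrobFiniteStatement →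
  ∀ (L : Type) [Field L] [NumberField L] [IsGalois ℚ L] (m : ℕ) [NeZero m] (ζ : L)
    (hζ : IsPrimitiveRoot ζ m) (g : L ≃ₐ[ℚ] L), (∀ k : ℕ, (g ^ k) ζ = ζ → g ^ k = 1) →
    Nat.card (Subgroup.zpowers (hζ.autToPow ℚ g)) = orderOf g ∧
    ∃ B : Finset ℕ,
      -- (SUPP)
      (∀ p : ℕ, p.Prime → p ∉ B → Spec.primeCount (fixM L g) p ≠ 0 →
        ∃ u ∈ Subgroup.zpowers (hζ.autToPow ℚ g), ((u : (ZMod m)ˣ) : ZMod m) = (p : ZMod m)) ∧
      -- (SPLIT)
      (∀ p : ℕ, p.Prime → p ∉ B →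
        Spec.primeCount (fixBot L) p =
          if (p : ZMod m) = 1 then orderOf g * Spec.primeCount (fixM L g) p else 0) ∧
      -- (NT)
      (∀ χ : DirichletCharacter ℂ m, χ ((hζ.autToPow ℚ g : (ZMod m)ˣ) : ZMod m) ≠ 1 →
        ∃ I : Ideal (𝓞 (fixM L g)), χ (Ideal.absNorm I : ZMod m) ≠ 0 ∧
          χ (Ideal.absNorm I : ZMod m) ≠ 1) ∧
      -- (FIN)
      (∀ p : ℕ, p.Prime → p ∉ B → Spec.primeCount (fixM L g) p ≠ 0 →
        (p : ZMod m) = ((hζ.autToPow ℚ g : (ZMod m)ˣ) : ZMod m) →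
        ∃ P : Ideal (𝓞 L), P.IsPrime ∧ (p : 𝓞 L) ∈ P ∧ Spec.InertiaTrivial L P ∧
          IsArithFrobAt ℤ g P)

end alg

end Fermat.Agent.Lib.Cheb.H221

end
-- ===== PACK-END Lib/Cheb/H221/CycSpec.lean

-- ===== PACK-BEGIN Lib/Cheb/H341/Main.lean
section



/-!
# CHEB piece M (helper341): `FrobFiniteStatement` from `Z`, `B0`, `A`, `D`

`frobFinite : PrimeSumStatement → PrimeCountBoundStatement → CountStatement → FrobStatement →
FrobFiniteStatement`, in the exact shapes of `Fermat/Agent/Lib/Cheb/Spec.lean`.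
-/

set_option autoImplicit false

namespace Fermat.Agent.Lib.Cheb.H341

open NumberField Finset
open Fermat.Agent.Lib.Cheb

section

variable (L : Type) [Field L] [NumberField L]

/-- The primes of `𝓞 L` containing `p` with decomposition group exactly `X`. -/
def primesEq (X : Subgroup (L ≃ₐ[ℚ] L)) (p : ℕ) : Set (Ideal (𝓞 L)) :=
  {P | P.IsPrime ∧ (p : 𝓞 L) ∈ P ∧ Spec.decomp L P = X}

theorem primesAbove_finite {p : ℕ} (hp : p.Prime) :
    {P : Ideal (𝓞 L) | P.IsPrime ∧ (p : 𝓞 L) ∈ P}.Finite := by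
  have : Fact p.Prime := ⟨hp⟩
  have := Int.ideal_span_isMaximal_of_prime p
  refine (IsDedekindDomain.primesOver_finite (Ideal.span {(p : ℤ)}) (𝓞 L)).subset ?_
  rintro P ⟨hP, hpP⟩
  refine ⟨hP, ?_⟩
  rw [Ideal.liesOver_iff]
  refine Ideal.IsMaximal.eq_of_le inferInstance ?_ ?_
  · have := hP
    exact (Ideal.IsPrime.under ℤ P).ne_top
  · rw [Ideal.span_le, Set.singleton_subset_iff]
    change (p : ℤ) ∈ Ideal.comap (algebraMap ℤ (𝓞 L)) P
    rw [Ideal.mem_comap]
    simpa using hpP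

theorem primesEq_finite (X : Subgroup (L ≃ₐ[ℚ] L)) {p : ℕ} (hp : p.Prime) :
    (primesEq L X p).Finite :=
  (primesAbove_finite L hp).subset (fun _ hP => ⟨hP.1, hP.2.1⟩)

/-- `a_X(p) = ∑_{P ∣ p, D_P = X} |D_P|`. -/
noncomputable def aCoef (X : Subgroup (L ≃ₐ[ℚ] L)) (p : ℕ) : ℕ :=
  ∑ᶠ P ∈ primesEq L X p, Nat.card (Spec.decomp L P)

theorem decompWeight_eq_sum (H : Subgroup (L ≃ₐ[ℚ] L)) {p : ℕ} (hp : p.Prime) :
    Spec.decompWeight L H p = ∑ X ∈ subLe H, aCoef L X p := by
  unfold Spec.decompWeight aCoef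
  rw [finsum_set_coe_eq_finsum_mem (f := fun P : Ideal (𝓞 L) => Nat.card (Spec.decomp L P))
    (Spec.primesLe L H p)]
  have hU : Spec.primesLe L H p = ⋃ X ∈ (subLe H : Set (Subgroup (L ≃ₐ[ℚ] L))), primesEq L X p := by
    ext P
    simp only [Spec.primesLe, primesEq, Set.mem_ofPred_eq, Set.mem_iUnion, Finset.mem_coe,
      mem_subLe, exists_prop]
    constructor
    · rintro ⟨h1, h2, h3⟩
      exact ⟨Spec.decomp L P, h3, h1, h2, rfl⟩
    · rintro ⟨X, hX, h1, h2, rfl⟩
      exact ⟨h1, h2, hX⟩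
  rw [hU, finsum_mem_biUnion]
  · rw [finsum_mem_coe_finset]
  · intro X _ Y _ hXY
    rw [Function.onFun, Set.disjoint_left]
    intro P hPX hPY
    exact hXY (hPX.2.2.symm.trans hPY.2.2)
  · exact (subLe H).finite_toSet
  · intro X _
    exact primesEq_finite L X hp

theorem exists_of_aCoef_ne_zero {X : Subgroup (L ≃ₐ[ℚ] L)} {p : ℕ} (h : aCoef L X p ≠ 0) :
    ∃ P : Ideal (𝓞 L), P.IsPrime ∧ (p : 𝓞 L) ∈ P ∧ Spec.decomp L P = X := by
  by_contra hcon
  push Not at hcon
  apply h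
  unfold aCoef
  refine finsum_mem_eq_zero_of_forall_eq_zero (fun P hP => ?_)
  exact absurd hP.2.2 (hcon P hP.1 hP.2.1)

end

/-- **Piece M.** -/
theorem frobFinite (hZ : Spec.PrimeSumStatement) (hB0 : Spec.PrimeCountBoundStatement)
    (hA : Spec.CountStatement) (hD : Spec.FrobStatement) : Spec.FrobFiniteStatement := by
  classical
  intro L _ _ _ σ S
  -- the bad sets
  obtain ⟨BD, hBD⟩ := hD L
  choose BA hBA using hA L
  set B : Finset ℕ := S ∪ BD ∪ (subLe (⊤ : Subgroup (L ≃ₐ[ℚ] L))).biUnion BA with hB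
  have hBS : ∀ p, p ∉ B → p ∉ S := fun p hp hpS =>
    hp (mem_union_left _ (mem_union_left _ hpS))
  have hBBD : ∀ p, p ∉ B → p ∉ BD := fun p hp hpS =>
    hp (mem_union_left _ (mem_union_right _ hpS))
  have hBBA : ∀ p, p ∉ B → ∀ H, p ∉ BA H := fun p hp H hpS =>
    hp (mem_union_right _ (mem_biUnion.mpr ⟨H, by simp, hpS⟩))
  -- coefficient functions
  set g : Subgroup (L ≃ₐ[ℚ] L) → Nat.Primes → ℝ :=
    fun X p => if (p : ℕ) ∈ B then 0 else (aCoef L X p : ℝ) with hg
  set f : Subgroup (L ≃ₐ[ℚ] L) → Nat.Primes → ℝ :=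
    fun H p => if (p : ℕ) ∈ B then 0
      else (Spec.primeCount (IntermediateField.fixedField H) p : ℝ) with hf
  -- (i)
  have hi : ∀ H p, ∑ X ∈ subLe H, g X p = (Nat.card H : ℝ) * f H p := by
    intro H p
    by_cases hp : (p : ℕ) ∈ B
    · simp [hg, hf, hp]
    · simp only [hg, hf, hp, if_false]
      have h1 := hBA H p p.2 (hBBA p hp H)
      rw [decompWeight_eq_sum L H p.2] at h1
      have h2 : ((∑ X ∈ subLe H, aCoef L X p : ℕ) : ℝ) =
          ((Spec.primeCount (IntermediateField.fixedField H) p * Nat.card H : ℕ) : ℝ) := by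
        rw [h1]
      push_cast at h2
      rw [h2]
      ring
  -- (ii)
  have hfb : ∀ H, Bdd (f H) := by
    intro H
    refine ⟨(Module.finrank ℚ (IntermediateField.fixedField H) : ℝ), fun p => ?_⟩
    simp only [hf]
    split_ifs
    · simp
    · rw [abs_of_nonneg (Nat.cast_nonneg _)]
      exact_mod_cast hB0 (IntermediateField.fixedField H) p
  -- (iii)
  have hfn : ∀ H, Near (f H) 1 := by
    intro H
    obtain ⟨C, hC⟩ := hZ (IntermediateField.fixedField H)
    have hb0 : Bdd (fun p : Nat.Primes =>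
        (Spec.primeCount (IntermediateField.fixedField H) p : ℝ)) := by
      refine ⟨(Module.finrank ℚ (IntermediateField.fixedField H) : ℝ), fun p => ?_⟩
      beta_reduce
      rw [abs_of_nonneg (Nat.cast_nonneg _)]
      exact_mod_cast hB0 (IntermediateField.fixedField H) p
    have hn0 : Near (fun p : Nat.Primes =>
        (Spec.primeCount (IntermediateField.fixedField H) p : ℝ)) 1 := by
      refine ⟨C, fun s hs hs2 => ?_⟩
      have := hC s hs hs2
      simpa [pSum, ell] using this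
    refine Near.congr_off_finite hb0 hn0 (Finset.subtype Nat.Prime B) (fun p hp => ?_)
    have hp' : (p : ℕ) ∉ B := by
      intro h
      exact hp (Finset.mem_subtype.mpr h)
    simp [hf, hp']
  -- (iv)
  have hgnn : ∀ X p, 0 ≤ g X p := by
    intro X p
    simp only [hg]
    split_ifs
    · exact le_refl _
    · exact Nat.cast_nonneg _
  have hgb : ∀ X, Bdd (g X) := by
    intro X
    obtain ⟨K, hK⟩ := hfb ⊤
    refine ⟨(Nat.card (⊤ : Subgroup (L ≃ₐ[ℚ] L)) : ℝ) * K, fun p => ?_⟩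
    rw [abs_of_nonneg (hgnn X p)]
    have h1 : g X p ≤ ∑ Y ∈ subLe (⊤ : Subgroup (L ≃ₐ[ℚ] L)), g Y p :=
      single_le_sum (f := fun Y => g Y p) (fun Y _ => hgnn Y p) (by simp)
    rw [hi] at h1
    refine h1.trans ?_
    exact mul_le_mul_of_nonneg_left ((le_abs_self _).trans (hK p)) (Nat.cast_nonneg _)
  -- (v)
  have hv : ∀ H : Subgroup (L ≃ₐ[ℚ] L),
      Near (fun p => ∑ X ∈ subLe H, g X p) (Nat.card H) := by
    intro H
    have := (hfn H).const_mul (Nat.card H : ℝ)
    rw [mul_one] at this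
    have e : (fun p => ∑ X ∈ subLe H, g X p) = fun p => (Nat.card H : ℝ) * f H p := by
      funext p
      exact hi H p
    rw [e]
    exact this
  -- (vi)
  have hmain := near_psi_of_near_card g hgb hv (Subgroup.zpowers σ)
  have hpos : ((psi (Subgroup.zpowers σ) : ℕ) : ℝ) ≠ 0 := by
    have := psi_zpowers_pos σ
    positivity
  obtain ⟨p, hp⟩ := hmain.exists_ne_zero hpos
  have hpB : (p : ℕ) ∉ B := by
    intro h
    apply hp
    simp [hg, h]
  have hne : aCoef L (Subgroup.zpowers σ) p ≠ 0 := by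
    intro h
    apply hp
    simp [hg, hpB, h]
  obtain ⟨P, hP, hpP, hDP⟩ := exists_of_aCoef_ne_zero L hne
  obtain ⟨hin, τ, hτ, hτD⟩ := hBD p p.2 (hBBD p hpB) P hP hpP
  exact ⟨p, P, τ, p.2, hBS p hpB, hP, hpP, hin, hτ, by rw [← hτD, hDP]⟩

end Fermat.Agent.Lib.Cheb.H341

end
-- ===== PACK-END Lib/Cheb/H341/Main.lean

-- ===== PACK-BEGIN Ribet/Spec2.lean
section


/-!
# Row RIBET: interface statements, second instalment (board v2, helper943)

`Spec.lean` is frozen on main.  This file adds the corrected / weakened forms agreed with the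
rows that deliver them.  All definitions are `Prop`s; no proofs.

* `EigenformOfOccursAwayStatement` (R3S): R3 only for `S ⊇ {primes dividing M·p}` (the Kummer-Hecke
  dictionary of the S29 tower exists only away from `M·p`).
* `TraceFormulaFreyStatement` (TF-Frey): the trace formula for the Frey curve and `n = p` only
  (the general form needs `det = cyclotomic` for all curves).
* `AtPOccursStatement`, `AtQOccursStatement`: the two Mazur walls in SUPPORT form (no embedding
  of the abelian part is asked for).  `AtPOccursStatement` is verbatim the statement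
  `Fermat.Agent.Ribet.H884.AtPOccursStatement`.
-/

set_option autoImplicit false

open WeierstrassCurve WeierstrassCurve.Affine WeierstrassCurve.Affine.Point
open CuspForm ModularFormClass UpperHalfPlane ModularCurve

namespace Fermat.Agent.Ribet.Spec

/-- (R3S) [row S29: architect helper201]  An eigensystem occurring in `J₀(M)[p]` away from a
finite set `S` **containing all primes dividing `M·p`** is the reduction of a normalised
eigenform of level `M` (congruence for the primes outside `S`). -/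
def EigenformOfOccursAwayStatement : Prop :=
  ∀ (M p : ℕ) [NeZero M], p.Prime → ∀ (S : Finset ℕ) (a : ℕ → ℤ),
    (∀ ℓ : ℕ, ℓ.Prime → ℓ ∣ M * p → ℓ ∈ S) → OccursIn M p S a →
    ∃ (g : CuspForm (CongruenceSubgroup.Gamma0 M) 2) (𝔪 : Ideal (integralClosure ℤ ℂ)),
      g.IsNormalizedEigenform ∧ 𝔪.IsMaximal ∧ (p : integralClosure ℤ ℂ) ∈ 𝔪 ∧
      ∀ ℓ : ℕ, ℓ.Prime → ℓ ∉ S →
        ∃ b : integralClosure ℤ ℂ, (b : ℂ) = qCoeff g ℓ ∧
          b - ((a ℓ : ℤ) : integralClosure ℤ ℂ) ∈ 𝔪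

/-- (TF-Frey)  Trace formula for the Frey curve at `n = p`. -/
def TraceFormulaFreyStatement : Prop :=
  ∀ (P : FreyPackage) (W : WeierstrassCurve ℤ), W.IsIntegralModelOf P.freyCurve →
    ∀ (ℓ : ℕ), ℓ.Prime → ℓ ≠ P.p → W.IsGoodPrimeFor ℓ →
    ∀ A : ValuationSubring (AlgebraicClosure ℚ), A.LiesOverPrime ℓ →
    ∀ τ : GQ, A.IsFrobeniusAt τ ℓ →
      galoisTrace (S := ℚ) (K := AlgebraicClosure ℚ) P.freyCurve P.p τ
        = ((W.apOfModel ℓ : ℤ) : ZMod P.p)

/-- (WALL-p)  Mazur-Ribet at `p`, support form: `p ‖ pM'`, `p ∣ abc`, `E[p]` irreducible and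
embedded Galois- and Hecke-equivariantly in `J₀(pM')`; then its eigensystem occurs in
`J₀(M')[p]` away from a finite set. -/
def AtPOccursStatement : Prop :=
  ∀ (P : FreyPackage) (M' : ℕ) [NeZero M'] [NeZero (P.p * M')], ¬ P.p ∣ M' →
    (P.p : ℤ) ∣ P.a * P.b * P.c →
    GaloisRepIsIrreducible (K := AlgebraicClosure ℚ) ℚ P.freyCurve P.p →
    ∀ (S : Finset ℕ) (a : ℕ → ℤ), FreyEmbedsIn P (P.p * M') S a →
      ∃ S' : Finset ℕ, S ⊆ S' ∧ OccursIn M' P.p S' a

/-- (WALL-q)  Mazur's principle at `q ≠ p`, support form: `q ‖ qM'`, `E[p]` irreducible,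
unramified at `q`, `q ≢ 1 mod p`, embedded in `J₀(qM')`; then its eigensystem occurs in
`J₀(M')[p]` away from a finite set. -/
def AtQOccursStatement : Prop :=
  ∀ (P : FreyPackage) (M' q : ℕ) [NeZero M'] [NeZero (q * M')], q.Prime → q ≠ P.p →
    ¬ q ∣ M' →
    GaloisRepIsIrreducible (K := AlgebraicClosure ℚ) ℚ P.freyCurve P.p →
    P.GaloisRepUnramifiedAt q → ¬ P.p ∣ q - 1 →
    ∀ (S : Finset ℕ) (a : ℕ → ℤ), FreyEmbedsIn P (q * M') S a →
      ∃ S' : Finset ℕ, S ⊆ S' ∧ OccursIn M' P.p S' a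

/-- `OccursIn` is monotone in the excluded set. -/
theorem OccursIn.mono {N p : ℕ} [NeZero N] {S S' : Finset ℕ} {a : ℕ → ℤ} (h : S ⊆ S')
    (hocc : OccursIn N p S a) : OccursIn N p S' a := by
  obtain ⟨x, hx, hp, hT⟩ := hocc
  exact ⟨x, hx, hp, fun ℓ hℓ => hT ℓ (fun hS => hℓ (h hS))⟩

/-- `FreyEmbedsIn` is monotone in the excluded set. -/
theorem FreyEmbedsIn.mono {P : FreyPackage} {N : ℕ} [NeZero N] {S S' : Finset ℕ} {a : ℕ → ℤ}
    (h : S ⊆ S') (hemb : FreyEmbedsIn P N S a) : FreyEmbedsIn P N S' a := by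
  obtain ⟨ι, hinj, hgal, hT⟩ := hemb
  exact ⟨ι, hinj, hgal, fun ℓ hℓ => hT ℓ (fun hS => hℓ (h hS))⟩

/-- R3 (all `S`) implies R3S. -/
theorem eigenformOfOccursAway_of (h : EigenformOfOccursStatement) :
    EigenformOfOccursAwayStatement :=
  fun M p _ hp S a _ hocc => h M p hp S a hocc

/-- Use of R3S with an arbitrary `S`: enlarge `S` by the primes dividing `M·p`. -/
theorem exists_eigenform_of_occursIn (h : EigenformOfOccursAwayStatement) {M p : ℕ} [NeZero M]
    (hp : p.Prime) {S : Finset ℕ} {a : ℕ → ℤ} (hocc : OccursIn M p S a) :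
    ∃ (g : CuspForm (CongruenceSubgroup.Gamma0 M) 2) (𝔪 : Ideal (integralClosure ℤ ℂ)),
      g.IsNormalizedEigenform ∧ 𝔪.IsMaximal ∧ (p : integralClosure ℤ ℂ) ∈ 𝔪 ∧
      ∀ ℓ : ℕ, ℓ.Prime → ℓ ∉ S ∪ (M * p).primeFactors →
        ∃ b : integralClosure ℤ ℂ, (b : ℂ) = qCoeff g ℓ ∧
          b - ((a ℓ : ℤ) : integralClosure ℤ ℂ) ∈ 𝔪 := by
  refine h M p hp (S ∪ (M * p).primeFactors) a ?_ (hocc.mono Finset.subset_union_left)
  intro ℓ hℓ hdvd
  apply Finset.mem_union_right
  rw [Nat.mem_primeFactors]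
  exact ⟨hℓ, hdvd, Nat.mul_ne_zero (NeZero.ne M) hp.ne_zero⟩

/-- Row 38 from the support-form wall: `S44 ⇐ BLR + WALL-p + R3S + R3'`. -/
theorem S44_of_walls (hE : EmbedStatement) (hWall : AtPOccursStatement)
    (hR3 : EigenformOfOccursAwayStatement) (hR3' : AlmostAllToWitnessStatement) :
    S44Statement := by
  intro P N hcond hpN hirr hmod
  have hsq : ¬ P.p ^ 2 ∣ N := hcond.sq_not_dvd P.pp
  have hpabc := hcond.p_dvd_abc hpN
  have hNpos := hcond.pos
  obtain ⟨M', rfl⟩ := hpN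
  have hM'pos : 0 < M' := by
    rcases Nat.eq_zero_or_pos M' with h0 | h0
    · subst h0; simp at hNpos
    · exact h0
  have hpM' : ¬ P.p ∣ M' := by
    rintro ⟨k, rfl⟩
    exact hsq ⟨k, by ring⟩
  haveI : NeZero M' := ⟨hM'pos.ne'⟩
  haveI : NeZero (P.p * M') := ⟨hNpos.ne'⟩
  obtain ⟨f, W, 𝔪, hwit⟩ := hmod
  have hwit' : P.IsCongruentWitness (P.p * M') f W 𝔪 := hwit
  obtain ⟨S, hemb⟩ := hE P (P.p * M') hirr f W 𝔪 hwit'
  obtain ⟨S', -, hocc⟩ := hWall P M' hpM' hpabc hirr S _ hemb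
  obtain ⟨g, 𝔪', hg, hmax, hp, hc⟩ := exists_eigenform_of_occursIn hR3 P.pp hocc
  exact ⟨M', Dvd.intro_left _ rfl, hpM', g, W, 𝔪',
    hR3' P M' hM'pos g W 𝔪' _ hg hwit.2.1 hmax hp hc⟩

/-- Mazur's principle (L1) from the support-form wall at `q`:
`MPq ⇐ BLR + WALL-q + R3S + R3'`. -/
theorem mazurPrinciple_of_walls (hE : EmbedStatement) (hWall : AtQOccursStatement)
    (hR3 : EigenformOfOccursAwayStatement) (hR3' : AlmostAllToWitnessStatement) :
    MazurPrincipleStatement := by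
  intro P L q hLpos hq hqp hqL hsq hirr hmod hunr hq1
  obtain ⟨M', rfl⟩ := hqL
  have hM'pos : 0 < M' := by
    rcases Nat.eq_zero_or_pos M' with h0 | h0
    · subst h0; simp at hLpos
    · exact h0
  rw [Nat.mul_div_cancel_left M' hq.pos]
  have hqM' : ¬ q ∣ M' := by
    rintro ⟨k, rfl⟩
    exact hsq ⟨k, by ring⟩
  haveI : NeZero M' := ⟨hM'pos.ne'⟩
  haveI : NeZero (q * M') := ⟨hLpos.ne'⟩
  obtain ⟨f, W, 𝔪, hwit⟩ := hmod
  have hwit' : P.IsCongruentWitness (q * M') f W 𝔪 := hwit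
  obtain ⟨S, hemb⟩ := hE P (q * M') hirr f W 𝔪 hwit'
  obtain ⟨S', -, hocc⟩ := hWall P M' q hq hqp hqM' hirr hunr hq1 S _ hemb
  obtain ⟨g, 𝔪', hg, hmax, hp, hc⟩ := exists_eigenform_of_occursIn hR3 P.pp hocc
  exact ⟨g, W, 𝔪', hR3' P M' hM'pos g W 𝔪' _ hg hwit.2.1 hmax hp hc⟩

end Fermat.Agent.Ribet.Spec

end
-- ===== PACK-END Ribet/Spec2.lean

-- ===== PACK-BEGIN S52/H621/RatDegComp.lean
section



/-!
# S52 / Part A: multiplicativity of the degree of rational functions under composition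

`ratDeg_comp : ratDeg (N(S) / D(S)) = ratDeg (N / D) * ratDeg S` (piece A2d).
-/

set_option autoImplicit false

open Polynomial

namespace Fermat.Agent.S52.H621

variable {F : Type*} [Field F]

/-- degree bound for the homogenisation evaluated at polynomials -/
theorem natDegree_homog_le (n m : ℕ) (N P Q : F[X]) (hP : P.natDegree ≤ m)
    (hQ : Q.natDegree ≤ m) : (homog n N P Q).natDegree ≤ n * m := by
  unfold homog
  refine natDegree_sum_le_of_forall_le _ _ fun i hi => ?_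
  have hi' : i ≤ n := Nat.lt_succ_iff.mp (Finset.mem_range.mp hi)
  have h1 : (P ^ i).natDegree ≤ i * m := natDegree_pow_le_of_le i hP
  have h2 : (Q ^ (n - i)).natDegree ≤ (n - i) * m := natDegree_pow_le_of_le (n - i) hQ
  have h3 : (algebraMap F F[X] (N.coeff i) * P ^ i).natDegree ≤ i * m := by
    rw [algebraMap_eq]
    exact (natDegree_C_mul_le _ _).trans h1
  calc (algebraMap F F[X] (N.coeff i) * P ^ i * Q ^ (n - i)).natDegree
      ≤ i * m + (n - i) * m := natDegree_mul_le_of_le h3 h2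
    _ = n * m := by rw [← add_mul, Nat.add_sub_cancel' hi']

/-- top coefficient of the homogenisation evaluated at polynomials -/
theorem coeff_homog (n m : ℕ) (N P Q : F[X]) (hP : P.natDegree ≤ m)
    (hQ : Q.natDegree ≤ m) :
    (homog n N P Q).coeff (n * m) = homog n N (P.coeff m) (Q.coeff m) := by
  unfold homog
  rw [finsetSum_coeff]
  refine Finset.sum_congr rfl fun i hi => ?_
  have hi' : i ≤ n := Nat.lt_succ_iff.mp (Finset.mem_range.mp hi)
  have h1 : (P ^ i).natDegree ≤ i * m := natDegree_pow_le_of_le i hP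
  have h2 : (Q ^ (n - i)).natDegree ≤ (n - i) * m := natDegree_pow_le_of_le (n - i) hQ
  have hnm : n * m = i * m + (n - i) * m := by rw [← add_mul, Nat.add_sub_cancel' hi']
  rw [algebraMap_eq, mul_assoc, coeff_C_mul, hnm, coeff_mul_add_eq_of_natDegree_le h1 h2,
    coeff_pow_of_natDegree_le hP, coeff_pow_of_natDegree_le hQ]
  simp [mul_assoc]

/-- The algebra map `F[X] → RatFunc F` as an `F`-algebra homomorphism. -/
noncomputable def toRatFuncAlgHom (F : Type*) [Field F] : F[X] →ₐ[F] RatFunc F :=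
  IsScalarTower.toAlgHom F F[X] (RatFunc F)

@[simp] theorem toRatFuncAlgHom_apply (p : F[X]) :
    toRatFuncAlgHom F p = algebraMap F[X] (RatFunc F) p := rfl

/-- **Core case**: coprime `N`, `D` and coprime `P`, `Q`. -/
theorem ratDeg_homog_div (N D P Q : F[X]) (hND : IsCoprime N D) (hPQ : IsCoprime P Q)
    (hQ : Q ≠ 0) :
    IsCoprime (homog (max N.natDegree D.natDegree) N P Q)
        (homog (max N.natDegree D.natDegree) D P Q) ∧
      max (homog (max N.natDegree D.natDegree) N P Q).natDegree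
          (homog (max N.natDegree D.natDegree) D P Q).natDegree
        = max N.natDegree D.natDegree * max P.natDegree Q.natDegree := by
  set n := max N.natDegree D.natDegree with hn
  set m := max P.natDegree Q.natDegree with hm
  have hPm : P.natDegree ≤ m := le_max_left _ _
  have hQm : Q.natDegree ≤ m := le_max_right _ _
  -- the leading coefficients
  have hlead : P.coeff m ≠ 0 ∨ Q.coeff m ≠ 0 := by
    rcases max_cases P.natDegree Q.natDegree with ⟨h1, -⟩ | ⟨h1, -⟩
    · by_cases hP0 : P = 0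
      · right
        have : Q.natDegree = m := by
          have h2 : Q.natDegree ≤ P.natDegree := by
            have := le_max_right P.natDegree Q.natDegree
            omega
          rw [hP0, natDegree_zero] at h2
          have : m = 0 := by rw [hm, h1, hP0, natDegree_zero]
          omega
        rw [← this]
        exact leadingCoeff_ne_zero.mpr hQ
      · left
        rw [hm, h1]
        exact leadingCoeff_ne_zero.mpr hP0
    · right
      rw [hm, h1]
      exact leadingCoeff_ne_zero.mpr hQ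
  have htop := homog_ne_zero_of_isCoprime (L := F) N D hND n hn.symm (P.coeff m) (Q.coeff m) hlead
  rw [← coeff_homog n m N P Q hPm hQm, ← coeff_homog n m D P Q hPm hQm] at htop
  have hA := natDegree_homog_le n m N P Q hPm hQm
  have hB := natDegree_homog_le n m D P Q hPm hQm
  refine ⟨?_, ?_⟩
  · -- coprimality
    refine isCoprime_of_irreducible_dvd ?_ ?_
    · rintro ⟨h1, h2⟩
      rcases htop with h | h
      · exact h (by rw [h1, coeff_zero])
      · exact h (by rw [h2, coeff_zero])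
    · intro π hπ hπA hπB
      have : Fact (Irreducible π) := ⟨hπ⟩
      let φ : F[X] →ₐ[F] AdjoinRoot π := AdjoinRoot.mkₐ π
      have hφ : ∀ g : F[X], φ g = 0 ↔ π ∣ g := fun g => AdjoinRoot.mk_eq_zero
      have hA0 : homog n N (φ P) (φ Q) = 0 := by
        rw [← homog_map φ, hφ]; exact hπA
      have hB0 : homog n D (φ P) (φ Q) = 0 := by
        rw [← homog_map φ, hφ]; exact hπB
      have hpq : φ P ≠ 0 ∨ φ Q ≠ 0 := by
        by_contra hcon
        push Not at hcon
        obtain ⟨h1, h2⟩ := hcon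
        rw [hφ] at h1 h2
        obtain ⟨u, v, huv⟩ := hPQ
        have : π ∣ 1 := huv ▸ dvd_add (dvd_mul_of_dvd_right h1 u) (dvd_mul_of_dvd_right h2 v)
        exact hπ.not_isUnit (isUnit_of_dvd_one this)
      rcases homog_ne_zero_of_isCoprime (L := AdjoinRoot π) N D hND n hn.symm (φ P) (φ Q) hpq
        with h | h
      · exact h hA0
      · exact h hB0
  · -- degree
    apply le_antisymm (max_le hA hB)
    rcases htop with h | h
    · exact le_max_of_le_left (le_natDegree_of_ne_zero h)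
    · exact le_max_of_le_right (le_natDegree_of_ne_zero h)

/-- evaluation of a polynomial at a rational function, in terms of the homogenisation -/
theorem aeval_ratFunc_eq (N : F[X]) (n : ℕ) (hn : N.natDegree ≤ n) (S : RatFunc F) :
    aeval S N = algebraMap F[X] (RatFunc F) (homog n N S.num S.denom)
      / algebraMap F[X] (RatFunc F) S.denom ^ n := by
  have hq : algebraMap F[X] (RatFunc F) S.denom ≠ 0 := RatFunc.algebraMap_ne_zero S.denom_ne_zero
  have h1 := homog_eq_of_ne_zero (L := RatFunc F) n N hn (algebraMap F[X] (RatFunc F) S.num)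
    (algebraMap F[X] (RatFunc F) S.denom) hq
  rw [RatFunc.num_div_denom] at h1
  rw [← toRatFuncAlgHom_apply (homog n N S.num S.denom), homog_map, toRatFuncAlgHom_apply,
    toRatFuncAlgHom_apply, h1, mul_div_cancel_left₀ _ (pow_ne_zero n hq)]

/-- `ratDeg S = 0` iff `S` is constant. -/
theorem ratDeg_eq_zero_iff (S : RatFunc F) : ratDeg S = 0 ↔ ∃ c : F, S = RatFunc.C c := by
  constructor
  · intro h
    rw [ratDeg, Nat.max_eq_zero_iff] at h
    obtain ⟨h1, h2⟩ := h
    refine ⟨S.num.coeff 0 / S.denom.coeff 0, ?_⟩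
    conv_lhs => rw [← RatFunc.num_div_denom S]
    rw [eq_C_of_natDegree_eq_zero h1, eq_C_of_natDegree_eq_zero h2]
    simp only [coeff_C_zero, RatFunc.algebraMap_C]
    rw [map_div₀]
  · rintro ⟨c, rfl⟩
    exact ratDeg_C c

/-- **A2d, coprime form.** -/
theorem ratDeg_comp_of_isCoprime (N D : F[X]) (hND : IsCoprime N D) (S : RatFunc F) :
    ratDeg (aeval S N / aeval S D) = max N.natDegree D.natDegree * ratDeg S := by
  set n := max N.natDegree D.natDegree with hn
  have hNn : N.natDegree ≤ n := le_max_left _ _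
  have hDn : D.natDegree ≤ n := le_max_right _ _
  have hq : algebraMap F[X] (RatFunc F) S.denom ≠ 0 := RatFunc.algebraMap_ne_zero S.denom_ne_zero
  rw [aeval_ratFunc_eq N n hNn S, aeval_ratFunc_eq D n hDn S,
    div_div_div_cancel_right₀ (pow_ne_zero n hq)]
  obtain ⟨hcop, hdeg⟩ := ratDeg_homog_div N D S.num S.denom hND S.isCoprime_num_denom
    S.denom_ne_zero
  rw [← hn] at hcop hdeg
  by_cases hB : homog n D S.num S.denom = 0
  · rw [hB, map_zero, div_zero, ratDeg_zero]
    rw [hB, natDegree_zero] at hdeg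
    have hA : IsUnit (homog n N S.num S.denom) := by
      rw [hB] at hcop
      exact isCoprime_zero_right.mp hcop
    rw [natDegree_eq_zero_of_isUnit hA, max_self] at hdeg
    rw [ratDeg]
    exact hdeg
  · rw [ratDeg_div_of_isCoprime _ _ hB hcop, hdeg, ratDeg]

/-- **A2d**: the degree of a composition of rational functions is the product of the degrees.
Here the composition `R ∘ S` is written `N(S) / D(S)` for `R = N / D` (any representation
with `D ≠ 0`). -/
theorem ratDeg_comp (N D : F[X]) (hD : D ≠ 0) (S : RatFunc F) :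
    ratDeg (aeval S N / aeval S D)
      = ratDeg (algebraMap F[X] (RatFunc F) N / algebraMap F[X] (RatFunc F) D) * ratDeg S := by
  classical
  by_cases hS : ratDeg S = 0
  · -- `S` constant
    rw [hS, mul_zero]
    obtain ⟨c, rfl⟩ := (ratDeg_eq_zero_iff S).mp hS
    have h1 : ∀ p : F[X], aeval (RatFunc.C c : RatFunc F) p = RatFunc.C (p.eval c) := by
      intro p
      have : (RatFunc.C c : RatFunc F) = algebraMap F (RatFunc F) c := by
        rw [RatFunc.algebraMap_eq_C]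
      rw [this, aeval_algebraMap_apply, ← RatFunc.algebraMap_eq_C]
      simp
    rw [h1, h1, ← map_div₀, ratDeg_C]
  · -- `S` transcendental
    have htr : Transcendental F S := by
      apply RatFunc.transcendental_of_ne_C
      rintro ⟨c, hc⟩
      exact hS ((ratDeg_eq_zero_iff S).mpr ⟨c, by rw [hc]⟩)
    have hne : ∀ p : F[X], p ≠ 0 → aeval S p ≠ 0 := fun p hp h =>
      hp ((transcendental_iff.mp htr) p h)
    -- remove the gcd
    set R := algebraMap F[X] (RatFunc F) N / algebraMap F[X] (RatFunc F) D with hR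
    have hRnd : algebraMap F[X] (RatFunc F) R.num / algebraMap F[X] (RatFunc F) R.denom = R :=
      RatFunc.num_div_denom R
    have hcross : R.num * D = N * R.denom := by
      have h1 : algebraMap F[X] (RatFunc F) (R.num * D)
          = algebraMap F[X] (RatFunc F) (N * R.denom) := by
        rw [map_mul, map_mul]
        have hD' : algebraMap F[X] (RatFunc F) D ≠ 0 := RatFunc.algebraMap_ne_zero hD
        have hd' : algebraMap F[X] (RatFunc F) R.denom ≠ 0 :=
          RatFunc.algebraMap_ne_zero R.denom_ne_zero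
        have := hRnd
        rw [hR] at this ⊢
        rw [div_eq_div_iff hd' hD'] at this
        exact this
      exact (IsFractionRing.injective F[X] (RatFunc F)) h1
    have hcomp : aeval S N / aeval S D = aeval S R.num / aeval S R.denom := by
      rw [div_eq_div_iff (hne D hD) (hne _ R.denom_ne_zero), ← map_mul, ← map_mul, hcross]
    rw [hcomp, ratDeg_comp_of_isCoprime _ _ R.isCoprime_num_denom]
    rfl

/-- Special case: powers. -/
theorem ratDeg_pow (S : RatFunc F) (k : ℕ) : ratDeg (S ^ k) = k * ratDeg S := by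
  have h := ratDeg_comp (Polynomial.X ^ k : F[X]) 1 one_ne_zero S
  simp only [map_pow, aeval_X, map_one, div_one] at h
  rw [h]
  congr 1
  rw [← map_pow, ratDeg_algebraMap, natDegree_X_pow]

end Fermat.Agent.S52.H621

end
-- ===== PACK-END S52/H621/RatDegComp.lean

-- ===== PACK-BEGIN S35/G/H199/ValAut.lean
section


/-!
# S35 / (G') leaf TORIC — valuation rings stable under an automorphism (helper199)

Mathlib-only (plus `A2.H48.IsUnif`).  `V` a valuation subring of a field `F`, `σ` an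
automorphism of `F` with `σ V ⊆ V` and `σ⁻¹ V ⊆ V` (`StabAut V σ`).

* `StabAut.val_le_one_iff`, `val_eq_one_iff`, `val_lt_one_iff` : `σ` preserves the valuation
  conditions `≤ 1`, `= 1`, `< 1`;
* `StabAut.val_ratio` : if `V` is discrete with uniformiser `π`, then `σ f / f` is a unit of `V`
  for every `f ≠ 0`;
* `exists_pow_sub_mem_maximalIdeal_h199` : in a local ring with algebraically closed residue
  field every unit is an `m`-th power modulo the maximal ideal (`m > 0`).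
-/

set_option autoImplicit false

namespace Fermat.Agent.S35.G.H199

open Fermat.Agent.A2.H48

variable {F : Type*} [Field F]

/-- units of a valuation subring in terms of the valuation -/
theorem val_eq_one_iff_h199 (V : ValuationSubring F) {f : F} (hf : f ≠ 0) :
    V.valuation f = 1 ↔ f ∈ V ∧ f⁻¹ ∈ V := by
  rw [← V.valuation_le_one_iff, ← V.valuation_le_one_iff, map_inv₀]
  have h0 : 0 < V.valuation f := zero_lt_iff.2 ((Valuation.ne_zero_iff _).2 hf)
  constructor
  · intro h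
    rw [h]
    simp
  · rintro ⟨h1, h2⟩
    rw [inv_le_one₀ h0] at h2
    exact le_antisymm h1 h2

theorem val_lt_one_iff_h199 (V : ValuationSubring F) {f : F} :
    V.valuation f < 1 ↔ f ∈ V ∧ (f = 0 ∨ f⁻¹ ∉ V) := by
  by_cases hf : f = 0
  · subst hf
    simp
  have h1 := val_eq_one_iff_h199 V hf
  rw [← V.valuation_le_one_iff] at h1 ⊢
  constructor
  · intro h
    refine ⟨h.le, Or.inr fun h2 => ?_⟩
    have h3 : V.valuation f⁻¹ ≤ 1 := (V.valuation_le_one_iff _).2 h2
    rw [map_inv₀, inv_le_one₀ (zero_lt_iff.2 ((Valuation.ne_zero_iff _).2 hf))] at h3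
    exact absurd h (not_lt.2 h3)
  · rintro ⟨h2, h3 | h3⟩
    · exact absurd h3 hf
    · rcases lt_or_eq_of_le h2 with h4 | h4
      · exact h4
      · exact absurd (h1.1 h4).2 h3

/-- `σ` and `σ⁻¹` map `V` into itself. -/
structure StabAut (V : ValuationSubring F) (σ : F ≃+* F) : Prop where
  map : ∀ f ∈ V, σ f ∈ V
  symm : ∀ f ∈ V, σ.symm f ∈ V

namespace StabAut

variable {V : ValuationSubring F} {σ : F ≃+* F}

theorem mem_iff (h : StabAut V σ) {f : F} : σ f ∈ V ↔ f ∈ V :=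
  ⟨fun hf => by simpa using h.symm _ hf, h.map f⟩

theorem val_le_one_iff (h : StabAut V σ) (f : F) :
    V.valuation (σ f) ≤ 1 ↔ V.valuation f ≤ 1 := by
  rw [V.valuation_le_one_iff, V.valuation_le_one_iff, h.mem_iff]

theorem val_eq_one_iff (h : StabAut V σ) (f : F) :
    V.valuation (σ f) = 1 ↔ V.valuation f = 1 := by
  by_cases hf : f = 0
  · subst hf
    simp
  have hσf : σ f ≠ 0 := (map_ne_zero_iff σ σ.injective).2 hf
  rw [val_eq_one_iff_h199 V hf, val_eq_one_iff_h199 V hσf, ← map_inv₀, h.mem_iff, h.mem_iff]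

theorem val_lt_one_iff (h : StabAut V σ) (f : F) :
    V.valuation (σ f) < 1 ↔ V.valuation f < 1 := by
  rw [lt_iff_le_and_ne, lt_iff_le_and_ne, h.val_le_one_iff, Ne, Ne, h.val_eq_one_iff]

/-- the inverse automorphism -/
theorem inv (h : StabAut V σ) : StabAut V σ.symm :=
  ⟨h.symm, fun f hf => by simpa using h.map f hf⟩

/-- composition -/
theorem comp {τ : F ≃+* F} (h : StabAut V σ) (h' : StabAut V τ) :
    StabAut V (τ.trans σ) :=
  ⟨fun f hf => h.map _ (h'.map f hf), fun f hf => h'.symm _ (h.symm f hf)⟩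

/-- **Ratio.**  `V` discrete with uniformiser `π`: `σ f / f` is a unit of `V`. -/
theorem val_ratio (h : StabAut V σ) {π : F} (hπ : IsUnif V π)
    (hdisc : ∀ x ∈ V, x ≠ 0 → ∃ (n : ℕ) (u : F), u ∈ V ∧ u⁻¹ ∈ V ∧ x = π ^ n * u)
    {f : F} (hf : f ≠ 0) : V.valuation (σ f / f) = 1 := by
  -- the uniformiser
  have hπ0 : π ≠ 0 := hπ.ne_zero
  have hσπ : V.valuation (σ π) < 1 := (h.val_lt_one_iff π).2 hπ.val_lt_one
  have h1 : V.valuation (σ π) ≤ V.valuation π := hπ.val_le_of_lt_one hσπ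
  have hσπ' : V.valuation (σ.symm π) < 1 := (h.inv.val_lt_one_iff π).2 hπ.val_lt_one
  have h2 : V.valuation (σ.symm π / π) ≤ 1 := by
    rw [map_div₀]
    exact div_le_one_of_le₀ (hπ.val_le_of_lt_one hσπ') zero_le
  have h3 : V.valuation (π / σ π) ≤ 1 := by
    have := (h.val_le_one_iff (σ.symm π / π)).2 h2
    rwa [map_div₀, RingEquiv.apply_symm_apply] at this
  have hσπ0 : σ π ≠ 0 := (map_ne_zero_iff σ σ.injective).2 hπ0
  have hπv : V.valuation (σ π) = V.valuation π := by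
    refine le_antisymm h1 ?_
    rw [map_div₀] at h3
    rwa [div_le_one₀ (zero_lt_iff.2 ((Valuation.ne_zero_iff _).2 hσπ0))] at h3
  -- elements of `V`
  have key : ∀ x ∈ V, x ≠ 0 → V.valuation (σ x) = V.valuation x := by
    intro x hx hx0
    obtain ⟨n, u, hu, hui, rfl⟩ := hdisc x hx hx0
    have hu0 : u ≠ 0 := right_ne_zero_of_mul hx0
    have hu1 : V.valuation u = 1 := (val_eq_one_iff_h199 V hu0).2 ⟨hu, hui⟩
    rw [map_mul, map_pow, map_mul, map_mul, map_pow, map_pow, hπv, hu1,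
      (h.val_eq_one_iff u).2 hu1]
  have hv : V.valuation (σ f) = V.valuation f := by
    rcases V.mem_or_inv_mem f with hfV | hfV
    · exact key f hfV hf
    · have := key f⁻¹ hfV (inv_ne_zero hf)
      rwa [map_inv₀, map_inv₀, map_inv₀, inv_inj] at this
  rw [map_div₀, hv, div_self ((Valuation.ne_zero_iff _).2 hf)]

end StabAut

/-- In a local ring with algebraically closed residue field every unit is an `m`-th power of a
unit modulo the maximal ideal. -/
theorem exists_pow_sub_mem_maximalIdeal_h199 {R : Type*} [CommRing R] [IsLocalRing R]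
    [IsAlgClosed (IsLocalRing.ResidueField R)] {m : ℕ} (hm : 0 < m) {e : R} (he : IsUnit e) :
    ∃ r : R, IsUnit r ∧ e - r ^ m ∈ IsLocalRing.maximalIdeal R := by
  obtain ⟨z, hz⟩ := IsAlgClosed.exists_pow_nat_eq (IsLocalRing.residue R e) hm
  obtain ⟨r, rfl⟩ := IsLocalRing.residue_surjective z
  have hr : IsUnit r := by
    by_contra hr
    have h0 : IsLocalRing.residue R r = 0 :=
      (IsLocalRing.residue_eq_zero_iff r).2 ((IsLocalRing.mem_maximalIdeal r).2 hr)
    rw [h0, zero_pow hm.ne'] at hz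
    have h1 : e ∈ IsLocalRing.maximalIdeal R := (IsLocalRing.residue_eq_zero_iff e).1 hz.symm
    exact (IsLocalRing.mem_maximalIdeal e).1 h1 he
  refine ⟨r, hr, ?_⟩
  rw [← IsLocalRing.residue_eq_zero_iff, map_sub, map_pow, hz, sub_self]

end Fermat.Agent.S35.G.H199

namespace Fermat.Agent.S35.G.H199

open Fermat.Agent.A2.H48

variable {F : Type*} [Field F]

/-! ## The conjugate valuation ring `V ∘ e` -/

section Comap

variable (V : ValuationSubring F) (e : F ≃+* F)

theorem comap_val_le_one_iff (z : F) :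
    (V.comap (e : F →+* F)).valuation z ≤ 1 ↔ V.valuation (e z) ≤ 1 := by
  rw [ValuationSubring.valuation_le_one_iff, ValuationSubring.valuation_le_one_iff,
    ValuationSubring.mem_comap]
  rfl

theorem comap_val_eq_one_iff (z : F) :
    (V.comap (e : F →+* F)).valuation z = 1 ↔ V.valuation (e z) = 1 := by
  by_cases hz : z = 0
  · subst hz
    simp
  have hez : e z ≠ 0 := (map_ne_zero_iff e e.injective).2 hz
  rw [val_eq_one_iff_h199 _ hz, val_eq_one_iff_h199 _ hez, ValuationSubring.mem_comap,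
    ValuationSubring.mem_comap, ← map_inv₀]
  rfl

theorem comap_val_lt_one_iff (z : F) :
    (V.comap (e : F →+* F)).valuation z < 1 ↔ V.valuation (e z) < 1 := by
  rw [lt_iff_le_and_ne, lt_iff_le_and_ne, comap_val_le_one_iff, Ne, Ne, comap_val_eq_one_iff]

variable {V e}

theorem isUnif_comap {π : F} (hπ : IsUnif V π) (he : e π = π) :
    IsUnif (V.comap (e : F →+* F)) π where
  mem := by
    rw [ValuationSubring.mem_comap]
    show e π ∈ V
    rw [he]
    exact hπ.mem
  inv_not_mem := by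
    rw [ValuationSubring.mem_comap]
    show ¬ e π⁻¹ ∈ V
    rw [map_inv₀, he]
    exact hπ.inv_not_mem
  gen := by
    intro f hf hfi
    rw [ValuationSubring.mem_comap] at hf hfi ⊢
    show e (f * π⁻¹) ∈ V
    rw [map_mul, map_inv₀, he]
    refine hπ.gen _ hf ?_
    intro h
    apply hfi
    show e f⁻¹ ∈ V
    rwa [map_inv₀]

theorem disc_comap {π : F} (he : e π = π)
    (hdisc : ∀ x ∈ V, x ≠ 0 → ∃ (n : ℕ) (u : F), u ∈ V ∧ u⁻¹ ∈ V ∧ x = π ^ n * u) :
    ∀ x ∈ V.comap (e : F →+* F), x ≠ 0 →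
      ∃ (n : ℕ) (u : F), u ∈ V.comap (e : F →+* F) ∧ u⁻¹ ∈ V.comap (e : F →+* F) ∧
        x = π ^ n * u := by
  intro x hx hx0
  rw [ValuationSubring.mem_comap] at hx
  have hex : e x ≠ 0 := (map_ne_zero_iff e e.injective).2 hx0
  obtain ⟨n, u, hu, hui, hxu⟩ := hdisc (e x) hx hex
  refine ⟨n, e.symm u, ?_, ?_, ?_⟩
  · rw [ValuationSubring.mem_comap]
    show e (e.symm u) ∈ V
    rwa [RingEquiv.apply_symm_apply]
  · rw [ValuationSubring.mem_comap]
    show e (e.symm u)⁻¹ ∈ V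
    rwa [map_inv₀, RingEquiv.apply_symm_apply]
  · apply e.injective
    rw [map_mul, map_pow, he, RingEquiv.apply_symm_apply]
    exact hxu

theorem StabAut.comap {σ : F ≃+* F} (h : StabAut V σ) (hc : ∀ f, σ (e f) = e (σ f)) :
    StabAut (V.comap (e : F →+* F)) σ where
  map := by
    intro f hf
    rw [ValuationSubring.mem_comap] at hf ⊢
    show e (σ f) ∈ V
    rw [← hc]
    exact h.map _ hf
  symm := by
    intro f hf
    rw [ValuationSubring.mem_comap] at hf ⊢
    show e (σ.symm f) ∈ V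
    have h1 : e (σ.symm f) = σ.symm (e f) := by
      apply σ.injective
      rw [hc, RingEquiv.apply_symm_apply, RingEquiv.apply_symm_apply]
    rw [h1]
    exact h.symm _ hf

end Comap

end Fermat.Agent.S35.G.H199

namespace Fermat.Agent.S35.G.H199

variable {F : Type*} [Field F]

/-! ## Local embeddings -/

section Local

variable {K : Type*} [Field K] {O : ValuationSubring K} {V : ValuationSubring F} {φ : K →+* F}

theorem local_val_le_one_iff (h : ∀ a, φ a ∈ V ↔ a ∈ O) (a : K) :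
    V.valuation (φ a) ≤ 1 ↔ O.valuation a ≤ 1 := by
  rw [ValuationSubring.valuation_le_one_iff, ValuationSubring.valuation_le_one_iff, h]

theorem local_val_eq_one_iff (h : ∀ a, φ a ∈ V ↔ a ∈ O) (a : K) :
    V.valuation (φ a) = 1 ↔ O.valuation a = 1 := by
  by_cases ha : a = 0
  · subst ha
    simp
  have hφa : φ a ≠ 0 := (map_ne_zero φ).2 ha
  rw [val_eq_one_iff_h199 _ ha, val_eq_one_iff_h199 _ hφa, ← map_inv₀, h, h]

theorem local_val_lt_one_iff (h : ∀ a, φ a ∈ V ↔ a ∈ O) (a : K) :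
    V.valuation (φ a) < 1 ↔ O.valuation a < 1 := by
  rw [lt_iff_le_and_ne, lt_iff_le_and_ne, local_val_le_one_iff h, Ne, Ne, local_val_eq_one_iff h]

end Local

end Fermat.Agent.S35.G.H199

end
-- ===== PACK-END S35/G/H199/ValAut.lean

-- ===== PACK-BEGIN A2/H609/RootIdeal.lean
section





/-!
# Node purity, part 1: the root ideals `I_j = {f : u ^ j ∣ f ^ m}`

`R` is an integrally closed domain, `u : R`, `m ≥ 1`.  The set `{f | u ^ j ∣ f ^ m}` is an ideal
(integral closedness), `I_0 = ⊤`, `I_m = (u)`, `I_{j+1} ≤ I_j`, `I_j * I_k ≤ I_{j+k}`.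
Mathlib only.
-/

set_option autoImplicit false

namespace Fermat.Agent.A2.H609

variable {R : Type*} [CommRing R] [IsDomain R] [IsIntegrallyClosed R]

/-- In an integrally closed domain, `a ^ m ∣ b ^ m → a ∣ b`. -/
theorem dvd_of_pow_dvd_pow {m : ℕ} (hm : m ≠ 0) {a b : R} (h : a ^ m ∣ b ^ m) : a ∣ b :=
  (IsIntegrallyClosed.pow_dvd_pow_iff hm).1 h

/-- Key closure property: if `c ∣ f ^ m` and `c ∣ g ^ m` then `c ∣ f ^ i * g ^ (m - i)`. -/
theorem dvd_pow_mul_pow {m : ℕ} (hm : m ≠ 0) {c f g : R} (hf : c ∣ f ^ m) (hg : c ∣ g ^ m)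
    {i : ℕ} (hi : i ≤ m) : c ∣ f ^ i * g ^ (m - i) := by
  apply dvd_of_pow_dvd_pow hm
  have h1 : (f ^ i * g ^ (m - i)) ^ m = (f ^ m) ^ i * (g ^ m) ^ (m - i) := by ring
  have h2 : c ^ m = c ^ i * c ^ (m - i) := by
    rw [← pow_add, Nat.add_sub_cancel' hi]
  rw [h1, h2]
  exact mul_dvd_mul (pow_dvd_pow_of_dvd hf i) (pow_dvd_pow_of_dvd hg (m - i))

/-- The root ideal `I_j = {f | u ^ j ∣ f ^ m}`. -/
def rootIdeal (u : R) (m : ℕ) (hm : m ≠ 0) (j : ℕ) : Ideal R where
  carrier := {f | u ^ j ∣ f ^ m}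
  add_mem' := by
    intro f g hf hg
    change u ^ j ∣ f ^ m at hf
    change u ^ j ∣ g ^ m at hg
    change u ^ j ∣ (f + g) ^ m
    rw [add_pow]
    refine Finset.dvd_sum fun i hi => ?_
    have hi' : i ≤ m := Nat.lt_succ_iff.mp (Finset.mem_range.mp hi)
    exact Dvd.dvd.mul_right (dvd_pow_mul_pow hm hf hg hi') _
  zero_mem' := by
    change u ^ j ∣ (0 : R) ^ m
    rw [zero_pow hm]
    exact dvd_zero _
  smul_mem' := by
    intro c f hf
    change u ^ j ∣ f ^ m at hf
    change u ^ j ∣ (c * f) ^ m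
    rw [mul_pow]
    exact Dvd.dvd.mul_left hf _

theorem mem_rootIdeal {u : R} {m : ℕ} {hm : m ≠ 0} {j : ℕ} {f : R} :
    f ∈ rootIdeal u m hm j ↔ u ^ j ∣ f ^ m := Iff.rfl

theorem rootIdeal_zero (u : R) (m : ℕ) (hm : m ≠ 0) : rootIdeal u m hm 0 = ⊤ := by
  rw [Ideal.eq_top_iff_one, mem_rootIdeal, pow_zero]
  exact one_dvd _

theorem rootIdeal_self (u : R) (m : ℕ) (hm : m ≠ 0) :
    rootIdeal u m hm m = Ideal.span {u} := by
  ext f
  rw [mem_rootIdeal, Ideal.mem_span_singleton]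
  exact IsIntegrallyClosed.pow_dvd_pow_iff hm

theorem rootIdeal_antitone (u : R) (m : ℕ) (hm : m ≠ 0) {j k : ℕ} (h : j ≤ k) :
    rootIdeal u m hm k ≤ rootIdeal u m hm j := by
  intro f hf
  rw [mem_rootIdeal] at hf ⊢
  exact (pow_dvd_pow u h).trans hf

theorem mul_mem_rootIdeal {u : R} {m : ℕ} {hm : m ≠ 0} {j k : ℕ} {f g : R}
    (hf : f ∈ rootIdeal u m hm j) (hg : g ∈ rootIdeal u m hm k) :
    f * g ∈ rootIdeal u m hm (j + k) := by
  rw [mem_rootIdeal] at hf hg ⊢
  rw [mul_pow, pow_add]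
  exact mul_dvd_mul hf hg

theorem pow_mem_rootIdeal {u : R} {m : ℕ} {hm : m ≠ 0} {f : R}
    (hf : f ∈ rootIdeal u m hm 1) (j : ℕ) : f ^ j ∈ rootIdeal u m hm j := by
  rw [mem_rootIdeal] at hf ⊢
  rw [pow_one] at hf
  rw [← pow_mul, mul_comm, pow_mul]
  exact pow_dvd_pow_of_dvd hf j

theorem self_mem_rootIdeal_one (u : R) (m : ℕ) (hm : m ≠ 0) : u ∈ rootIdeal u m hm 1 := by
  rw [mem_rootIdeal, pow_one]
  exact dvd_pow_self u hm

theorem self_mul_mem_rootIdeal_succ {u : R} {m : ℕ} {hm : m ≠ 0} {j : ℕ} {f : R}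
    (hf : f ∈ rootIdeal u m hm j) : u * f ∈ rootIdeal u m hm (j + 1) := by
  have := mul_mem_rootIdeal (self_mem_rootIdeal_one u m hm) hf
  rwa [add_comm] at this

/-- `π`-saturation: if `u` is regular modulo `π` (i.e. `π ∣ u * r → π ∣ r`), then
`π * f ∈ I_j → f ∈ I_j`. -/
theorem mem_rootIdeal_of_mul_mem {u π : R} {m : ℕ} {hm : m ≠ 0} {j : ℕ}
    (hπ0 : π ≠ 0) (hreg : ∀ r : R, π ∣ u * r → π ∣ r) {f : R}
    (hf : π * f ∈ rootIdeal u m hm j) : f ∈ rootIdeal u m hm j := by
  rw [mem_rootIdeal] at hf ⊢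
  -- `π ^ k ∣ u ^ j * r → π ^ k ∣ r`
  have hreg_pow : ∀ i : ℕ, ∀ r : R, π ∣ u ^ i * r → π ∣ r := by
    intro i
    induction i with
    | zero => intro r h; simpa using h
    | succ i ih =>
      intro r h
      apply ih
      apply hreg
      rwa [← mul_assoc, ← pow_succ']
  have hkey : ∀ k : ℕ, ∀ r x : R, π ^ k * x = u ^ j * r → ∃ r', x = u ^ j * r' := by
    intro k
    induction k with
    | zero => intro r x h; exact ⟨r, by simpa using h⟩
    | succ k ih =>
      intro r x h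
      have h1 : π ∣ u ^ j * r := ⟨π ^ k * x, by rw [← h]; ring⟩
      obtain ⟨r1, hr1⟩ := hreg_pow j r h1
      apply ih r1 x
      have h2 : π * (π ^ k * x) = π * (u ^ j * r1) := by
        rw [← mul_assoc, ← pow_succ', h, hr1]; ring
      exact mul_left_cancel₀ hπ0 h2
  obtain ⟨r, hr⟩ := hf
  rw [mul_pow] at hr
  obtain ⟨r', hr'⟩ := hkey m r (f ^ m) hr
  exact ⟨r', hr'⟩

end Fermat.Agent.A2.H609

end
-- ===== PACK-END A2/H609/RootIdeal.lean

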