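import Fermat.Prelude.Def_FLTPrelim_GaloisRep
import Mathlib
import Fermat.Prelude.Def_CuspForm_HeckeGaloisRepDatum
import Fermat.Prelude.Def_GaloisRep_DeformationRingData
import Fermat.Prelude.Def_GaloisRep_DeformationCondition
import Fermat.Prelude.Def_GaloisRep_LocalConditions
import Fermat.Prelude.Def_GaloisRep_StrictOrdinary
import Fermat.Prelude.Def_GaloisRep_Flat
import Fermat.Prelude.Def_Algebra_PatchingDatum
import Fermat.Prelude.Def_FLTPrelim_ModularRep
import Mathlib.AlgebraicGeometry.EllipticCurve.Affine.AddSubMap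
import Mathlib.RingTheory.Valuation.ValuationSubring
import Mathlib.RingTheory.Polynomial.Cyclotomic.Basic
import Mathlib.RingTheory.RootsOfUnity.PrimitiveRoots
import Mathlib.Algebra.Ring.GeomSum
import Mathlib.Tactic.LinearCombination
import Mathlib.Tactic.Ring
import Fermat.Agent.Pack.S58.E0L1
import Fermat.Agent.Pack.S58.E0L2
import Fermat.Agent.Pack.S58.E0L0
import Fermat.Agent.Pack.S58.E0L3
import Fermat.Agent.Pack.S36.E0L1

-- ===== PACK-BEGIN S05/GoodRed.lean
section



/-!
# S05: inertia fixes torsion points with nonsingular reduction (abstract form)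
-/

set_option autoImplicit false
set_option linter.unusedSectionVars false
set_option linter.unusedVariables false

namespace Fermat.Agent.S05.GoodRed

open WeierstrassCurve WeierstrassCurve.Affine Fermat.Agent.S05.SameRed

section general

variable {K : Type*} [Field K] [DecidableEq K]
  {Γ₀ : Type*} [LinearOrderedCommGroupWithZero Γ₀]
  {W : Affine K} {v : Valuation K Γ₀}

/-- On a curve with integral coefficients, a point with integral `x` has integral `y`. -/
lemma val_y_le_one (hW : IntegralCoeffs W v) {x y : K} (h : W.Equation x y) (hx : v x ≤ 1) :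
    v y ≤ 1 := by
  by_contra hy
  rw [not_le] at hy
  have e := (Affine.equation_iff x y).mp h
  have hy0 : 0 < v y := lt_trans zero_lt_one hy
  have h2 : v y < v (y ^ 2) := by
    rw [map_pow, pow_two]; exact lt_mul_of_one_lt_left hy0 hy
  have h3 : v (W.a₁ * x * y + W.a₃ * y) ≤ v y := by
    have : W.a₁ * x * y + W.a₃ * y = (W.a₁ * x + W.a₃) * y := by ring
    rw [this, map_mul]
    exact mul_le_of_le_one_left' (val_add_le_one (val_mul_le_one hW.a₁ hx) hW.a₃)
  have h4 : v (y ^ 2 + W.a₁ * x * y + W.a₃ * y) = v (y ^ 2) := by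
    rw [add_assoc]; exact v.map_add_eq_of_lt_left (h3.trans_lt h2)
  have h5 : v (x ^ 3 + W.a₂ * x ^ 2 + W.a₄ * x + W.a₆) ≤ 1 := by
    have hx2 : v (x ^ 2) ≤ 1 := by rw [pow_two]; exact val_mul_le_one hx hx
    have hx3 : v (x ^ 3) ≤ 1 := by
      have : x ^ 3 = x ^ 2 * x := by ring
      rw [this]; exact val_mul_le_one hx2 hx
    exact val_add_le_one (val_add_le_one (val_add_le_one hx3 (val_mul_le_one hW.a₂ hx2))
      (val_mul_le_one hW.a₄ hx)) hW.a₆
  rw [e] at h4
  rw [h4] at h5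
  exact absurd (hy.trans h2) (not_lt.mpr h5)

/-- The discriminant lies in the ideal generated by `a₃, a₄, a₆`. -/
lemma Δ_eq_a₃_a₄_a₆ {R : Type*} [CommRing R] (W : WeierstrassCurve R) :
    W.Δ = W.a₃ * (-W.b₂ ^ 2 * (-W.a₁ * W.a₄ + W.a₂ * W.a₃) - 8 * W.b₄ ^ 2 * W.a₁
        - 27 * W.a₃ * W.b₆ + 9 * W.b₂ * W.b₆ * W.a₁)
      + W.a₄ * (W.b₂ ^ 2 * W.a₄ - 16 * W.b₄ ^ 2 + 18 * W.b₂ * W.b₆)
      + W.a₆ * (-W.b₂ ^ 3 - 108 * W.b₆) := by
  simp only [WeierstrassCurve.Δ, WeierstrassCurve.b₂, WeierstrassCurve.b₄, WeierstrassCurve.b₆,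
    WeierstrassCurve.b₈]
  ring

/-- If the discriminant is a unit, every integral point has nonsingular reduction. -/
theorem nonsingular_reduction_of_val_Δ (hW : IntegralCoeffs W v) (hΔ : v W.Δ = 1) {x y : K}
    (h : W.Equation x y) (hx : v x ≤ 1) :
    v (W.a₁ * y - (3 * x ^ 2 + 2 * W.a₂ * x + W.a₄)) = 1 ∨
      v (2 * y + W.a₁ * x + W.a₃) = 1 := by
  have hy : v y ≤ 1 := val_y_le_one hW h hx
  -- work in the subring of integers
  let O : Subring K := v.integer
  have mO : ∀ {t : K}, t ∈ O ↔ v t ≤ 1 := Iff.rfl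
  have hxO : x ∈ O := hx
  have hyO : y ∈ O := hy
  have h1O : W.a₁ ∈ O := hW.a₁
  have h2O : W.a₂ ∈ O := hW.a₂
  have h3O : W.a₃ ∈ O := hW.a₃
  have h4O : W.a₄ ∈ O := hW.a₄
  have h6O : W.a₆ ∈ O := hW.a₆
  have hX : v (W.a₁ * y - (3 * x ^ 2 + 2 * W.a₂ * x + W.a₄)) ≤ 1 := by
    change _ ∈ O
    exact sub_mem (mul_mem h1O hyO) (add_mem (add_mem (mul_mem (ofNat_mem O 3) (pow_mem hxO 2))
      (mul_mem (mul_mem (ofNat_mem O 2) h2O) hxO)) h4O)
  have hY : v (2 * y + W.a₁ * x + W.a₃) ≤ 1 := by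
    change _ ∈ O
    exact add_mem (add_mem (mul_mem (ofNat_mem O 2) hyO) (mul_mem h1O hxO)) h3O
  by_contra hcon
  rw [not_or] at hcon
  have hX' : v (W.a₁ * y - (3 * x ^ 2 + 2 * W.a₂ * x + W.a₄)) < 1 := lt_of_le_of_ne hX hcon.1
  have hY' : v (2 * y + W.a₁ * x + W.a₃) < 1 := lt_of_le_of_ne hY hcon.2
  -- translated curve
  set W' : WeierstrassCurve K := VariableChange.mk 1 x 0 y • W with hW'
  have hΔ' : W'.Δ = W.Δ := by
    rw [hW', variableChange_Δ]; simp
  have ha₁ : W'.a₁ = W.a₁ := by rw [hW', variableChange_a₁]; simp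
  have ha₂ : W'.a₂ = W.a₂ + 3 * x := by rw [hW', variableChange_a₂]; simp
  have ha₃ : W'.a₃ = 2 * y + W.a₁ * x + W.a₃ := by rw [hW', variableChange_a₃]; simp; ring
  have ha₄ : W'.a₄ = -(W.a₁ * y - (3 * x ^ 2 + 2 * W.a₂ * x + W.a₄)) := by
    rw [hW', variableChange_a₄]; simp; ring
  have ha₆ : W'.a₆ = 0 := by
    rw [hW', variableChange_a₆]; simp
    have e := (Affine.equation_iff x y).mp h
    linear_combination -e
  have h1O' : W'.a₁ ∈ O := by rw [ha₁]; exact h1O
  have h2O' : W'.a₂ ∈ O := by rw [ha₂]; exact add_mem h2O (mul_mem (ofNat_mem O 3) hxO)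
  have h3O' : W'.a₃ ∈ O := by rw [ha₃]; exact hY
  have h4O' : W'.a₄ ∈ O := by rw [ha₄]; exact neg_mem hX
  have hb₂ : W'.b₂ ∈ O := by
    simp only [WeierstrassCurve.b₂]
    exact add_mem (pow_mem h1O' 2) (mul_mem (ofNat_mem O 4) h2O')
  have hb₄ : W'.b₄ ∈ O := by
    simp only [WeierstrassCurve.b₄]
    exact add_mem (mul_mem (ofNat_mem O 2) h4O') (mul_mem h1O' h3O')
  have hb₆ : W'.b₆ ∈ O := by
    simp only [WeierstrassCurve.b₆, ha₆]
    exact add_mem (pow_mem h3O' 2) (mul_mem (ofNat_mem O 4) (zero_mem O))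
  have hP : (-W'.b₂ ^ 2 * (-W'.a₁ * W'.a₄ + W'.a₂ * W'.a₃) - 8 * W'.b₄ ^ 2 * W'.a₁
        - 27 * W'.a₃ * W'.b₆ + 9 * W'.b₂ * W'.b₆ * W'.a₁) ∈ O := by
    refine add_mem (sub_mem (sub_mem (mul_mem (neg_mem (pow_mem hb₂ 2))
      (add_mem (mul_mem (neg_mem h1O') h4O') (mul_mem h2O' h3O')))
      (mul_mem (mul_mem (ofNat_mem O 8) (pow_mem hb₄ 2)) h1O'))
      (mul_mem (mul_mem (ofNat_mem O 27) h3O') hb₆))
      (mul_mem (mul_mem (mul_mem (ofNat_mem O 9) hb₂) hb₆) h1O')
  have hQ : (W'.b₂ ^ 2 * W'.a₄ - 16 * W'.b₄ ^ 2 + 18 * W'.b₂ * W'.b₆) ∈ O := by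
    refine add_mem (sub_mem (mul_mem (pow_mem hb₂ 2) h4O')
      (mul_mem (ofNat_mem O 16) (pow_mem hb₄ 2)))
      (mul_mem (mul_mem (ofNat_mem O 18) hb₂) hb₆)
  have hlt : v W'.Δ < 1 := by
    rw [Δ_eq_a₃_a₄_a₆ W', ha₆, zero_mul, add_zero]
    refine val_add_lt_one (val_mul_lt_one_left ?_ hP) (val_mul_lt_one_left ?_ hQ)
    · rw [ha₃]; exact hY'
    · rw [ha₄, Valuation.map_neg]; exact hX'
  rw [hΔ', hΔ] at hlt
  exact lt_irrefl _ hlt

end general

section galois

variable {R S K : Type*} [CommRing R] [CommRing S] [Field K] [DecidableEq K]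
  [Algebra R S] [Algebra R K] [Algebra S K] [IsScalarTower R S K]
  {Γ₀ : Type*} [LinearOrderedCommGroupWithZero Γ₀]
  {W' : Affine R} {v : Valuation K Γ₀}

lemma smul_some (σ : K ≃ₐ[S] K) {x y : K} (h : (W'⁄K).Nonsingular x y) :
    σ • Point.some x y h = Point.some (σ x) (σ y)
      ((W'.baseChange_nonsingular σ.toAlgHom.injective x y).mpr h) :=
  rfl

lemma val_apply_le_one {σ : K ≃ₐ[S] K} (hσ : ∀ t : K, v t ≤ 1 → v (σ t - t) < 1) {t : K}
    (ht : v t ≤ 1) : v (σ t) ≤ 1 := by
  have : σ t = (σ t - t) + t := by ring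
  rw [this]
  exact val_add_le_one (hσ t ht).le ht

/-- **Inertia fixes torsion points with nonsingular reduction.**
`hσ` says that `σ` acts trivially on the residue field; `hC1` says that the kernel of reduction
has no `n`-torsion. -/
theorem smul_eq_self_of_nonsingular_reduction (hW : IntegralCoeffs (W'⁄K) v)
    (σ : K ≃ₐ[S] K) (hσ : ∀ t : K, v t ≤ 1 → v (σ t - t) < 1) (n : ℤ)
    (hC1 : ∀ Q : (W'⁄K).Point, InKer (W'⁄K) v Q → n • Q = 0 → Q = 0)
    {x y : K} (h : (W'⁄K).Nonsingular x y) (hx : v x ≤ 1)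
    (hns : v ((W'⁄K).a₁ * y - (3 * x ^ 2 + 2 * (W'⁄K).a₂ * x + (W'⁄K).a₄)) = 1 ∨
      v (2 * y + (W'⁄K).a₁ * x + (W'⁄K).a₃) = 1)
    (hP : n • Point.some x y h = 0) :
    σ • Point.some x y h = Point.some x y h := by
  have hy : v y ≤ 1 := val_y_le_one hW h.1 hx
  have hker : InKer (W'⁄K) v (Point.some x y h - σ • Point.some x y h) := by
    rw [smul_some]
    refine inKer_sub_of_same_reduction hW h _ hx hy (val_apply_le_one hσ hx)
      (val_apply_le_one hσ hy) ?_ ?_ hns
    · rw [← Valuation.map_neg, neg_sub]; exact hσ x hx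
    · rw [← Valuation.map_neg, neg_sub]; exact hσ y hy
  have hn : n • (Point.some x y h - σ • Point.some x y h) = 0 := by
    rw [smul_sub, ← Point.algEquiv_smul_zsmul, hP, smul_zero, sub_zero]
  have := hC1 _ hker hn
  exact (sub_eq_zero.mp this).symm

/-- **Good reduction case**: if the discriminant is a `v`-unit, `σ` acts trivially on the residue
field and the kernel of reduction has no `n`-torsion, then `σ` fixes every `n`-torsion point. -/
theorem smul_eq_self_of_good_reduction (hW : IntegralCoeffs (W'⁄K) v)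
    (hΔ : v (W'⁄K).Δ = 1)
    (σ : K ≃ₐ[S] K) (hσ : ∀ t : K, v t ≤ 1 → v (σ t - t) < 1) (n : ℤ)
    (hC1 : ∀ Q : (W'⁄K).Point, InKer (W'⁄K) v Q → n • Q = 0 → Q = 0)
    (P : (W'⁄K).Point) (hP : n • P = 0) : σ • P = P := by
  rcases P with _ | ⟨x, y, h⟩
  · exact smul_zero σ
  · have hx : v x ≤ 1 := by
      by_contra hx
      rw [not_le] at hx
      exact Point.some_ne_zero h (hC1 _ ((inKer_some h).mpr hx) hP)
    exact smul_eq_self_of_nonsingular_reduction hW σ hσ n hC1 h hx
      (nonsingular_reduction_of_val_Δ hW hΔ h.1 hx) hP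

end galois

end Fermat.Agent.S05.GoodRed

end
-- ===== PACK-END S05/GoodRed.lean

-- ===== PACK-BEGIN S59/Arch/Spec.lean
section











/-!
# Row S59 — middle-layer interfaces (architecture draft, helper239)

Plan: `coord/S59-arch-helper239.md` on origin/helper239.  Only sorry-free definitions here.
Every `...Statement : Prop` is a deliverable (prove `theorem foo : ...Statement`), every
structure is an interface between layers.

* `CurveRep p W 𝒪`        : the `p`-adic Tate module of `W` with all its local properties (layer E).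
* `PointOfDatum H ρ`       : `ρ` is the specialisation of the Hecke–Galois datum `H` at an
                             `𝒪`-point of `T` ("`ρ` is modular of the level of `H`").
* `FrobExistsStatement`    : Frobenius elements exist at every prime.
* `semistableCond`         : the deformation condition satisfied by `CurveRep`.
* `SemistableMLTStatement` : the modularity lifting theorem in "point" form.
-/

set_option autoImplicit false

namespace Fermat.Agent.S59.Arch

open Polynomial WeierstrassCurve WeierstrassCurve.Affine WeierstrassCurve.Affine.Point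
open scoped WeierstrassCurve.Affine

/-- `ℚ̄` -/
abbrev Qb : Type := AlgebraicClosure ℚ

/-- `Gal(ℚ̄/ℚ)` -/
abbrev GQ : Type := Qb ≃ₐ[ℚ] Qb

/-- Frobenius elements exist: over every prime `ℓ` there is a valuation subring of `ℚ̄` and an
(arithmetic) Frobenius element for it. -/
def FrobExistsStatement : Prop :=
  ∀ ℓ : ℕ, ℓ.Prime → ∃ (A : ValuationSubring Qb) (σ : GQ), A.LiesOverPrime ℓ ∧
    A.IsFrobeniusAt σ ℓ

section CurveRep

variable (p : ℕ) [Fact p.Prime] (W : WeierstrassCurve ℤ)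
  (𝒪 : Type) [CommRing 𝒪] [IsLocalRing 𝒪]

/-- **Interface I0 (layer E).**  The `p`-adic Galois representation of the semistable curve `W`
(its Tate module, base changed to `𝒪`), with the local properties needed to make it a deformation
of `E[p]` of "semistable type". -/
structure CurveRep : Type 1 where
  /-- the representation -/
  ρ : GaloisRepAdic 𝒪
  /-- `E[p]` has `p²` points -/
  hcard : Nat.card (Submodule.torsionBy ℤ
      ((W.map (Int.castRingHom ℚ))⁄(AlgebraicClosure ℚ)).Point p) = p ^ 2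
  /-- the action on `E[p]` factors through a finite quotient -/
  hker : GaloisFactorsThroughFiniteLevel
      (WeierstrassCurve.Affine.Point.galoisRepModuleEnd (K := AlgebraicClosure ℚ) ℚ
        (W.map (Int.castRingHom ℚ)) p)
  /-- the residue field of `𝒪` is an extension of `𝔽_p` -/
  ι : ZMod p →+* IsLocalRing.ResidueField 𝒪
  /-- the reduction of `ρ` is `E[p]` -/
  residual : ρ.residual.IsEquiv
    (((W.map (Int.castRingHom ℚ)).residualGaloisRepOf p hcard hker).baseChangeAlong ι)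
  /-- Frobenius at the good primes `ℓ ≠ p` -/
  charpoly_frob : ∀ ℓ : ℕ, ℓ.Prime → W.IsGoodPrimeFor ℓ → ℓ ≠ p →
    ∀ A : ValuationSubring Qb, A.LiesOverPrime ℓ → ∀ σ : GQ, A.IsFrobeniusAt σ ℓ →
      LinearMap.charpoly (ρ.ρ σ) = X ^ 2 - C ((W.apOfModel ℓ : ℤ) : 𝒪) * X + C ((ℓ : 𝒪))
  /-- the determinant is the cyclotomic character -/
  det : ρ.DetIsCyclotomic p
  /-- unramified at the good primes `ℓ ≠ p` -/
  unram : ∀ ℓ : ℕ, ℓ.Prime → W.IsGoodPrimeFor ℓ → ℓ ≠ p → ρ.IsUnramifiedAt ℓ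
  /-- unipotent inertia at the bad primes `ℓ ≠ p` (semistability) -/
  unip : ∀ ℓ : ℕ, ℓ.Prime → ¬ W.IsGoodPrimeFor ℓ → ℓ ≠ p → ρ.IsUnipotentOnInertiaAt ℓ
  /-- flat at `p` if `W` has good reduction at `p` -/
  flat : W.IsGoodPrimeFor p → ρ.IsFlatAt p
  /-- strictly ordinary at `p` if `W` has multiplicative reduction at `p` -/
  ord : ¬ W.IsGoodPrimeFor p → ρ.IsStrictOrdinaryAt p

end CurveRep

/-- **Layer E deliverable.**  Every semistable `W` with irreducible `E[p]` (`p` odd) has a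
`CurveRep` over every complete DVR `𝒪` of characteristic zero and residue characteristic `p`
with finite residue field (in particular over `ℤ_p`). -/
def CurveRepStatement : Prop :=
  ∀ (p : ℕ) [Fact p.Prime] (_hp2 : p ≠ 2) (W : WeierstrassCurve ℤ) (_hΔ : W.Δ ≠ 0)
    (_hW : W.IsSemistableModel) (_hirr : W.ModRepIsIrreducible p)
    (𝒪 : Type) [CommRing 𝒪] [IsDomain 𝒪] [IsDiscreteValuationRing 𝒪]
    [IsAdicComplete (IsLocalRing.maximalIdeal 𝒪) 𝒪] [Finite (IsLocalRing.ResidueField 𝒪)]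
    [CharZero 𝒪] (_hp𝒪 : (p : 𝒪) ∈ IsLocalRing.maximalIdeal 𝒪),
    Nonempty (CurveRep p W 𝒪)

section Point

variable {N : ℕ} [NeZero N] {S : Set ℕ}
  {𝒪 : Type} [CommRing 𝒪] [IsDomain 𝒪] [IsDiscreteValuationRing 𝒪]
  [IsAdicComplete (IsLocalRing.maximalIdeal 𝒪) 𝒪]
  {θ : CuspForm.heckeAlgebra N 2 S →+* IsLocalRing.ResidueField 𝒪}
  {T : Type} [CommRing T] [IsLocalRing T] [IsNoetherianRing T]
  [IsAdicComplete (IsLocalRing.maximalIdeal T) T] [Algebra 𝒪 T] [IsLocalHom (algebraMap 𝒪 T)]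
  [Module.Finite 𝒪 T] [Module.Free 𝒪 T]

/-- `ρ` is the specialisation of the Hecke–Galois datum `H` at an `𝒪`-point of `T`. -/
def PointOfDatum (H : CuspForm.HeckeGaloisRepDatum N S 𝒪 θ T) (ρ : GaloisRepAdic 𝒪) : Prop :=
  ∃ (ψ : T →ₐ[𝒪] 𝒪) (hψ : IsLocalHom (ψ : T →+* 𝒪)),
    (H.ρ.baseChangeAlong (ψ : T →+* 𝒪) hψ).IsEquiv ρ

end Point

/-- The deformation condition of "semistable type" relative to a finite set `Σ` of primes
(`p ∈ Σ`): determinant cyclotomic, unramified outside `Σ`, unipotent inertia at the primes of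
`Σ` different from `p`, and at `p`: flat (`ord = false`) or strictly ordinary (`ord = true`).
For `Σ = Smin ∪ Q` with the unipotent condition only at `Smin` one gets the conditions of S56;
here the unipotent condition is imposed on ALL of `Σ` (this is the type of `CurveRep` with
`Σ = {p} ∪ bad primes`). -/
def semistableCond (𝒪 : Type) [CommRing 𝒪] (p : ℕ) (Sig : Finset ℕ) (ord : Bool) :
    ∀ ⦃A : Type⦄ [CommRing A] [IsLocalRing A] [Algebra 𝒪 A], GaloisRepAdic A → Prop :=
  fun _A _ _ _ ρ =>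
    (if ord then GaloisRep.minimalStrictOrdinaryCondition 𝒪 p Sig ρ
      else GaloisRep.minimalFlatCondition 𝒪 p Sig ρ)

/-- **The modularity lifting theorem in point form** (this is where `R = T` lives).
For `p ∈ {3, 5}` and `W` as in S59 there are a cube-free level `N` (prime to `p²`, divisible by
the bad primes), a finite set `S` of primes (`= {p} ∪ primes of N`) and a Hecke–Galois datum `H`
of level `N` away from `S` over `𝒪 = ` any complete DVR as above, such that every `CurveRep` of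
`W` over `𝒪` is a point of `H`. -/
def SemistableMLTStatement : Prop :=
  ∀ (p : ℕ) [Fact p.Prime] (_hp : p = 3 ∨ p = 5)
    (W : WeierstrassCurve ℤ) (_hΔ : W.Δ ≠ 0) (_hW : W.IsSemistableModel)
    (_hirr : W.ModRepIsIrreducible p)
    (M₀ : ℕ) [NeZero M₀] (_hres₀ : W.IsResiduallyModularOfLevel p M₀)
    (_hM₀ : ¬ p ^ 2 ∣ M₀)
    (_hM₀3 : ∀ q : ℕ, q.Prime → q ≠ p → ¬ q ^ 3 ∣ M₀)
    (𝒪 : Type) [CommRing 𝒪] [IsDomain 𝒪] [IsDiscreteValuationRing 𝒪]
    [IsAdicComplete (IsLocalRing.maximalIdeal 𝒪) 𝒪] [Finite (IsLocalRing.ResidueField 𝒪)]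
    [CharZero 𝒪] (_hp𝒪 : (p : 𝒪) ∈ IsLocalRing.maximalIdeal 𝒪)
    (ρW : CurveRep p W 𝒪),
    ∃ (N : ℕ) (_ : NeZero N) (S : Finset ℕ),
      ¬ p ^ 2 ∣ N ∧ (∀ q : ℕ, q.Prime → ¬ q ^ 3 ∣ N) ∧
      (∀ ℓ : ℕ, ℓ.Prime → (ℓ : ℤ) ∣ W.Δ → ℓ ∣ N) ∧
      (∀ ℓ ∈ S, ℓ.Prime) ∧ (∀ ℓ ∈ S, ℓ = p ∨ ℓ ∣ N) ∧ p ∈ S ∧
      (∀ q : ℕ, q.Prime → q ∣ N → q ∈ S) ∧
      ∃ (θ : CuspForm.heckeAlgebra N 2 (↑S : Set ℕ) →+* IsLocalRing.ResidueField 𝒪)
        (T : Type) (_ : CommRing T) (_ : IsLocalRing T) (_ : IsNoetherianRing T)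
        (_ : IsAdicComplete (IsLocalRing.maximalIdeal T) T) (_ : Algebra 𝒪 T)
        (_ : IsLocalHom (algebraMap 𝒪 T)) (_ : Module.Finite 𝒪 T) (_ : Module.Free 𝒪 T)
        (H : CuspForm.HeckeGaloisRepDatum N (↑S : Set ℕ) 𝒪 θ T),
        PointOfDatum H ρW.ρ

end Fermat.Agent.S59.Arch

end
-- ===== PACK-END S59/Arch/Spec.lean

-- ===== PACK-BEGIN S13/H891/LadderDeg.lean
section



/-!
# S13 / T1: degrees and leading coefficients of the ladder polynomials
-/

open Polynomial

namespace Fermat.Agent.S13.H891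

variable {R : Type*} [CommRing R]

/-- `DC p n c`: `p` has degree at most `n` and its `n`-th coefficient is `c` -/
def DC (p : R[X]) (n : ℕ) (c : R) : Prop := p.natDegree ≤ n ∧ p.coeff n = c

namespace DC

variable {p q : R[X]} {n m : ℕ} {a b : R}

lemma mul (hp : DC p n a) (hq : DC q m b) : DC (p * q) (n + m) (a * b) :=
  ⟨natDegree_mul_le_of_le hp.1 hq.1, by
    rw [coeff_mul_add_eq_of_natDegree_le hp.1 hq.1, hp.2, hq.2]⟩

lemma pow (hp : DC p n a) (e : ℕ) : DC (p ^ e) (e * n) (a ^ e) :=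
  ⟨natDegree_pow_le_of_le e hp.1, by rw [coeff_pow_of_natDegree_le hp.1, hp.2]⟩

lemma add (hp : DC p n a) (hq : DC q n b) : DC (p + q) n (a + b) :=
  ⟨natDegree_add_le_of_degree_le hp.1 hq.1, by rw [coeff_add, hp.2, hq.2]⟩

lemma sub (hp : DC p n a) (hq : DC q n b) : DC (p - q) n (a - b) :=
  ⟨(natDegree_sub_le_of_le hp.1 hq.1).trans (by simp), by rw [coeff_sub, hp.2, hq.2]⟩

lemma of_lt (hp : p.natDegree ≤ m) (h : m < n) : DC p n 0 :=
  ⟨hp.trans h.le, coeff_eq_zero_of_natDegree_lt (lt_of_le_of_lt hp h)⟩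

lemma congr (hp : DC p n a) (hn : n = m) (ha : a = b) : DC p m b := by
  subst hn; subst ha; exact hp

lemma C_mul (r : R) (hp : DC p n a) : DC (C r * p) n (r * a) :=
  ⟨(natDegree_C_mul_le r p).trans hp.1, by rw [coeff_C_mul, hp.2]⟩

lemma natCast_mul (r : ℕ) (hp : DC p n a) : DC ((r : R[X]) * p) n ((r : R) * a) := by
  have : ((r : R[X])) = C (r : R) := by simp
  rw [this]; exact hp.C_mul _

lemma X : DC (Polynomial.X : R[X]) 1 1 := ⟨natDegree_X_le, coeff_X_one⟩

end DC

variable (b₂ b₄ b₆ b₈ : R)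

/-- the ladder polynomial `N_k` -/
noncomputable def polyN (k : ℕ) : R[X] := ladN (C b₂) (C b₄) (C b₆) (C b₈) Polynomial.X k
/-- the ladder polynomial `D_k` -/
noncomputable def polyD (k : ℕ) : R[X] := ladD (C b₂) (C b₄) (C b₆) (C b₈) Polynomial.X k
/-- the polynomial `W_k = N_k D_{k+1} - N_{k+1} D_k`; for `n = 2k+1` this is the `n`-division
polynomial up to sign -/
noncomputable def polyW (k : ℕ) : R[X] :=
  addW (polyN b₂ b₄ b₆ b₈ k) (polyD b₂ b₄ b₆ b₈ k) (polyN b₂ b₄ b₆ b₈ (k+1))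
    (polyD b₂ b₄ b₆ b₈ (k+1))

lemma eval_polyN (x : R) (k : ℕ) : (polyN b₂ b₄ b₆ b₈ k).eval x = ladN b₂ b₄ b₆ b₈ x k := by
  have := map_ladN (C b₂) (C b₄) (C b₆) (C b₈) (Polynomial.X : R[X]) (evalRingHom x) k
  simp only [coe_evalRingHom, eval_C, eval_X] at this
  rw [polyN, this]

lemma eval_polyD (x : R) (k : ℕ) : (polyD b₂ b₄ b₆ b₈ k).eval x = ladD b₂ b₄ b₆ b₈ x k := by
  have := map_ladD (C b₂) (C b₄) (C b₆) (C b₈) (Polynomial.X : R[X]) (evalRingHom x) k
  simp only [coe_evalRingHom, eval_C, eval_X] at this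
  rw [polyD, this]

lemma eval_polyW (x : R) (k : ℕ) : (polyW b₂ b₄ b₆ b₈ k).eval x =
    addW (ladN b₂ b₄ b₆ b₈ x k) (ladD b₂ b₄ b₆ b₈ x k) (ladN b₂ b₄ b₆ b₈ x (k+1))
      (ladD b₂ b₄ b₆ b₈ x (k+1)) := by
  simp only [polyW, addW, eval_sub, eval_mul, eval_polyN, eval_polyD]

section map

variable {S : Type*} [CommRing S] (φ : R →+* S)

lemma map_polyN (k : ℕ) :
    (polyN b₂ b₄ b₆ b₈ k).map φ = polyN (φ b₂) (φ b₄) (φ b₆) (φ b₈) k := by
  have := map_ladN (C b₂) (C b₄) (C b₆) (C b₈) (Polynomial.X : R[X]) (mapRingHom φ) k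
  simp only [coe_mapRingHom, map_C, map_X] at this
  rw [polyN, polyN, this]

lemma map_polyD (k : ℕ) :
    (polyD b₂ b₄ b₆ b₈ k).map φ = polyD (φ b₂) (φ b₄) (φ b₆) (φ b₈) k := by
  have := map_ladD (C b₂) (C b₄) (C b₆) (C b₈) (Polynomial.X : R[X]) (mapRingHom φ) k
  simp only [coe_mapRingHom, map_C, map_X] at this
  rw [polyD, polyD, this]

lemma map_polyW (k : ℕ) :
    (polyW b₂ b₄ b₆ b₈ k).map φ = polyW (φ b₂) (φ b₄) (φ b₆) (φ b₈) k := by
  simp only [polyW, addW, Polynomial.map_sub, Polynomial.map_mul, map_polyN, map_polyD]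

end map

/-- degree and leading coefficient of `N_k`, `D_k` -/
theorem dc_poly (k : ℕ) (hk : 1 ≤ k) :
    DC (polyN b₂ b₄ b₆ b₈ k) (k^2) 1 ∧ DC (polyD b₂ b₄ b₆ b₈ k) (k^2 - 1) ((k : R)^2) := by
  revert hk
  refine ladder_induction (P := fun k => DC (polyN b₂ b₄ b₆ b₈ k) (k^2) 1 ∧
    DC (polyD b₂ b₄ b₆ b₈ k) (k^2 - 1) ((k : R)^2)) ?_ ?_ ?_ k
  · constructor
    · simp only [polyN, ladN_one]
      exact DC.X.congr (by norm_num) rfl
    · simp only [polyD, ladD_one]
      exact ⟨by simp, by simp⟩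
  · -- doubling
    intro k hk ⟨hN, hD⟩
    have ha : 1 ≤ k^2 := Nat.one_le_pow _ _ hk
    have e2 : (2*k)^2 = 4 * k^2 := by ring
    generalize hA : k^2 = A at hN hD ha e2
    set N := polyN b₂ b₄ b₆ b₈ k with hNdef
    set D := polyD b₂ b₄ b₆ b₈ k with hDdef
    constructor
    · have e : polyN b₂ b₄ b₆ b₈ (2*k) = N^4 - C b₄ * N^2 * D^2 - 2 * C b₆ * N * D^3
          - C b₈ * D^4 := by
        rw [polyN, ladN_even _ _ _ _ _ k hk]; rfl
      rw [e, e2]
      have t1 : DC (N^4) (4*A) 1 := (hN.pow 4).congr rfl (by simp)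
      have t2 : DC (C b₄ * N^2 * D^2) (4*A) 0 := by
        refine DC.of_lt (m := 2*A + 2*(A-1)) ?_ (by omega)
        exact natDegree_mul_le_of_le ((natDegree_C_mul_le _ _).trans (hN.pow 2).1) (hD.pow 2).1
      have t3 : DC (2 * C b₆ * N * D^3) (4*A) 0 := by
        refine DC.of_lt (m := A + 3*(A-1)) ?_ (by omega)
        have : (2 : R[X]) * C b₆ = C (2 * b₆) := by rw [map_mul, map_ofNat]
        rw [this]
        exact natDegree_mul_le_of_le ((natDegree_C_mul_le _ _).trans hN.1) (hD.pow 3).1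
      have t4 : DC (C b₈ * D^4) (4*A) 0 := by
        refine DC.of_lt (m := 4*(A-1)) ?_ (by omega)
        exact (natDegree_C_mul_le _ _).trans (hD.pow 4).1
      exact (((t1.sub t2).sub t3).sub t4).congr rfl (by ring)
    · have e : polyD b₂ b₄ b₆ b₈ (2*k) = D * (4 * N^3 + C b₂ * N^2 * D + 2 * C b₄ * N * D^2
          + C b₆ * D^3) := by
        rw [polyD, ladD_even _ _ _ _ _ k hk]; rfl
      rw [e, e2]
      have t1 : DC (4 * N^3) (3*A) 4 := by
        have : (4 : R[X]) = C 4 := (map_ofNat C 4).symm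
        rw [this]
        exact ((hN.pow 3).C_mul 4).congr rfl (by simp)
      have t2 : DC (C b₂ * N^2 * D) (3*A) 0 := by
        refine DC.of_lt (m := 2*A + (A-1)) ?_ (by omega)
        exact natDegree_mul_le_of_le ((natDegree_C_mul_le _ _).trans (hN.pow 2).1) hD.1
      have t3 : DC (2 * C b₄ * N * D^2) (3*A) 0 := by
        refine DC.of_lt (m := A + 2*(A-1)) ?_ (by omega)
        have : (2 : R[X]) * C b₄ = C (2 * b₄) := by rw [map_mul, map_ofNat]
        rw [this]
        exact natDegree_mul_le_of_le ((natDegree_C_mul_le _ _).trans hN.1) (hD.pow 2).1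
      have t4 : DC (C b₆ * D^3) (3*A) 0 := by
        refine DC.of_lt (m := 3*(A-1)) ?_ (by omega)
        exact (natDegree_C_mul_le _ _).trans (hD.pow 3).1
      refine (hD.mul (((t1.add t2).add t3).add t4)).congr (by omega) ?_
      push_cast; ring
  · -- differential addition
    intro k hk ⟨hN, hD⟩ ⟨hN', hD'⟩
    have ha : 1 ≤ k^2 := Nat.one_le_pow _ _ hk
    have e1 : (k+1)^2 = k^2 + 2*k + 1 := by ring
    have e2 : (2*k+1)^2 = 4 * k^2 + 4*k + 1 := by ring
    rw [e1] at hN' hD'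
    generalize hA : k^2 = A at hN hD hN' hD' ha e1 e2
    set N := polyN b₂ b₄ b₆ b₈ k with hNdef
    set D := polyD b₂ b₄ b₆ b₈ k with hDdef
    set N' := polyN b₂ b₄ b₆ b₈ (k+1) with hN'def
    set D' := polyD b₂ b₄ b₆ b₈ (k+1) with hD'def
    have hW : DC (N * D' - N' * D) (2*A + 2*k) (((k:R)+1)^2 - (k:R)^2) := by
      have t1 : DC (N * D') (2*A + 2*k) (((k:R)+1)^2) :=
        (hN.mul hD').congr (by omega) (by push_cast; ring)
      have t2 : DC (N' * D) (2*A + 2*k) ((k:R)^2) :=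
        (hN'.mul hD).congr (by omega) (by ring)
      exact t1.sub t2
    have hV : DC (N * D' + N' * D) (2*A + 2*k) (((k:R)+1)^2 + (k:R)^2) := by
      have t1 : DC (N * D') (2*A + 2*k) (((k:R)+1)^2) :=
        (hN.mul hD').congr (by omega) (by push_cast; ring)
      have t2 : DC (N' * D) (2*A + 2*k) ((k:R)^2) :=
        (hN'.mul hD).congr (by omega) (by ring)
      exact t1.add t2
    constructor
    · have e : polyN b₂ b₄ b₆ b₈ (2*k+1) =
          (2 * N * N' * (N * D' + N' * D) + C b₂ * N * N' * D * D'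
            + C b₄ * D * D' * (N * D' + N' * D) + C b₆ * D^2 * D'^2)
          - Polynomial.X * (N * D' - N' * D)^2 := by
        rw [polyN, ladN_odd _ _ _ _ _ k hk]; rfl
      rw [e, e2]
      have t1 : DC (2 * N * N' * (N * D' + N' * D)) (4*A + 4*k + 1)
          (2 * (((k:R)+1)^2 + (k:R)^2)) := by
        have h2 : (2 : R[X]) * N = C 2 * N := by rw [map_ofNat]
        rw [h2]
        refine (((hN.C_mul 2).mul hN').mul hV).congr (by omega) (by ring)
      have t2 : DC (C b₂ * N * N' * D * D') (4*A + 4*k + 1) 0 := by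
        refine DC.of_lt (m := A + (A + 2*k + 1) + (A - 1) + (A + 2*k + 1 - 1)) ?_ (by omega)
        exact natDegree_mul_le_of_le (natDegree_mul_le_of_le (natDegree_mul_le_of_le
          ((natDegree_C_mul_le _ _).trans hN.1) hN'.1) hD.1) hD'.1
      have t3 : DC (C b₄ * D * D' * (N * D' + N' * D)) (4*A + 4*k + 1) 0 := by
        refine DC.of_lt (m := (A - 1) + (A + 2*k + 1 - 1) + (2*A + 2*k)) ?_ (by omega)
        exact natDegree_mul_le_of_le (natDegree_mul_le_of_le
          ((natDegree_C_mul_le _ _).trans hD.1) hD'.1) hV.1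
      have t4 : DC (C b₆ * D^2 * D'^2) (4*A + 4*k + 1) 0 := by
        refine DC.of_lt (m := 2*(A - 1) + 2*(A + 2*k + 1 - 1)) ?_ (by omega)
        exact natDegree_mul_le_of_le ((natDegree_C_mul_le _ _).trans (hD.pow 2).1) (hD'.pow 2).1
      have t5 : DC (Polynomial.X * (N * D' - N' * D)^2) (4*A + 4*k + 1)
          ((((k:R)+1)^2 - (k:R)^2)^2) :=
        (DC.X.mul (hW.pow 2)).congr (by omega) (by ring)
      exact ((((t1.add t2).add t3).add t4).sub t5).congr rfl (by ring)
    · have e : polyD b₂ b₄ b₆ b₈ (2*k+1) = (N * D' - N' * D)^2 := by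
        rw [polyD, ladD_odd _ _ _ _ _ k hk]; rfl
      rw [e, e2]
      exact (hW.pow 2).congr (by omega) (by push_cast; ring)

/-- degree and leading coefficient of `W_k` -/
theorem dc_polyW (k : ℕ) (hk : 1 ≤ k) :
    DC (polyW b₂ b₄ b₆ b₈ k) (2*k^2 + 2*k) ((2*k+1 : ℕ) : R) := by
  obtain ⟨hN, hD⟩ := dc_poly b₂ b₄ b₆ b₈ k hk
  obtain ⟨hN', hD'⟩ := dc_poly b₂ b₄ b₆ b₈ (k+1) (by omega)
  have ha : 1 ≤ k^2 := Nat.one_le_pow _ _ hk
  have e1 : (k+1)^2 = k^2 + 2*k + 1 := by ring
  rw [e1] at hN' hD'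
  generalize hA : k^2 = A at hN hD hN' hD' ha e1
  have t1 : DC (polyN b₂ b₄ b₆ b₈ k * polyD b₂ b₄ b₆ b₈ (k+1)) (2*A + 2*k) (((k:R)+1)^2) :=
    (hN.mul hD').congr (by omega) (by push_cast; ring)
  have t2 : DC (polyN b₂ b₄ b₆ b₈ (k+1) * polyD b₂ b₄ b₆ b₈ k) (2*A + 2*k) ((k:R)^2) :=
    (hN'.mul hD).congr (by omega) (by ring)
  exact (t1.sub t2).congr rfl (by push_cast; ring)

end Fermat.Agent.S13.H891

end
-- ===== PACK-END S13/H891/LadderDeg.lean

-- ===== PACK-BEGIN S59/H127/TateEnd.lean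
section



/-!
# E-side foundation, part 4: the `p`-adic Tate module of a `p`-divisible group, in coordinates

Abstract algebra (Mathlib only).  Let `cb : CompatBasis A p h` be a compatible system of bases of
the `p^k`-torsion of an abelian group `A`.  We realise the Tate module `T_p A = lim A[p^k]` as
`V = Fin h → ℤ_[p]` via the comparison map

  `cb.Φ : (Fin h → ℤ_[p]) → ℕ → A`,   `Φ a k = ∑ i, (a i mod p^k) • B k i`

which is an additive bijection onto the compatible sequences (`Φ_injective`, `Φ_surjective`), and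
construct the **ring homomorphism**

  `cb.tateEnd : AddMonoid.End A →+* Module.End ℤ_[p] (Fin h → ℤ_[p])`

characterised by `Φ (tateEnd f a) k = f (Φ a k)` (`Φ_tateEnd`).  If `f` kills `A[p^n]` then
`tateEnd f` has image in `p^n V` (`tateEnd_mem_smul_top`).  For a group `G` acting on `A` by
additive automorphisms this gives `cb.tateRep : G →* Module.End ℤ_[p] (Fin h → ℤ_[p])`.
-/

open PadicInt

namespace Fermat.Agent.S59.H127

variable {A : Type*} [AddCommGroup A] {p h : ℕ} [hp : Fact p.Prime]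

section padic

/-- an integer `n` represents `x mod p^k` iff `x - n ∈ (p^k)` -/
lemma intCast_eq_toZModPow_iff (k : ℕ) (n : ℤ) (x : ℤ_[p]) :
    ((n : ℤ) : ZMod (p ^ k)) = toZModPow k x ↔ x - (n : ℤ_[p]) ∈ Ideal.span {(p : ℤ_[p]) ^ k} := by
  rw [← ker_toZModPow, RingHom.mem_ker, map_sub, map_intCast, sub_eq_zero, eq_comm]

lemma appr_cast_eq_toZModPow (k : ℕ) (x : ℤ_[p]) :
    (((x.appr k : ℕ) : ℤ) : ZMod (p ^ k)) = toZModPow k x := by
  rw [intCast_eq_toZModPow_iff, Int.cast_natCast]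
  exact appr_spec k x

lemma intCast_eq_toZModPow_of_le {k m : ℕ} (hkm : k ≤ m) {n : ℤ} {x : ℤ_[p]}
    (hn : ((n : ℤ) : ZMod (p ^ m)) = toZModPow m x) :
    ((n : ℤ) : ZMod (p ^ k)) = toZModPow k x := by
  rw [intCast_eq_toZModPow_iff] at hn ⊢
  have hle : Ideal.span {(p : ℤ_[p]) ^ m} ≤ Ideal.span {(p : ℤ_[p]) ^ k} := by
    rw [Ideal.span_singleton_le_span_singleton]
    exact pow_dvd_pow _ hkm
  exact hle hn

end padic

namespace CompatBasis

variable (cb : CompatBasis A p h)

omit hp in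
lemma pow_smul (j k : ℕ) (i : Fin h) : p ^ j • cb.B (k + j) i = cb.B k i :=
  pow_smul_of_succ cb.succ j k i

omit hp in
lemma pow_smul_self (k : ℕ) (i : Fin h) : p ^ k • cb.B k i = 0 := by
  have := cb.pow_smul k 0 i
  rw [zero_add] at this
  rw [this, cb.zero]

omit hp in
/-- integer combinations of `B k` only depend on the coefficients modulo `p^k` -/
lemma sum_eq_iff (k : ℕ) (c c' : Fin h → ℤ) :
    ∑ i, c i • cb.B k i = ∑ i, c' i • cb.B k i ↔ ∀ i, ((p : ℤ) ^ k) ∣ c i - c' i := by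
  constructor
  · intro hcc
    apply cb.indep k
    rw [← sub_eq_zero, ← Finset.sum_sub_distrib] at hcc
    rw [← hcc]
    exact Finset.sum_congr rfl fun j _ => sub_smul _ _ _
  · intro hcc
    rw [← sub_eq_zero, ← Finset.sum_sub_distrib]
    apply Finset.sum_eq_zero
    intro j _
    obtain ⟨d, hd⟩ := hcc j
    rw [← sub_smul, hd, mul_comm, mul_smul, ← Nat.cast_pow, natCast_zsmul, cb.pow_smul_self,
      smul_zero]

omit hp in
lemma sum_mem_torsion (k : ℕ) (c : Fin h → ℤ) : p ^ k • ∑ i, c i • cb.B k i = 0 := by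
  rw [Finset.smul_sum]
  apply Finset.sum_eq_zero
  intro j _
  rw [smul_comm, cb.pow_smul_self, smul_zero]

/-- the comparison map from `ℤ_p^h` to sequences in `A` -/
noncomputable def Φ (a : Fin h → ℤ_[p]) (k : ℕ) : A :=
  ∑ i, (((a i).appr k : ℕ) : ℤ) • cb.B k i

/-- `Φ a k` can be computed with any integer representatives of `a i mod p^k` -/
lemma Φ_eq_of_cast (a : Fin h → ℤ_[p]) (k : ℕ) (c : Fin h → ℤ)
    (hc : ∀ i, ((c i : ℤ) : ZMod (p ^ k)) = toZModPow k (a i)) :
    cb.Φ a k = ∑ i, c i • cb.B k i := by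
  unfold Φ
  rw [cb.sum_eq_iff]
  intro i
  have h1 := appr_cast_eq_toZModPow k (a i)
  rw [← hc i, ZMod.intCast_eq_intCast_iff_dvd_sub] at h1
  rw [← Nat.cast_pow]
  have := (dvd_neg.mpr h1)
  rwa [neg_sub] at this

lemma Φ_torsion (a : Fin h → ℤ_[p]) (k : ℕ) : p ^ k • cb.Φ a k = 0 :=
  cb.sum_mem_torsion k _

lemma Φ_zero_right (a : Fin h → ℤ_[p]) : cb.Φ a 0 = 0 := by
  have := cb.Φ_torsion a 0
  rwa [pow_zero, one_smul] at this

lemma Φ_succ (a : Fin h → ℤ_[p]) (k : ℕ) : p • cb.Φ a (k + 1) = cb.Φ a k := by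
  have h1 : cb.Φ a k = ∑ i, (((a i).appr (k + 1) : ℕ) : ℤ) • cb.B k i :=
    cb.Φ_eq_of_cast a k _ fun i =>
      intCast_eq_toZModPow_of_le (Nat.le_succ k) (appr_cast_eq_toZModPow (k + 1) (a i))
  rw [h1, Φ, Finset.smul_sum]
  refine Finset.sum_congr rfl fun j _ => ?_
  rw [smul_comm, cb.succ]

lemma Φ_add (a b : Fin h → ℤ_[p]) (k : ℕ) : cb.Φ (a + b) k = cb.Φ a k + cb.Φ b k := by
  rw [cb.Φ_eq_of_cast (a + b) k (fun i => (((a i).appr k : ℕ) : ℤ) + (((b i).appr k : ℕ) : ℤ))]
  · rw [Φ, Φ, ← Finset.sum_add_distrib]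
    exact Finset.sum_congr rfl fun j _ => add_smul _ _ _
  · intro i
    rw [Int.cast_add, appr_cast_eq_toZModPow, appr_cast_eq_toZModPow, Pi.add_apply, map_add]

lemma Φ_smul (c : ℤ_[p]) (a : Fin h → ℤ_[p]) (k : ℕ) :
    cb.Φ (c • a) k = (c.appr k) • cb.Φ a k := by
  rw [cb.Φ_eq_of_cast (c • a) k (fun i => ((c.appr k : ℕ) : ℤ) * (((a i).appr k : ℕ) : ℤ))]
  · rw [Φ, Finset.smul_sum]
    refine Finset.sum_congr rfl fun j _ => ?_
    rw [mul_smul, natCast_zsmul]
  · intro i
    rw [Int.cast_mul, appr_cast_eq_toZModPow, appr_cast_eq_toZModPow, Pi.smul_apply, smul_eq_mul,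
      map_mul]

lemma Φ_zero_left (k : ℕ) : cb.Φ (0 : Fin h → ℤ_[p]) k = 0 := by
  have := cb.Φ_add 0 0 k
  rw [add_zero] at this
  exact left_eq_add.mp this

/-- `Φ a k = 0` iff all coordinates of `a` are divisible by `p^k` -/
lemma Φ_eq_zero_iff (a : Fin h → ℤ_[p]) (k : ℕ) :
    cb.Φ a k = 0 ↔ ∀ i, a i ∈ Ideal.span {(p : ℤ_[p]) ^ k} := by
  have h0 : (0 : A) = ∑ i, (fun _ => (0 : ℤ)) i • cb.B k i := by simp
  rw [Φ, h0, cb.sum_eq_iff]
  refine forall_congr' fun i => ?_
  rw [sub_zero, ← ker_toZModPow, RingHom.mem_ker, ← appr_cast_eq_toZModPow, ← Nat.cast_pow,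
    ZMod.intCast_zmod_eq_zero_iff_dvd]

lemma Φ_eq_iff (a b : Fin h → ℤ_[p]) (k : ℕ) :
    cb.Φ a k = cb.Φ b k ↔ ∀ i, toZModPow k (a i) = toZModPow k (b i) := by
  rw [Φ, Φ, cb.sum_eq_iff]
  refine forall_congr' fun i => ?_
  rw [← appr_cast_eq_toZModPow, ← appr_cast_eq_toZModPow, ← Nat.cast_pow,
    ZMod.intCast_eq_intCast_iff_dvd_sub, ← dvd_neg, neg_sub]

theorem Φ_injective {a b : Fin h → ℤ_[p]} (hab : ∀ k, cb.Φ a k = cb.Φ b k) : a = b := by
  funext i
  apply ext_of_toZModPow.mp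
  intro k
  exact (cb.Φ_eq_iff a b k).mp (hab k) i

/-- every element of `A[p^k]` is of the form `Φ a k` -/
theorem Φ_surjective_level (k : ℕ) (x : A) (hx : p ^ k • x = 0) :
    ∃ a : Fin h → ℤ_[p], cb.Φ a k = x := by
  obtain ⟨c, hc⟩ := cb.span k x hx
  refine ⟨fun i => (c i : ℤ_[p]), ?_⟩
  rw [hc]
  apply cb.Φ_eq_of_cast
  intro i
  rw [map_intCast]

/-- `Φ` of a standard basis vector is the corresponding basis element -/
lemma Φ_single (j : Fin h) (k : ℕ) : cb.Φ (Pi.single j (1 : ℤ_[p])) k = cb.B k j := by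
  classical
  rw [cb.Φ_eq_of_cast (Pi.single j (1 : ℤ_[p])) k (Pi.single j (1 : ℤ))]
  · rw [Finset.sum_eq_single j]
    · rw [Pi.single_eq_same, one_smul]
    · intro i _ hij
      rw [Pi.single_eq_of_ne hij, zero_smul]
    · intro hj
      exact absurd (Finset.mem_univ j) hj
  · intro i
    by_cases hij : i = j
    · subst hij
      rw [Pi.single_eq_same, Pi.single_eq_same, Int.cast_one, map_one]
    · rw [Pi.single_eq_of_ne hij, Pi.single_eq_of_ne hij, Int.cast_zero, map_zero]

/-- every compatible sequence is of the form `Φ a` -/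
theorem Φ_surjective (x : ℕ → A) (hx0 : x 0 = 0) (hx : ∀ k, p • x (k + 1) = x k) :
    ∃ a : Fin h → ℤ_[p], ∀ k, cb.Φ a k = x k := by
  have hxk : ∀ k, p ^ k • x k = 0 := by
    intro k
    induction k with
    | zero => rw [pow_zero, one_smul, hx0]
    | succ k ih => rw [pow_succ, mul_smul, hx, ih]
  choose c hc using fun k => cb.span k (x k) (hxk k)
  have hcompat : ∀ i k, ((p : ℤ) ^ k) ∣ c (k + 1) i - c k i := by
    intro i k
    revert i
    rw [← cb.sum_eq_iff, ← hc k, ← hx k, hc (k + 1), Finset.smul_sum]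
    refine Finset.sum_congr rfl fun j _ => ?_
    rw [smul_comm, cb.succ]
  refine ⟨fun i => PadicInt.ofIntSeq _
    (isCauSeq_padicNorm_of_pow_dvd_sub (fun k => c k i) p (hcompat i)), fun k => ?_⟩
  rw [hc k]
  apply cb.Φ_eq_of_cast
  intro i
  rw [toZModPow_ofIntSeq_of_pow_dvd_sub (fun k => c k i) p (hcompat i) k]

section endo

/-- the action of an additive endomorphism on the coordinates: existence -/
lemma exists_tateFun (f : AddMonoid.End A) (a : Fin h → ℤ_[p]) :
    ∃ b : Fin h → ℤ_[p], ∀ k, cb.Φ b k = f (cb.Φ a k) := by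
  apply cb.Φ_surjective
  · rw [cb.Φ_zero_right, map_zero]
  · intro k
    rw [← map_nsmul, cb.Φ_succ]

/-- the action of an additive endomorphism of `A` on `ℤ_p^h` -/
noncomputable def tateFun (f : AddMonoid.End A) (a : Fin h → ℤ_[p]) : Fin h → ℤ_[p] :=
  Classical.choose (cb.exists_tateFun f a)

lemma Φ_tateFun (f : AddMonoid.End A) (a : Fin h → ℤ_[p]) (k : ℕ) :
    cb.Φ (cb.tateFun f a) k = f (cb.Φ a k) :=
  Classical.choose_spec (cb.exists_tateFun f a) k

/-- the action of an additive endomorphism of `A` on `ℤ_p^h`, as a `ℤ_p`-linear map -/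
noncomputable def tateLin (f : AddMonoid.End A) : (Fin h → ℤ_[p]) →ₗ[ℤ_[p]] (Fin h → ℤ_[p]) where
  toFun := cb.tateFun f
  map_add' a b := by
    apply cb.Φ_injective
    intro k
    rw [cb.Φ_tateFun, cb.Φ_add, cb.Φ_add, map_add, cb.Φ_tateFun, cb.Φ_tateFun]
  map_smul' c a := by
    apply cb.Φ_injective
    intro k
    rw [cb.Φ_tateFun, RingHom.id_apply, cb.Φ_smul, cb.Φ_smul, map_nsmul, cb.Φ_tateFun]

lemma Φ_tateLin (f : AddMonoid.End A) (a : Fin h → ℤ_[p]) (k : ℕ) :
    cb.Φ (cb.tateLin f a) k = f (cb.Φ a k) :=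
  cb.Φ_tateFun f a k

/-- **the Tate-module functor on endomorphisms**: a ring homomorphism
`End(A) → End_{ℤ_p}(ℤ_p^h)` -/
noncomputable def tateEnd : AddMonoid.End A →+* Module.End ℤ_[p] (Fin h → ℤ_[p]) where
  toFun f := cb.tateLin f
  map_one' := by
    apply LinearMap.ext
    intro a
    apply cb.Φ_injective
    intro k
    rw [cb.Φ_tateLin]
    rfl
  map_mul' f g := by
    apply LinearMap.ext
    intro a
    apply cb.Φ_injective
    intro k
    rw [cb.Φ_tateLin, Module.End.mul_apply, cb.Φ_tateLin, cb.Φ_tateLin]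
    rfl
  map_zero' := by
    apply LinearMap.ext
    intro a
    apply cb.Φ_injective
    intro k
    rw [cb.Φ_tateLin, LinearMap.zero_apply, cb.Φ_zero_left]
    rfl
  map_add' f g := by
    apply LinearMap.ext
    intro a
    apply cb.Φ_injective
    intro k
    rw [cb.Φ_tateLin, LinearMap.add_apply, cb.Φ_add, cb.Φ_tateLin, cb.Φ_tateLin]
    rfl

@[simp] lemma Φ_tateEnd (f : AddMonoid.End A) (a : Fin h → ℤ_[p]) (k : ℕ) :
    cb.Φ (cb.tateEnd f a) k = f (cb.Φ a k) :=
  cb.Φ_tateFun f a k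

/-- if `f` kills `A[p^n]` then `tateEnd f` maps into `p^n ℤ_p^h` (coordinatewise) -/
theorem tateEnd_apply_mem_span (f : AddMonoid.End A) (n : ℕ)
    (hf : ∀ x : A, p ^ n • x = 0 → f x = 0) (a : Fin h → ℤ_[p]) (i : Fin h) :
    cb.tateEnd f a i ∈ Ideal.span {(p : ℤ_[p]) ^ n} := by
  have h1 : cb.Φ (cb.tateEnd f a) n = 0 := by
    rw [cb.Φ_tateEnd]
    exact hf _ (cb.Φ_torsion a n)
  exact (cb.Φ_eq_zero_iff _ n).mp h1 i

/-- conversely, if `tateEnd f` maps into `p^n ℤ_p^h` then `f` kills `A[p^n]` -/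
theorem eq_zero_of_tateEnd_apply_mem_span (f : AddMonoid.End A) (n : ℕ)
    (hf : ∀ (a : Fin h → ℤ_[p]) (i : Fin h), cb.tateEnd f a i ∈ Ideal.span {(p : ℤ_[p]) ^ n})
    (x : A) (hx : p ^ n • x = 0) : f x = 0 := by
  obtain ⟨a, rfl⟩ := cb.Φ_surjective_level n x hx
  rw [← cb.Φ_tateEnd]
  exact (cb.Φ_eq_zero_iff _ n).mpr (hf a)

/-- `tateEnd f = 0` iff `f` kills all `p`-power torsion -/
theorem tateEnd_eq_zero_iff (f : AddMonoid.End A) :
    cb.tateEnd f = 0 ↔ ∀ (n : ℕ) (x : A), p ^ n • x = 0 → f x = 0 := by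
  constructor
  · intro hf n x hx
    apply cb.eq_zero_of_tateEnd_apply_mem_span f n _ x hx
    intro a i
    rw [hf]
    exact Ideal.zero_mem _
  · intro hf
    apply LinearMap.ext
    intro a
    apply cb.Φ_injective
    intro k
    rw [cb.Φ_tateEnd, LinearMap.zero_apply, cb.Φ_zero_left]
    exact hf k _ (cb.Φ_torsion a k)

/-- if `f` kills `A[p^n]` then `tateEnd f` maps into `𝔪^n • ⊤` -/
theorem tateEnd_mem_smul_top (f : AddMonoid.End A) (n : ℕ)
    (hf : ∀ x : A, p ^ n • x = 0 → f x = 0) (a : Fin h → ℤ_[p]) :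
    cb.tateEnd f a ∈
      (IsLocalRing.maximalIdeal ℤ_[p] ^ n) • (⊤ : Submodule ℤ_[p] (Fin h → ℤ_[p])) := by
  have h1 := cb.tateEnd_apply_mem_span f n hf a
  have h2 : ∀ i, ∃ d : ℤ_[p], cb.tateEnd f a i = (p : ℤ_[p]) ^ n * d := fun i => by
    obtain ⟨d, hd⟩ := Ideal.mem_span_singleton.mp (h1 i)
    exact ⟨d, hd⟩
  choose d hd using h2
  have h3 : cb.tateEnd f a = ((p : ℤ_[p]) ^ n) • d := by
    funext i
    rw [hd i, Pi.smul_apply, smul_eq_mul]
  rw [h3]
  apply Submodule.smul_mem_smul _ Submodule.mem_top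
  rw [maximalIdeal_eq_span_p, Ideal.span_singleton_pow]
  exact Ideal.mem_span_singleton_self _

end endo

section rep

variable {G : Type*} [Group G] [DistribMulAction G A]

/-- the `p`-adic representation of a group acting on `A` by additive automorphisms -/
noncomputable def tateRep (G : Type*) [Group G] [DistribMulAction G A] :
    G →* Module.End ℤ_[p] (Fin h → ℤ_[p]) :=
  (cb.tateEnd.toMonoidHom).comp (DistribMulAction.toAddMonoidEnd G A)

@[simp] lemma Φ_tateRep (g : G) (a : Fin h → ℤ_[p]) (k : ℕ) :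
    cb.Φ (cb.tateRep G g a) k = g • cb.Φ a k :=
  cb.Φ_tateEnd _ a k

lemma tateRep_eq_tateEnd (g : G) :
    cb.tateRep G g = cb.tateEnd (DistribMulAction.toAddMonoidEnd G A g) := rfl

/-- if `g` fixes `A[p^n]` pointwise then `ρ(g) ≡ 1 mod 𝔪^n` -/
theorem tateRep_sub_mem (g : G) (n : ℕ) (hg : ∀ x : A, p ^ n • x = 0 → g • x = x)
    (a : Fin h → ℤ_[p]) :
    cb.tateRep G g a - a ∈
      (IsLocalRing.maximalIdeal ℤ_[p] ^ n) • (⊤ : Submodule ℤ_[p] (Fin h → ℤ_[p])) := by
  have h1 := cb.tateEnd_mem_smul_top (DistribMulAction.toAddMonoidEnd G A g - 1) n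
    (fun x hx => by
      change g • x - x = 0
      rw [sub_eq_zero]
      exact hg x hx) a
  rw [map_sub, map_one, LinearMap.sub_apply, Module.End.one_apply] at h1
  exact h1

/-- `ρ(g) = 1` iff `g` fixes all `p`-power torsion -/
theorem tateRep_eq_one_iff (g : G) :
    cb.tateRep G g = 1 ↔ ∀ (n : ℕ) (x : A), p ^ n • x = 0 → g • x = x := by
  rw [tateRep_eq_tateEnd, ← sub_eq_zero, ← map_one cb.tateEnd, ← map_sub, cb.tateEnd_eq_zero_iff]
  refine forall_congr' fun n => forall_congr' fun x => ?_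
  change (p ^ n • x = 0 → g • x - x = 0) ↔ _
  rw [sub_eq_zero]

/-- an integral quadratic relation satisfied by `g` on the `p`-power torsion is satisfied by
`ρ(g)` -/
theorem tateRep_quadratic (g : G) (a b : ℤ)
    (hg : ∀ (n : ℕ) (x : A), p ^ n • x = 0 → g • g • x - a • g • x + b • x = 0) :
    cb.tateRep G g * cb.tateRep G g - (a : ℤ_[p]) • cb.tateRep G g
      + (b : ℤ_[p]) • (1 : Module.End ℤ_[p] (Fin h → ℤ_[p])) = 0 := by
  have h1 : cb.tateEnd (DistribMulAction.toAddMonoidEnd G A g * DistribMulAction.toAddMonoidEnd G A g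
      - a • DistribMulAction.toAddMonoidEnd G A g + b • (1 : AddMonoid.End A)) = 0 := by
    rw [cb.tateEnd_eq_zero_iff]
    intro n x hx
    exact hg n x hx
  rw [map_add, map_sub, map_mul, map_zsmul, map_zsmul, map_one] at h1
  rw [tateRep_eq_tateEnd, ← h1]
  have e1 : ∀ (z : ℤ) (T : Module.End ℤ_[p] (Fin h → ℤ_[p])), (z : ℤ_[p]) • T = z • T := by
    intro z T
    exact Int.cast_smul_eq_zsmul ℤ_[p] z T
  rw [e1, e1]

end rep

end CompatBasis

end Fermat.Agent.S59.H127

end
-- ===== PACK-END S59/H127/TateEnd.lean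

-- ===== PACK-BEGIN Lib/FrobRel/H230Frob.lean
section


/-!
# Frobenius relation: from the generic point to all points (helper230)

`F` a finite field with `q` elements, `W` a Weierstrass curve over `F` with `Δ ≠ 0`.
For a field `L` over `F`, `frobPt W L` is the `q`-power Frobenius on `(W⁄L).Point` and
`frobPsi W L a = Φ² - a Φ + q`.

Main result `frobPsi_eq_zero_of_generic`: if `frobPsi` sends the generic point of `W` over the
function field of `W⁄κ` (`κ` algebraically closed) to a constant point, then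
`frobPsi W κ a T = 0` for all `T : (W⁄κ).Point`; and `frobPsi_eq_zero` transports this to all
fields `L` over `F`.
-/

open WeierstrassCurve Polynomial
open scoped Polynomial.Bivariate WeierstrassCurve.Affine

namespace Fermat.Agent.Lib.FrobRel.H230

universe u v w

variable {F : Type u} [Field F] [Fintype F] (W : WeierstrassCurve F)

section Defs

variable (L : Type v) [Field L] [Algebra F L] [DecidableEq L]

/-- The `#F`-power Frobenius endomorphism of the group of `L`-points of `W`. -/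
noncomputable def frobPt : (W⁄L).Point →+ (W⁄L).Point :=
  Affine.Point.map (W' := W) (S := F) (FiniteField.frobeniusAlgHom F L)

/-- `Φ² - a Φ + #F` on the group of `L`-points of `W`. -/
noncomputable def frobPsi (a : ℤ) : (W⁄L).Point →+ (W⁄L).Point :=
  (frobPt W L).comp (frobPt W L) - a • frobPt W L
    + (Fintype.card F : ℤ) • AddMonoidHom.id (W⁄L).Point

lemma frobPsi_apply (a : ℤ) (P : (W⁄L).Point) :
    frobPsi W L a P = frobPt W L (frobPt W L P) - a • frobPt W L P
      + (Fintype.card F : ℤ) • P :=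
  rfl

lemma frobPt_zero : frobPt W L 0 = 0 := map_zero _

lemma frobPt_some {x y : L} (h : (W⁄L).Nonsingular x y) :
    frobPt W L (Affine.Point.some x y h)
      = Affine.Point.some (x ^ Fintype.card F) (y ^ Fintype.card F)
          ((Affine.baseChange_nonsingular (W := W) (f := FiniteField.frobeniusAlgHom F L)
            (FiniteField.frobeniusAlgHom F L).injective x y).mpr h) :=
  rfl

end Defs

section Naturality

variable {L : Type v} [Field L] [Algebra F L] [DecidableEq L]
variable {L' : Type w} [Field L'] [Algebra F L'] [DecidableEq L']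

/-- Frobenius commutes with `Point.map`. -/
lemma frobPt_map (g : L →ₐ[F] L') (P : (W⁄L).Point) :
    frobPt W L' (Affine.Point.map (W' := W) g P) = Affine.Point.map (W' := W) g (frobPt W L P) := by
  rw [frobPt, frobPt, Affine.Point.map_map, Affine.Point.map_map]
  have hcomp : (FiniteField.frobeniusAlgHom F L').comp g
      = g.comp (FiniteField.frobeniusAlgHom F L) := by
    ext x
    simp [FiniteField.coe_frobeniusAlgHom]
  rw [hcomp]

/-- `Φ² - a Φ + q` commutes with `Point.map`. -/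
lemma frobPsi_map (a : ℤ) (g : L →ₐ[F] L') (P : (W⁄L).Point) :
    frobPsi W L' a (Affine.Point.map (W' := W) g P)
      = Affine.Point.map (W' := W) g (frobPsi W L a P) := by
  simp only [frobPsi_apply, frobPt_map, map_add, map_sub, map_zsmul]

end Naturality

/-- `Point.map` only depends on the underlying function of the algebra homomorphism. -/
lemma map_congr_fun {R : Type*} {S S' : Type*} {L L' : Type*} [CommRing R] [CommRing S]
    [CommRing S'] [Field L] [Field L'] {W' : WeierstrassCurve.Affine R} [DecidableEq L]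
    [DecidableEq L'] [Algebra R S] [Algebra R L] [Algebra S L] [IsScalarTower R S L]
    [Algebra R L'] [Algebra S L'] [IsScalarTower R S L'] [Algebra R S'] [Algebra S' L]
    [IsScalarTower R S' L] [Algebra S' L'] [IsScalarTower R S' L']
    (f : L →ₐ[S] L') (f' : L →ₐ[S'] L') (hf : ∀ x, f x = f' x) (P : (W'⁄L).Point) :
    Affine.Point.map (W' := W') f P = Affine.Point.map (W' := W') f' P := by
  rcases P with _ | ⟨x, y, h⟩
  · rfl
  · simp only [Affine.Point.map_some, hf]

omit [Fintype F] in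
lemma baseChange_Δ_ne_zero' (hΔ : W.Δ ≠ 0) (L : Type v) [Field L] [Algebra F L] :
    (W⁄L).Δ ≠ 0 := by
  show (WeierstrassCurve.map W (algebraMap F L)).Δ ≠ 0
  rw [WeierstrassCurve.map_Δ]
  exact (map_ne_zero_iff _ (algebraMap F L).injective).mpr hΔ

section Main

variable (κ : Type v) [Field κ] [Algebra F κ] [IsAlgClosed κ] [DecidableEq κ]
  [DecidableEq (FF W κ)]

/-- **Frobenius relation, generic to all points.** If `Φ² - a Φ + q` sends the generic point of
`W` over the function field of `W⁄κ` to a constant point, then it vanishes on all `κ`-points. -/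
theorem frobPsi_eq_zero_of_generic (hΔ : (W⁄κ).Δ ≠ 0) (a : ℤ) (C : (W⁄κ).Point)
    (hC : frobPsi W (FF W κ) a (genericPoint W κ hΔ) = bc W κ C) (T : (W⁄κ).Point) :
    frobPsi W κ a T = 0 := by
  refine eq_zero_of_generic_const W κ hΔ (frobPsi W (FF W κ) a) (frobPsi W κ a) ?_ ?_ C hC T
  · intro σ P
    rw [map_congr_fun σ (σ.restrictScalars F) (fun _ => rfl), frobPsi_map,
      map_congr_fun σ (σ.restrictScalars F) (fun _ => rfl)]
  · intro T
    show frobPsi W (FF W κ) a (Affine.Point.map (W' := W) (Algebra.ofId κ (FF W κ)) T)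
      = Affine.Point.map (W' := W) (Algebra.ofId κ (FF W κ)) (frobPsi W κ a T)
    rw [map_congr_fun (Algebra.ofId κ (FF W κ)) ((Algebra.ofId κ (FF W κ)).restrictScalars F)
      (fun _ => rfl), frobPsi_map,
      map_congr_fun (Algebra.ofId κ (FF W κ)) ((Algebra.ofId κ (FF W κ)).restrictScalars F)
      (fun _ => rfl)]

end Main

section Final

/-- A point is *constant* if it is zero or has `x`-coordinate algebraic over `F`. -/
def IsConstPt {K : Type v} [Field K] [Algebra F K] (P : (W⁄K).Point) : Prop :=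
  P = 0 ∨ ∃ (x y : K) (h : (W⁄K).Nonsingular x y), P = Affine.Point.some x y h ∧ IsAlgebraic F x

omit [Fintype F] in
lemma isConstPt_baseChange {K : Type v} [Field K] [Algebra F K] [DecidableEq F] [DecidableEq K]
    (C : (W⁄F).Point) : IsConstPt W (Affine.Point.baseChange (W' := W) F K C) := by
  rcases C with _ | ⟨c, d, hcd⟩
  · exact Or.inl rfl
  · exact Or.inr ⟨_, _, _, rfl, isAlgebraic_algebraMap c⟩

omit [Fintype F] in
/-- Constancy is reflected and preserved by `Point.map`. -/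
lemma isConstPt_map_iff {K : Type v} [Field K] [Algebra F K] [DecidableEq K]
    {K' : Type w} [Field K'] [Algebra F K'] [DecidableEq K'] (g : K →ₐ[F] K')
    (P : (W⁄K).Point) : IsConstPt W (Affine.Point.map (W' := W) g P) ↔ IsConstPt W P := by
  rcases P with _ | ⟨x, y, h⟩
  · exact ⟨fun _ => Or.inl rfl, fun _ => Or.inl rfl⟩
  · rw [Affine.Point.map_some]
    constructor
    · rintro (h0 | ⟨x₁, y₁, h₁, he, halg⟩)
      · exact absurd h0 (Affine.Point.some_ne_zero _)
      · have hx : g x = x₁ := ((Affine.Point.some.injEq ..).mp he).1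
        refine Or.inr ⟨x, y, h, rfl, ?_⟩
        rw [← hx] at halg
        exact (isAlgebraic_algHom_iff g g.injective).mp halg
    · rintro (h0 | ⟨x₁, y₁, h₁, he, halg⟩)
      · exact absurd h0 (Affine.Point.some_ne_zero _)
      · have hx : x = x₁ := ((Affine.Point.some.injEq ..).mp he).1
        refine Or.inr ⟨g x, g y, _, rfl, ?_⟩
        rw [← hx] at halg
        exact halg.algHom g

/-- **Frobenius relation from one generic point.** Let `F` be a finite field with `q` elements,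
`W` a Weierstrass curve over `F` with `Δ ≠ 0`, `K` a field over `F` and `P = (x, y)` a point of
`W` over `K` with `x` transcendental over `F`. If `(Φ² - a Φ + q) P` is a constant point
(zero, or with `x`-coordinate algebraic over `F`), then `Φ² - a Φ + q = 0` on `(W⁄L).Point` for
every field `L` over `F`. -/
theorem frobPsi_eq_zero (hΔ : W.Δ ≠ 0) {K : Type v} [Field K] [Algebra F K] [DecidableEq K]
    {x y : K} (h : (W⁄K).Nonsingular x y) (hx : Transcendental F x) (a : ℤ)
    (hC : IsConstPt W (frobPsi W K a (Affine.Point.some x y h)))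
    {L : Type w} [Field L] [Algebra F L] [DecidableEq L] (T : (W⁄L).Point) :
    frobPsi W L a T = 0 := by
  classical
  -- the generic point over the function field of `W⁄F`
  have hΔF : (W⁄F).Δ ≠ 0 := baseChange_Δ_ne_zero' W hΔ F
  have hG : IsConstPt W (frobPsi W (FF W F) a (genericPoint W F hΔF)) := by
    rw [← isConstPt_map_iff W (sigma F h.1 hx), ← frobPsi_map, map_sigma_genericPoint F hΔF h hx]
    exact hC
  -- the generic point over the function field of `W⁄κ`, `κ` an algebraic closure of `L`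
  have hΔκ : (W⁄(AlgebraicClosure L)).Δ ≠ 0 := baseChange_Δ_ne_zero' W hΔ (AlgebraicClosure L)
  have hxκ : Transcendental F (gx W (AlgebraicClosure L)) :=
    (gx_transcendental W (AlgebraicClosure L)).restrictScalars
      (algebraMap F (AlgebraicClosure L)).injective
  have hGκ : IsConstPt W (frobPsi W (FF W (AlgebraicClosure L)) a
      (genericPoint W (AlgebraicClosure L) hΔκ)) := by
    have hj : Affine.Point.map (W' := W)
        (sigma F (generic_nonsingular W (AlgebraicClosure L) hΔκ).1 hxκ) (genericPoint W F hΔF)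
        = genericPoint W (AlgebraicClosure L) hΔκ :=
      map_sigma_genericPoint F hΔF (generic_nonsingular W (AlgebraicClosure L) hΔκ) hxκ
    rw [← hj, frobPsi_map, isConstPt_map_iff]
    exact hG
  obtain ⟨C, hCκ⟩ : ∃ C : (W⁄(AlgebraicClosure L)).Point,
      frobPsi W (FF W (AlgebraicClosure L)) a (genericPoint W (AlgebraicClosure L) hΔκ)
        = bc W (AlgebraicClosure L) C := by
    rcases hGκ with h0 | ⟨x₁, y₁, h₁, he, halg⟩
    · exact ⟨0, h0.trans (map_zero _).symm⟩
    · have halg' : IsAlgebraic (AlgebraicClosure L) x₁ := halg.extendScalars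
        (algebraMap F (AlgebraicClosure L)).injective
      obtain ⟨c, hc⟩ := mem_range_of_isAlgebraic (AlgebraicClosure L) halg'
      obtain ⟨C, hC'⟩ := exists_of_x_const W (AlgebraicClosure L) h₁ c hc
      exact ⟨C, he.trans hC'⟩
  have hκ := frobPsi_eq_zero_of_generic W (AlgebraicClosure L) hΔκ a C hCκ
  -- descend to `L`
  have hL := hκ (Affine.Point.map (W' := W) (IsScalarTower.toAlgHom F L (AlgebraicClosure L)) T)
  rw [frobPsi_map] at hL
  exact Affine.Point.map_injective (W' := W) (IsScalarTower.toAlgHom F L (AlgebraicClosure L))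
    (hL.trans (map_zero _).symm)

/-- Variant of `frobPsi_eq_zero` with the constant point given as an `F`-point. -/
theorem frobPsi_eq_zero' (hΔ : W.Δ ≠ 0) [DecidableEq F] {K : Type v} [Field K] [Algebra F K]
    [DecidableEq K] {x y : K} (h : (W⁄K).Nonsingular x y) (hx : Transcendental F x) (a : ℤ)
    (C : (W⁄F).Point)
    (hC : frobPsi W K a (Affine.Point.some x y h) = Affine.Point.baseChange (W' := W) F K C)
    {L : Type w} [Field L] [Algebra F L] [DecidableEq L] (T : (W⁄L).Point) :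
    frobPsi W L a T = 0 :=
  frobPsi_eq_zero W hΔ h hx a (hC ▸ isConstPt_baseChange W C) T

end Final

end Fermat.Agent.Lib.FrobRel.H230

end
-- ===== PACK-END Lib/FrobRel/H230Frob.lean

-- ===== PACK-BEGIN Lib/Frob/A2/H720/Doubling.lean
section


/-!
# S52 / piece A2a-core (helper720): exact degree doubling for `addSubMap`

For an elliptic curve `W` over a field `F` and a primitive polynomial vector `v : Fin 3 → F[X]`,
the vector `asm W v = (addSubMap W i)(v)` is primitive and `maxDeg (asm W v) = 2 * maxDeg v`.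
-/

set_option autoImplicit false

open Polynomial

namespace Fermat.Agent.Lib.Frob.A2.H720

variable {F : Type*} [Field F] (W : WeierstrassCurve F)

/-- The quadratic map `addSubMap W` applied to a polynomial vector. -/
noncomputable def asm (v : Fin 3 → F[X]) : Fin 3 → F[X] :=
  fun i => MvPolynomial.aeval v (W.addSubMap i)

/-- The coefficient forms of `addSubMapCoeff`, applied to a polynomial vector. -/
noncomputable def asmCoeff (v : Fin 3 → F[X]) (i j : Fin 3) : F[X] :=
  MvPolynomial.aeval v (W.addSubMapCoeff (i, j))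

lemma asm_eq_eval (v : Fin 3 → F[X]) (i : Fin 3) :
    asm W v i = MvPolynomial.eval v ((W.map (C : F →+* F[X])).addSubMap i) := by
  rw [asm, addSubMap_map, MvPolynomial.eval_map, MvPolynomial.aeval_def]
  rfl

lemma asmCoeff_eq_eval (v : Fin 3 → F[X]) (i j : Fin 3) :
    asmCoeff W v i j = MvPolynomial.eval v ((W.map (C : F →+* F[X])).addSubMapCoeff (i, j)) := by
  rw [asmCoeff, addSubMapCoeff_map, MvPolynomial.eval_map, MvPolynomial.aeval_def]
  rfl

lemma natDegree_asm_le (v : Fin 3 → F[X]) (i : Fin 3) :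
    (asm W v i).natDegree ≤ 2 * maxDeg v :=
  natDegree_aeval_le (W.isHomogeneous_addSubMap i) (natDegree_le_maxDeg v)

lemma natDegree_asmCoeff_le (v : Fin 3 → F[X]) (i j : Fin 3) :
    (asmCoeff W v i j).natDegree ≤ 2 * maxDeg v :=
  natDegree_aeval_le (W.isHomogeneous_addSubMapCoeff (i, j)) (natDegree_le_maxDeg v)

variable [W.IsElliptic]

/-- The key identity of Mathlib's `addSubMapCoeff_condition`, over `F[X]`. -/
lemma asm_identity (v : Fin 3 → F[X]) (i : Fin 3) :
    ∑ j : Fin 3, C (↑W.Δ'⁻¹ : F) * asmCoeff W v i j * asm W v j = v i ^ 4 := by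
  have h := (W.map (C : F →+* F[X])).addSubMapCoeff_condition v i
  simp only [map_mul, MvPolynomial.eval_C, WeierstrassCurve.coe_inv_map_Δ'] at h
  simpa only [asm_eq_eval, asmCoeff_eq_eval] using h

/-- `addSubMap` preserves primitivity. -/
theorem isPrim_asm {v : Fin 3 → F[X]} (hv : IsPrim v) : IsPrim (asm W v) := by
  intro d hd
  by_contra hu
  have hd0 : d ≠ 0 := by
    rintro rfl
    have h0 : ∀ j, asm W v j = 0 := fun j => zero_dvd_iff.mp (hd j)
    have hv0 : ∀ i, v i = 0 := fun i => by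
      have := asm_identity W v i
      simp only [h0, mul_zero, Finset.sum_const_zero] at this
      exact pow_eq_zero_iff (by norm_num) |>.mp this.symm
    exact hv.ne_zero (funext hv0)
  obtain ⟨π, hπ, hπd⟩ := WfDvdMonoid.exists_irreducible_factor hu hd0
  have hπv : ∀ i, π ∣ v i := fun i => by
    have h4 : π ∣ v i ^ 4 := by
      rw [← asm_identity W v i]
      exact Finset.dvd_sum fun j _ => Dvd.dvd.mul_left (hπd.trans (hd j)) _
    exact hπ.prime.dvd_of_dvd_pow h4
  exact hπ.not_isUnit (hv π hπv)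

/-- `addSubMap` exactly doubles the maximal degree of a polynomial vector. -/
theorem maxDeg_asm (v : Fin 3 → F[X]) : maxDeg (asm W v) = 2 * maxDeg v := by
  refine le_antisymm (maxDeg_le fun i => natDegree_asm_le W v i) ?_
  obtain ⟨i, hi⟩ := exists_natDegree_eq_maxDeg v
  by_contra hlt
  rw [not_le] at hlt
  have hD : 0 < maxDeg v := by omega
  have hvi : v i ≠ 0 := by
    rintro h0
    rw [h0, natDegree_zero] at hi
    omega
  have h4 : (v i ^ 4).natDegree = 4 * maxDeg v := by
    rw [natDegree_pow, hi]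
  have hle : (∑ j : Fin 3, C (↑W.Δ'⁻¹ : F) * asmCoeff W v i j * asm W v j).natDegree
      ≤ 2 * maxDeg v + maxDeg (asm W v) := by
    refine natDegree_sum_le_of_forall_le _ _ fun j _ => ?_
    calc (C (↑W.Δ'⁻¹ : F) * asmCoeff W v i j * asm W v j).natDegree
        ≤ (C (↑W.Δ'⁻¹ : F) * asmCoeff W v i j).natDegree + (asm W v j).natDegree :=
          natDegree_mul_le
      _ ≤ 2 * maxDeg v + maxDeg (asm W v) := by
          gcongr
          · exact (natDegree_C_mul_le _ _).trans (natDegree_asmCoeff_le W v i j)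
          · exact natDegree_le_maxDeg _ j
  rw [asm_identity, h4] at hle
  omega

end Fermat.Agent.Lib.Frob.A2.H720

end
-- ===== PACK-END Lib/Frob/A2/H720/Doubling.lean

-- ===== PACK-BEGIN Lib/Frob/A2/H720/AddSubMain.lean
section


/-!
# S52 / piece A2a (helper720): `addSubMap (sym2x P Q) = c • sym2x (P + Q) (P - Q)`, `c ≠ 0`
-/

set_option autoImplicit false

namespace Fermat.Agent.Lib.Frob.A2.H720

open WeierstrassCurve WeierstrassCurve.Affine

variable {L : Type*} [Field L] {W : Affine L}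

/-- The vector `addSubMap W` evaluated at a vector `x`. -/
noncomputable def asmVec (W : Affine L) (x : Fin 3 → L) : Fin 3 → L :=
  fun i => MvPolynomial.eval x (WeierstrassCurve.addSubMap W i)

lemma asmVec_eq (W : Affine L) (x : Fin 3 → L) : asmVec W x =
    ![x 0 ^ 2 - W.b₄ * x 0 * x 2 - W.b₆ * x 1 * x 2 - W.b₈ * x 2 ^ 2,
      2 * x 1 * x 0 + W.b₂ * x 0 * x 2 + W.b₄ * x 1 * x 2 + W.b₆ * x 2 ^ 2,
      x 1 ^ 2 - 4 * x 0 * x 2] := by
  funext i
  fin_cases i
  · exact eval_addSubMap_zero W x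
  · exact eval_addSubMap_one W x
  · exact eval_addSubMap_two W x

lemma asmVec_ne_zero [W.IsElliptic] {x : Fin 3 → L} (hx : x ≠ 0) : asmVec W x ≠ 0 :=
  WeierstrassCurve.addSubMap_ne_zero W hx

lemma asmVec_smul (W : Affine L) (c : L) (x : Fin 3 → L) :
    asmVec W (c • x) = c ^ 2 • asmVec W x := by
  rw [asmVec_eq, asmVec_eq]
  funext i
  fin_cases i <;> simp <;> ring

private lemma asm_same_x (W : Affine L) (x : L) :
    asmVec W ![x * x, x + x, 1] = ![xDblNum W x, xDblDen W x, 0] := by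
  rw [asmVec_eq]
  simp only [Matrix.cons_val_zero, Matrix.cons_val_one, Matrix.cons_val, xDblNum, xDblDen]
  have := W.b_relation
  congr 1
  · ring
  · congr 1
    · ring
    · congr 1
      ring

variable [DecidableEq L]

/-- **`addSubMap` computes `x(P + Q)` and `x(P - Q)`** (projectively, in all cases). -/
theorem asmVec_sym2x [W.IsElliptic] (P Q : W.Point) :
    ∃ c : L, c ≠ 0 ∧ asmVec W (P.sym2x Q) = c • (P + Q).sym2x (P - Q) := by
  rcases P with _ | ⟨x₁, y₁, h₁⟩ <;> rcases Q with _ | ⟨x₂, y₂, h₂⟩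
  · -- `O`, `O`
    refine ⟨1, one_ne_zero, ?_⟩
    rw [← Point.zero_def, add_zero, sub_zero, Point.sym2x_zero_zero, asmVec_eq, one_smul]
    simp
  · -- `O`, `Q`
    refine ⟨1, one_ne_zero, ?_⟩
    rw [← Point.zero_def, zero_add, zero_sub, Point.sym2x_neg_right, Point.sym2x_zero_some,
      Point.sym2x_some_some, asmVec_eq, one_smul]
    simp only [Matrix.cons_val_zero, Matrix.cons_val_one, Matrix.cons_val]
    congr 1
    · ring
    · congr 1
      · ring
      · congr 1
        ring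
  · -- `P`, `O`
    refine ⟨1, one_ne_zero, ?_⟩
    rw [← Point.zero_def, add_zero, sub_zero, Point.sym2x_some_zero,
      Point.sym2x_some_some, asmVec_eq, one_smul]
    simp only [Matrix.cons_val_zero, Matrix.cons_val_one, Matrix.cons_val]
    congr 1
    · ring
    · congr 1
      · ring
      · congr 1
        ring
  · -- both affine
    by_cases hx : x₁ = x₂
    · subst hx
      rw [Point.sym2x_some_some, asm_same_x W x₁]
      rcases Affine.Y_eq_of_X_eq h₁.1 h₂.1 rfl with hy | hy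
      · -- `Q = P`
        subst hy
        by_cases h2 : y₁ = W.negY x₁ y₁
        · -- 2-torsion: `P + P = 0`, `P - P = 0`
          have hadd : Point.some x₁ y₁ h₁ + Point.some x₁ y₁ h₁ = 0 :=
            Point.add_of_Y_eq rfl h2
          have hden : xDblDen W x₁ = 0 := xDblDen_eq_zero_of_Y_eq h₁.1 h2
          have hne : asmVec W ![x₁ * x₁, x₁ + x₁, 1] ≠ 0 :=
            asmVec_ne_zero (by
              intro h0
              have := congrFun h0 2
              simp at this)
          rw [asm_same_x W x₁, hden] at hne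
          refine ⟨xDblNum W x₁, ?_, ?_⟩
          · rintro h0
            apply hne
            rw [h0]
            funext i
            fin_cases i <;> rfl
          · rw [hadd, sub_self, Point.sym2x_zero_zero, hden]
            funext i
            fin_cases i <;> simp
        · obtain ⟨x', y', h', hadd, hx', hden⟩ := add_self_some_aux h₁ h2
          refine ⟨xDblDen W x₁, hden, ?_⟩
          rw [hadd, sub_self, Point.sym2x_some_zero]
          funext i
          fin_cases i
          · simp [← hx', mul_comm]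
          · simp
          · simp
      · -- `Q = -P`
        have hQ : Point.some x₁ y₂ h₂ = - Point.some x₁ y₁ h₁ := by
          rw [Point.neg_some]
          congr 1
          rw [hy, Affine.negY_negY]
        by_cases h2 : y₁ = W.negY x₁ y₁
        · have hPP : Point.some x₁ y₁ h₁ + Point.some x₁ y₁ h₁ = 0 :=
            Point.add_of_Y_eq rfl h2
          have hden : xDblDen W x₁ = 0 := xDblDen_eq_zero_of_Y_eq h₁.1 h2
          have hne : asmVec W ![x₁ * x₁, x₁ + x₁, 1] ≠ 0 :=
            asmVec_ne_zero (by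
              intro h0
              have := congrFun h0 2
              simp at this)
          rw [asm_same_x W x₁, hden] at hne
          refine ⟨xDblNum W x₁, ?_, ?_⟩
          · rintro h0
            apply hne
            rw [h0]
            funext i
            fin_cases i <;> rfl
          · rw [hQ, add_neg_cancel, sub_neg_eq_add, hPP, Point.sym2x_zero_zero, hden]
            funext i
            fin_cases i <;> simp
        · obtain ⟨x', y', h', hadd, hx', hden⟩ := add_self_some_aux h₁ h2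
          refine ⟨xDblDen W x₁, hden, ?_⟩
          rw [hQ, add_neg_cancel, sub_neg_eq_add, hadd, Point.sym2x_zero_some]
          funext i
          fin_cases i
          · simp [← hx', mul_comm]
          · simp
          · simp
    · obtain ⟨x₃, y₃, x₄, y₄, h₃, h₄, hadd, hsub, hsum, hprod⟩ := add_sub_some_aux h₁ h₂ hx
      refine ⟨(x₁ - x₂) ^ 2, pow_ne_zero 2 (sub_ne_zero.mpr hx), ?_⟩
      rw [hadd, hsub, Point.sym2x_some_some, Point.sym2x_some_some, asmVec_eq]
      funext i
      fin_cases i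
      · simp only [Fin.zero_eta, Matrix.cons_val_zero, Matrix.cons_val_one, Matrix.cons_val,
          Pi.smul_apply, smul_eq_mul]
        rw [hprod, xProdNum]
        ring
      · simp only [Fin.mk_one, Matrix.cons_val_zero, Matrix.cons_val_one, Matrix.cons_val,
          Pi.smul_apply, smul_eq_mul]
        rw [hsum, xSumNum]
        ring
      · simp only [Fin.reduceFinMk, Matrix.cons_val_zero, Matrix.cons_val_one, Matrix.cons_val,
          Pi.smul_apply, smul_eq_mul]
        ring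

end Fermat.Agent.Lib.Frob.A2.H720

end
-- ===== PACK-END Lib/Frob/A2/H720/AddSubMain.lean

-- ===== PACK-BEGIN S31/Defs.lean
section




/-!
# Row S31 — frozen interface definitions (row-lead helper22)

S31: in a Hecke–Galois datum of level `N` away from `S`, the representation `H.ρ` is unramified at
every prime `q ∉ S`.

Route (plan: `coord/S31.md` on `origin/helper22`):
`S31 ⇐ S30 + Lib/Cheb (FrobeniusDivisionStatement) + PTS (p-adic points of the Hecke algebra are
topologically separating; from S22 + SS) + ALG (trace criterion, trace of powers, continuity)`.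

This file contains ONLY sorry-free definitions.  It is FROZEN once published.
-/

set_option autoImplicit false

open Polynomial

namespace Fermat.Agent.S31

/-- `ℚ̄`. -/
abbrev Qb : Type := AlgebraicClosure ℚ

/-- `Gal(ℚ̄/ℚ)`. -/
abbrev GQ : Type := Qb ≃ₐ[ℚ] Qb

/-- The exact type of the frozen statement S30 (existence of the Galois representation attached
to a `p`-adic point of the Hecke algebra).  Input of the row, provided by the S30 row. -/
def S30Statement : Prop :=
  ∀ (p : ℕ) [Fact p.Prime] (N : ℕ) [NeZero N] (S : Finset ℕ)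
    (_hpS : p ∈ S) (_hNS : ∀ q : ℕ, q.Prime → q ∣ N → q ∈ S)
    (𝒪' : Type) [CommRing 𝒪'] [IsDomain 𝒪'] [IsDiscreteValuationRing 𝒪']
    [IsAdicComplete (IsLocalRing.maximalIdeal 𝒪') 𝒪'] [Finite (IsLocalRing.ResidueField 𝒪')]
    [CharZero 𝒪'] (_hp𝒪' : (p : 𝒪') ∈ IsLocalRing.maximalIdeal 𝒪')
    (χ : CuspForm.heckeAlgebra N 2 (↑S : Set ℕ) →+* 𝒪'),
    ∃ (𝒪'' : Type) (_ : CommRing 𝒪'') (_ : IsDomain 𝒪'') (_ : IsDiscreteValuationRing 𝒪'')
      (_ : IsAdicComplete (IsLocalRing.maximalIdeal 𝒪'') 𝒪'')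
      (_ : Finite (IsLocalRing.ResidueField 𝒪'')) (_ : CharZero 𝒪'')
      (_ : Algebra 𝒪' 𝒪'') (_ : Module.Finite 𝒪' 𝒪'') (_ : IsLocalHom (algebraMap 𝒪' 𝒪'')),
    Function.Injective (algebraMap 𝒪' 𝒪'') ∧
    ∃ ρ : GaloisRepAdic 𝒪'',
      (∀ (ℓ : ℕ) (hℓ : ℓ.Prime) (hℓN : ¬ ℓ ∣ N) (hℓS : ℓ ∉ (↑S : Set ℕ)),
        ∀ A : ValuationSubring (AlgebraicClosure ℚ), A.LiesOverPrime ℓ →
          ∀ σ : AlgebraicClosure ℚ ≃ₐ[ℚ] AlgebraicClosure ℚ, A.IsFrobeniusAt σ ℓ →
            LinearMap.charpoly (ρ.ρ σ) =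
              X ^ 2 - C (algebraMap 𝒪' 𝒪'' (χ (CuspForm.heckeAlgebra.T hℓ hℓN hℓS))) * X
                + C ((ℓ : 𝒪''))) ∧
      (∀ q : ℕ, q.Prime → ¬ q ∣ N → q ≠ p → ρ.IsUnramifiedAt q)

/-- Frobenius density input (Tier 1 of the shared library CHEB, frozen on main). -/
abbrev ChebStatement : Prop := Fermat.Agent.Lib.Cheb.Spec.FrobeniusDivisionStatement

/-- A `p`-adic point of a commutative ring `R`: a ring hom to a complete DVR of characteristic zero
with finite residue field and residue characteristic `p`. -/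
structure PadicPoint (p : ℕ) (R : Type) [CommRing R] : Type 1 where
  /-- the coefficient ring -/
  O : Type
  [commRing : CommRing O]
  [isDomain : IsDomain O]
  [isDVR : IsDiscreteValuationRing O]
  [isComplete : IsAdicComplete (IsLocalRing.maximalIdeal O) O]
  [finiteResidue : Finite (IsLocalRing.ResidueField O)]
  [charZero : CharZero O]
  hp : (p : O) ∈ IsLocalRing.maximalIdeal O
  /-- the point -/
  χ : R →+* O

attribute [instance] PadicPoint.commRing PadicPoint.isDomain PadicPoint.isDVR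
  PadicPoint.isComplete PadicPoint.finiteResidue PadicPoint.charZero

/-- **PTS**: the `p`-adic points of `R` are topologically separating at every prime `m ∋ p`:
for every `n` there are finitely many `p`-adic points and `n'` such that an element of `R` lying in
the `n'`-th power of the maximal ideal at each of these points lies in `m ^ n`. -/
def PTS (p : ℕ) (R : Type) [CommRing R] : Prop :=
  ∀ (m : Ideal R), m.IsPrime → (p : R) ∈ m → ∀ n : ℕ,
    ∃ (F : List (PadicPoint p R)) (n' : ℕ), ∀ t : R,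
      (∀ P ∈ F, P.χ t ∈ IsLocalRing.maximalIdeal P.O ^ n') → t ∈ m ^ n

/-- The universal polynomial `tr (f ^ j)` in terms of `a = tr f`, `d = det f` for `2 × 2`
matrices: `P₀ = 2`, `P₁ = a`, `P_{j+2} = a P_{j+1} - d P_j`. -/
def powTr {R : Type*} [CommRing R] (a d : R) : ℕ → R
  | 0 => 2
  | 1 => a
  | (j + 2) => a * powTr a d (j + 1) - d * powTr a d j

/-- The conclusion of S31 for a given datum, as a `Prop` (to shorten statements). -/
def UnramifiedOutside {T : Type} [CommRing T] [IsLocalRing T] (ρ : GaloisRepAdic T)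
    (S : Finset ℕ) : Prop :=
  ∀ q : ℕ, q.Prime → q ∉ S → ρ.IsUnramifiedAt q

end Fermat.Agent.S31

end
-- ===== PACK-END S31/Defs.lean

-- ===== PACK-BEGIN Lib/Cheb/H221/LogBound.lean
section
/-
CHEB shared library, piece A (helper221): a continuous logarithm of a function with a nonzero
limit is bounded.
-/


set_option autoImplicit false

namespace Fermat.Agent.Lib.Cheb.H221

open Filter Topology Complex

/-- A continuous real function on a preconnected set taking only integer values, and vanishing at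
one point, vanishes identically. -/
lemma eq_zero_of_int_valued {S : Set ℝ} (hS : IsPreconnected S) {h : ℝ → ℝ}
    (hc : ContinuousOn h S) (hint : ∀ s ∈ S, ∃ n : ℤ, h s = n) {s₀ : ℝ} (hs₀ : s₀ ∈ S)
    (h0 : h s₀ = 0) {s : ℝ} (hs : s ∈ S) : h s = 0 := by
  obtain ⟨n, hn⟩ := hint s hs
  by_contra hne
  have hn0 : n ≠ 0 := by
    rintro rfl
    exact hne (by simpa using hn)
  rcases lt_or_gt_of_ne hn0 with hneg | hpos
  · -- `n ≤ -1`: the value `-1/2` is attained
    have hle : (n : ℝ) ≤ -1 := by exact_mod_cast Int.le_sub_one_of_lt hneg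
    have hmem : (-1 / 2 : ℝ) ∈ Set.Icc (h s) (h s₀) := by
      rw [hn, h0]; constructor <;> linarith
    obtain ⟨t, ht, hval⟩ := hS.intermediate_value hs hs₀ hc hmem
    obtain ⟨k, hk⟩ := hint t ht
    rw [hk] at hval
    have h2 : (2 * k : ℤ) = -1 := by
      have : (2 : ℝ) * k = -1 := by linarith
      exact_mod_cast this
    omega
  · have hge : (1 : ℝ) ≤ n := by exact_mod_cast Int.add_one_le_of_lt hpos
    have hmem : (1 / 2 : ℝ) ∈ Set.Icc (h s₀) (h s) := by
      rw [hn, h0]; constructor <;> linarith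
    obtain ⟨t, ht, hval⟩ := hS.intermediate_value hs₀ hs hc hmem
    obtain ⟨k, hk⟩ := hint t ht
    rw [hk] at hval
    have h2 : (2 * k : ℤ) = 1 := by
      have : (2 : ℝ) * k = 1 := by linarith
      exact_mod_cast this
    omega

/-- If `exp ∘ Λ` tends to a nonzero limit at `1⁺` and `Λ` is continuous on `(1,∞)`, then `Λ` is
bounded near `1⁺`. -/
lemma exists_bound_of_exp_tendsto {Λ : ℝ → ℂ} (hΛ : ContinuousOn Λ (Set.Ioi 1)) {ℓ : ℂ}
    (hℓ : ℓ ≠ 0) (h : Tendsto (fun s => Complex.exp (Λ s)) (𝓝[>] (1 : ℝ)) (𝓝 ℓ)) :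
    ∃ B : ℝ, ∀ᶠ s in 𝓝[>] (1 : ℝ), ‖Λ s‖ ≤ B := by
  -- eventually `exp (Λ s) / ℓ` is within `1/2` of `1`
  have h1 : Tendsto (fun s => Complex.exp (Λ s) / ℓ - 1) (𝓝[>] (1 : ℝ)) (𝓝 0) := by
    have := (h.div_const ℓ).sub_const 1
    simpa [div_self hℓ] using this
  have hev : ∀ᶠ s in 𝓝[>] (1 : ℝ), ‖Complex.exp (Λ s) / ℓ - 1‖ < 1 / 2 := by
    have := (tendsto_zero_iff_norm_tendsto_zero.mp h1).eventually
      (gt_mem_nhds (by norm_num : (0 : ℝ) < 1 / 2))
    exact this
  obtain ⟨u, hu1, hu⟩ := mem_nhdsGT_iff_exists_Ioo_subset.mp hev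
  -- the set `S = Ioo 1 u`
  have hSsub : Set.Ioo (1 : ℝ) u ⊆ Set.Ioi 1 := fun s hs => hs.1
  obtain ⟨s₀, hs₀⟩ : ∃ s₀, s₀ ∈ Set.Ioo (1 : ℝ) u := ⟨(1 + u) / 2, by
    constructor <;> linarith [Set.mem_Ioi.mp hu1]⟩
  -- the auxiliary function
  set w : ℝ → ℂ := fun s => Complex.exp (Λ s) / ℓ - 1 with hw
  set g : ℝ → ℂ := fun s => Λ s - Complex.log (1 + w s) with hg
  have hwlt : ∀ s ∈ Set.Ioo (1 : ℝ) u, ‖w s‖ < 1 / 2 := fun s hs => hu hs
  have hwcont : ContinuousOn w (Set.Ioo (1 : ℝ) u) := by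
    have : ContinuousOn (fun s => Complex.exp (Λ s)) (Set.Ioo (1 : ℝ) u) :=
      (Complex.continuous_exp.comp_continuousOn (hΛ.mono hSsub))
    exact (this.div_const ℓ).sub continuousOn_const
  have hgcont : ContinuousOn g (Set.Ioo (1 : ℝ) u) := by
    refine (hΛ.mono hSsub).sub ?_
    refine ContinuousOn.clog (continuousOn_const.add hwcont) ?_
    intro s hs
    exact Complex.mem_slitPlane_of_norm_lt_one (lt_trans (hwlt s hs) (by norm_num))
  have hexp : ∀ s ∈ Set.Ioo (1 : ℝ) u, Complex.exp (g s) = ℓ := by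
    intro s hs
    have hne : (1 + w s) ≠ 0 := by
      intro h0
      have : w s = -1 := by linear_combination h0
      have hlt := hwlt s hs
      rw [this, norm_neg, norm_one] at hlt
      norm_num at hlt
    simp only [hg, Complex.exp_sub, Complex.exp_log hne]
    simp only [hw]
    have : (1 + (Complex.exp (Λ s) / ℓ - 1)) = Complex.exp (Λ s) / ℓ := by ring
    rw [this]
    field_simp
  -- `g` is constant on `S`
  have hconst : ∀ s ∈ Set.Ioo (1 : ℝ) u, g s = g s₀ := by
    intro s hs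
    have hint : ∀ t ∈ Set.Ioo (1 : ℝ) u, ∃ n : ℤ, g t - g s₀ = n * (2 * Real.pi * Complex.I) := by
      intro t ht
      apply Complex.exp_eq_one_iff.mp
      rw [Complex.exp_sub, hexp t ht, hexp s₀ hs₀, div_self hℓ]
    have key := eq_zero_of_int_valued (isPreconnected_Ioo (a := (1 : ℝ)) (b := u))
      (h := fun t => (g t - g s₀).im / (2 * Real.pi))
      (by
        refine ContinuousOn.div_const ?_ _
        exact Complex.continuous_im.comp_continuousOn (hgcont.sub continuousOn_const))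
      (by
        intro t ht
        obtain ⟨n, hn⟩ := hint t ht
        refine ⟨n, ?_⟩
        simp only [hn]
        have hpi : (2 * Real.pi) ≠ 0 := by positivity
        have : ((n : ℂ) * (2 * (Real.pi : ℂ) * Complex.I)).im = n * (2 * Real.pi) := by
          simp [Complex.mul_im]
        rw [this]
        field_simp)
      hs₀ (by simp) hs
    obtain ⟨n, hn⟩ := hint s hs
    have hn0 : (n : ℝ) = 0 := by
      have hpi : (2 * Real.pi) ≠ 0 := by positivity
      have him : ((n : ℂ) * (2 * (Real.pi : ℂ) * Complex.I)).im = n * (2 * Real.pi) := by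
        simp [Complex.mul_im]
      have : (g s - g s₀).im / (2 * Real.pi) = n := by
        rw [hn, him]; field_simp
      have key' : (g s - g s₀).im / (2 * Real.pi) = 0 := key
      rw [this] at key'
      exact key'
    have hn0' : n = 0 := by exact_mod_cast hn0
    rw [hn0'] at hn
    simp only [Int.cast_zero, zero_mul] at hn
    exact sub_eq_zero.mp hn
  refine ⟨‖g s₀‖ + 1, ?_⟩
  have hmem : Set.Ioo (1 : ℝ) u ∈ 𝓝[>] (1 : ℝ) := Ioo_mem_nhdsGT hu1
  filter_upwards [hmem] with s hs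
  have e : Λ s = g s₀ + Complex.log (1 + w s) := by
    have := hconst s hs
    simp only [hg] at this ⊢
    linear_combination this
  rw [e]
  have hlog : ‖Complex.log (1 + w s)‖ ≤ 1 := by
    have h2 := Complex.norm_log_one_add_half_le_self (le_of_lt (hwlt s hs))
    have h3 := hwlt s hs
    linarith
  exact le_trans (norm_add_le _ _) (by linarith)

end Fermat.Agent.Lib.Cheb.H221

end
-- ===== PACK-END Lib/Cheb/H221/LogBound.lean

-- ===== PACK-BEGIN S52/H311/AddSub.lean
section



/-!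
# `sym2x (P + Q) (P - Q)` is projectively `addSubMap (sym2x P Q)`  (S52, piece A2a-points)

For nonsingular points `P`, `Q` on a Weierstrass curve over a field (no ellipticity needed)
the Mathlib map `WeierstrassCurve.addSubMap` sends the coordinate vector `P.sym2x Q` of
`(x(P) x(Q) : x(P) + x(Q) : 1)` to a nonzero multiple of `(P + Q).sym2x (P - Q)`.
-/

set_option autoImplicit false

namespace Fermat.Agent.S52.H311

open WeierstrassCurve WeierstrassCurve.Affine MvPolynomial
open Fermat.Agent.S05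

variable {F : Type*} [Field F] (W : Affine F)

/-- the three coordinates of `addSubMap` evaluated at a vector -/
lemma eval_addSubMap (v : Fin 3 → F) :
    (fun i => (addSubMap W i).eval v) =
      ![v 0 ^ 2 - W.b₄ * v 0 * v 2 - W.b₆ * v 1 * v 2 - W.b₈ * v 2 ^ 2,
        2 * v 1 * v 0 + W.b₂ * v 0 * v 2 + W.b₄ * v 1 * v 2 + W.b₆ * v 2 ^ 2,
        v 1 ^ 2 - 4 * v 0 * v 2] := by
  funext i
  fin_cases i <;> simp [addSubMap]

/-- on the curve, `dblNum = n² + a₁ d n - (a₂ + 2x) d²` with `n` the numerator of the tangent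
slope and `d = y - negY x y`. -/
lemma dblNum_eq {x y : F} (h : W.Equation x y) :
    XId.dblNum W x = (3 * x ^ 2 + 2 * W.a₂ * x + W.a₄ - W.a₁ * y) ^ 2 +
      W.a₁ * (y - W.negY x y) * (3 * x ^ 2 + 2 * W.a₂ * x + W.a₄ - W.a₁ * y) -
      (W.a₂ + x + x) * (y - W.negY x y) ^ 2 := by
  rw [Affine.equation_iff] at h
  simp only [negY, XId.dblNum, WeierstrassCurve.b₄, WeierstrassCurve.b₆, WeierstrassCurve.b₈]
  linear_combination (8 * x + W.a₁ ^ 2 + 4 * W.a₂) * h

/-- at a nonsingular 2-torsion point the duplication numerator does not vanish -/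
lemma dblNum_ne_zero_of_Y_eq {x y : F} (h : W.Nonsingular x y) (hy : y = W.negY x y) :
    XId.dblNum W x ≠ 0 := by
  have hd : y - W.negY x y = 0 := sub_eq_zero.mpr hy
  rw [dblNum_eq W h.1, hd]
  have hn : 3 * x ^ 2 + 2 * W.a₂ * x + W.a₄ - W.a₁ * y ≠ 0 := by
    rcases (Affine.nonsingular_iff' ..).mp h with ⟨_, h1 | h2⟩
    · intro h0; apply h1; linear_combination -h0
    · exfalso; apply h2; simp only [negY] at hd; linear_combination hd
  simpa using pow_ne_zero 2 hn

variable [DecidableEq F]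
variable {W}

/-- **Addition–subtraction on `x`-coordinates.**  For all nonsingular points `P`, `Q` of a
Weierstrass curve over a field, `addSubMap` maps `P.sym2x Q` to a nonzero multiple of
`(P + Q).sym2x (P - Q)`. -/
theorem sym2x_add_sub (P Q : W.Point) :
    ∃ c : F, c ≠ 0 ∧
      (fun i => (addSubMap W i).eval (P.sym2x Q)) = c • (P + Q).sym2x (P - Q) := by
  rw [eval_addSubMap]
  rcases P with _ | ⟨x₁, y₁, h₁⟩ <;> rcases Q with _ | ⟨x₂, y₂, h₂⟩
  · -- `0, 0`
    refine ⟨1, one_ne_zero, ?_⟩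
    simp [← Point.zero_def]
  · -- `0, Q`
    refine ⟨1, one_ne_zero, ?_⟩
    rw [← Point.zero_def, zero_add, zero_sub, Point.sym2x_neg_right]
    simp only [Point.sym2x_zero_some, Point.sym2x_some_some, one_smul]
    funext i; fin_cases i <;> simp <;> ring
  · -- `P, 0`
    refine ⟨1, one_ne_zero, ?_⟩
    rw [← Point.zero_def, add_zero, sub_zero]
    simp only [Point.sym2x_some_zero, Point.sym2x_some_some, one_smul]
    funext i; fin_cases i <;> simp <;> ring
  · by_cases hx : x₁ = x₂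
    · subst hx
      by_cases hy : y₁ = W.negY x₁ y₂
      · -- `Q = -P`
        have hPQ : Point.some x₁ y₁ h₁ + Point.some x₁ y₂ h₂ = 0 := Point.add_of_Y_eq rfl hy
        have hQ : Point.some x₁ y₂ h₂ = -Point.some x₁ y₁ h₁ := by
          rw [eq_neg_iff_add_eq_zero, add_comm]; exact hPQ
        rw [hPQ, hQ, sub_neg_eq_add]
        by_cases h2 : y₁ = W.negY x₁ y₁
        · -- `P` is 2-torsion
          have h2P : Point.some x₁ y₁ h₁ + Point.some x₁ y₁ h₁ = 0 := Point.add_of_Y_eq rfl h2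
          refine ⟨XId.dblNum W x₁, dblNum_ne_zero_of_Y_eq W h₁ h2, ?_⟩
          rw [h2P, Point.sym2x_neg_right]
          have hden := XId.dblDen_eq_zero_of_Y_eq h₁.1 h2
          simp only [Point.sym2x_some_some, Point.sym2x_zero_zero]
          simp only [XId.dblNum, XId.dblDen] at hden ⊢
          funext i; fin_cases i
          · simp; ring
          · simp; linear_combination hden
          · simp; ring
        · obtain ⟨x', y', h', hadd, hmul, hne⟩ := XId.add_self_some h₁ h2
          refine ⟨XId.dblDen W x₁, hne, ?_⟩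
          rw [hadd, Point.sym2x_neg_right]
          simp only [Point.sym2x_some_some, Point.sym2x_zero_some]
          simp only [XId.dblNum, XId.dblDen] at hmul ⊢
          funext i; fin_cases i
          · simp; linear_combination -hmul
          · simp; ring
          · simp; ring
      · -- `Q = P`, not 2-torsion
        have hyy : y₁ = y₂ := by
          rcases Affine.Y_eq_of_X_eq h₁.1 h₂.1 rfl with h | h
          · exact h
          · exact absurd h hy
        subst hyy
        obtain ⟨x', y', h', hadd, hmul, hne⟩ := XId.add_self_some h₁ hy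
        refine ⟨XId.dblDen W x₁, hne, ?_⟩
        rw [hadd, sub_self]
        simp only [Point.sym2x_some_some, Point.sym2x_some_zero]
        simp only [XId.dblNum, XId.dblDen] at hmul ⊢
        funext i; fin_cases i
        · simp; linear_combination -hmul
        · simp; ring
        · simp; ring
    · obtain ⟨x₃, y₃, x₄, y₄, h₃, h₄, hadd, hsub, hsum, hprod⟩ := XId.add_sub_some h₁ h₂ hx
      refine ⟨(x₁ - x₂) ^ 2, pow_ne_zero 2 (sub_ne_zero.mpr hx), ?_⟩
      rw [hadd, hsub]
      simp only [Point.sym2x_some_some]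
      simp only [XId.sumNum, XId.prodNum] at hsum hprod
      funext i; fin_cases i
      · simp; linear_combination -hprod
      · simp; linear_combination -hsum
      · simp; ring

end Fermat.Agent.S52.H311

end
-- ===== PACK-END S52/H311/AddSub.lean

-- ===== PACK-BEGIN A2/H348/KummerCoord.lean
section


/-!
# A2 / piece E (ALG_ss), part 1: coordinates of integral elements in a Kummer algebra

Mathlib-only.  `F'` a commutative `F`-algebra (NOT necessarily a field: the case
`F' = F[X]/(X^m - ε)` with `X^m - ε` reducible is the important one) with a *Kummer basis*: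
`ζ ^ m = ε ∈ F` and `1, ζ, …, ζ^(m-1)` is an `F`-basis of `F'`.  For a subalgebra `O ⊆ F` which is
integrally closed in `F` and contains `ε`, `(m ε)⁻¹`:

* `KummerBasis.isIntegral_iff` : `c ∈ F'` is integral over `O` iff all its coordinates in the
  basis `ζ^i` lie in `O`
  (`⟸` trivial, `⟹` by the discrete Fourier transform over the `m` evaluations
  `ζ ↦ ω^k r` in an algebraic closure, `KummerBasis.sum_evalAt`).
* `KummerBasis.scale` : `ζ / h` is again a Kummer basis (for `ε / h^m`).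
* `KummerBasis.evalAt` : the `F`-algebra map `F' → Ω`, `ζ ↦ y` for `y ^ m = ε`.
-/

set_option autoImplicit false
set_option linter.unusedSectionVars false
set_option linter.style.haveILetI false

open Module Polynomial

namespace Fermat.Agent.A2.H348

variable {A F F' : Type*} [CommRing A] [Field F] [CommRing F'] [Nontrivial F'] [Algebra A F]
  [Algebra F F'] [Algebra A F'] [IsScalarTower A F F']

/-- Kummer basis: `ζ ^ m = ε` and `(ζ ^ i)_{i < m}` is an `F`-basis of `F'`. -/
structure KummerBasis (m : ℕ) (ε : F) (ζ : F') where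
  pow_eq : ζ ^ m = algebraMap F F' ε
  basis : Basis (Fin m) F F'
  basis_apply : ∀ i : Fin m, basis i = ζ ^ (i : ℕ)

namespace KummerBasis

variable {m : ℕ} {ε : F} {ζ : F'} (kb : KummerBasis m ε ζ)

include kb

theorem finiteDimensional : FiniteDimensional F F' :=
  Module.Finite.of_basis kb.basis

theorem finrank_eq : Module.finrank F F' = m := by
  rw [Module.finrank_eq_card_basis kb.basis, Fintype.card_fin]

theorem m_pos : 0 < m := by
  by_contra h
  have hm : m = 0 := by omega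
  subst hm
  have h1 : (1 : F') = 0 := by
    have := kb.basis.repr.injective
    apply this
    ext i
    exact i.elim0
  exact one_ne_zero h1

/-- every element is the sum of its coordinates times the powers of `ζ`. -/
theorem sum_repr (c : F') :
    c = ∑ i : Fin m, algebraMap F F' (kb.basis.repr c i) * ζ ^ (i : ℕ) := by
  conv_lhs => rw [← kb.basis.sum_repr c]
  refine Finset.sum_congr rfl fun i _ => ?_
  rw [kb.basis_apply, Algebra.smul_def]

/-- coordinates of a combination of powers of `ζ`. -/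
theorem repr_sum (f : Fin m → F) (i : Fin m) :
    kb.basis.repr (∑ j : Fin m, algebraMap F F' (f j) * ζ ^ (j : ℕ)) i = f i := by
  have : (∑ j : Fin m, algebraMap F F' (f j) * ζ ^ (j : ℕ)) = ∑ j : Fin m, f j • kb.basis j := by
    refine Finset.sum_congr rfl fun j _ => ?_
    rw [kb.basis_apply, Algebra.smul_def]
  rw [this, kb.basis.repr_sum_self]

/-- rescaling a Kummer basis by a nonzero element of `F`. -/
noncomputable def scale (h : F) (hh : h ≠ 0) :
    KummerBasis m (ε * (h ^ m)⁻¹) (ζ * algebraMap F F' h⁻¹) where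
  pow_eq := by
    rw [mul_pow, kb.pow_eq, map_mul, ← map_pow, inv_pow]
  basis := kb.basis.unitsSMul fun i => Units.mk0 ((h ^ (i : ℕ))⁻¹) (inv_ne_zero (pow_ne_zero _ hh))
  basis_apply := by
    intro i
    rw [Basis.unitsSMul_apply, kb.basis_apply, Units.smul_def, Units.val_mk0, Algebra.smul_def,
      mul_pow, ← map_pow, inv_pow, mul_comm]

/-- the associated power basis. -/
noncomputable def powerBasis : PowerBasis F F' where
  gen := ζ
  dim := m
  basis := kb.basis
  basis_eq_pow := kb.basis_apply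

theorem minpoly_eq : minpoly F ζ = X ^ m - C ε := by
  have h1 : (minpoly F ζ).natDegree = m := kb.powerBasis.natDegree_minpoly
  have h2 : minpoly F ζ ∣ X ^ m - C ε := minpoly.dvd F ζ (by simp [kb.pow_eq])
  have h3 : IsIntegral F ζ := kb.powerBasis.isIntegral_gen
  exact (eq_of_monic_of_dvd_of_natDegree_le (minpoly.monic h3)
    (monic_X_pow_sub_C _ kb.m_pos.ne') h2 (by rw [h1, natDegree_X_pow_sub_C])).symm

section Eval

variable {Ω : Type*} [Field Ω] [Algebra F Ω]

/-- evaluation `ζ ↦ y` at a root `y` of `X ^ m - ε`. -/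
noncomputable def evalAt (y : Ω) (hy : y ^ m = algebraMap F Ω ε) : F' →ₐ[F] Ω :=
  kb.powerBasis.lift y (by
    rw [show kb.powerBasis.gen = ζ from rfl, kb.minpoly_eq]
    simp [hy])

theorem evalAt_zeta (y : Ω) (hy : y ^ m = algebraMap F Ω ε) : kb.evalAt y hy ζ = y :=
  kb.powerBasis.lift_gen _ _

theorem evalAt_apply (y : Ω) (hy : y ^ m = algebraMap F Ω ε) (c : F') :
    kb.evalAt y hy c = ∑ i : Fin m, algebraMap F Ω (kb.basis.repr c i) * y ^ (i : ℕ) := by
  conv_lhs => rw [kb.sum_repr c]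
  rw [map_sum]
  refine Finset.sum_congr rfl fun i _ => ?_
  rw [map_mul, map_pow, kb.evalAt_zeta, AlgHom.commutes]

omit kb in
theorem sum_pow_primitiveRoot {ω : Ω} (hω : IsPrimitiveRoot ω m) (n : ℕ) :
    ∑ k ∈ Finset.range m, (ω ^ n) ^ k = if m ∣ n then (m : Ω) else 0 := by
  split_ifs with h
  · have : ω ^ n = 1 := (hω.pow_eq_one_iff_dvd n).2 h
    simp [this]
  · have h1 : ω ^ n ≠ 1 := fun h1 => h ((hω.pow_eq_one_iff_dvd n).1 h1)
    have h2 : (ω ^ n - 1) * ∑ k ∈ Finset.range m, (ω ^ n) ^ k = 0 := by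
      rw [mul_geom_sum, ← pow_mul, mul_comm, pow_mul, hω.pow_eq_one, one_pow, sub_self]
    rcases mul_eq_zero.1 h2 with h3 | h3
    · exact absurd (sub_eq_zero.1 h3) h1
    · exact h3

omit kb in
theorem mul_pow_eq {ω r : Ω} (hω : IsPrimitiveRoot ω m) (hr : r ^ m = algebraMap F Ω ε) (k : ℕ) :
    (ω ^ k * r) ^ m = algebraMap F Ω ε := by
  rw [mul_pow, ← pow_mul, mul_comm k m, pow_mul, hω.pow_eq_one, one_pow, one_mul, hr]

/-- **discrete Fourier transform**: recover the `i`-th coordinate from the `m` evaluations. -/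
theorem sum_evalAt {ω r : Ω} (hω : IsPrimitiveRoot ω m) (hr : r ^ m = algebraMap F Ω ε)
    (c : F') (i : Fin m) :
    ∑ k ∈ Finset.range m, (ω ^ (m - (i : ℕ))) ^ k * kb.evalAt (ω ^ k * r) (mul_pow_eq hω hr k) c =
      (m : Ω) * (algebraMap F Ω (kb.basis.repr c i) * r ^ (i : ℕ)) := by
  classical
  have h1 : ∀ k ∈ Finset.range m,
      (ω ^ (m - (i : ℕ))) ^ k * kb.evalAt (ω ^ k * r) (mul_pow_eq hω hr k) c =
      ∑ j : Fin m, (algebraMap F Ω (kb.basis.repr c j) * r ^ (j : ℕ)) *
        (ω ^ (m - (i : ℕ) + (j : ℕ))) ^ k := by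
    intro k _
    rw [kb.evalAt_apply, Finset.mul_sum]
    refine Finset.sum_congr rfl fun j _ => ?_
    rw [mul_pow, pow_add, mul_pow, ← pow_mul ω (j : ℕ) k, ← pow_mul ω k (j : ℕ),
      mul_comm (j : ℕ) k]
    ring
  rw [Finset.sum_congr rfl h1, Finset.sum_comm]
  have h2 : ∀ j ∈ (Finset.univ : Finset (Fin m)),
      ∑ k ∈ Finset.range m, (algebraMap F Ω (kb.basis.repr c j) * r ^ (j : ℕ)) *
        (ω ^ (m - (i : ℕ) + (j : ℕ))) ^ k =
      if j = i then (m : Ω) * (algebraMap F Ω (kb.basis.repr c i) * r ^ (i : ℕ)) else 0 := by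
    intro j _
    rw [← Finset.mul_sum, sum_pow_primitiveRoot hω]
    have hi := i.2
    have hj := j.2
    by_cases hji : j = i
    · subst hji
      rw [if_pos rfl, if_pos ⟨1, by omega⟩, mul_comm]
    · rw [if_neg hji, if_neg, mul_zero]
      rintro ⟨q, hq⟩
      have hne : (j : ℕ) ≠ (i : ℕ) := fun h => hji (Fin.ext h)
      rcases Nat.lt_or_ge (j : ℕ) (i : ℕ) with h | h
      · have h1 : 0 < m - (i : ℕ) + (j : ℕ) := by omega
        have h2 : m - (i : ℕ) + (j : ℕ) < m := by omega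
        rcases Nat.eq_zero_or_pos q with rfl | hq0
        · omega
        · have : m ≤ m * q := Nat.le_mul_of_pos_right m hq0
          omega
      · have h1 : m < m - (i : ℕ) + (j : ℕ) := by omega
        have h2 : m - (i : ℕ) + (j : ℕ) < 2 * m := by omega
        rcases Nat.lt_or_ge q 2 with hq2 | hq2
        · interval_cases q <;> omega
        · have : m * 2 ≤ m * q := Nat.mul_le_mul_left m hq2
          omega
  rw [Finset.sum_congr rfl h2, Finset.sum_ite_eq' Finset.univ i]
  simp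

end Eval

end KummerBasis

section Integral

variable {m : ℕ} {ε : F} {ζ : F'} (kb : KummerBasis m ε ζ) (O : Subalgebra A F)

include kb

/-- `ζ` is integral over `O` if `ε ∈ O`. -/
theorem KummerBasis.isIntegral_zeta (hε : ε ∈ O) : IsIntegral O ζ := by
  refine ⟨Polynomial.X ^ m - Polynomial.C (⟨ε, hε⟩ : O), ?_, ?_⟩
  · exact Polynomial.monic_X_pow_sub_C _ kb.m_pos.ne'
  · rw [Polynomial.eval₂_sub, Polynomial.eval₂_pow, Polynomial.eval₂_X, Polynomial.eval₂_C,
      kb.pow_eq]
    exact sub_self _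

omit kb [Nontrivial F'] in
/-- elements of `O` are integral over `O` (as elements of `F'`). -/
theorem isIntegral_algebraMap_of_mem' (O : Subalgebra A F) {a : F} (ha : a ∈ O) :
    IsIntegral O (algebraMap F F' a) := by
  have : algebraMap F F' a = algebraMap O F' ⟨a, ha⟩ := rfl
  rw [this]
  exact isIntegral_algebraMap

/-- **Key lemma, easy direction.** -/
theorem KummerBasis.isIntegral_of_repr_mem (hε : ε ∈ O) {c : F'}
    (hc : ∀ i, kb.basis.repr c i ∈ O) : IsIntegral O c := by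
  rw [kb.sum_repr c]
  refine IsIntegral.sum _ fun i _ => ?_
  exact (isIntegral_algebraMap_of_mem' O (hc i)).mul ((kb.isIntegral_zeta O hε).pow _)

/-- the evaluations of an integral element are integral. -/
theorem KummerBasis.isIntegral_evalAt {Ω : Type*} [Field Ω] [Algebra F Ω]
    (y : Ω) (hy : y ^ m = algebraMap F Ω ε) {c : F'} (hc : IsIntegral O c) :
    IsIntegral O (kb.evalAt y hy c) := by
  obtain ⟨P, hP, hPc⟩ := hc
  refine ⟨P, hP, ?_⟩
  have h := congrArg (kb.evalAt y hy : F' →+* Ω) hPc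
  rw [map_zero, Polynomial.hom_eval₂] at h
  have h2 : ((kb.evalAt y hy : F' →+* Ω).comp (algebraMap O F')) = algebraMap O Ω := by
    ext a
    exact (kb.evalAt y hy).commutes (a : F)
  rw [h2] at h
  exact h

/-- **Key lemma, main direction**: the coordinates of an element integral over `O` lie in `O`,
if `O` is integrally closed in `F` and `ε`, `(m ε)⁻¹ ∈ O`. -/
theorem KummerBasis.repr_mem_of_isIntegral (hO : ∀ f : F, IsIntegral O f → f ∈ O)
    (hε : ε ∈ O) (hmε : ((m : F) * ε)⁻¹ ∈ O) (hmε0 : (m : F) * ε ≠ 0) {c : F'}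
    (hc : IsIntegral O c) (i : Fin m) : kb.basis.repr c i ∈ O := by
  classical
  have hm0 : (m : F) ≠ 0 := left_ne_zero_of_mul hmε0
  have hε0 : ε ≠ 0 := right_ne_zero_of_mul hmε0
  haveI : NeZero (m : F) := ⟨hm0⟩
  set Ω := AlgebraicClosure F with hΩ
  obtain ⟨ω, hω⟩ := HasEnoughRootsOfUnity.exists_primitiveRoot Ω m
  obtain ⟨r, hr⟩ := IsAlgClosed.exists_pow_nat_eq (algebraMap F Ω ε) kb.m_pos
  have hmO : (m : F) ∈ O := by
    have : (m : F) = algebraMap A F (m : A) := by simp
    rw [this]; exact O.algebraMap_mem _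
  have hminv : ((m : F))⁻¹ ∈ O := by
    have : ((m : F))⁻¹ = ε * ((m : F) * ε)⁻¹ := by
      rw [mul_inv, mul_left_comm, mul_inv_cancel₀ hε0, mul_one]
    rw [this]; exact O.mul_mem hε hmε
  have hεinv : ε⁻¹ ∈ O := by
    have : ε⁻¹ = (m : F) * ((m : F) * ε)⁻¹ := by
      rw [mul_inv, ← mul_assoc, mul_inv_cancel₀ hm0, one_mul]
    rw [this]; exact O.mul_mem hmO hmε
  have hr0 : r ≠ 0 := by
    intro h
    rw [h, zero_pow kb.m_pos.ne'] at hr
    exact hε0 ((map_eq_zero (algebraMap F Ω)).1 hr.symm)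
  have hωint : IsIntegral O ω := by
    refine IsIntegral.of_pow kb.m_pos ?_
    rw [hω.pow_eq_one]; exact isIntegral_one
  have hrinv : IsIntegral O r⁻¹ := by
    refine IsIntegral.of_pow kb.m_pos ?_
    rw [inv_pow, hr, ← map_inv₀]
    exact isIntegral_algebraMap_of_mem' O hεinv
  have hsum := kb.sum_evalAt hω hr c i
  have hint : IsIntegral O ((m : Ω) * (algebraMap F Ω (kb.basis.repr c i) * r ^ (i : ℕ))) := by
    rw [← hsum]
    refine IsIntegral.sum _ fun k _ => ?_
    exact ((hωint.pow _).pow _).mul (kb.isIntegral_evalAt O _ _ hc)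
  have hminvΩ : IsIntegral O (algebraMap F Ω ((m : F))⁻¹) := isIntegral_algebraMap_of_mem' O hminv
  have h3 : algebraMap F Ω (kb.basis.repr c i) =
      algebraMap F Ω ((m : F))⁻¹ *
        ((m : Ω) * (algebraMap F Ω (kb.basis.repr c i) * r ^ (i : ℕ))) * r⁻¹ ^ (i : ℕ) := by
    have hmΩ : (m : Ω) ≠ 0 := by
      have : (m : Ω) = algebraMap F Ω (m : F) := by simp
      rw [this]; exact (_root_.map_ne_zero _).2 hm0
    have : algebraMap F Ω ((m : F))⁻¹ = ((m : Ω))⁻¹ := by rw [map_inv₀]; simp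
    rw [this, inv_pow, ← mul_assoc, inv_mul_cancel₀ hmΩ, one_mul, mul_assoc,
      mul_inv_cancel₀ (pow_ne_zero _ hr0), mul_one]
  have h4 : IsIntegral O (algebraMap F Ω (kb.basis.repr c i)) := by
    rw [h3]
    exact (hminvΩ.mul hint).mul (hrinv.pow _)
  exact hO _ ((isIntegral_algebraMap_iff (algebraMap F Ω).injective).1 h4)

/-- **Key lemma.** -/
theorem KummerBasis.isIntegral_iff (hO : ∀ f : F, IsIntegral O f → f ∈ O)
    (hε : ε ∈ O) (hmε : ((m : F) * ε)⁻¹ ∈ O) (hmε0 : (m : F) * ε ≠ 0) (c : F') :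
    IsIntegral O c ↔ ∀ i, kb.basis.repr c i ∈ O :=
  ⟨fun hc i => kb.repr_mem_of_isIntegral O hO hε hmε hmε0 hc i,
    fun h => kb.isIntegral_of_repr_mem O hε h⟩

end Integral

end Fermat.Agent.A2.H348

end
-- ===== PACK-END A2/H348/KummerCoord.lean

-- ===== PACK-BEGIN A2/H552/KummerUnram.lean
section







/-!
# A2 / ALG, COVER-SPLIT in the cyclic case `u ≡ 1 mod w` (helper552)

`K ⊆ Ω` fields, `V` a valuation subring of `K` with uniformiser `w` (`w` generates the non-units
of `V` and `K = V[1/w]`), `m` invertible in `V`, `ζ ∈ K` a primitive `m`-th root of unity,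
`Ω = K[z]` with `z ^ m = 1 + w t`, `t ∈ V`.  Let `W` be ANY valuation subring of `Ω` containing `V`
in which `w` is not a unit.  Then

* `z = η (1 + w s)` with `η` an `m`-th root of unity and `s ∈ W`;
* `W = V[s]` (the subring generated by `V` and `s`), `V[s] = V + w V[s]`;
* hence `𝔪_W = w W` (`e = 1`) and `W = V + w W` (`f = 1`): `kummer_unramified`.

No Galois theory, no étale/Dedekind API, no completeness.
-/

set_option autoImplicit false

namespace Fermat.Agent.A2.H552

open Polynomial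

section CycUnram

variable {K Ω : Type*} [Field K] [Field Ω] [Algebra K Ω]

/-- In a valuation subring of a field: a nonzero element with `x⁻¹ ∉ W` has valuation `< 1`. -/
theorem valuation_lt_one_of_inv_notMem (W : ValuationSubring Ω) {x : Ω} (hx : x⁻¹ ∉ W) :
    W.valuation x < 1 := by
  by_contra h
  rw [not_lt] at h
  apply hx
  rw [← W.valuation_le_one_iff, map_inv₀]
  exact inv_le_one_of_one_le₀ h

/-- An element of valuation `< 1` has `x⁻¹ ∉ W` unless it is zero. -/
theorem inv_notMem_of_valuation_lt_one (W : ValuationSubring Ω) {x : Ω} (hx0 : x ≠ 0)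
    (hx : W.valuation x < 1) : x⁻¹ ∉ W := by
  intro h
  rw [← W.valuation_le_one_iff, map_inv₀] at h
  have hpos : 0 < W.valuation x := by
    rw [pos_iff_ne_zero]
    exact (Valuation.ne_zero_iff _).mpr hx0
  have := (inv_le_one₀ hpos).mp h
  exact absurd hx (not_lt.mpr this)

/-- In a linearly ordered group with zero, `a ^ n = 1` with `n ≠ 0` forces `a = 1`. -/
theorem eq_one_of_pow_eq_one₀ {Γ : Type*} [LinearOrderedCommGroupWithZero Γ] {a : Γ} {n : ℕ}
    (hn : n ≠ 0) (h : a ^ n = 1) : a = 1 := by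
  rcases lt_trichotomy a 1 with h1 | h1 | h1
  · exact absurd h (pow_lt_one₀ zero_le h1 hn).ne
  · exact h1
  · exact absurd h (one_lt_pow₀ h1 hn).ne'

/-- `x ^ m = 1` with `0 < m` gives `x⁻¹ = x ^ (m - 1)`. -/
theorem inv_eq_pow_of_pow_eq_one {F : Type*} [Field F] {x : F} {m : ℕ} (hm : 0 < m)
    (h : x ^ m = 1) : x⁻¹ = x ^ (m - 1) := by
  apply inv_eq_of_mul_eq_one_right
  rw [← pow_succ', Nat.sub_add_cancel hm, h]

/-- **Cyclic Kummer extensions with `u ≡ 1 mod w` are unramified with trivial residue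
extension** at every valuation subring `W` over `V`. -/
theorem kummer_unramified (V : ValuationSubring K) (W : ValuationSubring Ω)
    (hVW : ∀ a ∈ V, algebraMap K Ω a ∈ W)
    (w : K) (hwV : w ∈ V) (hw0 : w ≠ 0) (hwW : (algebraMap K Ω w)⁻¹ ∉ W)
    (hVgen : ∀ a ∈ V, a⁻¹ ∉ V → a * w⁻¹ ∈ V)
    (hdisc : ∀ c : K, ∃ k : ℕ, w ^ k * c ∈ V)
    (m : ℕ) (hm : 0 < m) (hm0 : (m : K) ≠ 0) (hmV : ((m : K))⁻¹ ∈ V)
    (ζ : K) (hζ : IsPrimitiveRoot ζ m)
    (t : K) (ht : t ∈ V) (z : Ω) (hz : z ^ m = algebraMap K Ω (1 + w * t))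
    (hgen : ∀ b : Ω, b ∈ Algebra.adjoin K ({z} : Set Ω)) :
    (∀ b ∈ W, b⁻¹ ∉ W → b * (algebraMap K Ω w)⁻¹ ∈ W) ∧
    (∀ b ∈ W, ∃ a ∈ V, (b - algebraMap K Ω a) * (algebraMap K Ω w)⁻¹ ∈ W) := by
  classical
  have : NeZero m := ⟨hm.ne'⟩
  set φ := algebraMap K Ω with hφ
  set v := W.valuation with hv
  have hφinj : Function.Injective φ := (algebraMap K Ω).injective
  have hφw0 : φ w ≠ 0 := fun h => hw0 (hφinj (by rw [h, map_zero]))
  have hvV : ∀ a ∈ V, v (φ a) ≤ 1 := fun a ha => (W.valuation_le_one_iff _).mpr (hVW a ha)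
  have hvw : v (φ w) < 1 := valuation_lt_one_of_inv_notMem W hwW
  have hvw0 : v (φ w) ≠ 0 := (Valuation.ne_zero_iff _).mpr hφw0
  have hunitV : ∀ a ∈ V, a⁻¹ ∈ V → a ≠ 0 → v (φ a) = 1 := by
    intro a ha hai ha0
    have h1 := hvV a ha
    have h2 := hvV _ hai
    rw [map_inv₀, map_inv₀] at h2
    have hpos : 0 < v (φ a) := by
      rw [pos_iff_ne_zero]
      exact (Valuation.ne_zero_iff _).mpr (fun h => ha0 (hφinj (by rw [h, map_zero])))
    exact le_antisymm h1 ((inv_le_one₀ hpos).mp h2)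
  -- the root of unity `ζ` is a unit of `V`
  have hζm : ζ ^ m = 1 := hζ.pow_eq_one
  have hζ0 : ζ ≠ 0 := hζ.ne_zero hm.ne'
  have hpowV : ∀ i : ℕ, ζ ^ i ∈ V := by
    have hζV : ζ ∈ V := by
      rcases V.mem_or_inv_mem ζ with h | h
      · exact h
      · have h1 : (ζ⁻¹) ^ m = 1 := by rw [inv_pow, hζm, inv_one]
        have h2 := inv_eq_pow_of_pow_eq_one hm h1
        rw [inv_inv] at h2
        rw [h2]
        exact pow_mem h _
    exact fun i => pow_mem hζV i
  -- `m` is a unit of `V`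
  have hmVmem : (m : K) ∈ V := by
    have : (m : K) = ((m : ℕ) : V) := by simp
    rw [this]
    exact Subtype.mem _
  have hvm : v (φ (m : K)) = 1 := hunitV _ hmVmem hmV hm0
  have hφm : φ (m : K) = (m : Ω) := map_natCast φ m
  -- `z` is a unit of `W`
  have hv1wt : v (φ (1 + w * t)) = 1 := by
    rw [map_add, map_one, map_mul]
    have hlt : v (φ w * φ t) < v 1 := by
      rw [map_one, map_mul]
      calc v (φ w) * v (φ t) ≤ v (φ w) * 1 := by gcongr; exact hvV t ht
        _ = v (φ w) := mul_one _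
        _ < 1 := hvw
    rw [Valuation.map_add_eq_of_lt_left _ hlt, map_one]
  have hvz : v z = 1 := by
    have h1 : v z ^ m = 1 := by rw [← map_pow, hz, hv1wt]
    exact eq_one_of_pow_eq_one₀ hm.ne' h1
  -- some `m`-th root of unity `η` is congruent to `z`
  have hζ' : IsPrimitiveRoot (φ ζ) m := hζ.map_of_injective hφinj
  have hprod : z ^ m - 1 = ∏ η ∈ nthRootsFinset m (1 : Ω), (z - η) := by
    have h := congrArg (eval z) (X_pow_sub_one_eq_prod hm hζ')
    simpa [eval_prod] using h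
  have hvη : ∀ η ∈ nthRootsFinset m (1 : Ω), v η = 1 := by
    intro η hη
    rw [mem_nthRootsFinset hm] at hη
    have h1 : v η ^ m = 1 := by rw [← map_pow, hη, map_one]
    exact eq_one_of_pow_eq_one₀ hm.ne' h1
  obtain ⟨η, hη, hzη⟩ : ∃ η ∈ nthRootsFinset m (1 : Ω), v (z - η) < 1 := by
    by_contra hcon
    have hall : ∀ η ∈ nthRootsFinset m (1 : Ω), v (z - η) = 1 := by
      intro η hη
      refine le_antisymm ?_ (not_lt.mp fun h => hcon ⟨η, hη, h⟩)
      exact (Valuation.map_sub _ _ _).trans (max_le hvz.le (hvη η hη).le)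
    have h1 : v (z ^ m - 1) = 1 := by
      rw [hprod, map_prod]
      exact Finset.prod_eq_one hall
    have h2 : v (z ^ m - 1) < 1 := by
      rw [hz, map_add, map_one, add_sub_cancel_left, map_mul]
      calc v (φ w) * v (φ t) ≤ v (φ w) * 1 := by gcongr; exact hvV t ht
        _ = v (φ w) := mul_one _
        _ < 1 := hvw
    exact absurd h1 h2.ne
  have hηm : η ^ m = 1 := (mem_nthRootsFinset hm 1).mp hη
  have hη0 : η ≠ 0 := by
    intro h
    rw [h, zero_pow hm.ne'] at hηm
    exact zero_ne_one hηm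
  obtain ⟨i, -, hi⟩ := hζ'.eq_pow_of_pow_eq_one hηm
  -- normalise: `z₁ = z / η ≡ 1`
  set z₁ := z * η⁻¹ with hz₁
  have hz₁m : z₁ ^ m = φ (1 + w * t) := by
    rw [hz₁, mul_pow, inv_pow, hηm, inv_one, mul_one, hz]
  have hvz₁ : v (z₁ - 1) < 1 := by
    have : z₁ - 1 = (z - η) * η⁻¹ := by
      rw [hz₁, sub_mul, mul_inv_cancel₀ hη0]
    rw [this, map_mul, map_inv₀, hvη η hη, inv_one, mul_one]
    exact hzη
  have hvz₁' : v z₁ ≤ 1 := by
    rw [hz₁, map_mul, map_inv₀, hvη η hη, inv_one, mul_one]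
    exact hvz.le
  set G := ∑ j ∈ Finset.range m, z₁ ^ j with hG
  have hGmul : G * (z₁ - 1) = φ w * φ t := by
    rw [hG, geom_sum_mul, hz₁m, map_add, map_one, map_mul, add_sub_cancel_left]
  set s := (z₁ - 1) * (φ w)⁻¹ with hs
  have hz₁s : z₁ = 1 + φ w * s := by
    rw [hs, mul_comm (z₁ - 1), ← mul_assoc, mul_inv_cancel₀ hφw0, one_mul]
    ring
  -- `G = m + w s c₀`
  set c₀ := ∑ j ∈ Finset.range m, ∑ l ∈ Finset.range j, z₁ ^ l with hc₀
  have hGm : G = (m : Ω) + φ w * s * c₀ := by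
    have h1 : G - (m : Ω) = ∑ j ∈ Finset.range m, (z₁ ^ j - 1) := by
      rw [hG, Finset.sum_sub_distrib]
      simp
    have h2 : ∀ j ∈ Finset.range m, z₁ ^ j - 1 = (z₁ - 1) * ∑ l ∈ Finset.range j, z₁ ^ l :=
      fun j _ => (mul_geom_sum z₁ j).symm
    rw [Finset.sum_congr rfl h2, ← Finset.mul_sum, ← hc₀] at h1
    have h3 : z₁ - 1 = φ w * s := by rw [hz₁s]; ring
    rw [h3] at h1
    rw [← h1]; ring
  have hGs : G * s = φ t := by
    have h3 : z₁ - 1 = φ w * s := by rw [hz₁s]; ring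
    rw [h3] at hGmul
    have : φ w * (G * s) = φ w * φ t := by rw [← hGmul]; ring
    exact mul_left_cancel₀ hφw0 this
  -- the subring `A = V[s]`
  set A : Subring Ω := Subring.closure (φ '' (V : Set K) ∪ {s}) with hA
  have hVA : ∀ a ∈ V, φ a ∈ A := fun a ha =>
    Subring.subset_closure (Or.inl ⟨a, ha, rfl⟩)
  have hsA : s ∈ A := Subring.subset_closure (Or.inr rfl)
  have hwA : φ w ∈ A := hVA w hwV
  have hz₁A : z₁ ∈ A := by
    rw [hz₁s]
    exact A.add_mem A.one_mem (A.mul_mem hwA hsA)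
  have hc₀A : c₀ ∈ A := by
    rw [hc₀]
    exact A.sum_mem fun j _ => A.sum_mem fun l _ => A.pow_mem hz₁A l
  -- `s ∈ W`
  have hvG : v G = 1 := by
    have h1 : v (φ w * s * c₀) < v (m : Ω) := by
      rw [← hφm, hvm]
      have hsc : φ w * s * c₀ = (z₁ - 1) * c₀ := by
        rw [hz₁s]; ring
      rw [hsc, map_mul]
      have hc₀le : v c₀ ≤ 1 := by
        rw [hc₀]
        refine Valuation.map_sum_le _ fun j _ => ?_
        refine Valuation.map_sum_le _ fun l _ => ?_
        rw [map_pow]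
        exact pow_le_one₀ zero_le hvz₁'
      calc v (z₁ - 1) * v c₀ ≤ v (z₁ - 1) * 1 := by gcongr
        _ = v (z₁ - 1) := mul_one _
        _ < 1 := hvz₁
    rw [hGm, Valuation.map_add_eq_of_lt_left _ h1, ← hφm, hvm]
  have hG0 : G ≠ 0 := by
    intro h
    rw [h, map_zero] at hvG
    exact zero_ne_one hvG
  have hsW : v s ≤ 1 := by
    have : s = φ t * G⁻¹ := by
      rw [← hGs, mul_comm G s, mul_assoc, mul_inv_cancel₀ hG0, mul_one]
    rw [this, map_mul, map_inv₀, hvG, inv_one, mul_one]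
    exact hvV t ht
  have hAW : ∀ a ∈ A, v a ≤ 1 := by
    intro a ha
    have hle : A ≤ W.toSubring := by
      rw [hA, Subring.closure_le]
      rintro x (⟨a, ha, rfl⟩ | hx)
      · exact hVW a ha
      · rw [Set.mem_singleton_iff] at hx
        rw [hx]
        exact (W.valuation_le_one_iff _).mp hsW
    exact (W.valuation_le_one_iff _).mpr (hle ha)
  -- `A = V + w A`
  have hdec : ∀ a ∈ A, ∃ a₀ ∈ V, ∃ a' ∈ A, a = φ a₀ + φ w * a' := by
    intro a ha
    induction ha using Subring.closure_induction with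
    | mem x hx =>
      rcases hx with ⟨a₀, ha₀, rfl⟩ | hx
      · exact ⟨a₀, ha₀, 0, A.zero_mem, by simp⟩
      · rw [Set.mem_singleton_iff] at hx
        subst hx
        refine ⟨t * (m : K)⁻¹, mul_mem ht hmV, -(φ ((m : K)⁻¹) * s * s * c₀),
          A.neg_mem (A.mul_mem (A.mul_mem (A.mul_mem (hVA _ hmV) hsA) hsA) hc₀A), ?_⟩
        have hmm : (m : Ω) * φ ((m : K)⁻¹) = 1 := by
          rw [← hφm, ← map_mul, mul_inv_cancel₀ hm0, map_one]
        have h5 : ((m : Ω) + φ w * s * c₀) * s = φ t := by rw [← hGm]; exact hGs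
        rw [map_mul]
        linear_combination (φ ((m : K)⁻¹)) * h5 - s * hmm
    | zero => exact ⟨0, zero_mem V, 0, A.zero_mem, by simp⟩
    | one => exact ⟨1, one_mem V, 0, A.zero_mem, by simp⟩
    | add x y hx hy ihx ihy =>
      obtain ⟨x₀, hx₀, x', hx', rfl⟩ := ihx
      obtain ⟨y₀, hy₀, y', hy', rfl⟩ := ihy
      exact ⟨x₀ + y₀, add_mem hx₀ hy₀, x' + y', A.add_mem hx' hy', by rw [map_add]; ring⟩
    | neg x hx ihx =>
      obtain ⟨x₀, hx₀, x', hx', rfl⟩ := ihx
      exact ⟨-x₀, neg_mem hx₀, -x', A.neg_mem hx', by rw [map_neg]; ring⟩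
    | mul x y hx hy ihx ihy =>
      obtain ⟨x₀, hx₀, x', hx', rfl⟩ := ihx
      obtain ⟨y₀, hy₀, y', hy', rfl⟩ := ihy
      refine ⟨x₀ * y₀, mul_mem hx₀ hy₀, φ x₀ * y' + x' * φ y₀ + φ w * x' * y', ?_, ?_⟩
      · exact A.add_mem (A.add_mem (A.mul_mem (hVA _ hx₀) hy') (A.mul_mem hx' (hVA _ hy₀)))
          (A.mul_mem (A.mul_mem hwA hx') hy')
      · rw [map_mul]; ring
  -- non-units of `A` are divisible by `w`
  have hdiv : ∀ a ∈ A, v a < 1 → ∃ a' ∈ A, a = φ w * a' := by
    intro a ha hva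
    obtain ⟨a₀, ha₀, a', ha', rfl⟩ := hdec a ha
    have h1 : v (φ w * a') < 1 := by
      rw [map_mul]
      calc v (φ w) * v a' ≤ v (φ w) * 1 := by gcongr; exact hAW a' ha'
        _ = v (φ w) := mul_one _
        _ < 1 := hvw
    have h2 : v (φ a₀) < 1 := by
      have : φ a₀ = (φ a₀ + φ w * a') - φ w * a' := by ring
      rw [this]
      exact Valuation.map_sub_lt _ hva h1
    have h3 : a₀ * w⁻¹ ∈ V := by
      by_cases h0 : a₀ = 0
      · rw [h0, zero_mul]; exact zero_mem V
      refine hVgen a₀ ha₀ fun hinv => ?_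
      have := hunitV a₀ ha₀ hinv h0
      rw [this] at h2
      exact lt_irrefl _ h2
    refine ⟨φ (a₀ * w⁻¹) + a', A.add_mem (hVA _ h3) ha', ?_⟩
    rw [mul_add, ← map_mul, mul_comm a₀, ← mul_assoc, mul_inv_cancel₀ hw0, one_mul]
  -- `Ω = A[1/w]`
  have hloc : ∀ b : Ω, ∃ k : ℕ, φ w ^ k * b ∈ A := by
    intro b
    induction hgen b using Algebra.adjoin_induction with
    | mem x hx =>
      rw [Set.mem_singleton_iff] at hx
      rw [hx]
      refine ⟨0, ?_⟩
      rw [pow_zero, one_mul]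
      have hzz : z = η * z₁ := by
        rw [hz₁, mul_comm z, ← mul_assoc, mul_inv_cancel₀ hη0, one_mul]
      rw [hzz]
      refine A.mul_mem ?_ hz₁A
      rw [← hi, ← map_pow]
      exact hVA _ (hpowV i)
    | algebraMap c =>
      obtain ⟨k, hk⟩ := hdisc c
      refine ⟨k, ?_⟩
      rw [← hφ, ← map_pow, ← map_mul]
      exact hVA _ hk
    | add x y _ _ ihx ihy =>
      obtain ⟨k₁, h₁⟩ := ihx
      obtain ⟨k₂, h₂⟩ := ihy
      refine ⟨k₁ + k₂, ?_⟩
      have : φ w ^ (k₁ + k₂) * (x + y) = φ w ^ k₂ * (φ w ^ k₁ * x) + φ w ^ k₁ * (φ w ^ k₂ * y) := by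
        rw [pow_add]; ring
      rw [this]
      exact A.add_mem (A.mul_mem (A.pow_mem hwA _) h₁) (A.mul_mem (A.pow_mem hwA _) h₂)
    | mul x y _ _ ihx ihy =>
      obtain ⟨k₁, h₁⟩ := ihx
      obtain ⟨k₂, h₂⟩ := ihy
      refine ⟨k₁ + k₂, ?_⟩
      have : φ w ^ (k₁ + k₂) * (x * y) = (φ w ^ k₁ * x) * (φ w ^ k₂ * y) := by
        rw [pow_add]; ring
      rw [this]
      exact A.mul_mem h₁ h₂
  -- `W ⊆ A`
  have hWA : ∀ b : Ω, v b ≤ 1 → b ∈ A := by
    intro b hb
    have hex := hloc b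
    have hk : Nat.find hex = 0 := by
      by_contra hne
      obtain ⟨k, hk⟩ : ∃ k, Nat.find hex = k + 1 := ⟨Nat.find hex - 1, by omega⟩
      have hmem := Nat.find_spec hex
      rw [hk] at hmem
      have hlt : v (φ w ^ (k + 1) * b) < 1 := by
        rw [map_mul, map_pow, pow_succ]
        calc v (φ w) ^ k * v (φ w) * v b ≤ 1 * v (φ w) * 1 := by
              gcongr
              exact pow_le_one₀ zero_le hvw.le
          _ = v (φ w) := by rw [one_mul, mul_one]
          _ < 1 := hvw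
      obtain ⟨a', ha', h'⟩ := hdiv _ hmem hlt
      have : φ w ^ k * b = a' := by
        have h6 : φ w * (φ w ^ k * b) = φ w * a' := by rw [← h', pow_succ]; ring
        exact mul_left_cancel₀ hφw0 h6
      have hmin := Nat.find_min hex (m := k) (by omega)
      exact hmin (this ▸ ha')
    have := Nat.find_spec hex
    rwa [hk, pow_zero, one_mul] at this
  refine ⟨fun b hbW hbinv => ?_, fun b hbW => ?_⟩
  · have hb1 : v b < 1 := valuation_lt_one_of_inv_notMem W hbinv
    obtain ⟨a', ha', h'⟩ := hdiv b (hWA b hb1.le) hb1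
    rw [h', mul_comm (φ w), mul_assoc, mul_inv_cancel₀ hφw0, mul_one]
    exact (W.valuation_le_one_iff _).mp (hAW a' ha')
  · obtain ⟨a₀, ha₀, a', ha', h'⟩ := hdec b (hWA b ((W.valuation_le_one_iff _).mpr hbW))
    refine ⟨a₀, ha₀, ?_⟩
    rw [h', add_sub_cancel_left, mul_comm (φ w), mul_assoc, mul_inv_cancel₀ hφw0, mul_one]
    exact (W.valuation_le_one_iff _).mp (hAW a' ha')

end CycUnram

end Fermat.Agent.A2.H552

end
-- ===== PACK-END A2/H552/KummerUnram.lean

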