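import Mathlib
import Fermat.Agent.Pack.S58.E0L0
import Fermat.Agent.Pack.S36.E2L3
import Fermat.Agent.Pack.S58.E0L1
import Fermat.Agent.Pack.S58.E0L2
import Fermat.Agent.Pack.S58.E0L3
import Fermat.Agent.Pack.S36.E0L1
import Fermat.Agent.Pack.S36.E3L2
import Fermat.Agent.Pack.S36.E0L3

-- ===== PACK-BEGIN S58/Glue.lean
section



/-!
# S58 — glue (helper41): conductor–level matching from the leaves of `S58/Spec.lean`

`s58_of_leaves : S35Statement → S36Statement → FrobExistsStatement → TateRepStatement →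
  CoeffStatement → ChebCharpolyStatement → ResidualStatement → PointCountStatement →
  Newform.Descent → Newform.Stab → S58Statement`
-/

set_option autoImplicit false

open Polynomial

namespace Fermat.Agent.S58

open Fermat.Agent.Lib.Newform

section Poly

variable {R : Type} [CommRing R]

theorem coeff_one_quad (a b : R) : (X ^ 2 - C a * X + C b : R[X]).coeff 1 = -a := by
  simp [coeff_C]

theorem quad_left_injective {a a' b b' : R}
    (h : (X ^ 2 - C a * X + C b : R[X]) = X ^ 2 - C a' * X + C b') : a = a' := by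
  have := congrArg (fun P : R[X] => P.coeff 1) h
  simp only [coeff_one_quad] at this
  exact neg_injective this

theorem quad_plus_eq (a b : R) : (X ^ 2 + C a * X + C b : R[X]) = X ^ 2 - C (-a) * X + C b := by
  simp [sub_eq_add_neg]

end Poly

section Nat

theorem dvd_of_squarefree_of_prime_dvd {M D : ℕ} (hM : Squarefree M)
    (h : ∀ q : ℕ, q.Prime → q ∣ M → q ∣ D) : M ∣ D := by
  have hM0 : M ≠ 0 := hM.ne_zero
  rw [← Nat.prod_primeFactors_of_squarefree hM]
  refine Finset.prod_primes_dvd D (fun q hq => (Nat.prime_of_mem_primeFactors hq).prime)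
    (fun q hq => h q (Nat.prime_of_mem_primeFactors hq) (Nat.dvd_of_mem_primeFactors hq))

theorem squarefree_of_forall_not_sq_dvd {M : ℕ}
    (h : ∀ q : ℕ, q.Prime → ¬ q ^ 2 ∣ M) : Squarefree M := by
  rw [Nat.squarefree_iff_prime_squarefree]
  intro q hq hqq
  exact h q hq (by rwa [pow_two])

theorem factorization_eq_two_of_sq_dvd {M q : ℕ} (hq : q.Prime) (hM : M ≠ 0)
    (h2 : q ^ 2 ∣ M) (h3 : ¬ q ^ 3 ∣ M) : M.factorization q = 2 := by
  have h2' := (hq.pow_dvd_iff_le_factorization hM).1 h2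
  have h3' : ¬ 3 ≤ M.factorization q := fun h => h3 ((hq.pow_dvd_iff_le_factorization hM).2 h)
  omega

end Nat

section Iota

variable {M : ℕ} [NeZero M] {S : Set ℕ} {O' : Type} [CommRing O']

theorem iota_eq_intCast (chig : CuspForm.heckeAlgebra M 2 S →+* ℂ) (iota : chig.range →+* O')
    (t : CuspForm.heckeAlgebra M 2 S) (a : ℤ) (h : chig t = (a : ℂ)) :
    (iota.comp chig.rangeRestrict) t = (a : O') := by
  have h1 : chig.rangeRestrict t = ((a : ℤ) : chig.range) := Subtype.ext (by simpa using h)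
  rw [RingHom.comp_apply, h1, map_intCast]

theorem eq_intCast_of_iota (chig : CuspForm.heckeAlgebra M 2 S →+* ℂ) (iota : chig.range →+* O')
    (hiota : Function.Injective iota)
    (t : CuspForm.heckeAlgebra M 2 S) (a : ℤ) (h : (iota.comp chig.rangeRestrict) t = (a : O')) :
    chig t = (a : ℂ) := by
  have h1 : chig.rangeRestrict t = ((a : ℤ) : chig.range) :=
    hiota (by rw [map_intCast]; exact h)
  have h2 := congrArg Subtype.val h1
  simpa using h2

end Iota

/-- **Comparison with the Tate module.**  A `lam`-adic representation `ρ` with the Frobenius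
characteristic polynomials of the newform `g` (level `M ∣ N`, same eigenvalues as `W` at the good
primes not dividing `N`) has the characteristic polynomials of the Tate module of `W`:
it is unipotent on every inertia group away from `lam`, and `a_ℓ(g) = a_ℓ(W)` at all good
`ℓ ∤ M`, `ℓ ≠ lam`. -/
theorem compare_tate (htate : TateRepStatement) (hcheb : ChebCharpolyStatement)
    (W : WeierstrassCurve ℤ) (hΔ : W.Δ ≠ 0) (hss : W.IsSemistableModel)
    {N M : ℕ} (hN0 : N ≠ 0) (hMN : M ∣ N) [NeZero M]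
    (g : CuspForm (CongruenceSubgroup.Gamma0 M) 2)
    (hgW : ∀ ℓ : ℕ, ℓ.Prime → W.IsGoodPrimeFor ℓ → ¬ ℓ ∣ N →
      ModularFormClass.qCoeff g ℓ = (W.apOfModel ℓ : ℂ))
    (lam : ℕ) [Fact lam.Prime] (hlam2 : lam ≠ 2)
    (O' : Type) [CommRing O']
    (chig : CuspForm.heckeAlgebra M 2 (↑(insert lam M.primeFactors : Finset ℕ) : Set ℕ) →+* ℂ)
    (hchig : ∀ (ℓ : ℕ) (hℓ : ℓ.Prime) (hℓM : ¬ ℓ ∣ M)
      (hℓS : ℓ ∉ (↑(insert lam M.primeFactors : Finset ℕ) : Set ℕ)),
      chig (CuspForm.heckeAlgebra.T hℓ hℓM hℓS) = ModularFormClass.qCoeff g ℓ)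
    (iota : chig.range →+* O')
    (O'' : Type) [CommRing O''] [IsDomain O''] [IsDiscreteValuationRing O'']
    [IsAdicComplete (IsLocalRing.maximalIdeal O'') O''] [Finite (IsLocalRing.ResidueField O'')]
    [CharZero O''] [Algebra O' O'']
    (hlamO'' : (lam : O'') ∈ IsLocalRing.maximalIdeal O'')
    (ρ : GaloisRepAdic O'')
    (hρ : ∀ (ℓ : ℕ) (hℓ : ℓ.Prime) (hℓM : ¬ ℓ ∣ M)
      (hℓS : ℓ ∉ (↑(insert lam M.primeFactors : Finset ℕ) : Set ℕ)),
      ∀ A : ValuationSubring (AlgebraicClosure ℚ), A.LiesOverPrime ℓ →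
        ∀ σ : AlgebraicClosure ℚ ≃ₐ[ℚ] AlgebraicClosure ℚ, A.IsFrobeniusAt σ ℓ →
          LinearMap.charpoly (ρ.ρ σ) =
            X ^ 2 - C (algebraMap O' O'' ((iota.comp chig.rangeRestrict)
              (CuspForm.heckeAlgebra.T hℓ hℓM hℓS))) * X + C ((ℓ : O''))) :
    (∀ q : ℕ, q.Prime → q ≠ lam → ρ.IsUnipotentOnInertiaAt q) ∧
    (∀ ℓ : ℕ, ℓ.Prime → W.IsGoodPrimeFor ℓ → ℓ ≠ lam →
      ∀ A : ValuationSubring (AlgebraicClosure ℚ), A.LiesOverPrime ℓ →
        ∀ σ : AlgebraicClosure ℚ ≃ₐ[ℚ] AlgebraicClosure ℚ, A.IsFrobeniusAt σ ℓ →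
          LinearMap.charpoly (ρ.ρ σ) =
            X ^ 2 - C ((W.apOfModel ℓ : ℤ) : O'') * X + C ((ℓ : O''))) := by
  classical
  obtain ⟨ρW, hρW, hρWu⟩ := htate lam hlam2 W hΔ hss O'' hlamO''
  -- the finite set of excluded primes
  let T : Finset ℕ := N.primeFactors ∪ insert lam (W.Δ.natAbs.primeFactors)
  have hT : ∀ ℓ : ℕ, ℓ.Prime → ℓ ∉ T → ¬ ℓ ∣ N ∧ ℓ ≠ lam ∧ W.IsGoodPrimeFor ℓ := by
    intro ℓ hℓ hℓT
    simp only [T, Finset.mem_union, Finset.mem_insert, not_or] at hℓT
    refine ⟨fun h => hℓT.1 (Nat.mem_primeFactors.mpr ⟨hℓ, h, hN0⟩), hℓT.2.1, ?_⟩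
    intro h
    apply hℓT.2.2
    rw [Nat.mem_primeFactors]
    refine ⟨hℓ, ?_, Int.natAbs_ne_zero.mpr hΔ⟩
    exact Int.natCast_dvd.mp h
  have hall : ∀ σ : AlgebraicClosure ℚ ≃ₐ[ℚ] AlgebraicClosure ℚ,
      LinearMap.charpoly (ρ.ρ σ) = LinearMap.charpoly (ρW.ρ σ) := by
    refine hcheb O'' ρ ρW T ?_
    intro ℓ hℓ hℓT A hA σ hσ
    obtain ⟨hℓN, hℓlam, hℓgood⟩ := hT ℓ hℓ hℓT
    have hℓM : ¬ ℓ ∣ M := fun h => hℓN (dvd_trans h hMN)
    have hℓS : ℓ ∉ (↑(insert lam M.primeFactors : Finset ℕ) : Set ℕ) := by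
      simp only [Finset.coe_insert, Set.mem_insert_iff, Finset.mem_coe, not_or]
      exact ⟨hℓlam, fun h => hℓM (Nat.dvd_of_mem_primeFactors h)⟩
    rw [hρ ℓ hℓ hℓM hℓS A hA σ hσ, hρW ℓ hℓ hℓgood hℓlam A hA σ hσ,
      iota_eq_intCast chig iota _ (W.apOfModel ℓ)
        ((hchig ℓ hℓ hℓM hℓS).trans (hgW ℓ hℓ hℓgood hℓN)), map_intCast]
  refine ⟨?_, ?_⟩
  · intro q hq hqlam P hP σ hσ
    rw [hall σ]
    exact hρWu q hq hqlam P hP σ hσ
  · intro ℓ hℓ hgood hℓlam A hA σ hσ
    rw [hall σ]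
    exact hρW ℓ hℓ hgood hℓlam A hA σ hσ

/-- The image of a non-unit natural number under a local homomorphism is a non-unit. -/
theorem natCast_mem_maximalIdeal_of_isLocalHom {O' O'' : Type} [CommRing O'] [IsLocalRing O']
    [CommRing O''] [IsLocalRing O''] [Algebra O' O''] [IsLocalHom (algebraMap O' O'')] {n : ℕ}
    (h : (n : O') ∈ IsLocalRing.maximalIdeal O') : (n : O'') ∈ IsLocalRing.maximalIdeal O'' := by
  rw [IsLocalRing.mem_maximalIdeal, mem_nonunits_iff] at h ⊢
  intro hu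
  apply h
  have : algebraMap O' O'' (n : O') = (n : O'') := map_natCast _ _
  rw [← this] at hu
  exact IsUnit.of_map (algebraMap O' O'') _ hu

/-- **S58 from the leaves.** -/
theorem s58_of_leaves (h35 : S35Statement) (h36 : S36Statement) (hfrob : FrobExistsStatement)
    (htate : TateRepStatement) (hcoeff : CoeffStatement) (hcheb : ChebCharpolyStatement)
    (hres : ResidualStatement) (hcount : PointCountStatement)
    (hdesc : H958.Descent) (hstab : H958.Stab) : S58Statement := by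
  intro W hss N p _ hp2 hirr hp2N hN hbad hN3
  classical
  have hpp : p.Prime := Fact.out
  have hN0 : N ≠ 0 := by
    rintro rfl
    exact hN3 2 Nat.prime_two (dvd_zero _)
  haveI : NeZero N := ⟨hN0⟩
  have hΔ : W.Δ ≠ 0 := by
    intro h0
    obtain ⟨ℓ, hℓN, hℓ⟩ := Nat.exists_infinite_primes (N + 1)
    have h1 := hbad ℓ hℓ (by rw [h0]; exact dvd_zero _)
    have h2 := Nat.le_of_dvd (Nat.pos_of_ne_zero hN0) h1
    omega
  obtain ⟨f, hf, hfa⟩ := hN
  obtain ⟨M, hMN, g, hg, hga⟩ := hdesc N f hf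
  have hM0 : M ≠ 0 := fun h => hN0 (by rw [h] at hMN; exact zero_dvd_iff.mp hMN)
  haveI : NeZero M := ⟨hM0⟩
  have hgW : ∀ ℓ : ℕ, ℓ.Prime → W.IsGoodPrimeFor ℓ → ¬ ℓ ∣ N →
      ModularFormClass.qCoeff g ℓ = (W.apOfModel ℓ : ℂ) :=
    fun ℓ hℓ hgood hℓN => (hga ℓ hℓ hℓN).trans (hfa ℓ hℓ hgood hℓN)
  have hS : ∀ (lam ℓ : ℕ), ℓ.Prime → ℓ ≠ lam → ¬ ℓ ∣ M →
      ℓ ∉ (↑(insert lam M.primeFactors : Finset ℕ) : Set ℕ) := by
    intro lam ℓ _ hℓlam hℓM
    simp only [Finset.coe_insert, Set.mem_insert_iff, Finset.mem_coe, not_or]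
    exact ⟨hℓlam, fun h => hℓM (Nat.dvd_of_mem_primeFactors h)⟩
  have hMS : ∀ (lam q : ℕ), q.Prime → q ∣ M → q ∈ insert lam M.primeFactors :=
    fun lam q hq hqM => Finset.mem_insert_of_mem (Nat.mem_primeFactors.mpr ⟨hq, hqM, hM0⟩)
  -- the package at an odd prime `lam`, from S35
  have key : ∀ (lam : ℕ) [Fact lam.Prime], lam ≠ 2 →
      (∀ ℓ : ℕ, ℓ.Prime → W.IsGoodPrimeFor ℓ → ℓ ≠ lam → ¬ ℓ ∣ M →
        ModularFormClass.qCoeff g ℓ = (W.apOfModel ℓ : ℂ)) ∧
      (∀ q : ℕ, q.Prime → q ≠ lam → q ∣ M → ¬ q ^ 2 ∣ M → ¬ W.IsGoodPrimeFor q) := by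
    intro lam _ hlam2
    obtain ⟨chig, hchig, O', i1, i2, i3, i4, i5, i6, hlamO', iota, hiota⟩ :=
      hcoeff M g hg.1 (insert lam M.primeFactors) lam
    obtain ⟨O'', j1, j2, j3, j4, j5, j6, j7, j8, j9, hinj, ρ, hρ, hρst⟩ :=
      h35 hg lam (insert lam M.primeFactors) O' hlamO' chig hchig iota
        (Finset.mem_insert_self _ _) (hMS lam)
    have hlamO'' : (lam : O'') ∈ IsLocalRing.maximalIdeal O'' :=
      natCast_mem_maximalIdeal_of_isLocalHom hlamO'
    obtain ⟨-, hchar⟩ := compare_tate htate hcheb W hΔ hss hN0 hMN g hgW lam hlam2 O' chig hchig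
      iota O'' hlamO'' ρ hρ
    refine ⟨?_, ?_⟩
    · intro ℓ hℓ hgood hℓlam hℓM
      obtain ⟨A, σ, hA, hσ⟩ := hfrob ℓ hℓ
      have h1 := hρ ℓ hℓ hℓM (hS lam ℓ hℓ hℓlam hℓM) A hA σ hσ
      have h2 := hchar ℓ hℓ hgood hℓlam A hA σ hσ
      have h3 := quad_left_injective (h1.symm.trans h2)
      have h4 : (iota.comp chig.rangeRestrict)
          (CuspForm.heckeAlgebra.T hℓ hℓM (hS lam ℓ hℓ hℓlam hℓM)) = ((W.apOfModel ℓ : ℤ) : O') :=
        hinj (by rw [h3, map_intCast])
      rw [← hchig ℓ hℓ hℓM (hS lam ℓ hℓ hℓlam hℓM)]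
      exact eq_intCast_of_iota chig iota hiota _ _ h4
    · intro q hq hqlam hqM hq2 hgood
      obtain ⟨A, σ, hA, hσ⟩ := hfrob q hq
      have h2 := hchar q hq hgood hqlam A hA σ hσ
      rcases hρst q hq hqlam hqM hq2 A hA σ hσ with h1 | h1
      · have h3 := quad_left_injective (h1.symm.trans h2)
        have h4 : (((q : ℤ) + 1 : ℤ) : O'') = ((W.apOfModel q : ℤ) : O'') := by
          rw [← h3]; push_cast; rfl
        exact (hcount W q hq).1 (Int.cast_injective h4).symm
      · rw [quad_plus_eq] at h1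
        have h3 := quad_left_injective (h1.symm.trans h2)
        have h4 : ((-((q : ℤ) + 1) : ℤ) : O'') = ((W.apOfModel q : ℤ) : O'') := by
          rw [← h3]; push_cast; rfl
        exact (hcount W q hq).2 (Int.cast_injective h4).symm
  -- no prime `q ≠ p` with `q² ∥ M`, from S36
  have hno2 : ∀ q : ℕ, q.Prime → q ≠ p → M.factorization q ≠ 2 := by
    intro q hq hqp hfact
    obtain ⟨chig, hchig, O', i1, i2, i3, i4, i5, i6, hlamO', iota, hiota⟩ :=
      hcoeff M g hg.1 (insert p M.primeFactors) p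
    -- the set of primes excluded in the residual statement
    let T : Finset ℕ := N.primeFactors ∪ insert p (W.Δ.natAbs.primeFactors)
    have hT : ∀ ℓ : ℕ, ℓ.Prime → ℓ ∉ T → ¬ ℓ ∣ N ∧ ℓ ≠ p ∧ W.IsGoodPrimeFor ℓ := by
      intro ℓ hℓ hℓT
      simp only [T, Finset.mem_union, Finset.mem_insert, not_or] at hℓT
      refine ⟨fun h => hℓT.1 (Nat.mem_primeFactors.mpr ⟨hℓ, h, hN0⟩), hℓT.2.1, ?_⟩
      intro h
      apply hℓT.2.2
      rw [Nat.mem_primeFactors]
      exact ⟨hℓ, Int.natCast_dvd.mp h, Int.natAbs_ne_zero.mpr hΔ⟩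
    obtain ⟨O'', j1, j2, j3, j4, j5, j6, j7, j8, j9, hinj, ρ, hρ, hρnu⟩ :=
      h36 hg p (insert p M.primeFactors) O' hlamO' hp2 chig hchig iota
        (Finset.mem_insert_self _ _) (hMS p) (by
          intro O'' _ _ _ _ _ _ _ _ _ _ ρ hρ
          have hpO'' : (p : O'') ∈ IsLocalRing.maximalIdeal O'' :=
            natCast_mem_maximalIdeal_of_isLocalHom hlamO'
          refine hres p hp2 W hΔ hirr O'' hpO'' ρ T ?_
          intro ℓ hℓ hℓT A hA σ hσ
          obtain ⟨hℓN, hℓp, hℓgood⟩ := hT ℓ hℓ hℓT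
          have hℓM : ¬ ℓ ∣ M := fun h => hℓN (dvd_trans h hMN)
          rw [hρ ℓ hℓ hℓp hℓM (hS p ℓ hℓ hℓp hℓM) A hA σ hσ,
            iota_eq_intCast chig iota _ (W.apOfModel ℓ)
              ((hchig ℓ hℓ hℓM (hS p ℓ hℓ hℓp hℓM)).trans (hgW ℓ hℓ hℓgood hℓN)), map_intCast])
    have hpO'' : (p : O'') ∈ IsLocalRing.maximalIdeal O'' :=
      natCast_mem_maximalIdeal_of_isLocalHom hlamO'
    obtain ⟨hunip, -⟩ := compare_tate htate hcheb W hΔ hss hN0 hMN g hgW p hp2 O' chig hchig
      iota O'' hpO'' ρ hρ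
    exact hρnu q hq hqp hfact (hunip q hq hqp)
  -- a second odd prime
  obtain ⟨p', hp', hp'2, hp'p⟩ : ∃ p' : ℕ, p'.Prime ∧ p' ≠ 2 ∧ p' ≠ p := by
    by_cases h3 : p = 3
    · exact ⟨5, by norm_num, by norm_num, by omega⟩
    · exact ⟨3, by norm_num, by norm_num, fun h => h3 h.symm⟩
  haveI : Fact p'.Prime := ⟨hp'⟩
  obtain ⟨hB, hC⟩ := key p hp2
  obtain ⟨hB', hC'⟩ := key p' hp'2
  -- `M` is squarefree
  have hsq : Squarefree M := by
    refine squarefree_of_forall_not_sq_dvd fun q hq hq2 => ?_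
    by_cases hqp : q = p
    · subst hqp
      exact hp2N (dvd_trans hq2 hMN)
    · exact hno2 q hq hqp (factorization_eq_two_of_sq_dvd hq hM0 hq2
        (fun h3 => hN3 q hq (dvd_trans h3 hMN)))
  -- the primes of `M` are bad
  have hMbad : ∀ q : ℕ, q.Prime → q ∣ M → (q : ℤ) ∣ W.Δ := by
    intro q hq hqM
    have hq2 : ¬ q ^ 2 ∣ M := by
      intro h
      have := (Nat.squarefree_iff_prime_squarefree.mp hsq) q hq
      exact this (by rwa [← pow_two])
    by_contra hgood
    by_cases hqp : q = p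
    · exact hC' q hq (fun h => hp'p (h.symm.trans hqp)) hqM hq2 hgood
    · exact hC q hq hqp hqM hq2 hgood
  have hMD : M ∣ W.conductorLevel :=
    dvd_of_squarefree_of_prime_dvd hsq fun q hq hqM =>
      (W.prime_dvd_conductorLevel_iff hΔ hq).mpr (hMbad q hq hqM)
  obtain ⟨g', hg', hg'a⟩ := hstab M W.conductorLevel hMD g hg.1
  refine ⟨g', hg', fun ℓ hℓ hgood hℓD => ?_⟩
  have hℓM : ¬ ℓ ∣ M := fun h => hℓD (dvd_trans h hMD)
  rw [hg'a ℓ hℓ hℓD]
  by_cases hℓp : ℓ = p
  · exact hB' ℓ hℓ hgood (fun h => hp'p (h.symm.trans hℓp)) hℓM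
  · exact hB ℓ hℓ hgood hℓp hℓM

end Fermat.Agent.S58

end
-- ===== PACK-END S58/Glue.lean

-- ===== PACK-BEGIN S52/H621/Manin.lean
section



/-!
# S52 / Part A: Manin's count (piece A2c)

For an odd prime `p`, `F = ZMod p` and `f = X³ + A X + B` with `4A³ + 27B² ≠ 0`, the rational
function

  `R = f (f^((p-1)/2) + 1)² / (X^p - X)² - X^p - X`

(the `x`-coordinate of `Frob(P₀) - P₀` for the generic point `P₀ = (x, y)`) has degree exactly
`#{(x, y) ∈ F² | y² = f(x)} + 1 = #E(F_p)`.
-/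

set_option autoImplicit false

open Polynomial

namespace Fermat.Agent.S52.H621

section Generalities

variable (p : ℕ) [Fact p.Prime]

theorem X_pow_sub_X_eq_prod : (X ^ p - X : (ZMod p)[X]) = ∏ c : ZMod p, (X - C c) := by
  have hmonic : (X ^ p - X : (ZMod p)[X]).Monic := by
    apply monic_X_pow_sub
    rw [degree_X]
    exact_mod_cast (Fact.out : p.Prime).one_lt
  have hroots : (X ^ p - X : (ZMod p)[X]).roots = Finset.univ.val := by
    have := FiniteField.roots_X_pow_card_sub_X (ZMod p)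
    rwa [ZMod.card] at this
  have hcard : Multiset.card (X ^ p - X : (ZMod p)[X]).roots
      = (X ^ p - X : (ZMod p)[X]).natDegree := by
    rw [hroots, FiniteField.X_pow_card_sub_X_natDegree_eq _ (Fact.out : p.Prime).one_lt]
    simp [ZMod.card]
  have := prod_multiset_X_sub_C_of_monic_of_roots_card_eq hmonic hcard
  rw [← this, hroots]
  rfl

/-- number of square roots in `ZMod p`, `p` odd -/
theorem card_sqrt (hp2 : p ≠ 2) (a : ZMod p) :
    (Finset.univ.filter fun y : ZMod p => y ^ 2 = a).card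
      = if a = 0 then 1 else if IsSquare a then 2 else 0 := by
  classical
  by_cases ha : a = 0
  · subst ha
    rw [if_pos rfl]
    have : (Finset.univ.filter fun y : ZMod p => y ^ 2 = 0) = {0} := by
      ext y
      simp
    rw [this, Finset.card_singleton]
  · rw [if_neg ha]
    by_cases hsq : IsSquare a
    · rw [if_pos hsq]
      obtain ⟨b, rfl⟩ := hsq
      have hb : b ≠ 0 := by rintro rfl; simp at ha
      have hbb : b ≠ -b := by
        intro h
        have h2 : (2 : ZMod p) * b = 0 := by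
          have : b + b = 0 := by nth_rewrite 1 [h]; simp
          rw [two_mul]; exact this
        rcases mul_eq_zero.mp h2 with h3 | h3
        · have : ((2 : ℕ) : ZMod p) = 0 := by exact_mod_cast h3
          rw [ZMod.natCast_eq_zero_iff] at this
          have := (Nat.prime_dvd_prime_iff_eq (Fact.out : p.Prime) Nat.prime_two).mp this
          exact hp2 this
        · exact hb h3
      have : (Finset.univ.filter fun y : ZMod p => y ^ 2 = b * b) = {b, -b} := by
        ext y
        simp only [Finset.mem_filter, Finset.mem_univ, true_and, Finset.mem_insert,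
          Finset.mem_singleton]
        rw [← sq, sq_eq_sq_iff_eq_or_eq_neg]
      rw [this, Finset.card_pair hbb]
    · rw [if_neg hsq]
      rw [Finset.card_eq_zero, Finset.filter_eq_empty_iff]
      intro y _ hy
      exact hsq ⟨y, by rw [← hy, sq]⟩

end Generalities

section Manin

variable (p : ℕ) [Fact p.Prime] (A B : ZMod p)

/-- the cubic `X³ + A X + B` -/
noncomputable def cubic : (ZMod p)[X] := X ^ 3 + C A * X + C B

/-- numerator of Manin's function -/
noncomputable def maninNum : (ZMod p)[X] :=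
  cubic p A B * (cubic p A B ^ ((p - 1) / 2) + 1) ^ 2 - (X ^ p + X) * (X ^ p - X) ^ 2

/-- denominator of Manin's function -/
noncomputable def maninDen : (ZMod p)[X] := (X ^ p - X) ^ 2

/-- Manin's rational function `x(Frob P₀ - P₀)`. -/
noncomputable def maninFun : RatFunc (ZMod p) :=
  algebraMap _ _ (maninNum p A B) / algebraMap _ _ (maninDen p)

/-- the local cancellation exponent at `c` -/
noncomputable def cancelExp (c : ZMod p) : ℕ :=
  open Classical in
  if (cubic p A B).eval c = 0 then 1 else if IsSquare ((cubic p A B).eval c) then 0 else 2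

theorem cancelExp_le (c : ZMod p) : cancelExp p A B c ≤ 2 := by
  unfold cancelExp
  split_ifs <;> omega

theorem eval_cubic (c : ZMod p) : (cubic p A B).eval c = c ^ 3 + A * c + B := by
  simp [cubic]

theorem natDegree_cubic : (cubic p A B).natDegree = 3 := by
  unfold cubic
  compute_degree!

theorem cubic_monic : (cubic p A B).Monic := by
  unfold cubic
  monicity!

theorem cubic_ne_zero : cubic p A B ≠ 0 := (cubic_monic p A B).ne_zero

theorem maninDen_eq_prod : maninDen p = ∏ c : ZMod p, (X - C c) ^ 2 := by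
  rw [maninDen, X_pow_sub_X_eq_prod, Finset.prod_pow]

/-- the common factor of numerator and denominator -/
noncomputable def cancelPoly : (ZMod p)[X] := ∏ c : ZMod p, (X - C c) ^ cancelExp p A B c

/-- the reduced denominator -/
noncomputable def redDen : (ZMod p)[X] := ∏ c : ZMod p, (X - C c) ^ (2 - cancelExp p A B c)

theorem maninDen_eq : maninDen p = cancelPoly p A B * redDen p A B := by
  rw [maninDen_eq_prod, cancelPoly, redDen, ← Finset.prod_mul_distrib]
  refine Finset.prod_congr rfl fun c _ => ?_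
  rw [← pow_add, Nat.add_sub_cancel' (cancelExp_le p A B c)]

theorem cancelPoly_monic : (cancelPoly p A B).Monic :=
  monic_prod_of_monic _ _ fun c _ => (monic_X_sub_C c).pow _

theorem redDen_monic : (redDen p A B).Monic :=
  monic_prod_of_monic _ _ fun c _ => (monic_X_sub_C c).pow _

theorem natDegree_cancelPoly :
    (cancelPoly p A B).natDegree = ∑ c : ZMod p, cancelExp p A B c := by
  rw [cancelPoly, natDegree_prod_of_monic _ _ fun c _ => (monic_X_sub_C c).pow _]
  refine Finset.sum_congr rfl fun c _ => ?_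
  rw [natDegree_pow, natDegree_X_sub_C, mul_one]

theorem natDegree_redDen :
    (redDen p A B).natDegree = ∑ c : ZMod p, (2 - cancelExp p A B c) := by
  rw [redDen, natDegree_prod_of_monic _ _ fun c _ => (monic_X_sub_C c).pow _]
  refine Finset.sum_congr rfl fun c _ => ?_
  rw [natDegree_pow, natDegree_X_sub_C, mul_one]

theorem eval_maninNum (c : ZMod p) :
    (maninNum p A B).eval c
      = (cubic p A B).eval c * ((cubic p A B).eval c ^ ((p - 1) / 2) + 1) ^ 2 := by
  simp [maninNum, ZMod.pow_card]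

variable {p} in
theorem half_spec (hp2 : p ≠ 2) : 2 * ((p - 1) / 2) + 1 = p ∧ (p - 1) / 2 = p / 2 ∧
    1 ≤ (p - 1) / 2 := by
  have h1 := (Fact.out : p.Prime).two_le
  have h2 : p % 2 = 1 := (Fact.out : p.Prime).eq_two_or_odd.resolve_left hp2
  omega

/-- divisibility of the numerator by the local factors -/
theorem pow_cancelExp_dvd_maninNum (hp2 : p ≠ 2) (c : ZMod p) :
    (X - C c) ^ cancelExp p A B c ∣ maninNum p A B := by
  classical
  obtain ⟨-, hm, -⟩ := half_spec hp2
  unfold cancelExp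
  by_cases h0 : (cubic p A B).eval c = 0
  · rw [if_pos h0, pow_one, dvd_iff_isRoot, IsRoot.def, eval_maninNum, h0, zero_mul]
  · rw [if_neg h0]
    by_cases hsq : IsSquare ((cubic p A B).eval c)
    · rw [if_pos hsq, pow_zero]; exact one_dvd _
    · rw [if_neg hsq]
      have hneg : (cubic p A B).eval c ^ ((p - 1) / 2) = -1 := by
        rw [hm]
        rcases ZMod.pow_div_two_eq_neg_one_or_one p h0 with h | h
        · exact absurd ((ZMod.euler_criterion p h0).mpr h) hsq
        · exact h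
      have h1 : (X - C c) ∣ cubic p A B ^ ((p - 1) / 2) + 1 := by
        rw [dvd_iff_isRoot, IsRoot.def, eval_add, eval_pow, hneg, eval_one]
        ring
      have h2 : (X - C c) ∣ (X ^ p - X : (ZMod p)[X]) := by
        rw [dvd_iff_isRoot, IsRoot.def, eval_sub, eval_pow, eval_X, ZMod.pow_card, sub_self]
      unfold maninNum
      exact dvd_sub (dvd_mul_of_dvd_right (pow_dvd_pow_of_dvd h1 2) _)
        (dvd_mul_of_dvd_right (pow_dvd_pow_of_dvd h2 2) _)

theorem cancelPoly_dvd_maninNum (hp2 : p ≠ 2) : cancelPoly p A B ∣ maninNum p A B := by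
  unfold cancelPoly
  refine Finset.prod_dvd_of_coprime ?_ fun c _ => pow_cancelExp_dvd_maninNum p A B hp2 c
  intro c _ c' _ hcc'
  exact (pairwise_coprime_X_sub_C (K := ZMod p) (s := id) Function.injective_id hcc').pow

/-- Frobenius on the cubic -/
theorem cubic_pow_p : cubic p A B ^ p = X ^ (3 * p) + C A * X ^ p + C B := by
  unfold cubic
  rw [add_pow_char, add_pow_char, mul_pow, ← C_pow, ← C_pow, ZMod.pow_card, ZMod.pow_card,
    ← pow_mul]

theorem maninNum_eq (hp2 : p ≠ 2) :
    maninNum p A B = X ^ (2 * p + 1)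
      + (X ^ (p + 2) - X ^ 3 + C A * X ^ p + C B
          + 2 * cubic p A B ^ ((p - 1) / 2 + 1) + cubic p A B) := by
  obtain ⟨hm, -, -⟩ := half_spec hp2
  have h1 : cubic p A B * (cubic p A B ^ ((p - 1) / 2) + 1) ^ 2
      = cubic p A B ^ (2 * ((p - 1) / 2) + 1) + 2 * cubic p A B ^ ((p - 1) / 2 + 1)
        + cubic p A B := by ring
  rw [hm, cubic_pow_p] at h1
  rw [maninNum, h1]
  ring

theorem natDegree_maninNum (hp2 : p ≠ 2) : (maninNum p A B).natDegree = 2 * p + 1 := by
  obtain ⟨hm, -, -⟩ := half_spec hp2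
  have hp1 := (Fact.out : p.Prime).one_lt
  rw [maninNum_eq p A B hp2]
  have hlow : (X ^ (p + 2) - X ^ 3 + C A * X ^ p + C B
          + 2 * cubic p A B ^ ((p - 1) / 2 + 1) + cubic p A B : (ZMod p)[X]).natDegree
        < 2 * p + 1 := by
    have e1 : (X ^ (p + 2) : (ZMod p)[X]).natDegree ≤ 2 * p := by
      rw [natDegree_X_pow]; omega
    have e2 : (X ^ 3 : (ZMod p)[X]).natDegree ≤ 2 * p := by
      rw [natDegree_X_pow]; omega
    have e3 : (C A * X ^ p : (ZMod p)[X]).natDegree ≤ 2 * p :=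
      (natDegree_C_mul_le _ _).trans (by rw [natDegree_X_pow]; omega)
    have e4 : (C B : (ZMod p)[X]).natDegree ≤ 2 * p := by
      rw [natDegree_C]; omega
    have e5 : (2 * cubic p A B ^ ((p - 1) / 2 + 1) : (ZMod p)[X]).natDegree ≤ 2 * p := by
      rw [two_mul]
      have e5' : (cubic p A B ^ ((p - 1) / 2 + 1)).natDegree ≤ 2 * p := by
        refine natDegree_pow_le.trans ?_
        rw [natDegree_cubic]
        omega
      exact natDegree_add_le_of_degree_le e5' e5'
    have e6 : (cubic p A B).natDegree ≤ 2 * p := by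
      rw [natDegree_cubic]; omega
    have e12 : (X ^ (p + 2) - X ^ 3 : (ZMod p)[X]).natDegree ≤ 2 * p :=
      (natDegree_sub_le _ _).trans (max_le e1 e2)
    have := natDegree_add_le_of_degree_le (natDegree_add_le_of_degree_le
      (natDegree_add_le_of_degree_le (natDegree_add_le_of_degree_le e12 e3) e4) e5) e6
    omega
  rw [natDegree_add_eq_left_of_natDegree_lt (by rwa [natDegree_X_pow]), natDegree_X_pow]

theorem maninNum_ne_zero (hp2 : p ≠ 2) : maninNum p A B ≠ 0 := by
  intro h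
  have := natDegree_maninNum p A B hp2
  rw [h, natDegree_zero] at this
  omega

/-- the derivative of the numerator at a root of the cubic -/
theorem eval_derivative_maninNum (hp2 : p ≠ 2) (c : ZMod p)
    (hc : (cubic p A B).eval c = 0) :
    (derivative (maninNum p A B)).eval c = (derivative (cubic p A B)).eval c := by
  obtain ⟨-, -, hm1⟩ := half_spec hp2
  have hW : (X ^ p - X : (ZMod p)[X]).eval c = 0 := by
    rw [eval_sub, eval_pow, eval_X, ZMod.pow_card, sub_self]
  have hm0 : (p - 1) / 2 ≠ 0 := by omega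
  unfold maninNum
  rw [derivative_sub, derivative_mul, derivative_mul, eval_sub, eval_add, eval_add, eval_mul,
    eval_mul, eval_mul, eval_mul, hc, zero_mul, add_zero, eval_pow (n := 2), eval_pow (n := 2), hW,
    derivative_pow (p := X ^ p - X), eval_mul, eval_mul, eval_pow, hW]
  simp [hc, hm0]

/-- the cubic has simple roots -/
theorem eval_derivative_cubic_ne_zero (hΔ : 4 * A ^ 3 + 27 * B ^ 2 ≠ 0) (c : ZMod p)
    (hc : (cubic p A B).eval c = 0) : (derivative (cubic p A B)).eval c ≠ 0 := by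
  intro hd
  apply hΔ
  have h1 : c ^ 3 + A * c + B = 0 := by rw [← eval_cubic]; exact hc
  have h2 : 3 * c ^ 2 + A = 0 := by
    have : (derivative (cubic p A B)).eval c = 3 * c ^ 2 + A := by
      simp [cubic, derivative_pow]
    rw [← this]; exact hd
  linear_combination (4 * (3 * c ^ 2 + A) ^ 2 - 9 * (3 * c ^ 2 + A) * c ^ 2
    - 54 * (c ^ 3 + A * c + B) * c) * h2 + (27 * (c ^ 3 + A * c + B) + 108 * c ^ 3) * h1

theorem eval_cancelPoly_eq_zero (c : ZMod p) (hc : cancelExp p A B c ≠ 0) :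
    (cancelPoly p A B).eval c = 0 := by
  rw [cancelPoly, eval_prod]
  refine Finset.prod_eq_zero (Finset.mem_univ c) ?_
  rw [eval_pow, eval_sub, eval_X, eval_C, sub_self, zero_pow hc]

theorem two_ne_zero_zmod (hp2 : p ≠ 2) : (2 : ZMod p) ≠ 0 := by
  intro h
  have : ((2 : ℕ) : ZMod p) = 0 := by exact_mod_cast h
  rw [ZMod.natCast_eq_zero_iff] at this
  exact hp2 ((Nat.prime_dvd_prime_iff_eq (Fact.out : p.Prime) Nat.prime_two).mp this)

/-- the reduced numerator does not vanish at the roots of the reduced denominator -/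
theorem eval_redNum_ne_zero (hp2 : p ≠ 2) (hΔ : 4 * A ^ 3 + 27 * B ^ 2 ≠ 0)
    (N' : (ZMod p)[X]) (hN' : maninNum p A B = cancelPoly p A B * N') (c : ZMod p)
    (hc : cancelExp p A B c < 2) : N'.eval c ≠ 0 := by
  classical
  obtain ⟨-, hm, -⟩ := half_spec hp2
  intro h0
  by_cases hf : (cubic p A B).eval c = 0
  · -- simple root: derivative argument
    have he : cancelExp p A B c ≠ 0 := by
      unfold cancelExp; rw [if_pos hf]; exact one_ne_zero
    have h1 := eval_derivative_maninNum p A B hp2 c hf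
    rw [hN', derivative_mul, eval_add, eval_mul, eval_mul, h0, mul_zero, zero_add,
      eval_cancelPoly_eq_zero p A B c he, zero_mul] at h1
    exact eval_derivative_cubic_ne_zero p A B hΔ c hf h1.symm
  · have hsq : IsSquare ((cubic p A B).eval c) := by
      by_contra hsq
      unfold cancelExp at hc
      rw [if_neg hf, if_neg hsq] at hc
      omega
    have h1 : (cubic p A B).eval c ^ ((p - 1) / 2) = 1 := by
      rw [hm]; exact (ZMod.euler_criterion p hf).mp hsq
    have h2 := eval_maninNum p A B c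
    rw [hN', eval_mul, h0, mul_zero, h1] at h2
    have h3 : (1 + 1 : ZMod p) = 2 := by norm_num
    rw [h3] at h2
    exact (mul_ne_zero hf (pow_ne_zero 2 (two_ne_zero_zmod p hp2))) h2.symm

theorem isCoprime_redNum_redDen (hp2 : p ≠ 2) (hΔ : 4 * A ^ 3 + 27 * B ^ 2 ≠ 0)
    (N' : (ZMod p)[X]) (hN' : maninNum p A B = cancelPoly p A B * N') :
    IsCoprime N' (redDen p A B) := by
  unfold redDen
  refine IsCoprime.prod_right fun c _ => ?_
  by_cases hc : cancelExp p A B c < 2
  · refine IsCoprime.pow_right ?_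
    refine ((irreducible_X_sub_C c).coprime_iff_not_dvd.mpr ?_).symm
    rw [dvd_iff_isRoot]
    exact eval_redNum_ne_zero p A B hp2 hΔ N' hN' c hc
  · have : 2 - cancelExp p A B c = 0 := by omega
    rw [this, pow_zero]
    exact isCoprime_one_right

/-- the number of affine points, fibrewise -/
theorem card_affine (hp2 : p ≠ 2) :
    Nat.card {q : ZMod p × ZMod p // q.2 ^ 2 = q.1 ^ 3 + A * q.1 + B}
      = ∑ c : ZMod p, (2 - cancelExp p A B c) := by
  classical
  rw [Nat.card_eq_fintype_card, Fintype.card_subtype, Finset.card_filter,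
    Fintype.sum_prod_type]
  refine Finset.sum_congr rfl fun c _ => ?_
  rw [← Finset.card_filter]
  have := card_sqrt p hp2 (c ^ 3 + A * c + B)
  simp only at this ⊢
  rw [this, cancelExp, eval_cubic]
  split_ifs <;> rfl

/-- **A2c (Manin's count)**: the degree of `x(Frob P₀ - P₀)` is the number of points of the
curve `y² = x³ + A x + B` over `F_p` (including the point at infinity). -/
theorem ratDeg_maninFun (hp2 : p ≠ 2) (hΔ : 4 * A ^ 3 + 27 * B ^ 2 ≠ 0) :
    ratDeg (maninFun p A B)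
      = Nat.card {q : ZMod p × ZMod p // q.2 ^ 2 = q.1 ^ 3 + A * q.1 + B} + 1 := by
  obtain ⟨N', hN'⟩ := cancelPoly_dvd_maninNum p A B hp2
  have hDen : maninDen p ≠ 0 := by
    rw [maninDen_eq p A B]
    exact mul_ne_zero (cancelPoly_monic p A B).ne_zero (redDen_monic p A B).ne_zero
  have hcop := isCoprime_redNum_redDen p A B hp2 hΔ N' hN'
  rw [maninFun, ratDeg_div_of_eq_mul _ _ (cancelPoly p A B) N' (redDen p A B) hDen hN'
    (maninDen_eq p A B) hcop, card_affine p A B hp2]
  -- degrees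
  have hN0 : N' ≠ 0 := by
    rintro rfl
    exact maninNum_ne_zero p A B hp2 (by rw [hN', mul_zero])
  have hdN : (cancelPoly p A B).natDegree + N'.natDegree = 2 * p + 1 := by
    rw [← natDegree_mul (cancelPoly_monic p A B).ne_zero hN0, ← hN', natDegree_maninNum p A B hp2]
  have hdD : (cancelPoly p A B).natDegree + (redDen p A B).natDegree = 2 * p := by
    rw [← natDegree_mul (cancelPoly_monic p A B).ne_zero (redDen_monic p A B).ne_zero,
      ← maninDen_eq, maninDen, natDegree_pow,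
      FiniteField.X_pow_card_sub_X_natDegree_eq _ (Fact.out : p.Prime).one_lt]
  rw [← natDegree_redDen]
  omega

end Manin

end Fermat.Agent.S52.H621

end
-- ===== PACK-END S52/H621/Manin.lean

-- ===== PACK-BEGIN S52/H545/Hom.lean
section



/-!
# S52 Part A (helper545): exactness of heights under a rational map `U/V` of degree `N`

For coprime `U V : k[X]` with `natDegree U = N`, `natDegree V ≤ N`, the map
`(n : d) ↦ (U^h(n,d) : V^h(n,d))` (homogenisations in degree `N`) sends primitive pairs of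
polynomials to primitive pairs and multiplies `maxDeg` by exactly `N` (polynomial form of
`deg (R ∘ S) = deg R * deg S`).
-/

set_option autoImplicit false

namespace Fermat.Agent.S52.H545

open Polynomial

section General

variable {k : Type*} [Field k]

/-- The degree-`N` homogenisation of `U`, with coefficients mapped by `φ`, evaluated at `(n, d)`. -/
noncomputable def hom2 {R : Type*} [CommRing R] (φ : k →+* R) (U : k[X]) (N : ℕ) (n d : R) : R :=
  ∑ i ∈ Finset.range (N + 1), φ (U.coeff i) * n ^ i * d ^ (N - i)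

lemma map_hom2 {R S : Type*} [CommRing R] [CommRing S] (ψ : R →+* S) (φ : k →+* R) (U : k[X])
    (N : ℕ) (n d : R) : ψ (hom2 φ U N n d) = hom2 (ψ.comp φ) U N (ψ n) (ψ d) := by
  simp only [hom2, map_sum, map_mul, map_pow, RingHom.comp_apply]

lemma hom2_of_ne_zero {L : Type*} [Field L] (φ : k →+* L) {U : k[X]} {N : ℕ}
    (hU : U.natDegree ≤ N) (n : L) {d : L} (hd : d ≠ 0) :
    hom2 φ U N n d = d ^ N * eval₂ φ (n / d) U := by
  rw [eval₂_eq_sum_range' φ (Nat.lt_succ_of_le hU), hom2, Finset.mul_sum]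
  refine Finset.sum_congr rfl fun i hi => ?_
  have hi' : i ≤ N := Nat.lt_succ_iff.mp (Finset.mem_range.mp hi)
  have : d ^ N = d ^ i * d ^ (N - i) := by rw [← pow_add, Nat.add_sub_cancel' hi']
  rw [this, div_pow]
  field_simp

lemma hom2_zero_right {R : Type*} [CommRing R] (φ : k →+* R) (U : k[X]) (N : ℕ) (n : R) :
    hom2 φ U N n 0 = φ (U.coeff N) * n ^ N := by
  rw [hom2, Finset.sum_eq_single N]
  · simp
  · intro i hi hne
    have hi' : i < N := lt_of_le_of_ne (Nat.lt_succ_iff.mp (Finset.mem_range.mp hi)) hne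
    rw [zero_pow (Nat.sub_ne_zero_of_lt hi'), mul_zero]
  · intro h
    exact absurd (Finset.mem_range.mpr (Nat.lt_succ_self N)) h

/-- The two homogenisations of a coprime pair have no common nontrivial zero. -/
lemma hom2_not_both_zero {L : Type*} [Field L] (φ : k →+* L) {U V : k[X]} {N : ℕ}
    (hcop : IsCoprime U V) (hU : U.natDegree = N) (hV : V.natDegree ≤ N) {n d : L}
    (hnd : ¬ (n = 0 ∧ d = 0)) : ¬ (hom2 φ U N n d = 0 ∧ hom2 φ V N n d = 0) := by
  rintro ⟨h1, h2⟩
  by_cases hd : d = 0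
  · subst hd
    have hn : n ≠ 0 := fun h => hnd ⟨h, rfl⟩
    rw [hom2_zero_right] at h1
    have hU0 : U ≠ 0 := by
      rintro rfl
      obtain ⟨a, b, hab⟩ := hcop
      rw [mul_zero, zero_add] at hab
      have hV1 : IsUnit V := IsUnit.of_mul_eq_one _ ((mul_comm V b).trans hab)
      have hVd := natDegree_eq_zero_of_isUnit hV1
      rw [natDegree_zero] at hU
      rw [← hU] at h1
      have hV' : V = C (V.coeff 0) := eq_C_of_natDegree_eq_zero hVd
      rw [hom2_zero_right, ← hU] at h2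
      simp only [pow_zero, mul_one] at h2
      rw [map_eq_zero] at h2
      rw [hV', h2, C_0] at hV1
      exact not_isUnit_zero hV1
    have hlc : U.coeff N ≠ 0 := by
      rw [← hU, coeff_natDegree]
      exact leadingCoeff_ne_zero.mpr hU0
    rcases mul_eq_zero.mp h1 with h | h
    · exact hlc ((map_eq_zero φ).mp h)
    · exact hn (pow_eq_zero_iff (M₀ := L) (n := N) (by
        rintro rfl
        simp at h) |>.mp h)
  · rw [hom2_of_ne_zero φ hU.le n hd] at h1
    rw [hom2_of_ne_zero φ hV n hd] at h2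
    have e1 : eval₂ φ (n / d) U = 0 := (mul_eq_zero.mp h1).resolve_left (pow_ne_zero _ hd)
    have e2 : eval₂ φ (n / d) V = 0 := (mul_eq_zero.mp h2).resolve_left (pow_ne_zero _ hd)
    obtain ⟨a, b, hab⟩ := hcop
    have := congrArg (eval₂ φ (n / d)) hab
    rw [eval₂_add, eval₂_mul, eval₂_mul, e1, e2, mul_zero, mul_zero, add_zero, eval₂_one] at this
    exact zero_ne_one this

end General

section Poly

variable {k : Type*} [Field k]

lemma maxDeg_fin2 (a : Fin 2 → k[X]) : maxDeg a = max (a 0).natDegree (a 1).natDegree := by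
  apply le_antisymm
  · apply maxDeg_le
    intro i
    fin_cases i
    · exact le_max_left _ _
    · exact le_max_right _ _
  · exact max_le (natDegree_le_maxDeg a 0) (natDegree_le_maxDeg a 1)

lemma natDegree_hom2_le (U : k[X]) (N : ℕ) {n d : k[X]} {D : ℕ} (hn : n.natDegree ≤ D)
    (hd : d.natDegree ≤ D) : (hom2 (C : k →+* k[X]) U N n d).natDegree ≤ N * D := by
  rw [hom2]
  apply natDegree_sum_le_of_forall_le
  intro i hi
  have hi' : i ≤ N := Nat.lt_succ_iff.mp (Finset.mem_range.mp hi)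
  rw [mul_assoc]
  refine (natDegree_C_mul_le _ _).trans ?_
  have h1 : (n ^ i).natDegree ≤ i * D := natDegree_pow_le_of_le i hn
  have h2 : (d ^ (N - i)).natDegree ≤ (N - i) * D := natDegree_pow_le_of_le _ hd
  calc (n ^ i * d ^ (N - i)).natDegree ≤ i * D + (N - i) * D := natDegree_mul_le_of_le h1 h2
    _ = N * D := by rw [← add_mul, Nat.add_sub_cancel' hi']

lemma coeff_hom2 (U : k[X]) (N : ℕ) {n d : k[X]} {D : ℕ} (hn : n.natDegree ≤ D)
    (hd : d.natDegree ≤ D) :
    (hom2 (C : k →+* k[X]) U N n d).coeff (N * D) =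
      hom2 (RingHom.id k) U N (n.coeff D) (d.coeff D) := by
  rw [hom2, hom2, finsetSum_coeff]
  refine Finset.sum_congr rfl fun i hi => ?_
  have hi' : i ≤ N := Nat.lt_succ_iff.mp (Finset.mem_range.mp hi)
  have h1 : (n ^ i).natDegree ≤ i * D := natDegree_pow_le_of_le i hn
  have h2 : (d ^ (N - i)).natDegree ≤ (N - i) * D := natDegree_pow_le_of_le _ hd
  have hND : N * D = i * D + (N - i) * D := by rw [← add_mul, Nat.add_sub_cancel' hi']
  rw [mul_assoc, coeff_C_mul, hND, coeff_mul_add_eq_of_natDegree_le h1 h2,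
    coeff_pow_of_natDegree_le hn, coeff_pow_of_natDegree_le hd, RingHom.id_apply, mul_assoc]

/-- **Exactness for a rational map of degree `N`**: primitivity. -/
theorem prim_hom2 {U V : k[X]} {N : ℕ} (hcop : IsCoprime U V) (hU : U.natDegree = N)
    (hV : V.natDegree ≤ N) {a : Fin 2 → k[X]} (ha : Prim a) :
    Prim ![hom2 (C : k →+* k[X]) U N (a 0) (a 1), hom2 (C : k →+* k[X]) V N (a 0) (a 1)] := by
  by_contra hne
  obtain ⟨m, hm, hle⟩ := Ideal.exists_le_maximal _ hne
  let _ : Field (k[X] ⧸ m) := Ideal.Quotient.field m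
  set ψ : k[X] →+* (k[X] ⧸ m) := Ideal.Quotient.mk m with hψ
  have h0 : ψ (hom2 C U N (a 0) (a 1)) = 0 :=
    Ideal.Quotient.eq_zero_iff_mem.mpr (hle (Ideal.subset_span ⟨0, rfl⟩))
  have h1 : ψ (hom2 C V N (a 0) (a 1)) = 0 :=
    Ideal.Quotient.eq_zero_iff_mem.mpr (hle (Ideal.subset_span ⟨1, rfl⟩))
  rw [map_hom2] at h0 h1
  refine hom2_not_both_zero (ψ.comp C) hcop hU hV ?_ ⟨h0, h1⟩
  rintro ⟨x0, x1⟩
  rw [prim_pair_iff] at ha
  obtain ⟨x, y, hxy⟩ := ha
  have := congrArg ψ hxy
  rw [map_add, map_mul, map_mul, x0, x1, mul_zero, mul_zero, add_zero, map_one] at this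
  exact zero_ne_one this

/-- **Exactness for a rational map of degree `N`**: degrees. -/
theorem maxDeg_hom2 {U V : k[X]} {N : ℕ} (hcop : IsCoprime U V) (hU : U.natDegree = N)
    (hV : V.natDegree ≤ N) {a : Fin 2 → k[X]} (ha : a ≠ 0) :
    maxDeg ![hom2 (C : k →+* k[X]) U N (a 0) (a 1), hom2 (C : k →+* k[X]) V N (a 0) (a 1)]
      = N * maxDeg a := by
  have hn := natDegree_le_maxDeg a 0
  have hd := natDegree_le_maxDeg a 1
  apply maxDeg_eq_of_topc_ne_zero
  · intro i
    fin_cases i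
    · exact natDegree_hom2_le U N hn hd
    · exact natDegree_hom2_le V N hn hd
  · intro h
    have e0 := congrFun h 0
    have e1 := congrFun h 1
    simp only [topc, Fin.isValue, Matrix.cons_val_zero, Matrix.cons_val_one, Pi.zero_apply] at e0 e1
    rw [coeff_hom2 U N hn hd] at e0
    rw [coeff_hom2 V N hn hd] at e1
    refine hom2_not_both_zero (RingHom.id k) hcop hU hV ?_ ⟨e0, e1⟩
    rintro ⟨x0, x1⟩
    apply topc_ne_zero ha
    funext i
    fin_cases i
    · exact x0
    · exact x1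

theorem prim_hom2' {U V : k[X]} {N : ℕ} (hcop : IsCoprime U V) (hU : U.natDegree = N)
    (hV : V.natDegree ≤ N) {n d : k[X]} (hnd : IsCoprime n d) :
    Prim ![hom2 (C : k →+* k[X]) U N n d, hom2 (C : k →+* k[X]) V N n d] := by
  have ha : Prim ![n, d] := by rw [prim_pair_iff]; exact hnd
  have := prim_hom2 hcop hU hV ha
  simpa only [Fin.isValue, Matrix.cons_val_zero, Matrix.cons_val_one] using this

theorem maxDeg_hom2' {U V : k[X]} {N : ℕ} (hcop : IsCoprime U V) (hU : U.natDegree = N)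
    (hV : V.natDegree ≤ N) {n d : k[X]} (hnd : IsCoprime n d) :
    maxDeg ![hom2 (C : k →+* k[X]) U N n d, hom2 (C : k →+* k[X]) V N n d]
      = N * maxDeg ![n, d] := by
  have ha : Prim ![n, d] := by rw [prim_pair_iff]; exact hnd
  have := maxDeg_hom2 hcop hU hV ha.ne_zero
  simpa only [Fin.isValue, Matrix.cons_val_zero, Matrix.cons_val_one] using this

end Poly

end Fermat.Agent.S52.H545

end
-- ===== PACK-END S52/H545/Hom.lean

-- ===== PACK-BEGIN S52/H297/Manin.lean
section


/-!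
# Manin's counting lemma

Let `F` be a finite field with `q` elements, `q` odd, and `f = X³ + a₂X² + a₄X + a₆` a cubic all of
whose `F`-rational roots are simple.  For the curve `E : y² = f(x)` and the generic point
`P₀ = (x, y)`, the `x`-coordinate of `Frob(P₀) - P₀` is the rational function

  `R = f (f^((q-1)/2) + 1)² / (X^q - X)² - a₂ - X^q - X`.

We prove that the height of `R` (max of degrees of numerator and denominator in lowest terms)
is exactly `1 + #{(x,y) ∈ F² | y² = f(x)}`, i.e. the number of points of `E` over `F`.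
-/

set_option autoImplicit false
set_option linter.unusedSectionVars false

open Polynomial

namespace Fermat.Agent.S52.H297

section Manin

variable {F : Type*} [Field F] [Fintype F] [DecidableEq F]
variable (a₂ a₄ a₆ : F)

/-- the cubic `X³ + a₂X² + a₄X + a₆` -/
noncomputable def cubic : F[X] := X ^ 3 + C a₂ * X ^ 2 + C a₄ * X + C a₆

/-- `u = f^((q-1)/2) + 1` -/
noncomputable def uPoly : F[X] := cubic a₂ a₄ a₆ ^ (Fintype.card F / 2) + 1

/-- numerator of Manin's rational function (before cancellation) -/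
noncomputable def maninNum : F[X] :=
  cubic a₂ a₄ a₆ * uPoly a₂ a₄ a₆ ^ 2
    - (C a₂ + X ^ Fintype.card F + X) * (X ^ Fintype.card F - X) ^ 2

/-- denominator of Manin's rational function (before cancellation) -/
noncomputable def maninDen : F[X] := (X ^ Fintype.card F - X) ^ 2

/-- Manin's rational function: the `x`-coordinate of `Frob P₀ - P₀`. -/
noncomputable def maninR : RatFunc F :=
  algebraMap F[X] (RatFunc F) (maninNum a₂ a₄ a₆) / algebraMap F[X] (RatFunc F) (maninDen (F := F))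

/-- the `F`-rational roots of `f` -/
noncomputable def rootSet : Finset F := Finset.univ.filter fun c => (cubic a₂ a₄ a₆).eval c = 0

/-- the `c ∈ F` with `f(c)` a nonzero square -/
noncomputable def sqSet : Finset F :=
  Finset.univ.filter fun c => (cubic a₂ a₄ a₆).eval c ^ (Fintype.card F / 2) = 1

/-- the `c ∈ F` with `f(c)` a non-square -/
noncomputable def nsSet : Finset F :=
  Finset.univ.filter fun c => (cubic a₂ a₄ a₆).eval c ^ (Fintype.card F / 2) = -1

/-- product of `X - c` over a finset -/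
noncomputable def linProd (s : Finset F) : F[X] := ∏ c ∈ s, (X - C c)

lemma linProd_monic (s : Finset F) : (linProd s).Monic :=
  monic_prod_of_monic _ _ fun c _ => monic_X_sub_C c

lemma linProd_ne_zero (s : Finset F) : linProd s ≠ 0 := (linProd_monic s).ne_zero

lemma natDegree_linProd (s : Finset F) : (linProd s).natDegree = s.card := by
  unfold linProd
  rw [natDegree_prod_of_monic _ _ fun c _ => monic_X_sub_C c]
  simp

lemma eval_linProd_eq_zero {s : Finset F} {c : F} (hc : c ∈ s) : (linProd s).eval c = 0 := by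
  unfold linProd
  rw [eval_prod]
  exact Finset.prod_eq_zero hc (by simp)

lemma eval_linProd_ne_zero {s : Finset F} {c : F} (hc : c ∉ s) : (linProd s).eval c ≠ 0 := by
  unfold linProd
  rw [eval_prod]
  refine Finset.prod_ne_zero_iff.mpr fun d hd => ?_
  simp only [eval_sub, eval_X, eval_C]
  intro h
  exact hc (by rwa [sub_eq_zero.mp h])

lemma linProd_dvd_of_forall_root {s : Finset F} {p : F[X]} (h : ∀ c ∈ s, p.eval c = 0) :
    linProd s ∣ p := by
  unfold linProd
  apply Finset.prod_dvd_of_coprime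
  · intro c _ d _ hcd
    exact pairwise_coprime_X_sub_C (Function.injective_id) hcd
  · intro c hc
    exact dvd_iff_isRoot.mpr (h c hc)

lemma linProd_univ : linProd (Finset.univ : Finset F) = X ^ Fintype.card F - X := by
  have hmonic : (X ^ Fintype.card F - X : F[X]).Monic := by
    apply monic_X_pow_sub
    rw [degree_X]
    exact_mod_cast Fintype.one_lt_card
  have hroots := FiniteField.roots_X_pow_card_sub_X F
  have hcard : Multiset.card (roots (X ^ Fintype.card F - X : F[X]))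
      = (X ^ Fintype.card F - X : F[X]).natDegree := by
    rw [hroots, FiniteField.X_pow_card_sub_X_natDegree_eq F Fintype.one_lt_card]
    simp
  have := prod_multiset_X_sub_C_of_monic_of_roots_card_eq hmonic hcard
  rw [hroots] at this
  rw [← this]
  rfl


/-! ### The partition of `F` -/

variable {a₂ a₄ a₆}

lemma card_eq_two_mul_add_one (hF : ringChar F ≠ 2) :
    Fintype.card F = 2 * (Fintype.card F / 2) + 1 := by
  have := FiniteField.odd_card_of_char_ne_two hF
  omega

lemma half_card_pos (hF : ringChar F ≠ 2) : 0 < Fintype.card F / 2 := by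
  have h1 := FiniteField.odd_card_of_char_ne_two hF
  have h2 : 1 < Fintype.card F := Fintype.one_lt_card
  omega

lemma two_ne_zero_of_char (hF : ringChar F ≠ 2) : (2 : F) ≠ 0 :=
  Ring.two_ne_zero hF

lemma one_ne_neg_one_of_char (hF : ringChar F ≠ 2) : (1 : F) ≠ -1 := by
  intro h
  apply two_ne_zero_of_char hF
  have : (1 : F) + 1 = 0 := by nth_rewrite 2 [h]; simp
  rw [← this]; norm_num

lemma mem_rootSet {c : F} : c ∈ rootSet a₂ a₄ a₆ ↔ (cubic a₂ a₄ a₆).eval c = 0 := by
  simp [rootSet]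

lemma mem_sqSet {c : F} :
    c ∈ sqSet a₂ a₄ a₆ ↔ (cubic a₂ a₄ a₆).eval c ^ (Fintype.card F / 2) = 1 := by
  simp [sqSet]

lemma mem_nsSet {c : F} :
    c ∈ nsSet a₂ a₄ a₆ ↔ (cubic a₂ a₄ a₆).eval c ^ (Fintype.card F / 2) = -1 := by
  simp [nsSet]

lemma disjoint_root_sq (hF : ringChar F ≠ 2) :
    Disjoint (rootSet a₂ a₄ a₆) (sqSet a₂ a₄ a₆) := by
  rw [Finset.disjoint_left]
  intro c h1 h2
  rw [mem_rootSet] at h1
  rw [mem_sqSet, h1, zero_pow (half_card_pos hF).ne'] at h2
  exact zero_ne_one h2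

lemma disjoint_root_ns (hF : ringChar F ≠ 2) :
    Disjoint (rootSet a₂ a₄ a₆) (nsSet a₂ a₄ a₆) := by
  rw [Finset.disjoint_left]
  intro c h1 h2
  rw [mem_rootSet] at h1
  rw [mem_nsSet, h1, zero_pow (half_card_pos hF).ne'] at h2
  have : (1 : F) = 0 := by
    have := congrArg Neg.neg h2
    simpa using this.symm
  exact one_ne_zero this

lemma disjoint_sq_ns (hF : ringChar F ≠ 2) :
    Disjoint (sqSet a₂ a₄ a₆) (nsSet a₂ a₄ a₆) := by
  rw [Finset.disjoint_left]
  intro c h1 h2
  rw [mem_sqSet] at h1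
  rw [mem_nsSet, h1] at h2
  exact one_ne_neg_one_of_char hF h2

lemma union_eq_univ (hF : ringChar F ≠ 2) :
    rootSet a₂ a₄ a₆ ∪ (sqSet a₂ a₄ a₆ ∪ nsSet a₂ a₄ a₆) = Finset.univ := by
  ext c
  simp only [Finset.mem_union, Finset.mem_univ, iff_true, mem_rootSet, mem_sqSet, mem_nsSet]
  by_cases h : (cubic a₂ a₄ a₆).eval c = 0
  · exact Or.inl h
  · exact Or.inr (FiniteField.pow_dichotomy hF h)

lemma card_partition (hF : ringChar F ≠ 2) :
    (rootSet a₂ a₄ a₆).card + (sqSet a₂ a₄ a₆).card + (nsSet a₂ a₄ a₆).card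
      = Fintype.card F := by
  rw [← Finset.card_univ, ← union_eq_univ (a₂ := a₂) (a₄ := a₄) (a₆ := a₆) hF,
    Finset.card_union_of_disjoint, Finset.card_union_of_disjoint (disjoint_sq_ns hF), add_assoc]
  rw [Finset.disjoint_union_right]
  exact ⟨disjoint_root_sq hF, disjoint_root_ns hF⟩

lemma linProd_union {s t : Finset F} (h : Disjoint s t) :
    linProd (s ∪ t) = linProd s * linProd t := by
  unfold linProd
  exact Finset.prod_union h

lemma X_pow_card_sub_X_eq (hF : ringChar F ≠ 2) :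
    (X ^ Fintype.card F - X : F[X]) =
      linProd (rootSet a₂ a₄ a₆) * (linProd (sqSet a₂ a₄ a₆) * linProd (nsSet a₂ a₄ a₆)) := by
  rw [← linProd_univ, ← union_eq_univ (a₂ := a₂) (a₄ := a₄) (a₆ := a₆) hF, linProd_union,
    linProd_union (disjoint_sq_ns hF)]
  rw [Finset.disjoint_union_right]
  exact ⟨disjoint_root_sq hF, disjoint_root_ns hF⟩


/-! ### Degree of the numerator -/

variable (a₂ a₄ a₆)

lemma cubic_pow_card :
    cubic a₂ a₄ a₆ ^ Fintype.card F =
      X ^ (3 * Fintype.card F) + C a₂ * X ^ (2 * Fintype.card F) + C a₄ * X ^ Fintype.card F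
        + C a₆ := by
  rw [← FiniteField.expand_card]
  simp only [cubic, map_add, map_mul, map_pow, expand_X, expand_C, ← pow_mul]
  ring_nf

/-- the lower order part of the numerator -/
noncomputable def maninLow : F[X] :=
  C a₂ * X ^ (2 * Fintype.card F) + C a₄ * X ^ Fintype.card F + C a₆
    + 2 * cubic a₂ a₄ a₆ ^ (Fintype.card F / 2 + 1) + cubic a₂ a₄ a₆
    + X ^ (Fintype.card F + 2) - X ^ 3 - C a₂ * (X ^ Fintype.card F - X) ^ 2

lemma maninNum_eq (hF : ringChar F ≠ 2) :
    maninNum a₂ a₄ a₆ = X ^ (2 * Fintype.card F + 1) + maninLow a₂ a₄ a₆ := by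
  have hfq := cubic_pow_card a₂ a₄ a₆
  have hq := card_eq_two_mul_add_one (F := F) hF
  obtain ⟨m, hm⟩ : ∃ m, Fintype.card F / 2 = m := ⟨_, rfl⟩
  rw [hm] at hq
  unfold maninNum maninLow uPoly
  rw [hm]
  rw [hq] at hfq ⊢
  linear_combination hfq

lemma natDegree_maninLow_le (hF : ringChar F ≠ 2) :
    (maninLow a₂ a₄ a₆).natDegree ≤ 2 * Fintype.card F := by
  have hq := card_eq_two_mul_add_one (F := F) hF
  have hpos := half_card_pos (F := F) hF
  obtain ⟨m, hm⟩ : ∃ m, Fintype.card F / 2 = m := ⟨_, rfl⟩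
  rw [hm] at hq hpos
  unfold maninLow cubic
  rw [hm, hq]
  compute_degree
  all_goals omega

lemma maninNum_monic (hF : ringChar F ≠ 2) : (maninNum a₂ a₄ a₆).Monic := by
  rw [maninNum_eq a₂ a₄ a₆ hF]
  apply monic_X_pow_add
  exact lt_of_le_of_lt (degree_le_of_natDegree_le (natDegree_maninLow_le a₂ a₄ a₆ hF))
    (by exact_mod_cast Nat.lt_succ_self _)

lemma natDegree_maninNum (hF : ringChar F ≠ 2) :
    (maninNum a₂ a₄ a₆).natDegree = 2 * Fintype.card F + 1 := by
  rw [maninNum_eq a₂ a₄ a₆ hF]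
  have h : (maninLow a₂ a₄ a₆).degree < (X ^ (2 * Fintype.card F + 1) : F[X]).degree := by
    rw [degree_X_pow]
    exact lt_of_le_of_lt (degree_le_of_natDegree_le (natDegree_maninLow_le a₂ a₄ a₆ hF))
      (by exact_mod_cast Nat.lt_succ_self _)
  rw [natDegree_add_eq_left_of_degree_lt h, natDegree_X_pow]


/-! ### Factorisation and coprimality -/

variable {a₂ a₄ a₆}

lemma eval_uPoly (c : F) :
    (uPoly a₂ a₄ a₆).eval c = (cubic a₂ a₄ a₆).eval c ^ (Fintype.card F / 2) + 1 := by
  simp [uPoly]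

lemma isCoprime_X_sub_C_of_eval_ne_zero {p : F[X]} {c : F} (h : p.eval c ≠ 0) :
    IsCoprime p (X - C c) := by
  rw [isCoprime_comm, (irreducible_X_sub_C c).coprime_iff_not_dvd, dvd_iff_isRoot]
  exact h

lemma isCoprime_linProd_of_forall_eval_ne_zero {p : F[X]} {s : Finset F}
    (h : ∀ c ∈ s, p.eval c ≠ 0) : IsCoprime p (linProd s) := by
  unfold linProd
  exact IsCoprime.prod_right fun c hc => isCoprime_X_sub_C_of_eval_ne_zero (h c hc)

/-- The explicit factorisation `N = G N'`, `D = G D'` with `N'`, `D'` coprime. -/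
theorem exists_factorization (hF : ringChar F ≠ 2)
    (hsimple : ∀ c : F, (cubic a₂ a₄ a₆).eval c = 0 →
      (derivative (cubic a₂ a₄ a₆)).eval c ≠ 0) :
    ∃ N' D' G : F[X], maninNum a₂ a₄ a₆ = G * N' ∧ maninDen (F := F) = G * D' ∧
      IsCoprime N' D' ∧ G ≠ 0 ∧ D' ≠ 0 ∧
      G.natDegree = (rootSet a₂ a₄ a₆).card + 2 * (nsSet a₂ a₄ a₆).card ∧
      D'.natDegree = (rootSet a₂ a₄ a₆).card + 2 * (sqSet a₂ a₄ a₆).card := by
  obtain ⟨f₁, hf₁⟩ : linProd (rootSet a₂ a₄ a₆) ∣ cubic a₂ a₄ a₆ :=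
    linProd_dvd_of_forall_root fun c hc => mem_rootSet.mp hc
  obtain ⟨u₁, hu₁⟩ : linProd (nsSet a₂ a₄ a₆) ∣ uPoly a₂ a₄ a₆ :=
    linProd_dvd_of_forall_root fun c hc => by
      rw [eval_uPoly, mem_nsSet.mp hc]; ring
  have hX := X_pow_card_sub_X_eq (a₂ := a₂) (a₄ := a₄) (a₆ := a₆) hF
  set PZ := linProd (rootSet a₂ a₄ a₆) with hPZ
  set PS := linProd (sqSet a₂ a₄ a₆) with hPS
  set PN := linProd (nsSet a₂ a₄ a₆) with hPN
  refine ⟨f₁ * u₁ ^ 2 - (C a₂ + X ^ Fintype.card F + X) * PZ * PS ^ 2, PZ * PS ^ 2,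
    PZ * PN ^ 2, ?_, ?_, ?_, ?_, ?_, ?_, ?_⟩
  · unfold maninNum
    rw [hX, hf₁, hu₁]
    ring
  · unfold maninDen
    rw [hX]
    ring
  · -- coprimality
    have hf₁c : ∀ c : F, (cubic a₂ a₄ a₆).eval c ≠ 0 → f₁.eval c ≠ 0 := by
      intro c hc h0
      apply hc
      rw [hf₁, eval_mul, h0, mul_zero]
    have hu₁c : ∀ c : F, (uPoly a₂ a₄ a₆).eval c ≠ 0 → u₁.eval c ≠ 0 := by
      intro c hc h0
      apply hc
      rw [hu₁, eval_mul, h0, mul_zero]
    have hZ : ∀ c ∈ rootSet a₂ a₄ a₆,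
        (f₁ * u₁ ^ 2 - (C a₂ + X ^ Fintype.card F + X) * PZ * PS ^ 2).eval c ≠ 0 := by
      intro c hc
      have hPZc : PZ.eval c = 0 := eval_linProd_eq_zero hc
      have hfc : (cubic a₂ a₄ a₆).eval c = 0 := mem_rootSet.mp hc
      have h1 : f₁.eval c ≠ 0 := by
        intro h0
        apply hsimple c hfc
        rw [hf₁, derivative_mul, eval_add, eval_mul, eval_mul, h0, hPZc]
        ring
      have h2 : u₁.eval c ≠ 0 := by
        apply hu₁c
        rw [eval_uPoly, hfc, zero_pow (half_card_pos hF).ne', zero_add]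
        exact one_ne_zero
      simp only [eval_sub, eval_mul, eval_pow, hPZc, mul_zero, zero_mul, sub_zero]
      exact mul_ne_zero h1 (pow_ne_zero _ h2)
    have hS : ∀ c ∈ sqSet a₂ a₄ a₆,
        (f₁ * u₁ ^ 2 - (C a₂ + X ^ Fintype.card F + X) * PZ * PS ^ 2).eval c ≠ 0 := by
      intro c hc
      have hPSc : PS.eval c = 0 := eval_linProd_eq_zero hc
      have hfc : (cubic a₂ a₄ a₆).eval c ^ (Fintype.card F / 2) = 1 := mem_sqSet.mp hc
      have hfc0 : (cubic a₂ a₄ a₆).eval c ≠ 0 := by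
        intro h0
        rw [h0, zero_pow (half_card_pos hF).ne'] at hfc
        exact zero_ne_one hfc
      have h1 : f₁.eval c ≠ 0 := hf₁c c hfc0
      have h2 : u₁.eval c ≠ 0 := by
        apply hu₁c
        rw [eval_uPoly, hfc]
        have := two_ne_zero_of_char hF
        intro h
        apply this
        rw [← h]; norm_num
      simp only [eval_sub, eval_mul, eval_pow, hPSc, mul_zero, sub_zero, ne_eq,
        OfNat.ofNat_ne_zero, not_false_eq_true, zero_pow]
      exact mul_ne_zero h1 (pow_ne_zero _ h2)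
    exact IsCoprime.mul_right (isCoprime_linProd_of_forall_eval_ne_zero hZ)
      (IsCoprime.pow_right (isCoprime_linProd_of_forall_eval_ne_zero hS))
  · exact mul_ne_zero (linProd_ne_zero _) (pow_ne_zero _ (linProd_ne_zero _))
  · exact mul_ne_zero (linProd_ne_zero _) (pow_ne_zero _ (linProd_ne_zero _))
  · rw [natDegree_mul (linProd_ne_zero _) (pow_ne_zero _ (linProd_ne_zero _)),
      natDegree_pow, natDegree_linProd, natDegree_linProd]
  · rw [natDegree_mul (linProd_ne_zero _) (pow_ne_zero _ (linProd_ne_zero _)),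
      natDegree_pow, natDegree_linProd, natDegree_linProd]

/-- **Manin's counting lemma**, combinatorial form. -/
theorem hgt_maninR (hF : ringChar F ≠ 2)
    (hsimple : ∀ c : F, (cubic a₂ a₄ a₆).eval c = 0 →
      (derivative (cubic a₂ a₄ a₆)).eval c ≠ 0) :
    hgt (maninR a₂ a₄ a₆) = 1 + (rootSet a₂ a₄ a₆).card + 2 * (sqSet a₂ a₄ a₆).card := by
  obtain ⟨N', D', G, hN, hD, hcop, hG, hD', hdG, hdD⟩ := exists_factorization hF hsimple
  have hNne : maninNum a₂ a₄ a₆ ≠ 0 := (maninNum_monic a₂ a₄ a₆ hF).ne_zero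
  have hN' : N' ≠ 0 := by
    rintro rfl
    exact hNne (by rw [hN, mul_zero])
  have hR : maninR a₂ a₄ a₆ =
      algebraMap F[X] (RatFunc F) N' / algebraMap F[X] (RatFunc F) D' := by
    unfold maninR
    rw [hN, hD, map_mul, map_mul]
    have hG' : algebraMap F[X] (RatFunc F) G ≠ 0 := by
      simpa using hG
    exact mul_div_mul_left _ _ hG'
  rw [hR, hgt_div_of_isCoprime hD' hcop]
  have hdeg : (maninNum a₂ a₄ a₆).natDegree = G.natDegree + N'.natDegree := by
    rw [hN, natDegree_mul hG hN']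
  rw [natDegree_maninNum a₂ a₄ a₆ hF] at hdeg
  have hpart := card_partition (a₂ := a₂) (a₄ := a₄) (a₆ := a₆) hF
  rw [hdD]
  omega

end Manin

end Fermat.Agent.S52.H297

end
-- ===== PACK-END S52/H297/Manin.lean

-- ===== PACK-BEGIN S58/H285/PointCount.lean
section


/-!
# S58 leaf COUNT (helper285): `a_q(W) ≠ ±(q + 1)`

`a_q(W) = q + 1 - #W(𝔽_q)` with `1 ≤ #W(𝔽_q) ≤ 2 q + 1`: the point at infinity gives the lower
bound, and for each `x` the Weierstrass equation is a monic quadratic in `y`, which gives the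
upper bound.
-/

set_option autoImplicit false

open Polynomial

namespace Fermat.Agent.S58.H285

/-- The monic quadratic in `y` cut out by the Weierstrass equation at a fixed `x`. -/
noncomputable def fiberPoly_h285 {F : Type} [Field F] (W : WeierstrassCurve F) (x : F) : F[X] :=
  X ^ 2 + C (W.a₁ * x + W.a₃) * X - C (x ^ 3 + W.a₂ * x ^ 2 + W.a₄ * x + W.a₆)

theorem fiberPoly_natDegree_h285 {F : Type} [Field F] (W : WeierstrassCurve F) (x : F) :
    (fiberPoly_h285 W x).natDegree = 2 := by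
  unfold fiberPoly_h285
  have h : (X ^ 2 + C (W.a₁ * x + W.a₃) * X - C (x ^ 3 + W.a₂ * x ^ 2 + W.a₄ * x + W.a₆) : F[X])
      = X ^ 2 + (C (W.a₁ * x + W.a₃) * X + C (-(x ^ 3 + W.a₂ * x ^ 2 + W.a₄ * x + W.a₆))) := by
    rw [C_neg]; ring
  rw [h]
  have hlt : (C (W.a₁ * x + W.a₃) * X + C (-(x ^ 3 + W.a₂ * x ^ 2 + W.a₄ * x + W.a₆)) : F[X]).degree
      < ((X : F[X]) ^ 2).degree := by
    rw [degree_X_pow]
    exact lt_of_le_of_lt (degree_linear_le) (by norm_num)
  rw [natDegree_add_eq_left_of_degree_lt hlt, natDegree_X_pow]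

theorem fiberPoly_ne_zero_h285 {F : Type} [Field F] (W : WeierstrassCurve F) (x : F) :
    fiberPoly_h285 W x ≠ 0 := by
  intro h
  have := fiberPoly_natDegree_h285 W x
  rw [h, natDegree_zero] at this
  exact absurd this (by norm_num)

theorem fiberPoly_isRoot_h285 {F : Type} [Field F] (W : WeierstrassCurve F) (x y : F)
    (h : W.toAffine.Equation x y) : (fiberPoly_h285 W x).IsRoot y := by
  rw [WeierstrassCurve.Affine.equation_iff] at h
  unfold fiberPoly_h285
  simp only [IsRoot.def, eval_sub, eval_add, eval_pow, eval_X, eval_mul, eval_C]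
  linear_combination h

/-- The number of solutions of the Weierstrass equation over a finite field `F` is at most
`2 * #F`. -/
theorem card_equation_le_h285 {F : Type} [Field F] [Fintype F] [DecidableEq F]
    (W : WeierstrassCurve F) (S : Finset (F × F))
    (hS : ∀ p ∈ S, W.toAffine.Equation p.1 p.2) : S.card ≤ 2 * Fintype.card F := by
  classical
  have h1 : S.card ≤ 2 * (S.image Prod.fst).card := by
    refine Finset.card_le_mul_card_image S 2 ?_
    intro x _
    have hinj : Set.InjOn Prod.snd (↑(S.filter fun p => p.1 = x) : Set (F × F)) := by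
      intro p hp p' hp' hpp'
      simp only [Finset.coe_filter, Set.mem_setOf_eq] at hp hp'
      exact Prod.ext (hp.2.trans hp'.2.symm) hpp'
    have hsub : ((S.filter fun p => p.1 = x).image Prod.snd).val ⊆ (fiberPoly_h285 W x).roots := by
      intro y hy
      rw [Finset.mem_val, Finset.mem_image] at hy
      obtain ⟨p, hp, rfl⟩ := hy
      rw [Finset.mem_filter] at hp
      rw [mem_roots (fiberPoly_ne_zero_h285 W x)]
      have := hS p hp.1
      rw [hp.2] at this
      exact fiberPoly_isRoot_h285 W x p.2 this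
    calc (S.filter fun p => p.1 = x).card
        = ((S.filter fun p => p.1 = x).image Prod.snd).card := (Finset.card_image_of_injOn hinj).symm
      _ ≤ (fiberPoly_h285 W x).natDegree := Polynomial.card_le_degree_of_subset_roots hsub
      _ = 2 := fiberPoly_natDegree_h285 W x
  calc S.card ≤ 2 * (S.image Prod.fst).card := h1
    _ ≤ 2 * Fintype.card F := Nat.mul_le_mul_left 2 (Finset.card_le_univ _)

/-- Coordinates of a point (`none` for the point at infinity). -/
noncomputable def pointCoord_h285 {F : Type} [Field F] (W : WeierstrassCurve F) :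
    W.toAffine.Point → Option (F × F)
  | .zero => none
  | .some x y _ => some (x, y)

theorem pointCoord_injective_h285 {F : Type} [Field F] (W : WeierstrassCurve F) :
    Function.Injective (pointCoord_h285 W) := by
  rintro (_ | ⟨x₁, y₁, h₁⟩) (_ | ⟨x₂, y₂, h₂⟩) h <;>
    simp only [pointCoord_h285, Option.some.injEq, Prod.mk.injEq, reduceCtorEq] at h
  · rfl
  · obtain ⟨rfl, rfl⟩ := h; rfl

/-- `1 ≤ #W(F) ≤ 2 #F + 1` for a Weierstrass curve over a finite field. -/
theorem card_point_bounds_h285 {F : Type} [Field F] [Fintype F] (W : WeierstrassCurve F) :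
    1 ≤ Nat.card W.toAffine.Point ∧ Nat.card W.toAffine.Point ≤ 2 * Fintype.card F + 1 := by
  classical
  haveI : Finite W.toAffine.Point := Finite.of_injective _ (pointCoord_injective_h285 W)
  haveI : Fintype W.toAffine.Point := Fintype.ofFinite _
  refine ⟨?_, ?_⟩
  · exact Nat.one_le_iff_ne_zero.mpr (Nat.card_ne_zero.mpr ⟨⟨0⟩, inferInstance⟩)
  · rw [Nat.card_eq_fintype_card]
    let S : Finset (F × F) := Finset.univ.filter fun p => W.toAffine.Equation p.1 p.2
    have hS : ∀ p ∈ S, W.toAffine.Equation p.1 p.2 := fun p hp => (Finset.mem_filter.mp hp).2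
    have hle : Fintype.card W.toAffine.Point ≤ (insert none (S.image some)).card := by
      rw [← Finset.card_univ]
      refine Finset.card_le_card_of_injOn (pointCoord_h285 W) ?_
        ((pointCoord_injective_h285 W).injOn)
      rintro (_ | ⟨x, y, h⟩) _
      · simp [pointCoord_h285]
      · simp only [pointCoord_h285, Finset.coe_insert, Finset.coe_image, Set.mem_insert_iff,
          reduceCtorEq, Set.mem_image, Finset.mem_coe, Option.some.injEq, exists_eq_right,
          false_or]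
        exact Finset.mem_filter.mpr ⟨Finset.mem_univ _, h.1⟩
    calc Fintype.card W.toAffine.Point ≤ (insert none (S.image some)).card := hle
      _ ≤ (S.image some).card + 1 := Finset.card_insert_le _ _
      _ ≤ S.card + 1 := Nat.add_le_add_right Finset.card_image_le 1
      _ ≤ 2 * Fintype.card F + 1 := Nat.add_le_add_right (card_equation_le_h285 W S hS) 1

/-- **Leaf COUNT.** -/
theorem pointCount : Fermat.Agent.S58.PointCountStatement := by
  intro W q hq
  haveI : Fact q.Prime := ⟨hq⟩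
  have hb := card_point_bounds_h285 (W.reductionMod q)
  have hcard : Nat.card (ZMod q) = q := by
    rw [Nat.card_eq_fintype_card, ZMod.card]
  have hap : W.apOfModel q = (q : ℤ) + 1 - (Nat.card (W.reductionMod q).toAffine.Point : ℤ) := by
    unfold WeierstrassCurve.apOfModel WeierstrassCurve.traceOfFrobenius WeierstrassCurve.card
    rw [hcard]
  rw [ZMod.card] at hb
  have h1 : (1 : ℤ) ≤ (Nat.card (W.reductionMod q).toAffine.Point : ℤ) := by exact_mod_cast hb.1
  have h2 : (Nat.card (W.reductionMod q).toAffine.Point : ℤ) ≤ 2 * (q : ℤ) + 1 := by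
    exact_mod_cast hb.2
  constructor
  · rw [hap]; omega
  · rw [hap]; omega

end Fermat.Agent.S58.H285

end
-- ===== PACK-END S58/H285/PointCount.lean

-- ===== PACK-BEGIN Lib/Newform/H23/Spec.lean
section


/-!
# Shared library NEWFORM — interface, part 2 (row-lead helper23)

Part 1 is `Fermat.Agent.Lib.Newform.H958.Spec` (leaves `EigenT EigenU Incl Occurs LowerU TraceAL`,
targets `BadCoeffAt BadCoeff Descent Stab`).  This file fixes the remaining interface:

* operators: `Raise` (degeneracy map `B_d`, in `q`-coefficients);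
* Atkin–Lehner: `Lemma16`, `MainLemma` (all of it *Petersson-free*);
* targets: `MultOne` (same-level multiplicity one for a Prelude-newform),
  `OldEigen` (an eigenvector in the old space lowers the level),
  `QNewKernel` (on the kernel of the two traces at `q ∥ N` one has `a_q ^ 2 = 1`; for S41).

Every statement is a `Prop`-valued definition; a block *proves* `theorem xxx : Xxx` in its own
directory `Fermat/Agent/Lib/Newform/H<seat>/`.  All coefficients are the Prelude's
`ModularFormClass.qCoeff` of the underlying function, so statements at different levels compare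
by `rfl`-transport of functions (`Incl`).
-/

set_option autoImplicit false

open CongruenceSubgroup
open scoped MatrixGroups

namespace Fermat.Agent.Lib.Newform.H23

open ModularFormClass

/-- **RAISE**: the degeneracy map `B_d`, `(B_d g)(τ) = g(dτ)`, from level `M` to any level `C`
with `d * M ∣ C`:  `a_n(B_d g) = a_{n/d}(g)` if `d ∣ n`, and `0` otherwise. -/
def Raise : Prop :=
  ∀ (M d C : ℕ) [NeZero C], d * M ∣ C → ∀ g : CuspForm (Gamma0 M) 2,
    ∃ h : CuspForm (Gamma0 C) 2, ∀ n : ℕ,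
      qCoeff h n = if d ∣ n then qCoeff g (n / d) else 0

/-- **LEMMA 16** (Atkin–Lehner): if `q ∣ N` and `a_n(f) = 0` whenever `q ∤ n`, then
`f = B_q g` with `g` of level `N / q` (so `a_n(g) = a_{qn}(f)`). -/
def Lemma16 : Prop :=
  ∀ (N q : ℕ) [NeZero N], q.Prime → q ∣ N → ∀ f : CuspForm (Gamma0 N) 2,
    (∀ n : ℕ, ¬ q ∣ n → qCoeff f n = 0) →
    ∃ g : CuspForm (Gamma0 (N / q)) 2, ∀ n : ℕ, qCoeff g n = qCoeff f (q * n)

/-- **MAIN LEMMA** (Atkin–Lehner): a cusp form of level `N` whose coefficients `a_n` vanish for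
all `n` prime to `N` is a sum of `B_p g_p`, `g_p` of level `N / p`, over the primes `p ∣ N`. -/
def MainLemma : Prop :=
  ∀ (N : ℕ) [NeZero N] (f : CuspForm (Gamma0 N) 2),
    (∀ n : ℕ, n.Coprime N → qCoeff f n = 0) →
    ∃ g : (p : ℕ) → CuspForm (Gamma0 (N / p)) 2, ∀ n : ℕ,
      qCoeff f n = ∑ p ∈ N.primeFactors, if p ∣ n then qCoeff (g p) (n / p) else 0

/-- **MAIN LEMMA, `D`-form** (stretch; needs `Lemma16` at primes `q ∤ N`, where `f = 0`):
the same with vanishing only for `n` prime to `D`, `D` any positive integer. -/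
def MainLemmaD : Prop :=
  ∀ (N D : ℕ) [NeZero N], 0 < D → ∀ f : CuspForm (Gamma0 N) 2,
    (∀ n : ℕ, n.Coprime D → qCoeff f n = 0) →
    ∃ g : (p : ℕ) → CuspForm (Gamma0 (N / p)) 2, ∀ n : ℕ,
      qCoeff f n = ∑ p ∈ N.primeFactors ∩ D.primeFactors,
        if p ∣ n then qCoeff (g p) (n / p) else 0

/-- **OLD-EIGEN**: if a *nonzero* cusp form of level `N` which is an eigenvector of all `T_ℓ`,
`ℓ ∤ N`, with eigenvalues `a ℓ`, is a sum of forms `B_p g_p` (`g_p` of level `N / p`, `p ∣ N`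
prime), then the eigensystem `a` occurs for a normalized eigenform of some level `N / p`. -/
def OldEigen : Prop :=
  ∀ (N : ℕ) [NeZero N] (h : CuspForm (Gamma0 N) 2), h ≠ 0 → ∀ a : ℕ → ℂ,
    (∀ (ℓ : ℕ) (hℓ : ℓ.Prime) (hℓN : ¬ ℓ ∣ N), CuspForm.heckeTLin 2 hℓ hℓN h = a ℓ • h) →
    (∃ g : (p : ℕ) → CuspForm (Gamma0 (N / p)) 2, ∀ n : ℕ,
      qCoeff h n = ∑ p ∈ N.primeFactors, if p ∣ n then qCoeff (g p) (n / p) else 0) →
    ∃ p : ℕ, p.Prime ∧ p ∣ N ∧ ∃ G : CuspForm (Gamma0 (N / p)) 2, G.IsNormalizedEigenform ∧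
      ∀ ℓ : ℕ, ℓ.Prime → ¬ ℓ ∣ N → qCoeff G ℓ = a ℓ

/-- **MULT-ONE** (same level): the good eigenspace of a Prelude-newform is the line through it. -/
def MultOne : Prop :=
  ∀ (N : ℕ) [NeZero N] (f : CuspForm (Gamma0 N) 2), f.IsNewform →
    ∀ h : CuspForm (Gamma0 N) 2,
      (∀ (ℓ : ℕ) (hℓ : ℓ.Prime) (hℓN : ¬ ℓ ∣ N),
        CuspForm.heckeTLin 2 hℓ hℓN h = qCoeff f ℓ • h) →
      h = qCoeff h 1 • f

/-- **MULT-ONE'**: a normalized eigenform of the level of a Prelude-newform `f` with the same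
`a_ℓ` for all primes `ℓ ∤ N` is equal to `f` (in particular it has the same `a_q`, `q ∣ N`). -/
def MultOneEigen : Prop :=
  ∀ (N : ℕ) [NeZero N] (f g : CuspForm (Gamma0 N) 2), f.IsNewform → g.IsNormalizedEigenform →
    (∀ ℓ : ℕ, ℓ.Prime → ¬ ℓ ∣ N → qCoeff g ℓ = qCoeff f ℓ) → g = f

/-- **Q-NEW-KERNEL** (for level raising, S41): for `q ∥ N` there are an involution-like operator
`W` and the two trace maps `tr`, `tr'` to level `N / q` (`tr f = f + U_q W f`,
`tr' f = W f + U_q f`); a normalized eigenform killed by both has `a_q ^ 2 = 1`, and the common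
kernel is stable under all `T_ℓ`, `ℓ ∤ N`. -/
def QNewKernel : Prop :=
  ∀ (N q : ℕ) [NeZero N], q.Prime → q ∣ N → ¬ q ^ 2 ∣ N →
    ∃ (W : CuspForm (Gamma0 N) 2 →ₗ[ℂ] CuspForm (Gamma0 N) 2)
      (tr tr' : CuspForm (Gamma0 N) 2 →ₗ[ℂ] CuspForm (Gamma0 (N / q)) 2),
      (∀ f : CuspForm (Gamma0 N) 2,
        (⇑(tr f) : UpperHalfPlane → ℂ) = ⇑f + ModularForm.heckeU 2 q ⇑(W f)) ∧
      (∀ f : CuspForm (Gamma0 N) 2,
        (⇑(tr' f) : UpperHalfPlane → ℂ) = ⇑(W f) + ModularForm.heckeU 2 q ⇑f) ∧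
      (∀ (ℓ : ℕ) (hℓ : ℓ.Prime) (hℓN : ¬ ℓ ∣ N) (f : CuspForm (Gamma0 N) 2),
        tr f = 0 → tr' f = 0 →
          tr (CuspForm.heckeTLin 2 hℓ hℓN f) = 0 ∧ tr' (CuspForm.heckeTLin 2 hℓ hℓN f) = 0) ∧
      (∀ f : CuspForm (Gamma0 N) 2, tr f = 0 → tr' f = 0 →
        ModularForm.heckeU 2 q (ModularForm.heckeU 2 q ⇑f) = ⇑f) ∧
      (∀ g : CuspForm (Gamma0 N) 2, g.IsNormalizedEigenform → tr g = 0 → tr' g = 0 →
        g.IsNewAt q) ∧
      (∀ g : CuspForm (Gamma0 N) 2, g.IsNewformAt q → tr g = 0 ∧ tr' g = 0)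

end Fermat.Agent.Lib.Newform.H23

end
-- ===== PACK-END Lib/Newform/H23/Spec.lean

-- ===== PACK-BEGIN Lib/Cheb/H223/Cross.lean
section




/-!
# Chebotarev field crossing in the `Spec` shape (helper223, shared lib CHEB)

`cross : Spec.CrossStatement`, i.e. `FrobStatement → CycStatement → ChebFiniteStatement`.
-/

set_option autoImplicit false
set_option linter.style.haveILetI false

namespace Fermat.Agent.Lib.Cheb.H223

open NumberField IntermediateField
open Fermat.Agent.Lib.Cheb.Spec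

/-- Pulling back an arithmetic Frobenius along an equivariant embedding of number fields. -/
theorem isArithFrobAt_comap {L L' : Type} [Field L] [NumberField L] [Field L'] [NumberField L']
    (ψ : L →+* L') (σ : L ≃ₐ[ℚ] L) (g' : L' ≃ₐ[ℚ] L') (hcomm : ∀ x, ψ (σ x) = g' (ψ x))
    (P' : Ideal (𝓞 L')) (h : IsArithFrobAt ℤ g' P') :
    IsArithFrobAt ℤ σ (P'.comap (RingOfIntegers.mapRingHom ψ)) := by
  intro x
  have hx := h (RingOfIntegers.mapRingHom ψ x)
  have e1 : RingOfIntegers.mapRingHom ψ (σ • x) = g' • (RingOfIntegers.mapRingHom ψ x) := by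
    apply RingOfIntegers.ext
    exact hcomm x
  have e2 : (P'.comap (RingOfIntegers.mapRingHom ψ)).under ℤ = P'.under ℤ := by
    ext n
    simp [Ideal.under, Ideal.mem_comap]
  rw [Ideal.mem_comap, e2]
  change RingOfIntegers.mapRingHom ψ (σ • x - x ^ Nat.card (ℤ ⧸ P'.under ℤ)) ∈ P'
  rw [map_sub, map_pow, e1]
  exact hx

/-- powers of `g` act on `ζ` by powers of `t` -/
theorem pow_apply_of_apply_eq_pow {K : Type*} [Field K] [Algebra ℚ K] (g : K ≃ₐ[ℚ] K) {ζ : K}
    {t : ℕ} (h : g ζ = ζ ^ t) (k : ℕ) : (g ^ k) ζ = ζ ^ t ^ k := by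
  induction k with
  | zero => simp
  | succ k ih =>
    rw [pow_succ', AlgEquiv.mul_apply, ih, map_pow, h, ← pow_mul, ← pow_succ']

/-- an automorphism fixing `L` pointwise and `ζ` fixes `L ⊔ ℚ⟮ζ⟯` pointwise -/
theorem apply_eq_of_mem_sup {K : Type*} [Field K] [Algebra ℚ K] (f : K ≃ₐ[ℚ] K)
    (L : IntermediateField ℚ K) (ζ : K) (hL : ∀ x ∈ L, f x = x) (hζ : f ζ = ζ) :
    ∀ x ∈ L ⊔ ℚ⟮ζ⟯, f x = x := by
  let E : IntermediateField ℚ K :=
    { carrier := {x | f x = x}
      mul_mem' := fun {a b} ha hb => by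
        simp only [Set.mem_ofPred_eq] at ha hb ⊢
        rw [map_mul, ha, hb]
      one_mem' := map_one f
      add_mem' := fun {a b} ha hb => by
        simp only [Set.mem_ofPred_eq] at ha hb ⊢
        rw [map_add, ha, hb]
      zero_mem' := map_zero f
      algebraMap_mem' := fun r => f.commutes r
      inv_mem' := fun x hx => by
        simp only [Set.mem_ofPred_eq] at hx ⊢
        rw [map_inv₀, hx] }
  have h1 : L ≤ E := fun x hx => hL x hx
  have h2 : ℚ⟮ζ⟯ ≤ E := by
    rw [IntermediateField.adjoin_simple_le_iff]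
    exact hζ
  intro x hx
  exact (sup_le h1 h2) hx

set_option backward.isDefEq.respectTransparency false in
/-- **Field crossing** in the `Spec` shape. -/
theorem cross : CrossStatement := by
  intro hF hC L _ _ _ σ S
  haveI := isGalois_Qb
  haveI : Algebra.IsAlgebraic ℚ Qb := AlgebraicClosure.isAlgebraic ℚ
  obtain ⟨BL, hBL⟩ := hF L
  -- embed `L` into `ℚ̄`
  let φ : L →ₐ[ℚ] Qb := IsAlgClosed.lift
  let L₀ : IntermediateField ℚ Qb := φ.fieldRange
  let e : L ≃ₐ[ℚ] L₀ := AlgEquiv.ofInjectiveField φ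
  haveI : FiniteDimensional ℚ L₀ := e.toLinearEquiv.finiteDimensional
  haveI : IsGalois ℚ L₀ := IsGalois.of_algEquiv e
  have heφ : ∀ x : L, ((e x : L₀) : Qb) = φ x := fun x => rfl
  -- transport `σ` and lift it to `ℚ̄`
  let σ₀ : L₀ ≃ₐ[ℚ] L₀ := (e.symm.trans σ).trans e
  obtain ⟨σ', hσ'⟩ := AlgEquiv.restrictNormalHom_surjective (F := ℚ) (K₁ := L₀) Qb σ₀
  have hσφ : ∀ x : L, σ' (φ x) = φ (σ x) := by
    intro x
    have h1 := AlgEquiv.restrictNormal_commutes σ' L₀ (e x)
    have h2 : (AlgEquiv.restrictNormalHom L₀ σ') (e x) = σ₀ (e x) := by rw [hσ']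
    have h3 : σ₀ (e x) = e (σ x) := by
      simp [σ₀]
    have h4 := congrArg (Subtype.val) (h2.trans h3)
    exact h1.symm.trans h4
  -- crossing
  obtain ⟨ℓ, ζ, g, t, hℓ, -, hζ, hgL, hgζ, hkey⟩ := exists_crossing L₀ σ' 0
  haveI : Algebra.IsIntegral ℚ Qb := Algebra.IsAlgebraic.isIntegral
  haveI : NeZero ℓ := ⟨hℓ.ne_zero⟩
  haveI hcyc : IsCyclotomicExtension {ℓ} ℚ ℚ⟮ζ⟯ :=
    hζ.intermediateField_adjoin_isCyclotomicExtension ℚ
  haveI : FiniteDimensional ℚ ℚ⟮ζ⟯ := IsCyclotomicExtension.finiteDimensional {ℓ} ℚ _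
  haveI : IsGalois ℚ ℚ⟮ζ⟯ := IsCyclotomicExtension.isGalois {ℓ} ℚ _
  let L' : IntermediateField ℚ Qb := L₀ ⊔ ℚ⟮ζ⟯
  haveI : FiniteDimensional ℚ L' := IntermediateField.finiteDimensional_sup L₀ ℚ⟮ζ⟯
  haveI : NumberField L' := ⟨⟩
  haveI : Normal ℚ L' := IntermediateField.normal_sup ℚ Qb L₀ ℚ⟮ζ⟯
  haveI : IsGalois ℚ L' := isGalois_iff.mpr ⟨inferInstance, inferInstance⟩
  have hζL' : ζ ∈ L' := (le_sup_right : ℚ⟮ζ⟯ ≤ L') (mem_adjoin_simple_self ℚ ζ)
  let ζ' : L' := ⟨ζ, hζL'⟩
  have hζ' : IsPrimitiveRoot ζ' ℓ :=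
    IsPrimitiveRoot.of_map_of_injective (f := L'.val) (by simpa [ζ'] using hζ) L'.val.injective
  let g' : L' ≃ₐ[ℚ] L' := AlgEquiv.restrictNormalHom L' g
  have hg'val : ∀ (k : ℕ) (y : L'), (((g' ^ k) y : L') : Qb) = (g ^ k) (y : Qb) := by
    intro k y
    have h1 : g' ^ k = AlgEquiv.restrictNormalHom L' (g ^ k) := (map_pow _ g k).symm
    rw [h1]
    exact AlgEquiv.restrictNormal_commutes (g ^ k) L' y
  have hcond : ∀ k : ℕ, (g' ^ k) ζ' = ζ' → g' ^ k = 1 := by
    intro k hk
    have h1 : (g ^ k) ζ = ζ := by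
      have := congrArg Subtype.val hk
      rw [hg'val k ζ'] at this
      exact this
    have h2 : ζ ^ t ^ k = ζ := by rw [← pow_apply_of_apply_eq_pow g hgζ k]; exact h1
    have h3 := apply_eq_of_mem_sup (g ^ k) L₀ ζ (hkey k h2) h1
    apply AlgEquiv.ext
    intro y
    apply Subtype.ext
    rw [hg'val k y]
    exact h3 y y.2
  obtain ⟨p, P', hp, hpS, hP', hpP', -, hfrob⟩ := hC L' ℓ ζ' hℓ.pos hζ' g' hcond (S ∪ BL)
  -- pull back to `L`
  have hφL' : ∀ x : L, φ x ∈ L' := fun x => (le_sup_left : L₀ ≤ L') (e x).2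
  let ψ : L →+* L' := φ.toRingHom.codRestrict L'.toSubfield hφL'
  have hψval : ∀ x : L, ((ψ x : L') : Qb) = φ x := fun x => rfl
  have hcomm : ∀ x : L, ψ (σ x) = g' (ψ x) := by
    intro x
    apply Subtype.ext
    have h1 := hg'val 1 (ψ x)
    rw [pow_one, pow_one] at h1
    rw [h1, hψval, hψval, hgL (φ x) (e x).2, hσφ]
  have hpS' : p ∉ S := fun h => hpS (Finset.mem_union_left _ h)
  have hpB : p ∉ BL := fun h => hpS (Finset.mem_union_right _ h)
  let P : Ideal (𝓞 L) := P'.comap (RingOfIntegers.mapRingHom ψ)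
  have hP : P.IsPrime := Ideal.comap_isPrime _ _
  have hpP : (p : 𝓞 L) ∈ P := by
    rw [Ideal.mem_comap, map_natCast]
    exact hpP'
  exact ⟨p, P, hp, hpS', hP, hpP, (hBL p hp hpB P hP hpP).1,
    isArithFrobAt_comap ψ σ g' hcomm P' hfrob⟩

end Fermat.Agent.Lib.Cheb.H223

end
-- ===== PACK-END Lib/Cheb/H223/Cross.lean

-- ===== PACK-BEGIN Lib/EulerProd/IdealSum.lean
section



/-!
# Sums over the ideals of the ring of integers of a number field

* `summable_absNorm_rpow`: `∑ I, N(I)^(-s)` converges for real `s > 1`.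
* `zetaR`: the real Dedekind zeta function as a sum over ideals, `zetaR_eq_dedekindZeta`.
* `exists_zetaR_bounds`: `c / (s - 1) ≤ zetaR K s ≤ C / (s - 1)` on `(1, 2]`.
-/

set_option autoImplicit false
set_option linter.style.haveILetI false

namespace Fermat.Agent.Lib.EulerProd

open NumberField Ideal Filter Topology Finset

variable (K : Type*) [Field K] [NumberField K]

/-- Partial sums of the coefficients of the Dedekind zeta function (from Mathlib's proof of the
class number formula). -/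
theorem tendsto_sum_card_div :
    Tendsto (fun n : ℕ ↦ (∑ k ∈ Icc 1 n,
      (Nat.card {I : Ideal (𝓞 K) // absNorm I = k} : ℝ)) / (n : ℝ)) atTop
      (𝓝 (dedekindZeta_residue K)) := by
  refine ((Ideal.tendsto_norm_le_div_atTop₀ K).comp tendsto_natCast_atTop_atTop).congr fun n ↦ ?_
  simp only [Function.comp_apply, Nat.cast_le, ← Nat.cast_sum]
  congr
  rw [← add_left_inj 1, ← card_norm_le_eq_card_norm_le_add_one,
    show Finset.Icc 1 n = Finset.Ioc 0 n from Finset.Icc_succ_left_eq_Ioc _ _,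
    show 1 = Nat.card {I : Ideal (𝓞 K) // absNorm I = 0} by simp [Ideal.absNorm_eq_zero_iff],
    Finset.sum_Ioc_add_eq_sum_Icc (n.zero_le),
    ← Finset.card_preimage_eq_sum_card_image_eq (fun k _ ↦ finite_setOfPred_absNorm_eq k)]
  simp [Set.coe_eq_subtype]

theorem lseriesSummable_card {s : ℝ} (hs : 1 < s) :
    LSeriesSummable (fun n ↦ ((Nat.card {I : Ideal (𝓞 K) // absNorm I = n} : ℝ) : ℂ)) (s : ℂ) := by
  refine LSeriesSummable_of_sum_norm_bigO_and_nonneg ?_ (fun _ ↦ Nat.cast_nonneg _) zero_le_one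
    (by simpa using hs)
  exact Asymptotics.isBigO_atTop_natCast_rpow_of_tendsto_div_rpow
    (by simpa using tendsto_sum_card_div K)


/-- The fibre sums of `N(I)^(-s)` over the norm map. -/
theorem tsum_fiber_absNorm_rpow (s : ℝ) (n : ℕ) :
    ∑' I : {I : Ideal (𝓞 K) // absNorm I = n}, ((absNorm I.1 : ℕ) : ℝ) ^ (-s) =
      (Nat.card {I : Ideal (𝓞 K) // absNorm I = n} : ℝ) * (n : ℝ) ^ (-s) := by
  haveI : Finite {I : Ideal (𝓞 K) // absNorm I = n} := finite_setOfPred_absNorm_eq n
  haveI : Fintype {I : Ideal (𝓞 K) // absNorm I = n} := Fintype.ofFinite _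
  rw [tsum_fintype, Finset.sum_congr rfl (fun I _ => by rw [I.2]), Finset.sum_const,
    Finset.card_univ, Nat.card_eq_fintype_card, nsmul_eq_mul]

theorem summable_card_mul_rpow {s : ℝ} (hs : 1 < s) :
    Summable (fun n : ℕ ↦
      (Nat.card {I : Ideal (𝓞 K) // absNorm I = n} : ℝ) * (n : ℝ) ^ (-s)) := by
  have h := (lseriesSummable_card K hs).norm
  refine h.congr fun n => ?_
  rw [LSeries.norm_term_eq]
  split_ifs with hn
  · subst hn
    have hs0 : -s ≠ 0 := by linarith
    simp [Real.zero_rpow hs0]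
  · simp only [Complex.ofReal_re, Complex.norm_real, Real.norm_eq_abs, Nat.abs_cast]
    rw [Real.rpow_neg (Nat.cast_nonneg _), div_eq_mul_inv]

/-- `∑ I, N(I)^(-s)` converges for `s > 1`. -/
theorem summable_absNorm_rpow {s : ℝ} (hs : 1 < s) :
    Summable (fun I : Ideal (𝓞 K) ↦ ((absNorm I : ℕ) : ℝ) ^ (-s)) := by
  rw [← (Equiv.sigmaFiberEquiv (fun I : Ideal (𝓞 K) => absNorm I)).summable_iff]
  rw [summable_sigma_of_nonneg (fun _ => by
    simp only [Function.comp_apply]
    positivity)]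
  refine ⟨fun n => ?_, ?_⟩
  · haveI : Finite {I : Ideal (𝓞 K) // absNorm I = n} := finite_setOfPred_absNorm_eq n
    exact Summable.of_finite
  · refine (summable_card_mul_rpow K hs).congr fun n => ?_
    simp only [Function.comp_apply, Equiv.sigmaFiberEquiv_apply]
    exact (tsum_fiber_absNorm_rpow K s n).symm

/-- The Dedekind zeta function at a real argument, as a sum over all ideals (the zero ideal
contributes `0`). -/
noncomputable def zetaR (s : ℝ) : ℝ := ∑' I : Ideal (𝓞 K), ((absNorm I : ℕ) : ℝ) ^ (-s)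

theorem zetaR_eq_tsum_nat {s : ℝ} (hs : 1 < s) :
    zetaR K s = ∑' n : ℕ,
      (Nat.card {I : Ideal (𝓞 K) // absNorm I = n} : ℝ) * (n : ℝ) ^ (-s) := by
  have hsum := summable_absNorm_rpow K hs
  rw [zetaR, ← (Equiv.sigmaFiberEquiv (fun I : Ideal (𝓞 K) => absNorm I)).tsum_eq]
  rw [← (Equiv.sigmaFiberEquiv (fun I : Ideal (𝓞 K) => absNorm I)).summable_iff] at hsum
  have hfib : ∀ n : ℕ, Summable fun c : {I : Ideal (𝓞 K) // absNorm I = n} =>
      ((fun I : Ideal (𝓞 K) => ((absNorm I : ℕ) : ℝ) ^ (-s)) ∘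
        (Equiv.sigmaFiberEquiv (fun I : Ideal (𝓞 K) => absNorm I))) ⟨n, c⟩ := by
    intro n
    haveI : Finite {I : Ideal (𝓞 K) // absNorm I = n} := finite_setOfPred_absNorm_eq n
    exact Summable.of_finite
  have := Summable.tsum_sigma' hfib hsum
  simp only [Function.comp_apply] at this
  rw [this]
  refine tsum_congr fun n => ?_
  simp only [Equiv.sigmaFiberEquiv_apply]
  exact tsum_fiber_absNorm_rpow K s n

theorem zetaR_eq_dedekindZeta {s : ℝ} (hs : 1 < s) :
    ((zetaR K s : ℝ) : ℂ) = dedekindZeta K (s : ℂ) := by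
  rw [zetaR_eq_tsum_nat K hs, dedekindZeta, LSeries, Complex.ofReal_tsum]
  refine tsum_congr fun n => ?_
  rw [LSeries.term_def]
  split_ifs with hn
  · subst hn
    have hs0 : -s ≠ 0 := by linarith
    simp [Real.zero_rpow hs0]
  · rw [Complex.ofReal_mul, Complex.ofReal_natCast, Complex.ofReal_cpow (Nat.cast_nonneg _),
      Complex.ofReal_neg, Complex.cpow_neg, Complex.ofReal_natCast, div_eq_mul_inv]


theorem tendsto_sub_one_mul_zetaR :
    Tendsto (fun s : ℝ ↦ (s - 1) * zetaR K s) (𝓝[>] 1) (𝓝 (dedekindZeta_residue K)) := by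
  have h := tendsto_sub_one_mul_dedekindZeta_nhdsGT K
  have h2 : Tendsto (fun s : ℝ ↦ (((s - 1) * zetaR K s : ℝ) : ℂ)) (𝓝[>] 1)
      (𝓝 ((dedekindZeta_residue K : ℝ) : ℂ)) := by
    refine h.congr' ?_
    filter_upwards [self_mem_nhdsWithin] with s hs
    rw [Complex.ofReal_mul, zetaR_eq_dedekindZeta K hs]
    push_cast
    rfl
  have h3 := (Complex.continuous_re.tendsto _).comp h2
  rw [Complex.ofReal_re] at h3
  refine h3.congr fun s => ?_
  simp only [Function.comp_apply, Complex.ofReal_re]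

theorem one_le_zetaR {s : ℝ} (hs : 1 < s) : 1 ≤ zetaR K s := by
  have hsum := summable_absNorm_rpow K hs
  have := hsum.le_tsum (⊤ : Ideal (𝓞 K)) (fun _ _ => by positivity)
  simpa [zetaR] using this

theorem zetaR_pos {s : ℝ} (hs : 1 < s) : 0 < zetaR K s :=
  lt_of_lt_of_le one_pos (one_le_zetaR K hs)

/-- Upper bound near `1`. -/
theorem eventually_zetaR_le :
    ∃ C : ℝ, 0 < C ∧ ∀ᶠ s in 𝓝[>] (1 : ℝ), zetaR K s ≤ C / (s - 1) := by
  refine ⟨dedekindZeta_residue K + 1, by linarith [dedekindZeta_residue_pos K], ?_⟩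
  have h := (tendsto_order.1 (tendsto_sub_one_mul_zetaR K)).2 (dedekindZeta_residue K + 1)
    (by linarith)
  filter_upwards [h, self_mem_nhdsWithin] with s hs hs1
  have hs1' : (0 : ℝ) < s - 1 := by
    have : (1 : ℝ) < s := hs1
    linarith
  rw [le_div_iff₀ hs1']
  linarith

/-- Lower bound near `1`. -/
theorem eventually_le_zetaR :
    ∃ c : ℝ, 0 < c ∧ ∀ᶠ s in 𝓝[>] (1 : ℝ), c / (s - 1) ≤ zetaR K s := by
  refine ⟨dedekindZeta_residue K / 2, by linarith [dedekindZeta_residue_pos K], ?_⟩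
  have h := (tendsto_order.1 (tendsto_sub_one_mul_zetaR K)).1 (dedekindZeta_residue K / 2)
    (by linarith [dedekindZeta_residue_pos K])
  filter_upwards [h, self_mem_nhdsWithin] with s hs hs1
  have hs1' : (0 : ℝ) < s - 1 := by
    have : (1 : ℝ) < s := hs1
    linarith
  rw [div_le_iff₀ hs1']
  linarith

end Fermat.Agent.Lib.EulerProd

end
-- ===== PACK-END Lib/EulerProd/IdealSum.lean

-- ===== PACK-BEGIN S52/H311/Gauss.lean
section


/-!
# Gauss lemma for products of two linear forms, and uniqueness of primitive representatives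
(S52, A2a core, continued)
-/

set_option autoImplicit false

namespace Fermat.Agent.S52.H311

open Polynomial

variable {F : Type*} [Field F]

/-- the coefficient triple of `(a₁ T + b₁)(a₂ T + b₂)` -/
noncomputable def prodTriple (a₁ b₁ a₂ b₂ : F[X]) : Fin 3 → F[X] :=
  ![a₁ * a₂, a₁ * b₂ + b₁ * a₂, b₁ * b₂]

/-- degree of a pair -/
noncomputable def pairDeg (a b : F[X]) : ℕ := max a.natDegree b.natDegree

theorem isPrim_prodTriple {a₁ b₁ a₂ b₂ : F[X]} (h₁ : IsCoprime a₁ b₁) (h₂ : IsCoprime a₂ b₂) :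
    IsPrim (prodTriple a₁ b₁ a₂ b₂) := by
  unfold IsPrim
  set I := Ideal.span (Set.range (prodTriple a₁ b₁ a₂ b₂)) with hI
  have m0 : a₁ * a₂ ∈ I := Ideal.subset_span ⟨0, rfl⟩
  have m1 : a₁ * b₂ + b₁ * a₂ ∈ I := Ideal.subset_span ⟨1, rfl⟩
  have m2 : b₁ * b₂ ∈ I := Ideal.subset_span ⟨2, rfl⟩
  have r0 : a₁ * a₂ ∈ I.radical := Ideal.le_radical m0
  have r2 : b₁ * b₂ ∈ I.radical := Ideal.le_radical m2
  have r1 : a₁ * b₂ ∈ I.radical := by
    refine ⟨2, ?_⟩
    have : (a₁ * b₂) ^ 2 = (a₁ * b₂) * (a₁ * b₂ + b₁ * a₂) - (a₁ * a₂) * (b₁ * b₂) := by ring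
    rw [this]
    exact I.sub_mem (I.mul_mem_left _ m1) (I.mul_mem_right _ m0)
  have r1' : b₁ * a₂ ∈ I.radical := by
    refine ⟨2, ?_⟩
    have : (b₁ * a₂) ^ 2 = (b₁ * a₂) * (a₁ * b₂ + b₁ * a₂) - (a₁ * a₂) * (b₁ * b₂) := by ring
    rw [this]
    exact I.sub_mem (I.mul_mem_left _ m1) (I.mul_mem_right _ m0)
  obtain ⟨u₂, v₂, e₂⟩ := h₂
  obtain ⟨u₁, v₁, e₁⟩ := h₁
  have ra : a₁ ∈ I.radical := by
    have : a₁ = u₂ * (a₁ * a₂) + v₂ * (a₁ * b₂) := by linear_combination -a₁ * e₂
    rw [this]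
    exact I.radical.add_mem (I.radical.mul_mem_left _ r0) (I.radical.mul_mem_left _ r1)
  have rb : b₁ ∈ I.radical := by
    have : b₁ = u₂ * (b₁ * a₂) + v₂ * (b₁ * b₂) := by linear_combination -b₁ * e₂
    rw [this]
    exact I.radical.add_mem (I.radical.mul_mem_left _ r1') (I.radical.mul_mem_left _ r2)
  have r1 : (1 : F[X]) ∈ I.radical := by
    rw [← e₁]
    exact I.radical.add_mem (I.radical.mul_mem_left _ ra) (I.radical.mul_mem_left _ rb)
  rw [← Ideal.radical_eq_top]
  exact (Ideal.eq_top_iff_one _).mpr r1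

lemma coeff_pairDeg_ne_zero {a b : F[X]} (h : IsCoprime a b) :
    a.coeff (pairDeg a b) ≠ 0 ∨ b.coeff (pairDeg a b) ≠ 0 := by
  by_contra hcon
  push Not at hcon
  obtain ⟨ha, hb⟩ := hcon
  have hne : ¬ (a = 0 ∧ b = 0) := by
    rintro ⟨rfl, rfl⟩
    exact not_isCoprime_zero_zero h
  unfold pairDeg at ha hb
  rcases max_cases a.natDegree b.natDegree with ⟨hm, hle⟩ | ⟨hm, hlt⟩
  · rw [hm] at ha hb
    have a0 : a = 0 := leadingCoeff_eq_zero.mp ha
    rw [a0, natDegree_zero] at hle
    have b0 : b = 0 := by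
      rw [eq_C_of_natDegree_le_zero hle]
      rw [a0, natDegree_zero] at hb
      simp [hb]
    exact hne ⟨a0, b0⟩
  · rw [hm] at ha hb
    have b0 : b = 0 := leadingCoeff_eq_zero.mp hb
    rw [b0, natDegree_zero] at hlt
    exact absurd hlt (Nat.not_lt_zero _)

theorem maxDeg_prodTriple {a₁ b₁ a₂ b₂ : F[X]} (h₁ : IsCoprime a₁ b₁) (h₂ : IsCoprime a₂ b₂) :
    maxDeg (prodTriple a₁ b₁ a₂ b₂) = pairDeg a₁ b₁ + pairDeg a₂ b₂ := by
  set d₁ := pairDeg a₁ b₁ with hd₁
  set d₂ := pairDeg a₂ b₂ with hd₂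
  have ha₁ : a₁.natDegree ≤ d₁ := le_max_left _ _
  have hb₁ : b₁.natDegree ≤ d₁ := le_max_right _ _
  have ha₂ : a₂.natDegree ≤ d₂ := le_max_left _ _
  have hb₂ : b₂.natDegree ≤ d₂ := le_max_right _ _
  refine le_antisymm (maxDeg_le fun i => ?_) ?_
  · fin_cases i
    · exact natDegree_mul_le.trans (Nat.add_le_add ha₁ ha₂)
    · refine (natDegree_add_le _ _).trans (max_le ?_ ?_)
      · exact natDegree_mul_le.trans (Nat.add_le_add ha₁ hb₂)
      · exact natDegree_mul_le.trans (Nat.add_le_add hb₁ ha₂)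
    · exact natDegree_mul_le.trans (Nat.add_le_add hb₁ hb₂)
  · have c0 : (a₁ * a₂).coeff (d₁ + d₂) = a₁.coeff d₁ * a₂.coeff d₂ :=
      coeff_mul_add_eq_of_natDegree_le ha₁ ha₂
    have c2 : (b₁ * b₂).coeff (d₁ + d₂) = b₁.coeff d₁ * b₂.coeff d₂ :=
      coeff_mul_add_eq_of_natDegree_le hb₁ hb₂
    have c1 : (a₁ * b₂ + b₁ * a₂).coeff (d₁ + d₂) =
        a₁.coeff d₁ * b₂.coeff d₂ + b₁.coeff d₁ * a₂.coeff d₂ := by
      rw [coeff_add, coeff_mul_add_eq_of_natDegree_le ha₁ hb₂, coeff_mul_add_eq_of_natDegree_le hb₁ ha₂]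
    have key : ∃ i, (prodTriple a₁ b₁ a₂ b₂ i).coeff (d₁ + d₂) ≠ 0 := by
      by_contra hcon
      push Not at hcon
      have e0 := hcon 0
      have e1 := hcon 1
      have e2 := hcon 2
      simp only [prodTriple, Matrix.cons_val_zero, Matrix.cons_val_one, Matrix.cons_val] at e0 e1 e2
      rw [c0] at e0
      rw [c1] at e1
      rw [c2] at e2
      rcases coeff_pairDeg_ne_zero h₁ with hα₁ | hβ₁
      · have hα₂ : a₂.coeff d₂ = 0 := by
          rcases mul_eq_zero.mp e0 with h | h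
          · exact absurd h hα₁
          · exact h
        have hβ₂ : b₂.coeff d₂ ≠ 0 := by
          rcases coeff_pairDeg_ne_zero h₂ with h | h
          · exact absurd hα₂ h
          · exact h
        rw [hα₂, mul_zero, add_zero] at e1
        rcases mul_eq_zero.mp e1 with h | h
        · exact hα₁ h
        · exact hβ₂ h
      · have hβ₂ : b₂.coeff d₂ = 0 := by
          rcases mul_eq_zero.mp e2 with h | h
          · exact absurd h hβ₁
          · exact h
        have hα₂ : a₂.coeff d₂ ≠ 0 := by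
          rcases coeff_pairDeg_ne_zero h₂ with h | h
          · exact h
          · exact absurd hβ₂ h
        rw [hβ₂, mul_zero, zero_add] at e1
        rcases mul_eq_zero.mp e1 with h | h
        · exact hβ₁ h
        · exact hα₂ h
    obtain ⟨i, hi⟩ := key
    exact (le_natDegree_of_ne_zero hi).trans (natDegree_le_maxDeg _ i)

/-- two primitive triples which are projectively equal have the same `maxDeg` -/
theorem maxDeg_eq_of_proportional {p p' : Fin 3 → F[X]} (hp : IsPrim p) (hp' : IsPrim p')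
    (h : ∀ i j, p i * p' j = p j * p' i) : maxDeg p = maxDeg p' := by
  have one_mem : (1 : F[X]) ∈ Ideal.span (Set.range p) := by rw [hp]; trivial
  have one_mem' : (1 : F[X]) ∈ Ideal.span (Set.range p') := by rw [hp']; trivial
  obtain ⟨r, hr⟩ := (Ideal.mem_span_range_iff_exists_fun).mp one_mem
  obtain ⟨r', hr'⟩ := (Ideal.mem_span_range_iff_exists_fun).mp one_mem'
  -- `p j = u * p' j`, `p' j = u' * p j`
  set u := ∑ i, r' i * p i with hu
  set u' := ∑ i, r i * p' i with hu'
  have e1 : ∀ j, p j = u * p' j := fun j => by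
    calc p j = p j * ∑ i, r' i * p' i := by rw [hr', mul_one]
      _ = ∑ i, r' i * (p j * p' i) := by
          rw [Finset.mul_sum]; exact Finset.sum_congr rfl fun i _ => by ring
      _ = ∑ i, r' i * (p i * p' j) := Finset.sum_congr rfl fun i _ => by rw [h i j]
      _ = u * p' j := by
          rw [hu, Finset.sum_mul]; exact Finset.sum_congr rfl fun i _ => by ring
  have e2 : ∀ j, p' j = u' * p j := fun j => by
    calc p' j = p' j * ∑ i, r i * p i := by rw [hr, mul_one]
      _ = ∑ i, r i * (p i * p' j) := by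
          rw [Finset.mul_sum]; exact Finset.sum_congr rfl fun i _ => by ring
      _ = ∑ i, r i * (p j * p' i) := Finset.sum_congr rfl fun i _ => by rw [h i j]
      _ = u' * p j := by
          rw [hu', Finset.sum_mul]; exact Finset.sum_congr rfl fun i _ => by ring
  refine le_antisymm (maxDeg_le fun j => ?_) (maxDeg_le fun j => ?_)
  · by_cases hj : p j = 0
    · simp [hj]
    · have hne : p' j ≠ 0 := fun h0 => hj (by rw [e1 j, h0, mul_zero])
      have hdeg : (p' j).natDegree = (u' * p j).natDegree := by rw [← e2 j]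
      have hu0 : u' ≠ 0 := fun h0 => hne (by rw [e2 j, h0, zero_mul])
      rw [natDegree_mul hu0 hj] at hdeg
      exact (by omega : (p j).natDegree ≤ (p' j).natDegree).trans (natDegree_le_maxDeg _ j)
  · by_cases hj : p' j = 0
    · simp [hj]
    · have hne : p j ≠ 0 := fun h0 => hj (by rw [e2 j, h0, mul_zero])
      have hdeg : (p j).natDegree = (u * p' j).natDegree := by rw [← e1 j]
      have hu0 : u ≠ 0 := fun h0 => hne (by rw [e1 j, h0, zero_mul])
      rw [natDegree_mul hu0 hj] at hdeg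
      exact (by omega : (p' j).natDegree ≤ (p j).natDegree).trans (natDegree_le_maxDeg _ j)

end Fermat.Agent.S52.H311

end
-- ===== PACK-END S52/H311/Gauss.lean

-- ===== PACK-BEGIN S58/H292/CoeffHensel.lean
section


/-!
# S58 leaf COEFF-Hensel (helper292): coefficient rings embed in `ℤ_[lam]` for some `lam`

For the auxiliary prime of the S58 chain (architect helper94, note #8416): a subring of `ℂ`
which is finite over `ℤ` (e.g. `ℤ[α]` for an algebraic integer `α`, or the range of a character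
of a Hecke algebra) admits, for every finite set `B` of primes, a prime `lam ∉ B` and an
INJECTIVE ring homomorphism to `ℤ_[lam]`.

Everything is a corollary of `Fermat.Agent.S48.H368.exists_padicInt_hom`
(Schur + Hensel + primitive element, helper368, on main, Mathlib-only).

* `exists_prime_ringHom_adjoin`  : `Algebra.adjoin ℤ {α} →+* ℤ_[lam]`, `α : ℂ` integral over `ℤ`;
* `exists_prime_ringHom_subring` : `R →+* ℤ_[lam]`, `R : Subring ℂ` finite over `ℤ`;
* `exists_prime_ringHom_range`   : `chi.range →+* ℤ_[lam]`, `chi : H →+* ℂ`, `H` finite over `ℤ`.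
-/

set_option autoImplicit false

namespace Fermat.Agent.S58.H292

/-- **COEFF-Hensel, as requested in note #8416.**  For an algebraic integer `α ∈ ℂ` and a finite
set `B` of primes there are a prime `lam ∉ B` and an (injective) ring homomorphism
`ℤ[α] →+* ℤ_[lam]`. -/
theorem exists_prime_ringHom_adjoin (α : ℂ) (hα : IsIntegral ℤ α) (B : Finset ℕ) :
    ∃ (lam : ℕ) (_ : Fact lam.Prime), lam ∉ B ∧
      ∃ ι : Algebra.adjoin ℤ ({α} : Set ℂ) →+* ℤ_[lam], Function.Injective ι := by
  have : Module.Finite ℤ (Algebra.adjoin ℤ ({α} : Set ℂ)) :=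
    Algebra.finite_adjoin_simple_of_isIntegral hα
  exact Fermat.Agent.S48.H368.exists_padicInt_hom (Algebra.adjoin ℤ ({α} : Set ℂ)) B

/-- The same for any subring of `ℂ` which is finite over `ℤ`. -/
theorem exists_prime_ringHom_subring (R : Subring ℂ) [Module.Finite ℤ R] (B : Finset ℕ) :
    ∃ (lam : ℕ) (_ : Fact lam.Prime), lam ∉ B ∧
      ∃ ι : R →+* ℤ_[lam], Function.Injective ι :=
  Fermat.Agent.S48.H368.exists_padicInt_hom R B

/-- The range of a complex character of a commutative ring which is finite over `ℤ` is finite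
over `ℤ`. -/
theorem moduleFinite_range {H : Type*} [CommRing H] [Module.Finite ℤ H] (chi : H →+* ℂ) :
    Module.Finite ℤ chi.range :=
  Module.Finite.of_surjective chi.rangeRestrict.toIntAlgHom.toLinearMap
    chi.rangeRestrict_surjective

/-- The same for the range of a complex character of a commutative ring which is finite over
`ℤ` (e.g. a Hecke algebra, by S22). -/
theorem exists_prime_ringHom_range {H : Type*} [CommRing H] [Module.Finite ℤ H] (chi : H →+* ℂ)
    (B : Finset ℕ) :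
    ∃ (lam : ℕ) (_ : Fact lam.Prime), lam ∉ B ∧
      ∃ ι : chi.range →+* ℤ_[lam], Function.Injective ι := by
  have := moduleFinite_range chi
  exact Fermat.Agent.S48.H368.exists_padicInt_hom chi.range B

end Fermat.Agent.S58.H292

end
-- ===== PACK-END S58/H292/CoeffHensel.lean

-- ===== PACK-BEGIN A2/Alg/H348/CompDvr.lean
section


/-!
# A2 / ALG / GLUE, `hconst` part, step 1: the local ring of a component is a discrete valuation ring

Mathlib-only (plus `H348.locAt`).  Abstract setting: `A ≤ B` subalgebras of a field `F` over `R`,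
`p` a prime of `B` ("a component of the special fibre"), `p'` an ideal of `B` ("the union of the
other components") with `p ⊓ p' = (w)` and `p' ⊄ p`.  If moreover

* `p ∩ A = w A`                      (`contract`),
* no nonzero element of `A` is divisible by all powers of `w`   (`finite_mult`),
* every nonzero `b ∈ B` divides a nonzero element of `A` in `B`  (`cofactor`),
* `F` is the fraction field of `B`, with denominators in `A`      (`frac`),

then `B_p = locAt B p` is a valuation subring of `F` (`CompData.valuationSubring`), its maximal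
ideal is generated by `w` (`CompData.mul_inv_mem`) and it is discrete (`CompData.exists_pow_mul`).
No noetherian hypothesis on `B` is needed.
-/

set_option autoImplicit false
set_option linter.unusedSectionVars false
set_option linter.style.haveILetI false

namespace Fermat.Agent.A2.Alg.H348

open Fermat.Agent.A2.H348

variable {R F : Type*} [CommRing R] [Field F] [Algebra R F]

/-- `p` is a component of the special fibre `w = 0` of `B`, `p'` the union of the other ones;
`A ≤ B` is a "base" (polynomial ring) over which `B` is integral. -/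
structure CompData (A B : Subalgebra R F) (p p' : Ideal B) (w : R) : Prop where
  inf_eq : p ⊓ p' = Ideal.span {algebraMap R B w}
  not_le : ¬ p' ≤ p
  w_ne : algebraMap R F w ≠ 0
  contract : ∀ a : B, (a : F) ∈ A → a ∈ p → ∃ a' ∈ A, (a : F) = algebraMap R F w * a'
  finite_mult : ∀ a ∈ A, a ≠ 0 → ∃ n : ℕ, ∀ a' ∈ A, a ≠ algebraMap R F w ^ (n + 1) * a'
  cofactor : ∀ b ∈ B, b ≠ 0 → ∃ g ∈ B, b * g ∈ A ∧ b * g ≠ 0
  frac : ∀ f : F, ∃ a ∈ A, a ≠ 0 ∧ a ∈ B ∧ a * f ∈ B

namespace CompData

variable {A B : Subalgebra R F} {p p' : Ideal B} [hp : p.IsPrime] {w : R}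

theorem w_mem (D : CompData A B p p' w) : algebraMap R B w ∈ p := by
  have h : algebraMap R B w ∈ p ⊓ p' := by
    rw [D.inf_eq]; exact Ideal.mem_span_singleton_self _
  exact h.1

theorem exists_notMem (D : CompData A B p p' w) : ∃ t : B, t ∈ p' ∧ t ∉ p :=
  SetLike.not_le_iff_exists.1 D.not_le

theorem w_inv_notMem (D : CompData A B p p' w) : (algebraMap R F w)⁻¹ ∉ locAt B p := by
  rintro ⟨s, hs, hsw⟩
  apply hs
  have h1 : s = algebraMap R B w * ⟨(s : F) * (algebraMap R F w)⁻¹, hsw⟩ := by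
    apply Subtype.ext
    have hw := D.w_ne
    show (s : F) = algebraMap R F w * ((s : F) * (algebraMap R F w)⁻¹)
    field_simp
  rw [h1]
  exact p.mul_mem_right _ D.w_mem

/-- the maximal ideal of `B_p` is generated by `w`. -/
theorem mul_inv_mem (D : CompData A B p p' w) {f : F} (hf : f ∈ locAt B p)
    (hf' : f⁻¹ ∉ locAt B p) : f * (algebraMap R F w)⁻¹ ∈ locAt B p := by
  obtain ⟨s, hs, hsf⟩ := hf
  by_cases hb : (⟨(s : F) * f, hsf⟩ : B) ∈ p
  · obtain ⟨t, ht', ht⟩ := D.exists_notMem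
    have hbt : (⟨(s : F) * f, hsf⟩ : B) * t ∈ p ⊓ p' :=
      ⟨p.mul_mem_right _ hb, p'.mul_mem_left _ ht'⟩
    rw [D.inf_eq, Ideal.mem_span_singleton'] at hbt
    obtain ⟨c, hc⟩ := hbt
    refine ⟨s * t, fun h => (hp.mem_or_mem h).elim hs ht, ?_⟩
    have hc' : (c : F) * algebraMap R F w = (s : F) * f * (t : F) := congrArg Subtype.val hc
    have hw := D.w_ne
    have : ((s * t : B) : F) * (f * (algebraMap R F w)⁻¹) = (c : F) := by
      have h3 : ((s * t : B) : F) * (f * (algebraMap R F w)⁻¹)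
          = ((s : F) * f * (t : F)) * (algebraMap R F w)⁻¹ := by
        push_cast; ring
      rw [h3, ← hc', mul_assoc, mul_inv_cancel₀ hw, mul_one]
    rw [this]
    exact c.2
  · exfalso
    apply hf'
    have hf0 : f ≠ 0 := by
      rintro rfl
      apply hb
      have : (⟨(s : F) * 0, hsf⟩ : B) = 0 := Subtype.ext (mul_zero _)
      rw [this]
      exact p.zero_mem
    refine ⟨⟨(s : F) * f, hsf⟩, hb, ?_⟩
    show (s : F) * f * f⁻¹ ∈ B
    rw [mul_assoc, mul_inv_cancel₀ hf0, mul_one]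
    exact s.2

/-- `B ∩ w B_p = p`. -/
theorem mem_of_eq_w_mul (D : CompData A B p p' w) {b : B} {v : F} (hv : v ∈ locAt B p)
    (h : (b : F) = algebraMap R F w * v) : b ∈ p := by
  obtain ⟨s, hs, hsv⟩ := hv
  have h1 : s * b = algebraMap R B w * ⟨(s : F) * v, hsv⟩ := by
    apply Subtype.ext
    show (s : F) * (b : F) = algebraMap R F w * ((s : F) * v)
    rw [h]; ring
  have h2 : s * b ∈ p := by
    rw [h1]; exact p.mul_mem_right _ D.w_mem
  exact (hp.mem_or_mem h2).resolve_left hs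

/-- `A ∩ w ^ k B_p = w ^ k A`. -/
theorem dvd_of_eq_pow_mul (D : CompData A B p p' w) (hAB : A ≤ B) :
    ∀ (k : ℕ) (a : F), a ∈ A → (∃ v ∈ locAt B p, a = algebraMap R F w ^ k * v) →
      ∃ a' ∈ A, a = algebraMap R F w ^ k * a' := by
  intro k
  induction k with
  | zero =>
    intro a ha _
    exact ⟨a, ha, by simp⟩
  | succ k ih =>
    rintro a ha ⟨v, hv, hav⟩
    have hwv : algebraMap R F w ^ k * v ∈ locAt B p :=
      (locAt B p).mul_mem ((locAt B p).pow_mem ((locAt B p).algebraMap_mem w) k) hv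
    have hmem : (⟨a, hAB ha⟩ : B) ∈ p := D.mem_of_eq_w_mul hwv (by
      show a = algebraMap R F w * (algebraMap R F w ^ k * v)
      rw [hav, pow_succ]; ring)
    obtain ⟨a₁, ha₁, h1⟩ := D.contract ⟨a, hAB ha⟩ ha hmem
    have h1' : a = algebraMap R F w * a₁ := h1
    have h2 : a₁ = algebraMap R F w ^ k * v := by
      have hw := D.w_ne
      have : algebraMap R F w * a₁ = algebraMap R F w * (algebraMap R F w ^ k * v) := by
        rw [← h1', hav, pow_succ]; ring
      exact mul_left_cancel₀ hw this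
    obtain ⟨a', ha', h3⟩ := ih a₁ ha₁ ⟨v, hv, h2⟩
    exact ⟨a', ha', by rw [h1', h3, pow_succ]; ring⟩

/-- a nonzero element of `B` is not divisible by all powers of `w` in `B_p`. -/
theorem exists_bound (D : CompData A B p p' w) (hAB : A ≤ B) {b : F} (hb : b ∈ B)
    (hb0 : b ≠ 0) :
    ∃ n : ℕ, ¬ ∃ v ∈ locAt B p, b = algebraMap R F w ^ (n + 1) * v := by
  obtain ⟨g, hg, hbgA, hbg0⟩ := D.cofactor b hb hb0
  obtain ⟨n, hn⟩ := D.finite_mult _ hbgA hbg0
  refine ⟨n, ?_⟩
  rintro ⟨v, hv, hbv⟩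
  obtain ⟨a', ha', h⟩ := D.dvd_of_eq_pow_mul hAB (n + 1) (b * g) hbgA
    ⟨v * g, (locAt B p).mul_mem hv (le_locAt p hg), by rw [hbv]; ring⟩
  exact hn a' ha' h

theorem exists_pow_mul_aux (D : CompData A B p p' w) :
    ∀ (n : ℕ) (v : F), v ∈ locAt B p →
      (¬ ∃ v' ∈ locAt B p, v = algebraMap R F w ^ (n + 1) * v') →
      ∃ (k : ℕ) (ε : F), ε ∈ locAt B p ∧ ε⁻¹ ∈ locAt B p ∧ v = algebraMap R F w ^ k * ε := by
  have hw := D.w_ne
  intro n
  induction n with
  | zero =>
    intro v hv hn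
    by_cases hv' : v⁻¹ ∈ locAt B p
    · exact ⟨0, v, hv, hv', by simp⟩
    · exfalso
      apply hn
      refine ⟨v * (algebraMap R F w)⁻¹, D.mul_inv_mem hv hv', ?_⟩
      rw [zero_add, pow_one]
      field_simp
  | succ n ih =>
    intro v hv hn
    by_cases hv' : v⁻¹ ∈ locAt B p
    · exact ⟨0, v, hv, hv', by simp⟩
    · have h1 := D.mul_inv_mem hv hv'
      obtain ⟨k, ε, hε, hε', h⟩ := ih (v * (algebraMap R F w)⁻¹) h1 (by
        rintro ⟨v', hv'', h2⟩
        apply hn
        refine ⟨v', hv'', ?_⟩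
        have : v = algebraMap R F w * (v * (algebraMap R F w)⁻¹) := by field_simp
        rw [this, h2, pow_succ (algebraMap R F w) (n + 1)]
        ring)
      refine ⟨k + 1, ε, hε, hε', ?_⟩
      have : v = algebraMap R F w * (v * (algebraMap R F w)⁻¹) := by field_simp
      rw [this, h, pow_succ]
      ring

/-- every nonzero element of `B` is a power of `w` times a unit of `B_p`. -/
theorem exists_pow_mul (D : CompData A B p p' w) (hAB : A ≤ B) {b : F} (hb : b ∈ B)
    (hb0 : b ≠ 0) :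
    ∃ (k : ℕ) (ε : F), ε ∈ locAt B p ∧ ε⁻¹ ∈ locAt B p ∧ b = algebraMap R F w ^ k * ε := by
  obtain ⟨n, hn⟩ := D.exists_bound hAB hb hb0
  exact D.exists_pow_mul_aux n b (le_locAt p hb) hn

/-- every nonzero element of `F` is a power of `w` times a unit of `B_p`. -/
theorem exists_zpow_mul (D : CompData A B p p' w) (hAB : A ≤ B) {f : F} (hf : f ≠ 0) :
    ∃ (k l : ℕ) (ε : F), ε ∈ locAt B p ∧ ε⁻¹ ∈ locAt B p ∧
      f * algebraMap R F w ^ k = algebraMap R F w ^ l * ε := by
  have hw := D.w_ne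
  obtain ⟨a, haA, ha0, haB, haf⟩ := D.frac f
  obtain ⟨k, ε, hε, hε', hk⟩ := D.exists_pow_mul hAB haB ha0
  obtain ⟨l, η, hη, hη', hl⟩ := D.exists_pow_mul hAB haf (mul_ne_zero ha0 hf)
  have hε0 : ε ≠ 0 := by
    rintro rfl
    apply ha0
    rw [hk, mul_zero]
  refine ⟨k, l, η * ε⁻¹, (locAt B p).mul_mem hη hε', ?_, ?_⟩
  · rw [mul_inv, inv_inv]
    exact (locAt B p).mul_mem hη' hε
  · have h1 : f * (algebraMap R F w ^ k * ε) = algebraMap R F w ^ l * η := by
      rw [← hk, mul_comm f a, hl]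
    have h2 : f * algebraMap R F w ^ k = f * (algebraMap R F w ^ k * ε) * ε⁻¹ := by
      field_simp
    rw [h2, h1]
    ring

/-- discreteness. -/
theorem exists_mul_pow_mem (D : CompData A B p p' w) (hAB : A ≤ B) (f : F) :
    ∃ k : ℕ, f * algebraMap R F w ^ k ∈ locAt B p := by
  rcases eq_or_ne f 0 with rfl | hf
  · exact ⟨0, by rw [zero_mul]; exact (locAt B p).zero_mem⟩
  obtain ⟨k, l, ε, hε, -, h⟩ := D.exists_zpow_mul hAB hf
  exact ⟨k, by
    rw [h]
    exact (locAt B p).mul_mem ((locAt B p).pow_mem ((locAt B p).algebraMap_mem w) l) hε⟩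

theorem mem_or_inv_mem (D : CompData A B p p' w) (hAB : A ≤ B) (f : F) :
    f ∈ locAt B p ∨ f⁻¹ ∈ locAt B p := by
  have hw := D.w_ne
  rcases eq_or_ne f 0 with rfl | hf
  · exact Or.inl (locAt B p).zero_mem
  obtain ⟨k, l, ε, hε, hε', h⟩ := D.exists_zpow_mul hAB hf
  have hwmem : ∀ j : ℕ, algebraMap R F w ^ j ∈ locAt B p := fun j =>
    (locAt B p).pow_mem ((locAt B p).algebraMap_mem w) j
  have hε0 : ε ≠ 0 := by
    rintro rfl
    rw [mul_zero] at h
    exact (mul_ne_zero hf (pow_ne_zero _ hw)) h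
  rcases le_total k l with hkl | hkl
  · left
    obtain ⟨d, rfl⟩ := Nat.exists_eq_add_of_le hkl
    have : f = algebraMap R F w ^ d * ε := by
      have h2 : f * algebraMap R F w ^ k = (algebraMap R F w ^ d * ε) * algebraMap R F w ^ k := by
        rw [h, pow_add]; ring
      exact mul_right_cancel₀ (pow_ne_zero _ hw) h2
    rw [this]
    exact (locAt B p).mul_mem (hwmem d) hε
  · right
    obtain ⟨d, rfl⟩ := Nat.exists_eq_add_of_le hkl
    have : f⁻¹ = algebraMap R F w ^ d * ε⁻¹ := by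
      have h2 : f * algebraMap R F w ^ d * algebraMap R F w ^ l = ε * algebraMap R F w ^ l := by
        rw [mul_assoc, ← pow_add, add_comm, h]; ring
      have h3 : f * algebraMap R F w ^ d = ε := mul_right_cancel₀ (pow_ne_zero _ hw) h2
      rw [← h3]
      field_simp
    rw [this]
    exact (locAt B p).mul_mem (hwmem d) hε'

/-- `B_p` as a valuation subring of `F`. -/
def valuationSubring (D : CompData A B p p' w) (hAB : A ≤ B) : ValuationSubring F :=
  { (locAt B p).toSubring with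
    mem_or_inv_mem' := D.mem_or_inv_mem hAB }

theorem mem_valuationSubring (D : CompData A B p p' w) (hAB : A ≤ B) {f : F} :
    f ∈ D.valuationSubring hAB ↔ f ∈ locAt B p := Iff.rfl

end CompData

end Fermat.Agent.A2.Alg.H348

end
-- ===== PACK-END A2/Alg/H348/CompDvr.lean

-- ===== PACK-BEGIN S35/G/H60/FundIneq.lean
section


/-!
# The fundamental inequality for two extensions of a valuation ring (helper60)

Mathlib + `S35.H253` (adapted families).  `F / K` finite, `O ⊆ K` a valuation ring, `V₁`, `V₂`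
incomparable valuation rings of `F` over `O`, with surjective reductions onto fields.  Then the
residue extensions are finite and `[κ₁ : k] + [κ₂ : k] ≤ [F : K]`.
-/

set_option autoImplicit false

namespace Fermat.Agent.S35.G.H60

open Fermat.Agent.S35.H253

section FundIneq

variable {K F : Type*} [Field K] [Field F] [Algebra K F]

/-- Residually independent families at `V₁` and at `V₂` have at most `[F : K]` members
altogether. -/
theorem card_add_card_le_finrank {O : ValuationSubring K} {V₁ V₂ : ValuationSubring F}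
    (h₁ : Over O V₁) (h₂ : Over O V₂) (hne₁ : ¬ V₁ ≤ V₂) (hne₂ : ¬ V₂ ≤ V₁)
    [FiniteDimensional K F]
    {k κ₁ κ₂ : Type*} [Field k] [Field κ₁] [Field κ₂] [Algebra k κ₁] [Algebra k κ₂]
    (π : O →+* k) (ρ₁ : V₁ →+* κ₁) (ρ₂ : V₂ →+* κ₂)
    (hπ : Function.Surjective π) (hρ₁ : Function.Surjective ρ₁) (hρ₂ : Function.Surjective ρ₂)
    (hc₁ : ∀ a : O, ρ₁ ⟨algebraMap K F a, (h₁ a).2 a.2⟩ = algebraMap k κ₁ (π a))
    (hc₂ : ∀ a : O, ρ₂ ⟨algebraMap K F a, (h₂ a).2 a.2⟩ = algebraMap k κ₂ (π a))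
    {ι₁ ι₂ : Type*} [Fintype ι₁] [Fintype ι₂] (b₁ : ι₁ → κ₁) (b₂ : ι₂ → κ₂)
    (hb₁ : LinearIndependent k b₁) (hb₂ : LinearIndependent k b₂) :
    Fintype.card ι₁ + Fintype.card ι₂ ≤ Module.finrank K F := by
  classical
  choose e₁ he₁ using fun i => hρ₁ (b₁ i)
  choose e₂ he₂ using fun j => hρ₂ (b₂ j)
  choose g₁ hg₁m hg₁d hg₁s using fun i => exists_approx hne₁ hne₂ (e₁ i).2
  choose g₂ hg₂m hg₂d hg₂s using fun j => exists_approx hne₂ hne₁ (e₂ j).2
  have hρg₁ : ∀ i, ρ₁ ⟨g₁ i, hg₁m i⟩ = b₁ i := fun i => by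
    rw [← he₁ i, ← sub_eq_zero, ← map_sub, map_eq_zero_iff_val_lt_one ρ₁ hρ₁]
    exact hg₁d i
  have hρg₂ : ∀ j, ρ₂ ⟨g₂ j, hg₂m j⟩ = b₂ j := fun j => by
    rw [← he₂ j, ← sub_eq_zero, ← map_sub, map_eq_zero_iff_val_lt_one ρ₂ hρ₂]
    exact hg₂d j
  have hπ0 : ∀ a : O, π a = 0 ↔ O.valuation (a : K) < 1 :=
    fun a => map_eq_zero_iff_val_lt_one π hπ a
  have hgood : GoodFamily O V₁ V₂ (Sum.elim g₁ g₂) :=
    { over₁ := h₁
      over₂ := h₂
      mem₁ := fun i => hg₁m i
      small₂ := fun i => hg₁s i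
      mem₂ := fun j => hg₂m j
      small₁ := fun j => hg₂s j
      indep₁ := by
        intro a ha hsmall i
        simp only [Sum.elim_inl] at hsmall
        have hmem : (∑ i, algebraMap K F (a i) * g₁ i) ∈ V₁ :=
          (V₁.valuation_le_one_iff _).1 hsmall.le
        have h0 : ρ₁ ⟨_, hmem⟩ = 0 := (map_eq_zero_iff_val_lt_one ρ₁ hρ₁ ⟨_, hmem⟩).2 hsmall
        have e : (⟨_, hmem⟩ : V₁) =
            ∑ i, (⟨algebraMap K F (a i), (h₁ (a i)).2 (ha i)⟩ : V₁) * ⟨g₁ i, hg₁m i⟩ := by
          apply Subtype.ext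
          rw [AddSubmonoidClass.coe_finsetSum]
          simp only [MulMemClass.coe_mul]
        rw [e, map_sum] at h0
        have h0' : ∑ i, π ⟨a i, ha i⟩ • b₁ i = 0 := by
          rw [← h0]
          refine Finset.sum_congr rfl fun i _ => ?_
          rw [map_mul, hρg₁, Algebra.smul_def, ← hc₁]
        have := Fintype.linearIndependent_iff.1 hb₁ _ h0' i
        exact (hπ0 ⟨a i, ha i⟩).1 this
      indep₂ := by
        intro a ha hsmall j
        simp only [Sum.elim_inr] at hsmall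
        have hmem : (∑ j, algebraMap K F (a j) * g₂ j) ∈ V₂ :=
          (V₂.valuation_le_one_iff _).1 hsmall.le
        have h0 : ρ₂ ⟨_, hmem⟩ = 0 := (map_eq_zero_iff_val_lt_one ρ₂ hρ₂ ⟨_, hmem⟩).2 hsmall
        have e : (⟨_, hmem⟩ : V₂) =
            ∑ j, (⟨algebraMap K F (a j), (h₂ (a j)).2 (ha j)⟩ : V₂) * ⟨g₂ j, hg₂m j⟩ := by
          apply Subtype.ext
          rw [AddSubmonoidClass.coe_finsetSum]
          simp only [MulMemClass.coe_mul]
        rw [e, map_sum] at h0
        have h0' : ∑ j, π ⟨a j, ha j⟩ • b₂ j = 0 := by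
          rw [← h0]
          refine Finset.sum_congr rfl fun j _ => ?_
          rw [map_mul, hρg₂, Algebra.smul_def, ← hc₂]
        have := Fintype.linearIndependent_iff.1 hb₂ _ h0' j
        exact (hπ0 ⟨a j, ha j⟩).1 this }
  have hli := hgood.linearIndependent
  have := hli.fintype_card_le_finrank
  simpa [Fintype.card_sum] using this

/-- **Fundamental inequality**, two extensions: the residue extensions are finite and
`[κ₁ : k] + [κ₂ : k] ≤ [F : K]`. -/
theorem finite_and_finrank_add_le {O : ValuationSubring K} {V₁ V₂ : ValuationSubring F}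
    (h₁ : Over O V₁) (h₂ : Over O V₂) (hne₁ : ¬ V₁ ≤ V₂) (hne₂ : ¬ V₂ ≤ V₁)
    [FiniteDimensional K F]
    {k κ₁ κ₂ : Type*} [Field k] [Field κ₁] [Field κ₂] [Algebra k κ₁] [Algebra k κ₂]
    (π : O →+* k) (ρ₁ : V₁ →+* κ₁) (ρ₂ : V₂ →+* κ₂)
    (hπ : Function.Surjective π) (hρ₁ : Function.Surjective ρ₁) (hρ₂ : Function.Surjective ρ₂)
    (hc₁ : ∀ a : O, ρ₁ ⟨algebraMap K F a, (h₁ a).2 a.2⟩ = algebraMap k κ₁ (π a))
    (hc₂ : ∀ a : O, ρ₂ ⟨algebraMap K F a, (h₂ a).2 a.2⟩ = algebraMap k κ₂ (π a)) :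
    Module.Finite k κ₁ ∧ Module.Finite k κ₂ ∧
      Module.finrank k κ₁ + Module.finrank k κ₂ ≤ Module.finrank K F := by
  classical
  have hfin₁ : Module.Finite k κ₁ := by
    rw [← Module.rank_lt_aleph0_iff]
    refine lt_of_le_of_lt (rank_le (n := Module.finrank K F) fun s hs => ?_)
      Cardinal.natCast_lt_aleph0
    have := card_add_card_le_finrank h₁ h₂ hne₁ hne₂ π ρ₁ ρ₂ hπ hρ₁ hρ₂ hc₁ hc₂
      (ι₁ := s) (ι₂ := Empty) (fun i => (i : κ₁)) (fun j => j.elim) hs
      (linearIndependent_empty_type)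
    simpa using this
  have hfin₂ : Module.Finite k κ₂ := by
    rw [← Module.rank_lt_aleph0_iff]
    refine lt_of_le_of_lt (rank_le (n := Module.finrank K F) fun s hs => ?_)
      Cardinal.natCast_lt_aleph0
    have := card_add_card_le_finrank h₁ h₂ hne₁ hne₂ π ρ₁ ρ₂ hπ hρ₁ hρ₂ hc₁ hc₂
      (ι₁ := Empty) (ι₂ := s) (fun i => i.elim) (fun j => (j : κ₂))
      (linearIndependent_empty_type) hs
    simpa using this
  refine ⟨hfin₁, hfin₂, ?_⟩
  have := card_add_card_le_finrank h₁ h₂ hne₁ hne₂ π ρ₁ ρ₂ hπ hρ₁ hρ₂ hc₁ hc₂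
    (Module.finBasis k κ₁) (Module.finBasis k κ₂) (Module.finBasis k κ₁).linearIndependent
    (Module.finBasis k κ₂).linearIndependent
  simpa using this

end FundIneq

end Fermat.Agent.S35.G.H60

end
-- ===== PACK-END S35/G/H60/FundIneq.lean

-- ===== PACK-BEGIN S28/Basis.lean
section
/-
S28: the interface `BasisData` between the CORE (any route) and the valuation layer [V]
(helper28).  It is K-free and does not ask the basis elements to lie in `F`.

`BasisData N ℓ` : there are `n` integral q-series `y i ∈ ℤ((q))` which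
  (B1) are integral over `ℤ_(ℓ)[j]`,
  (B2) span (a space containing) `F = modularFunctionFieldFull N` over `ℚ(j)`
       -- polynomial form, denominators cleared,
  (B3) have reductions mod `ℓ` independent over `𝔽_ℓ[j̄]` -- polynomial form.
Route (a) (prime level + tower, `CoreData`) produces it with monomials in the `j(q^d)`;
route (d) (single modular unit `u`, irreducibility criterion) with `y i = u ^ i`.
-/



set_option autoImplicit false
open ModularCurve
noncomputable section

namespace Fermat.Agent.S28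

/-- The CORE output consumed by the valuation layer [V]. -/
structure BasisData (N : ℕ) [NeZero N] (ℓ : ℕ) [Fact ℓ.Prime] : Prop where
  exists_basis : ∃ (n : ℕ) (y : Fin n → LaurentSeries ℤ),
    -- (B1) each `y i` is a root of a polynomial in `X` over `ℤ[j]` whose leading
    -- coefficient is a constant `c` prime to `ℓ`
    (∀ i, ∃ (c : ℕ) (P : Polynomial (Polynomial ℤ)), ¬ ℓ ∣ c ∧
        P.leadingCoeff = Polynomial.C (c : ℤ) ∧
        P.eval₂ (evalAt (jqModC ℤ)) (y i) = 0) ∧
    -- (B2) span over `ℚ(j)`, denominators cleared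
    (∀ x ∈ modularFunctionFieldFull N, ∃ (g : Polynomial ℤ) (f : Fin n → Polynomial ℤ),
        g ≠ 0 ∧ evalAt (jqModC ℚ) g * x =
          ∑ i, evalAt (jqModC ℚ) (f i) * coeffMap (Int.castRingHom ℚ) (y i)) ∧
    -- (B3) independence mod `ℓ` over `𝔽_ℓ[j̄]`
    (∀ f : Fin n → Polynomial (ZMod ℓ),
        ∑ i, Polynomial.aeval (jqModC (ZMod ℓ)) (f i) *
          coeffMap (Int.castRingHom (ZMod ℓ)) (y i) = 0 → ∀ i, f i = 0)

end Fermat.Agent.S28

end
end
-- ===== PACK-END S28/Basis.lean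

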