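import Mathlib
import Fermat.Prelude.Def_FLTPrelim_Modularity
import Fermat.Statements.S37
import Mathlib.RingTheory.Valuation.LocalSubring
import Mathlib.RingTheory.RootsOfUnity.AlgebraicallyClosed
import Mathlib.RingTheory.DiscreteValuationRing.Basic
import Mathlib.RingTheory.LocalRing.RingHom.Basic
import Fermat.Agent.Pack.S58.E1L1
import Fermat.Agent.Pack.S58.E0L0
import Fermat.Agent.Pack.S58.E1L2
import Fermat.Agent.Pack.S58.E1L3
import Fermat.Agent.Pack.S58.E0L3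
import Fermat.Agent.Pack.S58.E0L1
import Fermat.Agent.Pack.S36.E7L3
import Fermat.Agent.Pack.S36.E6L2
import Fermat.Agent.Pack.S36.E0L3
import Fermat.Agent.Pack.S58.E0L2
import Fermat.Agent.Pack.S58.E1L0

-- ===== PACK-BEGIN S13/H891/LadderValid.lean
section




/-!
# S13 / T1: projective validity of the `x`-ladder
-/

open WeierstrassCurve WeierstrassCurve.Affine
open Fermat.Agent.S51.Five (xc dD dN dD_eq dN_eq xc_add_self add_self_ne_zero_of_dD_ne_zero
  eq_or_eq_neg_of_xc_eq xc_neg xc_some)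

namespace Fermat.Agent.S13.H891

variable {K : Type*} [Field K]

lemma dblN_eq (b₄ b₆ b₈ n d : K) (hd : d ≠ 0) :
    dblN b₄ b₆ b₈ n d = d^4 * dN b₄ b₆ b₈ (n/d) := by
  simp only [dblN, dN]; field_simp

lemma dblD_eq (b₂ b₄ b₆ n d : K) (hd : d ≠ 0) :
    dblD b₂ b₄ b₆ n d = d^4 * dD b₂ b₄ b₆ (n/d) := by
  simp only [dblD, dD]; field_simp

/-- the symmetric function `S(u,v) = (u-v)^2 (x(Q+R) + x(Q-R))` -/
def sS (b₂ b₄ b₆ u v : K) : K := 2*u*v*(u+v) + b₂*u*v + b₄*(u+v) + b₆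

lemma addS_eq (b₂ b₄ b₆ n₁ d₁ n₂ d₂ : K) (h₁ : d₁ ≠ 0) (h₂ : d₂ ≠ 0) :
    addS b₂ b₄ b₆ n₁ d₁ n₂ d₂ = d₁^2 * d₂^2 * sS b₂ b₄ b₆ (n₁/d₁) (n₂/d₂) := by
  simp only [addS, sS]; field_simp

lemma addW_eq (n₁ d₁ n₂ d₂ : K) (h₁ : d₁ ≠ 0) (h₂ : d₂ ≠ 0) :
    addW n₁ d₁ n₂ d₂ = d₁ * d₂ * (n₁/d₁ - n₂/d₂) := by
  simp only [addW]; field_simp

lemma sS_self (b₂ b₄ b₆ u : K) : sS b₂ b₄ b₆ u u = dD b₂ b₄ b₆ u := by
  simp only [sS, dD]; ring

variable [DecidableEq K] {E : WeierstrassCurve.Affine K}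

/-- `N` and `D` have no common zero at the `x`-coordinate of a (nonsingular) point -/
lemma dN_ne_zero_of_dD_eq_zero {Q : E.Point} (hQ : Q ≠ 0)
    (hD : dD E.b₂ E.b₄ E.b₆ (xc Q) = 0) : dN E.b₄ E.b₆ E.b₈ (xc Q) ≠ 0 := by
  match Q with
  | .zero => exact absurd rfl hQ
  | .some x y h =>
    rw [xc_some] at hD ⊢
    intro hN
    have hy : y - E.negY x y = 0 := by
      have := dD_eq E h.1
      rw [hD] at this
      exact pow_eq_zero_iff (by norm_num) |>.mp this.symm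
    have hn := dN_eq E h.1
    rw [hN, hy] at hn
    have hn' : 3 * x ^ 2 + 2 * E.a₂ * x + E.a₄ - E.a₁ * y = 0 := by
      have : (3 * x ^ 2 + 2 * E.a₂ * x + E.a₄ - E.a₁ * y)^2 = 0 := by linear_combination -hn
      exact pow_eq_zero_iff (by norm_num) |>.mp this
    rcases (Affine.nonsingular_iff x y).mp h with ⟨-, h' | h'⟩
    · exact h' (by linear_combination -hn')
    · exact h' (by simp only [Affine.negY] at hy; linear_combination hy)

/-- the sum formula `x(Q+R) + x(Q-R) = S(x_Q, x_R)/(x_Q - x_R)^2` -/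
lemma xc_add_add_xc_sub {Q R : E.Point} (hQ : Q ≠ 0) (hR : R ≠ 0) (hx : xc Q ≠ xc R) :
    (xc (Q + R) + xc (Q - R)) * (xc Q - xc R)^2 = sS E.b₂ E.b₄ E.b₆ (xc Q) (xc R) := by
  match Q, R with
  | .zero, _ => exact absurd rfl hQ
  | _, .zero => exact absurd rfl hR
  | .some x₁ y₁ h₁, .some x₂ y₂ h₂ =>
    simp only [xc_some] at hx ⊢
    have hx' : x₁ - x₂ ≠ 0 := sub_ne_zero.mpr hx
    rw [sub_eq_add_neg, Point.neg_some, Point.add_of_X_ne hx, Point.add_of_X_ne hx]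
    simp only [xc_some]
    rw [Affine.slope_of_X_ne hx, Affine.slope_of_X_ne hx]
    have e₁ := (Affine.equation_iff x₁ y₁).mp h₁.1
    have e₂ := (Affine.equation_iff x₂ y₂).mp h₂.1
    simp only [Affine.addX, Affine.negY, sS, WeierstrassCurve.b₂, WeierstrassCurve.b₄,
      WeierstrassCurve.b₆]
    field_simp
    linear_combination (2 : K) * e₁ + (2 : K) * e₂

/-- `Rep Q n d`: `(n : d)` is a projective representative of `x(Q) ∈ ℙ¹` -/
def Rep (Q : E.Point) (n d : K) : Prop :=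
  (Q = 0 ∧ d = 0 ∧ n ≠ 0) ∨ (Q ≠ 0 ∧ d ≠ 0 ∧ xc Q * d = n)

lemma Rep.eq_zero_iff {Q : E.Point} {n d : K} (h : Rep Q n d) : Q = 0 ↔ d = 0 := by
  rcases h with ⟨h1, h2, -⟩ | ⟨h1, h2, -⟩
  · exact ⟨fun _ => h2, fun _ => h1⟩
  · exact ⟨fun h => absurd h h1, fun h => absurd h h2⟩

lemma Rep.xc_eq {Q : E.Point} {n d : K} (h : Rep Q n d) (hQ : Q ≠ 0) : xc Q = n / d := by
  rcases h with ⟨h1, -, -⟩ | ⟨-, h2, h3⟩
  · exact absurd h1 hQ
  · rw [eq_div_iff h2]; exact h3

lemma rep_dbl {Q : E.Point} {n d : K} (h : Rep Q n d) :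
    Rep (Q + Q) (dblN E.b₄ E.b₆ E.b₈ n d) (dblD E.b₂ E.b₄ E.b₆ n d) := by
  rcases h with ⟨h1, h2, h3⟩ | ⟨h1, h2, h3⟩
  · left
    refine ⟨by rw [h1, add_zero], by simp [dblD, h2], ?_⟩
    simp only [dblN, h2]
    ring_nf
    exact pow_ne_zero 4 h3
  · have hu : xc Q = n / d := by rw [eq_div_iff h2]; exact h3
    rw [dblN_eq _ _ _ _ _ h2, dblD_eq _ _ _ _ _ h2, ← hu]
    by_cases h2Q : Q + Q = 0
    · left
      have hD : dD E.b₂ E.b₄ E.b₆ (xc Q) = 0 := by
        by_contra hD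
        exact add_self_ne_zero_of_dD_ne_zero h1 hD h2Q
      refine ⟨h2Q, by rw [hD, mul_zero], ?_⟩
      exact mul_ne_zero (pow_ne_zero 4 h2) (dN_ne_zero_of_dD_eq_zero h1 hD)
    · right
      obtain ⟨hD, hX⟩ := xc_add_self h1 h2Q
      refine ⟨h2Q, mul_ne_zero (pow_ne_zero 4 h2) hD, ?_⟩
      rw [← hX]; ring

lemma rep_add {P Q R : E.Point} (hP : P ≠ 0) (hPQR : R = Q + P) {n₁ d₁ n₂ d₂ : K}
    (h₁ : Rep Q n₁ d₁) (h₂ : Rep R n₂ d₂) :
    Rep (Q + R) (addN E.b₂ E.b₄ E.b₆ (xc P) n₁ d₁ n₂ d₂) (addD n₁ d₁ n₂ d₂) := by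
  have hQR : Q ≠ R := by
    intro h
    rw [← h] at hPQR
    exact hP (by simpa using hPQR)
  rcases h₁ with ⟨hQ, hd₁, hn₁⟩ | ⟨hQ, hd₁, hn₁⟩
  · -- Q = 0, R = P
    have hRP : R = P := by rw [hPQR, hQ, zero_add]
    rcases h₂ with ⟨hR, -, -⟩ | ⟨hR, hd₂, hn₂⟩
    · exact absurd (hRP ▸ hR) hP
    · right
      rw [hRP] at hn₂
      refine ⟨by rw [hQ, zero_add]; exact hR, ?_, ?_⟩
      · simp only [addD, addW, hd₁]
        ring_nf
        exact mul_ne_zero (pow_ne_zero 2 hn₁) (pow_ne_zero 2 hd₂)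
      · rw [hQ, zero_add, hRP]
        simp only [addN, addD, addS, addW, hd₁, ← hn₂]
        ring
  · rcases h₂ with ⟨hR, hd₂, hn₂⟩ | ⟨hR, hd₂, hn₂⟩
    · -- R = 0, Q = -P
      have hQP : Q = -P := by
        rw [hR] at hPQR
        exact eq_neg_of_add_eq_zero_left hPQR.symm
      right
      refine ⟨by rw [hR, add_zero]; exact hQ, ?_, ?_⟩
      · simp only [addD, addW, hd₂]
        ring_nf
        exact mul_ne_zero (pow_ne_zero 2 hn₂) (pow_ne_zero 2 hd₁)
      · have hxQ : xc Q = xc P := by rw [hQP, xc_neg]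
        rw [hR, add_zero]
        simp only [addN, addD, addS, addW, hd₂, ← hn₁, ← hxQ]
        ring
    · -- both nonzero
      have hu : xc Q = n₁ / d₁ := by rw [eq_div_iff hd₁]; exact hn₁
      have hv : xc R = n₂ / d₂ := by rw [eq_div_iff hd₂]; exact hn₂
      have hW := addW_eq n₁ d₁ n₂ d₂ hd₁ hd₂
      have hS := addS_eq E.b₂ E.b₄ E.b₆ n₁ d₁ n₂ d₂ hd₁ hd₂
      rw [← hu, ← hv] at hW hS
      by_cases hx : xc Q = xc R
      · -- Q = -R
        left
        have hQR' : Q = -R := (eq_or_eq_neg_of_xc_eq hQ hR hx).resolve_left hQR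
        refine ⟨by rw [hQR', neg_add_cancel], ?_, ?_⟩
        · rw [addD, hW, hx, sub_self, mul_zero]; ring
        · rw [addN, hW, hS, hx, sub_self, mul_zero, sS_self]
          have h2R : R + R ≠ 0 := by
            intro h
            apply hQR
            rw [hQR']
            exact (eq_neg_of_add_eq_zero_left h).symm
          have hD := (xc_add_self hR h2R).1
          simp only [ne_eq, zero_pow, OfNat.ofNat_ne_zero, not_false_eq_true, mul_zero, sub_zero]
          exact mul_ne_zero (mul_ne_zero (pow_ne_zero 2 hd₁) (pow_ne_zero 2 hd₂)) hD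
      · right
        have hsum : Q + R ≠ 0 := by
          intro h
          apply hx
          rw [eq_neg_of_add_eq_zero_left h, xc_neg]
        have hdiff : xc (Q - R) = xc P := by
          have : Q - R = -P := by rw [hPQR]; abel
          rw [this, xc_neg]
        have key := xc_add_add_xc_sub hQ hR hx
        rw [hdiff] at key
        have hne : xc Q - xc R ≠ 0 := sub_ne_zero.mpr hx
        refine ⟨hsum, ?_, ?_⟩
        · rw [addD, hW]
          exact pow_ne_zero 2 (mul_ne_zero (mul_ne_zero hd₁ hd₂) hne)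
        · rw [addN, addD, hW, hS, ← key]; ring

/-- **projective validity of the ladder** -/
theorem rep_lad {P : E.Point} (hP : P ≠ 0) (k : ℕ) :
    Rep (k • P) (ladN E.b₂ E.b₄ E.b₆ E.b₈ (xc P) k) (ladD E.b₂ E.b₄ E.b₆ E.b₈ (xc P) k) := by
  rcases Nat.eq_zero_or_pos k with rfl | hk
  · left; simp
  revert hk
  refine ladder_induction (P := fun k => Rep (k • P) (ladN E.b₂ E.b₄ E.b₆ E.b₈ (xc P) k)
    (ladD E.b₂ E.b₄ E.b₆ E.b₈ (xc P) k)) ?_ ?_ ?_ k
  · right
    simp only [one_nsmul, ladN_one, ladD_one, mul_one]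
    exact ⟨hP, one_ne_zero, trivial⟩
  · intro k hk ih
    rw [ladN_even _ _ _ _ _ k hk, ladD_even _ _ _ _ _ k hk, two_mul, add_nsmul]
    exact rep_dbl ih
  · intro k hk ih ih'
    rw [ladN_odd _ _ _ _ _ k hk, ladD_odd _ _ _ _ _ k hk]
    have e : (2 * k + 1) • P = k • P + (k + 1) • P := by
      rw [← add_nsmul]; congr 1; ring
    rw [e]
    exact rep_add hP (by rw [succ_nsmul]) ih ih'

end Fermat.Agent.S13.H891

end
-- ===== PACK-END S13/H891/LadderValid.lean

-- ===== PACK-BEGIN S13/H891/Torsion.lean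
section





/-!
# S13 / T1: `n`-torsion of a Weierstrass curve for odd `n = 2m+1`

* `torsion_iff_root`: for `P ≠ 0`, `(2m+1) • P = 0 ↔ W_m(x(P)) = 0`;
* `exists_order_odd`: existence of a nonzero `(2m+1)`-torsion point over an algebraically closed
  field of characteristic zero;
* `card_torsion_odd_le`: `#E[2m+1] ≤ (2m+1)^2`.
-/

open WeierstrassCurve WeierstrassCurve.Affine Polynomial
open Fermat.Agent.S51.Five (xc dD dN dD_eq dN_eq xc_add_self add_self_ne_zero_of_dD_ne_zero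
  eq_or_eq_neg_of_xc_eq xc_neg xc_some exists_equation pointsOver card_pointsOver_le
  mem_pointsOver)

namespace Fermat.Agent.S13.H891

variable {K : Type*} [Field K] [DecidableEq K] {E : WeierstrassCurve.Affine K}

/-- for `P ≠ 0`: `(2m+1) P = 0` iff `x(P)` is a root of `W_m` -/
theorem torsion_iff_root {P : E.Point} (hP : P ≠ 0) (m : ℕ) :
    (2*m+1) • P = 0 ↔ (polyW E.b₂ E.b₄ E.b₆ E.b₈ m).eval (xc P) = 0 := by
  rw [eval_polyW, addW]
  have h₁ := rep_lad hP m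
  have h₂ := rep_lad hP (m+1)
  have e : (2 * m + 1) • P = m • P + (m + 1) • P := by
    rw [← add_nsmul]; congr 1; ring
  have e' : (m + 1) • P = m • P + P := succ_nsmul P m
  set N := ladN E.b₂ E.b₄ E.b₆ E.b₈ (xc P) m
  set D := ladD E.b₂ E.b₄ E.b₆ E.b₈ (xc P) m
  set N' := ladN E.b₂ E.b₄ E.b₆ E.b₈ (xc P) (m+1)
  set D' := ladD E.b₂ E.b₄ E.b₆ E.b₈ (xc P) (m+1)
  constructor
  · intro h
    rw [e] at h
    have hneg : m • P = -((m + 1) • P) := eq_neg_of_add_eq_zero_left h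
    rcases h₁ with ⟨hQ, -, -⟩ | ⟨hQ, hd₁, hn₁⟩
    · exfalso
      rw [hQ, zero_add] at h
      rw [e', hQ, zero_add] at h
      exact hP h
    · rcases h₂ with ⟨hR, -, -⟩ | ⟨hR, hd₂, hn₂⟩
      · exfalso
        rw [hR, neg_zero] at hneg
        exact hQ hneg
      · have hx : xc (m • P) = xc ((m + 1) • P) := by rw [hneg, xc_neg]
        rw [← hn₁, ← hn₂, hx]; ring
  · intro h
    rcases h₁ with ⟨hQ, hd₁, hn₁⟩ | ⟨hQ, hd₁, hn₁⟩
    · exfalso
      rw [hd₁, mul_zero, sub_zero] at h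
      have hd₂ : D' = 0 := (mul_eq_zero.mp h).resolve_left hn₁
      have hR : (m + 1) • P = 0 := h₂.eq_zero_iff.mpr hd₂
      rw [e', hQ, zero_add] at hR
      exact hP hR
    · rcases h₂ with ⟨hR, hd₂, hn₂⟩ | ⟨hR, hd₂, hn₂⟩
      · exfalso
        rw [hd₂, mul_zero, zero_sub, neg_eq_zero] at h
        exact hd₁ ((mul_eq_zero.mp h).resolve_left hn₂)
      · have hx : xc (m • P) = xc ((m + 1) • P) := by
          have : (xc (m • P) - xc ((m + 1) • P)) * (D * D') = 0 := by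
            rw [← h, ← hn₁, ← hn₂]; ring
          exact sub_eq_zero.mp ((mul_eq_zero.mp this).resolve_right (mul_ne_zero hd₁ hd₂))
        rcases eq_or_eq_neg_of_xc_eq hQ hR hx with h' | h'
        · exfalso
          rw [e'] at h'
          exact hP (by simpa using h')
        · rw [e, h', neg_add_cancel]

section degree

variable (E)

lemma natDegree_polyW (m : ℕ) (hm : 1 ≤ m) (hn : ((2*m+1 : ℕ) : K) ≠ 0) :
    (polyW E.b₂ E.b₄ E.b₆ E.b₈ m).natDegree = 2*m^2 + 2*m := by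
  obtain ⟨h1, h2⟩ := dc_polyW E.b₂ E.b₄ E.b₆ E.b₈ m hm
  exact natDegree_eq_of_le_of_coeff_ne_zero h1 (by rw [h2]; exact hn)

lemma polyW_ne_zero (m : ℕ) (hm : 1 ≤ m) (hn : ((2*m+1 : ℕ) : K) ≠ 0) :
    polyW E.b₂ E.b₄ E.b₆ E.b₈ m ≠ 0 := by
  intro h
  have := (dc_polyW E.b₂ E.b₄ E.b₆ E.b₈ m hm).2
  rw [h, coeff_zero] at this
  exact hn this.symm

end degree

/-- over an algebraically closed field of characteristic `0`, an elliptic curve has a nonzero
point killed by `2m+1`, for every `m ≥ 1` -/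
theorem exists_order_odd [IsAlgClosed K] [CharZero K] (E : WeierstrassCurve.Affine K)
    [E.IsElliptic] (m : ℕ) (hm : 1 ≤ m) : ∃ P : E.Point, P ≠ 0 ∧ (2*m+1) • P = 0 := by
  have hn : ((2*m+1 : ℕ) : K) ≠ 0 := Nat.cast_ne_zero.mpr (by omega)
  have hdeg : (polyW E.b₂ E.b₄ E.b₆ E.b₈ m).degree ≠ 0 := by
    rw [degree_eq_natDegree (polyW_ne_zero E m hm hn), natDegree_polyW E m hm hn]
    have : 0 < 2 * m ^ 2 + 2 * m := by positivity
    exact_mod_cast this.ne'
  obtain ⟨x, hx⟩ := IsAlgClosed.exists_root _ hdeg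
  obtain ⟨y, hy⟩ := exists_equation E x
  have hns : E.Nonsingular x y := Affine.equation_iff_nonsingular.mp hy
  refine ⟨Point.some x y hns, Point.some_ne_zero _, ?_⟩
  rw [torsion_iff_root (Point.some_ne_zero _)]
  exact hx

section counting

variable [CharZero K]

/-- a finite set containing all `(2m+1)`-torsion points -/
noncomputable def oddCandidates (E : WeierstrassCurve.Affine K) (m : ℕ) : Finset E.Point :=
  insert 0 (pointsOver E (polyW E.b₂ E.b₄ E.b₆ E.b₈ m).roots.toFinset)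

lemma card_oddCandidates_le (E : WeierstrassCurve.Affine K) (m : ℕ) (hm : 1 ≤ m) :
    (oddCandidates E m).card ≤ (2*m+1)^2 := by
  classical
  have hn : ((2*m+1 : ℕ) : K) ≠ 0 := Nat.cast_ne_zero.mpr (by omega)
  have h1 : (polyW E.b₂ E.b₄ E.b₆ E.b₈ m).roots.toFinset.card ≤ 2*m^2 + 2*m := by
    calc (polyW E.b₂ E.b₄ E.b₆ E.b₈ m).roots.toFinset.card
        ≤ Multiset.card (polyW E.b₂ E.b₄ E.b₆ E.b₈ m).roots := Multiset.toFinset_card_le _
      _ ≤ (polyW E.b₂ E.b₄ E.b₆ E.b₈ m).natDegree := Polynomial.card_roots' _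
      _ = 2*m^2 + 2*m := natDegree_polyW E m hm hn
  have e : (2*m+1)^2 = (2*m^2 + 2*m) * 2 + 1 := by ring
  calc (oddCandidates E m).card
      ≤ (pointsOver E (polyW E.b₂ E.b₄ E.b₆ E.b₈ m).roots.toFinset).card + 1 :=
        Finset.card_insert_le _ _
    _ ≤ (polyW E.b₂ E.b₄ E.b₆ E.b₈ m).roots.toFinset.card * 2 + 1 :=
        Nat.add_le_add_right (card_pointsOver_le E _) 1
    _ ≤ (2*m^2 + 2*m) * 2 + 1 := by omega
    _ = (2*m+1)^2 := e.symm

lemma mem_oddCandidates {P : E.Point} (m : ℕ) (hm : 1 ≤ m) (h : (2*m+1) • P = 0) :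
    P ∈ oddCandidates E m := by
  classical
  have hn : ((2*m+1 : ℕ) : K) ≠ 0 := Nat.cast_ne_zero.mpr (by omega)
  unfold oddCandidates
  by_cases hP : P = 0
  · rw [hP]; exact Finset.mem_insert_self _ _
  · apply Finset.mem_insert_of_mem
    apply mem_pointsOver hP
    rw [Multiset.mem_toFinset, Polynomial.mem_roots (polyW_ne_zero E m hm hn)]
    exact (torsion_iff_root hP m).mp h

lemma nsmul_eq_zero_of_mem_torsionBy (n : ℕ) (P : Submodule.torsionBy ℤ E.Point ((n : ℕ) : ℤ)) :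
    n • (P : E.Point) = 0 := by
  have := P.2
  rw [Submodule.mem_torsionBy_iff] at this
  rw [← this]
  exact (natCast_zsmul _ n).symm

/-- `E[2m+1]` is finite -/
theorem finite_torsion_odd (E : WeierstrassCurve.Affine K) (m : ℕ) (hm : 1 ≤ m) :
    Finite (Submodule.torsionBy ℤ E.Point ((2*m+1 : ℕ) : ℤ)) := by
  classical
  let f : Submodule.torsionBy ℤ E.Point ((2*m+1 : ℕ) : ℤ) → (oddCandidates E m) :=
    fun P => ⟨P.1, mem_oddCandidates m hm (nsmul_eq_zero_of_mem_torsionBy _ P)⟩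
  have hf : Function.Injective f := by
    intro P Q h
    exact Subtype.ext (congrArg (fun x : oddCandidates E m => (x : E.Point)) h)
  exact Finite.of_injective f hf

/-- `#E[2m+1] ≤ (2m+1)^2` -/
theorem card_torsion_odd_le (E : WeierstrassCurve.Affine K) (m : ℕ) (hm : 1 ≤ m) :
    Nat.card (Submodule.torsionBy ℤ E.Point ((2*m+1 : ℕ) : ℤ)) ≤ (2*m+1)^2 := by
  classical
  let f : Submodule.torsionBy ℤ E.Point ((2*m+1 : ℕ) : ℤ) → (oddCandidates E m) :=
    fun P => ⟨P.1, mem_oddCandidates m hm (nsmul_eq_zero_of_mem_torsionBy _ P)⟩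
  have hf : Function.Injective f := by
    intro P Q h
    exact Subtype.ext (congrArg (fun x : oddCandidates E m => (x : E.Point)) h)
  calc Nat.card (Submodule.torsionBy ℤ E.Point ((2*m+1 : ℕ) : ℤ))
      ≤ Nat.card (oddCandidates E m) := Nat.card_le_card_of_injective f hf
    _ = (oddCandidates E m).card := by rw [Nat.card_eq_fintype_card, Fintype.card_coe]
    _ ≤ (2*m+1)^2 := card_oddCandidates_le E m hm

/-- `E[2m+1]` is nontrivial over an algebraically closed field of characteristic `0` -/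
theorem nontrivial_torsion_odd [IsAlgClosed K] (E : WeierstrassCurve.Affine K) [E.IsElliptic]
    (m : ℕ) (hm : 1 ≤ m) :
    Nontrivial (Submodule.torsionBy ℤ E.Point ((2*m+1 : ℕ) : ℤ)) := by
  obtain ⟨P, hP, hP5⟩ := exists_order_odd E m hm
  have hmem : P ∈ Submodule.torsionBy ℤ E.Point ((2*m+1 : ℕ) : ℤ) := by
    rw [Submodule.mem_torsionBy_iff, natCast_zsmul]; exact hP5
  exact ⟨⟨⟨P, hmem⟩, 0, fun h => hP (congrArg Subtype.val h)⟩⟩

end counting

/-- **T1 for odd primes `p`** (stated for any odd `p ≥ 3`): over an algebraically closed field of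
characteristic `0`, `E[p]` is nontrivial, finite, of cardinality at most `p^2`. -/
theorem T1_odd [IsAlgClosed K] [CharZero K] (E : WeierstrassCurve.Affine K) [E.IsElliptic]
    (p : ℕ) (hp3 : 3 ≤ p) (hodd : Odd p) :
    Nontrivial (Submodule.torsionBy ℤ E.Point ((p : ℕ) : ℤ)) ∧
    Finite (Submodule.torsionBy ℤ E.Point ((p : ℕ) : ℤ)) ∧
    Nat.card (Submodule.torsionBy ℤ E.Point ((p : ℕ) : ℤ)) ≤ p ^ 2 := by
  obtain ⟨m, rfl⟩ := hodd
  have hm : 1 ≤ m := by omega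
  exact ⟨nontrivial_torsion_odd E m hm, finite_torsion_odd E m hm, card_torsion_odd_le E m hm⟩

end Fermat.Agent.S13.H891

end
-- ===== PACK-END S13/H891/Torsion.lean

-- ===== PACK-BEGIN S52/H621/ManinCard.lean
section




/-!
# S52 / Part A: Manin's count in terms of `WeierstrassCurve.card` / `traceOfFrobenius`
-/

set_option autoImplicit false

open Polynomial

namespace Fermat.Agent.S52.H621

section

variable {F : Type*} [Field F]

/-- points of a Weierstrass curve with `Δ ≠ 0` = solutions of the equation + the point at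
infinity -/
noncomputable def pointEquivOption (W : WeierstrassCurve.Affine F) (hΔ : W.Δ ≠ 0) :
    W.Point ≃ Option {q : F × F // W.Equation q.1 q.2} where
  toFun
    | .zero => none
    | .some x y h => some ⟨(x, y), h.1⟩
  invFun
    | none => .zero
    | some q => .some q.1.1 q.1.2 ((W.equation_iff_nonsingular_of_Δ_ne_zero hΔ).mp q.2)
  left_inv := by rintro (_ | _) <;> rfl
  right_inv := by rintro (_ | _) <;> rfl

theorem card_point_eq [Finite F] (W : WeierstrassCurve.Affine F) (hΔ : W.Δ ≠ 0) :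
    Nat.card W.Point = Nat.card {q : F × F // W.Equation q.1 q.2} + 1 := by
  rw [Nat.card_congr (pointEquivOption W hΔ), Finite.card_option]

end

variable (p : ℕ) [Fact p.Prime]

/-- The short Weierstrass curve `y² = x³ + A x + B`. -/
def shortW (A B : ZMod p) : WeierstrassCurve (ZMod p) := ⟨0, 0, 0, A, B⟩

theorem shortW_Δ (A B : ZMod p) : (shortW p A B).Δ = -16 * (4 * A ^ 3 + 27 * B ^ 2) := by
  simp only [shortW, WeierstrassCurve.Δ, WeierstrassCurve.b₂, WeierstrassCurve.b₄,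
    WeierstrassCurve.b₆, WeierstrassCurve.b₈]
  ring

theorem shortW_equation (A B x y : ZMod p) :
    (shortW p A B).toAffine.Equation x y ↔ y ^ 2 = x ^ 3 + A * x + B := by
  rw [WeierstrassCurve.Affine.equation_iff]
  simp [shortW]

theorem shortW_card (A B : ZMod p) (hΔ : (shortW p A B).Δ ≠ 0) :
    (shortW p A B).card
      = Nat.card {q : ZMod p × ZMod p // q.2 ^ 2 = q.1 ^ 3 + A * q.1 + B} + 1 := by
  rw [WeierstrassCurve.card, card_point_eq _ hΔ]
  congr 1
  apply Nat.card_congr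
  exact Equiv.subtypeEquivRight fun q => shortW_equation p A B q.1 q.2

/-- **A2c**, curve form: `deg x(Frob P₀ - P₀) = #E(F_p)`. -/
theorem ratDeg_maninFun_eq_card (hp2 : p ≠ 2) (A B : ZMod p) (hΔ : (shortW p A B).Δ ≠ 0) :
    ratDeg (maninFun p A B) = (shortW p A B).card := by
  have h : 4 * A ^ 3 + 27 * B ^ 2 ≠ 0 := by
    intro h0
    apply hΔ
    rw [shortW_Δ, h0, mul_zero]
  rw [ratDeg_maninFun p A B hp2 h, shortW_card p A B hΔ]

/-- **A2c**, trace form: `deg x(Frob P₀ - P₀) = p + 1 - a_p`. -/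
theorem ratDeg_maninFun_eq_trace (hp2 : p ≠ 2) (A B : ZMod p) (hΔ : (shortW p A B).Δ ≠ 0) :
    (ratDeg (maninFun p A B) : ℤ) = p + 1 - (shortW p A B).traceOfFrobenius := by
  rw [ratDeg_maninFun_eq_card p hp2 A B hΔ, WeierstrassCurve.traceOfFrobenius, Nat.card_zmod]
  ring

end Fermat.Agent.S52.H621

end
-- ===== PACK-END S52/H621/ManinCard.lean

-- ===== PACK-BEGIN Lib/Red/H290/RedCurve.lean
section




/-!
# Reduction of a Weierstrass curve with integral coefficients (S52 piece A1b, part 2)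

`IsRedOf A φ W Wκ`: the coefficients of `W : Affine K` lie in `A` and reduce (under
`rd A φ`) to those of `Wκ : Affine κ`.  We show that the polynomial expressions of the group law
(`negY`, `addX`, `addY`, the equation, the nonsingularity condition) commute with reduction.
-/

set_option autoImplicit false

namespace Fermat.Agent.Lib.Red.H290

open WeierstrassCurve WeierstrassCurve.Affine
open Fermat.Agent.S05.SameRed (IntegralCoeffs InKer)

variable {K : Type*} [Field K] {κ : Type*} [Field κ]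

/-- `Wκ` is the reduction of `W` along `φ : A →+* κ`. -/
structure IsRedOf (A : ValuationSubring K) (φ : A →+* κ) (W : Affine K) (Wκ : Affine κ) :
    Prop where
  m₁ : W.a₁ ∈ A
  m₂ : W.a₂ ∈ A
  m₃ : W.a₃ ∈ A
  m₄ : W.a₄ ∈ A
  m₆ : W.a₆ ∈ A
  a₁ : rd A φ W.a₁ = Wκ.a₁
  a₂ : rd A φ W.a₂ = Wκ.a₂
  a₃ : rd A φ W.a₃ = Wκ.a₃
  a₄ : rd A φ W.a₄ = Wκ.a₄
  a₆ : rd A φ W.a₆ = Wκ.a₆

variable {A : ValuationSubring K} {φ : A →+* κ} {W : Affine K} {Wκ : Affine κ}

lemma IsRedOf.integralCoeffs (h : IsRedOf A φ W Wκ) : IntegralCoeffs W A.valuation :=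
  ⟨val_le_of_mem h.m₁, val_le_of_mem h.m₂, val_le_of_mem h.m₃, val_le_of_mem h.m₄,
    val_le_of_mem h.m₆⟩

/-- The reduction of a curve over `A` itself. -/
lemma isRedOf_map (W₀ : WeierstrassCurve A) :
    IsRedOf A φ (W₀.map (algebraMap A K)).toAffine (W₀.map φ).toAffine where
  m₁ := W₀.a₁.2
  m₂ := W₀.a₂.2
  m₃ := W₀.a₃.2
  m₄ := W₀.a₄.2
  m₆ := W₀.a₆.2
  a₁ := rd_coe W₀.a₁
  a₂ := rd_coe W₀.a₂
  a₃ := rd_coe W₀.a₃
  a₄ := rd_coe W₀.a₄
  a₆ := rd_coe W₀.a₆

/-- Lifting data: the coefficients as elements of `A`. -/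
lemma IsRedOf.exists_lift (h : IsRedOf A φ W Wκ) :
    ∃ c₁ c₂ c₃ c₄ c₆ : A, (c₁ : K) = W.a₁ ∧ (c₂ : K) = W.a₂ ∧ (c₃ : K) = W.a₃ ∧
      (c₄ : K) = W.a₄ ∧ (c₆ : K) = W.a₆ ∧ φ c₁ = Wκ.a₁ ∧ φ c₂ = Wκ.a₂ ∧ φ c₃ = Wκ.a₃ ∧
      φ c₄ = Wκ.a₄ ∧ φ c₆ = Wκ.a₆ :=
  ⟨⟨_, h.m₁⟩, ⟨_, h.m₂⟩, ⟨_, h.m₃⟩, ⟨_, h.m₄⟩, ⟨_, h.m₆⟩, rfl, rfl, rfl, rfl, rfl,
    by rw [← h.a₁, rd_of_mem h.m₁], by rw [← h.a₂, rd_of_mem h.m₂],
    by rw [← h.a₃, rd_of_mem h.m₃], by rw [← h.a₄, rd_of_mem h.m₄],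
    by rw [← h.a₆, rd_of_mem h.m₆]⟩

lemma coe_two : (((2 : A) : K)) = 2 := rfl
lemma coe_three : (((3 : A) : K)) = 3 := rfl

section poly

variable (h : IsRedOf A φ W Wκ)
include h

lemma negY_mem {x y : K} (hx : x ∈ A) (hy : y ∈ A) : W.negY x y ∈ A := by
  simp only [Affine.negY]
  exact A.sub_mem (A.sub_mem (A.neg_mem _ hy) (A.mul_mem _ _ h.m₁ hx)) h.m₃

lemma rd_negY {x y : K} (hx : x ∈ A) (hy : y ∈ A) :
    rd A φ (W.negY x y) = Wκ.negY (rd A φ x) (rd A φ y) := by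
  obtain ⟨c₁, c₂, c₃, c₄, c₆, e₁, e₂, e₃, e₄, e₆, f₁, f₂, f₃, f₄, f₆⟩ := h.exists_lift
  lift x to A using hx
  lift y to A using hy
  simp only [Affine.negY, ← e₁, ← e₃, ← f₁, ← f₃]
  have : (-(y : K) - c₁ * x - c₃) = ((-y - c₁ * x - c₃ : A) : K) := by push_cast; rfl
  rw [this, rd_coe, rd_coe, rd_coe]
  simp only [map_sub, map_neg, map_mul]

lemma addX_mem {x₁ x₂ ℓ : K} (hx₁ : x₁ ∈ A) (hx₂ : x₂ ∈ A) (hℓ : ℓ ∈ A) :
    W.addX x₁ x₂ ℓ ∈ A := by
  simp only [Affine.addX]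
  exact A.sub_mem (A.sub_mem (A.sub_mem (A.add_mem _ _ (pow_mem hℓ 2) (A.mul_mem _ _ h.m₁ hℓ))
    h.m₂) hx₁) hx₂

lemma rd_addX {x₁ x₂ ℓ : K} (hx₁ : x₁ ∈ A) (hx₂ : x₂ ∈ A) (hℓ : ℓ ∈ A) :
    rd A φ (W.addX x₁ x₂ ℓ) = Wκ.addX (rd A φ x₁) (rd A φ x₂) (rd A φ ℓ) := by
  obtain ⟨c₁, c₂, c₃, c₄, c₆, e₁, e₂, e₃, e₄, e₆, f₁, f₂, f₃, f₄, f₆⟩ := h.exists_lift
  lift x₁ to A using hx₁
  lift x₂ to A using hx₂
  lift ℓ to A using hℓ
  simp only [Affine.addX, ← e₁, ← e₂, ← f₁, ← f₂]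
  have : ((ℓ : K) ^ 2 + c₁ * ℓ - c₂ - x₁ - x₂) = ((ℓ ^ 2 + c₁ * ℓ - c₂ - x₁ - x₂ : A) : K) := by
    push_cast; rfl
  rw [this, rd_coe, rd_coe, rd_coe, rd_coe]
  simp only [map_sub, map_add, map_mul, map_pow]

lemma negAddY_mem {x₁ x₂ y₁ ℓ : K} (hx₁ : x₁ ∈ A) (hx₂ : x₂ ∈ A) (hy₁ : y₁ ∈ A) (hℓ : ℓ ∈ A) :
    W.negAddY x₁ x₂ y₁ ℓ ∈ A := by
  simp only [Affine.negAddY]
  exact A.add_mem _ _ (A.mul_mem _ _ hℓ (A.sub_mem (addX_mem h hx₁ hx₂ hℓ) hx₁)) hy₁

lemma rd_negAddY {x₁ x₂ y₁ ℓ : K} (hx₁ : x₁ ∈ A) (hx₂ : x₂ ∈ A) (hy₁ : y₁ ∈ A) (hℓ : ℓ ∈ A) :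
    rd A φ (W.negAddY x₁ x₂ y₁ ℓ) =
      Wκ.negAddY (rd A φ x₁) (rd A φ x₂) (rd A φ y₁) (rd A φ ℓ) := by
  simp only [Affine.negAddY]
  have hX := addX_mem h hx₁ hx₂ hℓ
  rw [rd_add (A.mul_mem _ _ hℓ (A.sub_mem hX hx₁)) hy₁, rd_mul hℓ (A.sub_mem hX hx₁),
    rd_sub hX hx₁, rd_addX h hx₁ hx₂ hℓ]

lemma addY_mem {x₁ x₂ y₁ ℓ : K} (hx₁ : x₁ ∈ A) (hx₂ : x₂ ∈ A) (hy₁ : y₁ ∈ A) (hℓ : ℓ ∈ A) :
    W.addY x₁ x₂ y₁ ℓ ∈ A := by
  simp only [Affine.addY]
  exact negY_mem h (addX_mem h hx₁ hx₂ hℓ) (negAddY_mem h hx₁ hx₂ hy₁ hℓ)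

lemma rd_addY {x₁ x₂ y₁ ℓ : K} (hx₁ : x₁ ∈ A) (hx₂ : x₂ ∈ A) (hy₁ : y₁ ∈ A) (hℓ : ℓ ∈ A) :
    rd A φ (W.addY x₁ x₂ y₁ ℓ) =
      Wκ.addY (rd A φ x₁) (rd A φ x₂) (rd A φ y₁) (rd A φ ℓ) := by
  simp only [Affine.addY]
  rw [rd_negY h (addX_mem h hx₁ hx₂ hℓ) (negAddY_mem h hx₁ hx₂ hy₁ hℓ),
    rd_addX h hx₁ hx₂ hℓ, rd_negAddY h hx₁ hx₂ hy₁ hℓ]

/-- The equation reduces. -/
lemma rd_equation {x y : K} (hx : x ∈ A) (hy : y ∈ A) (hxy : W.Equation x y) :
    Wκ.Equation (rd A φ x) (rd A φ y) := by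
  obtain ⟨c₁, c₂, c₃, c₄, c₆, e₁, e₂, e₃, e₄, e₆, f₁, f₂, f₃, f₄, f₆⟩ := h.exists_lift
  lift x to A using hx
  lift y to A using hy
  rw [Affine.equation_iff] at hxy ⊢
  rw [← e₁, ← e₂, ← e₃, ← e₄, ← e₆] at hxy
  have hA : y ^ 2 + c₁ * x * y + c₃ * y = x ^ 3 + c₂ * x ^ 2 + c₄ * x + c₆ := by
    apply Subtype.ext
    push_cast
    exact hxy
  have := congrArg φ hA
  simp only [map_add, map_mul, map_pow, f₁, f₂, f₃, f₄, f₆] at this
  rw [rd_coe, rd_coe]
  exact this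

/-- The numerator of the tangent slope. -/
lemma rd_slopeNum {x y : K} (hx : x ∈ A) (hy : y ∈ A) :
    3 * x ^ 2 + 2 * W.a₂ * x + W.a₄ - W.a₁ * y ∈ A ∧
    rd A φ (3 * x ^ 2 + 2 * W.a₂ * x + W.a₄ - W.a₁ * y) =
      3 * rd A φ x ^ 2 + 2 * Wκ.a₂ * rd A φ x + Wκ.a₄ - Wκ.a₁ * rd A φ y := by
  obtain ⟨c₁, c₂, c₃, c₄, c₆, e₁, e₂, e₃, e₄, e₆, f₁, f₂, f₃, f₄, f₆⟩ := h.exists_lift
  lift x to A using hx
  lift y to A using hy
  simp only [← e₁, ← e₂, ← e₄, ← f₁, ← f₂, ← f₄]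
  have : (3 * (x : K) ^ 2 + 2 * c₂ * x + c₄ - c₁ * y) =
      ((3 * x ^ 2 + 2 * c₂ * x + c₄ - c₁ * y : A) : K) := by
    push_cast; rw [coe_two, coe_three]
  rw [this, rd_coe, rd_coe, rd_coe]
  refine ⟨Subtype.mem _, ?_⟩
  simp only [map_sub, map_add, map_mul, map_pow, map_ofNat]

end poly

end Fermat.Agent.Lib.Red.H290

end
-- ===== PACK-END Lib/Red/H290/RedCurve.lean

-- ===== PACK-BEGIN Lib/Red/H290/RedSlope.lean
section


/-!
# The slope reduces (S52 piece A1b, part 3)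

If `P = (x₁, y₁)`, `Q = (x₂, y₂)` are integral points of `W` whose reductions `P̄`, `Q̄` satisfy
`P̄ ≠ -Q̄`, then the slope of the line through `P` and `Q` (tangent if `P = Q`) is integral and
reduces to the slope of the line through `P̄`, `Q̄`.
-/

set_option autoImplicit false

namespace Fermat.Agent.Lib.Red.H290

open WeierstrassCurve WeierstrassCurve.Affine

variable {K : Type*} [Field K] [DecidableEq K] {κ : Type*} [Field κ] [DecidableEq κ]
variable {A : ValuationSubring K} {φ : A →+* κ} {W : Affine K} {Wκ : Affine κ}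

omit [DecidableEq κ] in
/-- `y`-integrality of integral points. -/
lemma y_mem_of_x_mem (h : IsRedOf A φ W Wκ) {x y : K} (hxy : W.Equation x y) (hx : x ∈ A) :
    y ∈ A :=
  mem_of_val_le (Fermat.Agent.S05.GoodRed.val_y_le_one h.integralCoeffs hxy (val_le_of_mem hx))

omit [DecidableEq K] [DecidableEq κ] in
/-- The secant numerator `g` with `(y₁ - y₂) (y₁ - negY x₂ y₂) = (x₁ - x₂) g`. -/
lemma secant_key {x₁ y₁ x₂ y₂ : K} (e₁ : W.Equation x₁ y₁) (e₂ : W.Equation x₂ y₂) :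
    (y₁ - y₂) * (y₁ - W.negY x₂ y₂) =
      (x₁ - x₂) * (x₁ ^ 2 + x₁ * x₂ + x₂ ^ 2 + W.a₂ * (x₁ + x₂) + W.a₄ - W.a₁ * y₁) := by
  rw [Affine.equation_iff] at e₁ e₂
  simp only [Affine.negY]
  linear_combination e₁ - e₂

omit [DecidableEq K] [DecidableEq κ] in
lemma rd_secantNum (h : IsRedOf A φ W Wκ) {x₁ y₁ x₂ : K} (hx₁ : x₁ ∈ A) (hy₁ : y₁ ∈ A)
    (hx₂ : x₂ ∈ A) :
    x₁ ^ 2 + x₁ * x₂ + x₂ ^ 2 + W.a₂ * (x₁ + x₂) + W.a₄ - W.a₁ * y₁ ∈ A ∧
    rd A φ (x₁ ^ 2 + x₁ * x₂ + x₂ ^ 2 + W.a₂ * (x₁ + x₂) + W.a₄ - W.a₁ * y₁) =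
      rd A φ x₁ ^ 2 + rd A φ x₁ * rd A φ x₂ + rd A φ x₂ ^ 2 +
        Wκ.a₂ * (rd A φ x₁ + rd A φ x₂) + Wκ.a₄ - Wκ.a₁ * rd A φ y₁ := by
  obtain ⟨c₁, c₂, c₃, c₄, c₆, e₁, e₂, e₃, e₄, e₆, f₁, f₂, f₃, f₄, f₆⟩ := h.exists_lift
  lift x₁ to A using hx₁
  lift y₁ to A using hy₁
  lift x₂ to A using hx₂
  simp only [← e₁, ← e₂, ← e₄, ← f₁, ← f₂, ← f₄]
  have : ((x₁ : K) ^ 2 + x₁ * x₂ + x₂ ^ 2 + c₂ * (x₁ + x₂) + c₄ - c₁ * y₁) =
      ((x₁ ^ 2 + x₁ * x₂ + x₂ ^ 2 + c₂ * (x₁ + x₂) + c₄ - c₁ * y₁ : A) : K) := by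
    push_cast; rfl
  rw [this, rd_coe, rd_coe, rd_coe, rd_coe]
  refine ⟨Subtype.mem _, ?_⟩
  simp only [map_sub, map_add, map_mul, map_pow]

/-- **The slope reduces.** -/
theorem slope_mem_and_rd (h : IsRedOf A φ W Wκ) (hφ : KerMax A φ) {x₁ y₁ x₂ y₂ : K}
    (hx₁ : x₁ ∈ A) (hx₂ : x₂ ∈ A) (e₁ : W.Equation x₁ y₁) (e₂ : W.Equation x₂ y₂)
    (hne : ¬(rd A φ x₁ = rd A φ x₂ ∧ rd A φ y₁ = Wκ.negY (rd A φ x₂) (rd A φ y₂))) :
    W.slope x₁ x₂ y₁ y₂ ∈ A ∧
      rd A φ (W.slope x₁ x₂ y₁ y₂) =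
        Wκ.slope (rd A φ x₁) (rd A φ x₂) (rd A φ y₁) (rd A φ y₂) := by
  have hy₁ : y₁ ∈ A := y_mem_of_x_mem h e₁ hx₁
  have hy₂ : y₂ ∈ A := y_mem_of_x_mem h e₂ hx₂
  by_cases hxb : rd A φ x₁ = rd A φ x₂
  · -- same reduced `x`
    have hyb : rd A φ y₁ ≠ Wκ.negY (rd A φ x₂) (rd A φ y₂) := fun hy => hne ⟨hxb, hy⟩
    have eb₁ := rd_equation h hx₁ hy₁ e₁
    have eb₂ := rd_equation h hx₂ hy₂ e₂
    have hyy : rd A φ y₁ = rd A φ y₂ := Affine.Y_eq_of_Y_ne eb₁ eb₂ hxb hyb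
    -- the unit denominator
    have hnA : y₁ - W.negY x₂ y₂ ∈ A := A.sub_mem hy₁ (negY_mem h hx₂ hy₂)
    have hnrd : rd A φ (y₁ - W.negY x₂ y₂) =
        rd A φ y₁ - Wκ.negY (rd A φ x₁) (rd A φ y₁) := by
      rw [rd_sub hy₁ (negY_mem h hx₂ hy₂), rd_negY h hx₂ hy₂, ← hxb, ← hyy]
    have hnne : rd A φ (y₁ - W.negY x₂ y₂) ≠ 0 := by
      rw [rd_sub hy₁ (negY_mem h hx₂ hy₂), rd_negY h hx₂ hy₂]
      exact sub_ne_zero.mpr hyb
    have hnv : A.valuation (y₁ - W.negY x₂ y₂) = 1 := (rd_ne_zero_iff hφ hnA).mp hnne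
    have hn0 : y₁ - W.negY x₂ y₂ ≠ 0 := by
      intro h0; rw [h0, map_zero] at hnv; exact zero_ne_one hnv
    rw [Affine.slope_of_Y_ne hxb hyb]
    by_cases hxx : x₁ = x₂
    · subst hxx
      have hyK : y₁ ≠ W.negY x₁ y₂ := by
        intro hy
        apply hyb
        rw [hy, rd_negY h hx₁ hy₂]
      have hy12 : y₁ = y₂ := Affine.Y_eq_of_Y_ne e₁ e₂ rfl hyK
      subst hy12
      rw [Affine.slope_of_Y_ne rfl hyK]
      obtain ⟨hgA, hgrd⟩ := rd_slopeNum h hx₁ hy₁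
      refine ⟨div_mem_of_val_eq_one hgA hnv, ?_⟩
      rw [rd_div hgA hnv, hgrd, hnrd]
    · rw [Affine.slope_of_X_ne hxx]
      obtain ⟨hgA, hgrd⟩ := rd_secantNum h hx₁ hy₁ hx₂
      have key := secant_key e₁ e₂
      have hd0 : x₁ - x₂ ≠ 0 := sub_ne_zero.mpr hxx
      have hsl : (y₁ - y₂) / (x₁ - x₂) =
          (x₁ ^ 2 + x₁ * x₂ + x₂ ^ 2 + W.a₂ * (x₁ + x₂) + W.a₄ - W.a₁ * y₁) /
            (y₁ - W.negY x₂ y₂) := by
        rw [div_eq_div_iff hd0 hn0, key]; ring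
      rw [hsl]
      refine ⟨div_mem_of_val_eq_one hgA hnv, ?_⟩
      rw [rd_div hgA hnv, hgrd, hnrd, ← hxb]
      congr 1
      ring
  · -- distinct reduced `x`
    have hdA : x₁ - x₂ ∈ A := A.sub_mem hx₁ hx₂
    have hdne : rd A φ (x₁ - x₂) ≠ 0 := by
      rw [rd_sub hx₁ hx₂]; exact sub_ne_zero.mpr hxb
    have hdv : A.valuation (x₁ - x₂) = 1 := (rd_ne_zero_iff hφ hdA).mp hdne
    have hxx : x₁ ≠ x₂ := by
      rintro rfl; exact hxb rfl
    rw [Affine.slope_of_X_ne hxx, Affine.slope_of_X_ne hxb]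
    refine ⟨div_mem_of_val_eq_one (A.sub_mem hy₁ hy₂) hdv, ?_⟩
    rw [rd_div (A.sub_mem hy₁ hy₂) hdv, rd_sub hy₁ hy₂, rd_sub hx₁ hx₂]

end Fermat.Agent.Lib.Red.H290

end
-- ===== PACK-END Lib/Red/H290/RedSlope.lean

-- ===== PACK-BEGIN S37/H99/Formal.lean
section



/-!
# S37 (helper99): formal reduction R1

`SpecializationExists N p J` follows from the existence, for every prime `ℓ ∤ N * p` and every
valuation subring `A` over `ℓ`, of an additive "reduction map" `red : J →+ Y` (into ANY additive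
group, no Hecke structure on `Y`) with four pointwise properties.  The quotient `J'`, the map `sp`
and the Frobenius `F` of `IsSpecialization` are then constructed formally.
-/

set_option autoImplicit false

noncomputable section

namespace Fermat.Agent.S37.H99

open ModularCurve ValuationSubring

section Abstract

variable {K L : Type*} [Field K] [Field L] [Algebra K L]
variable (p : ℕ) (J : Type) [AddCommGroup J] [Module HeckeAlg J]
  [DistribMulAction (L ≃ₐ[K] L) J] [SMulCommClass (L ≃ₐ[K] L) HeckeAlg J]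

/-- The four pointwise properties of a reduction map at `(A, ℓ)`. -/
structure IsRed (A : ValuationSubring L) (ℓ : ℕ) (hℓ : ℓ.Prime) {Y : Type*} [AddCommGroup Y]
    (red : J →+ Y) : Prop where
  inertia : ∀ τ ∈ A.inertiaSubgroupIn K, ∀ x : J, red (τ • x) = red x
  frob_ker : ∀ σ : L ≃ₐ[K] L, A.IsFrobeniusAt σ ℓ → ∀ x : J, red x = 0 → red (σ • x) = 0
  inj_torsion : ∀ x : J, (∃ n : ℕ, p ^ n • x = 0) → red x = 0 → x = 0
  relation : ∀ σ : L ≃ₐ[K] L, A.IsFrobeniusAt σ ℓ → ∀ x : J,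
    red (σ • σ • x - heckeGen ⟨ℓ, hℓ⟩ • (σ • x) + ℓ • x) = 0

variable {p J}

/-- The largest Hecke submodule contained in the kernel of `red`. -/
def redKer {Y : Type*} [AddCommGroup Y] (red : J →+ Y) : Submodule HeckeAlg J where
  carrier := {x | ∀ t : HeckeAlg, red (t • x) = 0}
  zero_mem' := fun t => by simp
  add_mem' := by
    intro x y hx hy t
    rw [smul_add, map_add, hx t, hy t, add_zero]
  smul_mem' := by
    intro c x hx t
    rw [← mul_smul]
    exact hx (t * c)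

theorem mem_redKer {Y : Type*} [AddCommGroup Y] (red : J →+ Y) (x : J) :
    x ∈ redKer red ↔ ∀ t : HeckeAlg, red (t • x) = 0 := Iff.rfl

/-- two Frobenius elements at `A` differ by inertia -/
theorem inv_mul_mem_inertiaSubgroupIn {A : ValuationSubring L} {ℓ : ℕ} {σ₀ σ : L ≃ₐ[K] L}
    (h₀ : A.IsFrobeniusAt σ₀ ℓ) (h : A.IsFrobeniusAt σ ℓ) :
    σ₀⁻¹ * σ ∈ A.inertiaSubgroupIn K := by
  have hσ₀ := h₀.mem_decompositionSubgroup
  have hσ := h.mem_decompositionSubgroup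
  let d₀ : A.decompositionSubgroup K := ⟨σ₀, hσ₀⟩
  let d : A.decompositionSubgroup K := ⟨σ, hσ⟩
  refine ⟨d₀⁻¹ * d, ?_, rfl⟩
  refine MonoidHom.mem_ker.mpr ?_
  ext x
  show (d₀⁻¹ * d) • x = x
  rw [mul_smul]
  have h1 : d • x = x ^ ℓ := h.smul_residue_eq x
  have h2 : d₀ • x = x ^ ℓ := h₀.smul_residue_eq x
  rw [h1, ← h2, inv_smul_smul]

variable (p) in
/-- **R1 at one place.** -/
theorem exists_specialization_of_isRed (A : ValuationSubring L) (ℓ : ℕ) (hℓ : ℓ.Prime)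
    (hfrob : ∃ σ₀ : L ≃ₐ[K] L, A.IsFrobeniusAt σ₀ ℓ)
    {Y : Type*} [AddCommGroup Y] (red : J →+ Y) (hred : IsRed (K := K) p J A ℓ hℓ red) :
    ∃ (J' : Type) (_ : AddCommGroup J') (_ : Module HeckeAlg J') (sp : J →+ J')
      (F : J' →+ J'),
      IsSpecialization (K := K) p J J' A ℓ sp F ∧ SpecialFibreRelation J' ℓ hℓ F := by
  obtain ⟨σ₀, hσ₀⟩ := hfrob
  let M : Submodule HeckeAlg J := redKer red
  -- commutation of Galois with Hecke
  have hcomm : ∀ (g : L ≃ₐ[K] L) (t : HeckeAlg) (x : J), t • (g • x) = g • (t • x) :=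
    fun g t x => (smul_comm g t x).symm
  -- Frobenius elements preserve `M`
  have hFM : ∀ σ : L ≃ₐ[K] L, A.IsFrobeniusAt σ ℓ → ∀ x ∈ M, σ • x ∈ M := by
    intro σ hσ x hx t
    rw [hcomm]
    exact hred.frob_ker σ hσ _ (hx t)
  -- inertia acts trivially modulo `M`
  have hIM : ∀ τ ∈ A.inertiaSubgroupIn K, ∀ x : J, τ • x - x ∈ M := by
    intro τ hτ x t
    rw [smul_sub, map_sub, hcomm, hred.inertia τ hτ, sub_self]
  -- the additive endomorphism `x ↦ σ₀ • x` of `J`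
  let φ : J →+ J := DistribSMul.toAddMonoidHom J σ₀
  have hφ : ∀ x, φ x = σ₀ • x := fun _ => rfl
  -- the induced map on the quotient
  let F : (J ⧸ M) →+ (J ⧸ M) :=
    QuotientAddGroup.map M.toAddSubgroup M.toAddSubgroup φ (by
      intro x hx
      exact hFM σ₀ hσ₀ x hx)
  have hF : ∀ x : J, F (Submodule.Quotient.mk x) = Submodule.Quotient.mk (σ₀ • x) := fun _ => rfl
  let sp : J →+ (J ⧸ M) := (Submodule.mkQ M).toAddMonoidHom
  have hsp : ∀ x : J, sp x = Submodule.Quotient.mk x := fun _ => rfl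
  refine ⟨J ⧸ M, inferInstance, inferInstance, sp, F, ⟨?_, ?_, ?_, ?_⟩, ?_⟩
  · -- hecke_comm
    intro T x
    rfl
  · -- inertia_comm
    intro τ hτ x
    rw [hsp, hsp, Submodule.Quotient.eq]
    exact hIM τ hτ x
  · -- frobenius_comm
    intro σ hσ x
    rw [hsp, hsp, hF, Submodule.Quotient.eq]
    have hτ := inv_mul_mem_inertiaSubgroupIn hσ₀ hσ
    have h1 : σ • x - σ₀ • x = σ₀ • ((σ₀⁻¹ * σ) • x - x) := by
      rw [smul_sub, ← mul_smul, mul_inv_cancel_left]
    rw [h1]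
    exact hFM σ₀ hσ₀ _ (hIM _ hτ x)
  · -- injective_torsion
    intro x hx hx0
    rw [hsp, Submodule.Quotient.mk_eq_zero] at hx0
    have := hx0 1
    rw [one_smul] at this
    exact hred.inj_torsion x hx this
  · -- special fibre relation
    intro y
    obtain ⟨x, rfl⟩ := Submodule.Quotient.mk_surjective M y
    rw [hF, hF]
    have h2 : (Submodule.Quotient.mk (σ₀ • σ₀ • x) : J ⧸ M)
        - heckeGen ⟨ℓ, hℓ⟩ • (Submodule.Quotient.mk (σ₀ • x) : J ⧸ M)
        + ℓ • (Submodule.Quotient.mk x : J ⧸ M)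
        = Submodule.Quotient.mk (σ₀ • σ₀ • x - heckeGen ⟨ℓ, hℓ⟩ • (σ₀ • x) + ℓ • x) := by
      rfl
    rw [h2, Submodule.Quotient.mk_eq_zero]
    intro t
    have h3 : t • (σ₀ • σ₀ • x - heckeGen ⟨ℓ, hℓ⟩ • (σ₀ • x) + ℓ • x)
        = σ₀ • σ₀ • (t • x) - heckeGen ⟨ℓ, hℓ⟩ • (σ₀ • (t • x)) + ℓ • (t • x) := by
      rw [smul_add, smul_sub, hcomm, hcomm, smul_comm t (heckeGen ⟨ℓ, hℓ⟩), hcomm,
        smul_comm t ℓ]
    rw [h3]
    exact hred.relation σ₀ hσ₀ (t • x)

end Abstract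

section Rat

variable (N p : ℕ) (J : Type) [AddCommGroup J] [Module HeckeAlg J]
  [DistribMulAction (AlgebraicClosure ℚ ≃ₐ[ℚ] AlgebraicClosure ℚ) J]
  [SMulCommClass (AlgebraicClosure ℚ ≃ₐ[ℚ] AlgebraicClosure ℚ) HeckeAlg J]

/-- **R1.**  Over `ℚ`, `SpecializationExists` follows from the existence of reduction maps. -/
theorem specializationExists_of_isRed
    (H : ∀ ℓ : ℕ, (hℓ : ℓ.Prime) → ¬ ℓ ∣ N * p →
      ∀ A : ValuationSubring (AlgebraicClosure ℚ), A.LiesOverPrime ℓ →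
        ∃ (Y : Type) (_ : AddCommGroup Y) (red : J →+ Y),
          IsRed (K := ℚ) p J A ℓ hℓ red) :
    SpecializationExists (K := ℚ) (L := AlgebraicClosure ℚ) N p J := by
  intro ℓ hℓ hdvd A hA
  obtain ⟨Y, _, red, hred⟩ := H ℓ hℓ hdvd A hA
  exact exists_specialization_of_isRed p A ℓ hℓ (exists_isFrobeniusAt ℓ hℓ A hA) red hred

end Rat

end Fermat.Agent.S37.H99

end
end
-- ===== PACK-END S37/H99/Formal.lean

-- ===== PACK-BEGIN A2/Alg/H34/Basic.lean
section


/-!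
# WALL A2 / ALG — leaves A1' and ASM (helper34)

* `divisibleDiv_mul_inv`, `divisibleDiv_tau` : `DivisibleDiv` is stable under quotients and under
  a semilinear automorphism.
* `chartCtx_inv` : the standing hypotheses for the chart at infinity.
* `locOne_tau_div` : `v ∈ (B_n)ˣ`, `τ ≡ id mod w`, `w ∈ I`  ⟹  `τ v / v ∈ 1 + I B_n`.
* `localFactor_of_pureAt` (**ASM**) : `PureAt u n ⟹ LocalFactor (τ u / u) n`.

Statements are VERBATIM those of `Fermat/Agent/A2/Alg/Skel.lean` (origin/helper34).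
-/

set_option autoImplicit false

namespace Fermat.Agent.A2.Alg.H34

open Fermat.Agent.A2 Fermat.Agent.A2.Alg

section Div

variable {E F : Type*} [Field E] [Field F] [Algebra E F]

/-- **A1'.** -/
theorem divisibleDiv_mul_inv (m : ℕ) (f g : F) (hf : DivisibleDiv E m f)
    (hg : DivisibleDiv E m g) : DivisibleDiv E m (f * g⁻¹) := by
  intro V hV hE
  obtain ⟨h₁, u₁, hh₁, hu₁, hu₁', rfl⟩ := hf V hV hE
  obtain ⟨h₂, u₂, hh₂, hu₂, hu₂', rfl⟩ := hg V hV hE
  refine ⟨h₁ * h₂⁻¹, u₁ * u₂⁻¹, mul_ne_zero hh₁ (inv_ne_zero hh₂), V.mul_mem _ _ hu₁ hu₂', ?_, ?_⟩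
  · rw [mul_inv, inv_inv]
    exact V.mul_mem _ _ hu₁' hu₂
  · rw [mul_pow, inv_pow, mul_inv]
    ring

/-- The ring isomorphism `V.comap τ ≃ V` induced by `τ`. -/
noncomputable def comapEquiv (τ : F ≃+* F) (V : ValuationSubring F) :
    V.comap (τ : F →+* F) ≃+* V where
  toFun a := ⟨τ a.1, a.2⟩
  invFun b := ⟨τ.symm b.1, by
    show (τ : F →+* F) (τ.symm b.1) ∈ V
    simpa using b.2⟩
  left_inv a := Subtype.ext (by simp)
  right_inv b := Subtype.ext (by simp)
  map_mul' a b := Subtype.ext (by simp)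
  map_add' a b := Subtype.ext (by simp)

/-- **A1'.**  `τ` permutes the discrete valuation rings of `F` containing `E`. -/
theorem divisibleDiv_tau (τ : F ≃+* F) (τE : E ≃+* E)
    (hτE : ∀ e : E, τ (algebraMap E F e) = algebraMap E F (τE e)) (m : ℕ) (f : F)
    (h : DivisibleDiv E m f) : DivisibleDiv E m (τ f) := by
  intro V hV hE
  have hV' : IsDiscreteValuationRing (V.comap (τ : F →+* F)) :=
    IsDiscreteValuationRing.RingEquivClass.isDiscreteValuationRing (comapEquiv τ V).symm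
  have hE' : ∀ e : E, algebraMap E F e ∈ V.comap (τ : F →+* F) := fun e => by
    show τ (algebraMap E F e) ∈ V
    rw [hτE]
    exact hE _
  obtain ⟨h₀, u, hh₀, hu, hu', rfl⟩ := h _ hV' hE'
  refine ⟨τ h₀, τ u, (map_ne_zero τ).2 hh₀, hu, ?_, ?_⟩
  · rw [← map_inv₀]
    exact hu'
  · rw [map_mul, map_pow]

end Div

section Chart

variable {R E F : Type*} [CommRing R] [Field E] [Algebra R E] [Field F] [Algebra E F]
  [Algebra R F]

theorem adjoin_inv_eq (x : F) :
    IntermediateField.adjoin E ({x⁻¹} : Set F) = IntermediateField.adjoin E ({x} : Set F) := by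
  apply le_antisymm
  · rw [IntermediateField.adjoin_le_iff]
    rintro y hy
    rw [Set.mem_singleton_iff] at hy
    subst hy
    exact inv_mem (IntermediateField.subset_adjoin E _ (Set.mem_singleton x))
  · rw [IntermediateField.adjoin_le_iff]
    rintro y hy
    rw [Set.mem_singleton_iff] at hy
    subst hy
    have := inv_mem (IntermediateField.subset_adjoin E ({y⁻¹} : Set F) (Set.mem_singleton _))
    rwa [inv_inv] at this

/-- **A1'.**  The chart at infinity satisfies the same standing hypotheses with `x⁻¹`. -/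
theorem chartCtx_inv (w : R) (hw : Irreducible w) (x : F) (hx : Transcendental E x)
    (hfin : FiniteDimensional (IntermediateField.adjoin E ({x} : Set F)) F)
    (hconst : ∀ f : F, IsAlgebraic E f → f ∈ (algebraMap E F).range)
    (Bi : Subalgebra R F)
    (hBi : ∀ f : F, f ∈ Bi ↔ IsIntegral (Algebra.adjoin R ({x⁻¹} : Set F)) f) :
    ChartCtx E w x⁻¹ Bi := by
  refine ⟨hw, ?_, ?_, hconst, hBi⟩
  · intro h
    apply hx
    have := h.inv
    rwa [inv_inv] at this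
  · rw [adjoin_inv_eq]
    exact hfin

end Chart

section Asm

variable {R F : Type*} [CommRing R] [Field F] [Algebra R F]

/-- `τ` maps `B` into `B`, and is the identity modulo `w`. -/
theorem exists_tau_eq (w : R) (B : Subalgebra R F) (τ : F ≃+* F)
    (hτB : ∀ b ∈ B, ∃ c ∈ B, τ b - b = algebraMap R F w * c) (b : B) :
    ∃ b' c : B, (b' : F) = τ b ∧ b' - b = algebraMap R B w * c := by
  obtain ⟨c, hc, h⟩ := hτB b b.2
  refine ⟨⟨τ b, ?_⟩, ⟨c, hc⟩, rfl, ?_⟩
  · have : τ (b : F) = b + algebraMap R F w * c := by linear_combination h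
    rw [this]
    exact B.add_mem b.2 (B.mul_mem (B.algebraMap_mem w) hc)
  · apply Subtype.ext
    simpa using h

/-- `v ∈ (B_n)ˣ`, `τ ≡ id mod w`, `w ∈ n`, `w ∈ I`  ⟹  `τ v / v ∈ 1 + I B_n`. -/
theorem locOne_tau_div (w : R) (B : Subalgebra R F) (τ : F ≃+* F)
    (hτB : ∀ b ∈ B, ∃ c ∈ B, τ b - b = algebraMap R F w * c)
    (n : Ideal B) (hn : n.IsPrime) (hwn : algebraMap R B w ∈ n)
    (I : Ideal B) (hwI : algebraMap R B w ∈ I) (v : F) (hv : LocUnit B n v) :
    LocOne B n I (τ v * v⁻¹) := by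
  obtain ⟨a, b, ha, hb, hab⟩ := hv
  obtain ⟨a', ca, ha', hca⟩ := exists_tau_eq w B τ hτB a
  obtain ⟨b', cb, hb', hcb⟩ := exists_tau_eq w B τ hτB b
  have hb'n : b' ∉ n := by
    intro h
    apply hb
    have h1 : b = b' - algebraMap R B w * cb := by rw [← hcb]; ring
    rw [h1]
    exact n.sub_mem h (n.mul_mem_right _ hwn)
  have ha0 : (a : F) ≠ 0 := by
    intro h
    apply ha
    have : a = 0 := Subtype.ext h
    rw [this]
    exact n.zero_mem
  have hb0 : (b : F) ≠ 0 := by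
    intro h
    apply hb
    have : b = 0 := Subtype.ext h
    rw [this]
    exact n.zero_mem
  have hv0 : v ≠ 0 := by
    rintro rfl
    rw [zero_mul] at hab
    exact ha0 hab.symm
  have hb'0 : (b' : F) ≠ 0 := by
    rw [hb']
    exact (map_ne_zero τ).2 hb0
  refine ⟨a' * b, a * b', ?_, ?_, ?_⟩
  · intro h
    rcases hn.mem_or_mem h with h | h
    · exact ha h
    · exact hb'n h
  · have h1 : a' * b - a * b' = algebraMap R B w * (ca * b - a * cb) := by
      have e1 : a' = a + algebraMap R B w * ca := by rw [← hca]; ring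
      have e2 : b' = b + algebraMap R B w * cb := by rw [← hcb]; ring
      rw [e1, e2]
      ring
    rw [h1]
    exact I.mul_mem_right _ hwI
  · -- `τ v * v⁻¹ * (a * b') = a' * b`
    have hτ : τ v * (b' : F) = (a' : F) := by
      rw [hb', ha', ← map_mul, hab]
    have hv' : v = (a : F) * (b : F)⁻¹ := by
      field_simp
      exact hab
    push_cast
    have : τ v = (a' : F) * (b' : F)⁻¹ := by
      field_simp
      exact hτ
    rw [this, hv']
    field_simp

/-- **ASM.**  `u d ^ m = ε ∈ (B_n)ˣ`; `h := τ d / d`; then `(τ u / u) h ^ m = τ ε / ε ∈ 1 + w B_n`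
and `h ≡ 1` on both components (`d` is a unit there, `τ ≡ id mod w`). -/
theorem localFactor_of_pureAt {E : Type*} [Field E] [Algebra R E] [Algebra E F]
    (w : R) (B : Subalgebra R F) (c : SSChart w B)
    (τ : F ≃+* F) (τE : E ≃+* E) (τR : R ≃+* R) (hτ : TauCtx w B τ τE τR)
    (m : ℕ) (u : F) (hu : u ≠ 0) (n : Ideal B) (hn : n.IsPrime) (hwn : algebraMap R B w ∈ n)
    (h : PureAt B c m u n) : LocalFactor B c m (τ u * u⁻¹) n := by
  obtain ⟨d, hd, hε, hd₁, hd₂⟩ := h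
  have hw₁ : algebraMap R B w ∈ c.p₁ := by
    have : algebraMap R B w ∈ c.p₁ ⊓ c.p₂ := by
      rw [c.inf_eq]
      exact Ideal.mem_span_singleton_self _
    exact this.1
  have hw₂ : algebraMap R B w ∈ c.p₂ := by
    have : algebraMap R B w ∈ c.p₁ ⊓ c.p₂ := by
      rw [c.inf_eq]
      exact Ideal.mem_span_singleton_self _
    exact this.2
  have hτd : τ d ≠ 0 := (map_ne_zero τ).2 hd
  refine ⟨τ d * d⁻¹, mul_ne_zero hτd (inv_ne_zero hd), ?_,
    locOne_tau_div w B τ hτ.hτB c.p₁ c.prime₁ hw₁ c.p₁ hw₁ d hd₁,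
    locOne_tau_div w B τ hτ.hτB c.p₂ c.prime₂ hw₂ c.p₂ hw₂ d hd₂⟩
  have key : τ u * u⁻¹ * (τ d * d⁻¹) ^ m = τ (u * d ^ m) * (u * d ^ m)⁻¹ := by
    rw [map_mul, map_pow, mul_pow, inv_pow, mul_inv]
    ring
  rw [key]
  exact locOne_tau_div w B τ hτ.hτB n hn hwn _ (Ideal.mem_span_singleton_self _) _ hε

end Asm

end Fermat.Agent.A2.Alg.H34

end
-- ===== PACK-END A2/Alg/H34/Basic.lean

-- ===== PACK-BEGIN S18/H602/BaseChange.lean
section



/-!
# S18, piece d1 (continued): `laurentBaseChange L (modularFunctionFieldFull N)` is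
`modularFunctionFieldFullC L N`  (owner helper602)

For every field `L` of characteristic zero, the base change to `L` of the rational function
field `ℚ(j(q^d) : d ∣ N)` is `L(j(q^d) : d ∣ N)`, inside `L((q))`.
-/

set_option autoImplicit false

noncomputable section

namespace Fermat.Agent.S18.H602

open ModularCurve AlgebraicCurve HahnSeries IntermediateField

section BaseChange

variable (L : Type*) [Field L] [Algebra ℚ L] (N : ℕ)

theorem coeffEmb_qExpand_jq (d : ℕ) [NeZero d] :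
    coeffEmb L (qExpand ℚ d jq) = qExpand L d (jqModC L) := by
  have h := coeffMap_jqNModC (algebraMap ℚ L) d
  exact h

theorem coeffEmb_mem_fullC {x : LaurentSeries ℚ} (hx : x ∈ modularFunctionFieldFull N) :
    coeffEmb L x ∈ modularFunctionFieldFullC L N := by
  unfold modularFunctionFieldFull at hx
  induction hx using IntermediateField.adjoin_induction with
  | mem y hy =>
      obtain ⟨d, hd, hdN, rfl⟩ := hy
      rw [coeffEmb_qExpand_jq]
      exact jqModCd_mem_full L N hdN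
  | algebraMap c =>
      have : coeffEmb L (algebraMap ℚ (LaurentSeries ℚ) c) =
          algebraMap L (LaurentSeries L) (algebraMap ℚ L c) := by
        rw [coeffEmb, algebraMap_laurentSeries_eq_single, algebraMap_laurentSeries_eq_single,
          coeffMap_single]
      rw [this]
      exact (modularFunctionFieldFullC L N).algebraMap_mem _
  | add x y _ _ hx hy => simpa using add_mem hx hy
  | inv x _ hx => simpa using inv_mem hx
  | mul x y _ _ hx hy => simpa using mul_mem hx hy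

/-- The base change of `ℚ(j(q^d) : d ∣ N)` to `L` is `L(j(q^d) : d ∣ N)`. -/
theorem laurentBaseChange_full_eq :
    laurentBaseChange L (modularFunctionFieldFull N) = modularFunctionFieldFullC L N := by
  apply le_antisymm
  · rw [laurentBaseChange, IntermediateField.adjoin_le_iff]
    rintro _ ⟨x, hx, rfl⟩
    exact coeffEmb_mem_fullC L N hx
  · rw [modularFunctionFieldFullC, IntermediateField.adjoin_le_iff]
    rintro _ ⟨d, hd, hdN, rfl⟩
    rw [← coeffEmb_qExpand_jq]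
    exact coeffEmb_mem_laurentBaseChange L (jqd_mem_full N hdN)

theorem modularFunctionFieldBar_eq :
    modularFunctionFieldBar N = modularFunctionFieldFullC (AlgebraicClosure ℚ) N :=
  laurentBaseChange_full_eq _ N

end BaseChange

end Fermat.Agent.S18.H602

end
end
-- ===== PACK-END S18/H602/BaseChange.lean

-- ===== PACK-BEGIN A2/H348/Glue.lean
section



/-!
# A2 / piece E (ALG_ss), part 3: the Kummer idempotent on a two-chart model with reduced fibre

Mathlib-only.  See `exists_kummer_idempotents` at the end of the file.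
-/

set_option autoImplicit false
set_option linter.unusedSectionVars false
set_option linter.style.haveILetI false

open Module

namespace Fermat.Agent.A2.H348

variable {A F F' : Type*} [CommRing A] [Field F] [CommRing F'] [Nontrivial F'] [Algebra A F]
  [Algebra F F'] [Algebra A F'] [IsScalarTower A F F']

/-- integrality over a smaller subalgebra implies integrality over a bigger one. -/
theorem isIntegral_of_le {B O : Subalgebra A F} (hBO : B ≤ O) {c : F'} (hc : IsIntegral B c) :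
    IsIntegral O c := by
  letI : Algebra B O := (Subalgebra.inclusion hBO).toRingHom.toAlgebra
  haveI : IsScalarTower B O F' := IsScalarTower.of_algebraMap_eq fun b => rfl
  exact hc.tower_top

/-- The data attached to the semilocal "Gauss ring" `V` (intersection of the valuation rings of the
generic points of the special fibre). -/
structure GaussData (ϖ : A) (m : ℕ) (u : F) (V : Subalgebra A F) : Prop where
  closed : ∀ f : F, IsIntegral V f → f ∈ V
  ϖ_inv_notMem : (algebraMap A F ϖ)⁻¹ ∉ V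
  rad : ∀ t ∈ V, (1 + algebraMap A F ϖ * t)⁻¹ ∈ V
  m_ne : (m : F) ≠ 0
  m_inv : ((m : F))⁻¹ ∈ (⊥ : Subalgebra A F)
  u_one : ∃ t ∈ V, u = 1 + algebraMap A F ϖ * t

/-- The data attached to one chart `B` of the model. -/
structure ChartData (ϖ : A) (m : ℕ) (u : F) (B V : Subalgebra A F) : Prop where
  le_V : B ≤ V
  closed : ∀ f : F, IsIntegral B f → f ∈ B
  /-- reducedness of the special fibre (`q`-expansion principle): `B ∩ ϖ V = ϖ B`. -/
  qep : ∀ b ∈ B, ∀ t ∈ V, b = algebraMap A F ϖ * t → t ∈ B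
  /-- local factorisation `u = ε h ^ m` at every closed point of the special fibre,
  `ε ∈ 1 + ϖ B_𝔪`, `h ∈ 1 + ϖ V`. -/
  loc : ∀ 𝔪 : Ideal B, 𝔪.IsMaximal → algebraMap A B ϖ ∈ 𝔪 →
    ∃ h : F, (∃ t ∈ V, h = 1 + algebraMap A F ϖ * t) ∧
      ∃ s a : B, s ∉ 𝔪 ∧ u * (s : F) = h ^ m * ((s : F) + algebraMap A F ϖ * (a : F))

section Gauss

variable {ϖ : A} {m : ℕ} {u : F} {V : Subalgebra A F} (hV : GaussData ϖ m u V)

include hV

theorem GaussData.ϖ_ne : algebraMap A F ϖ ≠ 0 := by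
  intro h
  apply hV.ϖ_inv_notMem
  rw [h, inv_zero]
  exact V.zero_mem

theorem GaussData.one_add_ne {t : F} (ht : t ∈ V) : 1 + algebraMap A F ϖ * t ≠ 0 := by
  intro h
  apply hV.ϖ_inv_notMem
  have h1 : algebraMap A F ϖ * (-t) = 1 := by linear_combination -h
  have h2 : (algebraMap A F ϖ)⁻¹ = -t := inv_eq_of_mul_eq_one_right h1
  rw [h2]
  exact V.neg_mem ht

theorem GaussData.m_inv_mem (O : Subalgebra A F) : ((m : F))⁻¹ ∈ O := by
  have := hV.m_inv
  rw [Algebra.mem_bot] at this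
  obtain ⟨a, ha⟩ := this
  rw [← ha]
  exact O.algebraMap_mem a

theorem GaussData.u_mem : u ∈ V := by
  obtain ⟨t, ht, rfl⟩ := hV.u_one
  exact V.add_mem V.one_mem (V.mul_mem (V.algebraMap_mem ϖ) ht)

theorem GaussData.u_ne : u ≠ 0 := by
  obtain ⟨t, ht, rfl⟩ := hV.u_one
  exact hV.one_add_ne ht

theorem GaussData.u_inv_mem : u⁻¹ ∈ V := by
  obtain ⟨t, ht, rfl⟩ := hV.u_one
  exact hV.rad t ht

end Gauss

section Chart

variable {ϖ : A} {m : ℕ} {u : F} {B V : Subalgebra A F}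

theorem smul_eq_algebraMap_mul (B : Subalgebra A F) (b : B) (c : F') :
    b • c = algebraMap F F' (b : F) * c := by
  rw [Algebra.smul_def]; rfl

variable (F) in
theorem algebraMap_eq_comp (a : A) : algebraMap A F' a = algebraMap F F' (algebraMap A F a) :=
  IsScalarTower.algebraMap_apply A F F' a

/-- local package at a closed point of the special fibre. -/
theorem ChartData.exists_local (hV : GaussData ϖ m u V) (hB : ChartData ϖ m u B V)
    {z : F'} (kb : KummerBasis m u z) (𝔪 : Ideal B) [h𝔪 : 𝔪.IsMaximal]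
    (hϖ : algebraMap A B ϖ ∈ 𝔪) :
    ∃ (h ε : F) (ζ : F') (_ : KummerBasis m ε ζ),
      h ≠ 0 ∧ z = ζ * algebraMap F F' h ∧ (∃ t ∈ V, h = 1 + algebraMap A F ϖ * t) ∧
      ε ∈ locAt B 𝔪 ∧ ((m : F) * ε)⁻¹ ∈ locAt B 𝔪 ∧ ε ∈ V ∧ ((m : F) * ε)⁻¹ ∈ V ∧
      (m : F) * ε ≠ 0 := by
  obtain ⟨h, ⟨t, ht, hh⟩, s, a, hs, hus⟩ := hB.loc 𝔪 h𝔪 hϖ
  have hh0 : h ≠ 0 := by rw [hh]; exact hV.one_add_ne ht
  have hs0 : (s : F) ≠ 0 := coe_ne_zero_of_notMem 𝔪 hs
  have hhm0 : h ^ m ≠ 0 := pow_ne_zero _ hh0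
  have hhV : h ∈ V := by
    rw [hh]; exact V.add_mem V.one_mem (V.mul_mem (V.algebraMap_mem ϖ) ht)
  have hhinvV : h⁻¹ ∈ V := by rw [hh]; exact hV.rad t ht
  set ε : F := u * (h ^ m)⁻¹ with hε
  have hεs : (s : F) * ε = (s : F) + algebraMap A F ϖ * (a : F) := by
    rw [hε, ← mul_assoc, mul_comm (s : F) u, hus]
    field_simp
  have hε1 : ε = 1 + algebraMap A F ϖ * ((a : F) * (s : F)⁻¹) := by
    have : ε = ((s : F) * ε) * (s : F)⁻¹ := by field_simp
    rw [this, hεs]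
    field_simp
  have hεO : ε ∈ locAt B 𝔪 := by
    refine ⟨s, hs, ?_⟩
    rw [hεs]
    exact B.add_mem s.2 (B.mul_mem (B.algebraMap_mem ϖ) a.2)
  have hasO : (a : F) * (s : F)⁻¹ ∈ locAt B 𝔪 :=
    (locAt B 𝔪).mul_mem (le_locAt 𝔪 a.2) (inv_mem_locAt 𝔪 hs)
  have hεinvO : ε⁻¹ ∈ locAt B 𝔪 := by
    rw [hε1]
    exact one_add_mul_inv_mem_locAt 𝔪 hϖ hasO
  have hεV : ε ∈ V := V.mul_mem hV.u_mem (by rw [← inv_pow]; exact V.pow_mem hhinvV m)
  have hεinvV : ε⁻¹ ∈ V := by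
    rw [hε, mul_inv, inv_inv]
    exact V.mul_mem hV.u_inv_mem (V.pow_mem hhV m)
  have hε0 : ε ≠ 0 := mul_ne_zero hV.u_ne (inv_ne_zero hhm0)
  refine ⟨h, ε, z * algebraMap F F' h⁻¹, kb.scale h hh0, hh0, ?_, ⟨t, ht, hh⟩, hεO, ?_, hεV, ?_,
    mul_ne_zero hV.m_ne hε0⟩
  · rw [mul_assoc, ← map_mul, inv_mul_cancel₀ hh0, map_one, mul_one]
  · rw [mul_inv]
    exact (locAt B 𝔪).mul_mem (hV.m_inv_mem _) hεinvO
  · rw [mul_inv]
    exact V.mul_mem (hV.m_inv_mem _) hεinvV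

/-- **Unmixedness** of `ϖ` on the integral closure of a chart in the Kummer extension:
an element integral over `B` which is `ϖ` times an element integral over `V` is `ϖ` times an
element integral over `B`. -/
theorem ChartData.unmixed (hV : GaussData ϖ m u V) (hB : ChartData ϖ m u B V)
    {z : F'} (kb : KummerBasis m u z) {c c' : F'} (hc : IsIntegral B c) (hc' : IsIntegral V c')
    (hcc : c = algebraMap A F' ϖ * c') : IsIntegral B c' := by
  have key : c' ∈ (integralClosure B F').toSubmodule := by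
    refine mem_of_forall_maximal B _ c' fun 𝔪 h𝔪 => ?_
    by_cases hϖ : algebraMap A B ϖ ∈ 𝔪
    · obtain ⟨h, ε, ζ, kb', -, -, -, hεO, hmεO, hεV, hmεV, hmε0⟩ :=
        hB.exists_local hV kb 𝔪 hϖ
      have hcO : IsIntegral (locAt B 𝔪) c := isIntegral_of_le (le_locAt 𝔪) hc
      have hci : ∀ i, kb'.basis.repr c i ∈ locAt B 𝔪 := fun i =>
        kb'.repr_mem_of_isIntegral _ (locAt_integrallyClosed hB.closed 𝔪) hεO hmεO hmε0 hcO i
      have hc'i : ∀ i, kb'.basis.repr c' i ∈ V := fun i =>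
        kb'.repr_mem_of_isIntegral _ hV.closed hεV hmεV hmε0 hc' i
      have hrel : ∀ i, kb'.basis.repr c i = algebraMap A F ϖ * kb'.basis.repr c' i := by
        intro i
        have : c = (algebraMap A F ϖ) • c' := by
          rw [hcc, Algebra.smul_def, algebraMap_eq_comp F]
        rw [this, map_smul, Finsupp.smul_apply, smul_eq_mul]
      have hc'O : ∀ i, kb'.basis.repr c' i ∈ locAt B 𝔪 := by
        intro i
        obtain ⟨s, hs, hsc⟩ := hci i
        refine ⟨s, hs, ?_⟩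
        refine hB.qep _ hsc ((s : F) * kb'.basis.repr c' i)
          (V.mul_mem (hB.le_V s.2) (hc'i i)) ?_
        rw [hrel i]; ring
      have hc'int : IsIntegral (locAt B 𝔪) c' := kb'.isIntegral_of_repr_mem _ hεO hc'O
      obtain ⟨s, hs, hsint⟩ := exists_smul_isIntegral_of_locAt 𝔪 c' hc'int
      refine ⟨s, hs, ?_⟩
      rw [smul_eq_algebraMap_mul]
      exact hsint
    · refine ⟨algebraMap A B ϖ, hϖ, ?_⟩
      rw [smul_eq_algebraMap_mul]
      have : algebraMap F F' ((algebraMap A B ϖ : B) : F) * c' = c := by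
        rw [hcc]
        congr 1
        exact (algebraMap_eq_comp F ϖ).symm
      rw [this]
      exact hc
  exact key

end Chart

section Idem

/-- The Kummer idempotent `m⁻¹ ∑_{i<m} z^i` (the sheet `z ≡ 1`). -/
noncomputable def kummerE (F : Type*) [Field F] {F' : Type*} [CommRing F'] [Algebra F F']
    (m : ℕ) (z : F') : F' :=
  algebraMap F F' ((m : F)⁻¹) * ∑ i ∈ Finset.range m, z ^ i

variable {ϖ : A} {m : ℕ} {u : F} {B V : Subalgebra A F}

theorem sum_pow_sub_one (z : F') (n : ℕ) :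
    ∑ i ∈ Finset.range n, (z ^ i - 1) =
      (z - 1) * ∑ i ∈ Finset.range n, ∑ j ∈ Finset.range i, z ^ j := by
  rw [Finset.mul_sum]
  refine Finset.sum_congr rfl fun i _ => ?_
  rw [mul_geom_sum]

theorem GaussData.isIntegral_z (hV : GaussData ϖ m u V) {z : F'} (kb : KummerBasis m u z) :
    IsIntegral V z := kb.isIntegral_zeta V hV.u_mem

theorem GaussData.isIntegral_kummerE (hV : GaussData ϖ m u V) {z : F'}
    (kb : KummerBasis m u z) : IsIntegral V (kummerE F m z) :=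
  (isIntegral_algebraMap_of_mem' V (hV.m_inv_mem V)).mul
    (IsIntegral.sum _ fun i _ => (hV.isIntegral_z kb).pow i)

/-- the Kummer idempotent is idempotent modulo `ϖ`. -/
theorem GaussData.kummerE_idem (hV : GaussData ϖ m u V) {z : F'} (kb : KummerBasis m u z) :
    ∃ q : F', IsIntegral V q ∧
      kummerE F m z ^ 2 - kummerE F m z = algebraMap A F' ϖ * q := by
  obtain ⟨t₀, ht₀, hu⟩ := hV.u_one
  set S : F' := ∑ i ∈ Finset.range m, z ^ i with hS
  set Q : F' := ∑ i ∈ Finset.range m, ∑ j ∈ Finset.range i, z ^ j with hQ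
  have hz := hV.isIntegral_z kb
  have hQint : IsIntegral V Q :=
    IsIntegral.sum _ fun i _ => IsIntegral.sum _ fun j _ => hz.pow j
  have h1 : (z - 1) * S = algebraMap A F' ϖ * algebraMap F F' t₀ := by
    rw [hS, mul_geom_sum, kb.pow_eq, hu, map_add, map_one, map_mul, ← algebraMap_eq_comp F]
    ring
  have h2 : S - (m : F') = (z - 1) * Q := by
    rw [hQ, ← sum_pow_sub_one, Finset.sum_sub_distrib, hS]
    simp
  have hm : algebraMap F F' ((m : F)⁻¹) * (m : F') = 1 := by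
    rw [← map_natCast (algebraMap F F') m, ← map_mul, inv_mul_cancel₀ hV.m_ne, map_one]
  refine ⟨algebraMap F F' ((m : F)⁻¹) ^ 2 * (algebraMap F F' t₀ * Q), ?_, ?_⟩
  · exact ((isIntegral_algebraMap_of_mem' V (hV.m_inv_mem V)).pow 2).mul
      ((isIntegral_algebraMap_of_mem' V ht₀).mul hQint)
  · have h3 : kummerE F m z ^ 2 - kummerE F m z
        = algebraMap F F' ((m : F)⁻¹) ^ 2 * (S * (S - (m : F'))) := by
      unfold kummerE
      rw [← hS]
      have : algebraMap F F' ((m : F)⁻¹) * S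
          = algebraMap F F' ((m : F)⁻¹) ^ 2 * (S * (m : F')) := by
        rw [pow_two, mul_assoc, mul_comm S, ← mul_assoc (algebraMap F F' ((m : F)⁻¹)) (m : F') S,
          hm, one_mul]
      rw [mul_sub, mul_sub, ← this]
      ring
    rw [h3, h2, ← mul_assoc S, mul_comm S, h1]
    ring

/-- coordinates of the Kummer idempotent. -/
theorem kummerE_repr {z : F'} (kb : KummerBasis m u z) (i : Fin m) :
    kb.basis.repr (kummerE F m z) i = (m : F)⁻¹ := by
  have : kummerE F m z = ∑ j : Fin m, algebraMap F F' ((fun _ => (m : F)⁻¹) j) * z ^ (j : ℕ) := by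
    unfold kummerE
    rw [Finset.mul_sum, Fin.sum_univ_eq_sum_range (fun j => algebraMap F F' ((m : F)⁻¹) * z ^ j) m]
  rw [this, kb.repr_sum]

/-- coordinates of `1`. -/
theorem one_repr {z : F'} (kb : KummerBasis m u z) (i : Fin m) :
    kb.basis.repr (1 : F') i = if (i : ℕ) = 0 then 1 else 0 := by
  classical
  have : (1 : F') = ∑ j : Fin m,
      algebraMap F F' ((fun j : Fin m => if (j : ℕ) = 0 then (1 : F) else 0) j) * z ^ (j : ℕ) := by
    rw [Finset.sum_eq_single (⟨0, kb.m_pos⟩ : Fin m)]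
    · simp
    · intro j _ hj
      have : (j : ℕ) ≠ 0 := fun h => hj (Fin.ext h)
      simp [this]
    · intro h; exact absurd (Finset.mem_univ _) h
  conv_lhs => rw [this]
  rw [kb.repr_sum]

/-- **Gluing**: the Kummer idempotent is congruent modulo `ϖ` to an element integral over the
chart `B`. -/
theorem ChartData.exists_lift (hV : GaussData ϖ m u V) (hB : ChartData ϖ m u B V)
    {z : F'} (kb : KummerBasis m u z) :
    ∃ e c : F', IsIntegral B e ∧ IsIntegral V c ∧ kummerE F m z = e + algebraMap A F' ϖ * c := by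
  let M : Submodule B F' :=
    { carrier := {y | ∃ y₁ y₂ : F', IsIntegral B y₁ ∧ IsIntegral V y₂ ∧
        y = y₁ + algebraMap A F' ϖ * y₂}
      add_mem' := by
        rintro a b ⟨a₁, a₂, ha₁, ha₂, rfl⟩ ⟨b₁, b₂, hb₁, hb₂, rfl⟩
        exact ⟨a₁ + b₁, a₂ + b₂, ha₁.add hb₁, ha₂.add hb₂, by ring⟩
      zero_mem' := ⟨0, 0, isIntegral_zero, isIntegral_zero, by simp⟩
      smul_mem' := by
        rintro b y ⟨y₁, y₂, hy₁, hy₂, rfl⟩
        refine ⟨algebraMap F F' (b : F) * y₁, algebraMap F F' (b : F) * y₂,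
          (isIntegral_algebraMap_of_mem' B b.2).mul hy₁,
          (isIntegral_algebraMap_of_mem' V (hB.le_V b.2)).mul hy₂, ?_⟩
        rw [smul_eq_algebraMap_mul]
        ring }
  have key : kummerE F m z ∈ M := by
    refine mem_of_forall_maximal B M _ fun 𝔪 h𝔪 => ?_
    by_cases hϖ : algebraMap A B ϖ ∈ 𝔪
    · obtain ⟨h, ε, ζ, kb', hh0, hz, ⟨t, ht, hh⟩, hεO, hmεO, hεV, hmεV, hmε0⟩ :=
        hB.exists_local hV kb 𝔪 hϖ
      have hhV : h ∈ V := by
        rw [hh]; exact V.add_mem V.one_mem (V.mul_mem (V.algebraMap_mem ϖ) ht)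
      have hζO : IsIntegral (locAt B 𝔪) ζ := kb'.isIntegral_zeta _ hεO
      have hζV : IsIntegral V ζ := kb'.isIntegral_zeta _ hεV
      have heO : IsIntegral (locAt B 𝔪) (kummerE F m ζ) :=
        (isIntegral_algebraMap_of_mem' _ (hV.m_inv_mem _)).mul
          (IsIntegral.sum _ fun i _ => hζO.pow i)
      obtain ⟨s, hs, hsint⟩ := exists_smul_isIntegral_of_locAt 𝔪 _ heO
      -- the difference
      set y₂ : F' := algebraMap F F' ((m : F)⁻¹) * ∑ i ∈ Finset.range m,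
        ζ ^ i * (algebraMap F F' t * ∑ j ∈ Finset.range i, algebraMap F F' h ^ j) with hy₂
      have hy₂int : IsIntegral V y₂ :=
        (isIntegral_algebraMap_of_mem' V (hV.m_inv_mem V)).mul
          (IsIntegral.sum _ fun i _ => (hζV.pow i).mul
            ((isIntegral_algebraMap_of_mem' V ht).mul
              (IsIntegral.sum _ fun j _ => (isIntegral_algebraMap_of_mem' V hhV).pow j)))
      have hdiff : kummerE F m z = kummerE F m ζ + algebraMap A F' ϖ * y₂ := by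
        unfold kummerE
        rw [hy₂, ← mul_assoc (algebraMap A F' ϖ), mul_comm (algebraMap A F' ϖ),
          mul_assoc _ (algebraMap A F' ϖ), ← mul_add, Finset.mul_sum (a := algebraMap A F' ϖ),
          ← Finset.sum_add_distrib]
        congr 1
        refine Finset.sum_congr rfl fun i _ => ?_
        have hgeom : algebraMap F F' h ^ i - 1
            = algebraMap A F' ϖ * algebraMap F F' t *
              ∑ j ∈ Finset.range i, algebraMap F F' h ^ j := by
          rw [← mul_geom_sum, hh, map_add, map_one, map_mul, ← algebraMap_eq_comp F]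
          ring
        rw [hz, mul_pow]
        have : ζ ^ i * algebraMap F F' h ^ i
            = ζ ^ i + ζ ^ i * (algebraMap F F' h ^ i - 1) := by ring
        rw [this, hgeom]
        ring
      refine ⟨s, hs, ?_⟩
      refine ⟨algebraMap F F' (s : F) * kummerE F m ζ, algebraMap F F' (s : F) * y₂, hsint,
        (isIntegral_algebraMap_of_mem' V (hB.le_V s.2)).mul hy₂int, ?_⟩
      rw [smul_eq_algebraMap_mul, hdiff]
      ring
    · refine ⟨algebraMap A B ϖ, hϖ, ?_⟩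
      refine ⟨0, kummerE F m z, isIntegral_zero, hV.isIntegral_kummerE kb, ?_⟩
      rw [smul_eq_algebraMap_mul, zero_add]
      congr 1
      exact (algebraMap_eq_comp F ϖ).symm
  obtain ⟨e, c, he, hc, hec⟩ := key
  exact ⟨e, c, he, hc, hec⟩

end Idem

section Main

variable {ϖ : A} {m : ℕ} {u : F} {Bfin Binf Bmid V : Subalgebra A F}

/-- unmixedness on the middle chart `Bmid = Bfin[1/x]`. -/
theorem unmixed_mid (hV : GaussData ϖ m u V) (hfin : ChartData ϖ m u Bfin V)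
    (hfm : Bfin ≤ Bmid) (x : Bfin) (hx0 : (x : F) ≠ 0) (hxinv : ((x : F))⁻¹ ∈ Bmid)
    (hloc : ∀ f ∈ Bmid, ∃ K : ℕ, (x : F) ^ K * f ∈ Bfin)
    {z : F'} (kb : KummerBasis m u z) {c c' : F'} (hc : IsIntegral Bmid c)
    (hc' : IsIntegral V c') (hcc : c = algebraMap A F' ϖ * c') : IsIntegral Bmid c' := by
  obtain ⟨s, ⟨K, hK⟩, hs⟩ := exists_smul_isIntegral_of_subLoc Bfin Bmid hfm (Submonoid.powers x)
    (by
      rintro s ⟨K, rfl⟩
      simpa using pow_ne_zero K hx0)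
    (by
      intro f hf
      obtain ⟨K, hK⟩ := hloc f hf
      exact ⟨x ^ K, ⟨K, rfl⟩, by simpa using hK⟩)
    (by
      rintro s ⟨K, rfl⟩
      have : (((x ^ K : Bfin) : F))⁻¹ = ((x : F)⁻¹) ^ K := by simp
      rw [this]
      exact Bmid.pow_mem hxinv K) c hc
  have hsF : (s : F) = (x : F) ^ K := by rw [← hK]; simp
  have hs0 : (s : F) ≠ 0 := by rw [hsF]; exact pow_ne_zero K hx0
  have h1 : IsIntegral Bfin (algebraMap F F' (s : F) * c') := by
    refine hfin.unmixed hV kb hs ((isIntegral_algebraMap_of_mem' V (hfin.le_V s.2)).mul hc') ?_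
    rw [hcc]; ring
  have h2 : IsIntegral Bmid (algebraMap F F' (s : F) * c') := isIntegral_of_le hfm h1
  have hsinv : ((s : F))⁻¹ ∈ Bmid := by
    rw [hsF, ← inv_pow]; exact Bmid.pow_mem hxinv K
  have h3 : c' = algebraMap F F' ((s : F)⁻¹) * (algebraMap F F' (s : F) * c') := by
    rw [← mul_assoc, ← map_mul, inv_mul_cancel₀ hs0, map_one, one_mul]
  rw [h3]
  exact (isIntegral_algebraMap_of_mem' Bmid hsinv).mul h2

/-- **ALG_ss, lifting form.**  On a two-chart model `(Bfin, Binf, Bmid = Bfin[1/x])` with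
semilocal Gauss ring `V` (reduced special fibre: `B ∩ ϖ V = ϖ B`), let `u ∈ 1 + ϖ V` admit at every
closed point `𝔪` of the special fibre of each chart a factorisation `u = ε h ^ m` with
`ε ∈ 1 + ϖ B_𝔪`, `h ∈ 1 + ϖ V`.  Then in the Kummer algebra `F' = F[z]/(z ^ m - u)` the element
`E = m⁻¹ ∑ z^i` has lifts `e₁`, `e₂` (modulo `ϖ` times `V`-integral elements) which are integral
over the two charts, idempotent modulo `ϖ` in the integral closure of each chart, and congruent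
modulo `ϖ` on the overlap. -/
theorem exists_kummer_lifts (hV : GaussData ϖ m u V)
    (hfin : ChartData ϖ m u Bfin V) (hinf : ChartData ϖ m u Binf V)
    (hfm : Bfin ≤ Bmid) (him : Binf ≤ Bmid)
    (x : Bfin) (hx0 : (x : F) ≠ 0) (hxinv : ((x : F))⁻¹ ∈ Bmid)
    (hloc : ∀ f ∈ Bmid, ∃ K : ℕ, (x : F) ^ K * f ∈ Bfin)
    {z : F'} (kb : KummerBasis m u z) :
    ∃ e₁ e₂ c₁ : F', IsIntegral Bfin e₁ ∧ IsIntegral Binf e₂ ∧ IsIntegral V c₁ ∧
      kummerE F m z = e₁ + algebraMap A F' ϖ * c₁ ∧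
      (∃ t : F', IsIntegral Bfin t ∧ e₁ ^ 2 - e₁ = algebraMap A F' ϖ * t) ∧
      (∃ t : F', IsIntegral Binf t ∧ e₂ ^ 2 - e₂ = algebraMap A F' ϖ * t) ∧
      (∃ t : F', IsIntegral Bmid t ∧ e₁ - e₂ = algebraMap A F' ϖ * t) := by
  obtain ⟨e₁, c₁, he₁, hc₁, h1⟩ := hfin.exists_lift hV kb
  obtain ⟨e₂, c₂, he₂, hc₂, h2⟩ := hinf.exists_lift hV kb
  obtain ⟨q, hq, hidem⟩ := hV.kummerE_idem kb
  have hE := hV.isIntegral_kummerE kb
  have hϖV : IsIntegral V (algebraMap A F' ϖ) := by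
    rw [algebraMap_eq_comp F]
    exact isIntegral_algebraMap_of_mem' V (V.algebraMap_mem ϖ)
  set E : F' := kummerE F m z with hEdef
  -- idempotency on a chart
  have idem : ∀ (B : Subalgebra A F) (hB : ChartData ϖ m u B V) (e c : F'),
      IsIntegral B e → IsIntegral V c → E = e + algebraMap A F' ϖ * c →
      ∃ t : F', IsIntegral B t ∧ e ^ 2 - e = algebraMap A F' ϖ * t := by
    intro B hB e c he hc hEe
    have hrel : e ^ 2 - e = algebraMap A F' ϖ *
        (q - 2 * c * E + algebraMap A F' ϖ * c ^ 2 + c) := by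
      have he' : e = E - algebraMap A F' ϖ * c := by rw [hEe]; ring
      have : e ^ 2 - e = (E ^ 2 - E) + algebraMap A F' ϖ *
          (- 2 * c * E + algebraMap A F' ϖ * c ^ 2 + c) := by
        rw [he']; ring
      rw [this, hidem]; ring
    have hint : IsIntegral V (q - 2 * c * E + algebraMap A F' ϖ * c ^ 2 + c) := by
      refine IsIntegral.add (IsIntegral.add (IsIntegral.sub hq ?_) (hϖV.mul (hc.pow 2))) hc
      have h2int : IsIntegral V (2 : F') := by
        have : (2 : F') = algebraMap F F' (2 : F) := (map_ofNat (algebraMap F F') 2).symm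
        rw [this]
        exact isIntegral_algebraMap_of_mem' V (by
          have : (2 : F) = 1 + 1 := by norm_num
          rw [this]; exact V.add_mem V.one_mem V.one_mem)
      exact (h2int.mul hc).mul hE
    exact ⟨_, hB.unmixed hV kb ((he.pow 2).sub he) hint hrel, hrel⟩
  refine ⟨e₁, e₂, c₁, he₁, he₂, hc₁, h1, idem Bfin hfin e₁ c₁ he₁ hc₁ h1,
    idem Binf hinf e₂ c₂ he₂ hc₂ h2, ?_⟩
  -- compatibility
  have hrel : e₁ - e₂ = algebraMap A F' ϖ * (c₂ - c₁) := by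
    have e1 : e₁ = E - algebraMap A F' ϖ * c₁ := by rw [h1]; ring
    have e2 : e₂ = E - algebraMap A F' ϖ * c₂ := by rw [h2]; ring
    rw [e1, e2]; ring
  refine ⟨c₂ - c₁, ?_, hrel⟩
  exact unmixed_mid hV hfin hfm x hx0 hxinv hloc kb
    ((isIntegral_of_le hfm he₁).sub (isIntegral_of_le him he₂)) (hc₂.sub hc₁) hrel

/-- coordinates of `V`-integral elements lie in `V`. -/
theorem GaussData.repr_mem (hV : GaussData ϖ m u V) {z : F'} (kb : KummerBasis m u z)
    {y : F'} (hy : IsIntegral V y) (i : Fin m) : kb.basis.repr y i ∈ V := by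
  have hmεV : ((m : F) * u)⁻¹ ∈ V := by
    rw [mul_inv]; exact V.mul_mem (hV.m_inv_mem V) hV.u_inv_mem
  have hmε0 : (m : F) * u ≠ 0 := mul_ne_zero hV.m_ne hV.u_ne
  exact kb.repr_mem_of_isIntegral V hV.closed hV.u_mem hmεV hmε0 hy i

/-- `m⁻¹` is not divisible by `ϖ` in `V`. -/
theorem GaussData.m_inv_ne (hV : GaussData ϖ m u V) (v : F) (hv : v ∈ V) :
    (m : F)⁻¹ ≠ algebraMap A F ϖ * v := by
  intro h
  apply hV.ϖ_inv_notMem
  have h1 : algebraMap A F ϖ * ((m : F) * v) = 1 := by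
    rw [mul_left_comm, ← h, mul_inv_cancel₀ hV.m_ne]
  rw [inv_eq_of_mul_eq_one_right h1]
  exact V.mul_mem (by
    have : (m : F) = algebraMap A F (m : A) := by simp
    rw [this]; exact V.algebraMap_mem _) hv

theorem smul_repr {z : F'} (kb : KummerBasis m u z) (y : F') (i : Fin m) :
    kb.basis.repr (algebraMap A F' ϖ * y) i = algebraMap A F ϖ * kb.basis.repr y i := by
  have : algebraMap A F' ϖ * y = (algebraMap A F ϖ) • y := by
    rw [Algebra.smul_def, algebraMap_eq_comp F]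
  rw [this, map_smul, Finsupp.smul_apply, smul_eq_mul]

/-- **ALG_ss, idempotent form.**  In the situation of `exists_kummer_lifts`, if `m ≥ 2`, the pair
`(e₁, e₂)` is NOT congruent to `0` or `1` modulo `ϖ`.  (If `F'` is a field with the same constants,
a two-chart Čech connectedness lemma for `F'` then gives a contradiction.) -/
theorem exists_kummer_idempotents (hV : GaussData ϖ m u V)
    (hfin : ChartData ϖ m u Bfin V) (hinf : ChartData ϖ m u Binf V)
    (hfm : Bfin ≤ Bmid) (him : Binf ≤ Bmid)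
    (x : Bfin) (hx0 : (x : F) ≠ 0) (hxinv : ((x : F))⁻¹ ∈ Bmid)
    (hloc : ∀ f ∈ Bmid, ∃ K : ℕ, (x : F) ^ K * f ∈ Bfin)
    (hm2 : 2 ≤ m) {z : F'} (kb : KummerBasis m u z) :
    ∃ e₁ e₂ : F', IsIntegral Bfin e₁ ∧ IsIntegral Binf e₂ ∧
      (∃ t : F', IsIntegral Bfin t ∧ e₁ ^ 2 - e₁ = algebraMap A F' ϖ * t) ∧
      (∃ t : F', IsIntegral Binf t ∧ e₂ ^ 2 - e₂ = algebraMap A F' ϖ * t) ∧
      (∃ t : F', IsIntegral Bmid t ∧ e₁ - e₂ = algebraMap A F' ϖ * t) ∧
      (¬ ∃ t : F', IsIntegral Bfin t ∧ e₁ = algebraMap A F' ϖ * t) ∧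
      (¬ ∃ t : F', IsIntegral Bfin t ∧ 1 - e₁ = algebraMap A F' ϖ * t) := by
  obtain ⟨e₁, e₂, c₁, he₁, he₂, hc₁, h1, hi1, hi2, h12⟩ :=
    exists_kummer_lifts hV hfin hinf hfm him x hx0 hxinv hloc kb
  set E : F' := kummerE F m z with hEdef
  refine ⟨e₁, e₂, he₁, he₂, hi1, hi2, h12, ?_, ?_⟩
  · rintro ⟨t, ht, het⟩
    have hEt : E = algebraMap A F' ϖ * (t + c₁) := by rw [h1, het]; ring
    have hint : IsIntegral V (t + c₁) := (isIntegral_of_le hfin.le_V ht).add hc₁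
    have h0 := kummerE_repr kb ⟨0, by omega⟩
    rw [← hEdef, hEt, smul_repr] at h0
    exact hV.m_inv_ne _ (hV.repr_mem kb hint _) h0.symm
  · rintro ⟨t, ht, het⟩
    have hEt : 1 - E = algebraMap A F' ϖ * (t - c₁) := by
      have : 1 - E = (1 - e₁) - algebraMap A F' ϖ * c₁ := by rw [h1]; ring
      rw [this, het]; ring
    have hint : IsIntegral V (t - c₁) := (isIntegral_of_le hfin.le_V ht).sub hc₁
    have h0 : kb.basis.repr (1 - E) ⟨1, by omega⟩ = -(m : F)⁻¹ := by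
      rw [map_sub, Finsupp.sub_apply, one_repr kb, hEdef, kummerE_repr kb]
      simp
    rw [hEt, smul_repr] at h0
    refine hV.m_inv_ne (-(kb.basis.repr (t - c₁) ⟨1, by omega⟩)) (V.neg_mem (hV.repr_mem kb hint _)) ?_
    rw [mul_neg, h0, neg_neg]

end Main

end Fermat.Agent.A2.H348

end
-- ===== PACK-END A2/H348/Glue.lean

-- ===== PACK-BEGIN A2/H348/Root.lean
section


/-!
# A2 / piece E (ALG_ss), part 4: from the Kummer idempotent to an `m`-th root

Mathlib-only.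

* `isIntegral_map_algHom` : `F`-algebra maps preserve integrality over a subalgebra of `F`.
* `GaussData.mem_range_of_sub_one` (**rigidity**): a root `y₀` of `X ^ m - u` (in any field
  extension `Ω` of `F`) which is `≡ 1` modulo `ϖ` times a `V`-integral element lies in `F`.
* `exists_root_of_connected` (**ALG_ss, abstract final form**): in the situation of
  `exists_kummer_lifts`, if every residue field `F' ⧸ 𝔫` of the Kummer algebra satisfies the
  two-chart connectedness statement, then `u = y ^ m` with `y ∈ F`, `y ∈ 1 + ϖ V`.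
-/

set_option autoImplicit false
set_option linter.unusedSectionVars false
set_option linter.style.haveILetI false

open Module Polynomial

namespace Fermat.Agent.A2.H348

variable {A F : Type*} [CommRing A] [Field F] [Algebra A F]

/-- `F`-algebra maps preserve integrality over a subalgebra of `F`. -/
theorem isIntegral_map_algHom (O : Subalgebra A F) {S T : Type*} [CommRing S] [CommRing T]
    [Algebra F S] [Algebra F T] (f : S →ₐ[F] T) {c : S} (hc : IsIntegral O c) :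
    IsIntegral O (f c) := by
  obtain ⟨P, hP, hPc⟩ := hc
  refine ⟨P, hP, ?_⟩
  have h := congrArg (f : S →+* T) hPc
  rw [map_zero, Polynomial.hom_eval₂] at h
  have h2 : ((f : S →+* T).comp (algebraMap O S)) = algebraMap O T := by
    ext a
    exact f.commutes (a : F)
  rw [h2] at h
  exact h

section Rigid

variable {ϖ : A} {m : ℕ} {u : F} {V : Subalgebra A F}
variable {Ω : Type*} [Field Ω] [Algebra F Ω] [Algebra A Ω] [IsScalarTower A F Ω]

/-- a root of unity `η ≠ 1` of order dividing `m`: `m = (1 - η) * S` with `S` a sum of powers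
of `η`. -/
theorem natCast_eq_one_sub_mul {η : Ω} (hη : η ^ m = 1) (hη1 : η ≠ 1) :
    (m : Ω) = (1 - η) * ∑ i ∈ Finset.range m, ∑ j ∈ Finset.range i, η ^ j := by
  have h0 : ∑ i ∈ Finset.range m, η ^ i = 0 := by
    have h2 : (η - 1) * ∑ k ∈ Finset.range m, η ^ k = 0 := by
      rw [mul_geom_sum, hη, sub_self]
    rcases mul_eq_zero.1 h2 with h3 | h3
    · exact absurd (sub_eq_zero.1 h3) hη1
    · exact h3
  have h1 : ∀ i : ℕ, (1 - η) * ∑ j ∈ Finset.range i, η ^ j = 1 - η ^ i := by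
    intro i
    have := mul_geom_sum η i
    linear_combination -this
  rw [Finset.mul_sum, Finset.sum_congr rfl fun i _ => h1 i, Finset.sum_sub_distrib, h0]
  simp

/-- **Rigidity.**  A root `y₀` of `X ^ m - u` with `y₀ - 1 ∈ ϖ · (V-integral elements)` lies in
`F`. -/
theorem GaussData.mem_range_of_sub_one (hV : GaussData ϖ m u V) [IsAlgClosed Ω]
    {y₀ : Ω} (hy : y₀ ^ m = algebraMap F Ω u) {τ : Ω} (hτ : IsIntegral V τ)
    (h : y₀ - 1 = algebraMap F Ω (algebraMap A F ϖ) * τ) :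
    y₀ ∈ Set.range (algebraMap F Ω) := by
  classical
  have hm0 : m ≠ 0 := by
    rintro rfl
    exact hV.m_ne (by simp)
  have hmpos : 0 < m := Nat.pos_of_ne_zero hm0
  have hu0 : u ≠ 0 := hV.u_ne
  have hϖ0 : algebraMap A F ϖ ≠ 0 := hV.ϖ_ne
  have hϖΩ : algebraMap F Ω (algebraMap A F ϖ) ≠ 0 := (_root_.map_ne_zero _).2 hϖ0
  have hy0 : y₀ ≠ 0 := by
    intro h0
    rw [h0, zero_pow hm0] at hy
    exact hu0 ((map_eq_zero (algebraMap F Ω)).1 hy.symm)
  have hyint : IsIntegral F y₀ := by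
    refine IsIntegral.of_pow hmpos ?_
    rw [hy]; exact isIntegral_algebraMap
  by_contra hnot
  have hdeg : 2 ≤ (minpoly F y₀).natDegree := (minpoly.two_le_natDegree_iff hyint).2 hnot
  set P := minpoly F y₀ with hP
  have hdvd : P ∣ X ^ m - C u := minpoly.dvd F y₀ (by simp [hy])
  have hsep : (P.map (algebraMap F Ω)).Separable :=
    ((separable_X_pow_sub_C u hV.m_ne hu0).of_dvd hdvd).map
  have hnodup := nodup_roots hsep
  have hcard : (P.map (algebraMap F Ω)).roots.card = P.natDegree := by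
    rw [IsAlgClosed.card_roots_eq_natDegree, natDegree_map]
  -- another root
  obtain ⟨y₁, hy₁mem, hy₁ne⟩ : ∃ y₁ ∈ (P.map (algebraMap F Ω)).roots, y₁ ≠ y₀ := by
    by_contra hcon
    simp only [not_exists, not_and, not_not] at hcon
    have hsub : (P.map (algebraMap F Ω)).roots ≤ {y₀} := by
      rw [Multiset.le_iff_subset hnodup]
      intro y hy'
      rw [Multiset.mem_singleton]
      exact hcon y hy'
    have := Multiset.card_le_card hsub
    rw [hcard, Multiset.card_singleton] at this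
    omega
  have hPne : P.map (algebraMap F Ω) ≠ 0 :=
    map_monic_ne_zero (minpoly.monic hyint)
  have hy₁P : aeval y₁ P = 0 := by
    have := (mem_roots hPne).1 hy₁mem
    rwa [IsRoot.def, eval_map, ← aeval_def] at this
  have haeval_of_dvd : ∀ G : F[X], aeval y₀ G = 0 → aeval y₁ G = 0 := by
    intro G hG
    obtain ⟨Q, hQ⟩ := minpoly.dvd F y₀ hG
    rw [hQ, map_mul, hy₁P, zero_mul]
  have hy₁ : y₁ ^ m = algebraMap F Ω u := by
    have := haeval_of_dvd (X ^ m - C u) (by simp [hy])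
    simpa [sub_eq_zero] using this
  -- transport of integrality
  obtain ⟨Q₀, hQ₀m, hQ₀⟩ := hτ
  set ϖ' : F := algebraMap A F ϖ with hϖ'
  set G : F[X] := (Q₀.map (algebraMap V F)).comp (C ϖ'⁻¹ * (X - 1)) with hG
  have hGeval : ∀ y : Ω, aeval y G =
      eval₂ (algebraMap V Ω) (algebraMap F Ω ϖ'⁻¹ * (y - 1)) Q₀ := by
    intro y
    rw [hG, aeval_comp, aeval_def, eval₂_map]
    have : (algebraMap F Ω).comp (algebraMap V F) = algebraMap V Ω := by
      ext a; rfl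
    rw [this]
    simp
  have hτeq : algebraMap F Ω ϖ'⁻¹ * (y₀ - 1) = τ := by
    rw [h, ← mul_assoc, ← map_mul, inv_mul_cancel₀ hϖ0, map_one, one_mul]
  have hG0 : aeval y₀ G = 0 := by rw [hGeval, hτeq]; exact hQ₀
  have hG1 := haeval_of_dvd G hG0
  rw [hGeval] at hG1
  set τ₁ : Ω := algebraMap F Ω ϖ'⁻¹ * (y₁ - 1) with hτ₁
  have hτ₁int : IsIntegral V τ₁ := ⟨Q₀, hQ₀m, hG1⟩
  have hτint : IsIntegral V τ := ⟨Q₀, hQ₀m, hQ₀⟩
  have h1 : y₁ - 1 = algebraMap F Ω ϖ' * τ₁ := by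
    rw [hτ₁, ← mul_assoc, ← map_mul, mul_inv_cancel₀ hϖ0, map_one, one_mul]
  -- the root of unity
  set η : Ω := y₁ * y₀⁻¹ with hη
  have hηm : η ^ m = 1 := by
    rw [hη, mul_pow, inv_pow, hy₁, hy, mul_inv_cancel₀]
    exact (_root_.map_ne_zero _).2 hu0
  have hη1 : η ≠ 1 := by
    intro h1'
    apply hy₁ne
    have : y₁ = η * y₀ := by rw [hη, mul_assoc, inv_mul_cancel₀ hy0, mul_one]
    rw [this, h1', one_mul]
  have hηint : IsIntegral V η := by
    refine IsIntegral.of_pow hmpos ?_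
    rw [hηm]; exact isIntegral_one
  have hy0inv : IsIntegral V y₀⁻¹ := by
    refine IsIntegral.of_pow hmpos ?_
    rw [inv_pow, hy, ← map_inv₀]
    exact isIntegral_algebraMap_of_mem' V hV.u_inv_mem
  have hone : 1 - η = algebraMap F Ω ϖ' * ((τ - τ₁) * y₀⁻¹) := by
    have : 1 - η = (y₀ - y₁) * y₀⁻¹ := by
      rw [hη, sub_mul, mul_inv_cancel₀ hy0]
    rw [this]
    have : y₀ - y₁ = algebraMap F Ω ϖ' * (τ - τ₁) := by
      have e0 : y₀ = 1 + algebraMap F Ω ϖ' * τ := by rw [← h]; ring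
      have e1 : y₁ = 1 + algebraMap F Ω ϖ' * τ₁ := by rw [← h1]; ring
      rw [e0, e1]; ring
    rw [this]; ring
  have hmeq := natCast_eq_one_sub_mul hηm hη1
  set S : Ω := ∑ i ∈ Finset.range m, ∑ j ∈ Finset.range i, η ^ j with hS
  have hSint : IsIntegral V S :=
    IsIntegral.sum _ fun i _ => IsIntegral.sum _ fun j _ => hηint.pow j
  have hT : IsIntegral V ((τ - τ₁) * y₀⁻¹ * S) := ((hτint.sub hτ₁int).mul hy0inv).mul hSint
  have hmT : algebraMap F Ω ((m : F) * ϖ'⁻¹) = (τ - τ₁) * y₀⁻¹ * S := by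
    have hm' : algebraMap F Ω (m : F) = (m : Ω) := by simp
    rw [map_mul, hm', hmeq, hone, map_inv₀]
    field_simp
  rw [← hmT] at hT
  have hmem : (m : F) * ϖ'⁻¹ ∈ V :=
    hV.closed _ ((isIntegral_algebraMap_iff (algebraMap F Ω).injective).1 hT)
  apply hV.ϖ_inv_notMem
  have : ϖ'⁻¹ = (m : F)⁻¹ * ((m : F) * ϖ'⁻¹) := by
    rw [← mul_assoc, inv_mul_cancel₀ hV.m_ne, one_mul]
  rw [this]
  exact V.mul_mem (hV.m_inv_mem V) hmem

end Rigid

section Main

variable {F' : Type*} [CommRing F'] [Nontrivial F'] [Algebra F F'] [Algebra A F']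
  [IsScalarTower A F F']
variable {ϖ : A} {m : ℕ} {u : F} {Bfin Binf Bmid V : Subalgebra A F}

/-- The two-chart connectedness statement for an `F`-algebra `L` (in the application: a finite
field extension of `F` with the same constants), in the language of integrality over the charts
of `F`. -/
def ConnAt (ϖ : A) (Bfin Binf Bmid : Subalgebra A F) (L : Type*) [CommRing L] [Algebra F L] :
    Prop :=
  ∀ e₁ e₂ : L, IsIntegral Bfin e₁ → IsIntegral Binf e₂ →
    (∃ t : L, IsIntegral Bfin t ∧ e₁ ^ 2 - e₁ = algebraMap F L (algebraMap A F ϖ) * t) →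
    (∃ t : L, IsIntegral Binf t ∧ e₂ ^ 2 - e₂ = algebraMap F L (algebraMap A F ϖ) * t) →
    (∃ t : L, IsIntegral Bmid t ∧ e₁ - e₂ = algebraMap F L (algebraMap A F ϖ) * t) →
    (∃ t : L, IsIntegral Bfin t ∧ e₁ = algebraMap F L (algebraMap A F ϖ) * t) ∨
    (∃ t : L, IsIntegral Bfin t ∧ 1 - e₁ = algebraMap F L (algebraMap A F ϖ) * t)

omit [Nontrivial F'] [Algebra A F] [Algebra A F'] [IsScalarTower A F F'] in
theorem kummerE_mul_sub_one (hm : (m : F) ≠ 0) {z : F'} (hz : z ^ m = algebraMap F F' u) :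
    algebraMap F F' (m : F) * kummerE F m z * (z - 1) = algebraMap F F' (u - 1) := by
  unfold kummerE
  rw [← mul_assoc, ← map_mul, mul_inv_cancel₀ hm, map_one, one_mul, geom_sum_mul, hz, map_sub,
    map_one]

/-- **ALG_ss, abstract final form.**  On a two-chart model `(Bfin, Binf, Bmid = Bfin[1/x])` with
semilocal Gauss ring `V` and reduced special fibre, let `u ∈ 1 + ϖ V` admit local factorisations
`u = ε h ^ m` (`ε ∈ 1 + ϖ B_𝔪`, `h ∈ 1 + ϖ V`) at every closed point of the special fibre of both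
charts.  If the special fibres of the normalisations of the model in the residue fields of the
Kummer algebra `F' = F[z]/(z ^ m - u)` are connected (`ConnAt`), then `u` is the `m`-th power of an
element of `F` which is `≡ 1` modulo `ϖ V`. -/
theorem exists_root_of_connected (hV : GaussData ϖ m u V)
    (hfin : ChartData ϖ m u Bfin V) (hinf : ChartData ϖ m u Binf V)
    (hfm : Bfin ≤ Bmid) (him : Binf ≤ Bmid)
    (x : Bfin) (hx0 : (x : F) ≠ 0) (hxinv : ((x : F))⁻¹ ∈ Bmid)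
    (hloc : ∀ f ∈ Bmid, ∃ K : ℕ, (x : F) ^ K * f ∈ Bfin)
    {z : F'} (kb : KummerBasis m u z)
    (hconn : ∀ 𝔫 : Ideal F', 𝔫.IsMaximal → ConnAt ϖ Bfin Binf Bmid (F' ⧸ 𝔫)) :
    ∃ y : F, y ^ m = u ∧ ∃ t ∈ V, y = 1 + algebraMap A F ϖ * t := by
  classical
  obtain ⟨e₁, e₂, c₁, he₁, he₂, hc₁, hE, hi1, hi2, h12⟩ :=
    exists_kummer_lifts hV hfin hinf hfm him x hx0 hxinv hloc kb
  have hm0 : (m : F) ≠ 0 := hV.m_ne
  haveI : NeZero (m : F) := ⟨hm0⟩
  have hmpos : 0 < m := kb.m_pos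
  have hϖ0 : algebraMap A F ϖ ≠ 0 := hV.ϖ_ne
  set Ω := AlgebraicClosure F with hΩ
  obtain ⟨ω, hω⟩ := HasEnoughRootsOfUnity.exists_primitiveRoot Ω m
  obtain ⟨r, hr⟩ := IsAlgClosed.exists_pow_nat_eq (algebraMap F Ω u) hmpos
  haveI := kb.finiteDimensional
  haveI : IsArtinianRing F' := IsArtinianRing.of_finite F F'
  -- the evaluations
  set ev : ℕ → (F' →ₐ[F] Ω) :=
    fun k => kb.evalAt (ω ^ k * r) (KummerBasis.mul_pow_eq hω hr k) with hev
  set ϖ' : F := algebraMap A F ϖ with hϖ'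
  have hϖF' : algebraMap A F' ϖ = algebraMap F F' ϖ' := algebraMap_eq_comp F ϖ
  -- the alternative at each evaluation
  have key : ∀ k : ℕ, (∃ τ : Ω, IsIntegral Bfin τ ∧ ev k e₁ = algebraMap F Ω ϖ' * τ) ∨
      (∃ τ : Ω, IsIntegral Bfin τ ∧ 1 - ev k e₁ = algebraMap F Ω ϖ' * τ) := by
    intro k
    set 𝔫 : Ideal F' := RingHom.ker (ev k : F' →+* Ω) with h𝔫
    haveI : 𝔫.IsPrime := RingHom.ker_isPrime _
    haveI : 𝔫.IsMaximal := inferInstance
    set π : F' →ₐ[F] F' ⧸ 𝔫 := Ideal.Quotient.mkₐ F 𝔫 with hπ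
    set ι : F' ⧸ 𝔫 →ₐ[F] Ω := Ideal.Quotient.liftₐ 𝔫 (ev k) (fun a ha => ha) with hι
    have hιπ : ∀ a, ι (π a) = ev k a := fun a => rfl
    have hrel : ∀ a t : F', a = algebraMap A F' ϖ * t →
        π a = algebraMap F (F' ⧸ 𝔫) ϖ' * π t := by
      intro a t h
      rw [h, hϖF', map_mul, AlgHom.commutes]
    have hc := hconn 𝔫 inferInstance (π e₁) (π e₂) (isIntegral_map_algHom Bfin π he₁)
      (isIntegral_map_algHom Binf π he₂)
      (by
        obtain ⟨t, ht, h⟩ := hi1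
        refine ⟨π t, isIntegral_map_algHom Bfin π ht, ?_⟩
        rw [← hrel _ t h, map_sub, map_pow])
      (by
        obtain ⟨t, ht, h⟩ := hi2
        refine ⟨π t, isIntegral_map_algHom Binf π ht, ?_⟩
        rw [← hrel _ t h, map_sub, map_pow])
      (by
        obtain ⟨t, ht, h⟩ := h12
        refine ⟨π t, isIntegral_map_algHom Bmid π ht, ?_⟩
        rw [← hrel _ t h, map_sub])
    rcases hc with ⟨t, ht, h⟩ | ⟨t, ht, h⟩
    · left
      refine ⟨ι t, isIntegral_map_algHom Bfin ι ht, ?_⟩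
      have := congrArg ι h
      rw [hιπ, map_mul, AlgHom.commutes] at this
      exact this
    · right
      refine ⟨ι t, isIntegral_map_algHom Bfin ι ht, ?_⟩
      have := congrArg ι h
      rw [map_sub, map_one, hιπ, map_mul, AlgHom.commutes] at this
      exact this
  by_cases hB : ∃ k : ℕ, ∃ τ : Ω, IsIntegral Bfin τ ∧ 1 - ev k e₁ = algebraMap F Ω ϖ' * τ
  · -- rigidity
    obtain ⟨k, τ, hτ, hk⟩ := hB
    set y₀ : Ω := ω ^ k * r with hy₀def
    have hy₀ : y₀ ^ m = algebraMap F Ω u := KummerBasis.mul_pow_eq hω hr k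
    have hevz : ev k z = y₀ := kb.evalAt_zeta _ _
    have hevE : ev k (kummerE F m z) = ev k e₁ + algebraMap F Ω ϖ' * ev k c₁ := by
      rw [hE, map_add, map_mul, hϖF', AlgHom.commutes]
    have h1E : 1 - ev k (kummerE F m z) = algebraMap F Ω ϖ' * (τ - ev k c₁) := by
      rw [hevE]; linear_combination hk
    obtain ⟨t₀, ht₀, hu⟩ := hV.u_one
    have hmE : algebraMap F Ω (m : F) * ev k (kummerE F m z) * (y₀ - 1) =
        algebraMap F Ω (u - 1) := by
      have := congrArg (ev k) (kummerE_mul_sub_one (F := F) hm0 kb.pow_eq)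
      rw [map_mul, map_mul, map_sub, map_one, hevz, AlgHom.commutes, AlgHom.commutes] at this
      exact this
    have hu' : algebraMap F Ω (u - 1) = algebraMap F Ω ϖ' * algebraMap F Ω t₀ := by
      rw [hu, ← map_mul]; congr 1; ring
    have hmΩ : algebraMap F Ω (m : F) * algebraMap F Ω ((m : F)⁻¹) = 1 := by
      rw [← map_mul, mul_inv_cancel₀ hm0, map_one]
    have hy1 : y₀ - 1 = algebraMap F Ω ϖ' *
        ((y₀ - 1) * (τ - ev k c₁) + algebraMap F Ω ((m : F)⁻¹) * algebraMap F Ω t₀) := by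
      linear_combination (y₀ - 1) * h1E + algebraMap F Ω ((m : F)⁻¹) * hmE +
        algebraMap F Ω ((m : F)⁻¹) * hu' - ((y₀ - 1) * ev k (kummerE F m z)) * hmΩ
    have hy₀int : IsIntegral V y₀ := by
      refine IsIntegral.of_pow hmpos ?_
      rw [hy₀]; exact isIntegral_algebraMap_of_mem' V hV.u_mem
    have hτ' : IsIntegral V
        ((y₀ - 1) * (τ - ev k c₁) + algebraMap F Ω ((m : F)⁻¹) * algebraMap F Ω t₀) := by
      refine IsIntegral.add (IsIntegral.mul (hy₀int.sub isIntegral_one)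
        ((isIntegral_of_le hfin.le_V hτ).sub (isIntegral_map_algHom V (ev k) hc₁))) ?_
      exact (isIntegral_algebraMap_of_mem' V (hV.m_inv_mem V)).mul
        (isIntegral_algebraMap_of_mem' V ht₀)
    obtain ⟨y, hy⟩ := hV.mem_range_of_sub_one hy₀ hτ' hy1
    have hinj := (algebraMap F Ω).injective
    refine ⟨y, ?_, (y - 1) * ϖ'⁻¹, ?_, ?_⟩
    · apply hinj
      rw [map_pow, hy, hy₀]
    · apply hV.closed
      rw [← isIntegral_algebraMap_iff (B := Ω) hinj]
      have : algebraMap F Ω ((y - 1) * ϖ'⁻¹) =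
          (y₀ - 1) * (τ - ev k c₁) + algebraMap F Ω ((m : F)⁻¹) * algebraMap F Ω t₀ := by
        have hϖΩ : algebraMap F Ω ϖ' ≠ 0 := (_root_.map_ne_zero _).2 hϖ0
        apply mul_left_cancel₀ hϖΩ
        rw [← hy1, ← map_mul, mul_comm (y - 1), ← mul_assoc, mul_inv_cancel₀ hϖ0, one_mul,
          map_sub, map_one, hy]
      rw [this]
      exact hτ'
    · rw [mul_comm (y - 1), ← mul_assoc, mul_inv_cancel₀ hϖ0]
      ring
  · -- impossible: all evaluations of `e₁` vanish modulo `ϖ`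
    exfalso
    have hA : ∀ k : ℕ, ∃ τ : Ω, IsIntegral Bfin τ ∧ ev k e₁ = algebraMap F Ω ϖ' * τ :=
      fun k => (key k).resolve_right fun h => hB ⟨k, h⟩
    choose τ hτint hτ using hA
    have hsum := kb.sum_evalAt hω hr e₁ ⟨0, hmpos⟩
    simp only [Nat.sub_zero, hω.pow_eq_one, one_pow, one_mul, pow_zero, mul_one] at hsum
    have hsum' : ∑ k ∈ Finset.range m, ev k e₁ =
        (m : Ω) * algebraMap F Ω (kb.basis.repr e₁ ⟨0, hmpos⟩) := hsum
    rw [Finset.sum_congr rfl fun k _ => hτ k, ← Finset.mul_sum] at hsum'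
    have hmΩ : (m : Ω) = algebraMap F Ω (m : F) := by simp
    have hint : IsIntegral V (algebraMap F Ω ((m : F)⁻¹) * ∑ k ∈ Finset.range m, τ k) :=
      (isIntegral_algebraMap_of_mem' V (hV.m_inv_mem V)).mul
        (IsIntegral.sum _ fun k _ => isIntegral_of_le hfin.le_V (hτint k))
    have heq : algebraMap F Ω (kb.basis.repr e₁ ⟨0, hmpos⟩ * ϖ'⁻¹) =
        algebraMap F Ω ((m : F)⁻¹) * ∑ k ∈ Finset.range m, τ k := by
      have hSumτ : ∑ k ∈ Finset.range m, τ k =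
          algebraMap F Ω ϖ'⁻¹ * ((m : Ω) * algebraMap F Ω (kb.basis.repr e₁ ⟨0, hmpos⟩)) := by
        rw [← hsum', ← mul_assoc, ← map_mul, inv_mul_cancel₀ hϖ0, map_one, one_mul]
      rw [hSumτ, hmΩ]
      simp only [← map_mul]
      congr 1
      field_simp
    rw [← heq] at hint
    have hv : kb.basis.repr e₁ ⟨0, hmpos⟩ * ϖ'⁻¹ ∈ V :=
      hV.closed _ ((isIntegral_algebraMap_iff (algebraMap F Ω).injective).1 hint)
    have h0 := kummerE_repr kb ⟨0, hmpos⟩
    rw [hE, map_add, Finsupp.add_apply, smul_repr] at h0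
    refine hV.m_inv_ne (kb.basis.repr e₁ ⟨0, hmpos⟩ * ϖ'⁻¹ + kb.basis.repr c₁ ⟨0, hmpos⟩)
      (V.add_mem hv (hV.repr_mem kb hc₁ _)) ?_
    rw [← h0, mul_add, mul_comm (kb.basis.repr e₁ ⟨0, hmpos⟩), ← mul_assoc,
      mul_inv_cancel₀ hϖ0, one_mul]

end Main

end Fermat.Agent.A2.H348

end
-- ===== PACK-END A2/H348/Root.lean

-- ===== PACK-BEGIN A2/H552/KummerConst.lean
section





/-!
# A2 / ALG, COVER-CONST (helper552): a Kummer cover `K(u^{1/m})`, `u ≡ 1 mod w`, has no new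
constants over a Henselian base

`R` a Henselian discrete valuation ring with algebraically closed residue field, uniformiser `w`,
`E = Frac R` of characteristic zero, `m` invertible in the residue field.

* `exists_isPrimitiveRoot_of_henselian` : `R` contains a primitive `m`-th root of unity.
* `kummer_no_new_constants` : `K ⊇ R` a field with a valuation subring `V ⊇ R` with uniformiser
  `w` (in the application: the Gauss valuation ring `V∞` of the function field), `Ω = K[z]`,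
  `z ^ m = 1 + w t`, `t ∈ V`.  Then `E` is algebraically closed in `Ω`.
* `kummer_isIntegral_mem_range` : hence `R` is integrally closed in `Ω`
  (= hypothesis `hRF` of `A2.H193.kummer_root_mem` / `S18.H138.connected_special_fibre`
  for the cover `Ω`).
-/

set_option autoImplicit false

namespace Fermat.Agent.A2.H552

open Polynomial IsLocalRing

section Roots

variable {R : Type*} [CommRing R] [HenselianLocalRing R] [IsAlgClosed (ResidueField R)]

/-- A Henselian local ring with algebraically closed residue field contains a primitive `m`-th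
root of unity, for `m` invertible in the residue field. -/
theorem exists_isPrimitiveRoot_of_henselian (m : ℕ) (hm : (m : ResidueField R) ≠ 0) :
    ∃ ζ : R, IsPrimitiveRoot ζ m := by
  have hm0 : m ≠ 0 := by
    rintro rfl
    exact hm (by simp)
  have : NeZero (m : ResidueField R) := ⟨hm⟩
  obtain ⟨ζb, hζb⟩ := HasEnoughRootsOfUnity.prim (M := ResidueField R) (n := m)
  have hζb0 : ζb ≠ 0 := hζb.ne_zero hm0
  obtain ⟨ζ, hζ, hres⟩ := exists_root_of_residue_simple_root (X ^ m - C (1 : R))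
    (monic_X_pow_sub_C 1 hm0) ζb
    (by simp [hζb.pow_eq_one])
    (by
      simp only [Polynomial.map_sub, Polynomial.map_pow, map_X, map_C, derivative_sub,
        derivative_X_pow, derivative_C, sub_zero, eval_mul, eval_C, eval_pow, eval_X]
      exact mul_ne_zero hm (pow_ne_zero _ hζb0))
  have hζm : ζ ^ m = 1 := by
    have : (X ^ m - C (1 : R)).eval ζ = 0 := hζ
    simpa [sub_eq_zero] using this
  refine ⟨ζ, hζm, fun l hl => ?_⟩
  apply hζb.dvd_of_pow_eq_one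
  rw [← hres, ← map_pow, hl, map_one]

end Roots

section Cover

variable {R E K Ω : Type*} [CommRing R] [IsDomain R] [IsDiscreteValuationRing R]
  [HenselianLocalRing R] [IsAlgClosed (ResidueField R)]
  [Field E] [CharZero E] [Algebra R E] [IsFractionRing R E]
  [Field K] [Algebra R K] [Field Ω] [Algebra K Ω] [Algebra E Ω] [Algebra R Ω]
  [IsScalarTower R E Ω] [IsScalarTower R K Ω]

/-- **COVER-CONST.**  A Kummer cover `Ω = K[z]`, `z ^ m = 1 + w t`, of a field `K` carrying an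
unramified discrete valuation ring `V ⊇ R` has no new constants: `E = Frac R` is algebraically
closed in `Ω`. -/
theorem kummer_no_new_constants (w : R) (hw : Irreducible w) (V : ValuationSubring K)
    (hRV : ∀ r : R, algebraMap R K r ∈ V)
    (hwV : (algebraMap R K w)⁻¹ ∉ V)
    (hVgen : ∀ a ∈ V, a⁻¹ ∉ V → a * (algebraMap R K w)⁻¹ ∈ V)
    (hdisc : ∀ c : K, ∃ k : ℕ, algebraMap R K w ^ k * c ∈ V)
    (m : ℕ) (hm : (m : ResidueField R) ≠ 0)
    (t : K) (ht : t ∈ V) (z : Ω)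
    (hz : z ^ m = algebraMap K Ω (1 + algebraMap R K w * t))
    (hgen : ∀ b : Ω, b ∈ Algebra.adjoin K ({z} : Set Ω))
    (y : Ω) (hy : IsAlgebraic E y) : y ∈ (algebraMap E Ω).range := by
  have hm0 : m ≠ 0 := by
    rintro rfl
    exact hm (by simp)
  have hinjRE : Function.Injective (algebraMap R E) := IsFractionRing.injective R E
  have hinjRΩ : Function.Injective (algebraMap R Ω) := by
    rw [IsScalarTower.algebraMap_eq R E Ω]
    exact (algebraMap E Ω).injective.comp hinjRE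
  have hinjRK : Function.Injective (algebraMap R K) := by
    intro a b h
    apply hinjRΩ
    rw [IsScalarTower.algebraMap_apply R K Ω, IsScalarTower.algebraMap_apply R K Ω, h]
  have hwK0 : algebraMap R K w ≠ 0 := fun h => hw.ne_zero (hinjRK (by rw [h, map_zero]))
  -- roots of unity and `1/m`
  obtain ⟨ζ, hζ⟩ := exists_isPrimitiveRoot_of_henselian (R := R) m hm
  have hζK : IsPrimitiveRoot (algebraMap R K ζ) m := hζ.map_of_injective hinjRK
  have hmu : IsUnit ((m : ℕ) : R) := by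
    rw [← IsLocalRing.notMem_maximalIdeal, ← residue_eq_zero_iff, map_natCast]
    exact hm
  obtain ⟨mi, hmi⟩ := hmu.exists_right_inv
  have hmK : (m : K) * algebraMap R K mi = 1 := by
    have := congrArg (algebraMap R K) hmi
    simpa using this
  have hmK0 : (m : K) ≠ 0 := left_ne_zero_of_mul_eq_one hmK
  have hmKinv : ((m : K))⁻¹ ∈ V := by
    rw [inv_eq_of_mul_eq_one_right hmK]
    exact hRV mi
  -- a valuation subring of `Ω` dominating `V`
  obtain ⟨W, hle, hloc⟩ := (LocalSubring.range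
    ((algebraMap K Ω).comp V.subtype)).exists_le_valuationSubring
  have hVW : ∀ a ∈ V, algebraMap K Ω a ∈ W := fun a ha =>
    hle ⟨⟨a, ha⟩, rfl⟩
  have hwW : (algebraMap K Ω (algebraMap R K w))⁻¹ ∉ W := by
    intro hmem
    set f := (algebraMap K Ω).comp V.subtype with hf
    have hwr : algebraMap K Ω (algebraMap R K w) ∈ (LocalSubring.range f).toSubring :=
      ⟨⟨algebraMap R K w, hRV w⟩, rfl⟩
    have hu : IsUnit (Subring.inclusion hle ⟨_, hwr⟩) := by
      refine IsUnit.of_mul_eq_one ⟨(algebraMap K Ω (algebraMap R K w))⁻¹, hmem⟩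
        (Subtype.ext ?_)
      change algebraMap K Ω (algebraMap R K w) * (algebraMap K Ω (algebraMap R K w))⁻¹ = 1
      exact mul_inv_cancel₀ (fun h => hwK0 ((algebraMap K Ω).injective (by rw [h, map_zero])))
    have hu' := hloc.map_nonunit _ hu
    obtain ⟨c, hc⟩ := hu'.exists_right_inv
    obtain ⟨⟨b, hb⟩, hbc⟩ := c.2
    have h1 : algebraMap K Ω (algebraMap R K w) * algebraMap K Ω b = 1 := by
      have := congrArg Subtype.val hc
      simp only [Subring.coe_mul, Subring.coe_one] at this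
      rw [← this, ← hbc]
      rfl
    have h2 : algebraMap R K w * b = 1 := by
      apply (algebraMap K Ω).injective
      rw [map_mul, h1, map_one]
    apply hwV
    rw [inv_eq_of_mul_eq_one_right h2]
    exact hb
  have hunr := (kummer_unramified V W hVW (algebraMap R K w) (hRV w) hwK0 hwW hVgen hdisc m
    (Nat.pos_of_ne_zero hm0) hmK0 hmKinv (algebraMap R K ζ) hζK t ht z hz hgen).1
  have hRW : ∀ r : R, algebraMap R Ω r ∈ W := fun r => by
    rw [IsScalarTower.algebraMap_apply R K Ω]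
    exact hVW _ (hRV r)
  rw [← IsScalarTower.algebraMap_apply R K Ω] at hwW hunr
  exact mem_range_of_isAlgebraic_of_valuationSubring w hw W hRW hwW hunr y hy

variable (E) in
include E in
/-- **COVER-CONST, integral form**: `R` is integrally closed in the Kummer cover `Ω`. -/
theorem kummer_isIntegral_mem_range (w : R) (hw : Irreducible w) (V : ValuationSubring K)
    (hRV : ∀ r : R, algebraMap R K r ∈ V)
    (hwV : (algebraMap R K w)⁻¹ ∉ V)
    (hVgen : ∀ a ∈ V, a⁻¹ ∉ V → a * (algebraMap R K w)⁻¹ ∈ V)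
    (hdisc : ∀ c : K, ∃ k : ℕ, algebraMap R K w ^ k * c ∈ V)
    (m : ℕ) (hm : (m : ResidueField R) ≠ 0)
    (t : K) (ht : t ∈ V) (z : Ω)
    (hz : z ^ m = algebraMap K Ω (1 + algebraMap R K w * t))
    (hgen : ∀ b : Ω, b ∈ Algebra.adjoin K ({z} : Set Ω))
    (y : Ω) (hy : IsIntegral R y) : y ∈ Set.range (algebraMap R Ω) := by
  have hyalg : IsAlgebraic E y :=
    (IsFractionRing.isAlgebraic_iff R E Ω).mp hy.isAlgebraic
  obtain ⟨e, rfl⟩ := kummer_no_new_constants (E := E) w hw V hRV hwV hVgen hdisc m hm t ht z hz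
    hgen y hyalg
  have he : IsIntegral R e :=
    (isIntegral_algebraMap_iff (algebraMap E Ω).injective).mp hy
  obtain ⟨r, rfl⟩ := (IsIntegrallyClosed.isIntegral_iff (R := R) (K := E)).mp he
  exact ⟨r, IsScalarTower.algebraMap_apply R E Ω r⟩

end Cover

end Fermat.Agent.A2.H552

end
-- ===== PACK-END A2/H552/KummerConst.lean

-- ===== PACK-BEGIN A2/H609/Branch.lean
section




/-!
# Node purity, part 6: branches

Elementary facts on a discrete valuation ring `D` with a uniformiser `ϖ`, their translation to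
a prime `𝔭` of a local ring `R` with `R ⧸ 𝔭` a discrete valuation ring (a "branch"), and the
length of the chain `(z ^ n) + 𝔞`.  Mathlib only.
-/

set_option autoImplicit false

namespace Fermat.Agent.A2.H609

open Ideal

section DVRFacts

variable {D : Type*} [CommRing D] [IsDomain D]

/-- `ϖ ^ b ≠ ϖ ^ (b + 1) * g` for an irreducible `ϖ`. -/
theorem pow_ne_pow_succ_mul {ϖ : D} (hϖ : Irreducible ϖ) (b : ℕ) (g : D) :
    ϖ ^ b ≠ ϖ ^ (b + 1) * g := by
  intro h
  have h0 : ϖ ^ b ≠ 0 := pow_ne_zero _ hϖ.ne_zero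
  have h1 : ϖ ^ b * 1 = ϖ ^ b * (ϖ * g) := by
    rw [mul_one, ← mul_assoc, ← pow_succ]
    exact h
  have h2 := mul_left_cancel₀ h0 h1
  exact hϖ.not_isUnit (IsUnit.of_mul_eq_one g h2.symm)

variable [IsDiscreteValuationRing D]

/-- In a discrete valuation ring, a nonzero element associated to an `m`-th power is
`unit * ϖ ^ (m * a)`. -/
theorem exists_eq_unit_mul_pow_mul_of_associated_pow {ϖ : D} (hϖ : Irreducible ϖ) {m : ℕ}
    (hm : m ≠ 0) {v z : D} (hz : z ≠ 0) (h : Associated (v ^ m) z) :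
    ∃ (a : ℕ) (ε : Dˣ), z = ε * ϖ ^ (m * a) := by
  have hv : v ≠ 0 := by
    rintro rfl
    rw [zero_pow hm] at h
    exact hz (by simpa using h.symm.eq_zero_iff.mpr rfl)
  obtain ⟨a, ε₀, hv'⟩ := IsDiscreteValuationRing.eq_unit_mul_pow_irreducible hv hϖ
  obtain ⟨w, hw⟩ := h
  refine ⟨a, ε₀ ^ m * w, ?_⟩
  rw [← hw, hv']
  push_cast
  ring

/-- In a discrete valuation ring, `ϖ ^ (m * a + 1) ∣ z ^ m → ϖ ^ (a + 1) ∣ z`. -/
theorem pow_succ_dvd_of_pow_mul_succ_dvd_pow {ϖ : D} (hϖ : Irreducible ϖ) {m a : ℕ}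
    {z : D} (h : ϖ ^ (m * a + 1) ∣ z ^ m) : ϖ ^ (a + 1) ∣ z := by
  by_cases hz : z = 0
  · rw [hz]
    exact dvd_zero _
  obtain ⟨n, ε, hn⟩ := IsDiscreteValuationRing.eq_unit_mul_pow_irreducible hz hϖ
  have h1 : ϖ ^ (m * a + 1) ∣ ϖ ^ (n * m) := by
    have h2 : z ^ m = (ε ^ m : Dˣ) * ϖ ^ (n * m) := by
      rw [hn]
      push_cast
      ring
    rw [h2] at h
    exact (Units.dvd_mul_left).mp h
  have h3 : m * a + 1 ≤ n * m := (pow_dvd_pow_iff hϖ.ne_zero hϖ.not_isUnit).mp h1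
  have h4 : a + 1 ≤ n := by
    rcases Nat.lt_or_ge n (a + 1) with hcon | hcon
    · have h5 : n ≤ a := Nat.lt_succ_iff.mp hcon
      have h6 : n * m ≤ m * a := by
        rw [mul_comm n m]
        exact Nat.mul_le_mul_left m h5
      omega
    · exact hcon
  rw [hn]
  exact Dvd.dvd.mul_left (pow_dvd_pow ϖ h4) _

end DVRFacts

section Branch

variable {R : Type*} [CommRing R] [IsLocalRing R]
variable (𝔭 : Ideal R) [𝔭.IsPrime] [IsDiscreteValuationRing (R ⧸ 𝔭)]

/-- Non-units of `R` are divisible by a uniformiser modulo `𝔭`. -/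
theorem exists_sub_mul_mem_of_mem_maximalIdeal {x : R}
    (hx : Irreducible (Ideal.Quotient.mk 𝔭 x)) {s : R} (hs : s ∈ IsLocalRing.maximalIdeal R) :
    ∃ g : R, s - x * g ∈ 𝔭 := by
  have hloc : IsLocalHom (Ideal.Quotient.mk 𝔭) :=
    Function.Surjective.isLocalHom _ Ideal.Quotient.mk_surjective
  have h1 : ¬ IsUnit (Ideal.Quotient.mk 𝔭 s) := by
    intro h
    exact hs (IsLocalHom.map_nonunit s h)
  have h2 : Ideal.Quotient.mk 𝔭 s ∈ IsLocalRing.maximalIdeal (R ⧸ 𝔭) := h1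
  rw [hx.maximalIdeal_eq, Ideal.mem_span_singleton] at h2
  obtain ⟨c, hc⟩ := h2
  obtain ⟨g, rfl⟩ := Ideal.Quotient.mk_surjective c
  refine ⟨g, ?_⟩
  rw [← Ideal.Quotient.eq, hc, map_mul]

omit [IsLocalRing R] [IsDiscreteValuationRing (R ⧸ 𝔭)] in
/-- `x ^ b ∉ (x ^ (b + 1)) + 𝔭` for a uniformiser `x` modulo `𝔭`. -/
theorem pow_sub_pow_succ_mul_notMem {x : R}
    (hx : Irreducible (Ideal.Quotient.mk 𝔭 x)) (b : ℕ) (g : R) :
    x ^ b - x ^ (b + 1) * g ∉ 𝔭 := by
  intro h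
  rw [← Ideal.Quotient.eq, map_mul, map_pow, map_pow] at h
  exact pow_ne_pow_succ_mul hx b _ h

omit [IsLocalRing R] in
/-- The data `(a, ε)` with `u ≡ ε x ^ (m a)` modulo `𝔭` extracted from (H2). -/
theorem exists_mk_eq_unit_mul_pow {x : R}
    (hx : Irreducible (Ideal.Quotient.mk 𝔭 x)) {m : ℕ} (hm : m ≠ 0) {u : R} (hu : u ∉ 𝔭)
    (H2 : ∃ v : R ⧸ 𝔭, Associated (v ^ m) (Ideal.Quotient.mk 𝔭 u)) :
    ∃ (a : ℕ) (ε : (R ⧸ 𝔭)ˣ),
      Ideal.Quotient.mk 𝔭 u = ε * (Ideal.Quotient.mk 𝔭 x) ^ (m * a) := by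
  obtain ⟨v, hv⟩ := H2
  have hu0 : Ideal.Quotient.mk 𝔭 u ≠ 0 := by
    rwa [Ne, Ideal.Quotient.eq_zero_iff_mem]
  exact exists_eq_unit_mul_pow_mul_of_associated_pow hx hm hu0 hv

omit [IsLocalRing R] [IsDiscreteValuationRing (R ⧸ 𝔭)] [𝔭.IsPrime] in
/-- `x ^ (m a) ∈ (u) + 𝔭` if `u ≡ ε x ^ (m a)` modulo `𝔭`. -/
theorem exists_pow_sub_mul_mem {x u : R} {n : ℕ} {ε : (R ⧸ 𝔭)ˣ}
    (hu : Ideal.Quotient.mk 𝔭 u = ε * (Ideal.Quotient.mk 𝔭 x) ^ n) :
    ∃ e : R, x ^ n - u * e ∈ 𝔭 := by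
  obtain ⟨e, he⟩ := Ideal.Quotient.mk_surjective ((ε⁻¹ : (R ⧸ 𝔭)ˣ) : R ⧸ 𝔭)
  refine ⟨e, ?_⟩
  rw [← Ideal.Quotient.eq, map_mul, map_pow, he, hu]
  rw [mul_comm, ← mul_assoc, Units.inv_mul, one_mul]

/-- If `u ≡ ε x ^ (m a)` modulo `𝔭`, `f ^ m = u r` and `r` is not a unit, then
`f ∈ (x ^ (a + 1)) + 𝔭`. -/
theorem exists_sub_pow_succ_mul_mem {x : R}
    (hx : Irreducible (Ideal.Quotient.mk 𝔭 x)) {m a : ℕ} {u : R} {ε : (R ⧸ 𝔭)ˣ}
    (hu : Ideal.Quotient.mk 𝔭 u = ε * (Ideal.Quotient.mk 𝔭 x) ^ (m * a))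
    {f r : R} (hf : f ^ m = u * r) (hr : r ∈ IsLocalRing.maximalIdeal R) :
    ∃ g : R, f - x ^ (a + 1) * g ∈ 𝔭 := by
  obtain ⟨c, hc⟩ := exists_sub_mul_mem_of_mem_maximalIdeal 𝔭 hx hr
  rw [← Ideal.Quotient.eq, map_mul] at hc
  have h0 : (Ideal.Quotient.mk 𝔭 f) ^ m =
      Ideal.Quotient.mk 𝔭 u * Ideal.Quotient.mk 𝔭 r := by
    rw [← map_pow, hf, map_mul]
  have h1 : (Ideal.Quotient.mk 𝔭 x) ^ (m * a + 1) ∣ (Ideal.Quotient.mk 𝔭 f) ^ m := by
    rw [h0, hu, hc]
    refine ⟨ε * Ideal.Quotient.mk 𝔭 c, ?_⟩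
    ring
  obtain ⟨d, hd⟩ := pow_succ_dvd_of_pow_mul_succ_dvd_pow hx h1
  obtain ⟨g, rfl⟩ := Ideal.Quotient.mk_surjective d
  refine ⟨g, ?_⟩
  rw [← Ideal.Quotient.eq, hd, map_mul, map_pow]

end Branch

section PowChain

variable {R : Type*} [CommRing R]

/-- A nonzero relative quotient has length at least one. -/
theorem one_le_relLen_of_notMem {A B : Ideal R} {z : R} (hz : z ∈ B) (hzA : z ∉ A) :
    1 ≤ relLen A B := by
  rw [relLen, Order.one_le_iff_ne_zero, Ne, Module.length_eq_zero_iff]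
  intro hsub
  apply hzA
  have h := hsub.elim (Submodule.Quotient.mk (⟨z, hz⟩ : B) : ↥B ⧸ A.submoduleOf B) 0
  rw [Submodule.Quotient.mk_eq_zero] at h
  exact h

variable [IsLocalRing R]

/-- The residue field has length one. -/
theorem relLen_maximalIdeal :
    relLen (IsLocalRing.maximalIdeal R) (⊤ : Ideal R) = 1 := by
  rw [relLen_top, Module.length_eq_one_iff, isSimpleModule_iff_isCoatom]
  exact Ideal.isMaximal_def.mp (IsLocalRing.maximalIdeal.isMaximal R)

/-- A cyclic relative quotient killed by the maximal ideal has length at most one. -/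
theorem relLen_le_one_of_kill {A B : Ideal R} {z : R} (hz : z ∈ B)
    (hB : B ≤ Ideal.span {z} ⊔ A)
    (hkill : ∀ s ∈ IsLocalRing.maximalIdeal R, s * z ∈ A) : relLen A B ≤ 1 := by
  rw [← relLen_maximalIdeal (R := R)]
  refine relLen_le_of_map (LinearMap.mulRight R z) (N' := IsLocalRing.maximalIdeal R)
    (N := ⊤) (P' := A) (P := B) ?_ ?_ ?_
  · intro y _
    rw [LinearMap.mulRight_apply]
    exact B.mul_mem_left y hz
  · intro y hy
    rw [LinearMap.mulRight_apply]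
    exact hkill y hy
  · intro b hb
    obtain ⟨c, hc, a, ha, rfl⟩ := Submodule.mem_sup.mp (hB hb)
    obtain ⟨d, rfl⟩ := Ideal.mem_span_singleton'.mp hc
    refine ⟨d, trivial, ?_⟩
    rw [LinearMap.mulRight_apply, add_sub_cancel_left]
    exact ha

/-- One step of the power chain has length one. -/
theorem relLen_pow_step (𝔭 : Ideal R) [𝔭.IsPrime] {z : R}
    (hz : Irreducible (Ideal.Quotient.mk 𝔭 z)) (𝔞 : Ideal R) (h𝔞 : 𝔞 ≤ 𝔭) (n : ℕ)
    (hkill : ∀ s ∈ IsLocalRing.maximalIdeal R, s * z ^ n ∈ Ideal.span {z ^ (n + 1)} ⊔ 𝔞) :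
    relLen (Ideal.span {z ^ (n + 1)} ⊔ 𝔞) (Ideal.span {z ^ n} ⊔ 𝔞) = 1 := by
  have hzB : z ^ n ∈ Ideal.span {z ^ n} ⊔ 𝔞 :=
    Ideal.mem_sup_left (Ideal.mem_span_singleton_self _)
  apply le_antisymm
  · refine relLen_le_one_of_kill hzB ?_ hkill
    refine sup_le le_sup_left ?_
    exact le_sup_of_le_right le_sup_right
  · refine one_le_relLen_of_notMem hzB ?_
    intro hmem
    obtain ⟨c, hc, a, ha, hca⟩ := Submodule.mem_sup.mp hmem
    obtain ⟨g, rfl⟩ := Ideal.mem_span_singleton'.mp hc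
    refine pow_sub_pow_succ_mul_notMem 𝔭 hz n g ?_
    have : z ^ n - z ^ (n + 1) * g = a := by
      rw [← hca]
      ring
    rw [this]
    exact h𝔞 ha

/-- The power chain: `ℓ(((z ^ n₀) + 𝔞) / ((z ^ (n₀ + k)) + 𝔞)) = k`. -/
theorem relLen_pow_chain (𝔭 : Ideal R) [𝔭.IsPrime] {z : R}
    (hz : Irreducible (Ideal.Quotient.mk 𝔭 z)) (𝔞 : Ideal R) (h𝔞 : 𝔞 ≤ 𝔭) (n₀ : ℕ)
    (hkill : ∀ n, n₀ ≤ n → ∀ s ∈ IsLocalRing.maximalIdeal R,
      s * z ^ n ∈ Ideal.span {z ^ (n + 1)} ⊔ 𝔞) (k : ℕ) :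
    relLen (Ideal.span {z ^ (n₀ + k)} ⊔ 𝔞) (Ideal.span {z ^ n₀} ⊔ 𝔞) = k := by
  have hmono : ∀ i j : ℕ, i ≤ j → Ideal.span {z ^ j} ⊔ 𝔞 ≤ Ideal.span {z ^ i} ⊔ 𝔞 := by
    intro i j hij
    refine sup_le_sup_right ?_ _
    rw [Ideal.span_singleton_le_span_singleton]
    exact pow_dvd_pow z hij
  induction k with
  | zero =>
    rw [add_zero, relLen_self]
    rfl
  | succ k ih =>
    rw [relLen_add (hmono (n₀ + k) (n₀ + (k + 1)) (by omega)) (hmono n₀ (n₀ + k) (by omega)), ih,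
      ← add_assoc, relLen_pow_step 𝔭 hz 𝔞 h𝔞 (n₀ + k) (hkill _ (by omega))]
    push_cast
    rw [add_comm]

end PowChain

end Fermat.Agent.A2.H609

end
-- ===== PACK-END A2/H609/Branch.lean

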