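import Mathlib
import Fermat.Prelude.Def_CuspForm_HeckeLocal
import Fermat.Prelude.Def_GaloisRep_Adic
import Fermat.Prelude.Def_GaloisRep_ComplexConjugation
import Fermat.Agent.Pack.S58.E0L1
import Fermat.Agent.Pack.S58.E1L1
import Fermat.Agent.Pack.S58.E1L2
import Fermat.Agent.Pack.S36.E0L1
import Fermat.Agent.Pack.S36.E4L2
import Fermat.Agent.Pack.S58.E0L0
import Fermat.Agent.Pack.S58.E1L0
import Fermat.Agent.Pack.S36.E7L1
import Fermat.Agent.Pack.S36.E6L0

-- ===== PACK-BEGIN S05/C1b.lean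
section



/-!
# (C1b): the kernel of reduction `E₁` has no `n`-torsion for `n` a `v`-unit

Adapter exposing `Fermat.Agent.S05.FG` in the shared vocabulary of
`Fermat.Agent.S05.SameRed` (`IntegralCoeffs`, `InKer`).
-/

set_option autoImplicit false

namespace Fermat.Agent.S05.C1b

open WeierstrassCurve WeierstrassCurve.Affine
open Fermat.Agent.S05

variable {K : Type*} [Field K] [DecidableEq K]
  {Γ₀ : Type*} [LinearOrderedCommGroupWithZero Γ₀]
  {W : Affine K} {v : Valuation K Γ₀}

omit [DecidableEq K] in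
lemma isIntegralAt_of_integralCoeffs (hW : SameRed.IntegralCoeffs W v) : FG.IsIntegralAt v W :=
  ⟨hW.a₁, hW.a₂, hW.a₃, hW.a₄, hW.a₆⟩

/-- **(C1b)** `E₁` has no `n`-torsion when `v n = 1` (no hypothesis on `v 2`, `n` arbitrary). -/
theorem eq_zero_of_inKer_of_nsmul_eq_zero (hW : SameRed.IntegralCoeffs W v) (n : ℕ)
    (hn : v (n : K) = 1) (P : W.Point) (hP : SameRed.InKer W v P) (h : n • P = 0) : P = 0 := by
  rcases P with _ | ⟨x, y, hxy⟩
  · rfl
  · exact absurd (FG.v_x_le_one_of_nsmul_eq_zero (isIntegralAt_of_integralCoeffs hW) hxy hn h)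
      (not_le.mpr hP)

/-- Integer-multiple form of (C1b), as consumed by `GoodRed`. -/
theorem eq_zero_of_inKer_of_zsmul_eq_zero (hW : SameRed.IntegralCoeffs W v) (n : ℕ)
    (hn : v (n : K) = 1) (P : W.Point) (hP : SameRed.InKer W v P) (h : (n : ℤ) • P = 0) :
    P = 0 :=
  eq_zero_of_inKer_of_nsmul_eq_zero hW n hn P hP (by rwa [natCast_zsmul] at h)

/-- A torsion point of order prime to the residue characteristic is integral. -/
theorem val_x_le_one_of_nsmul_eq_zero (hW : SameRed.IntegralCoeffs W v) {n : ℕ}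
    (hn : v (n : K) = 1) {x y : K} (hxy : W.Nonsingular x y) (h : n • Point.some x y hxy = 0) :
    v x ≤ 1 ∧ v y ≤ 1 := by
  have hx := FG.v_x_le_one_of_nsmul_eq_zero (isIntegralAt_of_integralCoeffs hW) hxy hn h
  exact ⟨hx, FG.v_y_le_one_of_v_x_le_one (isIntegralAt_of_integralCoeffs hW) hxy.1 hx⟩

end Fermat.Agent.S05.C1b

end
-- ===== PACK-END S05/C1b.lean

-- ===== PACK-BEGIN S59/H127/Bridge.lean
section



/-!
# E-side foundation, part 6: bridge between the finite levels and the Tate module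

Abstract algebra (Mathlib only).  Let `cb : CompatBasis A p h`, let `f` be an additive
endomorphism of `A` and `T = cb.tateEnd f` the induced `ℤ_p`-linear endomorphism of `ℤ_p^h`.
For every `n` and EVERY `ZMod (p^n)`-module structure on `A[p^n] = torsionBy ℤ A (p^n)`:

* `cb.levelBasis n` : the basis `(B n i)_i` of `A[p^n]` over `ZMod (p^n)`; in particular
  `A[p^n]` is free of rank `h` over `ZMod (p^n)`;
* `toMatrix_level` : the matrix of (the restriction of) `f` to `A[p^n]` in this basis is the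
  reduction mod `p^n` of the matrix of `T`;
* `charpoly_level`, `det_level`, `trace_level` : consequently the characteristic polynomial,
  determinant and trace of `f` on `A[p^n]` are the reductions of those of `T`;
* `charpoly_eq_of_level`, `det_sub_mem_of_level` : conversely, `charpoly T` / `det T` are
  determined by the finite levels.
-/

open PadicInt Polynomial

namespace Fermat.Agent.S59.H127

variable {A : Type*} [AddCommGroup A] {p h : ℕ} [hp : Fact p.Prime]

namespace CompatBasis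

variable (cb : CompatBasis A p h)

section level

variable (n : ℕ)

omit hp in
lemma B_mem (i : Fin h) : cb.B n i ∈ Submodule.torsionBy ℤ A ((p ^ n : ℕ) : ℤ) := by
  rw [Submodule.mem_torsionBy_iff, natCast_zsmul]
  exact cb.pow_smul_self n i

/-- the basis vectors, as elements of `A[p^n]` -/
def levelVec (i : Fin h) : Submodule.torsionBy ℤ A ((p ^ n : ℕ) : ℤ) := ⟨cb.B n i, cb.B_mem n i⟩

omit hp in
lemma coe_sum_zsmul_levelVec (c : Fin h → ℤ) :
    ((∑ i, c i • cb.levelVec n i : Submodule.torsionBy ℤ A ((p ^ n : ℕ) : ℤ)) : A)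
      = ∑ i, c i • cb.B n i := by
  rw [Submodule.coe_sum]
  refine Finset.sum_congr rfl fun j _ => ?_
  rw [Submodule.coe_smul_of_tower]
  rfl

variable [Module (ZMod (p ^ n)) (Submodule.torsionBy ℤ A ((p ^ n : ℕ) : ℤ))]

omit hp in
lemma sum_smul_levelVec_eq (g : Fin h → ZMod (p ^ n)) (c : Fin h → ℤ)
    (hc : ∀ i, ((c i : ℤ) : ZMod (p ^ n)) = g i) :
    ∑ i, g i • cb.levelVec n i = ∑ i, c i • cb.levelVec n i := by
  refine Finset.sum_congr rfl fun j _ => ?_
  rw [← hc j, Int.cast_smul_eq_zsmul]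

omit hp in
lemma linearIndependent_levelVec :
    LinearIndependent (ZMod (p ^ n)) (cb.levelVec n) := by
  rw [Fintype.linearIndependent_iff]
  intro g hg i
  have hc : ∀ i, (((g i).cast : ℤ) : ZMod (p ^ n)) = g i := fun i => ZMod.intCast_zmod_cast _
  rw [cb.sum_smul_levelVec_eq n g (fun i => ((g i).cast : ℤ)) hc] at hg
  have h1 := congrArg (Subtype.val) hg
  rw [cb.coe_sum_zsmul_levelVec, Submodule.coe_zero] at h1
  have h2 := cb.indep n _ h1 i
  rw [← hc i, ZMod.intCast_zmod_eq_zero_iff_dvd, Nat.cast_pow]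
  exact h2

omit hp in
lemma span_levelVec :
    ⊤ ≤ Submodule.span (ZMod (p ^ n)) (Set.range (cb.levelVec n)) := by
  intro x _
  have hx : p ^ n • (x : A) = 0 := by
    have := x.2
    rwa [Submodule.mem_torsionBy_iff, natCast_zsmul] at this
  obtain ⟨c, hc⟩ := cb.span n x hx
  have hx' : x = ∑ i, ((c i : ℤ) : ZMod (p ^ n)) • cb.levelVec n i := by
    rw [cb.sum_smul_levelVec_eq n _ c (fun _ => rfl)]
    apply Subtype.ext
    rw [cb.coe_sum_zsmul_levelVec, hc]
  rw [hx']
  exact Submodule.sum_mem _ fun i _ =>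
    Submodule.smul_mem _ _ (Submodule.subset_span (Set.mem_range_self i))

/-- **the basis `(B n i)_i` of `A[p^n]` over `ZMod (p^n)`** -/
noncomputable def levelBasis :
    Module.Basis (Fin h) (ZMod (p ^ n)) (Submodule.torsionBy ℤ A ((p ^ n : ℕ) : ℤ)) :=
  Module.Basis.mk (cb.linearIndependent_levelVec n) (cb.span_levelVec n)

omit hp in
@[simp] lemma levelBasis_apply (i : Fin h) : cb.levelBasis n i = cb.levelVec n i := by
  rw [levelBasis, Module.Basis.mk_apply]

omit hp in
lemma coe_levelBasis (i : Fin h) :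
    ((cb.levelBasis n i : Submodule.torsionBy ℤ A ((p ^ n : ℕ) : ℤ)) : A) = cb.B n i := by
  rw [levelBasis_apply]
  rfl

omit hp in
include cb in
/-- `A[p^n]` is free over `ZMod (p^n)` -/
theorem free_level : Module.Free (ZMod (p ^ n)) (Submodule.torsionBy ℤ A ((p ^ n : ℕ) : ℤ)) :=
  Module.Free.of_basis (cb.levelBasis n)

omit hp in
include cb in
/-- `A[p^n]` is finite over `ZMod (p^n)` -/
theorem finite_level :
    Module.Finite (ZMod (p ^ n)) (Submodule.torsionBy ℤ A ((p ^ n : ℕ) : ℤ)) :=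
  Module.Finite.of_basis (cb.levelBasis n)

omit hp in
/-- coordinates in the level basis -/
lemma levelBasis_repr_eq (x : Submodule.torsionBy ℤ A ((p ^ n : ℕ) : ℤ)) (c : Fin h → ℤ)
    (hc : (x : A) = ∑ i, c i • cb.B n i) (i : Fin h) :
    (cb.levelBasis n).repr x i = ((c i : ℤ) : ZMod (p ^ n)) := by
  have hx : x = ∑ i, ((c i : ℤ) : ZMod (p ^ n)) • cb.levelBasis n i := by
    simp only [levelBasis_apply]
    rw [cb.sum_smul_levelVec_eq n _ c (fun _ => rfl)]
    apply Subtype.ext
    rw [cb.coe_sum_zsmul_levelVec, hc]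
  conv_lhs => rw [hx]
  rw [map_sum, Finset.sum_apply']
  simp only [map_smul, Module.Basis.repr_self, Finsupp.smul_apply, smul_eq_mul]
  rw [Finset.sum_eq_single i]
  · rw [Finsupp.single_eq_same, mul_one]
  · intro j _ hji
    rw [Finsupp.single_eq_of_ne hji.symm, mul_zero]
  · intro hi
    exact absurd (Finset.mem_univ i) hi

end level

section matrix

variable (n : ℕ) [Module (ZMod (p ^ n)) (Submodule.torsionBy ℤ A ((p ^ n : ℕ) : ℤ))]

omit [Module (ZMod (p ^ n)) (Submodule.torsionBy ℤ A ((p ^ n : ℕ) : ℤ))] in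
/-- the image of a basis vector under `f` in terms of the matrix of `tateEnd f` -/
lemma apply_B_eq (f : AddMonoid.End A) (j : Fin h) (c : Fin h → ℤ)
    (hc : ∀ i, ((c i : ℤ) : ZMod (p ^ n)) =
      toZModPow n (cb.tateEnd f (Pi.single j (1 : ℤ_[p])) i)) :
    f (cb.B n j) = ∑ i, c i • cb.B n i := by
  rw [← cb.Φ_single j n, ← cb.Φ_tateEnd]
  exact cb.Φ_eq_of_cast _ n c hc

/-- **the matrix of `f` on `A[p^n]` is the reduction of the matrix of `tateEnd f`** -/
theorem toMatrix_level (f : AddMonoid.End A)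
    (g : Module.End (ZMod (p ^ n)) (Submodule.torsionBy ℤ A ((p ^ n : ℕ) : ℤ)))
    (hg : ∀ x, ((g x : Submodule.torsionBy ℤ A ((p ^ n : ℕ) : ℤ)) : A) = f (x : A)) :
    LinearMap.toMatrix (cb.levelBasis n) (cb.levelBasis n) g
      = (LinearMap.toMatrix' (cb.tateEnd f)).map (toZModPow n) := by
  ext i j
  rw [LinearMap.toMatrix_apply, Matrix.map_apply, LinearMap.toMatrix'_apply]
  have h1 : ((g (cb.levelBasis n j) : Submodule.torsionBy ℤ A ((p ^ n : ℕ) : ℤ)) : A)
      = ∑ i, (((cb.tateEnd f (Pi.single j (1 : ℤ_[p])) i).appr n : ℕ) : ℤ) • cb.B n i := by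
    rw [hg, cb.coe_levelBasis]
    exact cb.apply_B_eq n f j _ fun i => appr_cast_eq_toZModPow n _
  rw [cb.levelBasis_repr_eq n _ _ h1 i, appr_cast_eq_toZModPow]

/-- the characteristic polynomial of `f` on `A[p^n]` is the reduction of that of `tateEnd f` -/
theorem charpoly_level [Module.Free (ZMod (p ^ n)) (Submodule.torsionBy ℤ A ((p ^ n : ℕ) : ℤ))]
    [Module.Finite (ZMod (p ^ n)) (Submodule.torsionBy ℤ A ((p ^ n : ℕ) : ℤ))]
    (f : AddMonoid.End A)
    (g : Module.End (ZMod (p ^ n)) (Submodule.torsionBy ℤ A ((p ^ n : ℕ) : ℤ)))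
    (hg : ∀ x, ((g x : Submodule.torsionBy ℤ A ((p ^ n : ℕ) : ℤ)) : A) = f (x : A)) :
    LinearMap.charpoly g = (LinearMap.charpoly (cb.tateEnd f)).map (toZModPow n) := by
  rw [← LinearMap.charpoly_toMatrix g (cb.levelBasis n), cb.toMatrix_level n f g hg,
    ← LinearMap.charpoly_toMatrix (cb.tateEnd f) (Pi.basisFun ℤ_[p] (Fin h)),
    Matrix.charpoly_map]
  rfl

/-- the determinant of `f` on `A[p^n]` is the reduction of that of `tateEnd f` -/
theorem det_level (f : AddMonoid.End A)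
    (g : Module.End (ZMod (p ^ n)) (Submodule.torsionBy ℤ A ((p ^ n : ℕ) : ℤ)))
    (hg : ∀ x, ((g x : Submodule.torsionBy ℤ A ((p ^ n : ℕ) : ℤ)) : A) = f (x : A)) :
    LinearMap.det g = toZModPow n (LinearMap.det (cb.tateEnd f)) := by
  rw [← LinearMap.det_toMatrix (cb.levelBasis n), cb.toMatrix_level n f g hg,
    ← LinearMap.det_toMatrix (Pi.basisFun ℤ_[p] (Fin h)) (cb.tateEnd f), RingHom.map_det]
  rfl

/-- the trace of `f` on `A[p^n]` is the reduction of that of `tateEnd f` -/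
theorem trace_level (f : AddMonoid.End A)
    (g : Module.End (ZMod (p ^ n)) (Submodule.torsionBy ℤ A ((p ^ n : ℕ) : ℤ)))
    (hg : ∀ x, ((g x : Submodule.torsionBy ℤ A ((p ^ n : ℕ) : ℤ)) : A) = f (x : A)) :
    LinearMap.trace (ZMod (p ^ n)) _ g
      = toZModPow n (LinearMap.trace ℤ_[p] _ (cb.tateEnd f)) := by
  rw [LinearMap.trace_eq_matrix_trace (ZMod (p ^ n)) (cb.levelBasis n), cb.toMatrix_level n f g hg,
    LinearMap.trace_eq_matrix_trace ℤ_[p] (Pi.basisFun ℤ_[p] (Fin h)), Matrix.trace,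
    Matrix.trace, map_sum]
  rfl

end matrix

end CompatBasis

section lift

/-- a polynomial over `ℤ_p` is determined by its reductions modulo all `p^n` -/
theorem poly_eq_of_map_toZModPow {P Q : ℤ_[p][X]}
    (hPQ : ∀ n : ℕ, P.map (toZModPow n) = Q.map (toZModPow n)) : P = Q := by
  ext k
  apply ext_of_toZModPow.mp
  intro n
  have := congrArg (fun R => R.coeff k) (hPQ n)
  simpa only [coeff_map] using this

end lift

end Fermat.Agent.S59.H127

end
-- ===== PACK-END S59/H127/Bridge.lean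

-- ===== PACK-BEGIN Lib/Frob/A2/H240/ShortNF.lean
section



/-!
# Piece A3 of row S52 / shared lib `Frob`: long ↔ short Weierstrass form

`FrobRelationFin` (the frozen interface of piece A2, stated for ARBITRARY long Weierstrass curves
over `𝔽_ℓ`, `ℓ ≥ 5`) follows from its special case for short Weierstrass curves
`y² = x³ + A x + B`  (`FrobRelationFinShort`, resp. `FrobRelationFinShortLit`).

Main results:
* `frobRelationFin_of_short    : FrobRelationFinShort → FrobRelationFin`
* `frobRelationFin_of_shortLit : FrobRelationFinShortLit → FrobRelationFin`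
* `traceOfFrobenius_smul : (C • E).traceOfFrobenius = E.traceOfFrobenius`

(helper240)
-/

set_option autoImplicit false

open WeierstrassCurve WeierstrassCurve.Affine WeierstrassCurve.Affine.Point

namespace Fermat.Agent.Lib.Frob.A2.H240

open Fermat.Agent.Lib.Frob Fermat.Agent.Lib.VC

/-- Piece A2 restricted to curves in short Weierstrass form (`a₁ = a₂ = a₃ = 0`). -/
def FrobRelationFinShort : Prop :=
  ∀ (ℓ : ℕ) [Fact ℓ.Prime], 5 ≤ ℓ → ∀ (E : WeierstrassCurve (ZMod ℓ)),
    E.a₁ = 0 → E.a₂ = 0 → E.a₃ = 0 → E.Δ ≠ 0 →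
    ∀ (k : Type) [Field k] [Algebra (ZMod ℓ) k] [DecidableEq k] (P : (E⁄k).Point),
      frobPt ℓ E k (frobPt ℓ E k P) - E.traceOfFrobenius • frobPt ℓ E k P + (ℓ : ℤ) • P = 0

/-- Piece A2 for the literal curves `⟨0, 0, 0, A, B⟩`. -/
def FrobRelationFinShortLit : Prop :=
  ∀ (ℓ : ℕ) [Fact ℓ.Prime], 5 ≤ ℓ → ∀ (A B : ZMod ℓ),
    (⟨0, 0, 0, A, B⟩ : WeierstrassCurve (ZMod ℓ)).Δ ≠ 0 →
    ∀ (k : Type) [Field k] [Algebra (ZMod ℓ) k] [DecidableEq k]
      (P : ((⟨0, 0, 0, A, B⟩ : WeierstrassCurve (ZMod ℓ))⁄k).Point),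
      frobPt ℓ ⟨0, 0, 0, A, B⟩ k (frobPt ℓ ⟨0, 0, 0, A, B⟩ k P)
        - (⟨0, 0, 0, A, B⟩ : WeierstrassCurve (ZMod ℓ)).traceOfFrobenius
            • frobPt ℓ ⟨0, 0, 0, A, B⟩ k P + (ℓ : ℤ) • P = 0

theorem frobRelationFinShort_of_lit (h : FrobRelationFinShortLit) : FrobRelationFinShort := by
  intro ℓ _ hℓ E h₁ h₂ h₃ hΔ k _ _ _ P
  obtain ⟨a₁, a₂, a₃, a₄, a₆⟩ := E
  simp only at h₁ h₂ h₃
  subst h₁ h₂ h₃
  exact h ℓ hℓ a₄ a₆ hΔ k P

/-- The number of points is invariant under a change of variables. -/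
theorem card_smul {F : Type*} [Field F] (E : WeierstrassCurve F) (C : VariableChange F) :
    (C • E).card = E.card := by
  classical
  exact Nat.card_congr (vcPoint E C).toEquiv

/-- The trace of Frobenius is invariant under a change of variables. -/
theorem traceOfFrobenius_smul {F : Type*} [Field F] (E : WeierstrassCurve F)
    (C : VariableChange F) : (C • E).traceOfFrobenius = E.traceOfFrobenius := by
  unfold WeierstrassCurve.traceOfFrobenius
  rw [card_smul]

/-- The Frobenius relation is invariant under a change of variables defined over `𝔽_ℓ`. -/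
theorem frobRel_of_smul (ℓ : ℕ) [Fact ℓ.Prime] (E : WeierstrassCurve (ZMod ℓ))
    (C : VariableChange (ZMod ℓ)) (k : Type) [Field k] [Algebra (ZMod ℓ) k] [DecidableEq k]
    (h : ∀ P : ((C • E)⁄k).Point,
      frobPt ℓ (C • E) k (frobPt ℓ (C • E) k P)
        - (C • E).traceOfFrobenius • frobPt ℓ (C • E) k P + (ℓ : ℤ) • P = 0)
    (Q : (E⁄k).Point) :
    frobPt ℓ E k (frobPt ℓ E k Q) - E.traceOfFrobenius • frobPt ℓ E k Q + (ℓ : ℤ) • Q = 0 := by
  have h' := h
  simp only [traceOfFrobenius_smul] at h'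
  exact relation_transfer E C (FiniteField.frobeniusAlgHom (ZMod ℓ) k) E.traceOfFrobenius
    (ℓ : ℤ) h' Q

theorem two_ne_zero_zmod (ℓ : ℕ) [Fact ℓ.Prime] (hℓ : 5 ≤ ℓ) : (2 : ZMod ℓ) ≠ 0 := by
  intro h
  have h2 : ((2 : ℕ) : ZMod ℓ) = 0 := by exact_mod_cast h
  rw [ZMod.natCast_eq_zero_iff] at h2
  have := Nat.le_of_dvd (by norm_num) h2
  omega

theorem three_ne_zero_zmod (ℓ : ℕ) [Fact ℓ.Prime] (hℓ : 5 ≤ ℓ) : (3 : ZMod ℓ) ≠ 0 := by
  intro h
  have h3 : ((3 : ℕ) : ZMod ℓ) = 0 := by exact_mod_cast h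
  rw [ZMod.natCast_eq_zero_iff] at h3
  have := Nat.le_of_dvd (by norm_num) h3
  omega

/-- **A3**: the frozen interface `FrobRelationFin` follows from its short-Weierstrass case. -/
theorem frobRelationFin_of_short (h : FrobRelationFinShort) : FrobRelationFin := by
  intro ℓ _ hℓ E hΔ k _ _ _ Q
  let _i2 : Invertible (2 : ZMod ℓ) := invertibleOfNonzero (two_ne_zero_zmod ℓ hℓ)
  let _i3 : Invertible (3 : ZMod ℓ) := invertibleOfNonzero (three_ne_zero_zmod ℓ hℓ)
  set C : VariableChange (ZMod ℓ) := E.toShortNF with hC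
  have hNF : (C • E).IsShortNF := E.toShortNF_spec
  have hΔ' : (C • E).Δ ≠ 0 := by
    rw [variableChange_Δ]
    exact mul_ne_zero (pow_ne_zero _ (Units.ne_zero _)) hΔ
  exact frobRel_of_smul ℓ E C k
    (h ℓ hℓ (C • E) (a₁_of_isShortNF _) (a₂_of_isShortNF _) (a₃_of_isShortNF _) hΔ' k) Q

theorem frobRelationFin_of_shortLit (h : FrobRelationFinShortLit) : FrobRelationFin :=
  frobRelationFin_of_short (frobRelationFinShort_of_lit h)

end Fermat.Agent.Lib.Frob.A2.H240

end
-- ===== PACK-END Lib/Frob/A2/H240/ShortNF.lean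

-- ===== PACK-BEGIN Lib/Red/H290/RedKer.lean
section




/-!
# The kernel of reduction is a subgroup (S52 piece A1b, part 4)

For any valuation `v` on `K` and any Weierstrass curve `W` over `K` with `v`-integral
coefficients (no hypothesis on the discriminant, no hypothesis on the residue characteristic),
`E₁ = {O} ∪ {(x, y) : 1 < v x}` (`Fermat.Agent.S05.SameRed.InKer`) is closed under negation and
addition.
-/

set_option autoImplicit false

namespace Fermat.Agent.Lib.Red.H290

open WeierstrassCurve WeierstrassCurve.Affine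
open Fermat.Agent.S05.SameRed
open Fermat.Agent.S05 (XId.add_sub_some XId.add_self_some)

variable {K : Type*} [Field K] {Γ₀ : Type*} [LinearOrderedCommGroupWithZero Γ₀]
  {v : Valuation K Γ₀}

/-- Roots of `z² - σ z + π` with `σ, π` in the maximal ideal lie in the maximal ideal. -/
lemma val_lt_one_of_sum_prod {z w : K} (hs : v (z + w) < 1) (hp : v (z * w) < 1) : v z < 1 := by
  by_contra hz
  have hz1 : 1 ≤ v z := not_lt.mp hz
  have hz0 : 0 < v z := lt_of_lt_of_le zero_lt_one hz1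
  have e : z ^ 2 = (z + w) * z + -(z * w) := by ring
  have h1 : v ((z + w) * z) < v z := by
    rw [map_mul]
    calc v (z + w) * v z < 1 * v z := mul_lt_mul_of_pos_right hs hz0
      _ = v z := one_mul _
  have h2 : v (-(z * w)) < v z := by
    rw [Valuation.map_neg]; exact lt_of_lt_of_le hp hz1
  have h3 : v (z ^ 2) < v z := by
    rw [e]; exact v.map_add_lt h1 h2
  have h4 : v z ≤ v (z ^ 2) := by
    rw [map_pow, pow_two]
    exact le_mul_of_one_le_right' hz1
  exact absurd (lt_of_le_of_lt h4 h3) (lt_irrefl _)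

lemma val_inv_lt_one {x : K} (hx : 1 < v x) : v x⁻¹ < 1 := by
  rw [map_inv₀]; exact inv_lt_one_of_one_lt₀ hx

lemma ne_zero_of_one_lt_val {x : K} (hx : 1 < v x) : x ≠ 0 := by
  rintro rfl
  rw [map_zero] at hx
  exact not_lt_zero hx

lemma one_lt_val_of_inv_lt_one {x : K} (hx0 : x ≠ 0) (hx : v x⁻¹ < 1) : 1 < v x := by
  rw [map_inv₀] at hx
  have hpos : 0 < v x := (Valuation.pos_iff v).mpr hx0
  exact (inv_lt_one₀ hpos).mp hx

variable [DecidableEq K] {W : Affine K}

omit [DecidableEq K] in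
lemma inKer_neg {P : W.Point} (hP : InKer W v P) : InKer W v (-P) := by
  rcases P with _ | ⟨x, y, hxy⟩
  · exact hP
  · exact hP

omit [DecidableEq K] in
private lemma v_b (hW : IntegralCoeffs W v) :
    v W.b₂ ≤ 1 ∧ v W.b₄ ≤ 1 ∧ v W.b₆ ≤ 1 ∧ v W.b₈ ≤ 1 :=
  have h := Fermat.Agent.S05.C1b.isIntegralAt_of_integralCoeffs hW
  ⟨Fermat.Agent.S05.FG.v_b₂ h, Fermat.Agent.S05.FG.v_b₄ h, Fermat.Agent.S05.FG.v_b₆ h,
    Fermat.Agent.S05.FG.v_b₈ h⟩

/-- Chord case of the subgroup property. -/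
lemma one_lt_val_of_sum_prod (hW : IntegralCoeffs W v) {x₁ x₂ x₃ x₄ : K} (hx₁ : 1 < v x₁)
    (hx₂ : 1 < v x₂)
    (hsum : (x₁ - x₂) ^ 2 * (x₃ + x₄) = Fermat.Agent.S05.XId.sumNum W x₁ x₂)
    (hprod : (x₁ - x₂) ^ 2 * (x₃ * x₄) = Fermat.Agent.S05.XId.prodNum W x₁ x₂) :
    1 < v x₃ := by
  obtain ⟨hb2, hb4, hb6, hb8⟩ := v_b hW
  have h10 := ne_zero_of_one_lt_val hx₁
  have h20 := ne_zero_of_one_lt_val hx₂
  have hsv : v x₁⁻¹ < 1 := val_inv_lt_one hx₁
  have htv : v x₂⁻¹ < 1 := val_inv_lt_one hx₂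
  obtain ⟨s, hs0, rfl⟩ : ∃ s : K, s ≠ 0 ∧ x₁ = s⁻¹ := ⟨x₁⁻¹, inv_ne_zero h10, (inv_inv _).symm⟩
  obtain ⟨t, ht0, rfl⟩ : ∃ t : K, t ≠ 0 ∧ x₂ = t⁻¹ := ⟨x₂⁻¹, inv_ne_zero h20, (inv_inv _).symm⟩
  rw [inv_inv] at hsv htv
  have h2 : v (2 : K) ≤ 1 := by
    have := val_natCast_le_one (v := v) 2
    simpa using this
  have hst : v (s * t) < 1 := val_mul_lt_one_left hsv htv.le
  have hspt : v (s + t) < 1 := val_add_lt_one hsv htv
  set V : K := 1 - W.b₄ * (s * t) - W.b₆ * ((s * t) * (s + t)) - W.b₈ * (s * t) ^ 2 with hV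
  set U : K := 2 * (s + t) + W.b₂ * (s * t) + W.b₄ * ((s * t) * (s + t)) + W.b₆ * (s * t) ^ 2
    with hU
  have hUv : v U < 1 := by
    refine val_add_lt_one (val_add_lt_one (val_add_lt_one ?_ ?_) ?_) ?_
    · exact val_mul_lt_one_right h2 hspt
    · exact val_mul_lt_one_right hb2 hst
    · exact val_mul_lt_one_right hb4 (val_mul_lt_one_left hst hspt.le)
    · exact val_mul_lt_one_right hb6 (by rw [pow_two]; exact val_mul_lt_one_left hst hst.le)
  have hVv : v V = 1 := by
    have hrest : v (V - 1) < 1 := by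
      have : V - 1 = -(W.b₄ * (s * t)) + -(W.b₆ * ((s * t) * (s + t))) +
          -(W.b₈ * (s * t) ^ 2) := by
        simp only [hV]; ring
      rw [this]
      refine val_add_lt_one (val_add_lt_one ?_ ?_) ?_
      · rw [Valuation.map_neg]; exact val_mul_lt_one_right hb4 hst
      · rw [Valuation.map_neg]
        exact val_mul_lt_one_right hb6 (val_mul_lt_one_left hst hspt.le)
      · rw [Valuation.map_neg]
        exact val_mul_lt_one_right hb8 (by rw [pow_two]; exact val_mul_lt_one_left hst hst.le)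
    have : V = 1 + (V - 1) := by ring
    rw [this, v.map_add_eq_of_lt_left (by rwa [map_one]), map_one]
  have hV0 : V ≠ 0 := by
    intro h0; rw [h0, map_zero] at hVv; exact zero_ne_one hVv
  -- the two identities in terms of `s`, `t`
  have hD : (s⁻¹ - t⁻¹) ^ 2 * (s * t) ^ 2 = (t - s) ^ 2 := by
    field_simp
  have hU' : Fermat.Agent.S05.XId.sumNum W s⁻¹ t⁻¹ * (s * t) ^ 2 = U := by
    simp only [Fermat.Agent.S05.XId.sumNum, hU]
    field_simp
    ring
  have hV' : Fermat.Agent.S05.XId.prodNum W s⁻¹ t⁻¹ * (s * t) ^ 2 = V := by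
    simp only [Fermat.Agent.S05.XId.prodNum, hV]
    field_simp
    ring
  have e1 : (t - s) ^ 2 * (x₃ + x₄) = U := by
    linear_combination (s * t) ^ 2 * hsum - (x₃ + x₄) * hD + hU'
  have e2 : (t - s) ^ 2 * (x₃ * x₄) = V := by
    linear_combination (s * t) ^ 2 * hprod - (x₃ * x₄) * hD + hV'
  have hts : v (t - s) < 1 := by
    have : t - s = t + -s := by ring
    rw [this]; exact val_add_lt_one htv (by rwa [Valuation.map_neg])
  have h34 : x₃ * x₄ ≠ 0 := by
    intro h0; rw [h0, mul_zero] at e2; exact hV0 e2.symm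
  have h30 : x₃ ≠ 0 := left_ne_zero_of_mul h34
  have h40 : x₄ ≠ 0 := right_ne_zero_of_mul h34
  have hts0 : (t - s) ^ 2 ≠ 0 := by
    intro h0; rw [h0, zero_mul] at e2; exact hV0 e2.symm
  -- `z = 1/x₃`, `w = 1/x₄`
  have hzw : x₃⁻¹ * x₄⁻¹ = (t - s) ^ 2 / V := by
    rw [eq_div_iff hV0, ← e2]; field_simp
  have hzpw : x₃⁻¹ + x₄⁻¹ = U / V := by
    rw [eq_div_iff hV0, ← e1, ← e2]; field_simp; ring
  have hp : v (x₃⁻¹ * x₄⁻¹) < 1 := by
    rw [hzw, map_div₀, hVv, div_one, map_pow, pow_two]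
    exact lt_of_le_of_lt (mul_le_of_le_one_right' hts.le) hts
  have hsm : v (x₃⁻¹ + x₄⁻¹) < 1 := by
    rw [hzpw, map_div₀, hVv, div_one]; exact hUv
  exact one_lt_val_of_inv_lt_one h30 (val_lt_one_of_sum_prod hsm hp)

/-- Tangent case of the subgroup property. -/
lemma one_lt_val_of_dbl (hW : IntegralCoeffs W v) {x x' : K} (hx : 1 < v x)
    (hdbl : x' * Fermat.Agent.S05.XId.dblDen W x = Fermat.Agent.S05.XId.dblNum W x) :
    1 < v x' := by
  obtain ⟨hb2, hb4, hb6, hb8⟩ := v_b hW
  have h0 := ne_zero_of_one_lt_val hx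
  have hsv : v x⁻¹ < 1 := val_inv_lt_one hx
  obtain ⟨s, hs0, rfl⟩ : ∃ s : K, s ≠ 0 ∧ x = s⁻¹ := ⟨x⁻¹, inv_ne_zero h0, (inv_inv _).symm⟩
  rw [inv_inv] at hsv
  have h2 : v (2 : K) ≤ 1 := by
    have := val_natCast_le_one (v := v) 2
    simpa using this
  have h4 : v (4 : K) ≤ 1 := by
    have := val_natCast_le_one (v := v) 4
    simpa using this
  have hsn : ∀ n : ℕ, 0 < n → v (s ^ n) < 1 := by
    intro n hn
    rw [map_pow]
    exact pow_lt_one₀ zero_le hsv hn.ne'
  set V : K := 1 - W.b₄ * s ^ 2 - 2 * W.b₆ * s ^ 3 - W.b₈ * s ^ 4 with hV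
  set U : K := 4 * s + W.b₂ * s ^ 2 + 2 * W.b₄ * s ^ 3 + W.b₆ * s ^ 4 with hU
  have hUv : v U < 1 := by
    refine val_add_lt_one (val_add_lt_one (val_add_lt_one ?_ ?_) ?_) ?_
    · exact val_mul_lt_one_right h4 hsv
    · exact val_mul_lt_one_right hb2 (hsn 2 (by norm_num))
    · exact val_mul_lt_one_right (val_mul_le_one h2 hb4) (hsn 3 (by norm_num))
    · exact val_mul_lt_one_right hb6 (hsn 4 (by norm_num))
  have hVv : v V = 1 := by
    have hrest : v (V - 1) < 1 := by
      have : V - 1 = -(W.b₄ * s ^ 2) + -(2 * W.b₆ * s ^ 3) + -(W.b₈ * s ^ 4) := by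
        simp only [hV]; ring
      rw [this]
      refine val_add_lt_one (val_add_lt_one ?_ ?_) ?_
      · rw [Valuation.map_neg]; exact val_mul_lt_one_right hb4 (hsn 2 (by norm_num))
      · rw [Valuation.map_neg]
        exact val_mul_lt_one_right (val_mul_le_one h2 hb6) (hsn 3 (by norm_num))
      · rw [Valuation.map_neg]; exact val_mul_lt_one_right hb8 (hsn 4 (by norm_num))
    have : V = 1 + (V - 1) := by ring
    rw [this, v.map_add_eq_of_lt_left (by rwa [map_one]), map_one]
  have hV0 : V ≠ 0 := by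
    intro h0; rw [h0, map_zero] at hVv; exact zero_ne_one hVv
  have e : x' * U = V := by
    have e2 : Fermat.Agent.S05.XId.dblDen W s⁻¹ * s ^ 4 = U := by
      simp only [Fermat.Agent.S05.XId.dblDen, hU]; field_simp
    have e3 : Fermat.Agent.S05.XId.dblNum W s⁻¹ * s ^ 4 = V := by
      simp only [Fermat.Agent.S05.XId.dblNum, hV]; field_simp
    rw [← e2, ← e3, ← hdbl]; ring
  have hx'0 : x' ≠ 0 := by
    intro h0; rw [h0, zero_mul] at e; exact hV0 e.symm
  have hU0 : U ≠ 0 := by
    intro h0; rw [h0, mul_zero] at e; exact hV0 e.symm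
  apply one_lt_val_of_inv_lt_one hx'0
  have : x'⁻¹ = U / V := by
    rw [eq_div_iff hV0, ← e]; field_simp
  rw [this, map_div₀, hVv, div_one]
  exact hUv

/-- **`E₁` is closed under addition** (any valuation, any characteristic). -/
theorem inKer_add (hW : IntegralCoeffs W v) {P Q : W.Point} (hP : InKer W v P)
    (hQ : InKer W v Q) : InKer W v (P + Q) := by
  rcases P with _ | ⟨x₁, y₁, h₁⟩
  · have : (Point.zero : W.Point) + Q = Q := zero_add Q
    rw [this]; exact hQ
  rcases Q with _ | ⟨x₂, y₂, h₂⟩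
  · have : Point.some x₁ y₁ h₁ + (Point.zero : W.Point) = Point.some x₁ y₁ h₁ := add_zero _
    rw [this]; exact hP
  have hx₁ : 1 < v x₁ := hP
  have hx₂ : 1 < v x₂ := hQ
  by_cases hxx : x₁ = x₂
  · by_cases hyy : y₁ = W.negY x₂ y₂
    · rw [Point.add_of_Y_eq hxx hyy]; exact inKer_zero
    · have hy12 : y₁ = y₂ := Affine.Y_eq_of_Y_ne h₁.1 h₂.1 hxx hyy
      subst hxx; subst hy12
      obtain ⟨x', y', h', hadd, hdbl, -⟩ := XId.add_self_some h₁ hyy
      rw [hadd]
      exact one_lt_val_of_dbl hW hx₁ hdbl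
  · obtain ⟨x₃, y₃, x₄, y₄, h₃, h₄, hadd, -, hsum, hprod⟩ := XId.add_sub_some h₁ h₂ hxx
    rw [hadd]
    exact one_lt_val_of_sum_prod hW hx₁ hx₂ hsum hprod

theorem inKer_sub (hW : IntegralCoeffs W v) {P Q : W.Point} (hP : InKer W v P)
    (hQ : InKer W v Q) : InKer W v (P - Q) := by
  rw [sub_eq_add_neg]; exact inKer_add hW hP (inKer_neg hQ)

end Fermat.Agent.Lib.Red.H290

end
-- ===== PACK-END Lib/Red/H290/RedKer.lean

-- ===== PACK-BEGIN S59/G4/Spec.lean
section



/-!
# Row S59, layer G4: existence of the Hecke–Galois datum — interface (squad-lead helper7)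

Goal (`G4Statement`): for a non-Eisenstein residual character `θ` of the anemic Hecke algebra
(`S ⊇ {p} ∪ primes(N)`), the Prelude ring `T = CuspForm.heckeLocal N S 𝒪 θ` carries a
`CuspForm.HeckeGaloisRepDatum`.  The algebraic fields are on main
(`Fermat.Agent.S59.H7.datumOfRep`); what is left is the representation `ρ_T`.

Pieces (each is a `Prop` below; prove `theorem foo : FooStatement`):

* `RedStatement`     (RED)    `T` is reduced.
* `PointsStatement`  (POINTS) a reduced finite free local `𝒪`-algebra has a finite strict family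
                              of `p`-adic points.
* `TraceFnStatement` (TRFN)   the traces of the S30-representations at the points glue to a
                              function `GQ → T` (Frobenius division + strictness + completeness).
* `DescentStatement` (DESC)   Wiles/Carayol descent: representations at a strict family of points
                              with traces in `T` and absolutely irreducible reduction come from
                              a representation over `T`.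
* `ResStatement`     (RES)    the reductions at the points are absolutely irreducible.
* `OddStatement`     (ODD)    the representations at the points are odd.

Plan, owners, status: `coord/S59-G4.md` on `origin/helper7`.
Only sorry-free definitions in this file; it is FROZEN once on main.
-/

set_option autoImplicit false

open Polynomial IsLocalRing

namespace Fermat.Agent.S59.G4

open Fermat.Agent.S31

/-- A `p`-adic point of `T` together with a Galois representation over its coefficient ring. -/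
structure RepPoint (p : ℕ) (T : Type) [CommRing T] : Type 1 where
  /-- the point -/
  pt : PadicPoint p T
  /-- the representation -/
  ρ : GaloisRepAdic pt.O

/-- The family of points is **strict**: the topology induced on `T` by the points is the
`𝔪_T`-adic one.  (For a Noetherian local `T` this implies joint injectivity.) -/
def IsStrict {p : ℕ} {T : Type} [CommRing T] [IsLocalRing T] (F : List (PadicPoint p T)) : Prop :=
  ∀ n : ℕ, ∃ n' : ℕ, ∀ t : T,
    (∀ P ∈ F, P.χ t ∈ maximalIdeal P.O ^ n') → t ∈ maximalIdeal T ^ n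

/-- Frobenius condition: `ρ` over `A` has the Hecke characteristic polynomials given by
`φ : 𝕋 → A` at all primes `ℓ ∉ S`, `ℓ ∤ N`. -/
def FrobCond {N : ℕ} [NeZero N] {S : Set ℕ} {A : Type} [CommRing A] [IsLocalRing A]
    (ρ : GaloisRepAdic A) (φ : CuspForm.heckeAlgebra N 2 S →+* A) : Prop :=
  ∀ (ℓ : ℕ) (hℓ : ℓ.Prime) (hℓN : ¬ ℓ ∣ N) (hℓS : ℓ ∉ S),
    ∀ B : ValuationSubring Qb, B.LiesOverPrime ℓ →
      ∀ σ : GQ, B.IsFrobeniusAt σ ℓ →
        LinearMap.charpoly (ρ.ρ σ) =
          X ^ 2 - C (φ (CuspForm.heckeAlgebra.T hℓ hℓN hℓS)) * X + C ((ℓ : A))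

/-- The same for a residual representation. -/
def ResFrobCond {N : ℕ} [NeZero N] {S : Set ℕ} {k : Type} [Field k]
    (ρ : ResidualGaloisRep k) (φ : CuspForm.heckeAlgebra N 2 S →+* k) : Prop :=
  ∀ (ℓ : ℕ) (hℓ : ℓ.Prime) (hℓN : ¬ ℓ ∣ N) (hℓS : ℓ ∉ S),
    ∀ B : ValuationSubring Qb, B.LiesOverPrime ℓ →
      ∀ σ : GQ, B.IsFrobeniusAt σ ℓ →
        LinearMap.charpoly (ρ.ρ σ) =
          X ^ 2 - C (φ (CuspForm.heckeAlgebra.T hℓ hℓN hℓS)) * X + C ((ℓ : k))

/-- `θ` is **non-Eisenstein**: it is the Frobenius character of an absolutely irreducible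
residual representation. -/
def NonEisenstein {N : ℕ} [NeZero N] {S : Set ℕ} {k : Type} [Field k]
    (θ : CuspForm.heckeAlgebra N 2 S →+* k) : Prop :=
  ∃ ρbar : ResidualGaloisRep k, ρbar.IsAbsolutelyIrreducible ∧ ResFrobCond ρbar θ

/-! ## The pieces -/

/-- **RED.** The local Hecke algebra is reduced (from the reducedness of the anemic Hecke
algebra, `Fermat.Agent.S31.H838.ssStatement`, by base change and localisation). -/
def RedStatement : Prop :=
  ∀ (N : ℕ) [NeZero N] (S : Set ℕ), (∀ q : ℕ, q.Prime → q ∣ N → q ∈ S) →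
    ∀ (𝒪 : Type) [CommRing 𝒪] [IsDomain 𝒪] [IsDiscreteValuationRing 𝒪]
      [IsAdicComplete (maximalIdeal 𝒪) 𝒪] [CharZero 𝒪]
      (θ : CuspForm.heckeAlgebra N 2 S →+* ResidueField 𝒪),
      IsReduced (CuspForm.heckeLocal N S 𝒪 θ)

/-- **POINTS.** A reduced local ring which is a finite free algebra over a complete DVR `𝒪`
(characteristic zero, finite residue field of characteristic `p`) has a finite strict family of
`p`-adic points, all of them local homomorphisms. -/
def PointsStatement : Prop :=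
  ∀ (p : ℕ) [Fact p.Prime] (𝒪 : Type) [CommRing 𝒪] [IsDomain 𝒪] [IsDiscreteValuationRing 𝒪]
    [IsAdicComplete (maximalIdeal 𝒪) 𝒪] [Finite (ResidueField 𝒪)] [CharZero 𝒪]
    (_hp𝒪 : (p : 𝒪) ∈ maximalIdeal 𝒪)
    (T : Type) [CommRing T] [IsLocalRing T] [Algebra 𝒪 T] [Module.Finite 𝒪 T] [Module.Free 𝒪 T]
    [IsReduced T],
    ∃ F : List (PadicPoint p T), IsStrict F ∧ ∀ P ∈ F, IsLocalHom P.χ

section Local

variable {p : ℕ} {T : Type} [CommRing T] [IsLocalRing T]

/-- The traces of the representations at the points glue to a function with values in `T`. -/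
def HasTraceFn (F : List (RepPoint p T)) : Prop :=
  ∃ τ : GQ → T, ∀ P ∈ F, ∀ σ : GQ, P.pt.χ (τ σ) = LinearMap.trace P.pt.O P.ρ.V (P.ρ.ρ σ)

/-- `ρ` over `T` specialises to the given representations at all points of the family (on the
level of characteristic polynomials). -/
def Specialises (ρ : GaloisRepAdic T) (F : List (RepPoint p T)) : Prop :=
  ∀ P ∈ F, ∀ σ : GQ,
    (LinearMap.charpoly (ρ.ρ σ)).map P.pt.χ = LinearMap.charpoly (P.ρ.ρ σ)

end Local

/-- **TRFN.** For a strict family of points of a complete Noetherian local ring `T` with Hecke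
structure `π : 𝕋 → T`, representations at the points satisfying the Frobenius condition have a
`T`-valued trace function. -/
def TraceFnStatement : Prop :=
  ∀ (p : ℕ) [Fact p.Prime] (N : ℕ) [NeZero N] (S : Finset ℕ)
    (T : Type) [CommRing T] [IsLocalRing T] [IsNoetherianRing T]
    [IsAdicComplete (maximalIdeal T) T]
    (π : CuspForm.heckeAlgebra N 2 (↑S : Set ℕ) →+* T)
    (F : List (RepPoint p T)), IsStrict (F.map RepPoint.pt) →
    (∀ P ∈ F, IsLocalHom P.pt.χ) →
    (∀ P ∈ F, FrobCond P.ρ (P.pt.χ.comp π)) → HasTraceFn F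

/-- **DESC.** (`p` odd.)  Given a nonempty strict family of points of the complete Noetherian
local ring `T`, representations at the points with determinant `-1` on every involution `≠ 1`
(oddness), with a `T`-valued trace function and absolutely irreducible reductions, there is a
representation over `T` specialising to all of them, with absolutely irreducible reduction. -/
def DescentStatement : Prop :=
  ∀ (p : ℕ) [Fact p.Prime] (_hp2 : p ≠ 2)
    (T : Type) [CommRing T] [IsLocalRing T] [IsNoetherianRing T]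
    [IsAdicComplete (maximalIdeal T) T]
    (F : List (RepPoint p T)), F ≠ [] → IsStrict (F.map RepPoint.pt) →
    (∀ P ∈ F, IsLocalHom P.pt.χ) →
    (∀ P ∈ F, ∀ c : GQ, c * c = 1 → c ≠ 1 → LinearMap.det (P.ρ.ρ c) = -1) →
    (∀ P ∈ F, P.ρ.residual.IsAbsolutelyIrreducible) →
    HasTraceFn F →
    ∃ ρ : GaloisRepAdic T, Specialises ρ F ∧ ρ.residual.IsAbsolutelyIrreducible

/-- **RES.** A representation over a complete DVR whose Frobenius characteristic polynomials
reduce to those of a non-Eisenstein `θ` has absolutely irreducible reduction.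
(Frobenius division + Brauer–Nesbitt for 2-dimensional representations with an absolutely
irreducible member.) -/
def ResStatement : Prop :=
  ∀ (p : ℕ) [Fact p.Prime] (_hp2 : p ≠ 2) (N : ℕ) [NeZero N] (S : Finset ℕ) (_hpS : p ∈ S)
    (O : Type) [CommRing O] [IsDomain O] [IsDiscreteValuationRing O]
    [IsAdicComplete (maximalIdeal O) O] [Finite (ResidueField O)] [CharZero O]
    (_hpO : (p : O) ∈ maximalIdeal O)
    (χ : CuspForm.heckeAlgebra N 2 (↑S : Set ℕ) →+* O)
    (_hθ : NonEisenstein ((residue O).comp χ))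
    (ρ : GaloisRepAdic O), FrobCond ρ χ → ρ.residual.IsAbsolutelyIrreducible

/-- **ODD.** A representation over a complete DVR with `det ρ(Frob_ℓ) = ℓ` for all primes
`ℓ ∉ S` (`p ∈ S`) has determinant `-1` on every involution `c ≠ 1` of `Gal(ℚ̄/ℚ)`.
(`det = ` cyclotomic by Frobenius division; an involution `≠ 1` inverts the roots of unity of
odd order: its fixed field `F` has `[ℚ̄ : F] = 2`, `-1` is not a square in `F` and sums of squares
of `F` are squares.) -/
def OddStatement : Prop :=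
  ∀ (p : ℕ) [Fact p.Prime] (_hp2 : p ≠ 2) (N : ℕ) [NeZero N] (S : Finset ℕ) (_hpS : p ∈ S)
    (O : Type) [CommRing O] [IsDomain O] [IsDiscreteValuationRing O]
    [IsAdicComplete (maximalIdeal O) O] [Finite (ResidueField O)] [CharZero O]
    (_hpO : (p : O) ∈ maximalIdeal O)
    (χ : CuspForm.heckeAlgebra N 2 (↑S : Set ℕ) →+* O)
    (ρ : GaloisRepAdic O), FrobCond ρ χ →
    ∀ c : GQ, c * c = 1 → c ≠ 1 → LinearMap.det (ρ.ρ c) = -1

/-! ## The goal -/

/-- **G4.** Existence of the Hecke–Galois datum on the Prelude ring `heckeLocal`. -/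
def G4Statement : Prop :=
  ∀ (p : ℕ) [Fact p.Prime] (_hp2 : p ≠ 2) (N : ℕ) [NeZero N] (S : Finset ℕ) (_hpS : p ∈ S)
    (_hNS : ∀ q : ℕ, q.Prime → q ∣ N → q ∈ S)
    (𝒪 : Type) [CommRing 𝒪] [IsDomain 𝒪] [IsDiscreteValuationRing 𝒪]
    [IsAdicComplete (maximalIdeal 𝒪) 𝒪] [Finite (ResidueField 𝒪)] [CharZero 𝒪]
    (_hp𝒪 : (p : 𝒪) ∈ maximalIdeal 𝒪)
    (θ : CuspForm.heckeAlgebra N 2 (↑S : Set ℕ) →+* ResidueField 𝒪) (_hθ : NonEisenstein θ)
    [Fact (CuspForm.HasIntegralStructure N 2)],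
    ∃ H : CuspForm.HeckeGaloisRepDatum N (↑S : Set ℕ) 𝒪 θ
        (CuspForm.heckeLocal N (↑S : Set ℕ) 𝒪 θ),
      H.π = CuspForm.heckeLocal.π N (↑S : Set ℕ) 𝒪 θ

end Fermat.Agent.S59.G4

end
-- ===== PACK-END S59/G4/Spec.lean

-- ===== PACK-BEGIN S59/G4/Spec2.lean
section


/-!
# Row S59, layer G4 — interface, part 2 (squad-lead helper7)

After `Spec.lean` was frozen, helper307 landed GLUE (`Fermat.Agent.S59.H307.exists_glued_rep`),
helper540 landed G-DET and full Chebotarev (`Fermat.Agent.Lib.Cheb.chebotarev`) is on main.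
Consequences for the pieces of G4:

* DESC is CLOSED (the assembly uses `H307.exists_glued_rep_of_hausdorff` directly);
* ODD is only needed for the Prelude's `complexConjugation` and is done inside the assembly
  (`H540.detIsCyclotomic_of_charpoly_frob` + `complexConjugation_root`);
* RES is replaced by `ResStatement2` below (general local coefficient ring, so that it also gives
  `residual_absIrr` of the glued representation over `T`; the residual representation lives over
  an arbitrary subfield, so that no base change of absolute irreducibility is needed by the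
  caller).

Open pieces of G4: `RedStatement`, `PointsStatement`, `TraceFnStatement` (all in `Spec.lean`) and
`ResStatement2`.
-/

set_option autoImplicit false

open Polynomial IsLocalRing

namespace Fermat.Agent.S59.G4

open Fermat.Agent.S31

/-- **RES2.** Let `θ : 𝕋 → k` be non-Eisenstein (`2 ≠ 0` in `k`), `A` a local ring whose
residue field receives `k` via `ι`, and `ρ` a representation over `A` whose Frobenius
characteristic polynomials are given by `φ : 𝕋 → A` with `φ ≡ ι ∘ θ` modulo the maximal ideal.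
Then the reduction of `ρ` is absolutely irreducible (and irreducible).

Proof sketch: by Chebotarev (`Fermat.Agent.Lib.Cheb.chebotarev`, on the compositum of the two
finite levels) `tr ρ.residual = ι ∘ tr ρ̄` on all of `GQ`; if `ρ.residual ⊗ K` (`K` algebraically
closed) had an invariant line then `tr ρ̄ = χ₁ + χ₂` with characters `χ_i : GQ → Kˣ`; by Burnside
the `K`-span of `ρ̄(GQ)` is `M₂(K)`, and by independence of characters (`2 ≠ 0`) the `χ_i` extend
to algebra homomorphisms `M₂(K) → K`: absurd. -/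
def ResStatement2 : Prop :=
  ∀ (N : ℕ) [NeZero N] (S : Finset ℕ)
    (k : Type) [Field k] (_h2 : (2 : k) ≠ 0)
    (θ : CuspForm.heckeAlgebra N 2 (↑S : Set ℕ) →+* k) (_hθ : NonEisenstein θ)
    (A : Type) [CommRing A] [IsLocalRing A] (ι : k →+* ResidueField A)
    (φ : CuspForm.heckeAlgebra N 2 (↑S : Set ℕ) →+* A)
    (_hφ : ∀ t, residue A (φ t) = ι (θ t))
    (ρ : GaloisRepAdic A), FrobCond ρ φ →
    ρ.residual.IsAbsolutelyIrreducible ∧ ρ.residual.IsIrreducible

end Fermat.Agent.S59.G4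

end
-- ===== PACK-END S59/G4/Spec2.lean

-- ===== PACK-BEGIN Lib/Cheb/H941/DirichletLimitBridge.lean
section



/-!
# Bridge for the analytic core (AN) of CHEB (helper941)

`Spec.DirichletLimitStatement` is phrased with Mathlib's `LSeries` of the arithmetic function
`n ↦ χ n * idealCount F n`.  The analytic work (tent method) naturally produces statements about
the ideal-indexed series

  `idealL K χ s = ∑' I : (Ideal (𝓞 K))⁰, χ (N I) * N(I) ^ (-s)`   (real `s > 1`).

This file proves that the two agree for real `s > 1` and deduces `Spec.DirichletLimitStatement`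
from the existence of a limit (or of a continuous extension to `[1, 2]`) of `idealL`.
-/

set_option autoImplicit false

open NumberField Ideal Filter Topology
open scoped nonZeroDivisors

namespace Fermat.Agent.Lib.Cheb.H941

noncomputable section

variable (K : Type*) [Field K] [NumberField K]

/-- The ideal-indexed norm-twisted `L`-series, for a real argument. -/
def idealL {m : ℕ} (χ : DirichletCharacter ℂ m) (s : ℝ) : ℂ :=
  ∑' I : (Ideal (𝓞 K))⁰, χ ((absNorm (I : Ideal (𝓞 K)) : ℕ) : ZMod m) *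
    (((absNorm (I : Ideal (𝓞 K)) : ℝ) ^ (-s) : ℝ) : ℂ)

/-- The summand, extended to all ideals (it vanishes at the zero ideal). -/
def idealTerm {m : ℕ} (χ : DirichletCharacter ℂ m) (s : ℝ) (I : Ideal (𝓞 K)) : ℂ :=
  χ ((absNorm I : ℕ) : ZMod m) * (((absNorm I : ℝ) ^ (-s) : ℝ) : ℂ)

lemma norm_idealTerm_le {m : ℕ} (χ : DirichletCharacter ℂ m) (s : ℝ) (I : Ideal (𝓞 K)) :
    ‖idealTerm K χ s I‖ ≤ H761.normPow K s I := by
  unfold idealTerm H761.normPow
  rw [norm_mul, Complex.norm_real, Real.norm_of_nonneg (Real.rpow_nonneg (Nat.cast_nonneg _) _)]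
  calc ‖χ ((absNorm I : ℕ) : ZMod m)‖ * (absNorm I : ℝ) ^ (-s)
      ≤ 1 * (absNorm I : ℝ) ^ (-s) :=
        mul_le_mul_of_nonneg_right (DirichletCharacter.norm_le_one χ _)
          (Real.rpow_nonneg (Nat.cast_nonneg _) _)
    _ = (absNorm I : ℝ) ^ (-s) := one_mul _

lemma summable_idealTerm {m : ℕ} (χ : DirichletCharacter ℂ m) {s : ℝ} (hs : 1 < s) :
    Summable (idealTerm K χ s) :=
  Summable.of_norm_bounded (H761.summable_normPow K hs) (norm_idealTerm_le K χ s)

lemma idealTerm_bot {m : ℕ} (χ : DirichletCharacter ℂ m) {s : ℝ} (hs : s ≠ 0) :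
    idealTerm K χ s ⊥ = 0 := by
  unfold idealTerm
  simp [Real.zero_rpow (neg_ne_zero.mpr hs)]

/-- `idealL` as a sum over all ideals. -/
lemma idealL_eq_tsum {m : ℕ} (χ : DirichletCharacter ℂ m) {s : ℝ} (hs : s ≠ 0) :
    idealL K χ s = ∑' I : Ideal (𝓞 K), idealTerm K χ s I := by
  unfold idealL
  have h1 : ∑' I : (Ideal (𝓞 K))⁰, χ ((absNorm (I : Ideal (𝓞 K)) : ℕ) : ZMod m) *
      (((absNorm (I : Ideal (𝓞 K)) : ℝ) ^ (-s) : ℝ) : ℂ)
      = ∑' I : ((Ideal (𝓞 K))⁰ : Set (Ideal (𝓞 K))), idealTerm K χ s I := rfl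
  rw [h1, tsum_subtype]
  refine tsum_congr fun I => ?_
  by_cases hI : I ∈ ((Ideal (𝓞 K))⁰ : Set (Ideal (𝓞 K)))
  · rw [Set.indicator_of_mem hI]
  · rw [Set.indicator_of_notMem hI]
    have hI' : I = ⊥ := by
      by_contra hne
      exact hI (mem_nonZeroDivisors_iff_ne_zero.mpr hne)
    rw [hI', idealTerm_bot K χ hs]

/-- The sum of the summands over the ideals of norm `n`. -/
lemma tsum_fiber_idealTerm {m : ℕ} (χ : DirichletCharacter ℂ m) (s : ℝ) (n : ℕ) :
    ∑' I : {I : Ideal (𝓞 K) // absNorm I = n}, idealTerm K χ s I.1 =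
      χ ((n : ℕ) : ZMod m) * ((Nat.card {I : Ideal (𝓞 K) // absNorm I = n} : ℂ) *
        (((n : ℝ) ^ (-s) : ℝ) : ℂ)) := by
  have hfin : Finite {I : Ideal (𝓞 K) // absNorm I = n} :=
    (Ideal.finite_setOfPred_absNorm_eq n).to_subtype
  have : Fintype {I : Ideal (𝓞 K) // absNorm I = n} := Fintype.ofFinite _
  rw [tsum_fintype]
  have h : ∀ I : {I : Ideal (𝓞 K) // absNorm I = n},
      idealTerm K χ s I.1 = χ ((n : ℕ) : ZMod m) * (((n : ℝ) ^ (-s) : ℝ) : ℂ) := by
    intro I
    simp only [idealTerm, I.2]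
  simp only [h, Finset.sum_const, Finset.card_univ, nsmul_eq_mul, Nat.card_eq_fintype_card]
  ring

/-- `idealL` as a sum over the norms. -/
lemma idealL_eq_tsum_nat {m : ℕ} (χ : DirichletCharacter ℂ m) {s : ℝ} (hs : 1 < s) :
    idealL K χ s = ∑' n : ℕ, χ ((n : ℕ) : ZMod m) *
      ((Nat.card {I : Ideal (𝓞 K) // absNorm I = n} : ℂ) * (((n : ℝ) ^ (-s) : ℝ) : ℂ)) := by
  have hsum := summable_idealTerm K χ hs
  have hsum' : Summable (fun x : Σ n : ℕ, {I : Ideal (𝓞 K) // absNorm I = n} =>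
      idealTerm K χ s x.2.1) :=
    ((Equiv.sigmaFiberEquiv (fun I : Ideal (𝓞 K) => absNorm I)).summable_iff
      (f := idealTerm K χ s)).mpr hsum
  calc idealL K χ s
      = ∑' I : Ideal (𝓞 K), idealTerm K χ s I := idealL_eq_tsum K χ (by linarith)
    _ = ∑' x : Σ n : ℕ, {I : Ideal (𝓞 K) // absNorm I = n}, idealTerm K χ s x.2.1 :=
        ((Equiv.sigmaFiberEquiv (fun I : Ideal (𝓞 K) => absNorm I)).tsum_eq
          (idealTerm K χ s)).symm
    _ = ∑' n : ℕ, ∑' I : {I : Ideal (𝓞 K) // absNorm I = n}, idealTerm K χ s I.1 :=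
        hsum'.tsum_sigma
    _ = _ := tsum_congr fun n => tsum_fiber_idealTerm K χ s n

/-- The `LSeries` of `n ↦ χ n * idealCount n` at a real `s > 1` is `idealL`. -/
theorem lseries_eq_idealL {m : ℕ} (χ : DirichletCharacter ℂ m) {s : ℝ} (hs : 1 < s) :
    LSeries (fun n => χ (n : ZMod m) *
      (Nat.card {I : Ideal (𝓞 K) // absNorm I = n} : ℂ)) (s : ℂ) = idealL K χ s := by
  rw [idealL_eq_tsum_nat K χ hs, LSeries]
  refine tsum_congr fun n => ?_
  rcases eq_or_ne n 0 with rfl | hn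
  · have : (0 : ℝ) ^ (-s) = 0 := Real.zero_rpow (by linarith)
    simp [this]
  · rw [LSeries.term_of_ne_zero hn, Complex.ofReal_cpow (Nat.cast_nonneg n), Complex.ofReal_neg,
      Complex.cpow_neg]
    simp only [Complex.ofReal_natCast]
    rw [div_eq_mul_inv]
    ring

/-- A function agreeing on `(1, 2]` with a function continuous on `[1, 2]` has a limit at `1⁺`. -/
theorem tendsto_of_continuousOn_Icc {f G : ℝ → ℂ} (hG : ContinuousOn G (Set.Icc 1 2))
    (hfG : ∀ s : ℝ, 1 < s → s ≤ 2 → G s = f s) :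
    Tendsto f (𝓝[>] 1) (𝓝 (G 1)) := by
  have h1 : Tendsto G (𝓝[Set.Icc 1 2] 1) (𝓝 (G 1)) := hG 1 ⟨le_rfl, by norm_num⟩
  have h2 : 𝓝[Set.Ioc 1 2] (1:ℝ) = 𝓝[>] 1 := nhdsWithin_Ioc_eq_nhdsGT (by norm_num)
  have h3 : Tendsto G (𝓝[Set.Ioc 1 2] 1) (𝓝 (G 1)) :=
    h1.mono_left (nhdsWithin_mono _ Set.Ioc_subset_Icc_self)
  rw [h2] at h3
  refine h3.congr' ?_
  have hev : ∀ᶠ s in 𝓝[>] (1:ℝ), s ≤ 2 :=
    mem_nhdsWithin_of_mem_nhds (Iic_mem_nhds (by norm_num))
  filter_upwards [self_mem_nhdsWithin, hev] with s hs hs2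
  exact hfG s hs hs2

end

/-- **AN in the frozen `Spec` shape**, from the ideal-indexed statement. -/
theorem dirichletLimit_of_tendsto_idealL
    (h : ∀ (F : Type) [Field F] [NumberField F] (m : ℕ) [NeZero m] (χ : DirichletCharacter ℂ m)
      (I₀ : (Ideal (𝓞 F))⁰),
      χ ((absNorm (I₀ : Ideal (𝓞 F)) : ℕ) : ZMod m) ≠ 0 →
      χ ((absNorm (I₀ : Ideal (𝓞 F)) : ℕ) : ZMod m) ≠ 1 →
      ∃ c : ℂ, Tendsto (fun s : ℝ => idealL F χ s) (𝓝[>] 1) (𝓝 c)) :
    Spec.DirichletLimitStatement := by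
  intro F _ _ m _ χ hI
  obtain ⟨I, hI0, hI1⟩ := hI
  have hIne : I ≠ ⊥ := by
    rintro rfl
    rw [Ideal.absNorm_bot] at hI0 hI1
    by_cases hm : m = 1
    · subst hm
      apply hI1
      have : ((0 : ℕ) : ZMod 1) = 1 := Subsingleton.elim _ _
      rw [this, map_one]
    · apply hI0
      have hnu : ¬ IsUnit (((0 : ℕ) : ZMod m)) := by
        have : Fact (1 < m) := ⟨by
          have := NeZero.ne m
          omega⟩
        simp
      exact χ.map_nonunit hnu
  obtain ⟨c, hc⟩ := h F m χ ⟨I, mem_nonZeroDivisors_iff_ne_zero.mpr hIne⟩ hI0 hI1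
  refine ⟨c, hc.congr' ?_⟩
  filter_upwards [self_mem_nhdsWithin] with s hs
  have hs1 : (1:ℝ) < s := hs
  exact (lseries_eq_idealL F χ hs1).symm

/-- **AN in the frozen `Spec` shape**, from a continuous extension to `[1, 2]`. -/
theorem dirichletLimit_of_continuousOn
    (h : ∀ (F : Type) [Field F] [NumberField F] (m : ℕ) [NeZero m] (χ : DirichletCharacter ℂ m)
      (I₀ : (Ideal (𝓞 F))⁰),
      χ ((absNorm (I₀ : Ideal (𝓞 F)) : ℕ) : ZMod m) ≠ 0 →
      χ ((absNorm (I₀ : Ideal (𝓞 F)) : ℕ) : ZMod m) ≠ 1 →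
      ∃ G : ℝ → ℂ, ContinuousOn G (Set.Icc 1 2) ∧
        ∀ s : ℝ, 1 < s → s ≤ 2 → G s = idealL F χ s) :
    Spec.DirichletLimitStatement :=
  dirichletLimit_of_tendsto_idealL fun F _ _ m _ χ I₀ h0 h1 => by
    obtain ⟨G, hG, hGf⟩ := h F m χ I₀ h0 h1
    exact ⟨G 1, tendsto_of_continuousOn_Icc hG hGf⟩

end Fermat.Agent.Lib.Cheb.H941

end
-- ===== PACK-END Lib/Cheb/H941/DirichletLimitBridge.lean

-- ===== PACK-BEGIN S59/H307/Glue.lean
section





/-!
# S59 / layer G4, piece GLUE (helper307): descent of `ρ` from the points `O i` to `T`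

Main results:

* `exists_glued_rep` : **GLUE**.  `T` local with `2` a unit, `ψ i : T →+* O i` local homs, jointly
  injective, topologically separating (`htop`, PTS-style: for every `n` a finite set of indices
  and `n'`), `ρ' i : GaloisRepAdic (O i)` with traces `ψ i (τ σ)`, an involution `c` with
  `τ c = 0`, and one `ρ' i₀` residually irreducible.  Then there is `ρ : GaloisRepAdic T` with
  `ρ.trace = τ` and `ρ ⊗ O i ≅ ρ' i` for all `i`.
* `exists_glued_rep_of_hausdorff` : the same with joint injectivity deduced from `htop` and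
  `IsHausdorff`.
* `isEquiv_of_trace_eq` : **UNIQ** (Carayol/Serre in the odd case).  Two `GaloisRepAdic A` with
  the same traces, trace `0` at an involution, one of them residually irreducible, are equivalent.
* `charpoly_eq_of_baseChange_isEquiv` : characteristic polynomials descend along a jointly
  injective family of base changes.
-/

set_option autoImplicit false
set_option linter.unusedSectionVars false
set_option linter.unusedVariables false

noncomputable section

namespace Fermat.Agent.S59.H307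

open scoped TensorProduct
open Matrix Polynomial

section Main

variable {T : Type} [CommRing T] [IsLocalRing T]
  {ι : Type*} {O : ι → Type} [∀ i, CommRing (O i)] [∀ i, IsLocalRing (O i)]

/-- **GLUE**: descent of a family of 2-dimensional Galois representations over the points `O i`
of `T` to a representation over `T`. -/
theorem exists_glued_rep (h2 : IsUnit (2 : T))
    (ψ : ∀ i, T →+* O i) (hψ : ∀ i, IsLocalHom (ψ i))
    (hinj : ∀ t : T, (∀ i, ψ i t = 0) → t = 0)
    (htop : ∀ n : ℕ, ∃ (F : Finset ι) (n' : ℕ), ∀ t : T,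
      (∀ i ∈ F, ψ i t ∈ IsLocalRing.maximalIdeal (O i) ^ n') →
        t ∈ IsLocalRing.maximalIdeal T ^ n)
    (ρ' : ∀ i, GaloisRepAdic (O i)) (τ : GalQ → T)
    (hτ : ∀ i σ, ψ i (τ σ) = (ρ' i).trace σ)
    (c : GalQ) (hcc : c * c = 1) (hτc : τ c = 0)
    (i₀ : ι) (hirr : (ρ' i₀).residual.IsIrreducible) :
    ∃ ρ : GaloisRepAdic T, (∀ σ, ρ.trace σ = τ σ) ∧
      ∀ i, (ρ.baseChangeAlong (ψ i) (hψ i)).IsEquiv (ρ' i) := by
  classical
  choose e m hreal using fun i => exists_realizes (ρ' i)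
  obtain ⟨M, hMtr, hM⟩ := exists_glued ψ hψ hinj h2 m τ
    (fun i σ => by rw [hτ, (hreal i).trace_eq]) c hcc hτc i₀
    (fun P Q hPQ hQP =>
      ⟨((hreal i₀).conj hPQ hQP).exists_isUnit_01 hirr,
        ((hreal i₀).conj hPQ hQP).exists_isUnit_10 hirr⟩)
  choose P Q hPQ hQP hMi using hM
  have hcont : EntrywiseContinuous M := by
    intro n
    obtain ⟨F, n', hF⟩ := htop n
    have hex : ∀ i, ∃ L : IntermediateField ℚ (AlgebraicClosure ℚ), FiniteDimensional ℚ L ∧
        ∀ σ : GalQ, (∀ x ∈ L, σ x = x) →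
          ∀ j k, (Q i * m i σ * P i - 1) j k ∈ IsLocalRing.maximalIdeal (O i) ^ n' :=
      fun i => ((hreal i).entrywiseContinuous.conj (hQP i)) n'
    choose L hL hLc using hex
    refine ⟨⨆ i ∈ F, L i, IntermediateField.finiteDimensional_iSup_of_finset' fun i _ => hL i,
      fun σ hσ j k => ?_⟩
    apply hF
    intro i hi
    have hσi : ∀ x ∈ L i, σ x = x := fun x hx =>
      hσ x ((le_iSup₂ (f := fun i (_ : i ∈ F) => L i) i hi) hx)
    have := hLc i σ hσi j k
    rw [← hMi i σ] at this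
    convert this using 1
    rw [Matrix.sub_apply, Matrix.sub_apply, map_sub, Matrix.map_apply, Matrix.one_apply,
      Matrix.one_apply]
    split_ifs
    · rw [map_one]
    · rw [map_zero]
  refine ⟨ofMat M hcont, fun σ => by rw [trace_ofMat, hMtr], fun i => ?_⟩
  exact baseChange_ofMat_isEquiv (ψ i) (hψ i) M hcont ((hreal i).conj (hPQ i) (hQP i))
    (fun σ => hMi i σ)

/-- **GLUE**, with joint injectivity deduced from topological separation and Hausdorffness. -/
theorem exists_glued_rep_of_hausdorff [IsHausdorff (IsLocalRing.maximalIdeal T) T]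
    (h2 : IsUnit (2 : T))
    (ψ : ∀ i, T →+* O i) (hψ : ∀ i, IsLocalHom (ψ i))
    (htop : ∀ n : ℕ, ∃ (F : Finset ι) (n' : ℕ), ∀ t : T,
      (∀ i ∈ F, ψ i t ∈ IsLocalRing.maximalIdeal (O i) ^ n') →
        t ∈ IsLocalRing.maximalIdeal T ^ n)
    (ρ' : ∀ i, GaloisRepAdic (O i)) (τ : GalQ → T)
    (hτ : ∀ i σ, ψ i (τ σ) = (ρ' i).trace σ)
    (c : GalQ) (hcc : c * c = 1) (hτc : τ c = 0)
    (i₀ : ι) (hirr : (ρ' i₀).residual.IsIrreducible) :
    ∃ ρ : GaloisRepAdic T, (∀ σ, ρ.trace σ = τ σ) ∧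
      ∀ i, (ρ.baseChangeAlong (ψ i) (hψ i)).IsEquiv (ρ' i) := by
  refine exists_glued_rep h2 ψ hψ ?_ htop ρ' τ hτ c hcc hτc i₀ hirr
  intro t ht
  apply IsHausdorff.haus (I := IsLocalRing.maximalIdeal T) ‹_› t
  intro n
  obtain ⟨F, n', hF⟩ := htop n
  have : t ∈ IsLocalRing.maximalIdeal T ^ n :=
    hF t fun i _ => by rw [ht i]; exact Ideal.zero_mem _
  rw [SModEq.zero, smul_eq_mul, Ideal.mul_top]
  exact this

end Main

section Uniq

variable {A : Type} [CommRing A] [IsLocalRing A]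

/-- **UNIQ** (Carayol–Serre rigidity, odd case): two representations over a local ring in which
`2` is a unit with the same traces, trace `0` at an involution `c`, and one of them residually
irreducible, are equivalent. -/
theorem isEquiv_of_trace_eq (h2 : IsUnit (2 : A)) (ρ₁ ρ₂ : GaloisRepAdic A)
    (htr : ∀ σ, ρ₁.trace σ = ρ₂.trace σ) (c : GalQ) (hcc : c * c = 1) (hc : ρ₁.trace c = 0)
    (hirr : ρ₁.residual.IsIrreducible) : ρ₁.IsEquiv ρ₂ := by
  classical
  obtain ⟨e₁, m₁, h₁⟩ := exists_realizes ρ₁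
  obtain ⟨e₂, m₂, h₂⟩ := exists_realizes ρ₂
  have hloc : ∀ i : Bool, IsLocalHom (RingHom.id A) := fun _ => ⟨fun a ha => ha⟩
  obtain ⟨M, -, hM⟩ := exists_glued (G := GalQ) (T := A) (ι := Bool) (O := fun _ => A)
    (fun _ => RingHom.id A) hloc (fun t ht => ht true) h2
    (fun i => if i then m₁ else m₂) (fun σ => ρ₁.trace σ)
    (fun i σ => by
      cases i
      · simp only [Bool.false_eq_true, if_false, RingHom.id_apply]
        rw [htr, h₂.trace_eq]
      · simp only [if_true, RingHom.id_apply]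
        rw [h₁.trace_eq]) c hcc hc true
    (fun P Q hPQ hQP => by
      simp only [if_true]
      exact ⟨(h₁.conj hPQ hQP).exists_isUnit_01 hirr, (h₁.conj hPQ hQP).exists_isUnit_10 hirr⟩)
  obtain ⟨P₁, Q₁, hPQ₁, hQP₁, hM₁⟩ := hM true
  obtain ⟨P₂, Q₂, hPQ₂, hQP₂, hM₂⟩ := hM false
  simp only [if_true] at hM₁
  simp only [Bool.false_eq_true, if_false] at hM₂
  have hr₁ := h₁.conj hPQ₁ hQP₁
  have hr₂ := h₂.conj hPQ₂ hQP₂
  have : (fun σ => Q₁ * m₁ σ * P₁) = fun σ => Q₂ * m₂ σ * P₂ := by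
    funext σ
    rw [← hM₁ σ, ← hM₂ σ]
  rw [this] at hr₁
  exact isEquiv_of_realizes hr₁ hr₂

end Uniq

section Charpoly

variable {T : Type} [CommRing T] [IsLocalRing T]
  {ι : Type*} {O : ι → Type} [∀ i, CommRing (O i)] [∀ i, IsLocalRing (O i)]

/-- Equivalent representations have the same characteristic polynomials. -/
theorem charpoly_eq_of_isEquiv {A : Type} [CommRing A] [IsLocalRing A] {ρ₁ ρ₂ : GaloisRepAdic A}
    (h : ρ₁.IsEquiv ρ₂) (σ : GalQ) :
    LinearMap.charpoly (ρ₁.ρ σ) = LinearMap.charpoly (ρ₂.ρ σ) := by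
  obtain ⟨E⟩ := h
  rw [← LinearEquiv.charpoly_conj E.toLinearEquiv (ρ₁.ρ σ)]
  congr 1
  apply LinearMap.ext
  intro w
  rw [LinearEquiv.conj_apply_apply, E.map_apply, LinearEquiv.apply_symm_apply]

/-- Characteristic polynomial of a base change. -/
theorem charpoly_baseChangeAlong {A B : Type} [CommRing A] [IsLocalRing A] [CommRing B]
    [IsLocalRing B] (φ : A →+* B) (hφ : IsLocalHom φ) (ρ : GaloisRepAdic A) (σ : GalQ) :
    LinearMap.charpoly ((ρ.baseChangeAlong φ hφ).ρ σ) = (LinearMap.charpoly (ρ.ρ σ)).map φ := by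
  letI : Algebra A B := φ.toAlgebra
  exact LinearMap.charpoly_baseChange (ρ.ρ σ) B

/-- Characteristic polynomials descend along a jointly injective family of base changes. -/
theorem charpoly_eq_of_baseChange_isEquiv (ψ : ∀ i, T →+* O i) (hψ : ∀ i, IsLocalHom (ψ i))
    (hinj : ∀ t : T, (∀ i, ψ i t = 0) → t = 0) (ρ : GaloisRepAdic T)
    (ρ' : ∀ i, GaloisRepAdic (O i))
    (hρ : ∀ i, (ρ.baseChangeAlong (ψ i) (hψ i)).IsEquiv (ρ' i)) (σ : GalQ) (p : T[X])
    (hp : ∀ i, LinearMap.charpoly ((ρ' i).ρ σ) = p.map (ψ i)) :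
    LinearMap.charpoly (ρ.ρ σ) = p := by
  apply Polynomial.ext
  intro n
  rw [← sub_eq_zero]
  apply hinj
  intro i
  have h1 := charpoly_eq_of_isEquiv (hρ i) σ
  rw [charpoly_baseChangeAlong, hp i] at h1
  have h2 := congrArg (fun q => q.coeff n) h1
  simp only [Polynomial.coeff_map] at h2
  rw [map_sub, h2, sub_self]

end Charpoly

end Fermat.Agent.S59.H307

end
end
-- ===== PACK-END S59/H307/Glue.lean

-- ===== PACK-BEGIN S59/G4/H307/AbsIrr.lean
section




/-!
# S59 / G4 / DESC (helper307): absolute irreducibility in matrix terms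

* `HasEigenline m` : the matrices `m σ` have a common eigenvector.
* `toRes_isIrreducible_iff` : irreducibility of a matrix residual representation.
* `absIrr_iff_of_isEquiv`   : absolute irreducibility = no common eigenvector over `k̄`.
* `isIrreducible_of_absIrr` : absolutely irreducible implies irreducible.
* `residual_absIrr_of_baseChange` : if `ρ ⊗ O ≅ ρ'` and `ρ'` is residually absolutely
  irreducible, so is `ρ`.
-/

set_option autoImplicit false
set_option linter.unusedSectionVars false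
set_option linter.unusedVariables false
set_option linter.unusedSimpArgs false

noncomputable section

namespace Fermat.Agent.S59.G4.H307

open scoped TensorProduct
open Matrix Fermat.Agent.S53

section Eigen

variable {k : Type} [Field k]

/-- The matrices `m σ` have a common eigenvector. -/
def HasEigenline (m : GQ → M2 k) : Prop :=
  ∃ v : Fin 2 → k, v ≠ 0 ∧ ∀ σ, ∃ c : k, (m σ).mulVec v = c • v

theorem HasEigenline.map {k' : Type} [Field k'] (φ : k →+* k') {m : GQ → M2 k}
    (h : HasEigenline m) : HasEigenline (fun σ => (m σ).map φ) := by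
  obtain ⟨v, hv, hm⟩ := h
  refine ⟨fun i => φ (v i), ?_, fun σ => ?_⟩
  · intro h0
    apply hv
    ext i
    have := congrFun h0 i
    apply φ.injective
    rw [Pi.zero_apply, map_zero]
    exact this
  · obtain ⟨c, hc⟩ := hm σ
    refine ⟨φ c, ?_⟩
    ext i
    have := congrArg φ (congrFun hc i)
    simp only [Matrix.mulVec, dotProduct, Pi.smul_apply, smul_eq_mul, map_sum, map_mul,
      Matrix.map_apply] at this ⊢
    exact this

theorem toRes_isIrreducible_iff (rb : GQ →* M2 k) (h : GaloisFactorsThroughFiniteLevel rb) :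
    (toRes rb h).IsIrreducible ↔ ¬ HasEigenline rb := by
  constructor
  · rintro hirr ⟨v, hv, hm⟩
    have hirr' : ∀ W : Submodule k (Fin 2 → k),
        (∀ σ : GQ, ∀ x ∈ W, (rb σ).mulVec x ∈ W) → W = ⊥ ∨ W = ⊤ := hirr
    rcases hirr' (Submodule.span k {v}) (by
      intro σ x hx
      obtain ⟨a, rfl⟩ := Submodule.mem_span_singleton.mp hx
      obtain ⟨c, hc⟩ := hm σ
      rw [Matrix.mulVec_smul, hc]
      exact Submodule.smul_mem _ _ (Submodule.smul_mem _ _ (Submodule.mem_span_singleton_self _)))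
      with hW | hW
    · have : v ∈ Submodule.span k {v} := Submodule.mem_span_singleton_self _
      rw [hW] at this
      exact hv ((Submodule.mem_bot k).mp this)
    · have h1 : Module.finrank k (Submodule.span k {v}) = 1 := finrank_span_singleton hv
      rw [hW, finrank_top, Module.finrank_fin_fun] at h1
      omega
  · intro hne
    have key : ∀ W : Submodule k (Fin 2 → k),
        (∀ σ : GQ, ∀ x ∈ W, (rb σ).mulVec x ∈ W) → W = ⊥ ∨ W = ⊤ := by
      intro W hW
      by_contra hcon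
      rw [not_or] at hcon
      obtain ⟨hbot, htop⟩ := hcon
      have h1 : 0 < Module.finrank k W := by
        haveI : Nontrivial W := (Submodule.nontrivial_iff_ne_bot).mpr hbot
        exact Module.finrank_pos
      have h2 : Module.finrank k W < Module.finrank k (Fin 2 → k) :=
        Submodule.finrank_lt htop
      rw [Module.finrank_fin_fun] at h2
      have h3 : Module.finrank k W = 1 := by omega
      obtain ⟨w, hw, hall⟩ := finrank_eq_one_iff'.mp h3
      apply hne
      refine ⟨(w : Fin 2 → k), fun h0 => hw (Subtype.ext h0), fun σ => ?_⟩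
      obtain ⟨c, hc⟩ := hall ⟨(rb σ).mulVec (w : Fin 2 → k), hW σ _ w.2⟩
      refine ⟨c, ?_⟩
      have := congrArg Subtype.val hc
      exact this.symm
    exact key

/-- Absolute irreducibility in matrix terms. -/
theorem absIrr_iff_of_isEquiv (ρbar : ResidualGaloisRep k) (rb : GQ →* M2 k)
    (h : GaloisFactorsThroughFiniteLevel rb) (he : ρbar.IsEquiv (toRes rb h)) :
    ρbar.IsAbsolutelyIrreducible ↔
      ¬ HasEigenline (mapRep (algebraMap k (AlgebraicClosure k)) rb) := by
  obtain ⟨e⟩ := he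
  obtain ⟨e'⟩ := baseChange_toRes (AlgebraicClosure k) rb h
  have E := (resEquivBaseChange (AlgebraicClosure k) e).trans e'
  rw [← toRes_isIrreducible_iff _ (factors_mapRep (algebraMap k (AlgebraicClosure k)) h)]
  exact ⟨fun hh => isIrreducible_of_equiv E hh, fun hh => isIrreducible_of_equiv E.symm hh⟩

/-- Absolutely irreducible implies irreducible. -/
theorem isIrreducible_of_absIrr (ρbar : ResidualGaloisRep k)
    (h : ρbar.IsAbsolutelyIrreducible) : ρbar.IsIrreducible := by
  obtain ⟨rb, hrb, he⟩ := exists_toRes ρbar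
  have h1 := (absIrr_iff_of_isEquiv ρbar rb hrb he).mp h
  have h2 : ¬ HasEigenline rb := fun hE => h1 (hE.map (algebraMap k (AlgebraicClosure k)))
  have h3 := (toRes_isIrreducible_iff rb hrb).mpr h2
  obtain ⟨e⟩ := he
  exact isIrreducible_of_equiv e.symm h3

end Eigen

section BaseChange

open IsLocalRing

variable {T O : Type} [CommRing T] [IsLocalRing T] [CommRing O] [IsLocalRing O]

/-- If `ρ ⊗ O ≅ ρ'` and `ρ'` is residually absolutely irreducible, so is `ρ`. -/
theorem residual_absIrr_of_baseChange (ψ : T →+* O) (hψ : IsLocalHom ψ) (ρ : GaloisRepAdic T)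
    (ρ' : GaloisRepAdic O) (h : (ρ.baseChangeAlong ψ hψ).IsEquiv ρ')
    (habs : ρ'.residual.IsAbsolutelyIrreducible) : ρ.residual.IsAbsolutelyIrreducible := by
  have := hψ
  obtain ⟨r, hr, ⟨e0⟩⟩ := exists_toAdic ρ
  obtain ⟨e1⟩ := residual_toAdic r hr
  have hρ : ρ.residual.IsEquiv (toRes (mapRep (residue T) r) hr.factors_residue) :=
    ⟨e0.residual.trans e1⟩
  obtain ⟨e2⟩ := baseChangeAlong_toAdic ψ hψ r hr
  obtain ⟨e3⟩ := h
  have e4 : GaloisRepAdic.Equiv ρ' (toAdic (mapRep ψ r) (hr.map ψ hψ)) :=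
    (e3.symm.trans (e0.baseChangeAlong ψ hψ)).trans e2
  obtain ⟨e5⟩ := residual_toAdic (mapRep ψ r) (hr.map ψ hψ)
  have hρ' : ρ'.residual.IsEquiv
      (toRes (mapRep (residue O) (mapRep ψ r)) (hr.map ψ hψ).factors_residue) :=
    ⟨e4.residual.trans e5⟩
  rw [absIrr_iff_of_isEquiv _ _ _ hρ]
  have h' := (absIrr_iff_of_isEquiv _ _ _ hρ').mp habs
  intro hE
  apply h'
  let _ : Algebra (ResidueField T) (AlgebraicClosure (ResidueField O)) :=
    ((algebraMap (ResidueField O) (AlgebraicClosure (ResidueField O))).comp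
      (ResidueField.map ψ)).toAlgebra
  let j : AlgebraicClosure (ResidueField T) →ₐ[ResidueField T]
      AlgebraicClosure (ResidueField O) := IsAlgClosed.lift
  have hj := hE.map (j : AlgebraicClosure (ResidueField T) →+*
    AlgebraicClosure (ResidueField O))
  have hfun : (fun σ => ((mapRep (algebraMap (ResidueField T)
      (AlgebraicClosure (ResidueField T))) (mapRep (residue T) r)) σ).map
        (j : AlgebraicClosure (ResidueField T) →+* AlgebraicClosure (ResidueField O))) =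
      (mapRep (algebraMap (ResidueField O) (AlgebraicClosure (ResidueField O)))
        (mapRep (residue O) (mapRep ψ r))) := by
    funext σ
    ext a b
    simp only [mapRep_apply, Matrix.map_apply]
    have h1 : (j : AlgebraicClosure (ResidueField T) →+* AlgebraicClosure (ResidueField O))
        (algebraMap (ResidueField T) (AlgebraicClosure (ResidueField T))
          (residue T (r σ a b))) =
        algebraMap (ResidueField T) (AlgebraicClosure (ResidueField O))
          (residue T (r σ a b)) := j.commutes _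
    rw [h1]
    show (algebraMap (ResidueField O) (AlgebraicClosure (ResidueField O)))
      (ResidueField.map ψ (residue T (r σ a b))) = _
    rw [ResidueField.map_residue]
  rw [hfun] at hj
  exact hj

end BaseChange

end Fermat.Agent.S59.G4.H307

end
end
-- ===== PACK-END S59/G4/H307/AbsIrr.lean

-- ===== PACK-BEGIN S59/G4/H307/Desc.lean
section







/-!
# S59 / G4 / DESC (helper307): `descent : G4.DescentStatement`

Wiles' descent of the representations at a strict family of points of `T` to a representation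
over `T`, in the exact shape of `Fermat/Agent/S59/G4/Spec.lean`.

Proof: `Fermat.Agent.S59.H307.exists_glued_rep_of_hausdorff` (GLUE) with `c` = complex
conjugation (`c ≠ 1`, so `det ρ_P(c) = -1`, hence `tr ρ_P(c) = 0`), `2 ∈ Tˣ` since `p` is odd and
the points are local, and `residual_absIrr_of_baseChange` for the absolute irreducibility of the
reduction.
-/

set_option autoImplicit false
set_option linter.unusedSectionVars false
set_option linter.unusedVariables false
set_option linter.unusedSimpArgs false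
set_option linter.style.haveILetI false

noncomputable section

namespace Fermat.Agent.S59.G4.H307

open scoped TensorProduct
open Matrix Polynomial IsLocalRing
open Fermat.Agent.S31 Fermat.Agent.S59.G4 Fermat.Agent.S59.H307

/-- Complex conjugation is not the identity of `ℚ̄`. -/
theorem complexConjugation_ne_one : complexConjugation ≠ 1 := by
  intro h
  obtain ⟨x, hx⟩ := IsAlgClosed.exists_pow_nat_eq (-1 : AlgebraicClosure ℚ) (n := 2) (by norm_num)
  have h1 := complexEmbedding_complexConjugation x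
  rw [h, AlgEquiv.one_apply] at h1
  have hz : (complexEmbedding x) ^ 2 = -1 := by
    rw [← map_pow, hx, map_neg, map_one]
  obtain ⟨r, hr⟩ := Complex.conj_eq_iff_real.mp h1.symm
  rw [hr] at hz
  have h2 : (r : ℂ) ^ 2 = ((r ^ 2 : ℝ) : ℂ) := by push_cast; ring
  rw [h2] at hz
  have h3 : (r ^ 2 : ℝ) = -1 := by exact_mod_cast hz
  nlinarith [sq_nonneg r]

section TraceZero

variable {A : Type} [CommRing A] [IsLocalRing A]

/-- An involution with determinant `-1` has trace `0`. -/
theorem trace_eq_zero_of_det_eq_neg_one (ρ : GaloisRepAdic A) (c : GalQ) (hcc : c * c = 1)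
    (hdet : LinearMap.det (ρ.ρ c) = -1) : ρ.trace c = 0 := by
  obtain ⟨e, m, h⟩ := exists_realizes ρ
  rw [h.trace_eq]
  have hconj : e.conj (ρ.ρ c) =
      (e : ρ.V →ₗ[A] (Fin 2 → A)) ∘ₗ (ρ.ρ c) ∘ₗ (e.symm : (Fin 2 → A) →ₗ[A] ρ.V) := by
    rw [LinearEquiv.conj_apply, LinearMap.comp_assoc]
  have hdet' : (m c).det = -1 := by
    rw [← hdet, ← LinearMap.det_conj (ρ.ρ c) e, ← hconj, h.conj_eq, LinearMap.det_toLin']
  have hsq : m c * m c = 1 := by rw [← map_mul, hcc, map_one]
  have h00 : m c 0 0 * m c 0 0 + m c 0 1 * m c 1 0 = 1 := by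
    have := congrFun (congrFun hsq 0) 0
    rw [mat2_mul_apply] at this
    exact this
  have h01 : m c 0 0 * m c 0 1 + m c 0 1 * m c 1 1 = 0 := by
    have := congrFun (congrFun hsq 0) 1
    rw [mat2_mul_apply] at this
    exact this
  rw [Matrix.det_fin_two] at hdet'
  rw [Matrix.trace_fin_two]
  linear_combination (m c 0 0) * hdet' + (m c 1 0) * h01 - (m c 1 1) * h00

end TraceZero

section Two

/-- `2` is a unit in a local ring containing an odd prime in its maximal ideal. -/
theorem isUnit_two_of_odd_mem {O : Type*} [CommRing O] [IsLocalRing O] {p : ℕ}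
    (hp : p.Prime) (hp2 : p ≠ 2) (hpO : (p : O) ∈ maximalIdeal O) : IsUnit (2 : O) := by
  by_contra h2
  have h2m : (2 : O) ∈ maximalIdeal O := (IsLocalRing.mem_maximalIdeal _).mpr h2
  obtain ⟨k, hk⟩ := (hp.eq_two_or_odd').resolve_left hp2
  have h1 : (1 : O) = (p : O) - 2 * (k : O) := by
    rw [hk]; push_cast; ring
  have h1m : (1 : O) ∈ maximalIdeal O := by
    rw [h1]
    exact Ideal.sub_mem _ hpO (Ideal.mul_mem_right _ _ h2m)
  exact (IsLocalRing.mem_maximalIdeal _).mp h1m isUnit_one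

end Two

section Desc

variable {T : Type} [CommRing T] [IsLocalRing T]
  {ι : Type*} {O : ι → Type} [∀ i, CommRing (O i)] [∀ i, IsLocalRing (O i)]

/-- Joint injectivity of a topologically separating family on a Hausdorff local ring. -/
theorem eq_zero_of_forall_map_eq_zero [IsHausdorff (maximalIdeal T) T]
    (ψ : ∀ i, T →+* O i)
    (htop : ∀ n : ℕ, ∃ (F : Finset ι) (n' : ℕ), ∀ t : T,
      (∀ i ∈ F, ψ i t ∈ maximalIdeal (O i) ^ n') → t ∈ maximalIdeal T ^ n)
    (t : T) (ht : ∀ i, ψ i t = 0) : t = 0 := by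
  apply IsHausdorff.haus (I := maximalIdeal T) ‹_› t
  intro n
  obtain ⟨F, n', hF⟩ := htop n
  have : t ∈ maximalIdeal T ^ n :=
    hF t fun i _ => by rw [ht i]; exact Ideal.zero_mem _
  rw [SModEq.zero, smul_eq_mul, Ideal.mul_top]
  exact this

end Desc

/-- **DESC**: the descent statement of layer G4. -/
theorem descent : DescentStatement := by
  intro p _ hp2 T _ _ _ _ F hF hstrict hloc hodd habs hτ
  classical
  obtain ⟨τ, hτ⟩ := hτ
  have hmem : ∀ i : Fin F.length, F.get i ∈ F := fun i => List.get_mem F i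
  have hex : ∀ P ∈ F, ∃ i : Fin F.length, F.get i = P := fun P hP => List.get_of_mem hP
  have hlen : 0 < F.length := List.length_pos_iff.mpr hF
  let i₀ : Fin F.length := ⟨0, hlen⟩
  have hψ : ∀ i : Fin F.length, IsLocalHom (F.get i).pt.χ := fun i => hloc _ (hmem i)
  -- `2` is a unit of `T`
  have h2 : IsUnit (2 : T) := by
    have := hψ i₀
    apply isUnit_of_map_unit (F.get i₀).pt.χ
    rw [map_ofNat]
    exact isUnit_two_of_odd_mem (Fact.out : p.Prime) hp2 (F.get i₀).pt.hp
  -- topological separation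
  have htop : ∀ n : ℕ, ∃ (Fs : Finset (Fin F.length)) (n' : ℕ), ∀ t : T,
      (∀ i ∈ Fs, (F.get i).pt.χ t ∈ maximalIdeal (F.get i).pt.O ^ n') →
        t ∈ maximalIdeal T ^ n := by
    intro n
    obtain ⟨n', hn'⟩ := hstrict n
    refine ⟨Finset.univ, n', fun t ht => hn' t ?_⟩
    intro P hP
    obtain ⟨Q, hQ, rfl⟩ := List.mem_map.mp hP
    obtain ⟨i, rfl⟩ := hex Q hQ
    exact ht i (Finset.mem_univ i)
  -- traces at complex conjugation
  have htr0 : ∀ i : Fin F.length, (F.get i).ρ.trace complexConjugation = 0 := fun i =>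
    trace_eq_zero_of_det_eq_neg_one _ _ complexConjugation_mul_self
      (hodd _ (hmem i) complexConjugation complexConjugation_mul_self complexConjugation_ne_one)
  have hτ' : ∀ (i : Fin F.length) (σ : GalQ), (F.get i).pt.χ (τ σ) = (F.get i).ρ.trace σ :=
    fun i σ => hτ _ (hmem i) σ
  have hτc : τ complexConjugation = 0 :=
    eq_zero_of_forall_map_eq_zero (O := fun i : Fin F.length => (F.get i).pt.O)
      (fun i => (F.get i).pt.χ) htop _ fun i => by rw [hτ', htr0]
  have hirr : ((F.get i₀).ρ).residual.IsIrreducible :=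
    isIrreducible_of_absIrr _ (habs _ (hmem i₀))
  obtain ⟨ρ, -, hρ⟩ := exists_glued_rep_of_hausdorff (O := fun i : Fin F.length => (F.get i).pt.O)
    h2 (fun i => (F.get i).pt.χ) hψ htop (fun i => (F.get i).ρ) τ hτ' complexConjugation
    complexConjugation_mul_self hτc i₀ hirr
  refine ⟨ρ, ?_, ?_⟩
  · intro P hP σ
    obtain ⟨i, rfl⟩ := hex P hP
    rw [← charpoly_baseChangeAlong _ (hψ i), charpoly_eq_of_isEquiv (hρ i)]
  · exact residual_absIrr_of_baseChange _ (hψ i₀) ρ _ (hρ i₀) (habs _ (hmem i₀))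

end Fermat.Agent.S59.G4.H307

end
end
-- ===== PACK-END S59/G4/H307/Desc.lean

-- ===== PACK-BEGIN S35/H891/Eigen3.lean
section
/-
S35 top glue for the CUBIC relation (helper891): the adic eigenmodule of helper529
(`S30.H529.exists_adic_galois_eigenmodule`) with one more clause — CUBIC relations
`γ³ + c₂ γ² + c₁ γ + c₀ = 0` with integer coefficients on `J[p^∞]` are inherited by the module.

Same module (`tateEigen`), same representation (`tateRep`), same proof.
-/


set_option autoImplicit false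
set_option linter.unusedSectionVars false

namespace Fermat.Agent.S35.H891

open IsLocalRing TensorProduct Fermat.Agent.S30.H529

noncomputable section

section Action

variable {O : Type*} [CommRing O]
variable {X : Type*} [AddCommGroup X] [Module O X]
variable {ι : Type*}
variable {ϖ : O} {t : ι → X →ₗ[O] X} {a : ι → O}
variable {G : Type*} [Monoid G] (ρ : G →* Module.End O X)
  (hρ : ∀ (γ : G) (i : ι) (x : X), ρ γ (t i x) = t i (ρ γ x))

/-- Cubic relations on the torsion are inherited by the Tate module. -/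
theorem tateRep_cubic (γ : G) (c₂ c₁ c₀ : O)
    (hγ : ∀ x : X, (∃ n : ℕ, ϖ ^ n • x = 0) →
      ρ γ (ρ γ (ρ γ x)) + c₂ • ρ γ (ρ γ x) + c₁ • ρ γ x + c₀ • x = 0)
    (v : tateEigen ϖ t a) :
    tateRep (ϖ := ϖ) (a := a) ρ hρ γ (tateRep ρ hρ γ (tateRep ρ hρ γ v))
      + c₂ • tateRep ρ hρ γ (tateRep ρ hρ γ v) + c₁ • tateRep ρ hρ γ v + c₀ • v = 0 := by
  apply Subtype.ext
  funext n
  have h1 := hγ ((v : ℕ → X) n) ⟨n + 1, tate_pow_succ_smul v.2 n⟩
  simpa using h1

end Action

section Main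

variable (p : ℕ)
variable (O : Type) [CommRing O] [IsDomain O] [IsDiscreteValuationRing O]
  [IsAdicComplete (maximalIdeal O) O] [CharZero O]
variable (J : Type) [AddCommGroup J]
  [DistribMulAction (AlgebraicClosure ℚ ≃ₐ[ℚ] AlgebraicClosure ℚ) J]
variable {ι : Type*} (T : ι → J →+ J) (a : ι → O)

/-- **Adic eigenmodule from a smooth Galois module with finite `p`-torsion**, with the cubic
clause. -/
theorem exists_adic_galois_eigenmodule3 (hpO : (p : O) ∈ maximalIdeal O) (hp0 : p ≠ 0)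
    (hT : ∀ (i : ι) (γ : AlgebraicClosure ℚ ≃ₐ[ℚ] AlgebraicClosure ℚ) (x : J),
      T i (γ • x) = γ • T i x)
    (hfin : {x : J | p • x = 0}.Finite)
    (hsm : ∀ x : J, (∃ n : ℕ, p ^ n • x = 0) →
      ∃ L : IntermediateField ℚ (AlgebraicClosure ℚ), FiniteDimensional ℚ L ∧
        ∀ σ : AlgebraicClosure ℚ ≃ₐ[ℚ] AlgebraicClosure ℚ, (∀ y ∈ L, σ y = y) → σ • x = x)
    (v : ℕ → O ⊗[ℤ] J) (hv0 : (p : O) • v 0 = 0) (hv : ∀ n, (p : O) • v (n + 1) = v n)
    (hne : v ≠ 0) (heig : ∀ i n, tensorOp O T i (v n) = a i • v n) :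
    ∃ (M : Type) (_ : AddCommGroup M) (_ : Module O M) (_ : Module.Free O M)
      (_ : Module.Finite O M)
      (ρ : (AlgebraicClosure ℚ ≃ₐ[ℚ] AlgebraicClosure ℚ) →* Module.End O M),
      Nontrivial M ∧ GaloisActionIsAdicContinuous O ρ ∧
      (∀ γ : AlgebraicClosure ℚ ≃ₐ[ℚ] AlgebraicClosure ℚ,
        (∀ x : J, (∃ n : ℕ, p ^ n • x = 0) → γ • x = x) → ρ γ = 1) ∧
      (∀ (γ : AlgebraicClosure ℚ ≃ₐ[ℚ] AlgebraicClosure ℚ) (i : ι) (c : ℤ),
        (∀ x : J, (∃ n : ℕ, p ^ n • x = 0) → γ • γ • x - T i (γ • x) + c • x = 0) →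
        ρ γ * ρ γ - a i • ρ γ + (c : O) • (1 : Module.End O M) = 0) ∧
      (∀ (γ : AlgebraicClosure ℚ ≃ₐ[ℚ] AlgebraicClosure ℚ) (c₂ c₁ c₀ : ℤ),
        (∀ x : J, (∃ n : ℕ, p ^ n • x = 0) →
          γ • γ • γ • x + c₂ • (γ • γ • x) + c₁ • (γ • x) + c₀ • x = 0) →
        ∀ m : M, ρ γ (ρ γ (ρ γ m)) + (c₂ : O) • ρ γ (ρ γ m) + (c₁ : O) • ρ γ m
          + (c₀ : O) • m = 0) := by
  have hϖ0 : (p : O) ≠ 0 := by exact_mod_cast hp0
  have hX : ∃ Y : Submodule O (O ⊗[ℤ] J), Y.FG ∧ ∀ x : O ⊗[ℤ] J, (p : O) • x = 0 → x ∈ Y := by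
    obtain ⟨Y, hY, hYX⟩ := exists_fg_of_finite_torsion O (J := J) (p : ℤ) (by
      have : {y : J | (p : ℤ) • y = 0} = {x : J | p • x = 0} := by
        ext y
        simp
      rw [this]
      exact hfin)
    refine ⟨Y, hY, fun x hx => hYX x ?_⟩
    have := natCast_pow_smul p O J 1 x
    simp only [pow_one] at this
    rw [← this]
    exact hx
  have hρ := tensorRep_tensorOp (G := AlgebraicClosure ℚ ≃ₐ[ℚ] AlgebraicClosure ℚ) O T hT
  have hfree := tateEigen_free (t := tensorOp O T) (a := a) hpO hϖ0 hX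
  have hfinite := tateEigen_finite (t := tensorOp O T) (a := a) hpO hϖ0 hX
  -- transfer of relations
  have htrans : ∀ (A : J →ₗ[ℤ] J) (n : ℕ), (∀ y : J, p ^ n • y = 0 → A y = 0) →
      ∀ x : O ⊗[ℤ] J, (p : O) ^ n • x = 0 → A.baseChange O x = 0 := by
    intro A n hA x hx
    apply baseChange_eq_zero_of_torsion O ((p ^ n : ℕ) : ℤ) A
    · intro y hy
      apply hA
      rwa [natCast_zsmul] at hy
    · rw [← natCast_pow_smul]
      exact hx
  refine ⟨tateEigen (p : O) (tensorOp O T) a, inferInstance, inferInstance, hfree, hfinite,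
    tateRep (tensorRep O J) hρ, ?_, ?_, ?_, ?_, ?_⟩
  · refine ⟨⟨⟨v, hv0, hv, heig⟩, 0, ?_⟩⟩
    intro h
    exact hne (congrArg Subtype.val h)
  · intro n
    obtain ⟨L, hL, hLfix⟩ := exists_common_level {x : J | p ^ n • x = 0}
      (finite_torsion_pow J p hfin n) (fun x hx => hsm x ⟨n, hx⟩)
    refine ⟨L, hL, fun σ hσ m => ?_⟩
    apply tateRep_sub_mem (tensorRep O J) hρ hpO n σ
    intro x hx
    have h1 := htrans (actLin J σ - LinearMap.id) n (fun y hy => by
      simp [hLfix σ hσ y hy]) x hx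
    rw [LinearMap.baseChange_sub, LinearMap.baseChange_id, LinearMap.sub_apply,
      LinearMap.id_apply, sub_eq_zero] at h1
    exact h1
  · intro γ hγ
    apply tateRep_eq_one
    rintro x ⟨n, hx⟩
    have h1 := htrans (actLin J γ - LinearMap.id) n (fun y hy => by
      simp [hγ y ⟨n, hy⟩]) x hx
    rw [LinearMap.baseChange_sub, LinearMap.baseChange_id, LinearMap.sub_apply,
      LinearMap.id_apply, sub_eq_zero] at h1
    exact h1
  · intro γ i c hγ
    apply tateRep_quadratic
    rintro x ⟨n, hx⟩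
    have h1 := htrans (actLin J γ ∘ₗ actLin J γ - (T i).toIntLinearMap ∘ₗ actLin J γ
      + c • LinearMap.id) n (fun y hy => by
        have := hγ y ⟨n, hy⟩
        simpa using this) x hx
    rw [LinearMap.baseChange_add, LinearMap.baseChange_sub, LinearMap.baseChange_comp,
      LinearMap.baseChange_comp, LinearMap.baseChange_smul, LinearMap.baseChange_id] at h1
    simp only [LinearMap.add_apply, LinearMap.sub_apply, LinearMap.comp_apply,
      LinearMap.smul_apply, LinearMap.id_apply] at h1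
    rw [Int.cast_smul_eq_zsmul]
    exact h1
  · intro γ c₂ c₁ c₀ hγ m
    apply tateRep_cubic (tensorRep O J) hρ γ (c₂ : O) (c₁ : O) (c₀ : O)
    rintro x ⟨n, hx⟩
    have h1 := htrans (actLin J γ ∘ₗ actLin J γ ∘ₗ actLin J γ
      + c₂ • (actLin J γ ∘ₗ actLin J γ) + c₁ • actLin J γ + c₀ • LinearMap.id) n
      (fun y hy => by
        have := hγ y ⟨n, hy⟩
        simpa using this) x hx
    rw [LinearMap.baseChange_add, LinearMap.baseChange_add, LinearMap.baseChange_add,
      LinearMap.baseChange_comp, LinearMap.baseChange_comp, LinearMap.baseChange_smul,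
      LinearMap.baseChange_smul, LinearMap.baseChange_smul, LinearMap.baseChange_comp,
      LinearMap.baseChange_id] at h1
    simp only [LinearMap.add_apply, LinearMap.comp_apply,
      LinearMap.smul_apply, LinearMap.id_apply] at h1
    rw [Int.cast_smul_eq_zsmul, Int.cast_smul_eq_zsmul, Int.cast_smul_eq_zsmul]
    exact h1

end Main

end

end Fermat.Agent.S35.H891

end
-- ===== PACK-END S35/H891/Eigen3.lean

-- ===== PACK-BEGIN A2/H372/NodeLoc.lean
section


/-!
# A2 / NODE-LOC : from the global semistable chart to the local data at a closed point (helper372)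

Adapter between MODEL (global statements on a chart `B`: the fields of `SSChart` in
`Fermat/Agent/A2/Spec.lean`) and the local purity / LP lemmas
(`A2.H609.exists_unit_mul_pow_of_node`, `exists_unit_mul_pow_of_smooth`, `A2.H673`, `A2.H672`),
which live in the local ring `O = B_n` at a closed point `n` of the special fibre.

INPUT (global, on the chart `B`): primes `p₁ p₂` with `p₁ ⊓ p₂ = (w)`, `B ⧸ pᵢ` Dedekind,
`p₁ ⊔ p₂` radical (or the elementwise local generation of `Transversal.lean`), `n` a prime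
(maximal) ideal containing `w`.

OUTPUT (local, in `O` with `[IsLocalization.AtPrime O n]`), `Pᵢ := pᵢ O`:

* node (`p₁ ≤ n`, `p₂ ≤ n`) : `P₁`, `P₂` prime, `P₁ ⊓ P₂ = (w)`, `P₁ ⊔ P₂ = n O`
  (`= maximalIdeal O`), `O ⧸ Pᵢ` discrete valuation rings       — `node_local_data`;
* smooth (`p₁ ≤ n`, `¬ p₂ ≤ n`) : `P₁` prime, `P₁ = (w)`, `O ⧸ P₁` a discrete valuation ring
                                                               — `smooth_local_data`;
* `exists_mul_mem_of_isRadical` : elementwise local generation `t x ∈ J`, `t ∉ n`, for a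
  radical ideal `J ≤ n` containing a prime `p` with `B ⧸ p` Dedekind, `J ≠ p`.
-/

set_option autoImplicit false

namespace Fermat.Agent.A2.H372

open Ideal

variable {B : Type*} [CommRing B]

/-- In a discrete valuation ring, a nonzero proper radical ideal is the maximal ideal. -/
theorem eq_maximalIdeal_of_isRadical_of_dvr {L : Type*} [CommRing L] [IsDomain L]
    [IsDiscreteValuationRing L] {I : Ideal L} (hI : I.IsRadical) (h0 : I ≠ ⊥) (h1 : I ≠ ⊤) :
    I = IsLocalRing.maximalIdeal L := by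
  obtain ⟨ϖ, hϖ⟩ := IsDiscreteValuationRing.exists_irreducible L
  obtain ⟨k, hk⟩ := IsDiscreteValuationRing.ideal_eq_span_pow_irreducible h0 hϖ
  have hk0 : k ≠ 0 := by
    rintro rfl
    apply h1
    rw [hk, pow_zero, Ideal.span_singleton_one]
  have hmem : ϖ ∈ I := hI ⟨k, by rw [hk]; exact Ideal.mem_span_singleton_self _⟩
  refine le_antisymm (IsLocalRing.le_maximalIdeal h1) ?_
  rw [hϖ.maximalIdeal_eq, Ideal.span_le, Set.singleton_subset_iff]
  exact hmem

/-- The image of a prime `n ⊇ p` in `B ⧸ p`. -/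
theorem map_mk_isPrime {p n : Ideal B} [n.IsPrime] (hpn : p ≤ n) :
    (n.map (Ideal.Quotient.mk p)).IsPrime :=
  Ideal.map_isPrime_of_surjective Ideal.Quotient.mk_surjective
    (by rw [Ideal.mk_ker]; exact hpn)

theorem mk_mem_map_mk_iff {p n : Ideal B} (hpn : p ≤ n) (x : B) :
    Ideal.Quotient.mk p x ∈ n.map (Ideal.Quotient.mk p) ↔ x ∈ n := by
  constructor
  · intro h
    obtain ⟨y, hy, hxy⟩ :=
      (Ideal.mem_map_iff_of_surjective _ Ideal.Quotient.mk_surjective).mp h
    have : x - y ∈ p := by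
      rw [← Ideal.Quotient.eq]
      exact hxy.symm
    have := n.add_mem (hpn this) hy
    simpa using this
  · exact fun h => Ideal.mem_map_of_mem _ h

theorem map_mk_ne_bot {p n : Ideal B} (hpn : p ≤ n) (hne : p ≠ n) :
    n.map (Ideal.Quotient.mk p) ≠ ⊥ := by
  intro h
  apply hne
  refine le_antisymm hpn fun x hx => ?_
  have : Ideal.Quotient.mk p x ∈ n.map (Ideal.Quotient.mk p) := Ideal.mem_map_of_mem _ hx
  rw [h, Ideal.mem_bot] at this
  exact Ideal.Quotient.eq_zero_iff_mem.mp this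

/-- **Local generation from radicality.**  `p` prime with `B ⧸ p` Dedekind, `J` a radical ideal
with `p ≤ J ≤ n`, `J ≠ p`, `n` prime.  Then `J` generates `n` locally at `n`. -/
theorem exists_mul_mem_of_isRadical {p J n : Ideal B} [p.IsPrime] [n.IsPrime]
    [IsDedekindDomain (B ⧸ p)] (hpJ : p ≤ J) (hJn : J ≤ n) (hne : ¬ J ≤ p)
    (hJ : J.IsRadical) {x : B} (hx : x ∈ n) : ∃ t : B, t ∉ n ∧ t * x ∈ J := by
  have hpn : p ≤ n := hpJ.trans hJn
  set D := B ⧸ p
  set nb : Ideal D := n.map (Ideal.Quotient.mk p) with hnb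
  set Jb : Ideal D := J.map (Ideal.Quotient.mk p) with hJb
  have : nb.IsPrime := map_mk_isPrime hpn
  have hJbn : Jb ≤ nb := Ideal.map_mono hJn
  have hJb0 : Jb ≠ ⊥ := by
    intro h
    apply hne
    intro y hy
    have : Ideal.Quotient.mk p y ∈ Jb := Ideal.mem_map_of_mem _ hy
    rw [h, Ideal.mem_bot] at this
    exact Ideal.Quotient.eq_zero_iff_mem.mp this
  have hnb0 : nb ≠ ⊥ := fun h => hJb0 (le_bot_iff.mp (h ▸ hJbn))
  have hJbrad : Jb.IsRadical := by
    intro y hy
    obtain ⟨y, rfl⟩ := Ideal.Quotient.mk_surjective y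
    obtain ⟨k, hk⟩ := hy
    rw [← map_pow] at hk
    have hk' : y ^ k ∈ J := (mk_mem_map_mk_iff hpJ _).mp hk
    exact Ideal.mem_map_of_mem _ (hJ ⟨k, hk'⟩)
  let L := Localization.AtPrime nb
  have : IsDiscreteValuationRing L :=
    IsLocalization.AtPrime.isDiscreteValuationRing_of_dedekind_domain D hnb0 L
  have hinj : Function.Injective (algebraMap D L) :=
    IsLocalization.injective L (Ideal.primeCompl_le_nonZeroDivisors nb)
  set I : Ideal L := Jb.map (algebraMap D L) with hI
  have hIrad : I.IsRadical := by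
    have := IsLocalization.map_radical nb.primeCompl L Jb
    rw [hJbrad.radical] at this
    rw [Ideal.IsRadical, hI, ← this]
  have hI0 : I ≠ ⊥ := by
    intro h
    apply hJb0
    rw [eq_bot_iff]
    intro y hy
    have : algebraMap D L y ∈ I := Ideal.mem_map_of_mem _ hy
    rw [h, Ideal.mem_bot] at this
    rw [Ideal.mem_bot]
    exact hinj (by rw [this, map_zero])
  have hI1 : I ≠ ⊤ := by
    rw [hI]
    exact (IsLocalization.map_algebraMap_ne_top_iff_disjoint nb.primeCompl L Jb).mpr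
      (Set.disjoint_left.mpr fun y hy hyJ => hy (hJbn hyJ))
  have hImax : I = IsLocalRing.maximalIdeal L :=
    eq_maximalIdeal_of_isRadical_of_dvr hIrad hI0 hI1
  have hxL : algebraMap D L (Ideal.Quotient.mk p x) ∈ I := by
    rw [hImax]
    exact (IsLocalization.AtPrime.to_map_mem_maximal_iff L nb _).mpr
      (Ideal.mem_map_of_mem _ hx)
  obtain ⟨tb, htb, htx⟩ :=
    (IsLocalization.algebraMap_mem_map_algebraMap_iff nb.primeCompl L Jb _).mp hxL
  obtain ⟨t, rfl⟩ := Ideal.Quotient.mk_surjective tb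
  refine ⟨t, fun ht => htb (Ideal.mem_map_of_mem _ ht), ?_⟩
  rw [← map_mul] at htx
  exact (mk_mem_map_mk_iff hpJ _).mp htx

section Local

variable (O : Type*) [CommRing O] [Algebra B O]

/-- The quotient of the local ring `O = B_n` by `p O` is a discrete valuation ring when
`B ⧸ p` is Dedekind and `p < n`. -/
theorem isDiscreteValuationRing_quotient_map {p n : Ideal B} [p.IsPrime] [n.IsPrime]
    [IsLocalization.AtPrime O n] [IsDedekindDomain (B ⧸ p)] (hpn : p ≤ n) (hne : p ≠ n)
    [(p.map (algebraMap B O)).IsPrime] :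
    IsDiscreteValuationRing (O ⧸ p.map (algebraMap B O)) := by
  set nb : Ideal (B ⧸ p) := n.map (Ideal.Quotient.mk p) with hnb
  have : nb.IsPrime := map_mk_isPrime hpn
  have hnb0 : nb ≠ ⊥ := map_mk_ne_bot hpn hne
  have hM : Algebra.algebraMapSubmonoid (B ⧸ p) n.primeCompl = nb.primeCompl := by
    ext y
    obtain ⟨y, rfl⟩ := Ideal.Quotient.mk_surjective y
    constructor
    · rintro ⟨z, hz, hzy⟩
      intro hy
      have hzy' : Ideal.Quotient.mk p z = Ideal.Quotient.mk p y := hzy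
      have hy' : Ideal.Quotient.mk p z ∈ nb := by rw [hzy']; exact hy
      exact hz ((mk_mem_map_mk_iff hpn z).mp hy')
    · intro hy
      exact ⟨y, fun h => hy (Ideal.mem_map_of_mem _ h), rfl⟩
  have h1 : IsLocalization (Algebra.algebraMapSubmonoid (B ⧸ p) n.primeCompl)
      (O ⧸ p.map (algebraMap B O)) := inferInstance
  have : IsLocalization.AtPrime (O ⧸ p.map (algebraMap B O)) nb := by
    change IsLocalization nb.primeCompl _
    rw [← hM]
    exact h1
  exact IsLocalization.AtPrime.isDiscreteValuationRing_of_dedekind_domain (B ⧸ p) hnb0 _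

/-- **NODE-LOC, node case.**  Local data at a crossing point `n ⊇ p₁ + p₂` of a semistable
chart, in the exact shape of the hypotheses of `A2.H609.exists_unit_mul_pow_of_node`. -/
theorem node_local_data {p₁ p₂ n : Ideal B} [p₁.IsPrime] [p₂.IsPrime] [n.IsPrime]
    [IsLocalization.AtPrime O n] [IsDedekindDomain (B ⧸ p₁)] [IsDedekindDomain (B ⧸ p₂)]
    {w : B} (hinf : p₁ ⊓ p₂ = Ideal.span {w}) (h₁₂ : ¬ p₁ ≤ p₂) (h₂₁ : ¬ p₂ ≤ p₁)
    (htr : (p₁ ⊔ p₂).IsRadical) (h₁ : p₁ ≤ n) (h₂ : p₂ ≤ n) :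
    ∃ (_ : (p₁.map (algebraMap B O)).IsPrime) (_ : (p₂.map (algebraMap B O)).IsPrime),
      p₁.map (algebraMap B O) ⊓ p₂.map (algebraMap B O) = Ideal.span {algebraMap B O w} ∧
      p₁.map (algebraMap B O) ⊔ p₂.map (algebraMap B O) = n.map (algebraMap B O) ∧
      IsDiscreteValuationRing (O ⧸ p₁.map (algebraMap B O)) ∧
      IsDiscreteValuationRing (O ⧸ p₂.map (algebraMap B O)) := by
  have hd₁ : Disjoint (n.primeCompl : Set B) (p₁ : Set B) :=
    Set.disjoint_left.mpr fun y hy hyp => hy (h₁ hyp)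
  have hd₂ : Disjoint (n.primeCompl : Set B) (p₂ : Set B) :=
    Set.disjoint_left.mpr fun y hy hyp => hy (h₂ hyp)
  have hP₁ : (p₁.map (algebraMap B O)).IsPrime :=
    IsLocalization.isPrime_of_isPrime_disjoint n.primeCompl O p₁ inferInstance hd₁
  have hP₂ : (p₂.map (algebraMap B O)).IsPrime :=
    IsLocalization.isPrime_of_isPrime_disjoint n.primeCompl O p₂ inferInstance hd₂
  have hne₁ : p₁ ≠ n := fun h => h₂₁ (h ▸ h₂)
  have hne₂ : p₂ ≠ n := fun h => h₁₂ (h ▸ h₁)
  refine ⟨hP₁, hP₂, ?_, ?_, ?_, ?_⟩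
  · rw [← IsLocalization.map_inf n.primeCompl O, hinf, Ideal.map_span, Set.image_singleton]
  · rw [← Ideal.map_sup]
    symm
    refine map_eq_map_of_local O (sup_le h₁ h₂) fun x hx => ?_
    exact exists_mul_mem_of_isRadical (p := p₁) le_sup_left (sup_le h₁ h₂)
      (fun h => h₂₁ (le_sup_right.trans h)) htr hx
  · exact isDiscreteValuationRing_quotient_map O h₁ hne₁
  · exact isDiscreteValuationRing_quotient_map O h₂ hne₂

/-- **NODE-LOC, smooth case.**  Local data at a point `n` of the first component which is not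
on the second one, in the exact shape of `A2.H609.exists_unit_mul_pow_of_smooth`. -/
theorem smooth_local_data {p₁ p₂ n : Ideal B} [p₁.IsPrime] [n.IsPrime]
    [IsLocalization.AtPrime O n] [IsDedekindDomain (B ⧸ p₁)]
    {w : B} (hinf : p₁ ⊓ p₂ = Ideal.span {w}) (h₁ : p₁ ≤ n) (hne : p₁ ≠ n) (h₂ : ¬ p₂ ≤ n) :
    ∃ (_ : (p₁.map (algebraMap B O)).IsPrime),
      p₁.map (algebraMap B O) = Ideal.span {algebraMap B O w} ∧
      IsDiscreteValuationRing (O ⧸ p₁.map (algebraMap B O)) := by
  have hd₁ : Disjoint (n.primeCompl : Set B) (p₁ : Set B) :=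
    Set.disjoint_left.mpr fun y hy hyp => hy (h₁ hyp)
  have hP₁ : (p₁.map (algebraMap B O)).IsPrime :=
    IsLocalization.isPrime_of_isPrime_disjoint n.primeCompl O p₁ inferInstance hd₁
  have htop : p₂.map (algebraMap B O) = ⊤ := by
    obtain ⟨e, he, hen⟩ := SetLike.not_le_iff_exists.mp h₂
    rw [Ideal.eq_top_iff_one]
    have hu : IsUnit (algebraMap B O e) := IsLocalization.map_units O (⟨e, hen⟩ : n.primeCompl)
    have : algebraMap B O e ∈ p₂.map (algebraMap B O) := Ideal.mem_map_of_mem _ he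
    exact (Ideal.eq_top_of_isUnit_mem _ this hu) ▸ Submodule.mem_top
  refine ⟨hP₁, ?_, isDiscreteValuationRing_quotient_map O h₁ hne⟩
  have := IsLocalization.map_inf n.primeCompl O p₁ p₂
  rw [htop, inf_top_eq, hinf, Ideal.map_span, Set.image_singleton] at this
  exact this.symm

end Local

/-- **NODE-LOC, node case**, for `O = Localization.AtPrime n`, with `IsLocalRing.maximalIdeal`:
verbatim the hypotheses `hinf`, `hsup` and the instances of
`A2.H609.exists_unit_mul_pow_of_node`. -/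
theorem node_local_data_atPrime {p₁ p₂ n : Ideal B} [p₁.IsPrime] [p₂.IsPrime] [n.IsPrime]
    [IsDedekindDomain (B ⧸ p₁)] [IsDedekindDomain (B ⧸ p₂)]
    {w : B} (hinf : p₁ ⊓ p₂ = Ideal.span {w}) (h₁₂ : ¬ p₁ ≤ p₂) (h₂₁ : ¬ p₂ ≤ p₁)
    (htr : (p₁ ⊔ p₂).IsRadical) (h₁ : p₁ ≤ n) (h₂ : p₂ ≤ n) :
    ∃ (_ : (p₁.map (algebraMap B (Localization.AtPrime n))).IsPrime)
      (_ : (p₂.map (algebraMap B (Localization.AtPrime n))).IsPrime),
      p₁.map (algebraMap B (Localization.AtPrime n)) ⊓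
          p₂.map (algebraMap B (Localization.AtPrime n)) =
        Ideal.span {algebraMap B (Localization.AtPrime n) w} ∧
      p₁.map (algebraMap B (Localization.AtPrime n)) ⊔
          p₂.map (algebraMap B (Localization.AtPrime n)) =
        IsLocalRing.maximalIdeal (Localization.AtPrime n) ∧
      IsDiscreteValuationRing
        (Localization.AtPrime n ⧸ p₁.map (algebraMap B (Localization.AtPrime n))) ∧
      IsDiscreteValuationRing
        (Localization.AtPrime n ⧸ p₂.map (algebraMap B (Localization.AtPrime n))) := by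
  obtain ⟨hP₁, hP₂, hi, hs, hd₁, hd₂⟩ :=
    node_local_data (Localization.AtPrime n) hinf h₁₂ h₂₁ htr h₁ h₂
  exact ⟨hP₁, hP₂, hi, by rw [hs, Localization.AtPrime.map_eq_maximalIdeal], hd₁, hd₂⟩

end Fermat.Agent.A2.H372

end
-- ===== PACK-END A2/H372/NodeLoc.lean

-- ===== PACK-BEGIN A2/H609/Multiplicity.lean
section



/-!
# Node purity, part 3: the multiplicity identity

`R` integrally closed noetherian domain, `u π : R`, `u` regular modulo `π`, `ℓ(R/(u,π)) < ∞`.
If `t ^ m = u * r` with `π ^ k ∈ (u, r)` (i.e. `t` generates the root ideal `I = I_1` at every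
"horizontal" prime through `u`), then

  `ℓ(R / ((u) + (π))) = m • ℓ(R / (I + (π)))`.

Mathlib only.
-/

set_option autoImplicit false

namespace Fermat.Agent.A2.H609

open Ideal

variable {R : Type*} [CommRing R]

section Basic

variable [IsDomain R]

/-- `u` regular mod `π` implies `π` regular mod `u` (in a domain). -/
theorem dvd_of_dvd_mul_of_reg {u π : R} (hπ0 : π ≠ 0) (hreg : ∀ x : R, π ∣ u * x → π ∣ x)
    {z : R} (h : u ∣ π * z) : u ∣ z := by
  obtain ⟨w, hw⟩ := h
  obtain ⟨w', hw'⟩ := hreg w ⟨z, hw.symm⟩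
  refine ⟨w', ?_⟩
  have : π * z = π * (u * w') := by rw [hw, hw']; ring
  exact mul_left_cancel₀ hπ0 this

theorem dvd_of_dvd_pow_mul_of_reg {u π : R} (hπ0 : π ≠ 0) (hreg : ∀ x : R, π ∣ u * x → π ∣ x)
    (k : ℕ) {z : R} (h : u ∣ π ^ k * z) : u ∣ z := by
  induction k with
  | zero => simpa using h
  | succ k ih =>
    apply ih
    apply dvd_of_dvd_mul_of_reg hπ0 hreg
    rwa [← mul_assoc, ← pow_succ']

/-- `r` is regular modulo `u` as soon as `π ^ k ∈ (u, r)`. -/
theorem dvd_of_dvd_mul_of_pow_mem {u π r : R} (hπ0 : π ≠ 0)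
    (hreg : ∀ x : R, π ∣ u * x → π ∣ x) {k : ℕ} (hk : π ^ k ∈ Ideal.span {u, r})
    {y : R} (h : u ∣ r * y) : u ∣ y := by
  obtain ⟨a, b, hab⟩ := Ideal.mem_span_pair.mp hk
  apply dvd_of_dvd_pow_mul_of_reg hπ0 hreg k
  rw [← hab, add_mul]
  apply dvd_add
  · exact Dvd.intro_left (a * y) (by ring)
  · have : b * r * y = b * (r * y) := by ring
    rw [this]
    exact Dvd.dvd.mul_left h b

theorem dvd_of_dvd_pow_mul_of_pow_mem {u π r : R} (hπ0 : π ≠ 0)
    (hreg : ∀ x : R, π ∣ u * x → π ∣ x) {k : ℕ} (hk : π ^ k ∈ Ideal.span {u, r})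
    (j : ℕ) {y : R} (h : u ∣ r ^ j * y) : u ∣ y := by
  induction j with
  | zero => simpa using h
  | succ j ih =>
    apply ih
    apply dvd_of_dvd_mul_of_pow_mem hπ0 hreg hk
    rwa [← mul_assoc, ← pow_succ']

omit [IsDomain R] in
/-- `π ^ (k * j) ∈ (u, r ^ j)` if `π ^ k ∈ (u, r)`. -/
theorem pow_mul_mem_span_pair {u π r : R} {k : ℕ} (hk : π ^ k ∈ Ideal.span {u, r}) (j : ℕ) :
    π ^ (k * j) ∈ Ideal.span {u, r ^ j} := by
  obtain ⟨a, b, hab⟩ := Ideal.mem_span_pair.mp hk
  rw [pow_mul, ← hab]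
  -- `(a u + b r)^j - (b r)^j` is divisible by `a u`
  have h1 : (a * u + b * r - b * r) ∣ (a * u + b * r) ^ j - (b * r) ^ j := sub_dvd_pow_sub_pow _ _ j
  rw [add_sub_cancel_right] at h1
  obtain ⟨c, hc⟩ := h1
  have h2 : (a * u + b * r) ^ j = (a * c) * u + b ^ j * r ^ j := by
    have : (a * u + b * r) ^ j = a * u * c + (b * r) ^ j := by rw [← hc]; ring
    rw [this, mul_pow]; ring
  rw [h2]
  exact Ideal.mem_span_pair.mpr ⟨a * c, b ^ j, rfl⟩

end Basic

section Finiteness

/-- A cyclic module killed by `𝔞` has length at most `ℓ(R/𝔞)`. -/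
theorem relLen_span_singleton_le (𝔞 : Ideal R) (x : R) :
    relLen (𝔞 * Ideal.span {x}) (Ideal.span {x}) ≤ relLen 𝔞 (⊤ : Ideal R) := by
  refine relLen_le_of_map (LinearMap.mulRight R x) (N' := 𝔞) (N := ⊤)
    (P' := 𝔞 * Ideal.span {x}) (P := Ideal.span {x}) ?_ ?_ ?_
  · intro y _
    rw [LinearMap.mulRight_apply]
    exact Ideal.mem_span_singleton.mpr (Dvd.intro_left y rfl)
  · intro y hy
    rw [LinearMap.mulRight_apply]
    exact Ideal.mul_mem_mul hy (Ideal.mem_span_singleton_self x)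
  · intro y hy
    obtain ⟨c, rfl⟩ := Ideal.mem_span_singleton'.mp hy
    refine ⟨c, trivial, ?_⟩
    rw [LinearMap.mulRight_apply, sub_self]
    exact Ideal.zero_mem _

/-- For a finitely generated ideal `A` and an ideal `𝔞` with `ℓ(R/𝔞) < ∞`: `ℓ(A/𝔞A) < ∞`. -/
theorem relLen_mul_ne_top (𝔞 : Ideal R) (h𝔞 : relLen 𝔞 (⊤ : Ideal R) ≠ ⊤)
    (A : Ideal R) (hA : A.FG) : relLen (𝔞 * A) A ≠ ⊤ := by
  refine Submodule.fg_induction
    (motive := fun (A : Submodule R R) _ => relLen (𝔞 * (A : Ideal R)) A ≠ ⊤) ?_ ?_ A hA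
  · intro x
    exact ne_top_of_le_ne_top h𝔞 (relLen_span_singleton_le 𝔞 x)
  · intro M₁ M₂ _ _ h₁ h₂
    -- chain `𝔞 M₁ ⊔ 𝔞 M₂ ≤ M₁ ⊔ 𝔞 M₂ ≤ M₁ ⊔ M₂`
    have hmul : 𝔞 * ((M₁ ⊔ M₂ : Submodule R R) : Ideal R) = 𝔞 * (M₁ : Ideal R) ⊔ 𝔞 * (M₂ : Ideal R) :=
      Ideal.mul_sup 𝔞 M₁ M₂
    have hle1 : 𝔞 * (M₁ : Ideal R) ≤ M₁ := Ideal.mul_le_right
    have hle2 : 𝔞 * (M₂ : Ideal R) ≤ M₂ := Ideal.mul_le_right
    have hAB : (𝔞 * (M₁ : Ideal R) ⊔ 𝔞 * (M₂ : Ideal R) : Ideal R) ≤ M₁ ⊔ 𝔞 * (M₂ : Ideal R) :=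
      sup_le_sup_right hle1 _
    have hBC : (M₁ ⊔ 𝔞 * (M₂ : Ideal R) : Ideal R) ≤ M₁ ⊔ M₂ := sup_le_sup_left hle2 _
    show relLen (𝔞 * ((M₁ ⊔ M₂ : Submodule R R) : Ideal R)) (M₁ ⊔ M₂) ≠ ⊤
    rw [hmul, relLen_add hAB hBC]
    have hfirst : relLen (𝔞 * (M₁ : Ideal R) ⊔ 𝔞 * (M₂ : Ideal R) : Ideal R)
        (M₁ ⊔ 𝔞 * (M₂ : Ideal R) : Ideal R) ≤ relLen (𝔞 * (M₁ : Ideal R)) M₁ := by
      refine relLen_le_of_map (LinearMap.id : R →ₗ[R] R) ?_ ?_ ?_
      · intro x hx
        exact Submodule.mem_sup_left hx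
      · intro x hx
        exact Submodule.mem_sup_left hx
      · intro y hy
        obtain ⟨a, ha, b, hb, rfl⟩ := Submodule.mem_sup.mp hy
        refine ⟨a, ha, ?_⟩
        rw [LinearMap.id_apply, add_sub_cancel_left]
        exact Submodule.mem_sup_right hb
    have hsecond : relLen (M₁ ⊔ 𝔞 * (M₂ : Ideal R) : Ideal R) (M₁ ⊔ M₂ : Ideal R) ≤
        relLen (𝔞 * (M₂ : Ideal R)) M₂ := by
      refine relLen_le_of_map (LinearMap.id : R →ₗ[R] R) ?_ ?_ ?_
      · intro x hx
        exact Submodule.mem_sup_right hx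
      · intro x hx
        exact Submodule.mem_sup_right hx
      · intro y hy
        obtain ⟨a, ha, b, hb, rfl⟩ := Submodule.mem_sup.mp hy
        refine ⟨b, hb, ?_⟩
        rw [LinearMap.id_apply, add_sub_cancel_right]
        exact Submodule.mem_sup_left ha
    intro htop
    rcases ENat.add_eq_top.mp htop with h | h
    · exact ne_top_of_le_ne_top h₁ hfirst h
    · exact ne_top_of_le_ne_top h₂ hsecond h

/-- `ℓ(R/(u, π^N)) < ∞` if `ℓ(R/(u, π)) < ∞`. -/
theorem relLen_span_pair_pow_ne_top (u π : R)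
    (hfin : relLen (Ideal.span {u, π}) (⊤ : Ideal R) ≠ ⊤) (N : ℕ) :
    relLen (Ideal.span {u, π ^ N}) (⊤ : Ideal R) ≠ ⊤ := by
  induction N with
  | zero =>
    have : Ideal.span {u, π ^ 0} = (⊤ : Ideal R) := by
      rw [Ideal.eq_top_iff_one, pow_zero]
      exact Ideal.subset_span (by simp)
    rw [this, relLen_self]
    exact ENat.zero_ne_top
  | succ N ih =>
    have hAB : Ideal.span {u, π ^ (N + 1)} ≤ Ideal.span {u, π ^ N} := by
      rw [Ideal.span_le]
      intro x hx
      rcases hx with rfl | rfl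
      · exact Ideal.subset_span (by simp)
      · rw [pow_succ]
        exact Ideal.mul_mem_right _ _ (Ideal.subset_span (by simp))
    rw [relLen_add hAB le_top]
    intro htop
    rcases ENat.add_eq_top.mp htop with h | h
    swap
    · exact ih h
    revert h
    refine ne_top_of_le_ne_top hfin ?_
    refine relLen_le_of_map (LinearMap.mulLeft R (π ^ N)) (N' := Ideal.span {u, π})
      (N := (⊤ : Ideal R)) ?_ ?_ ?_
    · intro x _
      rw [LinearMap.mulLeft_apply]
      exact Ideal.mul_mem_right _ _ (Ideal.subset_span (by simp))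
    · intro x hx
      rw [LinearMap.mulLeft_apply]
      obtain ⟨a, b, rfl⟩ := Ideal.mem_span_pair.mp hx
      refine Ideal.mem_span_pair.mpr ⟨π ^ N * a, b, ?_⟩
      rw [pow_succ]; ring
    · intro y hy
      obtain ⟨a, b, rfl⟩ := Ideal.mem_span_pair.mp hy
      refine ⟨b, trivial, ?_⟩
      rw [LinearMap.mulLeft_apply]
      have : a * u + b * π ^ N - π ^ N * b = a * u := by ring
      rw [this]
      exact Ideal.mul_mem_left _ _ (Ideal.subset_span (by simp))

end Finiteness

end Fermat.Agent.A2.H609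

end
-- ===== PACK-END A2/H609/Multiplicity.lean

-- ===== PACK-BEGIN A2/H609/Chain.lean
section


/-!
# Node purity, part 4: `ℓ(R/((u)+(π))) = m • ℓ(R/(I_1+(π)))`

Mathlib only.  See `Multiplicity.lean` for the setting.
-/

set_option autoImplicit false

namespace Fermat.Agent.A2.H609

open Ideal

variable {R : Type*} [CommRing R] [IsDomain R] [IsIntegrallyClosed R]

section Generator

variable {u π t r : R} {m : ℕ} {hm : m ≠ 0}

/-- (d) `t ^ j * g ∈ I_{j+1} → g ∈ I_1` when `t ^ m = u * r` and `r` is regular modulo `u`. -/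
theorem mem_rootIdeal_one_of_pow_mul_mem (hu0 : u ≠ 0) (hπ0 : π ≠ 0)
    (hreg : ∀ x : R, π ∣ u * x → π ∣ x) (ht : t ^ m = u * r)
    {k : ℕ} (hk : π ^ k ∈ Ideal.span {u, r}) {j : ℕ} {g : R}
    (h : t ^ j * g ∈ rootIdeal u m hm (j + 1)) : g ∈ rootIdeal u m hm 1 := by
  rw [mem_rootIdeal] at h ⊢
  rw [pow_one]
  have h1 : (t ^ j * g) ^ m = u ^ j * (r ^ j * g ^ m) := by
    rw [mul_pow, ← pow_mul, mul_comm j m, pow_mul, ht, mul_pow]; ring
  rw [h1, pow_succ] at h
  have h2 : u ∣ r ^ j * g ^ m := (mul_dvd_mul_iff_left (pow_ne_zero j hu0)).mp h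
  exact dvd_of_dvd_pow_mul_of_pow_mem hπ0 hreg hk j h2

/-- (e') `r ^ j * I_j ⊆ (t ^ j)`. -/
theorem pow_dvd_pow_mul_of_mem_rootIdeal (ht : t ^ m = u * r) {j : ℕ} {g : R}
    (hg : g ∈ rootIdeal u m hm j) : t ^ j ∣ r ^ j * g := by
  rw [mem_rootIdeal] at hg
  obtain ⟨x, hx⟩ := hg
  apply dvd_of_pow_dvd_pow hm
  have h1 : (t ^ j) ^ m = u ^ j * r ^ j := by
    rw [← pow_mul, mul_comm j m, pow_mul, ht, mul_pow]
  have h2 : (r ^ j * g) ^ m = (u ^ j * r ^ j) * ((r ^ j) ^ (m - 1) * x) := by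
    rw [mul_pow, hx]
    have : (r ^ j) ^ m = r ^ j * (r ^ j) ^ (m - 1) := by
      rw [← pow_succ', Nat.sub_add_cancel (Nat.one_le_iff_ne_zero.mpr hm)]
    rw [this]; ring
  rw [h1, h2]
  exact Dvd.intro _ rfl

theorem pow_mem_rootIdeal_of_pow_eq (ht : t ^ m = u * r) (j : ℕ) :
    t ^ j ∈ rootIdeal u m hm j := by
  apply pow_mem_rootIdeal
  rw [mem_rootIdeal, pow_one, ht]
  exact Dvd.intro _ rfl

end Generator

section Chain

variable [IsNoetherianRing R]
variable {u π t r : R} {m : ℕ} {hm : m ≠ 0}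

/-- (e) finiteness of `ℓ(I_j / ((t^j) + I_{j+1}))`. -/
theorem relLen_span_sup_rootIdeal_ne_top
    (ht : t ^ m = u * r) {k : ℕ} (hk : π ^ k ∈ Ideal.span {u, r})
    (hfin : relLen (Ideal.span {u, π}) (⊤ : Ideal R) ≠ ⊤) (j : ℕ) :
    relLen (Ideal.span {t ^ j} ⊔ rootIdeal u m hm (j + 1)) (rootIdeal u m hm j) ≠ ⊤ := by
  set A := rootIdeal u m hm j with hA
  set A' := Ideal.span {t ^ j} ⊔ rootIdeal u m hm (j + 1) with hA'
  set 𝔞 : Ideal R := Ideal.span {u, r ^ j} with h𝔞
  have hA'A : A' ≤ A := by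
    refine sup_le ?_ (rootIdeal_antitone u m hm (Nat.le_succ j))
    rw [Ideal.span_le, Set.singleton_subset_iff]
    exact pow_mem_rootIdeal_of_pow_eq ht j
  have h𝔞A : 𝔞 * A ≤ A' := by
    rw [Ideal.mul_le]
    intro a ha g hg
    obtain ⟨c, d, rfl⟩ := Ideal.mem_span_pair.mp ha
    rw [add_mul]
    refine Ideal.add_mem _ ?_ ?_
    · refine Submodule.mem_sup_right ?_
      have : c * u * g = c * (u * g) := by ring
      rw [this]
      exact Ideal.mul_mem_left _ _ (self_mul_mem_rootIdeal_succ hg)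
    · refine Submodule.mem_sup_left ?_
      have : d * r ^ j * g = d * (r ^ j * g) := by ring
      rw [this]
      exact Ideal.mul_mem_left _ _
        (Ideal.mem_span_singleton.mpr (pow_dvd_pow_mul_of_mem_rootIdeal ht hg))
  have h𝔟 : Ideal.span {u, π ^ (k * j)} ≤ 𝔞 := by
    rw [Ideal.span_le]
    intro x hx
    rcases hx with rfl | rfl
    · exact Ideal.subset_span (by simp)
    · exact pow_mul_mem_span_pair hk j
  have h𝔞fin : relLen 𝔞 (⊤ : Ideal R) ≠ ⊤ :=
    ne_top_of_le_ne_top (relLen_span_pair_pow_ne_top u π hfin (k * j))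
      (relLen_mono_left h𝔟 le_top)
  exact ne_top_of_le_ne_top
    (relLen_mul_ne_top 𝔞 h𝔞fin A (IsNoetherian.noetherian A))
    (relLen_mono_left h𝔞A hA'A)

omit [IsNoetherianRing R] in
/-- Step Z: `ℓ((I_j + (π)) / (I_{j+1} + (π))) = ℓ(I_j / (I_{j+1} + π I_j))`. -/
theorem relLen_stepZ (hπ0 : π ≠ 0) (hreg : ∀ x : R, π ∣ u * x → π ∣ x) (j : ℕ) :
    relLen (rootIdeal u m hm (j + 1) ⊔ Ideal.span {π} * rootIdeal u m hm j)
        (rootIdeal u m hm j) =
      relLen (rootIdeal u m hm (j + 1) ⊔ Ideal.span {π})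
        (rootIdeal u m hm j ⊔ Ideal.span {π}) := by
  refine relLen_eq_of_map (LinearMap.id : R →ₗ[R] R) ?_ ?_ ?_ ?_
  · intro x hx
    exact Submodule.mem_sup_left hx
  · intro x hx
    obtain ⟨a, ha, b, hb, rfl⟩ := Submodule.mem_sup.mp hx
    refine Ideal.add_mem _ (Submodule.mem_sup_left ha) (Submodule.mem_sup_right ?_)
    exact Ideal.mul_le_left hb
  · intro x hx hx'
    rw [LinearMap.id_apply] at hx'
    obtain ⟨a, ha, b, hb, hab⟩ := Submodule.mem_sup.mp hx'
    obtain ⟨c, rfl⟩ := Ideal.mem_span_singleton'.mp hb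
    have hc : c ∈ rootIdeal u m hm j := by
      apply mem_rootIdeal_of_mul_mem hπ0 hreg
      have : π * c = x - a := by rw [← hab]; ring
      rw [this]
      exact Ideal.sub_mem _ hx (rootIdeal_antitone u m hm (Nat.le_succ j) ha)
    rw [← hab]
    refine Ideal.add_mem _ (Submodule.mem_sup_left ha) (Submodule.mem_sup_right ?_)
    rw [mul_comm c π]
    exact Ideal.mul_mem_mul (Ideal.mem_span_singleton_self π) hc
  · intro y hy
    obtain ⟨a, ha, b, hb, rfl⟩ := Submodule.mem_sup.mp hy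
    refine ⟨a, ha, ?_⟩
    rw [LinearMap.id_apply, add_sub_cancel_left]
    exact Submodule.mem_sup_right hb

/-- Step Y: replace `I_j` by its finite-colength submodule `(t^j) + I_{j+1}`. -/
theorem relLen_stepY (hπ0 : π ≠ 0) (hreg : ∀ x : R, π ∣ u * x → π ∣ x)
    (ht : t ^ m = u * r) {k : ℕ} (hk : π ^ k ∈ Ideal.span {u, r})
    (hfin : relLen (Ideal.span {u, π}) (⊤ : Ideal R) ≠ ⊤) (j : ℕ) :
    relLen (rootIdeal u m hm (j + 1) ⊔ Ideal.span {π} * rootIdeal u m hm j)
        (rootIdeal u m hm j) =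
      relLen (rootIdeal u m hm (j + 1) ⊔
          Ideal.span {π} * (Ideal.span {t ^ j} ⊔ rootIdeal u m hm (j + 1)))
        (Ideal.span {t ^ j} ⊔ rootIdeal u m hm (j + 1)) := by
  set A := rootIdeal u m hm j with hA
  set J := rootIdeal u m hm (j + 1) with hJ
  set A' := Ideal.span {t ^ j} ⊔ J with hA'
  set B := J ⊔ Ideal.span {π} * A with hB
  set B' := J ⊔ Ideal.span {π} * A' with hB'
  have hJA : J ≤ A := rootIdeal_antitone u m hm (Nat.le_succ j)
  have hA'A : A' ≤ A := by
    refine sup_le ?_ hJA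
    rw [Ideal.span_le, Set.singleton_subset_iff]
    exact pow_mem_rootIdeal_of_pow_eq ht j
  have hB'A' : B' ≤ A' := sup_le le_sup_right Ideal.mul_le_right
  have hB'B : B' ≤ B := sup_le_sup_left (Ideal.mul_mono_right hA'A) _
  have hBA : B ≤ A := sup_le hJA Ideal.mul_le_right
  have hfinA : relLen A' A ≠ ⊤ := relLen_span_sup_rootIdeal_ne_top ht hk hfin j
  -- `A / A' ≃ B / B'` via multiplication by `π`
  have hiso : relLen A' A = relLen B' B := by
    refine relLen_eq_of_map (LinearMap.mulLeft R π) ?_ ?_ ?_ ?_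
    · intro x hx
      rw [LinearMap.mulLeft_apply]
      exact Submodule.mem_sup_right (Ideal.mul_mem_mul (Ideal.mem_span_singleton_self π) hx)
    · intro x hx
      rw [LinearMap.mulLeft_apply]
      exact Submodule.mem_sup_right (Ideal.mul_mem_mul (Ideal.mem_span_singleton_self π) hx)
    · intro x hx hx'
      rw [LinearMap.mulLeft_apply] at hx'
      obtain ⟨a, ha, b, hb, hab⟩ := Submodule.mem_sup.mp hx'
      obtain ⟨c, hc, rfl⟩ := Ideal.mem_span_singleton_mul.mp hb
      -- `π * (x - c) = a ∈ J`, so `x - c ∈ J`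
      have h1 : x - c ∈ J := by
        apply mem_rootIdeal_of_mul_mem hπ0 hreg
        have : π * (x - c) = a := by rw [mul_sub, ← hab]; ring
        rw [this]
        exact ha
      have : x = (x - c) + c := by ring
      rw [this]
      exact Ideal.add_mem _ (Submodule.mem_sup_right h1) hc
    · intro y hy
      obtain ⟨a, ha, b, hb, rfl⟩ := Submodule.mem_sup.mp hy
      obtain ⟨c, hc, rfl⟩ := Ideal.mem_span_singleton_mul.mp hb
      refine ⟨c, hc, ?_⟩
      rw [LinearMap.mulLeft_apply, add_sub_cancel_right]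
      exact Submodule.mem_sup_left ha
  have e1 : relLen B' A = relLen B' A' + relLen A' A := relLen_add hB'A' hA'A
  have e2 : relLen B' A = relLen B' B + relLen B A := relLen_add hB'B hBA
  rw [e1, ← hiso, add_comm (relLen A' A)] at e2
  exact (ENat.add_left_injective_of_ne_top hfinA e2).symm

omit [IsNoetherianRing R] in
/-- Step X: `ℓ(((t^j) + I_{j+1}) / (I_{j+1} + π ((t^j) + I_{j+1}))) = ℓ(R / (I_1 + (π)))`. -/
theorem relLen_stepX (hu0 : u ≠ 0) (hπ0 : π ≠ 0) (hreg : ∀ x : R, π ∣ u * x → π ∣ x)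
    (ht : t ^ m = u * r) {k : ℕ} (hk : π ^ k ∈ Ideal.span {u, r}) (j : ℕ) :
    relLen (rootIdeal u m hm 1 ⊔ Ideal.span {π}) (⊤ : Ideal R) =
      relLen (rootIdeal u m hm (j + 1) ⊔
          Ideal.span {π} * (Ideal.span {t ^ j} ⊔ rootIdeal u m hm (j + 1)))
        (Ideal.span {t ^ j} ⊔ rootIdeal u m hm (j + 1)) := by
  set J := rootIdeal u m hm (j + 1) with hJ
  refine relLen_eq_of_map (LinearMap.mulLeft R (t ^ j)) ?_ ?_ ?_ ?_
  · intro x _
    rw [LinearMap.mulLeft_apply]
    exact Submodule.mem_sup_left (Ideal.mul_mem_right _ _ (Ideal.mem_span_singleton_self _))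
  · intro x hx
    rw [LinearMap.mulLeft_apply]
    obtain ⟨a, ha, b, hb, rfl⟩ := Submodule.mem_sup.mp hx
    obtain ⟨c, rfl⟩ := Ideal.mem_span_singleton'.mp hb
    rw [mul_add]
    refine Ideal.add_mem _ (Submodule.mem_sup_left ?_) (Submodule.mem_sup_right ?_)
    · have := mul_mem_rootIdeal (pow_mem_rootIdeal_of_pow_eq (hm := hm) ht j) ha
      exact this
    · have : t ^ j * (c * π) = π * (c * t ^ j) := by ring
      rw [this]
      refine Ideal.mul_mem_mul (Ideal.mem_span_singleton_self π) (Submodule.mem_sup_left ?_)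
      exact Ideal.mul_mem_left _ _ (Ideal.mem_span_singleton_self _)
  · intro x _ hx'
    rw [LinearMap.mulLeft_apply] at hx'
    obtain ⟨a, ha, b, hb, hab⟩ := Submodule.mem_sup.mp hx'
    obtain ⟨c, hc, rfl⟩ := Ideal.mem_span_singleton_mul.mp hb
    obtain ⟨d, hd, e, he, rfl⟩ := Submodule.mem_sup.mp hc
    obtain ⟨y, rfl⟩ := Ideal.mem_span_singleton'.mp hd
    -- `t^j (x - π y) = a + π e ∈ J`
    have h1 : t ^ j * (x - π * y) ∈ J := by
      have : t ^ j * (x - π * y) = a + π * e := by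
        have h2 : t ^ j * x = a + π * (y * t ^ j + e) := hab.symm
        rw [mul_sub, h2]; ring
      rw [this]
      exact Ideal.add_mem _ ha (Ideal.mul_mem_left _ _ he)
    have h2 : x - π * y ∈ rootIdeal u m hm 1 :=
      mem_rootIdeal_one_of_pow_mul_mem hu0 hπ0 hreg ht hk h1
    have : x = (x - π * y) + y * π := by ring
    rw [this]
    exact Ideal.add_mem _ (Submodule.mem_sup_left h2)
      (Submodule.mem_sup_right (Ideal.mul_mem_left _ _ (Ideal.mem_span_singleton_self π)))
  · intro y hy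
    obtain ⟨a, ha, b, hb, rfl⟩ := Submodule.mem_sup.mp hy
    obtain ⟨c, rfl⟩ := Ideal.mem_span_singleton'.mp ha
    refine ⟨c, trivial, ?_⟩
    rw [LinearMap.mulLeft_apply]
    have : c * t ^ j + b - t ^ j * c = b := by ring
    rw [this]
    exact Submodule.mem_sup_left hb

/-- The colength function `c(j) = ℓ(R / (I_j + (π)))` is additive: `c(j+1) = c(j) + c(1)`. -/
theorem relLen_succ (hu0 : u ≠ 0) (hπ0 : π ≠ 0) (hreg : ∀ x : R, π ∣ u * x → π ∣ x)
    (ht : t ^ m = u * r) {k : ℕ} (hk : π ^ k ∈ Ideal.span {u, r})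
    (hfin : relLen (Ideal.span {u, π}) (⊤ : Ideal R) ≠ ⊤) (j : ℕ) :
    relLen (rootIdeal u m hm (j + 1) ⊔ Ideal.span {π}) (⊤ : Ideal R) =
      relLen (rootIdeal u m hm j ⊔ Ideal.span {π}) (⊤ : Ideal R) +
        relLen (rootIdeal u m hm 1 ⊔ Ideal.span {π}) (⊤ : Ideal R) := by
  have hAB : rootIdeal u m hm (j + 1) ⊔ Ideal.span {π} ≤ rootIdeal u m hm j ⊔ Ideal.span {π} :=
    sup_le_sup_right (rootIdeal_antitone u m hm (Nat.le_succ j)) _
  rw [relLen_add hAB le_top, ← relLen_stepZ hπ0 hreg j, relLen_stepY hπ0 hreg ht hk hfin j,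
    ← relLen_stepX hu0 hπ0 hreg ht hk j, add_comm]

/-- **Multiplicity identity**: `ℓ(R/((u)+(π))) = m • ℓ(R/(I_1+(π)))`. -/
theorem relLen_span_pair_eq_nsmul (hu0 : u ≠ 0) (hπ0 : π ≠ 0)
    (hreg : ∀ x : R, π ∣ u * x → π ∣ x)
    (ht : t ^ m = u * r) {k : ℕ} (hk : π ^ k ∈ Ideal.span {u, r})
    (hfin : relLen (Ideal.span {u, π}) (⊤ : Ideal R) ≠ ⊤) :
    relLen (Ideal.span {u, π}) (⊤ : Ideal R) =
      m • relLen (rootIdeal u m hm 1 ⊔ Ideal.span {π}) (⊤ : Ideal R) := by
  have key : ∀ j : ℕ, relLen (rootIdeal u m hm j ⊔ Ideal.span {π}) (⊤ : Ideal R) =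
      j • relLen (rootIdeal u m hm 1 ⊔ Ideal.span {π}) (⊤ : Ideal R) := by
    intro j
    induction j with
    | zero =>
      rw [rootIdeal_zero, top_sup_eq, relLen_self, zero_smul]
    | succ j ih =>
      rw [relLen_succ hu0 hπ0 hreg ht hk hfin j, ih, succ_nsmul]
  have h := key m
  rw [rootIdeal_self] at h
  have hspan : Ideal.span {u} ⊔ Ideal.span {π} = Ideal.span {u, π} := by
    rw [← Ideal.span_union]
    rfl
  rw [hspan] at h
  exact h

end Chain

end Fermat.Agent.A2.H609

end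
-- ===== PACK-END A2/H609/Chain.lean

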