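import Mathlib.AlgebraicGeometry.EllipticCurve.VariableChange
import Mathlib
import Fermat.Agent.Pack.S58.E1L0
import Fermat.Agent.Pack.S58.E1L1
import Fermat.Agent.Pack.S58.E0L1
import Fermat.Agent.Pack.S58.E0L3
import Fermat.Agent.Pack.S58.E1L3
import Fermat.Agent.Pack.S58.E1L2
import Fermat.Agent.Pack.S36.E0L1
import Fermat.Agent.Pack.S36.E4L2
import Fermat.Agent.Pack.S36.E7L2
import Fermat.Agent.Pack.S36.E0L3

-- ===== PACK-BEGIN S59/H240/Node/NormalForm.lean
section





/-!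
# S59 / CR-I (helper240): existence of the nodal normal form

`K` algebraically closed with a valuation `v`, `2 ≠ 0`; `W` a Weierstrass curve with integral
coefficients, `v c₄ = 1`, `Δ ≠ 0`, and an integral point `(x₀, y₀)` of `W` whose reduction is
singular (`v gX < 1`, `v gY < 1`).  Then there is an integral change of variables `C`
(`v u = 1`, `r s t` integral) with `C • W = nodeCurve a`, `0 < v a < 1`.

Construction: `r = e` a root of the 2-division polynomial with `e ≡ x₀`, `t = -(a₁ e + a₃)/2`,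
`s` a root of `s² + a₁ s - (a₂ + 3 e)`, `u = a₁ + 2 s`.
-/

set_option autoImplicit false
set_option linter.unusedSectionVars false
set_option linter.unusedVariables false

namespace Fermat.Agent.S59.H240

open WeierstrassCurve WeierstrassCurve.Affine
open Fermat.Agent.S05.SameRed (IntegralCoeffs)

variable {K : Type*} [Field K] {Γ₀ : Type*} [LinearOrderedCommGroupWithZero Γ₀]
  {v : Valuation K Γ₀}

section identities

variable (W : WeierstrassCurve K) (x y : K)

lemma gY_sq {x y : K} (h : W.toAffine.Equation x y) :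
    gY W x y ^ 2 = 4 * x ^ 3 + W.b₂ * x ^ 2 + 2 * W.b₄ * x + W.b₆ := by
  rw [Affine.equation_iff] at h
  simp only [gY, WeierstrassCurve.b₂, WeierstrassCurve.b₄, WeierstrassCurve.b₆]
  linear_combination 4 * h

lemma twoDiv_deriv :
    12 * x ^ 2 + 2 * W.b₂ * x + 2 * W.b₄ = 2 * W.a₁ * gY W x y - 4 * gX W x y := by
  simp only [gX, gY, WeierstrassCurve.b₂, WeierstrassCurve.b₄]
  ring

lemma c₄_shift : (W.b₂ + 12 * x) ^ 2 = W.c₄ + 12 * (12 * x ^ 2 + 2 * W.b₂ * x + 2 * W.b₄) := by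
  simp only [WeierstrassCurve.c₄]
  ring

end identities

lemma val_eq_one_of_sq {g : Γ₀} (h : g * g = 1) : g = 1 := by
  rcases lt_trichotomy g 1 with hlt | heq | hgt
  · exfalso
    have : g * g < 1 := by
      calc g * g ≤ g * 1 := mul_le_mul' le_rfl hlt.le
        _ = g := mul_one _
        _ < 1 := hlt
    exact absurd h this.ne
  · exact heq
  · exfalso
    have : 1 < g * g := by
      calc (1 : Γ₀) < g := hgt
        _ = g * 1 := (mul_one _).symm
        _ ≤ g * g := mul_le_mul' le_rfl hgt.le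
    exact absurd h this.ne'

lemma vnatmul_le {n : ℕ} {a : K} {g : Γ₀} (ha : v a ≤ g) : v ((n : K) * a) ≤ g :=
  (vmul_le_of_le_one_left (vnat_le_one n)).trans ha

lemma vnatmul_lt {n : ℕ} {a : K} {g : Γ₀} (ha : v a < g) : v ((n : K) * a) < g :=
  lt_of_le_of_lt (vmul_le_of_le_one_left (vnat_le_one n)) ha

lemma vmul_le_one {a b : K} (ha : v a ≤ 1) (hb : v b ≤ 1) : v (a * b) ≤ 1 := by
  rw [map_mul]; exact mul_le_one' ha hb

lemma vpow_le_one {a : K} (ha : v a ≤ 1) (n : ℕ) : v (a ^ n) ≤ 1 := by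
  rw [map_pow]; exact pow_le_one₀ zero_le ha

lemma vmul_lt_one_left {a b : K} (ha : v a < 1) (hb : v b ≤ 1) : v (a * b) < 1 := by
  rw [map_mul]
  exact lt_of_le_of_lt (mul_le_of_le_one_right' hb) ha

lemma vmul_lt_one_right {a b : K} (ha : v a ≤ 1) (hb : v b < 1) : v (a * b) < 1 := by
  rw [map_mul]
  exact lt_of_le_of_lt (mul_le_of_le_one_left' ha) hb

/-- **Existence of the nodal normal form.** -/
theorem exists_nodeForm [IsAlgClosed K] (h2 : (2 : K) ≠ 0) {W : WeierstrassCurve K}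
    (hW : IntegralCoeffs W.toAffine v) (hc₄ : v W.c₄ = 1) (hΔ : W.Δ ≠ 0)
    {x₀ y₀ : K} (h₀ : W.toAffine.Equation x₀ y₀) (hx₀ : v x₀ ≤ 1) (hy₀ : v y₀ ≤ 1)
    (hG₀ : v (gX W x₀ y₀) < 1) (hH₀ : v (gY W x₀ y₀) < 1) :
    ∃ (C : VariableChange K) (a : K), v (C.u : K) = 1 ∧ v C.r ≤ 1 ∧ v C.s ≤ 1 ∧ v C.t ≤ 1 ∧
      a ≠ 0 ∧ v a < 1 ∧ C • W = nodeCurve a := by
  have h4 : (4 : K) ≠ 0 := by
    have : (4 : K) = 2 * 2 := by norm_num
    rw [this]; exact mul_ne_zero h2 h2
  have ha₁ := hW.a₁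
  have ha₂ := hW.a₂
  have ha₃ := hW.a₃
  have ha₄ := hW.a₄
  have ha₆ := hW.a₆
  have hv2 : v (2 : K) ≤ 1 := vtwo_le_one
  have hv3 : v (3 : K) ≤ 1 := vthree_le_one
  have hv4 : v (4 : K) ≤ 1 := by simpa using vnat_le_one (v := v) 4
  have hv12 : v (12 : K) ≤ 1 := by simpa using vnat_le_one (v := v) 12
  have hv48 : v (48 : K) ≤ 1 := by simpa using vnat_le_one (v := v) 48
  -- Step A: the root `e` of the 2-division polynomial
  obtain ⟨B₂, hB₂⟩ : ∃ B₂ : K, B₂ = W.b₂ + 12 * x₀ := ⟨_, rfl⟩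
  obtain ⟨B₄, hB₄⟩ : ∃ B₄ : K, B₄ = 12 * x₀ ^ 2 + 2 * W.b₂ * x₀ + 2 * W.b₄ := ⟨_, rfl⟩
  obtain ⟨B₆, hB₆⟩ : ∃ B₆ : K, B₆ = 4 * x₀ ^ 3 + W.b₂ * x₀ ^ 2 + 2 * W.b₄ * x₀ + W.b₆ := ⟨_, rfl⟩
  have hB₆v : v B₆ < 1 := by
    rw [hB₆, ← gY_sq W h₀, map_pow]
    exact pow_lt_one₀ zero_le hH₀ (by norm_num)
  have hB₄v : v B₄ < 1 := by
    rw [hB₄, twoDiv_deriv W x₀ y₀]
    refine vsub_lt ?_ ?_
    · rw [mul_assoc]
      exact vmul_lt_one_right hv2 (vmul_lt_one_right ha₁ hH₀)
    · exact vmul_lt_one_right hv4 hG₀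
  have hB₂v : v B₂ = 1 := by
    have e := c₄_shift W x₀
    rw [← hB₂, ← hB₄] at e
    have h1 : v (B₂ ^ 2) = 1 := by
      rw [e, vadd_eq_left, hc₄]
      rw [hc₄]
      exact vmul_lt_one_right hv12 hB₄v
    rw [map_pow, pow_two] at h1
    exact val_eq_one_of_sq h1
  obtain ⟨ε, hε, hεv⟩ := exists_small_root h4 hB₂v hB₄v hB₆v
  obtain ⟨e, he⟩ : ∃ e : K, e = x₀ + ε := ⟨_, rfl⟩
  have hev : v e ≤ 1 := by rw [he]; exact vadd_le hx₀ hεv.le
  have hFe : 4 * e ^ 3 + W.b₂ * e ^ 2 + 2 * W.b₄ * e + W.b₆ = 0 := by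
    rw [he, ← hε, hB₂, hB₄, hB₆]; ring
  -- Step B: the 2-torsion point `(e, t)`
  obtain ⟨t, ht⟩ : ∃ t : K, t = -(W.a₁ * e + W.a₃) / 2 := ⟨_, rfl⟩
  have h2t : 2 * t = -(W.a₁ * e + W.a₃) := by rw [ht]; field_simp
  have hgY : gY W e t = 0 := by
    simp only [gY]; linear_combination h2t
  have hEq : W.toAffine.Equation e t := by
    rw [Affine.equation_iff]
    have hF := hFe
    simp only [WeierstrassCurve.b₂, WeierstrassCurve.b₄, WeierstrassCurve.b₆] at hF
    have h4t : 4 * (t ^ 2 + W.a₁ * e * t + W.a₃ * t) =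
        4 * (e ^ 3 + W.a₂ * e ^ 2 + W.a₄ * e + W.a₆) := by
      linear_combination (2 * t + W.a₁ * e + W.a₃) * h2t - hF
    exact mul_left_cancel₀ h4 h4t
  -- `δ = t - y₀` is small
  obtain ⟨δ, hδ⟩ : ∃ δ : K, δ = t - y₀ := ⟨_, rfl⟩
  obtain ⟨m, hm⟩ : ∃ m : K, m = gY W x₀ y₀ + W.a₁ * ε := ⟨_, rfl⟩
  obtain ⟨m', hm'⟩ : ∃ m' : K, m' = ε * (e ^ 2 + e * x₀ + x₀ ^ 2 + W.a₂ * (e + x₀) + W.a₄ - W.a₁ * y₀) := ⟨_, rfl⟩
  have hmv : v m < 1 := by rw [hm]; exact vadd_lt hH₀ (vmul_lt_one_right ha₁ hεv)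
  have hm'v : v m' < 1 := by
    rw [hm']
    refine vmul_lt_one_left hεv ?_
    refine vsub_le (vadd_le (vadd_le (vadd_le (vadd_le ?_ ?_) ?_) ?_) ha₄) (vmul_le_one ha₁ hy₀)
    · exact vpow_le_one hev 2
    · exact vmul_le_one hev hx₀
    · exact vpow_le_one hx₀ 2
    · exact vmul_le_one ha₂ (vadd_le hev hx₀)
  have hδm : δ * (δ + m) = m' := by
    have e1 := (Affine.equation_iff e t).mp hEq
    have e0 := (Affine.equation_iff x₀ y₀).mp h₀
    rw [hδ, hm, hm']
    simp only [gY]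
    have hε' : ε = e - x₀ := by rw [he]; ring
    rw [hε']
    linear_combination e1 - e0
  have hδv : v δ < 1 := by
    by_contra hge
    rw [not_lt] at hge
    have h1 : v (δ + m) = v δ := vadd_eq_left (lt_of_lt_of_le hmv hge)
    have h3 := congrArg v hδm
    rw [map_mul, h1] at h3
    have h5 : (1 : Γ₀) ≤ v δ * v δ := by
      calc (1 : Γ₀) = 1 * 1 := (one_mul 1).symm
        _ ≤ v δ * v δ := mul_le_mul' hge hge
    rw [h3] at h5
    exact absurd hm'v (not_lt.mpr h5)
  have htv : v t ≤ 1 := by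
    have : t = y₀ + δ := by rw [hδ]; ring
    rw [this]; exact vadd_le hy₀ hδv.le
  -- `g_T = gX (e, t)` is small and nonzero
  obtain ⟨gT, hgT⟩ : ∃ gT : K, gT = gX W e t := ⟨_, rfl⟩
  have hgTv : v gT < 1 := by
    have : gT = gX W x₀ y₀ + (W.a₁ * δ - ε * (3 * (e + x₀) + 2 * W.a₂)) := by
      rw [hgT, hδ]
      have hε' : ε = e - x₀ := by rw [he]; ring
      rw [hε']
      simp only [gX]; ring
    rw [this]
    refine vadd_lt hG₀ (vsub_lt (vmul_lt_one_right ha₁ hδv) (vmul_lt_one_left hεv ?_))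
    exact vadd_le (vmul_le_one hv3 (vadd_le hev hx₀)) (vmul_le_one hv2 ha₂)
  have hgT0 : gT ≠ 0 := by
    have hns := (W.toAffine.equation_iff_nonsingular_of_Δ_ne_zero hΔ).mp hEq
    rw [Affine.nonsingular_iff'] at hns
    rcases hns.2 with h | h
    · rw [hgT]; exact h
    · exact absurd hgY h
  -- Step C: the shear `s`
  obtain ⟨s, hs⟩ := exists_quadratic_root (c₂ := (1 : K)) (c₁ := W.a₁) (c₀ := -(W.a₂ + 3 * e))
    one_ne_zero
  have hs' : s ^ 2 + W.a₁ * s + -(W.a₂ + 3 * e) = 0 := by linear_combination hs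
  have hsv : v s ≤ 1 :=
    val_le_one_of_monic_quadratic ha₁ (vneg_le (vadd_le ha₂ (vmul_le_one hv3 hev))) hs'
  -- Step D: the scaling `u`
  obtain ⟨u, hu⟩ : ∃ u : K, u = W.a₁ + 2 * s := ⟨_, rfl⟩
  have hu2 : u ^ 2 = W.b₂ + 12 * e := by
    rw [hu]; simp only [WeierstrassCurve.b₂]; linear_combination 4 * hs'
  have hu4 : (u ^ 2) ^ 2 = W.c₄ - 48 * gT := by
    rw [hu2, c₄_shift W e, twoDiv_deriv W e t, hgY, hgT]; ring
  have huv : v u = 1 := by
    have h1 : v ((u ^ 2) ^ 2) = 1 := by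
      rw [hu4, sub_eq_add_neg, vadd_eq_left, hc₄]
      rw [hc₄, Valuation.map_neg]
      exact vmul_lt_one_right hv48 hgTv
    rw [map_pow, pow_two] at h1
    have h2' := val_eq_one_of_sq h1
    rw [map_pow, pow_two] at h2'
    exact val_eq_one_of_sq h2'
  have hu0 : u ≠ 0 := by
    rintro h0
    rw [h0, map_zero] at huv
    exact zero_ne_one huv
  -- Step E: the change of variables
  refine ⟨⟨Units.mk0 u hu0, e, s, t⟩, -gT / u ^ 4, ?_, hev, hsv, htv, ?_, ?_, ?_⟩
  · simpa using huv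
  · exact div_ne_zero (neg_ne_zero.mpr hgT0) (pow_ne_zero 4 hu0)
  · rw [map_div₀, Valuation.map_neg, map_pow, huv, one_pow, div_one]
    exact hgTv
  · have e1 := (Affine.equation_iff e t).mp hEq
    ext
    · simp only [variableChange_a₁, nodeCurve_a₁, Units.val_inv_eq_inv_val, Units.val_mk0]
      rw [← hu]; field_simp
    · simp only [variableChange_a₂, nodeCurve_a₂, Units.val_inv_eq_inv_val, Units.val_mk0]
      rw [mul_eq_zero]; right
      linear_combination -hs'
    · simp only [variableChange_a₃, nodeCurve_a₃, Units.val_inv_eq_inv_val, Units.val_mk0]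
      rw [mul_eq_zero]; right
      linear_combination h2t
    · simp only [variableChange_a₄, nodeCurve_a₄, Units.val_inv_eq_inv_val, Units.val_mk0]
      rw [hgT]; simp only [gX]
      field_simp
      linear_combination (-s) * h2t
    · simp only [variableChange_a₆, nodeCurve_a₆, Units.val_inv_eq_inv_val, Units.val_mk0]
      rw [mul_eq_zero]; right
      linear_combination -e1

end Fermat.Agent.S59.H240

end
-- ===== PACK-END S59/H240/Node/NormalForm.lean

-- ===== PACK-BEGIN S59/H240/Node/Main.lean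
section



/-!
# S59 / CR-I (helper240): two points in the same component differ by a point of `E₀`

General integral Weierstrass curve `W` over an algebraically closed valued field, multiplicative
reduction (`v c₄ = 1`), `Δ ≠ 0`.  Intrinsic invariants of an integral point `P = (x, y)`:

* `rad W v x y = max (v gX) (v gY)` (distance to the node; `< 1` iff the reduction is singular),
* the direction `[gX : gY]` modulo the maximal ideal.

`sub_inE0` : if `P`, `P'` are integral points with singular reduction, `rad P' = rad P` and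
`v (gX P * gY P' - gX P' * gY P) < rad P ^ 2`, then `P' - P ∈ E₀`.
-/

set_option autoImplicit false
set_option linter.unusedSectionVars false
set_option linter.unusedVariables false

namespace Fermat.Agent.S59.H240

open WeierstrassCurve WeierstrassCurve.Affine
open Fermat.Agent.S05.SameRed (IntegralCoeffs)
open Fermat.Agent.Lib.VC

variable {K : Type*} [Field K] {Γ₀ : Type*} [LinearOrderedCommGroupWithZero Γ₀]
  {v : Valuation K Γ₀}

/-- The intrinsic distance of an integral point to the singular point of the reduction. -/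
def rad (W : WeierstrassCurve K) (v : Valuation K Γ₀) (x y : K) : Γ₀ :=
  max (v (gX W x y)) (v (gY W x y))

/-! ### invariants of the classes of the normal form -/

section node

variable {a x y x' y' : K}

lemma ClM.val_gX (ha0 : a ≠ 0) (ha : v a < 1) (hM : ClM v a x) (h : NodeEq a x y) :
    v (gX (nodeCurve a) x y) = v a := by
  rw [nodeCurve_gX]
  have e : y - 3 * x ^ 2 - a = (y - a) + -(3 * x ^ 2) := by ring
  have h1 := hM.val_y_sub ha0 ha h
  rw [e, vadd_eq_left, h1]
  rw [h1, Valuation.map_neg]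
  exact lt_of_le_of_lt (vmul_le_of_le_one_left vthree_le_one) (hM.val_x_sq_lt ha0 ha)

lemma ClM.val_gY (ha0 : a ≠ 0) (ha : v a < 1) (hM : ClM v a x) (h : NodeEq a x y) :
    v (gY (nodeCurve a) x y) ≤ v a := by
  rw [nodeCurve_gY]
  exact vadd_le ((vmul_le_of_le_one_left vtwo_le_one).trans (hM.val_y_le ha0 ha h)) hM

lemma ClM.rad_eq (ha0 : a ≠ 0) (ha : v a < 1) (hM : ClM v a x) (h : NodeEq a x y) :
    rad (nodeCurve a) v x y = v a := by
  rw [rad, hM.val_gX ha0 ha h]
  exact max_eq_left (hM.val_gY ha0 ha h)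

lemma BrP.val_gY (hP : BrP v a x y) : v (gY (nodeCurve a) x y) = v x := by
  rw [nodeCurve_gY, add_comm]
  exact vadd_eq_left (lt_of_le_of_lt (vmul_le_of_le_one_left vtwo_le_one) hP.2)

lemma val_x_ne_zero_of_lt (h : v a < v x) : x ≠ 0 := by
  rintro rfl
  rw [map_zero] at h
  exact not_lt_zero h

lemma BrP.val_gX (hx : v x < 1) (hP : BrP v a x y) : v (gX (nodeCurve a) x y) < v x := by
  rw [nodeCurve_gX]
  refine vsub_lt (vsub_lt hP.2 ?_) hP.1
  exact lt_of_le_of_lt (vmul_le_of_le_one_left vthree_le_one)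
    (vsq_lt_self (val_x_ne_zero_of_lt hP.1) hx)

lemma BrP.rad_eq (hx : v x < 1) (hP : BrP v a x y) : rad (nodeCurve a) v x y = v x := by
  rw [rad, hP.val_gY]
  exact max_eq_right (hP.val_gX hx).le

lemma BrN.val_gY (hN : BrN v a x y) : v (gY (nodeCurve a) x y) = v x := by
  rw [nodeCurve_gY]
  have e : 2 * y + x = -x + 2 * (y + x) := by ring
  rw [e, vadd_eq_left, Valuation.map_neg]
  rw [Valuation.map_neg]
  exact lt_of_le_of_lt (vmul_le_of_le_one_left vtwo_le_one) hN.2

lemma BrN.val_sub (hx : v x < 1) (hN : BrN v a x y) :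
    v (gX (nodeCurve a) x y - gY (nodeCurve a) x y) < v x := by
  rw [nodeCurve_gX, nodeCurve_gY]
  have e : y - 3 * x ^ 2 - a - (2 * y + x) = -(y + x) - 3 * x ^ 2 - a := by ring
  rw [e]
  refine vsub_lt (vsub_lt (vneg_lt hN.2) ?_) hN.1
  exact lt_of_le_of_lt (vmul_le_of_le_one_left vthree_le_one)
    (vsq_lt_self (val_x_ne_zero_of_lt hN.1) hx)

lemma BrN.val_gX (hx : v x < 1) (hN : BrN v a x y) : v (gX (nodeCurve a) x y) = v x := by
  have e : gX (nodeCurve a) x y
      = gY (nodeCurve a) x y + (gX (nodeCurve a) x y - gY (nodeCurve a) x y) := by ring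
  rw [e, vadd_eq_left, hN.val_gY]
  rw [hN.val_gY]
  exact hN.val_sub hx

lemma BrN.rad_eq (hx : v x < 1) (hN : BrN v a x y) : rad (nodeCurve a) v x y = v x := by
  rw [rad, hN.val_gY, hN.val_gX hx]
  exact max_self _

/-- Equal invariants force equal classes. -/
theorem node_same_class (ha0 : a ≠ 0) (ha : v a < 1) (h : NodeEq a x y) (h' : NodeEq a x' y')
    (hx : v x < 1) (hx' : v x' < 1)
    (heq : rad (nodeCurve a) v x' y' = rad (nodeCurve a) v x y)
    (hcross : v (gX (nodeCurve a) x y * gY (nodeCurve a) x' y'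
      - gX (nodeCurve a) x' y' * gY (nodeCurve a) x y)
      < rad (nodeCurve a) v x y * rad (nodeCurve a) v x y) :
    (ClM v a x ∧ ClM v a x') ∨ (v x = v x' ∧ BrP v a x y ∧ BrP v a x' y') ∨
      (v x = v x' ∧ BrN v a x y ∧ BrN v a x' y') := by
  rcases h.class_cases hx with hM | hP | hN
  · rcases h'.class_cases hx' with hM' | hP' | hN'
    · exact Or.inl ⟨hM, hM'⟩
    · exfalso
      rw [hM.rad_eq ha0 ha h, hP'.rad_eq hx'] at heq
      exact absurd hP'.1 (by rw [heq]; exact lt_irrefl _)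
    · exfalso
      rw [hM.rad_eq ha0 ha h, hN'.rad_eq hx'] at heq
      exact absurd hN'.1 (by rw [heq]; exact lt_irrefl _)
  · rcases h'.class_cases hx' with hM' | hP' | hN'
    · exfalso
      rw [hM'.rad_eq ha0 ha h', hP.rad_eq hx] at heq
      exact absurd hP.1 (by rw [heq]; exact lt_irrefl _)
    · rw [hP.rad_eq hx, hP'.rad_eq hx'] at heq
      exact Or.inr (Or.inl ⟨heq.symm, hP, hP'⟩)
    · exfalso
      have hxx : v x' = v x := by rw [hP.rad_eq hx, hN'.rad_eq hx'] at heq; exact heq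
      have hx0 : 0 < v x := lt_of_le_of_lt zero_le hP.1
      rw [hP.rad_eq hx] at hcross
      have h1 : v (gX (nodeCurve a) x y * gY (nodeCurve a) x' y') < v x * v x := by
        rw [map_mul, hN'.val_gY, hxx]
        exact mul_lt_mul_of_pos_right (hP.val_gX hx) hx0
      have h2 : v (gX (nodeCurve a) x' y' * gY (nodeCurve a) x y) = v x * v x := by
        rw [map_mul, hN'.val_gX hx', hP.val_gY, hxx]
      have h3 : v (gX (nodeCurve a) x y * gY (nodeCurve a) x' y'
          - gX (nodeCurve a) x' y' * gY (nodeCurve a) x y) = v x * v x := by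
        rw [sub_eq_add_neg, vadd_eq_right, Valuation.map_neg, h2]
        rw [Valuation.map_neg, h2]; exact h1
      rw [h3] at hcross
      exact lt_irrefl _ hcross
  · rcases h'.class_cases hx' with hM' | hP' | hN'
    · exfalso
      rw [hM'.rad_eq ha0 ha h', hN.rad_eq hx] at heq
      exact absurd hN.1 (by rw [heq]; exact lt_irrefl _)
    · exfalso
      have hxx : v x' = v x := by rw [hN.rad_eq hx, hP'.rad_eq hx'] at heq; exact heq
      have hx0 : 0 < v x := lt_of_le_of_lt zero_le hN.1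
      rw [hN.rad_eq hx] at hcross
      have h1 : v (gX (nodeCurve a) x' y' * gY (nodeCurve a) x y) < v x * v x := by
        rw [map_mul, hN.val_gY]
        have := hP'.val_gX hx'
        rw [hxx] at this
        exact mul_lt_mul_of_pos_right this hx0
      have h2 : v (gX (nodeCurve a) x y * gY (nodeCurve a) x' y') = v x * v x := by
        rw [map_mul, hN.val_gX hx, hP'.val_gY, hxx]
      have h3 : v (gX (nodeCurve a) x y * gY (nodeCurve a) x' y'
          - gX (nodeCurve a) x' y' * gY (nodeCurve a) x y) = v x * v x := by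
        rw [sub_eq_add_neg, vadd_eq_left, h2]
        rw [Valuation.map_neg, h2]; exact h1
      rw [h3] at hcross
      exact lt_irrefl _ hcross
    · rw [hN.rad_eq hx, hN'.rad_eq hx'] at heq
      exact Or.inr (Or.inr ⟨heq.symm, hN, hN'⟩)

end node

/-! ### transfer along an integral change of variables -/

section transfer

variable (W : WeierstrassCurve K) (C : VariableChange K)

lemma gY_vc (x y : K) : gY W (vcX C x) (vcY C x y) = (C.u : K) ^ 3 * gY (C • W) x y :=
  polynomialY_eval_vc W C x y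

lemma gX_vc (x y : K) : gX W (vcX C x) (vcY C x y)
    = (C.u : K) ^ 4 * gX (C • W) x y - C.s * ((C.u : K) ^ 3 * gY (C • W) x y) :=
  polynomialX_eval_vc W C x y

variable {W C}

lemma val_gY_vc (hu : v (C.u : K) = 1) (x y : K) :
    v (gY W (vcX C x) (vcY C x y)) = v (gY (C • W) x y) := by
  rw [gY_vc, map_mul, map_pow, hu, one_pow, one_mul]

lemma rad_vc (hu : v (C.u : K) = 1) (hs : v C.s ≤ 1) (x y : K) :
    rad W v (vcX C x) (vcY C x y) = rad (C • W) v x y := by
  have hu3 : v ((C.u : K) ^ 3) = 1 := by rw [map_pow, hu, one_pow]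
  have hu4 : v ((C.u : K) ^ 4) = 1 := by rw [map_pow, hu, one_pow]
  have hu0 : (C.u : K) ≠ 0 := C.u.ne_zero
  unfold rad
  rw [val_gY_vc hu]
  apply le_antisymm
  · refine max_le ?_ (le_max_right _ _)
    rw [gX_vc]
    refine vsub_le ?_ ?_
    · rw [map_mul, hu4, one_mul]; exact le_max_left _ _
    · rw [map_mul, map_mul, hu3, one_mul]
      exact (mul_le_of_le_one_left' hs).trans (le_max_right _ _)
  · refine max_le ?_ (le_max_right _ _)
    have e : (C.u : K) ^ 4 * gX (C • W) x y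
        = gX W (vcX C x) (vcY C x y) + C.s * ((C.u : K) ^ 3 * gY (C • W) x y) := by
      rw [gX_vc]; ring
    have : v (gX (C • W) x y) = v ((C.u : K) ^ 4 * gX (C • W) x y) := by
      rw [map_mul, hu4, one_mul]
    rw [this, e]
    refine vadd_le (le_max_left _ _) ?_
    rw [map_mul, map_mul, hu3, one_mul]
    exact (mul_le_of_le_one_left' hs).trans (le_max_right _ _)

lemma cross_vc (x y x' y' : K) :
    gX W (vcX C x) (vcY C x y) * gY W (vcX C x') (vcY C x' y')
      - gX W (vcX C x') (vcY C x' y') * gY W (vcX C x) (vcY C x y)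
    = (C.u : K) ^ 7 * (gX (C • W) x y * gY (C • W) x' y' - gX (C • W) x' y' * gY (C • W) x y) := by
  rw [gX_vc, gX_vc, gY_vc, gY_vc]; ring

lemma val_cross_vc (hu : v (C.u : K) = 1) (x y x' y' : K) :
    v (gX W (vcX C x) (vcY C x y) * gY W (vcX C x') (vcY C x' y')
      - gX W (vcX C x') (vcY C x' y') * gY W (vcX C x) (vcY C x y))
    = v (gX (C • W) x y * gY (C • W) x' y' - gX (C • W) x' y' * gY (C • W) x y) := by
  rw [cross_vc, map_mul, map_pow, hu, one_pow, one_mul]

lemma val_vcX_le (hu : v (C.u : K) = 1) (hr : v C.r ≤ 1) {x : K} :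
    v (vcX C x) ≤ 1 ↔ v x ≤ 1 := by
  have hu2 : v ((C.u : K) ^ 2) = 1 := by rw [map_pow, hu, one_pow]
  unfold vcX
  constructor
  · intro h
    have e : (C.u : K) ^ 2 * x = ((C.u : K) ^ 2 * x + C.r) - C.r := by ring
    have : v x = v ((C.u : K) ^ 2 * x) := by rw [map_mul, hu2, one_mul]
    rw [this, e]
    exact vsub_le h hr
  · intro h
    refine vadd_le ?_ hr
    rw [map_mul, hu2, one_mul]; exact h

variable [DecidableEq K]

/-- `E₀` is preserved by an integral change of variables. -/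
lemma inE0_vcPoint (hu : v (C.u : K) = 1) (hr : v C.r ≤ 1) (hs : v C.s ≤ 1)
    (hN : IntegralCoeffs (C • W).toAffine v) (P : (C • W).toAffine.Point)
    (hP : InE0 (C • W).toAffine v P) : InE0 W.toAffine v (vcPoint W C P) := by
  rcases P with _ | ⟨x, y, h⟩
  · exact inE0_zero _
  · rw [vcPoint_some, inE0_some]
    rw [inE0_some] at hP
    by_cases hx : v x ≤ 1
    · right
      have hP' : v (gX (C • W) x y) = 1 ∨ v (gY (C • W) x y) = 1 := by
        rcases hP with h1 | h1
        · exact absurd hx (not_le.mpr h1)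
        · exact h1
      -- `y` is integral
      have hy : v y ≤ 1 := by
        by_contra hy
        rw [not_le] at hy
        have e := (Affine.equation_iff x y).mp h.1
        have hy2 : y ^ 2 = x ^ 3 + (C • W).a₂ * x ^ 2 + (C • W).a₄ * x + (C • W).a₆
            - (C • W).a₁ * x * y - (C • W).a₃ * y := by
          linear_combination e
        have h0 : (0 : Γ₀) < v y := lt_trans zero_lt_one hy
        have hlt : v y < v y ^ 2 := by
          rw [pow_two]
          calc v y = v y * 1 := (mul_one _).symm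
            _ < v y * v y := mul_lt_mul_of_pos_left hy h0
        have hle : v (x ^ 3 + (C • W).a₂ * x ^ 2 + (C • W).a₄ * x + (C • W).a₆
            - (C • W).a₁ * x * y - (C • W).a₃ * y) ≤ v y := by
          refine vsub_le (vsub_le (vadd_le (vadd_le (vadd_le ?_ ?_) ?_) ?_) ?_) ?_
          · exact (vpow_le_one hx 3).trans hy.le
          · exact (vmul_le_one hN.a₂ (vpow_le_one hx 2)).trans hy.le
          · exact (vmul_le_one hN.a₄ hx).trans hy.le
          · exact hN.a₆.trans hy.le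
          · exact vmul_le_of_le_one_left (vmul_le_one hN.a₁ hx)
          · exact vmul_le_of_le_one_left hN.a₃
        rw [← hy2, map_pow] at hle
        exact absurd hle (not_le.mpr hlt)
      have hgY1 : v (gY (C • W) x y) ≤ 1 := by
        unfold gY
        exact vadd_le (vadd_le (vmul_le_one vtwo_le_one hy) (vmul_le_one hN.a₁ hx)) hN.a₃
      rcases eq_or_lt_of_le hgY1 with h1 | h1
      · right
        rw [val_gY_vc hu]; exact h1
      · left
        have hX1 : v (gX (C • W) x y) = 1 := by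
          rcases hP' with h2 | h2
          · exact h2
          · exact absurd h2 h1.ne
        rw [gX_vc, sub_eq_add_neg, vadd_eq_left]
        · rw [map_mul, map_pow, hu, one_pow, one_mul, hX1]
        · rw [Valuation.map_neg, map_mul, map_mul, map_pow, hu, one_pow, one_mul,
            map_mul, map_pow, hu, one_pow, one_mul, hX1]
          exact lt_of_le_of_lt (mul_le_of_le_one_left' hs) h1
    · left
      rw [not_le] at hx
      unfold vcX
      have hu2 : v ((C.u : K) ^ 2 * x) = v x := by rw [map_mul, map_pow, hu, one_pow, one_mul]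
      rw [vadd_eq_left (by rw [hu2]; exact lt_of_le_of_lt hr hx), hu2]
      exact hx

end transfer

/-! ### the main theorem -/

lemma nodeCurve_integral {a : K} (ha : v a < 1) : IntegralCoeffs (nodeCurve a).toAffine v :=
  ⟨by simp [nodeCurve], by simp [nodeCurve], by simp [nodeCurve], ha.le, by simp [nodeCurve]⟩

variable [DecidableEq K]

/-- `node_sub_inE0` for a curve which is equal to the normal form. -/
lemma node_sub_inE0' {N : WeierstrassCurve K} {a : K} (hN : N = nodeCurve a)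
    (ha0 : a ≠ 0) (ha : v a < 1) {x y x' y' : K}
    (h : N.toAffine.Nonsingular x y) (h' : N.toAffine.Nonsingular x' y')
    (hx : v x ≤ 1) (hx' : v x' ≤ 1) (hrad : rad N v x y < 1)
    (heq : rad N v x' y' = rad N v x y)
    (hcross : v (gX N x y * gY N x' y' - gX N x' y' * gY N x y) < rad N v x y * rad N v x y) :
    InE0 N.toAffine v (Point.some x' y' h' - Point.some x y h) := by
  subst hN
  have hE := nodeCurve_equation_iff.mp h.1
  have hE' := nodeCurve_equation_iff.mp h'.1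
  -- both points lie in the annulus
  have hann : ∀ {x y : K} (h : (nodeCurve a).toAffine.Nonsingular x y), v x ≤ 1 →
      rad (nodeCurve a) v x y < 1 → v x < 1 := by
    intro x y h hx hr
    by_contra hge
    rw [not_lt] at hge
    have := node_inE0_of_le ha h hge
    rw [inE0_some] at this
    rcases this with h1 | h1 | h1
    · exact absurd hx (not_le.mpr h1)
    · have : (1 : Γ₀) ≤ rad (nodeCurve a) v x y := by rw [rad, ← h1]; exact le_max_left _ _
      exact absurd hr (not_lt.mpr this)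
    · have : (1 : Γ₀) ≤ rad (nodeCurve a) v x y := by rw [rad, ← h1]; exact le_max_right _ _
      exact absurd hr (not_lt.mpr this)
  have hx1 := hann h hx hrad
  have hx1' := hann h' hx' (by rw [heq]; exact hrad)
  exact node_sub_inE0 ha0 ha h h' hx1 hx1' (node_same_class ha0 ha hE hE' hx1 hx1' heq hcross)

/-- **Main theorem.**  Two integral points with singular reduction and the same invariants differ
by a point of `E₀`. -/
theorem sub_inE0 [IsAlgClosed K] (h2 : (2 : K) ≠ 0) {W : WeierstrassCurve K}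
    (hW : IntegralCoeffs W.toAffine v) (hc₄ : v W.c₄ = 1) (hΔ : W.Δ ≠ 0)
    {x y x' y' : K} (h : W.toAffine.Nonsingular x y) (h' : W.toAffine.Nonsingular x' y')
    (hx : v x ≤ 1) (hy : v y ≤ 1) (hx' : v x' ≤ 1)
    (hrad : rad W v x y < 1) (heq : rad W v x' y' = rad W v x y)
    (hcross : v (gX W x y * gY W x' y' - gX W x' y' * gY W x y) < rad W v x y * rad W v x y) :
    InE0 W.toAffine v (Point.some x' y' h' - Point.some x y h) := by
  have hG : v (gX W x y) < 1 := lt_of_le_of_lt (le_max_left _ _) hrad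
  have hH : v (gY W x y) < 1 := lt_of_le_of_lt (le_max_right _ _) hrad
  obtain ⟨C, a, hu, hr, hs, ht, ha0, ha, hCW⟩ := exists_nodeForm h2 hW hc₄ hΔ h.1 hx hy hG hH
  -- the points in the new coordinates
  obtain ⟨Q, hQ⟩ := (vcPoint W C).surjective (Point.some x y h)
  obtain ⟨Q', hQ'⟩ := (vcPoint W C).surjective (Point.some x' y' h')
  rcases Q with _ | ⟨X, Y, hXY⟩
  · change (vcPoint W C) 0 = _ at hQ
    rw [vcPoint_zero] at hQ; exact absurd hQ.symm (Point.some_ne_zero h)
  rcases Q' with _ | ⟨X', Y', hXY'⟩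
  · change (vcPoint W C) 0 = _ at hQ'
    rw [vcPoint_zero] at hQ'; exact absurd hQ'.symm (Point.some_ne_zero h')
  have hQc := hQ
  have hQc' := hQ'
  rw [vcPoint_some, Point.some.injEq] at hQc hQc'
  obtain ⟨eX, eY⟩ := hQc
  obtain ⟨eX', eY'⟩ := hQc'
  have hN : IntegralCoeffs (C • W).toAffine v := by rw [hCW]; exact nodeCurve_integral ha
  have hXv : v X ≤ 1 := (val_vcX_le hu hr).mp (by rw [eX]; exact hx)
  have hXv' : v X' ≤ 1 := (val_vcX_le hu hr).mp (by rw [eX']; exact hx')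
  have hr1 : rad (C • W) v X Y = rad W v x y := by rw [← rad_vc hu hs, eX, eY]
  have hr1' : rad (C • W) v X' Y' = rad W v x' y' := by rw [← rad_vc hu hs, eX', eY']
  have hc1 : v (gX (C • W) X Y * gY (C • W) X' Y' - gX (C • W) X' Y' * gY (C • W) X Y)
      = v (gX W x y * gY W x' y' - gX W x' y' * gY W x y) := by
    rw [← val_cross_vc hu, eX, eY, eX', eY']
  have key := node_sub_inE0' hCW ha0 ha hXY hXY' hXv hXv' (by rw [hr1]; exact hrad)
    (by rw [hr1, hr1', heq]) (by rw [hc1, hr1]; exact hcross)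
  have := inE0_vcPoint hu hr hs hN _ key
  rwa [map_sub, hQ, hQ'] at this

end Fermat.Agent.S59.H240

end
-- ===== PACK-END S59/H240/Node/Main.lean

-- ===== PACK-BEGIN S52/H297/Count.lean
section


/-!
# Point count of `y² = f(x)` over a finite field and Manin's lemma for Weierstrass curves

* `card_solutions` : `#{(x,y) ∈ F² | y² = f(x)} = #Z + 2 #SQ`.
* `hgt_maninR_eq_card` : `hgt R = 1 + #{(x,y) | y² = f(x)}`.
* `hgt_maninR_eq_card_point` : for a Weierstrass curve `W` over `F` with `a₁ = a₃ = 0`, `Δ ≠ 0`: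
  `hgt (maninR W.a₂ W.a₄ W.a₆) = Nat.card W.toAffine.Point`.
-/

set_option autoImplicit false
set_option linter.unusedSectionVars false

open Polynomial

namespace Fermat.Agent.S52.H297

section Count

variable {F : Type*} [Field F] [Fintype F] [DecidableEq F]

/-- number of square roots of `a` in a finite field of odd characteristic -/
lemma card_sqrt (hF : ringChar F ≠ 2) (a : F) :
    (Finset.univ.filter fun y : F => y ^ 2 = a).card =
      if a = 0 then 1 else if a ^ (Fintype.card F / 2) = 1 then 2 else 0 := by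
  by_cases ha : a = 0
  · subst ha
    rw [if_pos rfl]
    have : (Finset.univ.filter fun y : F => y ^ 2 = 0) = {0} := by
      ext y
      simp
    rw [this, Finset.card_singleton]
  · rw [if_neg ha]
    by_cases hsq : a ^ (Fintype.card F / 2) = 1
    · rw [if_pos hsq]
      obtain ⟨b, hb⟩ := (FiniteField.isSquare_iff hF ha).mpr hsq
      have hb0 : b ≠ 0 := by
        rintro rfl
        exact ha (by simpa using hb)
      have hne : b ≠ -b := by
        intro h
        have h2 : (2 : F) * b = 0 := by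
          have : b + b = 0 := by nth_rewrite 2 [h]; simp
          rw [two_mul]; exact this
        rcases mul_eq_zero.mp h2 with h3 | h3
        · exact two_ne_zero_of_char hF h3
        · exact hb0 h3
      have : (Finset.univ.filter fun y : F => y ^ 2 = a) = {b, -b} := by
        ext y
        simp only [Finset.mem_filter, Finset.mem_univ, true_and, Finset.mem_insert,
          Finset.mem_singleton]
        rw [hb, ← sq, sq_eq_sq_iff_eq_or_eq_neg]
      rw [this, Finset.card_pair hne]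
    · rw [if_neg hsq]
      rw [Finset.card_eq_zero, Finset.filter_eq_empty_iff]
      intro y _ hy
      apply hsq
      rw [← FiniteField.isSquare_iff hF ha]
      exact ⟨y, by rw [← hy, sq]⟩

variable (a₂ a₄ a₆ : F)

/-- The number of affine solutions of `y² = f(x)`. -/
theorem card_solutions (hF : ringChar F ≠ 2) :
    Nat.card {p : F × F // p.2 ^ 2 = (cubic a₂ a₄ a₆).eval p.1} =
      (rootSet a₂ a₄ a₆).card + 2 * (sqSet a₂ a₄ a₆).card := by
  classical
  rw [Nat.card_eq_fintype_card, Fintype.card_subtype]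
  -- count fibrewise
  have h1 : (Finset.univ.filter fun p : F × F => p.2 ^ 2 = (cubic a₂ a₄ a₆).eval p.1).card
      = ∑ c : F, (Finset.univ.filter fun y : F => y ^ 2 = (cubic a₂ a₄ a₆).eval c).card := by
    rw [Finset.card_eq_sum_card_fiberwise (f := fun p : F × F => p.1)
      (t := Finset.univ) (fun _ _ => Finset.mem_univ _)]
    refine Finset.sum_congr rfl fun c _ => ?_
    refine Finset.card_bij (fun p _ => p.2) ?_ ?_ ?_
    · intro p hp
      simp only [Finset.mem_filter, Finset.mem_univ, true_and] at hp ⊢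
      rw [← hp.2]; exact hp.1
    · intro p hp p' hp' h
      simp only [Finset.mem_filter, Finset.mem_univ, true_and] at hp hp'
      exact Prod.ext (hp.2.trans hp'.2.symm) h
    · intro y hy
      simp only [Finset.mem_filter, Finset.mem_univ, true_and] at hy
      exact ⟨(c, y), by simp [hy], rfl⟩
  rw [h1]
  simp_rw [card_sqrt hF]
  rw [← union_eq_univ (a₂ := a₂) (a₄ := a₄) (a₆ := a₆) hF]
  rw [Finset.sum_union (by
      rw [Finset.disjoint_union_right]
      exact ⟨disjoint_root_sq hF, disjoint_root_ns hF⟩),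
    Finset.sum_union (disjoint_sq_ns hF)]
  have e1 : ∑ c ∈ rootSet a₂ a₄ a₆, (if (cubic a₂ a₄ a₆).eval c = 0 then 1
      else if (cubic a₂ a₄ a₆).eval c ^ (Fintype.card F / 2) = 1 then 2 else 0)
      = (rootSet a₂ a₄ a₆).card := by
    rw [Finset.card_eq_sum_ones]
    refine Finset.sum_congr rfl fun c hc => ?_
    rw [if_pos (mem_rootSet.mp hc)]
  have e2 : ∑ c ∈ sqSet a₂ a₄ a₆, (if (cubic a₂ a₄ a₆).eval c = 0 then 1
      else if (cubic a₂ a₄ a₆).eval c ^ (Fintype.card F / 2) = 1 then 2 else 0)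
      = 2 * (sqSet a₂ a₄ a₆).card := by
    rw [Finset.card_eq_sum_ones, Finset.mul_sum]
    refine Finset.sum_congr rfl fun c hc => ?_
    have h := mem_sqSet.mp hc
    have h0 : (cubic a₂ a₄ a₆).eval c ≠ 0 := by
      intro h0
      rw [h0, zero_pow (half_card_pos hF).ne'] at h
      exact zero_ne_one h
    rw [if_neg h0, if_pos h, mul_one]
  have e3 : ∑ c ∈ nsSet a₂ a₄ a₆, (if (cubic a₂ a₄ a₆).eval c = 0 then 1
      else if (cubic a₂ a₄ a₆).eval c ^ (Fintype.card F / 2) = 1 then 2 else 0)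
      = 0 := by
    refine Finset.sum_eq_zero fun c hc => ?_
    have h := mem_nsSet.mp hc
    have h0 : (cubic a₂ a₄ a₆).eval c ≠ 0 := by
      intro h0
      rw [h0, zero_pow (half_card_pos hF).ne'] at h
      have : (1 : F) = 0 := by
        have := congrArg Neg.neg h
        simpa using this.symm
      exact one_ne_zero this
    have h1 : (cubic a₂ a₄ a₆).eval c ^ (Fintype.card F / 2) ≠ 1 := by
      rw [h]
      exact fun h' => one_ne_neg_one_of_char hF h'.symm
    rw [if_neg h0, if_neg h1]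
  rw [e1, e2, e3, add_zero]

/-- **Manin's counting lemma**: the height of `x(Frob P₀ - P₀)` is the number of points. -/
theorem hgt_maninR_eq_card (hF : ringChar F ≠ 2)
    (hsimple : ∀ c : F, (cubic a₂ a₄ a₆).eval c = 0 →
      (derivative (cubic a₂ a₄ a₆)).eval c ≠ 0) :
    hgt (maninR a₂ a₄ a₆) =
      1 + Nat.card {p : F × F // p.2 ^ 2 = (cubic a₂ a₄ a₆).eval p.1} := by
  rw [hgt_maninR hF hsimple, card_solutions a₂ a₄ a₆ hF, add_assoc]

end Count

section Weierstrass

variable {F : Type*} [Field F] [Fintype F] [DecidableEq F]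

lemma eval_cubic (a₂ a₄ a₆ x : F) :
    (cubic a₂ a₄ a₆).eval x = x ^ 3 + a₂ * x ^ 2 + a₄ * x + a₆ := by
  simp [cubic]

lemma eval_derivative_cubic (a₂ a₄ a₆ x : F) :
    (derivative (cubic a₂ a₄ a₆)).eval x = 3 * x ^ 2 + 2 * a₂ * x + a₄ := by
  simp [cubic]
  ring

/-- points of a Weierstrass curve with `a₁ = a₃ = 0`, `Δ ≠ 0`, are `O` and the solutions of
`y² = f(x)` -/
noncomputable def pointEquiv (W : WeierstrassCurve F) (h₁ : W.a₁ = 0) (h₃ : W.a₃ = 0)
    (hΔ : W.Δ ≠ 0) :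
    W.toAffine.Point ≃ Option {p : F × F // p.2 ^ 2 = (cubic W.a₂ W.a₄ W.a₆).eval p.1} where
  toFun P := match P with
    | .zero => none
    | .some x y h => some ⟨(x, y), by
        have := (WeierstrassCurve.Affine.equation_iff x y).mp h.1
        rw [eval_cubic]
        simpa [h₁, h₃] using this⟩
  invFun o := match o with
    | none => .zero
    | some p => .some p.1.1 p.1.2 (by
        rw [← WeierstrassCurve.Affine.equation_iff_nonsingular_of_Δ_ne_zero (W := W.toAffine) hΔ,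
          WeierstrassCurve.Affine.equation_iff]
        have := p.2
        rw [eval_cubic] at this
        simpa [h₁, h₃] using this)
  left_inv P := by
    cases P <;> rfl
  right_inv o := by
    cases o <;> rfl

lemma simple_roots_of_Δ_ne_zero (W : WeierstrassCurve F) (h₁ : W.a₁ = 0) (h₃ : W.a₃ = 0)
    (hΔ : W.Δ ≠ 0) (c : F) (hc : (cubic W.a₂ W.a₄ W.a₆).eval c = 0) :
    (derivative (cubic W.a₂ W.a₄ W.a₆)).eval c ≠ 0 := by
  have heq : W.toAffine.Equation c 0 := by
    rw [WeierstrassCurve.Affine.equation_iff]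
    rw [eval_cubic] at hc
    simp [h₁, h₃, hc]
  have hns := (WeierstrassCurve.Affine.equation_iff_nonsingular_of_Δ_ne_zero
    (W := W.toAffine) hΔ).mp heq
  rw [WeierstrassCurve.Affine.nonsingular_iff] at hns
  rcases hns.2 with h | h
  · rw [eval_derivative_cubic]
    intro h0
    apply h
    simp [h₁, h0]
  · exfalso
    apply h
    simp [h₁, h₃]

/-- **Manin's counting lemma for Weierstrass curves** `y² = x³ + a₂x² + a₄x + a₆` over a finite
field of odd characteristic. -/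
theorem hgt_maninR_eq_card_point (hF : ringChar F ≠ 2) (W : WeierstrassCurve F)
    (h₁ : W.a₁ = 0) (h₃ : W.a₃ = 0) (hΔ : W.Δ ≠ 0) :
    hgt (maninR W.a₂ W.a₄ W.a₆) = Nat.card W.toAffine.Point := by
  rw [hgt_maninR_eq_card W.a₂ W.a₄ W.a₆ hF (simple_roots_of_Δ_ne_zero W h₁ h₃ hΔ),
    Nat.card_congr (pointEquiv W h₁ h₃ hΔ)]
  rw [Nat.card_eq_fintype_card, Nat.card_eq_fintype_card, Fintype.card_option, add_comm]

end Weierstrass

end Fermat.Agent.S52.H297

end
-- ===== PACK-END S52/H297/Count.lean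

-- ===== PACK-BEGIN Lib/Frob/A2/H720/Parallelogram.lean
section




/-!
# S52 / piece A2a (helper720): the EXACT parallelogram law for degree heights

Setting: `F` a field, `W` an elliptic curve over `F`, `ι : F[X] →+* L` an injective ring
homomorphism into a field `L` (e.g. `L = RatFunc F`, or the function field of `W`, with
`ι X = x`).  Points are points of the base change `WL = W.map (ι.comp C)` over `L`.

* `XRep ι P n d` : the coprime pair `(n, d)` of polynomials represents the `x`-coordinate of `P`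
  (`x(P) = ι n / ι d`, resp. `d = 0` for `P = O`).
* `ht n d = max (deg n) (deg d)` is the (degree) height; it only depends on `P` (`XRep.ht_eq`).
* `parallelogram` : if `P`, `Q`, `P + Q`, `P - Q` all have representatives then
  `h(P + Q) + h(P - Q) = 2 h(P) + 2 h(Q)` EXACTLY.
-/

set_option autoImplicit false

open Polynomial

namespace Fermat.Agent.Lib.Frob.A2.H720

open WeierstrassCurve WeierstrassCurve.Affine

variable {F : Type*} [Field F] {L : Type*} [Field L]

/-- The base change of `W` along `F → F[X] → L`. -/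
noncomputable abbrev baseCurve (W : WeierstrassCurve F) (ι : F[X] →+* L) : Affine L :=
  W.map (ι.comp (C : F →+* F[X]))

variable {W : WeierstrassCurve F} {ι : F[X] →+* L}

/-- The coprime pair `(n, d)` represents the `x`-coordinate of the point `P`. -/
def XRep (ι : F[X] →+* L) (P : (baseCurve W ι).Point) (n d : F[X]) : Prop :=
  IsCoprime n d ∧ P.xRep 0 * ι d = P.xRep 1 * ι n

lemma XRep.exists_smul (hι : Function.Injective ι) {P : (baseCurve W ι).Point} {n d : F[X]}
    (h : XRep ι P n d) : ∃ c : L, c ≠ 0 ∧ ι n = c * P.xRep 0 ∧ ι d = c * P.xRep 1 := by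
  obtain ⟨hc, hx⟩ := h
  rcases P with _ | ⟨x, y, hxy⟩
  · simp only [Point.xRep, Matrix.cons_val_zero, Matrix.cons_val_one, one_mul,
      zero_mul] at hx
    have hd : d = 0 := hι (by rw [hx, map_zero])
    have hn : n ≠ 0 := by
      rintro rfl
      exact not_isUnit_zero (hc.isUnit_of_dvd' (dvd_refl (0 : F[X])) (hd ▸ dvd_refl (0 : F[X])))
    refine ⟨ι n, (map_ne_zero_iff ι hι).mpr hn, ?_, ?_⟩
    · simp [Point.xRep]
    · simp [hd, Point.xRep]
  · simp only [Point.xRep, Matrix.cons_val_zero, Matrix.cons_val_one, one_mul] at hx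
    have hd : d ≠ 0 := by
      rintro rfl
      rw [map_zero, mul_zero] at hx
      have hn : n = 0 := hι (by rw [← hx, map_zero])
      exact not_isUnit_zero (hc.isUnit_of_dvd' (hn ▸ dvd_refl (0 : F[X])) (dvd_refl (0 : F[X])))
    refine ⟨ι d, (map_ne_zero_iff ι hι).mpr hd, ?_, ?_⟩
    · simp [Point.xRep, ← hx, mul_comm]
    · simp [Point.xRep]

/-- The image under `ι` of the Gauss vector of two representatives is a nonzero multiple of
`sym2x`. -/
lemma XRep.gaussVec_eq (hι : Function.Injective ι) {P Q : (baseCurve W ι).Point}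
    {n₁ d₁ n₂ d₂ : F[X]} (hP : XRep ι P n₁ d₁) (hQ : XRep ι Q n₂ d₂) :
    ∃ c : L, c ≠ 0 ∧ (fun i => ι (gaussVec n₁ d₁ n₂ d₂ i)) = c • P.sym2x Q := by
  obtain ⟨c₁, hc₁, hn₁, hd₁⟩ := hP.exists_smul hι
  obtain ⟨c₂, hc₂, hn₂, hd₂⟩ := hQ.exists_smul hι
  refine ⟨c₁ * c₂, mul_ne_zero hc₁ hc₂, ?_⟩
  funext i
  fin_cases i
  · simp only [gaussVec, Point.sym2x, Fin.zero_eta, Matrix.cons_val_zero, map_mul, hn₁, hn₂,
      Pi.smul_apply, smul_eq_mul]
    ring
  · simp only [gaussVec, Point.sym2x, Fin.mk_one, Matrix.cons_val_one, Matrix.cons_val_zero,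
      map_mul, map_add, hn₁, hn₂, hd₁, hd₂, Pi.smul_apply, smul_eq_mul]
    ring
  · simp only [gaussVec, Point.sym2x, Fin.reduceFinMk, Matrix.cons_val, map_mul, hd₁, hd₂,
      Pi.smul_apply, smul_eq_mul]
    ring

/-- Naturality of `asm` under `ι`. -/
lemma map_asm (W : WeierstrassCurve F) (ι : F[X] →+* L) (v : Fin 3 → F[X]) :
    (fun i => ι (asm W v i)) = asmVec (baseCurve W ι) (fun i => ι (v i)) := by
  funext i
  rw [asm, asmVec, baseCurve, addSubMap_map, MvPolynomial.eval_map, MvPolynomial.aeval_def,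
    MvPolynomial.hom_eval₂]
  rfl

variable [DecidableEq L] [W.IsElliptic]

/-- **Exact parallelogram law** for the degree height. -/
theorem parallelogram (hι : Function.Injective ι) {P Q : (baseCurve W ι).Point}
    {n₁ d₁ n₂ d₂ n₃ d₃ n₄ d₄ : F[X]} (hP : XRep ι P n₁ d₁) (hQ : XRep ι Q n₂ d₂)
    (hadd : XRep ι (P + Q) n₃ d₃) (hsub : XRep ι (P - Q) n₄ d₄) :
    ht n₃ d₃ + ht n₄ d₄ = 2 * (ht n₁ d₁ + ht n₂ d₂) := by
  set v := gaussVec n₁ d₁ n₂ d₂ with hv
  set w := gaussVec n₃ d₃ n₄ d₄ with hw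
  have hvp : IsPrim v := isPrim_gaussVec hP.1 hQ.1
  have hwp : IsPrim w := isPrim_gaussVec hadd.1 hsub.1
  have hap : IsPrim (asm W v) := isPrim_asm W hvp
  obtain ⟨c, hc, hcv⟩ := hP.gaussVec_eq hι hQ
  obtain ⟨c', hc', hcw⟩ := hadd.gaussVec_eq hι hsub
  obtain ⟨e, he, hev⟩ := asmVec_sym2x P Q
  -- `ι (asm W v) = c² e • sym2x (P+Q) (P-Q)` and `ι w = c' • sym2x (P+Q) (P-Q)`
  have h1 : (fun i => ι (asm W v i)) = (c ^ 2 * e) • (P + Q).sym2x (P - Q) := by
    rw [map_asm, hcv, asmVec_smul, hev, smul_smul]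
  have hminor : ∀ i j, asm W v i * w j = asm W v j * w i := by
    intro i j
    apply hι
    have a1 := congrFun h1 i
    have a2 := congrFun h1 j
    have b1 := congrFun hcw i
    have b2 := congrFun hcw j
    simp only [Pi.smul_apply, smul_eq_mul] at a1 a2 b1 b2
    rw [map_mul, map_mul, a1, a2, b1, b2]
    ring
  have := maxDeg_eq_of_minors hap hwp hminor
  rw [maxDeg_asm, hw, hv, maxDeg_gaussVec hadd.1 hsub.1, maxDeg_gaussVec hP.1 hQ.1] at this
  exact this

omit [DecidableEq L] [W.IsElliptic] in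
/-- The height does not depend on the representative. -/
theorem XRep.ht_eq (hι : Function.Injective ι) {P : (baseCurve W ι).Point} {n d n' d' : F[X]}
    (h : XRep ι P n d) (h' : XRep ι P n' d') : ht n d = ht n' d' := by
  obtain ⟨c, hc, hn, hd⟩ := h.exists_smul hι
  obtain ⟨c', hc', hn', hd'⟩ := h'.exists_smul hι
  have hminor : n * d' = n' * d := by
    apply hι
    rw [map_mul, map_mul, hn, hd', hn', hd]
    ring
  -- the pairs `![n, d]` and `![n', d']` are primitive and proportional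
  have hp : IsPrim ![n, d] := fun e he => h.1.isUnit_of_dvd' (he 0) (he 1)
  have hp' : IsPrim ![n', d'] := fun e he => h'.1.isUnit_of_dvd' (he 0) (he 1)
  have hm : ∀ i j, (![n, d] : Fin 2 → F[X]) i * (![n', d'] : Fin 2 → F[X]) j
      = (![n, d] : Fin 2 → F[X]) j * (![n', d'] : Fin 2 → F[X]) i := by
    intro i j
    fin_cases i <;> fin_cases j
    · rfl
    · simpa using hminor.trans (mul_comm _ _)
    · simpa using (mul_comm _ _).trans hminor.symm
    · rfl
  obtain ⟨u, hu⟩ := exists_unit_mul_of_minors hp hp' hm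
  have e0 := hu 0
  have e1 := hu 1
  simp only [Matrix.cons_val_zero, Matrix.cons_val_one] at e0 e1
  rw [ht, ht, e0, e1, natDegree_unit_mul, natDegree_unit_mul]

end Fermat.Agent.Lib.Frob.A2.H720

end
-- ===== PACK-END Lib/Frob/A2/H720/Parallelogram.lean

-- ===== PACK-BEGIN S52/H297/MGroup.lean
section



/-!
# The group `M` of "anti-invariant" points and its exact height

`F` a field, `W : y² = x³ + a₂x² + a₄x + a₆` over `F` (`a₁ = a₃ = 0`), `K` a field over `F`
with an `F`-embedding `ι : F(X) → K` and an element `y` with `y² = f(X)`.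

`M = {O} ∪ {(ι u, y · ι Y) : u, Y ∈ F(X)} ⊆ W(K)` is a subgroup, every point of `M` has an
`x`-coordinate in `ι (F(X))`, the height `ptHt P = hgt u` satisfies the exact parallelogram law
on `M` (helper720's theorem).
-/

set_option autoImplicit false

open Polynomial WeierstrassCurve
open scoped WeierstrassCurve.Affine

namespace Fermat.Agent.S52.H297

variable {F : Type*} [Field F] (W : WeierstrassCurve F)
variable {K : Type*} [Field K] [Algebra F K]
variable (ι : RatFunc F →ₐ[F] K) (y : K)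

/-- Hypotheses: `a₁ = a₃ = 0` and `y² = f(X)` in `K`. -/
structure TwistSetup : Prop where
  a₁ : W.a₁ = 0
  a₃ : W.a₃ = 0
  hy : y ^ 2 = ι (algebraMap F[X] (RatFunc F) (cubic W.a₂ W.a₄ W.a₆))

/-- membership in `M` -/
def InM : (W⁄K).Point → Prop
  | .zero => True
  | .some x v _ => ∃ u Y : RatFunc F, x = ι u ∧ v = y * ι Y

lemma inM_zero : InM W ι y 0 := trivial

lemma inM_some {x v : K} {h : (W⁄K).Nonsingular x v} :
    InM W ι y (.some x v h) ↔ ∃ u Y : RatFunc F, x = ι u ∧ v = y * ι Y := Iff.rfl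

variable {W ι y}

lemma TwistSetup.a₁K (hs : TwistSetup W ι y) : (W⁄K).a₁ = 0 := by
  show algebraMap F K W.a₁ = 0
  rw [hs.a₁, map_zero]

lemma TwistSetup.a₃K (hs : TwistSetup W ι y) : (W⁄K).a₃ = 0 := by
  show algebraMap F K W.a₃ = 0
  rw [hs.a₃, map_zero]

lemma a₂K : (W⁄K).a₂ = ι (RatFunc.C W.a₂) := by
  show algebraMap F K W.a₂ = _
  rw [← RatFunc.algebraMap_eq_C, AlgHom.commutes]

lemma a₄K : (W⁄K).a₄ = ι (RatFunc.C W.a₄) := by
  show algebraMap F K W.a₄ = _
  rw [← RatFunc.algebraMap_eq_C, AlgHom.commutes]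

lemma a₆K : (W⁄K).a₆ = ι (RatFunc.C W.a₆) := by
  show algebraMap F K W.a₆ = _
  rw [← RatFunc.algebraMap_eq_C, AlgHom.commutes]

lemma TwistSetup.negY (hs : TwistSetup W ι y) (x v : K) : (W⁄K).negY x v = -v := by
  simp only [Affine.negY, hs.a₁K, hs.a₃K]
  ring

/-- the cubic as a rational function -/
noncomputable def fRat (W : WeierstrassCurve F) : RatFunc F :=
  RatFunc.X ^ 3 + RatFunc.C W.a₂ * RatFunc.X ^ 2 + RatFunc.C W.a₄ * RatFunc.X + RatFunc.C W.a₆

lemma fRat_eq (W : WeierstrassCurve F) :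
    algebraMap F[X] (RatFunc F) (cubic W.a₂ W.a₄ W.a₆) = fRat W := by
  simp only [cubic, fRat, map_add, map_mul, map_pow, RatFunc.algebraMap_X, RatFunc.algebraMap_C]

lemma TwistSetup.hy' (hs : TwistSetup W ι y) : y ^ 2 = ι (fRat W) := by
  rw [hs.hy, fRat_eq]

lemma inM_neg (hs : TwistSetup W ι y) {P : (W⁄K).Point} (hP : InM W ι y P) :
    InM W ι y (-P) := by
  rcases P with _ | ⟨x, v, h⟩
  · exact trivial
  · obtain ⟨u, Y, hx, hv⟩ := hP
    refine ⟨u, -Y, hx, ?_⟩
    show (W⁄K).negY x v = y * ι (-Y)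
    rw [hs.negY, hv, map_neg]
    ring

variable [DecidableEq K]

/-- the slope of the chord/tangent through two points of `M` lies in `y · ι(F(X))`. -/
lemma exists_slope (hs : TwistSetup W ι y) {x₁ x₂ v₁ v₂ : K}
    (h₁ : (W⁄K).Nonsingular x₁ v₁) (h₂ : (W⁄K).Nonsingular x₂ v₂)
    (hP : InM W ι y (.some x₁ v₁ h₁)) (hQ : InM W ι y (.some x₂ v₂ h₂))
    (hxy : ¬(x₁ = x₂ ∧ v₁ = (W⁄K).negY x₂ v₂)) :
    ∃ Λ : RatFunc F, (W⁄K).slope x₁ x₂ v₁ v₂ = y * ι Λ := by
  obtain ⟨u₁, Y₁, hx₁, hv₁⟩ := hP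
  obtain ⟨u₂, Y₂, hx₂, hv₂⟩ := hQ
  by_cases hx : x₁ = x₂
  · have hv : v₁ ≠ (W⁄K).negY x₂ v₂ := fun h => hxy ⟨hx, h⟩
    have hvv : v₁ = v₂ := Affine.Y_eq_of_Y_ne h₁.1 h₂.1 hx hv
    rw [Affine.slope_of_Y_ne hx hv, hs.negY, hs.a₁K, a₂K (ι := ι), a₄K (ι := ι)]
    rw [hs.negY, ← hvv] at hv
    have h2v : v₁ - -v₁ ≠ 0 := fun h => hv (by linear_combination h)
    have hv0 : v₁ ≠ 0 := by
      rintro h0
      apply h2v
      rw [h0]; ring
    have hy0 : y ≠ 0 := by
      rintro h0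
      apply hv0
      rw [hv₁, h0, zero_mul]
    have hY0 : ι Y₁ ≠ 0 := by
      rintro h0
      apply hv0
      rw [hv₁, h0, mul_zero]
    have h2 : (2 : K) ≠ 0 := by
      rintro h0
      apply h2v
      linear_combination v₁ * h0
    refine ⟨(3 * u₁ ^ 2 + 2 * RatFunc.C W.a₂ * u₁ + RatFunc.C W.a₄) / (2 * fRat W * Y₁), ?_⟩
    have hf : ι (fRat W) = y ^ 2 := hs.hy'.symm
    simp only [map_div₀, map_add, map_mul, map_pow, map_ofNat, hf, ← hx₁]
    rw [hv₁]
    have hden : y * ι Y₁ - -(y * ι Y₁) = 2 * y * ι Y₁ := by ring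
    rw [hden, zero_mul, sub_zero]
    have hd1 : 2 * y * ι Y₁ ≠ 0 := mul_ne_zero (mul_ne_zero h2 hy0) hY0
    have hd2 : 2 * y ^ 2 * ι Y₁ ≠ 0 := mul_ne_zero (mul_ne_zero h2 (pow_ne_zero 2 hy0)) hY0
    rw [mul_div_assoc', div_eq_div_iff hd1 hd2]
    ring
  · rw [Affine.slope_of_X_ne hx]
    refine ⟨(Y₁ - Y₂) / (u₁ - u₂), ?_⟩
    rw [hx₁, hx₂, hv₁, hv₂, map_div₀, map_sub, map_sub]
    ring

lemma inM_add (hs : TwistSetup W ι y) {P Q : (W⁄K).Point} (hP : InM W ι y P)
    (hQ : InM W ι y Q) : InM W ι y (P + Q) := by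
  rcases P with _ | ⟨x₁, v₁, h₁⟩
  · have : (Affine.Point.zero : (W⁄K).Point) + Q = Q := zero_add Q
    rw [this]; exact hQ
  rcases Q with _ | ⟨x₂, v₂, h₂⟩
  · have : Affine.Point.some x₁ v₁ h₁ + (Affine.Point.zero : (W⁄K).Point)
        = Affine.Point.some x₁ v₁ h₁ := add_zero _
    rw [this]; exact hP
  by_cases hxy : x₁ = x₂ ∧ v₁ = (W⁄K).negY x₂ v₂
  · rw [Affine.Point.add_of_Y_eq hxy.1 hxy.2]
    exact trivial
  · obtain ⟨Λ, hΛ⟩ := exists_slope hs h₁ h₂ hP hQ hxy
    rw [Affine.Point.add_some hxy]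
    obtain ⟨u₁, Y₁, hx₁, hv₁⟩ := hP
    obtain ⟨u₂, Y₂, hx₂, hv₂⟩ := hQ
    have hX : (W⁄K).addX x₁ x₂ ((W⁄K).slope x₁ x₂ v₁ v₂)
        = ι (fRat W * Λ ^ 2 - RatFunc.C W.a₂ - u₁ - u₂) := by
      have hf : ι (fRat W) = y ^ 2 := hs.hy'.symm
      rw [Affine.addX, hΛ, hs.a₁K, a₂K (ι := ι)]
      simp only [map_sub, map_mul, map_pow, hf, hx₁, hx₂]
      ring
    refine ⟨fRat W * Λ ^ 2 - RatFunc.C W.a₂ - u₁ - u₂,
      -(Λ * (fRat W * Λ ^ 2 - RatFunc.C W.a₂ - u₁ - u₂ - u₁) + Y₁), hX, ?_⟩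
    rw [Affine.addY, hs.negY, Affine.negAddY, hX, hΛ, hx₁, hv₁]
    simp only [map_neg, map_add, map_mul, map_sub]
    ring

/-- The subgroup `M` of `W(K)`. -/
def Msub (hs : TwistSetup W ι y) : AddSubgroup (W⁄K).Point where
  carrier := {P | InM W ι y P}
  zero_mem' := trivial
  add_mem' := fun hP hQ => inM_add hs hP hQ
  neg_mem' := fun hP => inM_neg hs hP

lemma mem_Msub (hs : TwistSetup W ι y) {P : (W⁄K).Point} : P ∈ Msub hs ↔ InM W ι y P := Iff.rfl

end Fermat.Agent.S52.H297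

end
-- ===== PACK-END S52/H297/MGroup.lean

-- ===== PACK-BEGIN Lib/Frob/Glue.lean
section


/-!
# `FrobRelation ⇐ FrobRelationFin ∧ ReductionData`  (row-lead glue, no `sorry`)
-/

set_option autoImplicit false

open WeierstrassCurve WeierstrassCurve.Affine WeierstrassCurve.Affine.Point

namespace Fermat.Agent.Lib.Frob

theorem reductionMod_Δ_ne_zero (W : WeierstrassCurve ℤ) (ℓ : ℕ) (h : W.IsGoodPrimeFor ℓ) :
    (W.reductionMod ℓ).Δ ≠ 0 := by
  unfold WeierstrassCurve.reductionMod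
  rw [WeierstrassCurve.map_Δ]
  intro h0
  apply h
  have := (ZMod.intCast_zmod_eq_zero_iff_dvd W.Δ ℓ).mp (by simpa using h0)
  exact this

theorem coe_galois_smul_torsion (W : WeierstrassCurve ℤ) (n : ℕ) (σ : Qb ≃ₐ[ℚ] Qb)
    (P : Submodule.torsionBy ℤ (Pts W) n) :
    ((σ • P : Submodule.torsionBy ℤ (Pts W) n) : Pts W) = σ • (P : Pts W) := rfl

theorem frobRelation_of_parts (hFin : FrobRelationFin) (hRed : ReductionData) : FrobRelation := by
  intro W ℓ hℓ h5 hgood A σ hA hσ n hn hℓn P hP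
  have : Fact ℓ.Prime := ⟨hℓ⟩
  obtain ⟨k, hk1, hk2, hk3, red, hinj, hcomm⟩ := hRed W ℓ hgood A σ hA hσ n hn hℓn
  have hmem : P ∈ Submodule.torsionBy ℤ (Pts W) n := by
    rw [Submodule.mem_torsionBy_iff]
    rw [← hP]
    exact (natCast_zsmul P n)
  set P' : Submodule.torsionBy ℤ (Pts W) n := ⟨P, hmem⟩ with hP'
  have key : σ • σ • P' - W.apOfModel ℓ • σ • P' + (ℓ : ℤ) • P' = 0 := by
    apply hinj
    rw [_root_.map_zero, map_add, map_sub, map_zsmul, map_zsmul, hcomm, hcomm]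
    exact hFin ℓ h5 (W.reductionMod ℓ) (reductionMod_Δ_ne_zero W ℓ hgood) k (red P')
  have h2 := congrArg Subtype.val key
  simp only [Submodule.coe_add, Submodule.coe_sub, Submodule.coe_smul_of_tower, 
    coe_galois_smul_torsion, ZeroMemClass.coe_zero] at h2
  exact h2

end Fermat.Agent.Lib.Frob

end
-- ===== PACK-END Lib/Frob/Glue.lean

-- ===== PACK-BEGIN Lib/Cheb/H221/CycAlg.lean
section






/-!
# CYC, algebraic part (helper221)

Setting of `Spec.CycStatement`: `L/ℚ` Galois, `ζ ∈ L` a primitive `m`-th root of unity,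
`g ∈ Gal(L/ℚ)` such that `⟨g⟩` acts faithfully on `ζ`.
-/

set_option autoImplicit false

open NumberField

namespace Fermat.Agent.Lib.Cheb.H221

set_option linter.unusedSectionVars false

section basic

variable {L : Type} [Field L] [NumberField L] [IsGalois ℚ L]

lemma modEq_of_pow_eq_pow {m : ℕ} [NeZero m] {ζ : L} (hζ : IsPrimitiveRoot ζ m) {i j : ℕ}
    (h : ζ ^ i = ζ ^ j) : i ≡ j [MOD m] := by
  have ho := hζ.eq_orderOf
  have h1 : ζ ^ (i % m) = ζ ^ (j % m) := by
    rw [ho, pow_mod_orderOf, pow_mod_orderOf, h]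
  exact hζ.pow_inj (Nat.mod_lt _ (NeZero.pos m)) (Nat.mod_lt _ (NeZero.pos m)) h1

lemma card_quot_under_eq {p : ℕ} (hp : p.Prime) {P : Ideal (𝓞 L)} (hP : P.IsPrime)
    (hpP : (p : 𝓞 L) ∈ P) : Nat.card (ℤ ⧸ P.under ℤ) = p := by
  have : Fact p.Prime := ⟨hp⟩
  have hmax := Int.ideal_span_isMaximal_of_prime p
  have hle : Ideal.span {(p : ℤ)} ≤ P.under ℤ := by
    rw [Ideal.span_le, Set.singleton_subset_iff]
    change (p : ℤ) ∈ Ideal.comap (algebraMap ℤ (𝓞 L)) P
    rw [Ideal.mem_comap]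
    simpa using hpP
  have hne : P.under ℤ ≠ ⊤ := (Ideal.IsPrime.under ℤ P).ne_top
  have heq : Ideal.span {(p : ℤ)} = P.under ℤ := hmax.eq_of_le hne hle
  rw [← heq, ← Submodule.cardQuot_apply, ← Ideal.absNorm_apply, Ideal.absNorm_span_singleton]
  simp

lemma natCast_notMem_of_not_dvd {p m : ℕ} (hp : p.Prime) (hpm : ¬ p ∣ m) {P : Ideal (𝓞 L)}
    (hP : P.IsPrime) (hpP : (p : 𝓞 L) ∈ P) : (m : 𝓞 L) ∉ P := by
  intro hm
  have hcop : Nat.Coprime p m := (Nat.Prime.coprime_iff_not_dvd hp).mpr hpm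
  have h1 : ((p : ℤ) * Nat.gcdA p m + (m : ℤ) * Nat.gcdB p m : ℤ) = 1 := by
    have := Nat.gcd_eq_gcd_ab p m
    rw [hcop] at this
    simpa using this.symm
  have h2 : ((1 : ℤ) : 𝓞 L) ∈ P := by
    rw [← h1]
    push_cast
    exact P.add_mem (P.mul_mem_right _ hpP) (P.mul_mem_right _ hm)
  exact hP.ne_top ((Ideal.eq_top_iff_one P).mpr (by simpa using h2))

variable {m : ℕ} [NeZero m] {ζ : L} (hζ : IsPrimitiveRoot ζ m)

include hζ in
/-- A Frobenius at a prime above `p ∤ m` raises `ζ` to the `p`-th power. -/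
lemma frob_apply_zeta {p : ℕ} (hp : p.Prime) (hpm : ¬ p ∣ m) {P : Ideal (𝓞 L)}
    (hP : P.IsPrime) (hpP : (p : 𝓞 L) ∈ P) {τ : L ≃ₐ[ℚ] L} (hτ : IsArithFrobAt ℤ τ P) :
    τ ζ = ζ ^ p := by
  have h1 : hζ.toInteger ^ m = 1 := hζ.toInteger_isPrimitiveRoot.pow_eq_one
  have h2 := AlgHom.IsArithFrobAt.apply_of_pow_eq_one hτ h1
    (natCast_notMem_of_not_dvd hp hpm hP hpP)
  rw [card_quot_under_eq hp hP hpP] at h2
  have h3 := congrArg (fun x : 𝓞 L => (x : L)) h2
  exact h3

/-- The cyclotomic character of a Frobenius at a prime above `p ∤ m` is `p mod m`. -/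
lemma autToPow_frob {p : ℕ} (hp : p.Prime) (hpm : ¬ p ∣ m) {P : Ideal (𝓞 L)}
    (hP : P.IsPrime) (hpP : (p : 𝓞 L) ∈ P) {τ : L ≃ₐ[ℚ] L} (hτ : IsArithFrobAt ℤ τ P) :
    ((hζ.autToPow ℚ τ : (ZMod m)ˣ) : ZMod m) = (p : ZMod m) := by
  have h1 := frob_apply_zeta hζ hp hpm hP hpP hτ
  have h2 := hζ.autToPow_spec ℚ τ
  rw [h1] at h2
  have h3 := modEq_of_pow_eq_pow hζ h2
  have := (ZMod.natCast_eq_natCast_iff _ _ m).mpr h3
  simpa using this

include hζ in
lemma apply_zeta_of_autToPow_eq_one {σ : L ≃ₐ[ℚ] L} (h : hζ.autToPow ℚ σ = 1) : σ ζ = ζ := by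
  have h2 := hζ.autToPow_spec ℚ σ
  rw [h] at h2
  rw [← h2]
  have ho := hζ.eq_orderOf
  have h3 : ((1 : (ZMod m)ˣ) : ZMod m).val = 1 % m := by
    rw [Units.val_one, ZMod.val_one_eq_one_mod]
  rw [h3]
  conv_lhs => rw [ho, pow_mod_orderOf]
  exact pow_one ζ

lemma autToPow_eq_one_of_apply_zeta {σ : L ≃ₐ[ℚ] L} (h : σ ζ = ζ) : hζ.autToPow ℚ σ = 1 := by
  have h2 := hζ.autToPow_spec ℚ σ
  rw [h] at h2
  have h3 : (hζ.autToPow ℚ σ : ZMod m).val ≡ 1 [MOD m] := by
    apply modEq_of_pow_eq_pow hζ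
    rw [h2, pow_one]
  have := (ZMod.natCast_eq_natCast_iff _ _ m).mpr h3
  ext
  simpa using this

variable {g : L ≃ₐ[ℚ] L} (hg : ∀ k : ℕ, (g ^ k) ζ = ζ → g ^ k = 1)

include hg in
lemma eq_one_of_mem_zpowers {τ : L ≃ₐ[ℚ] L} (hτ : τ ∈ Subgroup.zpowers g)
    (h : hζ.autToPow ℚ τ = 1) : τ = 1 := by
  rw [← mem_powers_iff_mem_zpowers] at hτ
  obtain ⟨k, rfl⟩ := hτ
  exact hg k (apply_zeta_of_autToPow_eq_one hζ h)

include hg in
lemma eq_of_mem_zpowers {τ : L ≃ₐ[ℚ] L} (hτ : τ ∈ Subgroup.zpowers g)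
    (h : hζ.autToPow ℚ τ = hζ.autToPow ℚ g) : τ = g := by
  have h1 : τ * g⁻¹ ∈ Subgroup.zpowers g :=
    Subgroup.mul_mem _ hτ (Subgroup.inv_mem _ (Subgroup.mem_zpowers g))
  have h2 : hζ.autToPow ℚ (τ * g⁻¹) = 1 := by
    rw [map_mul, map_inv, h, mul_inv_cancel]
  have := eq_one_of_mem_zpowers hζ hg h1 h2
  exact mul_inv_eq_one.mp this

include hg in
lemma orderOf_autToPow : orderOf (hζ.autToPow ℚ g) = orderOf g := by
  rw [orderOf_eq_orderOf_iff]
  intro n
  rw [← map_pow]
  constructor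
  · intro h
    exact hg n (apply_zeta_of_autToPow_eq_one hζ h)
  · intro h
    rw [h, map_one]

end basic

section weight

variable (L : Type) [Field L] [NumberField L] [IsGalois ℚ L]

lemma primesLe_finite (H : Subgroup (L ≃ₐ[ℚ] L)) {p : ℕ} (hp : p.Prime) :
    (Spec.primesLe L H p).Finite :=
  (H341.primesAbove_finite L hp).subset (fun _ hP => ⟨hP.1, hP.2.1⟩)

variable {L}

lemma exists_of_decompWeight_ne_zero {H : Subgroup (L ≃ₐ[ℚ] L)} {p : ℕ}
    (h : Spec.decompWeight L H p ≠ 0) : ∃ P, P ∈ Spec.primesLe L H p := by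
  by_contra hcon
  push Not at hcon
  apply h
  unfold Spec.decompWeight
  have : IsEmpty (Spec.primesLe L H p) := ⟨fun P => hcon P.1 P.2⟩
  exact finsum_of_isEmpty _

lemma decompWeight_ne_zero {H : Subgroup (L ≃ₐ[ℚ] L)} {p : ℕ} (hp : p.Prime)
    {P : Ideal (𝓞 L)} (hP : P ∈ Spec.primesLe L H p) : Spec.decompWeight L H p ≠ 0 := by
  unfold Spec.decompWeight
  have hfin : Finite (Spec.primesLe L H p) := (primesLe_finite L H hp).to_subtype
  have : Fintype (Spec.primesLe L H p) := Fintype.ofFinite _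
  rw [finsum_eq_sum_of_fintype]
  intro h0
  rw [Finset.sum_eq_zero_iff] at h0
  have h1 := h0 ⟨P, hP⟩ (Finset.mem_univ _)
  exact Nat.card_pos.ne' h1

lemma decompWeight_congr {H H' : Subgroup (L ≃ₐ[ℚ] L)} {p : ℕ}
    (h : Spec.primesLe L H p = Spec.primesLe L H' p) :
    Spec.decompWeight L H p = Spec.decompWeight L H' p := by
  unfold Spec.decompWeight
  rw [finsum_set_coe_eq_finsum_mem (f := fun P : Ideal (𝓞 L) => Nat.card (Spec.decomp L P))
      (Spec.primesLe L H p),
    finsum_set_coe_eq_finsum_mem (f := fun P : Ideal (𝓞 L) => Nat.card (Spec.decomp L P))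
      (Spec.primesLe L H' p), h]

lemma decompWeight_eq_zero {H : Subgroup (L ≃ₐ[ℚ] L)} {p : ℕ}
    (h : ∀ P, P ∉ Spec.primesLe L H p) : Spec.decompWeight L H p = 0 := by
  by_contra h0
  obtain ⟨P, hP⟩ := exists_of_decompWeight_ne_zero h0
  exact h P hP

end weight

section main

variable {L : Type} [Field L] [NumberField L] [IsGalois ℚ L]
variable {m : ℕ} [NeZero m] {ζ : L} (hζ : IsPrimitiveRoot ζ m)
variable {g : L ≃ₐ[ℚ] L} (hg : ∀ k : ℕ, (g ^ k) ζ = ζ → g ^ k = 1)

/-- Frobenius data at a prime `P ∣ p` whose decomposition group lies in `⟨g⟩`. -/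
lemma exists_frob_of_mem_primesLe {B : Finset ℕ}
    (hB : ∀ p : ℕ, p.Prime → p ∉ B → ∀ P : Ideal (𝓞 L), P.IsPrime → (p : 𝓞 L) ∈ P →
        Spec.InertiaTrivial L P ∧
        ∃ τ : L ≃ₐ[ℚ] L, IsArithFrobAt ℤ τ P ∧ Spec.decomp L P = Subgroup.zpowers τ)
    {p : ℕ} (hp : p.Prime) (hpB : p ∉ B) (hpm : ¬ p ∣ m) {H : Subgroup (L ≃ₐ[ℚ] L)}
    {P : Ideal (𝓞 L)} (hP : P ∈ Spec.primesLe L H p) :
    Spec.InertiaTrivial L P ∧ ∃ τ : L ≃ₐ[ℚ] L, IsArithFrobAt ℤ τ P ∧
      Spec.decomp L P = Subgroup.zpowers τ ∧ τ ∈ H ∧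
      ((hζ.autToPow ℚ τ : (ZMod m)ˣ) : ZMod m) = (p : ZMod m) := by
  obtain ⟨hI, τ, hτ, hD⟩ := hB p hp hpB P hP.1 hP.2.1
  refine ⟨hI, τ, hτ, hD, ?_, autToPow_frob hζ hp hpm hP.1 hP.2.1 hτ⟩
  apply hP.2.2
  rw [hD]
  exact Subgroup.mem_zpowers τ

theorem cycAlg : CycAlgStatement := by
  intro hA hD hM L _ _ _ m _ ζ hζ g hg
  classical
  refine ⟨by rw [Nat.card_zpowers]; exact orderOf_autToPow hζ hg, ?_⟩
  obtain ⟨B1, hB1⟩ := hA L (Subgroup.zpowers g)
  obtain ⟨B2, hB2⟩ := hA L ⊥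
  obtain ⟨B3, hB3⟩ := hD L
  have hcard : 0 < Nat.card (Subgroup.zpowers g) := Nat.card_pos
  refine ⟨B1 ∪ B2 ∪ B3 ∪ m.primeFactors, ?_, ?_, ?_, ?_⟩
  · -- SUPP
    intro p hp hpB hc
    simp only [Finset.mem_union, not_or] at hpB
    obtain ⟨⟨⟨hp1, hp2⟩, hp3⟩, hp4⟩ := hpB
    have hpm : ¬ p ∣ m := fun h => hp4 (Nat.mem_primeFactors.mpr ⟨hp, h, NeZero.ne m⟩)
    have hw : Spec.decompWeight L (Subgroup.zpowers g) p ≠ 0 := by
      rw [← hB1 p hp hp1]
      exact Nat.mul_ne_zero hc hcard.ne'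
    obtain ⟨P, hP⟩ := exists_of_decompWeight_ne_zero hw
    obtain ⟨-, τ, -, -, hτg, hτp⟩ := exists_frob_of_mem_primesLe hζ hB3 hp hp3 hpm hP
    refine ⟨hζ.autToPow ℚ τ, ?_, hτp⟩
    obtain ⟨k, rfl⟩ := Subgroup.mem_zpowers_iff.mp hτg
    rw [map_zpow]
    exact Subgroup.zpow_mem _ (Subgroup.mem_zpowers _) k
  · -- SPLIT
    intro p hp hpB
    simp only [Finset.mem_union, not_or] at hpB
    obtain ⟨⟨⟨hp1, hp2⟩, hp3⟩, hp4⟩ := hpB
    have hpm : ¬ p ∣ m := fun h => hp4 (Nat.mem_primeFactors.mpr ⟨hp, h, NeZero.ne m⟩)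
    have h1 := hB1 p hp hp1
    have h2 := hB2 p hp hp2
    rw [Nat.card_eq_one_iff_unique.mpr ⟨inferInstance, inferInstance⟩, mul_one] at h2
    rw [Nat.card_zpowers] at h1
    split_ifs with hp1m
    · -- p ≡ 1
      have hset : Spec.primesLe L (Subgroup.zpowers g) p = Spec.primesLe L ⊥ p := by
        ext P
        constructor
        · intro hP
          obtain ⟨-, τ, -, hDP, hτg, hτp⟩ := exists_frob_of_mem_primesLe hζ hB3 hp hp3 hpm hP
          have hτ1 : τ = 1 := by
            apply eq_one_of_mem_zpowers hζ hg hτg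
            ext
            rw [hτp, hp1m]
            simp
          refine ⟨hP.1, hP.2.1, ?_⟩
          rw [hDP, hτ1]
          simp
        · intro hP
          exact ⟨hP.1, hP.2.1, hP.2.2.trans bot_le⟩
      rw [h2, ← decompWeight_congr hset, ← h1, mul_comm]
    · -- p ≢ 1
      rw [h2]
      apply decompWeight_eq_zero
      intro P hP
      obtain ⟨-, τ, -, hDP, hτg, hτp⟩ := exists_frob_of_mem_primesLe hζ hB3 hp hp3 hpm hP
      apply hp1m
      rw [← hτp]
      have : τ = 1 := by simpa using hτg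
      rw [this, map_one]
      simp
  · -- NT
    intro χ hχ
    obtain ⟨p, P, τ, hp, hpB, hP, hpP, hI, hτ, hτg⟩ :=
      hM L g (B1 ∪ B2 ∪ B3 ∪ m.primeFactors)
    simp only [Finset.mem_union, not_or] at hpB
    obtain ⟨⟨⟨hp1, hp2⟩, hp3⟩, hp4⟩ := hpB
    have hpm : ¬ p ∣ m := fun h => hp4 (Nat.mem_primeFactors.mpr ⟨hp, h, NeZero.ne m⟩)
    have hDP : Spec.decomp L P = Subgroup.zpowers g := by
      have := hP
      rw [H943.decomp_eq_zpowers hp hpP hI hτ, hτg]
    have hPle : P ∈ Spec.primesLe L (Subgroup.zpowers g) p := ⟨hP, hpP, hDP.le⟩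
    have hw := decompWeight_ne_zero hp hPle
    rw [← hB1 p hp hp1] at hw
    have hc : Spec.primeCount (fixM L g) p ≠ 0 := fun h => hw (by rw [h, zero_mul])
    -- a prime of norm `p`
    have hne : Nonempty {𝔮 : Ideal (𝓞 (fixM L g)) // 𝔮.IsPrime ∧ Ideal.absNorm 𝔮 = p} := by
      by_contra hemp
      rw [not_nonempty_iff] at hemp
      exact hc Nat.card_of_isEmpty
    obtain ⟨𝔮, -, h𝔮⟩ := hne
    refine ⟨𝔮, ?_, ?_⟩
    · rw [h𝔮]
      have hu : IsUnit (p : ZMod m) := by
        rw [ZMod.isUnit_iff_coprime]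
        exact (Nat.Prime.coprime_iff_not_dvd hp).mpr hpm
      exact (hu.map χ).ne_zero
    · rw [h𝔮]
      intro h1
      apply hχ
      have hτp := autToPow_frob hζ hp hpm hP hpP hτ
      have hgτ : g ∈ Subgroup.zpowers τ := by rw [hτg]; exact Subgroup.mem_zpowers g
      obtain ⟨k, hk⟩ := (mem_powers_iff_mem_zpowers.mpr hgτ)
      rw [← hk, map_pow, Units.val_pow_eq_pow_val, hτp, map_pow, h1, one_pow]
  · -- FIN
    intro p hp hpB hc hpa
    simp only [Finset.mem_union, not_or] at hpB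
    obtain ⟨⟨⟨hp1, hp2⟩, hp3⟩, hp4⟩ := hpB
    have hpm : ¬ p ∣ m := fun h => hp4 (Nat.mem_primeFactors.mpr ⟨hp, h, NeZero.ne m⟩)
    have hw : Spec.decompWeight L (Subgroup.zpowers g) p ≠ 0 := by
      rw [← hB1 p hp hp1]
      exact Nat.mul_ne_zero hc hcard.ne'
    obtain ⟨P, hP⟩ := exists_of_decompWeight_ne_zero hw
    obtain ⟨hI, τ, hτ, -, hτg, hτp⟩ := exists_frob_of_mem_primesLe hζ hB3 hp hp3 hpm hP
    have : τ = g := by
      apply eq_of_mem_zpowers hζ hg hτg
      ext
      rw [hτp, hpa]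
    exact ⟨P, hP.1, hP.2.1, hI, this ▸ hτ⟩

end main

end Fermat.Agent.Lib.Cheb.H221

end
-- ===== PACK-END Lib/Cheb/H221/CycAlg.lean

-- ===== PACK-BEGIN Lib/Cheb/H221/CycDeg.lean
section





/-!
# CYC, twisted prime sums: prime ideals versus rational primes (helper221)
-/

set_option autoImplicit false

open NumberField IsDedekindDomain Filter Topology

namespace Fermat.Agent.Lib.Cheb.H221

set_option linter.unusedSectionVars false

section

variable (F : Type) [Field F] [NumberField F] {m : ℕ} [NeZero m] (χ : DirichletCharacter ℂ m)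

/-- `χ(N 𝔭) N(𝔭)^(-s)` -/
noncomputable def twP (s : ℝ) (𝔭 : HeightOneSpectrum (𝓞 F)) : ℂ :=
  χ (Ideal.absNorm 𝔭.asIdeal : ZMod m) * (((Ideal.absNorm 𝔭.asIdeal : ℝ) ^ (-s) : ℝ) : ℂ)

lemma norm_twP_le (s : ℝ) (𝔭 : HeightOneSpectrum (𝓞 F)) :
    ‖twP F χ s 𝔭‖ ≤ H761.normPow F s 𝔭.asIdeal := by
  unfold twP H761.normPow
  rw [norm_mul, Complex.norm_real, Real.norm_of_nonneg (Real.rpow_nonneg (Nat.cast_nonneg _) _)]
  calc ‖χ (Ideal.absNorm 𝔭.asIdeal : ZMod m)‖ * (Ideal.absNorm 𝔭.asIdeal : ℝ) ^ (-s)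
      ≤ 1 * (Ideal.absNorm 𝔭.asIdeal : ℝ) ^ (-s) :=
        mul_le_mul_of_nonneg_right (DirichletCharacter.norm_le_one χ _)
          (Real.rpow_nonneg (Nat.cast_nonneg _) _)
    _ = _ := one_mul _

lemma summable_twP {s : ℝ} (hs : 1 < s) : Summable (twP F χ s) :=
  Summable.of_norm_bounded (H761.summable_primeSum F hs) (norm_twP_le F χ s)

lemma tsum_fibre_twP (s : ℝ) (p : Nat.Primes) :
    ∑' x : {𝔭 : H761.lowPrimes F // H761.lowNorm F 𝔭 = p}, twP F χ s x.1.1 =
      χ ((p : ℕ) : ZMod m) * (((Spec.primeCount F p : ℝ) * ((p : ℕ) : ℝ) ^ (-s) : ℝ) : ℂ) := by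
  have := H761.finite_fibre F p
  have : Fintype {𝔭 : H761.lowPrimes F // H761.lowNorm F 𝔭 = p} := Fintype.ofFinite _
  rw [tsum_fintype]
  have h : ∀ x : {𝔭 : H761.lowPrimes F // H761.lowNorm F 𝔭 = p},
      twP F χ s x.1.1 = χ ((p : ℕ) : ZMod m) * ((((p : ℕ) : ℝ) ^ (-s) : ℝ) : ℂ) := by
    intro x
    have := congrArg Subtype.val x.2
    simp only [H761.lowNorm] at this
    simp only [twP, this]
  simp only [h, Finset.sum_const, Finset.card_univ, nsmul_eq_mul, ← H761.card_fibre F p,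
    Nat.card_eq_fintype_card]
  push_cast
  ring

lemma summable_primeCount {s : ℝ} (hs : 1 < s) :
    Summable (fun p : Nat.Primes => (Spec.primeCount F p : ℝ) * ((p : ℕ) : ℝ) ^ (-s)) := by
  have hsum : Summable (fun 𝔭 : H761.lowPrimes F => H761.normPow F s 𝔭.1.asIdeal) :=
    (H761.summable_primeSum F hs).subtype _
  have hsum' : Summable (fun y : Σ p : Nat.Primes,
      {𝔭 : H761.lowPrimes F // H761.lowNorm F 𝔭 = p} => H761.normPow F s y.2.1.1.asIdeal) :=
    ((Equiv.sigmaFiberEquiv (H761.lowNorm F)).summable_iff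
      (f := fun 𝔭 : H761.lowPrimes F => H761.normPow F s 𝔭.1.asIdeal)).mpr hsum
  have := hsum'.sigma
  refine this.congr fun p => ?_
  exact H761.tsum_fibre F s p

lemma tsum_lowPrimes_twP {s : ℝ} (hs : 1 < s) :
    ∑' 𝔭 : H761.lowPrimes F, twP F χ s 𝔭.1 =
      ∑' p : Nat.Primes, χ ((p : ℕ) : ZMod m) *
        (((Spec.primeCount F p : ℝ) * ((p : ℕ) : ℝ) ^ (-s) : ℝ) : ℂ) := by
  have hsum : Summable (fun 𝔭 : H761.lowPrimes F => twP F χ s 𝔭.1) :=
    (summable_twP F χ hs).subtype _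
  have hsum' : Summable (fun y : Σ p : Nat.Primes,
      {𝔭 : H761.lowPrimes F // H761.lowNorm F 𝔭 = p} => twP F χ s y.2.1.1) :=
    ((Equiv.sigmaFiberEquiv (H761.lowNorm F)).summable_iff
      (f := fun 𝔭 : H761.lowPrimes F => twP F χ s 𝔭.1)).mpr hsum
  calc ∑' 𝔭 : H761.lowPrimes F, twP F χ s 𝔭.1
      = ∑' y : Σ p : Nat.Primes, {𝔭 : H761.lowPrimes F // H761.lowNorm F 𝔭 = p},
          twP F χ s y.2.1.1 :=
        ((Equiv.sigmaFiberEquiv (H761.lowNorm F)).tsum_eq
          (fun 𝔭 : H761.lowPrimes F => twP F χ s 𝔭.1)).symm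
    _ = ∑' p : Nat.Primes, ∑' x : {𝔭 : H761.lowPrimes F // H761.lowNorm F 𝔭 = p},
          twP F χ s x.1.1 := hsum'.tsum_sigma
    _ = _ := tsum_congr fun p => tsum_fibre_twP F χ s p

theorem twistedPrimeSum : TwistedPrimeSumStatement := by
  intro _ F _ _ m _ χ
  refine ⟨H761.highBound F, fun s hs1 _ => ⟨summable_primeCount F hs1, ?_⟩⟩
  have hsum := summable_twP F χ hs1
  have hsplit : ∑' 𝔭 : HeightOneSpectrum (𝓞 F), twP F χ s 𝔭 =
      (∑' 𝔭 : H761.lowPrimes F, twP F χ s 𝔭.1) +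
        ∑' 𝔭 : H761.highPrimes F, twP F χ s 𝔭.1 := by
    have hc : H761.highPrimes F = (H761.lowPrimes F)ᶜ := rfl
    rw [hc]
    exact ((hsum.subtype _).tsum_add_tsum_compl (hsum.subtype _)).symm
  have hhigh : ‖∑' 𝔭 : H761.highPrimes F, twP F χ s 𝔭.1‖ ≤ H761.highBound F := by
    have hs' : Summable (fun 𝔭 : H761.highPrimes F => H761.normPow F s 𝔭.1.asIdeal) :=
      (H761.summable_primeSum F hs1).subtype _
    calc ‖∑' 𝔭 : H761.highPrimes F, twP F χ s 𝔭.1‖
        ≤ ∑' 𝔭 : H761.highPrimes F, H761.normPow F s 𝔭.1.asIdeal :=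
          tsum_of_norm_bounded hs'.hasSum (fun 𝔭 => norm_twP_le F χ s 𝔭.1)
      _ ≤ _ := H761.tsum_highPrimes_le F hs1
  change ‖(∑' 𝔭 : HeightOneSpectrum (𝓞 F), twP F χ s 𝔭) - _‖ ≤ _
  rw [hsplit, tsum_lowPrimes_twP F χ hs1, add_sub_cancel_left]
  exact hhigh

end

end Fermat.Agent.Lib.Cheb.H221

end
-- ===== PACK-END Lib/Cheb/H221/CycDeg.lean

-- ===== PACK-BEGIN Lib/Frob/A2/H230/OddPts.lean
section


/-!
# The odd points of a short Weierstrass curve over its function field (helper230)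

`W` a Weierstrass curve over a field `F` with `a₁ = a₃ = 0`, `2 ≠ 0`, `Δ ≠ 0`;
`K = FF W F` its function field, `(gx, gy)` the generic point.

* `tau` : the `F`-algebra endomorphism of `K` with `gx ↦ gx`, `gy ↦ -gy`.
* `oddPts` : the subgroup `{P | Point.map tau P = -P}` of `W(K)`; it contains the generic point
  and is stable under every endomorphism commuting with `Point.map`.
* `exists_ratFunc_of_mem_oddPts` : the `x`-coordinate of an odd point is in the image of
  `RatFunc F` (`jhat`).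
-/

open WeierstrassCurve Polynomial
open scoped Polynomial.Bivariate WeierstrassCurve.Affine

namespace Fermat.Agent.Lib.Frob.A2.H230

open Fermat.Agent.Lib.FrobRel.H230

universe u

variable {F : Type u} [Field F] (W : WeierstrassCurve F)

/-- The function field of `W` over its field of definition. -/
abbrev KK : Type u := FF W F

/-- `F[X] → K`, `X ↦ gx`. -/
noncomputable def jj : F[X] →ₐ[F] KK W := IsScalarTower.toAlgHom F F[X] (KK W)

lemma jj_apply (p : F[X]) : jj W p = algebraMap F[X] (KK W) p := rfl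

lemma jj_X : jj W X = gx W F := (gx_eq_algebraMap_X W F).symm

lemma jj_injective : Function.Injective (jj W) := algebraMap_poly_FF_injective W F

lemma jj_eq_aeval (p : F[X]) : jj W p = Polynomial.aeval (gx W F) p := by
  have : jj W = Polynomial.aeval (gx W F) := by
    apply Polynomial.algHom_ext
    rw [jj_X, aeval_X]
  rw [this]

/-- `RatFunc F → K`, `X ↦ gx`. -/
noncomputable def jhat : RatFunc F →ₐ[F] KK W :=
  IsFractionRing.liftAlgHom (g := jj W) (jj_injective W)

lemma jhat_algebraMap (p : F[X]) : jhat W (algebraMap F[X] (RatFunc F) p) = jj W p := by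
  rw [jhat, IsFractionRing.liftAlgHom_apply, IsFractionRing.lift_algebraMap]
  rfl

lemma jhat_injective : Function.Injective (jhat W) := (jhat W).injective

lemma jhat_div (p r : F[X]) :
    jhat W (algebraMap F[X] (RatFunc F) p / algebraMap F[X] (RatFunc F) r)
      = jj W p / jj W r := by
  rw [map_div₀, jhat_algebraMap, jhat_algebraMap]

lemma jhat_eq_num_div_denom (S : RatFunc F) : jhat W S = jj W S.num / jj W S.denom := by
  conv_lhs => rw [← RatFunc.num_div_denom S]
  exact jhat_div W _ _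

lemma jj_denom_ne_zero (S : RatFunc F) : jj W S.denom ≠ 0 :=
  (map_ne_zero_iff _ (jj_injective W)).mpr S.denom_ne_zero

lemma jhat_C (c : F) : jhat W (RatFunc.C c) = algebraMap F (KK W) c := by
  rw [← RatFunc.algebraMap_eq_C]
  exact (jhat W).commutes c

/-! ### Every element of the function field is `(p + q·y) / r` -/

/-- Every nonzero element of the coordinate ring divides a nonzero polynomial in `X`. -/
lemma exists_mul_eq_algebraMap (w : CR W F) (hw0 : w ≠ 0) :
    ∃ (wbar : CR W F) (N : F[X]), N ≠ 0 ∧ algebraMap F[X] (CR W F) N = w * wbar := by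
  obtain ⟨p', q', rfl⟩ := Affine.CoordinateRing.exists_smul_basis_eq w
  have : Module.Finite F[X] (CR W F) :=
    Module.Finite.of_basis (Affine.CoordinateRing.basis (W⁄F))
  have hN : Algebra.norm F[X] (p' • (1 : CR W F) + q' • Affine.CoordinateRing.mk (W⁄F) Y) ≠ 0 :=
    Algebra.norm_ne_zero_iff.mpr hw0
  have hcoe := Affine.CoordinateRing.coe_norm_smul_basis (W' := W⁄F) p' q'
  have hfac : Affine.CoordinateRing.mk (W⁄F) (C p' + C q' * Y)
      = p' • (1 : CR W F) + q' • Affine.CoordinateRing.mk (W⁄F) Y := by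
    simp only [Affine.CoordinateRing.smul, map_add, map_mul, mul_one]
  refine ⟨Affine.CoordinateRing.mk (W⁄F)
    (C p' + C q' * (-(Y : F[X][Y]) - C (C (W⁄F).a₁ * X + C (W⁄F).a₃))), _, hN, ?_⟩
  have h1 : algebraMap F[X] (CR W F) (Algebra.norm F[X]
      (p' • (1 : CR W F) + q' • Affine.CoordinateRing.mk (W⁄F) Y))
      = Affine.CoordinateRing.mk (W⁄F) ((C p' + C q' * X) *
            (C p' + C q' * (-(Y : F[X][Y]) - C (C (W⁄F).a₁ * X + C (W⁄F).a₃)))) := hcoe
  rw [h1, map_mul, hfac]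

lemma jj_eq_algebraMap_CR (p : F[X]) :
    jj W p = algebraMap (CR W F) (KK W) (algebraMap F[X] (CR W F) p) := by
  rw [jj_apply, IsScalarTower.algebraMap_apply F[X] (CR W F) (KK W)]

lemma jj_add_mul_gy (p q : F[X]) : jj W p + jj W q * gy W F
    = algebraMap (CR W F) (KK W) (p • (1 : CR W F) + q • Affine.CoordinateRing.mk (W⁄F) Y) := by
  rw [map_add, Algebra.smul_def, Algebra.smul_def, mul_one, map_mul, jj_eq_algebraMap_CR,
    jj_eq_algebraMap_CR]
  rfl

lemma exists_rep (u : KK W) : ∃ p q r : F[X], r ≠ 0 ∧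
    u = (jj W p + jj W q * gy W F) / jj W r := by
  obtain ⟨z, w, hw, rfl⟩ := IsFractionRing.div_surjective (A := CR W F) u
  have hw0 : w ≠ 0 := nonZeroDivisors.ne_zero hw
  obtain ⟨wbar, N, hN, hprod⟩ := exists_mul_eq_algebraMap W w hw0
  obtain ⟨p, q, hpq⟩ := Affine.CoordinateRing.exists_smul_basis_eq (z * wbar)
  refine ⟨p, q, N, hN, ?_⟩
  have hjN : jj W N ≠ 0 := (map_ne_zero_iff _ (jj_injective W)).mpr hN
  have hwK : algebraMap (CR W F) (KK W) w ≠ 0 :=
    (map_ne_zero_iff _ (IsFractionRing.injective (CR W F) (KK W))).mpr hw0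
  rw [div_eq_div_iff hwK hjN, jj_eq_algebraMap_CR, jj_add_mul_gy, hpq, hprod, ← map_mul,
    ← map_mul]
  congr 1
  ring

/-! ### The hyperelliptic involution and the odd points -/

/-- The `F`-algebra endomorphism of the function field sending the generic point `P₀` to
`-P₀`. -/
noncomputable def tau : KK W →ₐ[F] KK W :=
  sigma F ((Affine.equation_neg (gx W F) (gy W F)).mpr (generic_equation W F))
    (gx_transcendental W F)

lemma tau_gx : tau W (gx W F) = gx W F := sigma_gx F _ _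

lemma tau_gy : tau W (gy W F) = (W⁄(KK W)).negY (gx W F) (gy W F) := sigma_gy F _ _

lemma tau_jj (p : F[X]) : tau W (jj W p) = jj W p := by
  have : (tau W).comp (jj W) = jj W := by
    apply Polynomial.algHom_ext
    rw [AlgHom.comp_apply, jj_X, tau_gx]
  exact congrArg (fun f => f p) this

section Short

variable {W}
variable (ha₁ : W.a₁ = 0) (ha₃ : W.a₃ = 0)

include ha₁ ha₃ in
lemma negY_eq_neg (x y : KK W) : (W⁄(KK W)).negY x y = -y := by
  have h1 : (W⁄(KK W)).a₁ = 0 := by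
    show algebraMap F (KK W) W.a₁ = 0
    rw [ha₁, map_zero]
  have h3 : (W⁄(KK W)).a₃ = 0 := by
    show algebraMap F (KK W) W.a₃ = 0
    rw [ha₃, map_zero]
  rw [Affine.negY, h1, h3]
  ring

include ha₁ ha₃ in
lemma tau_gy_short : tau W (gy W F) = -gy W F := by
  rw [tau_gy, negY_eq_neg ha₁ ha₃]

lemma gy_ne_zero : gy W F ≠ 0 := by
  intro h0
  -- then `gx` is a root of the cubic, hence algebraic
  have heq := generic_equation W F
  rw [Affine.equation_iff, h0] at heq
  apply gx_transcendental W F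
  refine ⟨X ^ 3 + C (W⁄F).a₂ * X ^ 2 + C (W⁄F).a₄ * X + C (W⁄F).a₆, ?_, ?_⟩
  · intro h
    have := congrArg (fun p => p.coeff 3) h
    simp [coeff_X_pow] at this
  · simp only [map_add, map_mul, map_pow, aeval_X, aeval_C]
    rw [baseChange_a₂ (k := F), baseChange_a₄ (k := F), baseChange_a₆ (k := F)] at heq
    simpa using heq.symm

include ha₁ ha₃ in
/-- Elements of the function field fixed by `tau` are rational functions of `gx`. -/
lemma exists_ratFunc_of_tau_fixed (h2 : (2 : F) ≠ 0) (u : KK W)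
    (hu : tau W u = u) : ∃ S : RatFunc F, u = jhat W S := by
  obtain ⟨p, q, r, hr, rfl⟩ := exists_rep W u
  have hjr : jj W r ≠ 0 := (map_ne_zero_iff _ (jj_injective W)).mpr hr
  rw [map_div₀, map_add, map_mul, tau_jj, tau_jj, tau_jj, tau_gy_short ha₁ ha₃,
    div_left_inj' hjr] at hu
  have h2K : (2 : KK W) ≠ 0 := by
    rw [← map_ofNat (algebraMap F (KK W)) 2]
    exact (map_ne_zero_iff _ (algebraMap F (KK W)).injective).mpr h2
  have hq : jj W q = 0 := by
    have h3 : 2 * (jj W q * gy W F) = 0 := by linear_combination -hu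
    rcases mul_eq_zero.mp h3 with h4 | h4
    · exact absurd h4 h2K
    · exact (mul_eq_zero.mp h4).resolve_right gy_ne_zero
  refine ⟨algebraMap F[X] (RatFunc F) p / algebraMap F[X] (RatFunc F) r, ?_⟩
  rw [jhat_div, hq, zero_mul, add_zero]

end Short

section Odd

variable [DecidableEq (KK W)]

/-- `Point.map tau`. -/
noncomputable def tauPt : (W⁄(KK W)).Point →+ (W⁄(KK W)).Point :=
  Affine.Point.map (W' := W) (tau W)

/-- The subgroup of odd points `{P | τ P = -P}`. -/
noncomputable def oddPts : AddSubgroup (W⁄(KK W)).Point :=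
  (tauPt W + AddMonoidHom.id _).ker

variable {W}

lemma mem_oddPts {P : (W⁄(KK W)).Point} : P ∈ oddPts W ↔ tauPt W P = -P := by
  rw [oddPts, AddMonoidHom.mem_ker, AddMonoidHom.add_apply, AddMonoidHom.id_apply,
    add_eq_zero_iff_eq_neg]

lemma generic_mem_oddPts (hΔ : (W⁄F).Δ ≠ 0) : genericPoint W F hΔ ∈ oddPts W := by
  rw [mem_oddPts, tauPt, tau]
  rw [map_sigma_genericPoint F hΔ
    ((Affine.nonsingular_neg (gx W F) (gy W F)).mpr (generic_nonsingular W F hΔ))
    (gx_transcendental W F)]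
  rfl

lemma map_mem_oddPts (φ : (W⁄(KK W)).Point →+ (W⁄(KK W)).Point)
    (hφ : ∀ P, φ (tauPt W P) = tauPt W (φ P)) {P : (W⁄(KK W)).Point} (hP : P ∈ oddPts W) :
    φ P ∈ oddPts W := by
  rw [mem_oddPts] at hP ⊢
  rw [← hφ, hP, map_neg]

lemma tau_x_of_mem_oddPts {x y : KK W} {h : (W⁄(KK W)).Nonsingular x y}
    (hP : Affine.Point.some x y h ∈ oddPts W) : tau W x = x := by
  rw [mem_oddPts, tauPt, Affine.Point.map_some, Affine.Point.neg_some] at hP
  exact ((Affine.Point.some.injEq ..).mp hP).1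

lemma exists_ratFunc_of_mem_oddPts (ha₁ : W.a₁ = 0) (ha₃ : W.a₃ = 0) (h2 : (2 : F) ≠ 0)
    {x y : KK W} {h : (W⁄(KK W)).Nonsingular x y}
    (hP : Affine.Point.some x y h ∈ oddPts W) : ∃ S : RatFunc F, x = jhat W S :=
  exists_ratFunc_of_tau_fixed ha₁ ha₃ h2 x (tau_x_of_mem_oddPts hP)

end Odd

end Fermat.Agent.Lib.Frob.A2.H230

end
-- ===== PACK-END Lib/Frob/A2/H230/OddPts.lean

-- ===== PACK-BEGIN S52/H311/Par.lean
section



/-!
# Exact parallelogram law for the degree height (S52, piece A2a)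

`F` a field, `W` an elliptic curve over `F`, `K ⊇ F` a field, `j : F[X] →ₐ[F] K` injective
(e.g. `aeval x₀` with `x₀` transcendental).  A point `P` of `W` over `K` has `x`-coordinate
*represented by* a coprime pair `(a, b)` of polynomials if `(j a : j b)` is projectively equal to
`P.xRep` (so `P = 0 ↔ b = 0`, and otherwise `x(P) = j a / j b`).

If `P`, `Q`, `P + Q`, `P - Q` have represented `x`-coordinates then the degrees satisfy the
**exact** parallelogram law.
-/

set_option autoImplicit false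

namespace Fermat.Agent.S52.H311

open Polynomial WeierstrassCurve WeierstrassCurve.Affine

variable {F : Type*} [Field F] {K : Type*} [Field K] [Algebra F K]

/-- explicit form of `addSubMap`, any commutative ring -/
lemma eval_addSubMap_ring {R : Type*} [CommRing R] (W : WeierstrassCurve R) (v : Fin 3 → R) :
    (fun i => (addSubMap W i).eval v) =
      ![v 0 ^ 2 - W.b₄ * v 0 * v 2 - W.b₆ * v 1 * v 2 - W.b₈ * v 2 ^ 2,
        2 * v 1 * v 0 + W.b₂ * v 0 * v 2 + W.b₄ * v 1 * v 2 + W.b₆ * v 2 ^ 2,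
        v 1 ^ 2 - 4 * v 0 * v 2] := by
  funext i
  fin_cases i <;> simp [addSubMap]

/-- `(a, b)` represents the `x`-coordinate of `P` -/
def IsXRep (j : F[X] →ₐ[F] K) {W : Affine K} (P : W.Point) (a b : F[X]) : Prop :=
  IsCoprime a b ∧ ∃ c : K, c ≠ 0 ∧ ![j a, j b] = c • P.xRep

variable (W : WeierstrassCurve F) (j : F[X] →ₐ[F] K)

/-- naturality: `j` of `asmP` is `addSubMap` over `K` of the `j`-image -/
lemma j_asmP (p : Fin 3 → F[X]) :
    (fun i => j (asmP W p i)) =
      fun i => (addSubMap (W.baseChange K) i).eval (fun k => j (p k)) := by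
  have h1 : (fun i => asmP W p i) = fun i => (addSubMap (W.map (C : F →+* F[X])) i).eval p :=
    funext fun i => asmP_eq_eval W p i
  have h2 := eval_addSubMap_ring (W.map (C : F →+* F[X])) p
  have h3 := eval_addSubMap_ring (W.baseChange K) (fun k => j (p k))
  rw [h3]
  have hC : ∀ a : F, j (C a) = algebraMap F K a := fun a => j.commutes a
  funext i
  have := congrFun (h1.trans h2) i
  rw [this]
  fin_cases i <;>
    simp [WeierstrassCurve.baseChange, map_b₂, map_b₄, map_b₆, map_b₈, hC, map_ofNat]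

variable {W j}

lemma sym2x_of_isXRep {W' : Affine K} {P Q : W'.Point} {a₁ b₁ a₂ b₂ : F[X]}
    (h₁ : IsXRep j P a₁ b₁) (h₂ : IsXRep j Q a₂ b₂) :
    ∃ c : K, c ≠ 0 ∧ (fun k => j (prodTriple a₁ b₁ a₂ b₂ k)) = c • P.sym2x Q := by
  obtain ⟨-, c₁, hc₁, e₁⟩ := h₁
  obtain ⟨-, c₂, hc₂, e₂⟩ := h₂
  refine ⟨c₁ * c₂, mul_ne_zero hc₁ hc₂, ?_⟩
  have e10 : j a₁ = c₁ * P.xRep 0 := by simpa using congrFun e₁ 0
  have e11 : j b₁ = c₁ * P.xRep 1 := by simpa using congrFun e₁ 1
  have e20 : j a₂ = c₂ * Q.xRep 0 := by simpa using congrFun e₂ 0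
  have e21 : j b₂ = c₂ * Q.xRep 1 := by simpa using congrFun e₂ 1
  funext k
  fin_cases k
  · simp [prodTriple, Point.sym2x, e10, e20]; ring
  · simp [prodTriple, Point.sym2x, e10, e11, e20, e21]; ring
  · simp [prodTriple, Point.sym2x, e11, e21]; ring

variable [W.IsElliptic] [DecidableEq K]

/-- **Exact parallelogram law**, in terms of representatives. -/
theorem pairDeg_add_sub (hj : Function.Injective j) {P Q : (W.toAffine⁄K).Point}
    {a₁ b₁ a₂ b₂ a₃ b₃ a₄ b₄ : F[X]}
    (h₁ : IsXRep j P a₁ b₁) (h₂ : IsXRep j Q a₂ b₂)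
    (h₃ : IsXRep j (P + Q) a₃ b₃) (h₄ : IsXRep j (P - Q) a₄ b₄) :
    pairDeg a₃ b₃ + pairDeg a₄ b₄ = 2 * (pairDeg a₁ b₁ + pairDeg a₂ b₂) := by
  set p := asmP W (prodTriple a₁ b₁ a₂ b₂) with hp
  set p' := prodTriple a₃ b₃ a₄ b₄ with hp'
  have prim : IsPrim p := (isPrim_prodTriple h₁.1 h₂.1).asmP W
  have prim' : IsPrim p' := isPrim_prodTriple h₃.1 h₄.1
  obtain ⟨c₁₂, hc₁₂, e₁₂⟩ := sym2x_of_isXRep h₁ h₂
  obtain ⟨c₃₄, hc₃₄, e₃₄⟩ := sym2x_of_isXRep h₃ h₄
  obtain ⟨c, hc, e⟩ := sym2x_add_sub P Q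
  -- `j ∘ p = κ • j ∘ p'`
  have hκ : (fun k => j (p k)) = (c₁₂ ^ 2 * c * c₃₄⁻¹) • fun k => j (p' k) := by
    rw [hp, j_asmP, e₁₂, e₃₄]
    have hE := eval_addSubMap_ring (W.baseChange K) (c₁₂ • P.sym2x Q)
    have hE' := eval_addSubMap_ring (W.baseChange K) (P.sym2x Q)
    rw [hE]
    rw [hE'] at e
    have e0 := congrFun e 0
    have e1 := congrFun e 1
    have e2 := congrFun e 2
    simp only [Matrix.cons_val_zero, Matrix.cons_val_one, Matrix.cons_val, Pi.smul_apply,
      smul_eq_mul] at e0 e1 e2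
    have hcancel : c₃₄⁻¹ * c₃₄ = 1 := inv_mul_cancel₀ hc₃₄
    funext k
    fin_cases k
    · simp only [Fin.zero_eta, Matrix.cons_val_zero, Pi.smul_apply, smul_eq_mul]
      linear_combination c₁₂ ^ 2 * e0 -
        (c₁₂ ^ 2 * c * (P + Q).sym2x (P - Q) 0) * hcancel
    · simp only [Fin.mk_one, Matrix.cons_val_one, Matrix.cons_val_zero, Pi.smul_apply,
        smul_eq_mul]
      linear_combination c₁₂ ^ 2 * e1 -
        (c₁₂ ^ 2 * c * (P + Q).sym2x (P - Q) 1) * hcancel
    · simp only [Fin.reduceFinMk, Matrix.cons_val, Pi.smul_apply, smul_eq_mul]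
      linear_combination c₁₂ ^ 2 * e2 -
        (c₁₂ ^ 2 * c * (P + Q).sym2x (P - Q) 2) * hcancel
  have cross : ∀ i k, p i * p' k = p k * p' i := fun i k => by
    apply hj
    have hi := congrFun hκ i
    have hk := congrFun hκ k
    simp only [Pi.smul_apply, smul_eq_mul] at hi hk
    rw [map_mul, map_mul, hi, hk]
    ring
  have key := maxDeg_eq_of_proportional prim prim' cross
  rw [hp, maxDeg_asmP, maxDeg_prodTriple h₁.1 h₂.1, hp', maxDeg_prodTriple h₃.1 h₄.1] at key
  exact key.symm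

end Fermat.Agent.S52.H311

end
-- ===== PACK-END S52/H311/Par.lean

-- ===== PACK-BEGIN S52/H311/Height.lean
section


/-!
# The degree height on points with rational `x`-coordinate (S52, piece A2a, API)
-/

set_option autoImplicit false

namespace Fermat.Agent.S52.H311

open Polynomial WeierstrassCurve WeierstrassCurve.Affine

variable {F : Type*} [Field F] {K : Type*} [Field K] [Algebra F K]
variable {j : F[X] →ₐ[F] K} {W' : Affine K}

lemma isXRep_zero : IsXRep j (0 : W'.Point) 1 0 :=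
  ⟨isCoprime_one_left, 1, one_ne_zero, by simp [Point.xRep_zero]⟩

lemma isXRep_some {x y : K} (h : W'.Nonsingular x y) {a b : F[X]} (hab : IsCoprime a b)
    (hb : j b ≠ 0) (hx : x * j b = j a) : IsXRep j (Point.some x y h) a b := by
  refine ⟨hab, j b, hb, ?_⟩
  rw [Point.xRep_some]
  funext k
  fin_cases k
  · simp [← hx, mul_comm]
  · simp

/-- pairs of coprime polynomials which are proportional have the same degree -/
lemma pairDeg_eq_of_cross {a b a' b' : F[X]} (h : IsCoprime a b) (h' : IsCoprime a' b')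
    (hc : a * b' = a' * b) : pairDeg a b = pairDeg a' b' := by
  -- apply the triple statement to `(a, b) * (1, 0)`
  have key := maxDeg_eq_of_proportional
    (isPrim_prodTriple h (isCoprime_one_left (x := (0 : F[X]))))
    (isPrim_prodTriple h' (isCoprime_one_left (x := (0 : F[X])))) (fun i k => by
      fin_cases i <;> fin_cases k <;> simp [prodTriple] <;>
        first | linear_combination hc | linear_combination -hc)
  rw [maxDeg_prodTriple h isCoprime_one_left, maxDeg_prodTriple h' isCoprime_one_left] at key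
  simpa [pairDeg] using key

lemma pairDeg_eq_of_isXRep (hj : Function.Injective j) {P : W'.Point} {a b a' b' : F[X]}
    (h : IsXRep j P a b) (h' : IsXRep j P a' b') : pairDeg a b = pairDeg a' b' := by
  refine pairDeg_eq_of_cross h.1 h'.1 (hj ?_)
  obtain ⟨-, c, hc, e⟩ := h
  obtain ⟨-, c', hc', e'⟩ := h'
  have e0 : j a = c * P.xRep 0 := by simpa using congrFun e 0
  have e1 : j b = c * P.xRep 1 := by simpa using congrFun e 1
  have e0' : j a' = c' * P.xRep 0 := by simpa using congrFun e' 0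
  have e1' : j b' = c' * P.xRep 1 := by simpa using congrFun e' 1
  rw [map_mul, map_mul, e0, e1, e0', e1']
  ring

open Classical in
/-- the degree height of a point (`0` if the `x`-coordinate is not represented) -/
noncomputable def hgt (j : F[X] →ₐ[F] K) (P : W'.Point) : ℕ :=
  if h : ∃ ab : F[X] × F[X], IsXRep j P ab.1 ab.2 then
    pairDeg (Classical.choose h).1 (Classical.choose h).2
  else 0

lemma hgt_eq (hj : Function.Injective j) {P : W'.Point} {a b : F[X]} (h : IsXRep j P a b) :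
    hgt j P = pairDeg a b := by
  have hex : ∃ ab : F[X] × F[X], IsXRep j P ab.1 ab.2 := ⟨(a, b), h⟩
  rw [hgt, dif_pos hex]
  exact pairDeg_eq_of_isXRep hj (Classical.choose_spec hex) h

lemma hgt_zero (hj : Function.Injective j) : hgt j (0 : W'.Point) = 0 := by
  rw [hgt_eq hj isXRep_zero]
  simp [pairDeg]

/-- **Exact parallelogram law for the degree height.** -/
theorem hgt_add_sub {W : WeierstrassCurve F} [W.IsElliptic] [DecidableEq K]
    (hj : Function.Injective j) {P Q : (W.toAffine⁄K).Point}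
    (hP : ∃ a b, IsXRep j P a b) (hQ : ∃ a b, IsXRep j Q a b)
    (hS : ∃ a b, IsXRep j (P + Q) a b) (hD : ∃ a b, IsXRep j (P - Q) a b) :
    hgt j (P + Q) + hgt j (P - Q) = 2 * hgt j P + 2 * hgt j Q := by
  obtain ⟨a₁, b₁, h₁⟩ := hP
  obtain ⟨a₂, b₂, h₂⟩ := hQ
  obtain ⟨a₃, b₃, h₃⟩ := hS
  obtain ⟨a₄, b₄, h₄⟩ := hD
  rw [hgt_eq hj h₁, hgt_eq hj h₂, hgt_eq hj h₃, hgt_eq hj h₄,
    pairDeg_add_sub hj h₁ h₂ h₃ h₄]
  ring

end Fermat.Agent.S52.H311

end
-- ===== PACK-END S52/H311/Height.lean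

-- ===== PACK-BEGIN S35/G/H60/NormRedAbs.lean
section


/-!
# Norm reduction for a degeneracy map at a prime of bad reduction — abstract form (helper60)

Mathlib + `S35.H253`.  `F / K` of degree `q + 1`, `q` prime; `O ⊆ K` a valuation ring of residue
characteristic `q`; `V₁`, `V₂` incomparable valuation rings of `F` over `O`; an element `z ∈ V₂`
with `z ^ q ≡ c` (`c ∈ O`) where `c` is NOT a `q`-th power modulo the maximal ideal of `O`.
Then the residue degrees are `1` and `q` (the second purely inseparable on the elements we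
need), and for `y ∈ V₁ ∩ V₂` with `y ≡ U` at `V₁`, `y ^ q ≡ T` at `V₂` (`U, T ∈ O`):

  `N_{F/K} y ∈ O`  and  `N_{F/K} y ≡ U * T` modulo the maximal ideal of `O`.
-/

set_option autoImplicit false
set_option linter.style.haveILetI false

namespace Fermat.Agent.S35.G.H60

open Fermat.Agent.S35.H253 Polynomial

section NormRedAbs

variable {K F : Type*} [Field K] [Field F] [Algebra K F]

/-- The local homomorphism `O → V` of a valuation ring `V` of `F` over `O`. -/
def overHom {O : ValuationSubring K} {V : ValuationSubring F} (h : Over O V) : O →+* V where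
  toFun a := ⟨algebraMap K F a, (h a).2 a.2⟩
  map_one' := Subtype.ext (map_one _)
  map_mul' _ _ := Subtype.ext (map_mul _ _ _)
  map_zero' := Subtype.ext (map_zero _)
  map_add' _ _ := Subtype.ext (map_add _ _ _)

theorem isLocalHom_overHom {O : ValuationSubring K} {V : ValuationSubring F} (h : Over O V) :
    IsLocalHom (overHom h) := by
  refine ⟨fun a ha => ?_⟩
  rw [ValuationSubring.valuation_eq_one_iff] at ha ⊢
  have h1 : V.valuation (algebraMap K F (a : K)) = 1 := ha
  have h2 : O.valuation (a : K) ≤ 1 := O.valuation_le_one a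
  refine le_antisymm h2 (not_lt.1 fun hlt => ?_)
  have := (h.val_lt_one_iff (a : K)).2 hlt
  rw [h1] at this
  exact lt_irrefl _ this

theorem residue_eq_iff_val {V : ValuationSubring F} (a b : V) :
    IsLocalRing.residue V a = IsLocalRing.residue V b ↔ V.valuation ((a : F) - (b : F)) < 1 := by
  rw [← sub_eq_zero, ← map_sub, IsLocalRing.residue_eq_zero_iff,
    ValuationSubring.valuation_lt_one_iff]
  rfl

/-- **Norm reduction, abstract form.** -/
theorem norm_red_abs (q : ℕ) (hq : q.Prime) (hdeg : Module.finrank K F = q + 1)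
    {O : ValuationSubring K} {V₁ V₂ : ValuationSubring F}
    (h₁ : Over O V₁) (h₂ : Over O V₂) (hne₁ : ¬ V₁ ≤ V₂) (hne₂ : ¬ V₂ ≤ V₁)
    (hqO : O.valuation (q : K) < 1)
    {z : F} (hz : z ∈ V₂) {c : K} (hc : c ∈ O)
    (hzc : V₂.valuation (z ^ q - algebraMap K F c) < 1)
    (hnp : ∀ a ∈ O, ¬ O.valuation (a ^ q - c) < 1)
    {y : F} (hy₁ : y ∈ V₁) (hy₂ : y ∈ V₂) {U T : K} (hU : U ∈ O) (hT : T ∈ O)
    (hyU : V₁.valuation (y - algebraMap K F U) < 1)
    (hyT : V₂.valuation (y ^ q - algebraMap K F T) < 1) :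
    Algebra.norm K y ∈ O ∧ O.valuation (Algebra.norm K y - U * T) < 1 := by
  classical
  haveI : Fact q.Prime := ⟨hq⟩
  haveI : FiniteDimensional K F := Module.finite_of_finrank_pos (by rw [hdeg]; omega)
  -- residue fields
  haveI := isLocalHom_overHom h₁
  haveI := isLocalHom_overHom h₂
  letI : Algebra (IsLocalRing.ResidueField O) (IsLocalRing.ResidueField V₁) :=
    (IsLocalRing.ResidueField.map (overHom h₁)).toAlgebra
  letI : Algebra (IsLocalRing.ResidueField O) (IsLocalRing.ResidueField V₂) :=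
    (IsLocalRing.ResidueField.map (overHom h₂)).toAlgebra
  set π : O →+* IsLocalRing.ResidueField O := IsLocalRing.residue O with hπdef
  set ρ₁ : V₁ →+* IsLocalRing.ResidueField V₁ := IsLocalRing.residue V₁ with hρ₁def
  set ρ₂ : V₂ →+* IsLocalRing.ResidueField V₂ := IsLocalRing.residue V₂ with hρ₂def
  have hπ : Function.Surjective π := IsLocalRing.residue_surjective
  have hρ₁ : Function.Surjective ρ₁ := IsLocalRing.residue_surjective
  have hρ₂ : Function.Surjective ρ₂ := IsLocalRing.residue_surjective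
  have hc₁ : ∀ a : O, ρ₁ ⟨algebraMap K F a, (h₁ a).2 a.2⟩ =
      algebraMap (IsLocalRing.ResidueField O) (IsLocalRing.ResidueField V₁) (π a) := fun a => rfl
  have hc₂ : ∀ a : O, ρ₂ ⟨algebraMap K F a, (h₂ a).2 a.2⟩ =
      algebraMap (IsLocalRing.ResidueField O) (IsLocalRing.ResidueField V₂) (π a) := fun a => rfl
  -- characteristic
  have hq0 : (q : IsLocalRing.ResidueField O) = 0 := by
    have h : π ((q : ℕ) : O) = 0 := by
      rw [hπdef, IsLocalRing.residue_eq_zero_iff, ValuationSubring.valuation_lt_one_iff]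
      simpa using hqO
    simpa using h
  haveI : CharP (IsLocalRing.ResidueField O) q := by
    obtain ⟨p, hp⟩ := CharP.exists (IsLocalRing.ResidueField O)
    have hdvd : p ∣ q := (CharP.cast_eq_zero_iff (IsLocalRing.ResidueField O) p q).1 hq0
    rcases (Nat.dvd_prime hq).1 hdvd with h | h
    · exact absurd h (CharP.char_ne_one (IsLocalRing.ResidueField O) p)
    · rwa [h] at hp
  -- fundamental inequality
  obtain ⟨hf₁, hf₂, hle⟩ :=
    finite_and_finrank_add_le h₁ h₂ hne₁ hne₂ π ρ₁ ρ₂ hπ hρ₁ hρ₂ hc₁ hc₂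
  have hpos₁ : 0 < Module.finrank (IsLocalRing.ResidueField O) (IsLocalRing.ResidueField V₁) :=
    Module.finrank_pos
  -- the residue degree at `V₂` is at least `q`
  have hirr : Irreducible (X ^ q - C (π ⟨c, hc⟩) : (IsLocalRing.ResidueField O)[X]) := by
    refine X_pow_sub_C_irreducible_of_prime hq fun b hb => ?_
    obtain ⟨a, rfl⟩ := hπ b
    rw [← map_pow, hπdef, residue_eq_iff_val] at hb
    exact hnp a a.2 hb
  have hroot : Polynomial.aeval (ρ₂ ⟨z, hz⟩)
      (X ^ q - C (π ⟨c, hc⟩) : (IsLocalRing.ResidueField O)[X]) = 0 := by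
    rw [map_sub, map_pow, aeval_X, aeval_C, ← hc₂ ⟨c, hc⟩, ← map_pow, sub_eq_zero, hρ₂def,
      residue_eq_iff_val]
    exact hzc
  have hmonic : (X ^ q - C (π ⟨c, hc⟩) : (IsLocalRing.ResidueField O)[X]).Monic :=
    monic_X_pow_sub_C _ hq.ne_zero
  have hmin : minpoly (IsLocalRing.ResidueField O) (ρ₂ ⟨z, hz⟩) =
      X ^ q - C (π ⟨c, hc⟩) := (minpoly.eq_of_irreducible_of_monic hirr hroot hmonic).symm
  have hge₂ : q ≤ Module.finrank (IsLocalRing.ResidueField O) (IsLocalRing.ResidueField V₂) := by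
    have h := minpoly.natDegree_le (A := IsLocalRing.ResidueField O) (ρ₂ ⟨z, hz⟩)
    rwa [hmin, natDegree_X_pow_sub_C] at h
  rw [hdeg] at hle
  have hdeg₁ : Module.finrank (IsLocalRing.ResidueField O) (IsLocalRing.ResidueField V₁) = 1 := by
    omega
  have hdeg₂ : Module.finrank (IsLocalRing.ResidueField O) (IsLocalRing.ResidueField V₂) = q := by
    omega
  -- the norm formula
  have ha : algebraMap (IsLocalRing.ResidueField O) (IsLocalRing.ResidueField V₂) (π ⟨T, hT⟩) =
      ρ₂ ⟨y, hy₂⟩ ^ q := by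
    rw [← hc₂ ⟨T, hT⟩, ← map_pow, eq_comm, hρ₂def, residue_eq_iff_val]
    exact hyT
  obtain ⟨hN, hred⟩ := norm_red_insep h₁ h₂ hne₁ hne₂ q π ρ₁ ρ₂ hπ hρ₁ hρ₂ hc₁ hc₂ hdeg₁ hdeg₂
    hdeg hy₁ hy₂ ha
  refine ⟨hN, ?_⟩
  have hyU' : ρ₁ ⟨y, hy₁⟩ =
      algebraMap (IsLocalRing.ResidueField O) (IsLocalRing.ResidueField V₁) (π ⟨U, hU⟩) := by
    rw [← hc₁ ⟨U, hU⟩, hρ₁def, residue_eq_iff_val]
    exact hyU
  rw [hyU', ← map_mul, ← map_mul] at hred
  have hinj := (algebraMap (IsLocalRing.ResidueField O) (IsLocalRing.ResidueField V₁)).injective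
  have h3 := hinj hred
  rw [hπdef, residue_eq_iff_val] at h3
  exact h3

end NormRedAbs

end Fermat.Agent.S35.G.H60

end
-- ===== PACK-END S35/G/H60/NormRedAbs.lean

-- ===== PACK-BEGIN S28/H208/Twist.lean
section
/-
S28 [L3]: twist automorphism `t ↦ c·t` of Laurent series and its interaction with `qExpand`.
-/



set_option autoImplicit false

noncomputable section

open ModularCurve HahnSeries

namespace Fermat.Agent.S28.H208

variable {k : Type*} [Field k]

/-- Twist `Σ aₙ tⁿ ↦ Σ aₙ cⁿ tⁿ`. -/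
def twFun (c : k) (f : LaurentSeries k) : LaurentSeries k where
  coeff n := c ^ n * f.coeff n
  isPWO_support' := f.isPWO_support.mono fun n hn => by
    simp only [Function.mem_support, ne_eq] at hn ⊢
    intro h
    exact hn (by rw [h, mul_zero])

@[simp] theorem twFun_coeff (c : k) (f : LaurentSeries k) (n : ℤ) :
    (twFun c f).coeff n = c ^ n * f.coeff n := rfl

theorem twFun_support (c : k) (hc : c ≠ 0) (f : LaurentSeries k) :
    (twFun c f).support = f.support := by
  ext n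
  simp only [HahnSeries.mem_support, twFun_coeff, ne_eq, mul_eq_zero, not_or]
  constructor
  · exact fun h => h.2
  · exact fun h => ⟨zpow_ne_zero n hc, h⟩

theorem twFun_mul (c : k) (hc : c ≠ 0) (x y : LaurentSeries k) :
    twFun c (x * y) = twFun c x * twFun c y := by
  ext n
  rw [twFun_coeff, HahnSeries.coeff_mul, HahnSeries.coeff_mul, Finset.mul_sum]
  symm
  refine Finset.sum_congr ?_ fun ij hij => ?_
  · ext ij
    simp only [Finset.mem_antidiagonal, twFun_support c hc]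
  · have h : ij.1 + ij.2 = n := (Finset.mem_antidiagonal.mp hij).2.2
    rw [twFun_coeff, twFun_coeff, ← h, zpow_add₀ hc]
    ring

/-- The twist as a ring homomorphism. -/
def tw (c : k) (hc : c ≠ 0) : LaurentSeries k →+* LaurentSeries k where
  toFun := twFun c
  map_one' := by
    ext n
    rw [twFun_coeff, HahnSeries.coeff_one]
    split_ifs with h
    · subst h; simp
    · simp
  map_mul' := twFun_mul c hc
  map_zero' := by
    ext n
    simp
  map_add' x y := by
    ext n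
    simp [mul_add]

@[simp] theorem tw_coeff (c : k) (hc : c ≠ 0) (f : LaurentSeries k) (n : ℤ) :
    (tw c hc f).coeff n = c ^ n * f.coeff n := rfl

/-- Twisting a series in `t^m` by `c` with `c^m = 1` does nothing. -/
theorem tw_qExpand_of_pow_eq_one (c : k) (hc : c ≠ 0) (m : ℕ) [NeZero m] (hcm : c ^ m = 1)
    (f : LaurentSeries k) : tw c hc (qExpand k m f) = qExpand k m f := by
  ext n
  rw [tw_coeff]
  by_cases hn : (m : ℤ) ∣ n
  · obtain ⟨a, rfl⟩ := hn
    rw [zpow_mul, zpow_natCast, hcm, one_zpow, one_mul]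
  · rw [qExpand_coeff_of_not_dvd m f hn, mul_zero]

end Fermat.Agent.S28.H208

end

end
-- ===== PACK-END S28/H208/Twist.lean

-- ===== PACK-BEGIN S28/H208/RootList.lean
section
/-
S28 [L3]: consequences of `ModPolyData` over arbitrary coefficient rings and the
root list of `Φ_p(X, j(t^p))` over a field containing a primitive `p`-th root of unity.
-/




set_option autoImplicit false

noncomputable section

open ModularCurve Polynomial

namespace Fermat.Agent.S28.H208

section Hom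

variable {S S' : Type*} [CommRing S] [CommRing S']

/-- Evaluation `ℤ[Y] → S`, `Y ↦ y` (same as `evalAt`, for an arbitrary target ring). -/
abbrev evZ (y : S) : Polynomial ℤ →+* S := (Polynomial.aeval (R := ℤ) y).toRingHom

theorem evZ_comp (h : S →+* S') (y : S) : h.comp (evZ y) = evZ (h y) := by
  refine Polynomial.ringHom_ext' (Subsingleton.elim _ _) ?_
  simp [evZ]

theorem evalAt_eq_evZ {A : Type*} [CommRing A] (y : LaurentSeries A) : evalAt y = evZ y := by
  refine Polynomial.ringHom_ext' (Subsingleton.elim _ _) ?_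
  simp [evZ, evalAt]

theorem eval₂_evZ_hom (h : S →+* S') (Φ : Polynomial (Polynomial ℤ)) (y x : S)
    (hx : Φ.eval₂ (evZ y) x = 0) : Φ.eval₂ (evZ (h y)) (h x) = 0 := by
  rw [← evZ_comp, ← Polynomial.hom_eval₂, hx, map_zero]

theorem map_map_evZ (h : S →+* S') (Φ : Polynomial (Polynomial ℤ)) (y : S) :
    (Φ.map (evZ y)).map h = Φ.map (evZ (h y)) := by
  rw [Polynomial.map_map, evZ_comp]

end Hom

section Ring

variable (A : Type*) [CommRing A] {p : ℕ} [NeZero p] (D : ModPolyData p)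

theorem coeffMap_int_jd (d : ℕ) [NeZero d] :
    coeffMap (Int.castRingHom A) (qExpand ℤ d (jqModC ℤ)) = qExpand A d (jqModC A) := by
  rw [coeffMap_qExpand, coeffMap_jqModC]

/-- `Φ_p(j(q^p), j(q)) = 0` over any commutative ring. -/
theorem eval_jp_ring : D.Φ.eval₂ (evZ (jqModC A)) (qExpand A p (jqModC A)) = 0 := by
  have h := eval₂_evZ_hom (coeffMap (Int.castRingHom A)) D.Φ (jqModC ℤ)
    (qExpand ℤ p (jqModC ℤ)) (by rw [← evalAt_eq_evZ]; exact D.eval_jp)
  rwa [coeffMap_int_jd, coeffMap_jqModC] at h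

/-- `Φ_p(j(q), j(q^p)) = 0` over any commutative ring. -/
theorem eval_j_ring : D.Φ.eval₂ (evZ (qExpand A p (jqModC A))) (jqModC A) = 0 := by
  have h := eval₂_evZ_hom (coeffMap (Int.castRingHom A)) D.Φ (qExpand ℤ p (jqModC ℤ))
    (jqModC ℤ) (by rw [← evalAt_eq_evZ]; exact D.eval_j)
  rwa [coeffMap_int_jd, coeffMap_jqModC] at h

/-- `Φ_p(j(q^{mp}), j(q^m)) = 0`. -/
theorem eval_jp_ring_qExpand (m : ℕ) [NeZero m] [NeZero (m * p)] :
    D.Φ.eval₂ (evZ (qExpand A m (jqModC A))) (qExpand A (m * p) (jqModC A)) = 0 := by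
  have h := eval₂_evZ_hom (qExpand A m) D.Φ _ _ (eval_jp_ring A D)
  rwa [qExpand_qExpand] at h

/-- `Φ_p(j(q^m), j(q^{mp})) = 0`. -/
theorem eval_j_ring_qExpand (m : ℕ) [NeZero m] [NeZero (m * p)] :
    D.Φ.eval₂ (evZ (qExpand A (m * p) (jqModC A))) (qExpand A m (jqModC A)) = 0 := by
  have h := eval₂_evZ_hom (qExpand A m) D.Φ _ _ (eval_j_ring A D)
  rwa [qExpand_qExpand] at h

end Ring

section Coeff

variable (A : Type*) [CommRing A]

theorem coeff_jd_neg (d : ℕ) [NeZero d] :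
    (qExpand A d (jqModC A)).coeff (-(d : ℤ)) = 1 := by
  have h := qExpand_coeff_mul (R := A) d (jqModC A) (-1)
  rw [coeff_jqModC_neg_one] at h
  rwa [mul_neg, mul_one] at h

theorem coeff_jd_of_lt (d : ℕ) [NeZero d] {n : ℤ} (hn : n < -(d : ℤ)) :
    (qExpand A d (jqModC A)).coeff n = 0 := by
  by_cases hdn : (d : ℤ) ∣ n
  · obtain ⟨a, rfl⟩ := hdn
    rw [qExpand_coeff_mul]
    have hd : (0 : ℤ) < d := by exact_mod_cast Nat.pos_of_ne_zero (NeZero.ne d)
    have ha : a < -1 := by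
      by_contra hcon
      have hcon' : -1 ≤ a := not_lt.mp hcon
      nlinarith
    have := coeff_jqModC_pow_of_lt A (b := 1) (m := a) (by simpa using ha)
    simpa using this
  · exact qExpand_coeff_of_not_dvd d _ hdn

end Coeff

section Field

variable {K : Type*} [Field K] {p : ℕ} [NeZero p] (D : ModPolyData p)

/-- The `p + 1` roots of `Φ_p(X, j(t^p))` in `K((t))`: `j(t^{p²})` and `j(ζ^b t)`, `b < p`. -/
def rootAt (ζ : K) (hζ : ζ ≠ 0) : Option (Fin p) → LaurentSeries K
  | none => qExpand K (p * p) (jqModC K)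
  | some b => tw (ζ ^ (b : ℕ)) (pow_ne_zero _ hζ) (jqModC K)

theorem rootAt_none_coeff_neg_one (hp : 1 < p) (ζ : K) (hζ : ζ ≠ 0) :
    (rootAt (p := p) ζ hζ none).coeff (-1) = 0 := by
  apply qExpand_coeff_of_not_dvd
  intro h
  have h1 : ((p * p : ℕ) : ℤ) ∣ 1 := by simpa using (dvd_neg.mpr h)
  have h2 : (p * p : ℕ) ∣ 1 := by exact_mod_cast h1
  have h3 := Nat.le_of_dvd one_pos h2
  nlinarith

theorem rootAt_some_coeff_neg_one (ζ : K) (hζ : ζ ≠ 0) (b : Fin p) :
    (rootAt (p := p) ζ hζ (some b)).coeff (-1) = (ζ ^ (b : ℕ))⁻¹ := by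
  show (tw _ _ (jqModC K)).coeff (-1) = _
  rw [tw_coeff, coeff_jqModC_neg_one, mul_one, zpow_neg_one]

theorem rootAt_injective (hp : 1 < p) (ζ : K) (hζ : IsPrimitiveRoot ζ p) :
    Function.Injective (rootAt (p := p) ζ (hζ.ne_zero (NeZero.ne p))) := by
  have hζ0 : ζ ≠ 0 := hζ.ne_zero (NeZero.ne p)
  intro a b hab
  have hc : (rootAt ζ hζ0 a).coeff (-1) = (rootAt ζ hζ0 b).coeff (-1) := by rw [hab]
  rcases a with _ | a <;> rcases b with _ | b
  · rfl
  · rw [rootAt_none_coeff_neg_one hp, rootAt_some_coeff_neg_one] at hc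
    exact absurd hc.symm (inv_ne_zero (pow_ne_zero _ hζ0))
  · rw [rootAt_none_coeff_neg_one hp, rootAt_some_coeff_neg_one] at hc
    exact absurd hc (inv_ne_zero (pow_ne_zero _ hζ0))
  · rw [rootAt_some_coeff_neg_one, rootAt_some_coeff_neg_one] at hc
    have h := hζ.pow_inj a.2 b.2 (inv_injective hc)
    exact congrArg some (Fin.ext h)

theorem rootAt_isRoot (ζ : K) (hζ : IsPrimitiveRoot ζ p) (i : Option (Fin p)) :
    (D.Φ.map (evZ (qExpand K p (jqModC K)))).IsRoot (rootAt ζ (hζ.ne_zero (NeZero.ne p)) i) := by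
  have hζ0 : ζ ≠ 0 := hζ.ne_zero (NeZero.ne p)
  rw [Polynomial.IsRoot, Polynomial.eval_map]
  rcases i with _ | b
  · have h := eval_jp_ring_qExpand K D p
    exact h
  · have h := eval₂_evZ_hom (tw (ζ ^ (b : ℕ)) (pow_ne_zero _ hζ0)) D.Φ _ _ (eval_j_ring K D)
    rwa [tw_qExpand_of_pow_eq_one] at h
    rw [← pow_mul, mul_comm, pow_mul, hζ.pow_eq_one, one_pow]

/-- **Root list** of the modular polynomial at prime level. -/
theorem map_eq_prod_rootAt (hp : 1 < p) (ζ : K) (hζ : IsPrimitiveRoot ζ p) :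
    D.Φ.map (evZ (qExpand K p (jqModC K))) =
      ∏ i : Option (Fin p), (X - C (rootAt ζ (hζ.ne_zero (NeZero.ne p)) i)) := by
  have hmonic : (D.Φ.map (evZ (qExpand K p (jqModC K)))).Monic := D.monic.map _
  have hprod_monic : (∏ i : Option (Fin p),
      (X - C (rootAt ζ (hζ.ne_zero (NeZero.ne p)) i))).Monic :=
    Polynomial.monic_prod_of_monic _ _ fun i _ => Polynomial.monic_X_sub_C _
  have hdvd : (∏ i : Option (Fin p), (X - C (rootAt ζ (hζ.ne_zero (NeZero.ne p)) i))) ∣
      D.Φ.map (evZ (qExpand K p (jqModC K))) := by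
    refine Finset.prod_dvd_of_coprime ?_ ?_
    · intro i _ j _ hij
      exact Polynomial.pairwise_coprime_X_sub_C (rootAt_injective hp ζ hζ) hij
    · intro i _
      exact Polynomial.dvd_iff_isRoot.mpr (rootAt_isRoot D ζ hζ i)
  refine Polynomial.eq_of_monic_of_dvd_of_natDegree_le hprod_monic hmonic hdvd ?_
  rw [D.monic.natDegree_map, D.natDegree_eq, Polynomial.natDegree_prod_of_monic _ _
    fun i _ => Polynomial.monic_X_sub_C _]
  simp

/-- Root list after the substitution `t ↦ t^m`. -/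
theorem map_eq_prod_rootAt_qExpand (hp : 1 < p) (ζ : K) (hζ : IsPrimitiveRoot ζ p)
    (m : ℕ) [NeZero m] [NeZero (m * p)] :
    D.Φ.map (evZ (qExpand K (m * p) (jqModC K))) =
      ∏ i : Option (Fin p),
        (X - C (qExpand K m (rootAt ζ (hζ.ne_zero (NeZero.ne p)) i))) := by
  have h := congrArg (Polynomial.map (qExpand K m)) (map_eq_prod_rootAt D hp ζ hζ)
  rw [map_map_evZ, qExpand_qExpand, Polynomial.map_prod] at h
  rw [h]
  refine Finset.prod_congr rfl fun i _ => ?_
  rw [Polynomial.map_sub, Polynomial.map_X, Polynomial.map_C]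

end Field

end Fermat.Agent.S28.H208

end

end
-- ===== PACK-END S28/H208/RootList.lean

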