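import Mathlib
import Fermat.Prelude.Def_FLTPrelim_Modularity
import Fermat.Prelude.Def_GaloisRep_Residual
import Fermat.Agent.Pack.S58.E0L0
import Fermat.Agent.Pack.S58.E0L2
import Fermat.Agent.Pack.S58.E1L0
import Fermat.Agent.Pack.S58.E1L3
import Fermat.Agent.Pack.S58.E0L1
import Fermat.Agent.Pack.S58.E0L3
import Fermat.Agent.Pack.S36.E8L1
import Fermat.Agent.Pack.S36.E6L2
import Fermat.Agent.Pack.S36.E0L1
import Fermat.Agent.Pack.S36.E4L2
import Fermat.Agent.Pack.S58.E1L1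
import Fermat.Agent.Pack.S58.E1L2

-- ===== PACK-BEGIN S52/H545/Gen.lean
section





/-!
# S52 Part A (helper545): the generic point, the subgroup `M` and the exact height

`F` a field, `W₀` an elliptic curve over `F`, `κ` a field extension of `F` with `Sep`
(e.g. of characteristic `≠ 2`), `KK = κ(W₀)` the function field.  Inside the group `W₀(KK)` we consider

* `genericPoint = (x, y)`;
* `tauP` : the action of the hyperelliptic involution on points, and `MM = {P | τ P = -P}`,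
  a subgroup containing the generic point, whose affine points have `x`-coordinate in `κ(x)`;
* `hgt : W₀(KK) → ℕ`, the degree of the `x`-coordinate as a rational function of `x`;
* `hgt_parallelogram` : the exact parallelogram law on `MM`.
-/

set_option autoImplicit false

namespace Fermat.Agent.S52.H545

open WeierstrassCurve WeierstrassCurve.Affine Polynomial

variable {F : Type*} [Field F] (W₀ : WeierstrassCurve F)
variable (κ : Type*) [Field κ] [Algebra F κ]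

/-- The curve over `κ`. -/
abbrev Wκ : WeierstrassCurve.Affine κ := W₀⁄κ

/-- The function field of the curve over `κ`. -/
abbrev KK : Type _ := (Wκ W₀ κ).FunctionField

noncomputable instance instDecEqKK : DecidableEq (KK W₀ κ) := Classical.decEq _

/-- The group of points over the function field. -/
abbrev EK : Type _ := (W₀⁄(KK W₀ κ)).Point

lemma algebraMap_KK (a : F) :
    algebraMap F (KK W₀ κ) a = algebraMap κ (KK W₀ κ) (algebraMap F κ a) :=
  IsScalarTower.algebraMap_apply F κ (KK W₀ κ) a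

lemma generic_equation :
    (W₀⁄(KK W₀ κ)).Equation (xF (Wκ W₀ κ)) (yF (Wκ W₀ κ)) := by
  rw [Affine.equation_iff]
  have h := yF_equation (Wκ W₀ κ)
  simp only [Wκ, WeierstrassCurve.baseChange, WeierstrassCurve.map_a₁, WeierstrassCurve.map_a₂,
    WeierstrassCurve.map_a₃, WeierstrassCurve.map_a₄, WeierstrassCurve.map_a₆,
    ← algebraMap_KK] at h ⊢
  exact h

/-- The hyperelliptic involution acting on points. -/
noncomputable def tauP : EK W₀ κ →+ EK W₀ κ :=
  Point.map (W' := W₀) (conjF (Wκ W₀ κ))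

/-- The subgroup of points `P` with `τ P = -P`. -/
noncomputable def MM : AddSubgroup (EK W₀ κ) :=
  (tauP W₀ κ + AddMonoidHom.id _).ker

lemma mem_MM {P : EK W₀ κ} : P ∈ MM W₀ κ ↔ tauP W₀ κ P = -P := by
  rw [MM, AddMonoidHom.mem_ker, AddMonoidHom.add_apply, AddMonoidHom.id_apply,
    add_eq_zero_iff_eq_neg]

lemma tauP_some {X Y : KK W₀ κ} (h : (W₀⁄(KK W₀ κ)).Nonsingular X Y) :
    ∃ h', tauP W₀ κ (Point.some X Y h) =
      Point.some (conjF (Wκ W₀ κ) X) (conjF (Wκ W₀ κ) Y) h' :=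
  ⟨_, rfl⟩

/-- Affine points of `MM` have their `x`-coordinate in `κ(x)`. -/
lemma exists_ιK_eq_of_mem (hs : Sep (Wκ W₀ κ)) {X Y : KK W₀ κ}
    {h : (W₀⁄(KK W₀ κ)).Nonsingular X Y} (hM : Point.some X Y h ∈ MM W₀ κ) :
    ∃ r : RatFunc κ, ιK (Wκ W₀ κ) r = X := by
  rw [mem_MM] at hM
  obtain ⟨h', e⟩ := tauP_some W₀ κ h
  rw [e, Point.neg_some] at hM
  have hX : conjF (Wκ W₀ κ) X = X := by
    injection hM
  exact mem_range_ιK_of_conjF_eq _ hs hX

/-! ### The height -/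

open Classical in
/-- A primitive pair of polynomials representing the `x`-coordinate (`(1, 0)` for the point at
infinity). -/
noncomputable def xvec (P : EK W₀ κ) : Fin 2 → κ[X] :=
  match P with
  | .zero => ![1, 0]
  | .some X _ _ =>
    if h : ∃ r : RatFunc κ, ιK (Wκ W₀ κ) r = X then ![h.choose.num, h.choose.denom] else ![1, 0]

/-- The height: the degree of the `x`-coordinate as a rational function of `x`. -/
noncomputable def hgt (P : EK W₀ κ) : ℕ := maxDeg (xvec W₀ κ P)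

lemma xvec_zero : xvec W₀ κ (0 : EK W₀ κ) = ![1, 0] := rfl

lemma hgt_zero : hgt W₀ κ (0 : EK W₀ κ) = 0 := by
  rw [hgt, xvec_zero, maxDeg]
  apply Nat.le_zero.mp
  apply Finset.sup_le
  intro i _
  fin_cases i <;> simp

lemma xvec_some {X Y : KK W₀ κ} {h : (W₀⁄(KK W₀ κ)).Nonsingular X Y} (r : RatFunc κ)
    (hr : ιK (Wκ W₀ κ) r = X) : xvec W₀ κ (Point.some X Y h) = ![r.num, r.denom] := by
  have hex : ∃ r : RatFunc κ, ιK (Wκ W₀ κ) r = X := ⟨r, hr⟩
  have hc : hex.choose = r := ιK_injective _ (hex.choose_spec.trans hr.symm)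
  simp only [xvec, dif_pos hex, hc]

lemma prim_xvec (P : EK W₀ κ) : Prim (xvec W₀ κ P) := by
  rw [prim_pair_iff]
  rcases P with _ | ⟨X, Y, h⟩
  · exact ⟨1, 0, by simp [xvec]⟩
  · by_cases hex : ∃ r : RatFunc κ, ιK (Wκ W₀ κ) r = X
    · obtain ⟨r, hr⟩ := hex
      rw [xvec_some W₀ κ r hr]
      exact RatFunc.isCoprime_num_denom r
    · simp only [xvec, dif_neg hex]
      exact ⟨1, 0, by simp⟩

/-- For points of `MM` the pair `xvec` represents the `x`-coordinate. -/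
lemma ιP_xvec (hs : Sep (Wκ W₀ κ)) {P : EK W₀ κ} (hP : P ∈ MM W₀ κ) :
    ∃ c : KK W₀ κ, c ≠ 0 ∧ (ιP (Wκ W₀ κ)) ∘ (xvec W₀ κ P) = c • P.xRep := by
  rcases P with _ | ⟨X, Y, h⟩
  · refine ⟨1, one_ne_zero, ?_⟩
    funext i
    fin_cases i <;> simp [xvec, Point.xRep]
  · obtain ⟨r, hr⟩ := exists_ιK_eq_of_mem W₀ κ hs hP
    rw [xvec_some W₀ κ r hr]
    have hd : ιP (Wκ W₀ κ) r.denom ≠ 0 := fun h0 =>
      r.denom_ne_zero ((ιP_eq_zero _).mp h0)
    refine ⟨ιP (Wκ W₀ κ) r.denom, hd, ?_⟩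
    have hX : X = ιP (Wκ W₀ κ) r.num / ιP (Wκ W₀ κ) r.denom := by rw [← hr, ιK_apply]
    funext i
    fin_cases i
    · simp only [Point.xRep, Function.comp_apply, Pi.smul_apply, smul_eq_mul, Fin.zero_eta,
        Fin.isValue, Matrix.cons_val_zero]
      rw [hX, mul_div_cancel₀ _ hd]
    · simp [Point.xRep]

lemma sym2x_eq_sv (P Q : EK W₀ κ) : P.sym2x Q = sv P.xRep Q.xRep := rfl

lemma polyCurve_map :
    (polyCurve (Wκ W₀ κ)).map (ιP (Wκ W₀ κ)) = W₀.baseChange (KK W₀ κ) := by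
  ext <;>
  simp only [WeierstrassCurve.baseChange, WeierstrassCurve.map_a₁, WeierstrassCurve.map_a₂,
    WeierstrassCurve.map_a₃, WeierstrassCurve.map_a₄, WeierstrassCurve.map_a₆, ιP_C,
    ← algebraMap_KK]

/-! ### The generic point and the parallelogram law (elliptic case) -/

variable [W₀.IsElliptic]

instance instIsEllipticBaseChangeH545 {A : Type*} [CommRing A] [Algebra F A] :
    (W₀.baseChange A).IsElliptic :=
  inferInstanceAs (W₀.map (algebraMap F A)).IsElliptic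

lemma generic_nonsingular :
    (W₀⁄(KK W₀ κ)).Nonsingular (xF (Wκ W₀ κ)) (yF (Wκ W₀ κ)) :=
  Affine.equation_iff_nonsingular.mp (generic_equation W₀ κ)

/-- The generic point `(x, y)`. -/
noncomputable def genericPoint : EK W₀ κ :=
  Point.some _ _ (generic_nonsingular W₀ κ)

lemma genericPoint_mem : genericPoint W₀ κ ∈ MM W₀ κ := by
  rw [mem_MM, genericPoint]
  obtain ⟨h', e⟩ := tauP_some W₀ κ (generic_nonsingular W₀ κ)
  rw [e, Point.neg_some]
  congr 1
  · exact conjF_xF _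
  · rw [conjF_yF, Affine.negY]
    simp only [Wκ, WeierstrassCurve.baseChange, WeierstrassCurve.map_a₁,
      WeierstrassCurve.map_a₃, map_add, map_mul, ιP_C, ιP_X, ← algebraMap_KK]
    ring

/-- **The exact parallelogram law** on `MM`. -/
theorem hgt_parallelogram (hs : Sep (Wκ W₀ κ)) {P Q : EK W₀ κ} (hP : P ∈ MM W₀ κ)
    (hQ : Q ∈ MM W₀ κ) :
    hgt W₀ κ (P + Q) + hgt W₀ κ (P - Q) = 2 * hgt W₀ κ P + 2 * hgt W₀ κ Q := by
  have hPQ : P + Q ∈ MM W₀ κ := (MM W₀ κ).add_mem hP hQ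
  have hPQ' : P - Q ∈ MM W₀ κ := (MM W₀ κ).sub_mem hP hQ
  obtain ⟨cP, hcP, eP⟩ := ιP_xvec W₀ κ hs hP
  obtain ⟨cQ, hcQ, eQ⟩ := ιP_xvec W₀ κ hs hQ
  obtain ⟨cA, hcA, eA⟩ := ιP_xvec W₀ κ hs hPQ
  obtain ⟨cS, hcS, eS⟩ := ιP_xvec W₀ κ hs hPQ'
  obtain ⟨cL, hcL, eL⟩ := Fermat.Agent.S52.H309.addSubVec_sym2x (W := W₀⁄(KK W₀ κ)) P Q
  set v := sv (xvec W₀ κ P) (xvec W₀ κ Q) with hv
  set v' := sv (xvec W₀ κ (P + Q)) (xvec W₀ κ (P - Q)) with hv'
  set w := asv (polyCurve (Wκ W₀ κ)) v with hw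
  have pv : Prim v := prim_sv (prim_xvec W₀ κ P) (prim_xvec W₀ κ Q)
  have pv' : Prim v' := prim_sv (prim_xvec W₀ κ _) (prim_xvec W₀ κ _)
  haveI : (Wκ W₀ κ).IsElliptic := instIsEllipticBaseChangeH545 W₀
  have pw : Prim w := prim_asv _ pv
  have dv : maxDeg v = hgt W₀ κ P + hgt W₀ κ Q :=
    maxDeg_sv (prim_xvec W₀ κ P).ne_zero (prim_xvec W₀ κ Q).ne_zero
  have dv' : maxDeg v' = hgt W₀ κ (P + Q) + hgt W₀ κ (P - Q) :=
    maxDeg_sv (prim_xvec W₀ κ _).ne_zero (prim_xvec W₀ κ _).ne_zero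
  have dw : maxDeg w = 2 * maxDeg v := maxDeg_asv _ pv.ne_zero
  -- images in the function field
  have iv : (ιP (Wκ W₀ κ)) ∘ v = (cP * cQ) • P.sym2x Q := by
    rw [hv, ← sv_map, eP, eQ, sv_smul, sym2x_eq_sv]
  have iv' : (ιP (Wκ W₀ κ)) ∘ v' = (cA * cS) • (P + Q).sym2x (P - Q) := by
    rw [hv', ← sv_map, eA, eS, sv_smul, sym2x_eq_sv]
  have iw : (ιP (Wκ W₀ κ)) ∘ w = ((cP * cQ) ^ 2 * cL) • (P + Q).sym2x (P - Q) := by
    rw [hw, ← asv_map, polyCurve_map, iv, asv_smul, asv_eq_eval]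
    have : (fun i => MvPolynomial.eval (P.sym2x Q) ((W₀.baseChange (KK W₀ κ)).addSubMap i))
        = cL • (P + Q).sym2x (P - Q) := eL
    rw [this, smul_smul]
  have hcross : ∀ i j, w i * v' j = w j * v' i := by
    intro i j
    apply ιP_injective (Wκ W₀ κ)
    have e1 := congrFun iw i
    have e2 := congrFun iw j
    have e3 := congrFun iv' i
    have e4 := congrFun iv' j
    simp only [Function.comp_apply, Pi.smul_apply, smul_eq_mul] at e1 e2 e3 e4
    rw [map_mul, map_mul, e1, e2, e3, e4]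
    ring
  have := maxDeg_eq_of_cross pw pv' hcross
  rw [← dv', ← this, dw, dv]
  ring

end Fermat.Agent.S52.H545

end
-- ===== PACK-END S52/H545/Gen.lean

-- ===== PACK-BEGIN S52/H545/Frob.lean
section






/-!
# S52 Part A (helper545): Frobenius on the generic-point model

`F` a finite field with `q` elements, `W₀/F` elliptic, `κ ⊇ F` of characteristic `≠ 2`.
`PhiP : W₀(KK) →+ W₀(KK)` is the `q`-power Frobenius on coordinates.  We show that it preserves
`MM`, that `hgt (Φ P) = q * hgt P` on `MM`, and that `hgt (Φ P - P) = N * hgt P` on `MM` as soon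
as Manin's rational function `Ũ/Ṽ` has reduced form `U₁/V₁` with `deg U₁ = N > deg V₁`
(`ManinData`).
-/

set_option autoImplicit false

namespace Fermat.Agent.S52.H545

open WeierstrassCurve WeierstrassCurve.Affine Polynomial

variable {F : Type*} [Field F] [Fintype F] (W₀ : WeierstrassCurve F)
variable (κ : Type*) [Field κ] [Algebra F κ]

/-- The `q`-power Frobenius of the function field, as an `F`-algebra endomorphism. -/
noncomputable def frobK : KK W₀ κ →ₐ[F] KK W₀ κ := FiniteField.frobeniusAlgHom F (KK W₀ κ)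

lemma frobK_apply (z : KK W₀ κ) : frobK W₀ κ z = z ^ Fintype.card F := rfl

/-- Frobenius on points. -/
noncomputable def PhiP : EK W₀ κ →+ EK W₀ κ := Point.map (W' := W₀) (frobK W₀ κ)

lemma PhiP_zero : PhiP W₀ κ 0 = 0 := map_zero _

lemma PhiP_some {X Y : KK W₀ κ} (h : (W₀⁄(KK W₀ κ)).Nonsingular X Y) :
    ∃ h', PhiP W₀ κ (Point.some X Y h) =
      Point.some (X ^ Fintype.card F) (Y ^ Fintype.card F) h' :=
  ⟨_, rfl⟩

lemma tauP_PhiP (P : EK W₀ κ) : tauP W₀ κ (PhiP W₀ κ P) = PhiP W₀ κ (tauP W₀ κ P) := by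
  rcases P with _ | ⟨X, Y, h⟩
  · rfl
  · obtain ⟨h1, e1⟩ := PhiP_some W₀ κ h
    obtain ⟨hs, e2⟩ := tauP_some W₀ κ h
    obtain ⟨h3, e3⟩ := tauP_some W₀ κ h1
    obtain ⟨h4, e4⟩ := PhiP_some W₀ κ hs
    rw [e1, e3, e2, e4]
    simp only [map_pow]

lemma PhiP_mem {P : EK W₀ κ} (hP : P ∈ MM W₀ κ) : PhiP W₀ κ P ∈ MM W₀ κ := by
  rw [mem_MM] at hP ⊢
  rw [tauP_PhiP, hP, map_neg]

/-- Any primitive pair representing the `x`-coordinate computes the height. -/
lemma hgt_eq_of_repr (hs : Sep (Wκ W₀ κ)) {P : EK W₀ κ} (hP : P ∈ MM W₀ κ) {a : Fin 2 → κ[X]}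
    (ha : Prim a) {c : KK W₀ κ} (hc : c ≠ 0) (h : (ιP (Wκ W₀ κ)) ∘ a = c • P.xRep) :
    hgt W₀ κ P = maxDeg a := by
  obtain ⟨c', hc', h'⟩ := ιP_xvec W₀ κ hs hP
  apply maxDeg_eq_of_cross (prim_xvec W₀ κ P) ha
  intro i j
  apply ιP_injective (Wκ W₀ κ)
  have e1 := congrFun h i
  have e2 := congrFun h j
  have e3 := congrFun h' i
  have e4 := congrFun h' j
  simp only [Function.comp_apply, Pi.smul_apply, smul_eq_mul] at e1 e2 e3 e4
  rw [map_mul, map_mul, e1, e2, e3, e4]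
  ring

variable [W₀.IsElliptic]

lemma hgt_neg (hs : Sep (Wκ W₀ κ)) {P : EK W₀ κ} (hP : P ∈ MM W₀ κ) :
    hgt W₀ κ (-P) = hgt W₀ κ P := by
  have := hgt_parallelogram W₀ κ hs (MM W₀ κ).zero_mem hP
  rw [zero_add, zero_sub, hgt_zero] at this
  omega

/-- `hgt (Φ P) = q * hgt P` on `MM`. -/
theorem hgt_PhiP (hs : Sep (Wκ W₀ κ)) {P : EK W₀ κ} (hP : P ∈ MM W₀ κ) :
    hgt W₀ κ (PhiP W₀ κ P) = Fintype.card F * hgt W₀ κ P := by
  rcases P with _ | ⟨X, Y, h⟩
  · change hgt W₀ κ (PhiP W₀ κ 0) = _ * hgt W₀ κ 0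
    rw [PhiP_zero, hgt_zero, mul_zero]
  · obtain ⟨r, hr⟩ := exists_ιK_eq_of_mem W₀ κ hs hP
    obtain ⟨h1, e1⟩ := PhiP_some W₀ κ h
    have hd : ιP (Wκ W₀ κ) r.denom ≠ 0 := fun h0 =>
      r.denom_ne_zero ((ιP_eq_zero _).mp h0)
    have hX : X = ιP (Wκ W₀ κ) r.num / ιP (Wκ W₀ κ) r.denom := by rw [← hr, ιK_apply]
    have hq : 0 < Fintype.card F := Fintype.card_pos
    have hrep : hgt W₀ κ (PhiP W₀ κ (Point.some X Y h)) =
        maxDeg ![r.num ^ Fintype.card F, r.denom ^ Fintype.card F] := by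
      apply hgt_eq_of_repr W₀ κ hs (PhiP_mem W₀ κ hP) (c := ιP (Wκ W₀ κ) r.denom ^ Fintype.card F)
      · rw [prim_pair_iff]
        exact (RatFunc.isCoprime_num_denom r).pow
      · exact pow_ne_zero _ hd
      · rw [e1]
        funext i
        fin_cases i
        · simp only [Point.xRep, Function.comp_apply, Pi.smul_apply, smul_eq_mul, Fin.zero_eta,
            Fin.isValue, Matrix.cons_val_zero, map_pow]
          rw [hX, div_pow, mul_div_cancel₀ _ (pow_ne_zero _ hd)]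
        · simp [Point.xRep]
    rw [hrep, hgt, xvec_some W₀ κ r hr, maxDeg_fin2, maxDeg_fin2]
    simp only [Fin.isValue, Matrix.cons_val_zero, Matrix.cons_val_one, natDegree_pow]
    rw [Nat.mul_max_mul_left]

/-! ### Manin's rational function -/

omit [W₀.IsElliptic] in
/-- The `2`-division cubic `4X³ + b₂X² + 2b₄X + b₆`. -/
noncomputable def gPoly : F[X] := 4 * X ^ 3 + C W₀.b₂ * X ^ 2 + 2 * C W₀.b₄ * X + C W₀.b₆

/-- Numerator of Manin's rational function `x(Φ P - P)` as a function of `x(P)`. -/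
noncomputable def manU : F[X] :=
  2 * (2 * (X ^ Fintype.card F + X) * (X ^ Fintype.card F * X)
      + C W₀.b₂ * (X ^ Fintype.card F * X) + C W₀.b₄ * (X ^ Fintype.card F + X) + C W₀.b₆)
    + 2 * gPoly W₀ ^ (Fintype.card F / 2 + 1)

/-- Denominator of Manin's rational function. -/
noncomputable def manV (F : Type*) [Field F] [Fintype F] : F[X] :=
  4 * (X ^ Fintype.card F - X) ^ 2

/-- The reduced form `U₁/V₁` of Manin's rational function `Ũ/Ṽ`, of degree `N`. -/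
structure ManinData (N : ℕ) where
  /-- the common factor -/
  G : F[X]
  /-- reduced numerator -/
  U₁ : F[X]
  /-- reduced denominator -/
  V₁ : F[X]
  hU : manU W₀ = G * U₁
  hV : manV F = G * V₁
  cop : IsCoprime U₁ V₁
  degU : U₁.natDegree = N
  degV : V₁.natDegree ≤ N

/-- A pair `(U, V)` of polynomials over `F` computing the `x`-coordinate of `Φ P - P` as the
rational function `U / V` of the `x`-coordinate of `P`. -/
structure ManinPair (U V : F[X]) : Prop where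
  formula : ∀ {X Y : KK W₀ κ} (h : (W₀⁄(KK W₀ κ)).Nonsingular X Y), X ^ Fintype.card F ≠ X →
    ∃ (x₃ y₃ : KK W₀ κ) (h₃ : (W₀⁄(KK W₀ κ)).Nonsingular x₃ y₃),
      PhiP W₀ κ (Point.some X Y h) - Point.some X Y h = Point.some x₃ y₃ h₃ ∧
      eval₂ (algebraMap F (KK W₀ κ)) X V * x₃ = eval₂ (algebraMap F (KK W₀ κ)) X U
  ne_zero : ∀ {X : KK W₀ κ}, X ^ Fintype.card F ≠ X → eval₂ (algebraMap F (KK W₀ κ)) X V ≠ 0

/-- The reduced form `U₁ / V₁` of a rational function `U / V`, of degree `N`. -/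
structure RedData (U V : F[X]) (N : ℕ) where
  /-- the common factor -/
  G : F[X]
  /-- reduced numerator -/
  U₁ : F[X]
  /-- reduced denominator -/
  V₁ : F[X]
  hU : U = G * U₁
  hV : V = G * V₁
  cop : IsCoprime U₁ V₁
  degU : U₁.natDegree = N
  degV : V₁.natDegree ≤ N

/-- `ManinData` is `RedData` for Manin's pair in odd characteristic. -/
def ManinData.toRedData {N : ℕ} (D : ManinData W₀ N) : RedData (manU W₀) (manV F) N :=
  ⟨D.G, D.U₁, D.V₁, D.hU, D.hV, D.cop, D.degU, D.degV⟩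

omit [W₀.IsElliptic] in
lemma card_odd (h2 : (2 : κ) ≠ 0) : Fintype.card F % 2 = 1 := by
  apply FiniteField.odd_card_of_char_ne_two
  intro h
  have _ : CharP F 2 := by rw [← h]; exact ringChar.charP F
  have h20 : (2 : F) = 0 := CharTwo.two_eq_zero
  apply h2
  have h20' := congrArg (algebraMap F κ) h20
  rw [map_ofNat, map_zero] at h20'
  exact h20'

open Fermat.Agent.S05 in
omit [W₀.IsElliptic] in
/-- The `x`-coordinate of `Φ P - P`. -/
lemma PhiP_sub_some (h2 : (2 : κ) ≠ 0) {X Y : KK W₀ κ}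
    (h : (W₀⁄(KK W₀ κ)).Nonsingular X Y) (hX : X ^ Fintype.card F ≠ X) :
    ∃ (x₃ y₃ : KK W₀ κ) (h₃ : (W₀⁄(KK W₀ κ)).Nonsingular x₃ y₃),
      PhiP W₀ κ (Point.some X Y h) - Point.some X Y h = Point.some x₃ y₃ h₃ ∧
      eval₂ (algebraMap F (KK W₀ κ)) X (manV F) * x₃ =
        eval₂ (algebraMap F (KK W₀ κ)) X (manU W₀) := by
  obtain ⟨h1, e1⟩ := PhiP_some W₀ κ h
  obtain ⟨xp, yp, xm, ym, hp, hm, -, esub, -, eform⟩ :=
    XOnly.add_sub_of_X_ne (W₀⁄(KK W₀ κ)) h1 h hX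
  refine ⟨xm, ym, hm, by rw [e1, esub], ?_⟩
  have hodd := card_odd (F := F) κ h2
  have hq : Fintype.card F + 1 = 2 * (Fintype.card F / 2 + 1) := by omega
  have heta : XOnly.eta (W₀⁄(KK W₀ κ)) (X ^ Fintype.card F) (Y ^ Fintype.card F) =
      XOnly.eta (W₀⁄(KK W₀ κ)) X Y ^ Fintype.card F := by
    simp only [XOnly.eta, WeierstrassCurve.baseChange, WeierstrassCurve.map_a₁,
      WeierstrassCurve.map_a₃, ← frobK_apply W₀ κ, map_add, map_mul, AlgHom.commutes, map_ofNat]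
  have hsq := XOnly.eta_sq (W₀⁄(KK W₀ κ)) h.1
  have hprod : XOnly.eta (W₀⁄(KK W₀ κ)) (X ^ Fintype.card F) (Y ^ Fintype.card F) *
      XOnly.eta (W₀⁄(KK W₀ κ)) X Y =
      XOnly.twoF (W₀⁄(KK W₀ κ)) X ^ (Fintype.card F / 2 + 1) := by
    rw [heta, ← pow_succ, hq, pow_mul, hsq]
  have eform' : 4 * (X ^ Fintype.card F - X) ^ 2 * xm =
      2 * XOnly.sumNum (W₀⁄(KK W₀ κ)) (X ^ Fintype.card F) X +
        2 * XOnly.twoF (W₀⁄(KK W₀ κ)) X ^ (Fintype.card F / 2 + 1) := by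
    rw [← hprod, eform]; ring
  have eV : eval₂ (algebraMap F (KK W₀ κ)) X (manV F) = 4 * (X ^ Fintype.card F - X) ^ 2 := by
    simp [manV, eval₂_mul, eval₂_pow, eval₂_sub, eval₂_X]
  have eU : eval₂ (algebraMap F (KK W₀ κ)) X (manU W₀) =
      2 * XOnly.sumNum (W₀⁄(KK W₀ κ)) (X ^ Fintype.card F) X +
        2 * XOnly.twoF (W₀⁄(KK W₀ κ)) X ^ (Fintype.card F / 2 + 1) := by
    simp only [manU, gPoly, XOnly.sumNum, XOnly.twoF, WeierstrassCurve.baseChange,
      WeierstrassCurve.map_b₂, WeierstrassCurve.map_b₄, WeierstrassCurve.map_b₆, eval₂_add,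
      eval₂_mul, eval₂_pow, eval₂_X, eval₂_C, eval₂_ofNat]
  rw [eV, eU, ← eform']

omit [Fintype F] [W₀.IsElliptic] in
lemma some_eq_some_h545 {x y x' y' : KK W₀ κ} (hx : x = x') (hy : y = y')
    (h : (W₀⁄(KK W₀ κ)).Nonsingular x y) (h' : (W₀⁄(KK W₀ κ)).Nonsingular x' y') :
    (Point.some x y h : EK W₀ κ) = Point.some x' y' h' := by
  subst hx hy; rfl

omit [Fintype F] [W₀.IsElliptic] in
lemma algebraMap_comp_eq :
    ((ιP (Wκ W₀ κ)).comp (C : κ →+* κ[X])).comp (algebraMap F κ) = algebraMap F (KK W₀ κ) := by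
  ext a
  simp only [RingHom.comp_apply, ιP_C, ← algebraMap_KK]

omit [W₀.IsElliptic] in
lemma ιP_hom2 (U : F[X]) {N : ℕ} (hU : U.natDegree ≤ N) (n : κ[X]) {d : κ[X]}
    (hd : ιP (Wκ W₀ κ) d ≠ 0) :
    ιP (Wκ W₀ κ) (hom2 (C : κ →+* κ[X]) (U.map (algebraMap F κ)) N n d) =
      ιP (Wκ W₀ κ) d ^ N *
        eval₂ (algebraMap F (KK W₀ κ)) (ιP (Wκ W₀ κ) n / ιP (Wκ W₀ κ) d) U := by
  rw [map_hom2, hom2_of_ne_zero _ ((natDegree_map_le).trans hU) _ hd, eval₂_map,
    algebraMap_comp_eq]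

/-- `hgt (Φ P - P) = N * hgt P` on `MM`, given a pair `(U, V)` computing `x(Φ P - P)` and its
reduced form. -/
theorem hgt_PhiP_sub_of_pair (hs : Sep (Wκ W₀ κ)) {U V : F[X]} (MP : ManinPair W₀ κ U V)
    {N : ℕ} (D : RedData U V N) {P : EK W₀ κ} (hP : P ∈ MM W₀ κ) : hgt W₀ κ (PhiP W₀ κ P - P) = N * hgt W₀ κ P := by
  rcases P with _ | ⟨X, Y, h⟩
  · change hgt W₀ κ (PhiP W₀ κ 0 - 0) = _ * hgt W₀ κ 0
    rw [PhiP_zero, sub_zero, hgt_zero, mul_zero]
  · obtain ⟨h1, e1⟩ := PhiP_some W₀ κ h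
    by_cases hX : X ^ Fintype.card F = X
    · -- constant `x`-coordinate
      obtain ⟨c, hc⟩ := exists_eq_algebraMap_of_pow_card_eq (F := F) hX
      have h0 : hgt W₀ κ (Point.some X Y h) = 0 := by
        have hrep : hgt W₀ κ (Point.some X Y h) = maxDeg ![C (algebraMap F κ c), (1 : κ[X])] := by
          apply hgt_eq_of_repr W₀ κ hs hP (c := 1)
          · rw [prim_pair_iff]
            exact ⟨0, 1, by simp⟩
          · exact one_ne_zero
          · funext i
            fin_cases i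
            · simp [Point.xRep, ιP_C, ← algebraMap_KK, hc]
            · simp [Point.xRep]
        rw [hrep, maxDeg_fin2]
        simp
      rw [h0, mul_zero]
      rcases Affine.Y_eq_of_X_eq h1.1 h.1 hX with hY | hY
      · have : PhiP W₀ κ (Point.some X Y h) = Point.some X Y h := by
          rw [e1]; exact some_eq_some_h545 W₀ κ hX hY _ _
        rw [this, sub_self, hgt_zero]
      · have : PhiP W₀ κ (Point.some X Y h) = -Point.some X Y h := by
          rw [e1, Point.neg_some]; exact some_eq_some_h545 W₀ κ hX hY _ _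
        rw [this]
        have hneg : -Point.some X Y h ∈ MM W₀ κ := (MM W₀ κ).neg_mem hP
        have hpar := hgt_parallelogram W₀ κ hs hneg hP
        rw [hgt_neg W₀ κ hs hP, h0, neg_add_cancel, hgt_zero] at hpar
        omega
    · obtain ⟨x₃, y₃, h₃, esub, eform⟩ := MP.formula h hX
      obtain ⟨r, hr⟩ := exists_ιK_eq_of_mem W₀ κ hs hP
      have hd : ιP (Wκ W₀ κ) r.denom ≠ 0 := fun h0 =>
        r.denom_ne_zero ((ιP_eq_zero _).mp h0)
      have hXr : X = ιP (Wκ W₀ κ) r.num / ιP (Wκ W₀ κ) r.denom := by rw [← hr, ιK_apply]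
      -- the reduced equation
      have hVne : eval₂ (algebraMap F (KK W₀ κ)) X V ≠ 0 := MP.ne_zero hX
      have eV : eval₂ (algebraMap F (KK W₀ κ)) X V =
          eval₂ (algebraMap F (KK W₀ κ)) X D.G * eval₂ (algebraMap F (KK W₀ κ)) X D.V₁ := by
        rw [← eval₂_mul, ← D.hV]
      have eU : eval₂ (algebraMap F (KK W₀ κ)) X U =
          eval₂ (algebraMap F (KK W₀ κ)) X D.G * eval₂ (algebraMap F (KK W₀ κ)) X D.U₁ := by
        rw [← eval₂_mul, ← D.hU]
      rw [eV] at hVne eform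
      rw [eU, mul_assoc] at eform
      have hG := left_ne_zero_of_mul hVne
      have hV1 := right_ne_zero_of_mul hVne
      have ered : eval₂ (algebraMap F (KK W₀ κ)) X D.V₁ * x₃ =
          eval₂ (algebraMap F (KK W₀ κ)) X D.U₁ := mul_left_cancel₀ hG eform
      -- the representation
      set A := hom2 (C : κ →+* κ[X]) (D.U₁.map (algebraMap F κ)) N r.num r.denom with hA
      set B := hom2 (C : κ →+* κ[X]) (D.V₁.map (algebraMap F κ)) N r.num r.denom with hB
      have eA : ιP (Wκ W₀ κ) A = ιP (Wκ W₀ κ) r.denom ^ N *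
          eval₂ (algebraMap F (KK W₀ κ)) X D.U₁ := by
        rw [hA, ιP_hom2 W₀ κ _ D.degU.le _ hd, ← hXr]
      have eB : ιP (Wκ W₀ κ) B = ιP (Wκ W₀ κ) r.denom ^ N *
          eval₂ (algebraMap F (KK W₀ κ)) X D.V₁ := by
        rw [hB, ιP_hom2 W₀ κ _ D.degV _ hd, ← hXr]
      have hcop : IsCoprime (D.U₁.map (algebraMap F κ)) (D.V₁.map (algebraMap F κ)) :=
        D.cop.map (Polynomial.mapRingHom (algebraMap F κ))
      have hdU : (D.U₁.map (algebraMap F κ)).natDegree = N := by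
        rw [natDegree_map, D.degU]
      have hdV : (D.V₁.map (algebraMap F κ)).natDegree ≤ N := by
        rw [natDegree_map]; exact D.degV
      have hprim : Prim ![A, B] := prim_hom2' hcop hdU hdV (RatFunc.isCoprime_num_denom r)
      have hdeg : maxDeg ![A, B] = N * maxDeg ![r.num, r.denom] :=
        maxDeg_hom2' hcop hdU hdV (RatFunc.isCoprime_num_denom r)
      have hmem : PhiP W₀ κ (Point.some X Y h) - Point.some X Y h ∈ MM W₀ κ :=
        (MM W₀ κ).sub_mem (PhiP_mem W₀ κ hP) hP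
      have hrep : hgt W₀ κ (PhiP W₀ κ (Point.some X Y h) - Point.some X Y h) = maxDeg ![A, B] := by
        apply hgt_eq_of_repr W₀ κ hs hmem hprim (c := ιP (Wκ W₀ κ) B)
        · rw [eB]; exact mul_ne_zero (pow_ne_zero _ hd) hV1
        · rw [esub]
          funext i
          fin_cases i
          · simp only [Point.xRep, Function.comp_apply, Pi.smul_apply, smul_eq_mul, Fin.zero_eta,
              Fin.isValue, Matrix.cons_val_zero]
            rw [eA, eB, ← ered]; ring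
          · simp [Point.xRep]
      rw [hrep, hdeg, hgt, xvec_some W₀ κ r hr]

/-- Manin's pair in odd characteristic. -/
theorem maninPair_odd (h2 : (2 : κ) ≠ 0) : ManinPair W₀ κ (manU W₀) (manV F) where
  formula := fun h hX => PhiP_sub_some W₀ κ h2 h hX
  ne_zero := by
    intro X hX
    have h4 : (4 : KK W₀ κ) ≠ 0 := by
      have h2' : (2 : KK W₀ κ) ≠ 0 := by
        intro h0
        apply h2
        have : algebraMap κ (KK W₀ κ) 2 = 0 := by rw [map_ofNat]; exact h0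
        exact (map_eq_zero _).mp this
      have : (4 : KK W₀ κ) = 2 * 2 := by norm_num
      rw [this]; exact mul_ne_zero h2' h2'
    have : eval₂ (algebraMap F (KK W₀ κ)) X (manV F) = 4 * (X ^ Fintype.card F - X) ^ 2 := by
      simp [manV, eval₂_mul, eval₂_pow, eval₂_sub, eval₂_X]
    rw [this]
    exact mul_ne_zero h4 (pow_ne_zero _ (sub_ne_zero.mpr hX))

/-- `hgt (Φ P - P) = N * hgt P` on `MM`, given the reduced form of Manin's rational function
(odd characteristic). -/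
theorem hgt_PhiP_sub (h2 : (2 : κ) ≠ 0) {N : ℕ} (D : ManinData W₀ N) {P : EK W₀ κ}
    (hP : P ∈ MM W₀ κ) : hgt W₀ κ (PhiP W₀ κ P - P) = N * hgt W₀ κ P :=
  hgt_PhiP_sub_of_pair W₀ κ (sep_of_two_ne_zero _ h2) (maninPair_odd W₀ κ h2) D.toRedData hP

end Fermat.Agent.S52.H545

end
-- ===== PACK-END S52/H545/Frob.lean

-- ===== PACK-BEGIN Lib/Newform/H23/OldEigen.lean
section




/-!
# NEWFORM library (helper23) — `OldEigen`

An eigenvector of the good Hecke operators which lies in the old space `Σ_{p ∣ N} B_p S(N/p)`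
forces the eigensystem to occur at some level `N / p`.  Pure linear algebra on
`⨁_{p ∣ N} S(N/p)` (`exists_eigenvector_of_quotient`) + extraction (helper683 E2); the maps
`B_p` are never constructed, only their `q`-coefficients are used.
-/

set_option autoImplicit false

open CongruenceSubgroup ModularFormClass ModularForm UpperHalfPlane

namespace Fermat.Agent.Lib.Newform.H23

open Fermat.Agent.Lib.Newform

section OldSpace

variable (N : ℕ) [NeZero N]

theorem div_primeFactor_ne_zero (p : N.primeFactors) : N / (p : ℕ) ≠ 0 := by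
  have hp := Nat.mem_primeFactors.mp p.2
  have hpos : 0 < N / (p : ℕ) :=
    Nat.div_pos (Nat.le_of_dvd (Nat.pos_of_ne_zero hp.2.2) hp.2.1) hp.1.pos
  exact hpos.ne'

instance neZero_div_primeFactor (p : N.primeFactors) : NeZero (N / (p : ℕ)) :=
  ⟨div_primeFactor_ne_zero N p⟩

/-- The source of the old space: `⨁_{p ∣ N} S(N/p)`. -/
abbrev OldSrc : Type := (p : N.primeFactors) → CuspForm (Gamma0 (N / (p : ℕ))) 2

/-- The `n`-th `q`-coefficient of `Σ_p B_p g_p`, as a linear functional of `(g_p)`. -/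
noncomputable def oldQL (n : ℕ) : OldSrc N →ₗ[ℂ] ℂ :=
  ∑ p : N.primeFactors, if (p : ℕ) ∣ n then
    (H683.coeffLin (N / (p : ℕ)) 2 (n / (p : ℕ))).comp (LinearMap.proj p) else 0

theorem oldQL_apply (n : ℕ) (g : OldSrc N) :
    oldQL N n g = ∑ p : N.primeFactors,
      if (p : ℕ) ∣ n then qCoeff ⇑(g p) (n / (p : ℕ)) else 0 := by
  rw [oldQL, LinearMap.sum_apply]
  refine Finset.sum_congr rfl (fun p _ => ?_)
  split_ifs <;> simp

/-- The diagonal action of `T_ℓ` (for any prime `ℓ`; it is `T_ℓ` on `S(N/p)` when `ℓ ∤ N`). -/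
noncomputable def oldT (ℓ : Nat.Primes) : Module.End ℂ (OldSrc N) :=
  LinearMap.pi fun p => (H683.heckeFamily (N / (p : ℕ)) ℓ).comp (LinearMap.proj p)

theorem oldT_apply (ℓ : Nat.Primes) (g : OldSrc N) (p : N.primeFactors) :
    oldT N ℓ g p = H683.heckeFamily (N / (p : ℕ)) ℓ (g p) := rfl

theorem oldT_commute (ℓ ℓ' : Nat.Primes) : Commute (oldT N ℓ) (oldT N ℓ') := by
  apply LinearMap.ext
  intro g
  funext p
  have := congrArg (fun f : Module.End ℂ (CuspForm (Gamma0 (N / (p : ℕ))) 2) => f (g p))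
    (H683.heckeFamily_commute (M := N / (p : ℕ)) ℓ ℓ').eq
  simpa [oldT_apply] using this

theorem not_dvd_div_of_not_dvd {ℓ : ℕ} (hℓN : ¬ ℓ ∣ N) (p : N.primeFactors) :
    ¬ ℓ ∣ N / (p : ℕ) := fun h =>
  hℓN (h.trans (Nat.div_dvd_of_dvd (Nat.mem_primeFactors.mp p.2).2.1))

theorem oldT_apply_coe (ℓ : Nat.Primes) (hℓN : ¬ (ℓ : ℕ) ∣ N) (g : OldSrc N)
    (p : N.primeFactors) :
    (⇑(oldT N ℓ g p) : ℍ → ℂ) = heckeT 2 (ℓ : ℕ) ⇑(g p) := by
  rw [oldT_apply, H683.heckeFamily_of_not_dvd ℓ (not_dvd_div_of_not_dvd N hℓN p),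
    CuspForm.coe_heckeTLin_apply]

/-- The coefficients of `Σ_p B_p (T_ℓ g_p)` are those of `T_ℓ (Σ_p B_p g_p)`. -/
theorem oldQL_oldT (ℓ : Nat.Primes) (hℓN : ¬ (ℓ : ℕ) ∣ N) (g : OldSrc N) (n : ℕ) :
    oldQL N n (oldT N ℓ g) = coeffHeckeT 2 (ℓ : ℕ) (fun m => oldQL N m g) n := by
  rw [coeffHeckeT_apply]
  simp only [oldQL_apply]
  have hrw : (if (ℓ : ℕ) ∣ n then ((ℓ : ℕ) : ℂ) ^ ((2 : ℤ) - 1) *
        ∑ p : N.primeFactors, (if (p : ℕ) ∣ n / (ℓ : ℕ) then
          qCoeff ⇑(g p) (n / (ℓ : ℕ) / (p : ℕ)) else 0) else 0) =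
      ∑ p : N.primeFactors, (if (ℓ : ℕ) ∣ n then ((ℓ : ℕ) : ℂ) ^ ((2 : ℤ) - 1) *
        (if (p : ℕ) ∣ n / (ℓ : ℕ) then qCoeff ⇑(g p) (n / (ℓ : ℕ) / (p : ℕ)) else 0) else 0) := by
    split_ifs
    · rw [Finset.mul_sum]
    · simp
  rw [hrw, ← Finset.sum_add_distrib]
  refine Finset.sum_congr rfl (fun p _ => ?_)
  have hp := Nat.mem_primeFactors.mp p.2
  have hpℓ : (p : ℕ) ≠ (ℓ : ℕ) := fun h => hℓN (h ▸ hp.2.1)
  have hcop : Nat.Coprime (p : ℕ) (ℓ : ℕ) := (Nat.coprime_primes hp.1 ℓ.2).mpr hpℓ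
  rw [oldT_apply_coe N ℓ hℓN g p, H683.qCoeff_heckeT_cusp 2 (g p) ℓ.2.ne_zero,
    coeffHeckeT_apply]
  by_cases hpn : (p : ℕ) ∣ n
  · have hpnℓ : (p : ℕ) ∣ n * (ℓ : ℕ) := hpn.mul_right _
    rw [if_pos hpn, if_pos hpnℓ, Nat.div_mul_right_comm hpn]
    congr 1
    by_cases hℓn : (ℓ : ℕ) ∣ n
    · have h1 : (ℓ : ℕ) ∣ n / (p : ℕ) := by
        have : (ℓ : ℕ) ∣ (p : ℕ) * (n / (p : ℕ)) := by rwa [Nat.mul_div_cancel' hpn]
        exact (hcop.symm.dvd_mul_left).mp this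
      have h2 : (p : ℕ) ∣ n / (ℓ : ℕ) := by
        have : (p : ℕ) ∣ (ℓ : ℕ) * (n / (ℓ : ℕ)) := by rwa [Nat.mul_div_cancel' hℓn]
        exact (hcop.dvd_mul_left).mp this
      rw [if_pos h1, if_pos hℓn, if_pos h2, Nat.div_div_eq_div_mul, Nat.div_div_eq_div_mul,
        mul_comm (p : ℕ) (ℓ : ℕ)]
    · have h1 : ¬ (ℓ : ℕ) ∣ n / (p : ℕ) := fun h => hℓn (h.trans (Nat.div_dvd_of_dvd hpn))
      rw [if_neg h1, if_neg hℓn]
  · have hpnℓ : ¬ (p : ℕ) ∣ n * (ℓ : ℕ) := fun h => hpn ((hcop.dvd_mul_right).mp h)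
    rw [if_neg hpn, if_neg hpnℓ]
    by_cases hℓn : (ℓ : ℕ) ∣ n
    · have h2 : ¬ (p : ℕ) ∣ n / (ℓ : ℕ) := fun h => hpn (h.trans (Nat.div_dvd_of_dvd hℓn))
      rw [if_pos hℓn, if_neg h2]
      simp
    · rw [if_neg hℓn]
      simp

/-- Families `(g_p)` with `Σ_p B_p g_p ∈ ℂ h`. -/
noncomputable def oldE (h : CuspForm (Gamma0 N) 2) : Submodule ℂ (OldSrc N) where
  carrier := {g | ∃ c : ℂ, ∀ n, oldQL N n g = c * qCoeff ⇑h n}
  add_mem' := by
    rintro g g' ⟨c, hc⟩ ⟨c', hc'⟩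
    exact ⟨c + c', fun n => by rw [map_add, hc n, hc' n, add_mul]⟩
  zero_mem' := ⟨0, fun n => by simp⟩
  smul_mem' := by
    rintro r g ⟨c, hc⟩
    exact ⟨r * c, fun n => by rw [map_smul, hc n, smul_eq_mul, mul_assoc]⟩

/-- Families `(g_p)` with `Σ_p B_p g_p = 0`. -/
noncomputable def oldF : Submodule ℂ (OldSrc N) where
  carrier := {g | ∀ n, oldQL N n g = 0}
  add_mem' := by
    intro g g' hg hg' n
    rw [map_add, hg n, hg' n, add_zero]
  zero_mem' := fun n => by simp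
  smul_mem' := by
    intro r g hg n
    rw [map_smul, hg n, smul_zero]

end OldSpace

/-- **OLD-EIGEN**. -/
theorem oldEigen : OldEigen := by
  intro N _ h hh a heig hold
  obtain ⟨g, hg⟩ := hold
  haveI : ∀ p : N.primeFactors, FiniteDimensional ℂ (CuspForm (Gamma0 (N / (p : ℕ))) 2) :=
    fun p => H683.finiteDimensional_cuspForm (N / (p : ℕ)) 2
  -- the given family
  set g₀ : OldSrc N := fun p => g p with hg₀
  have hg₀Q : ∀ n, oldQL N n g₀ = qCoeff ⇑h n := by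
    intro n
    rw [oldQL_apply, hg n]
    exact Finset.sum_coe_sort N.primeFactors
      (fun p => if p ∣ n then qCoeff ⇑(g p) (n / p) else 0)
  -- some coefficient of `h` is nonzero
  have hcoef : ∃ n, qCoeff ⇑h n ≠ 0 := by
    by_contra hcon
    push Not at hcon
    exact hh (H683.cusp_eq_zero_of_qCoeff 2 h hcon)
  obtain ⟨n₀, hn₀⟩ := hcoef
  -- eigen-relation for the coefficients of `h`
  have hheig : ∀ (ℓ : Nat.Primes), ¬ (ℓ : ℕ) ∣ N → ∀ n,
      coeffHeckeT 2 (ℓ : ℕ) (qCoeff ⇑h) n = a ℓ * qCoeff ⇑h n := by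
    intro ℓ hℓN n
    have h1 := heig ℓ ℓ.2 hℓN
    have h2 := congrArg (fun F : CuspForm (Gamma0 N) 2 => qCoeff ⇑F n) h1
    simp only [CuspForm.coe_heckeTLin_apply] at h2
    rw [H683.qCoeff_heckeT_cusp 2 h ℓ.2.ne_zero, H683.qCoeff_smul_cusp] at h2
    exact h2
  -- apply the linear algebra lemma
  obtain ⟨v, hvE, hv0, hveig⟩ := exists_eigenvector_of_quotient
    (ι := {ℓ : Nat.Primes // ¬ (ℓ : ℕ) ∣ N}) (fun ℓ => oldT N ℓ.1)
    (fun ℓ ℓ' => oldT_commute N ℓ.1 ℓ'.1) (fun ℓ => a ℓ.1) (oldE N h) (oldF N)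
    (fun v hv => ⟨0, fun n => by rw [hv n, zero_mul]⟩)
    (fun hle => by
      have hmem : g₀ ∈ oldE N h := ⟨1, fun n => by rw [hg₀Q n, one_mul]⟩
      have := hle hmem n₀
      rw [hg₀Q n₀] at this
      exact hn₀ this)
    (by
      rintro ⟨ℓ, hℓN⟩ v ⟨c, hc⟩ n
      rw [map_sub, map_smul, oldQL_oldT N ℓ hℓN v n]
      have : (fun m => oldQL N m v) = fun m => c * qCoeff ⇑h m := funext hc
      rw [this, hc n, coeffHeckeT_apply]
      have h3 := hheig ℓ hℓN n
      rw [coeffHeckeT_apply] at h3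
      have h4 : c * qCoeff ⇑h (n * (ℓ : ℕ)) + (if (ℓ : ℕ) ∣ n then
          ((ℓ : ℕ) : ℂ) ^ ((2 : ℤ) - 1) * (c * qCoeff ⇑h (n / (ℓ : ℕ))) else 0) =
          c * (qCoeff ⇑h (n * (ℓ : ℕ)) + if (ℓ : ℕ) ∣ n then
            ((ℓ : ℕ) : ℂ) ^ ((2 : ℤ) - 1) * qCoeff ⇑h (n / (ℓ : ℕ)) else 0) := by
        split_ifs <;> ring
      rw [h4, h3, smul_eq_mul]
      ring)
  -- a nonzero component
  have hcomp : ∃ p : N.primeFactors, v p ≠ 0 := by
    by_contra hcon
    push Not at hcon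
    exact hv0 (funext hcon)
  obtain ⟨p, hp⟩ := hcomp
  have hpmem := Nat.mem_primeFactors.mp p.2
  obtain ⟨G, hG, hGa⟩ := H683.exists_normalizedEigenform_of_eigenvector
    (M := N / (p : ℕ)) (fun ℓ => ¬ ℓ ∣ N) a (v p) hp (by
      intro ℓ hℓ _ hℓN
      have h1 := congrFun (hveig ⟨⟨ℓ, hℓ⟩, hℓN⟩) p
      have h2 := congrArg (fun F : CuspForm (Gamma0 (N / (p : ℕ))) 2 => (⇑F : ℍ → ℂ)) h1
      simp only [Pi.smul_apply] at h2
      rw [oldT_apply_coe N ⟨ℓ, hℓ⟩ hℓN v p] at h2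
      simpa using h2)
  exact ⟨p, hpmem.1, hpmem.2.1, G, hG,
    fun ℓ hℓ hℓN => hGa ℓ hℓ (not_dvd_div_of_not_dvd N hℓN p) hℓN⟩

end Fermat.Agent.Lib.Newform.H23

end
-- ===== PACK-END Lib/Newform/H23/OldEigen.lean

-- ===== PACK-BEGIN Lib/Newform/H743/Vanish.lean
section



/-!
# NEWFORM library (helper743), part 3: the case `q ∤ N`

If `f ∈ S_k(Γ₀(N))`, `q` is a prime not dividing `N` and `a_n(f) = 0` whenever `q ∤ n`, then
`f = 0`.  (Petersson-free: `U_q f` is again of level `N` and again has period `1/q`, by an explicit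
matrix identity; then induct on the index of the coefficient.)
-/

set_option autoImplicit false

open UpperHalfPlane ModularForm Function Complex CongruenceSubgroup Matrix.SpecialLinearGroup
open scoped MatrixGroups ModularForm Manifold Topology Real

namespace Fermat.Agent.Lib.Newform.H743

noncomputable section

lemma coe_mapGL_eq_of (γ : SL(2, ℤ)) :
    ((mapGL ℝ γ : GL (Fin 2) ℝ) : Matrix (Fin 2) (Fin 2) ℝ) =
      !![(γ 0 0 : ℝ), (γ 0 1 : ℝ); (γ 1 0 : ℝ), (γ 1 1 : ℝ)] := by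
  ext i j
  fin_cases i <;> fin_cases j <;> simp

/-- The key matrix identity `β γ_h u = γ₀ β γ_h`, where `β = [1, 0; 0, q]`, `u = [1, 1/q; 0, 1]`,
`γ_h = [q, b; N, d]` and `γ₀ = [1 - N, 1; -N², 1 + N]`. -/
lemma key_matrix_identity {q : ℕ} (hq : q ≠ 0) (N : ℤ) (γh γ0 : SL(2, ℤ))
    (h00 : γh 0 0 = q) (h10 : γh 1 0 = N) (hdet : (q : ℤ) * γh 1 1 - γh 0 1 * N = 1)
    (g00 : γ0 0 0 = 1 - N) (g01 : γ0 0 1 = 1) (g10 : γ0 1 0 = -N ^ 2) (g11 : γ0 1 1 = 1 + N) :
    heckeMatrix q 0 * mapGL ℝ γh * Matrix.GeneralLinearGroup.upperRightHom ((1 / q : ℝ) : ℝ) =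
      mapGL ℝ γ0 * heckeMatrix q 0 * mapGL ℝ γh := by
  have hq' : (q : ℝ) ≠ 0 := by exact_mod_cast hq
  have hdet' : (q : ℝ) * (γh 1 1 : ℝ) - (γh 0 1 : ℝ) * (N : ℝ) = 1 := by exact_mod_cast hdet
  apply Units.ext
  simp only [Units.val_mul, coe_mapGL_eq_of, val_heckeMatrix hq,
    Matrix.GeneralLinearGroup.upperRightHom_apply, Matrix.mul_fin_two, h00, h10, g00, g01, g10,
    g11]
  ext i j
  fin_cases i <;> fin_cases j
  · simp
    ring
  · simp
    field_simp
    linear_combination (-(1 : ℝ)) * hdet'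
  · simp
    ring
  · simp
    field_simp
    linear_combination (-(N : ℝ)) * hdet'

/-- Existence of the two integral matrices used in `key_matrix_identity`. -/
lemma exists_key_matrices {q N : ℕ} (hq : q.Prime) (hqN : ¬ q ∣ N) :
    ∃ γh ∈ Gamma0 N, ∃ γ0 ∈ Gamma0 N,
      heckeMatrix q 0 * mapGL ℝ γh * Matrix.GeneralLinearGroup.upperRightHom ((1 / q : ℝ) : ℝ) =
        mapGL ℝ γ0 * heckeMatrix q 0 * mapGL ℝ γh := by
  have hcop : IsCoprime (q : ℤ) (N : ℤ) := by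
    rw [Prime.coprime_iff_not_dvd (Nat.prime_iff_prime_int.mp hq)]
    exact_mod_cast hqN
  obtain ⟨x, y, hxy⟩ := hcop
  have hdh : (!![(q : ℤ), -y; (N : ℤ), x] : Matrix (Fin 2) (Fin 2) ℤ).det = 1 := by
    rw [Matrix.det_fin_two_of]
    linear_combination hxy
  have hd0 : (!![1 - (N : ℤ), 1; -(N : ℤ) ^ 2, 1 + (N : ℤ)] : Matrix (Fin 2) (Fin 2) ℤ).det = 1 := by
    rw [Matrix.det_fin_two_of]
    ring
  let γh : SL(2, ℤ) := ⟨!![(q : ℤ), -y; (N : ℤ), x], hdh⟩
  let γ0 : SL(2, ℤ) := ⟨!![1 - (N : ℤ), 1; -(N : ℤ) ^ 2, 1 + (N : ℤ)], hd0⟩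
  have h00 : γh 0 0 = q := rfl
  have h01 : γh 0 1 = -y := rfl
  have h10 : γh 1 0 = N := rfl
  have h11 : γh 1 1 = x := rfl
  have g00 : γ0 0 0 = 1 - N := rfl
  have g01 : γ0 0 1 = 1 := rfl
  have g10 : γ0 1 0 = -(N : ℤ) ^ 2 := rfl
  have g11 : γ0 1 1 = 1 + N := rfl
  refine ⟨γh, ?_, γ0, ?_, ?_⟩
  · rw [Gamma0_mem, h10]
    simp
  · rw [Gamma0_mem, g10]
    simp
  · refine key_matrix_identity hq.ne_zero N γh γ0 h00 h10 ?_ g00 g01 g10 g11
    rw [h01, h11]
    linear_combination hxy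

/-- If `F` is `Γ₀(N)`-invariant with `q ∤ N` and has period `1/q`, then `U_q F` is invariant
under `[1, 1/q; 0, 1]`. -/
theorem heckeU_slash_upperRightHom {N q : ℕ} (hq : q.Prime) (hqN : ¬ q ∣ N) (k : ℤ)
    {F : ℍ → ℂ} (hF : ∀ γ ∈ (Gamma0 N : Subgroup (GL (Fin 2) ℝ)), F ∣[k] γ = F)
    (hper : Periodic (F ∘ ofComplex) ((1 / q : ℝ) : ℝ)) :
    heckeU k q F ∣[k] Matrix.GeneralLinearGroup.upperRightHom ((1 / q : ℝ) : ℝ) =
      heckeU k q F := by
  obtain ⟨γh, hγh, γ0, hγ0, hkey⟩ := exists_key_matrices hq hqN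
  have hG := heckeU_slash_eq_self_of_periodic hq (dvd_mul_left N q) k hF hper
    (mapGL ℝ γh) ⟨γh, hγh, rfl⟩
  have hsum := heckeU_eq_sum_of_periodic k hq.ne_zero hper
  calc heckeU k q F ∣[k] Matrix.GeneralLinearGroup.upperRightHom ((1 / q : ℝ) : ℝ)
      = (heckeU k q F ∣[k] mapGL ℝ γh) ∣[k]
          Matrix.GeneralLinearGroup.upperRightHom ((1 / q : ℝ) : ℝ) := by rw [hG]
    _ = ∑ _j ∈ Finset.range q, F ∣[k] (heckeMatrix q 0 * mapGL ℝ γh *
          Matrix.GeneralLinearGroup.upperRightHom ((1 / q : ℝ) : ℝ)) := by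
        rw [hsum, SlashAction.sum_slash, SlashAction.sum_slash]
        refine Finset.sum_congr rfl fun _ _ => ?_
        rw [SlashAction.slash_mul, SlashAction.slash_mul]
    _ = ∑ _j ∈ Finset.range q, (F ∣[k] heckeMatrix q 0) ∣[k] mapGL ℝ γh := by
        refine Finset.sum_congr rfl fun _ _ => ?_
        rw [hkey, SlashAction.slash_mul, SlashAction.slash_mul, hF _ ⟨γ0, hγ0, rfl⟩]
    _ = heckeU k q F ∣[k] mapGL ℝ γh := by
        rw [hsum, SlashAction.sum_slash]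
    _ = heckeU k q F := hG

/-- Converse of `apply_vadd_of_periodic`. -/
lemma periodic_of_apply_vadd {F : ℍ → ℂ} {h : ℝ} (hF : ∀ τ : ℍ, F (h +ᵥ τ) = F τ) :
    Periodic (F ∘ ofComplex) h := by
  intro w
  by_cases! hw : 0 < im w
  · have hw' : 0 < im (w + (h : ℂ)) := by simpa using hw
    simp only [comp_apply, ofComplex_apply_of_im_pos hw', ofComplex_apply_of_im_pos hw]
    rw [← hF ⟨w, hw⟩]
    congr 1
    ext
    simp [add_comm]
  · have : im (w + (h : ℂ)) ≤ 0 := by simpa using hw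
    rw [comp_apply, comp_apply, ofComplex_apply_of_im_nonpos this,
      ofComplex_apply_of_im_nonpos hw]

/-- If `F` is `Γ₀(N)`-invariant with `q ∤ N` and has period `1/q`, then so does `U_q F`. -/
theorem periodic_heckeU_of_not_dvd {N q : ℕ} (hq : q.Prime) (hqN : ¬ q ∣ N) (k : ℤ)
    {F : ℍ → ℂ} (hF : ∀ γ ∈ (Gamma0 N : Subgroup (GL (Fin 2) ℝ)), F ∣[k] γ = F)
    (hper : Periodic (F ∘ ofComplex) ((1 / q : ℝ) : ℝ)) :
    Periodic (heckeU k q F ∘ ofComplex) ((1 / q : ℝ) : ℝ) := by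
  apply periodic_of_apply_vadd
  intro τ
  have h1 := slash_upperRightHom_apply k (heckeU k q F) ((1 / q : ℝ) : ℝ) τ
  rw [heckeU_slash_upperRightHom hq hqN k hF hper] at h1
  exact h1.symm

/-- For `q ∤ N`, the cusp form `U_q f` of level `N` again has vanishing coefficients at all
indices prime to `q`. -/
theorem qCoeff_heckeULower_eq_zero {N q : ℕ} [NeZero N] (hq : q.Prime) (hqN : ¬ q ∣ N) {k : ℤ}
    (f : CuspForm (Gamma0 N) k) (h0 : ∀ n : ℕ, ¬ q ∣ n → ModularFormClass.qCoeff f n = 0)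
    (n : ℕ) (hn : ¬ q ∣ n) :
    ModularFormClass.qCoeff (heckeULower hq (dvd_mul_left N q) f h0) n = 0 := by
  have hΓ := CongruenceSubgroup.one_mem_strictPeriods_Gamma0 N
  have : Fact (IsCusp OnePoint.infty (Gamma0 N : Subgroup (GL (Fin 2) ℝ))) :=
    ⟨Subgroup.isCusp_of_mem_strictPeriods one_pos hΓ⟩
  have hper := periodic_heckeU_of_not_dvd hq hqN k
    (fun γ hγ => SlashInvariantFormClass.slash_action_eq f γ hγ)
    (periodic_of_qCoeff_eq_zero f hq.ne_zero h0)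
  exact coeff_eq_zero_of_periodic hq.ne_zero hper
    (CuspFormClass.holo (heckeULower hq (dvd_mul_left N q) f h0))
    (ModularFormClass.bdd_at_infty (heckeULower hq (dvd_mul_left N q) f h0)) hn

/-- All coefficients vanish. -/
theorem qCoeff_eq_zero_of_not_dvd_level {N q : ℕ} [NeZero N] (hq : q.Prime) (hqN : ¬ q ∣ N)
    {k : ℤ} (n : ℕ) : ∀ (f : CuspForm (Gamma0 N) k),
      (∀ n : ℕ, ¬ q ∣ n → ModularFormClass.qCoeff f n = 0) → ModularFormClass.qCoeff f n = 0 := by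
  induction n using Nat.strong_induction_on with
  | _ n ih =>
    intro f h0
    by_cases hn : q ∣ n
    · obtain ⟨m, rfl⟩ := hn
      rcases Nat.eq_zero_or_pos m with rfl | hm
      · rw [mul_zero]
        exact CuspFormClass.qExpansion_coeff_zero f one_pos
          (CongruenceSubgroup.one_mem_strictPeriods_Gamma0 N)
      · have hlt : m < q * m := by
          have := hq.one_lt
          nlinarith
        have := ih m hlt (heckeULower hq (dvd_mul_left N q) f h0)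
          (qCoeff_heckeULower_eq_zero hq hqN f h0)
        rw [qCoeff_heckeULower] at this
        rwa [mul_comm]
    · exact h0 n hn

/-- **Vanishing for `q ∤ N`.**  A cusp form of level `Γ₀(N)` whose `q`-expansion is supported on
multiples of a prime `q ∤ N` is zero. -/
theorem eq_zero_of_qCoeff_eq_zero_of_not_dvd_level {N q : ℕ} [NeZero N] (hq : q.Prime)
    (hqN : ¬ q ∣ N) {k : ℤ} (f : CuspForm (Gamma0 N) k)
    (h0 : ∀ n : ℕ, ¬ q ∣ n → ModularFormClass.qCoeff f n = 0) : f = 0 := by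
  have hΓ := CongruenceSubgroup.one_mem_strictPeriods_Gamma0 N
  have : Fact (IsCusp OnePoint.infty (Gamma0 N : Subgroup (GL (Fin 2) ℝ))) :=
    ⟨Subgroup.isCusp_of_mem_strictPeriods one_pos hΓ⟩
  have h1 : qExpansion 1 (f : ℍ → ℂ) = 0 := by
    ext n
    rw [map_zero]
    exact qCoeff_eq_zero_of_not_dvd_level hq hqN n f h0
  have h2 := (UpperHalfPlane.qExpansion_eq_zero_iff one_pos
    (SlashInvariantFormClass.periodic_comp_ofComplex f hΓ)
    (CuspFormClass.holo f) (ModularFormClass.bdd_at_infty f)).mp h1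
  exact DFunLike.coe_injective h2

end

end Fermat.Agent.Lib.Newform.H743

end
-- ===== PACK-END Lib/Newform/H743/Vanish.lean

-- ===== PACK-BEGIN Lib/Newform/H743/SpecLemma16.lean
section



/-!
# NEWFORM library (helper743): `Lemma16` in the row-lead's Spec shape

`lemma16` is (definitionally) `Fermat.Agent.Lib.Newform.H23.Lemma16`; `lemma16_any_weight` is the
same for every weight, and `vanish_of_not_dvd` is the companion statement for `q ∤ N`.
-/

set_option autoImplicit false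

open CongruenceSubgroup
open scoped MatrixGroups

namespace Fermat.Agent.Lib.Newform.H743

open ModularFormClass

theorem lemma16_any_weight (k : ℤ) (N q : ℕ) [NeZero N] (hq : q.Prime) (hqN : q ∣ N)
    (f : CuspForm (Gamma0 N) k) (h0 : ∀ n : ℕ, ¬ q ∣ n → qCoeff f n = 0) :
    ∃ g : CuspForm (Gamma0 (N / q)) k, (∀ n : ℕ, qCoeff g n = qCoeff f (q * n)) ∧
      (⇑g : UpperHalfPlane → ℂ) = ModularForm.heckeU k q ⇑f ∧
      ∀ τ : UpperHalfPlane, f τ = g (ModularForm.heckeDiagMatrix q • τ) := by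
  have hNq : N / q ≠ 0 :=
    (Nat.div_pos (Nat.le_of_dvd (Nat.pos_of_ne_zero (NeZero.ne N)) hqN) hq.pos).ne'
  haveI : NeZero (N / q) := ⟨hNq⟩
  have hNM : N ∣ q * (N / q) := by rw [Nat.mul_div_cancel' hqN]
  refine ⟨heckeULower hq hNM f h0, fun n => ?_, rfl, fun τ => apply_eq_heckeULower hq hNM f h0 τ⟩
  rw [qCoeff_heckeULower, mul_comm]

/-- **LEMMA 16** in the exact shape of `H23.Lemma16`. -/
theorem lemma16 :
    ∀ (N q : ℕ) [NeZero N], q.Prime → q ∣ N → ∀ f : CuspForm (Gamma0 N) 2,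
      (∀ n : ℕ, ¬ q ∣ n → qCoeff f n = 0) →
      ∃ g : CuspForm (Gamma0 (N / q)) 2, ∀ n : ℕ, qCoeff g n = qCoeff f (q * n) := by
  intro N q _ hq hqN f h0
  obtain ⟨g, hg, -, -⟩ := lemma16_any_weight 2 N q hq hqN f h0
  exact ⟨g, hg⟩

/-- Companion of Lemma 16 for `q ∤ N`. -/
theorem vanish_of_not_dvd :
    ∀ (k : ℤ) (N q : ℕ) [NeZero N], q.Prime → ¬ q ∣ N → ∀ f : CuspForm (Gamma0 N) k,
      (∀ n : ℕ, ¬ q ∣ n → qCoeff f n = 0) → f = 0 := by
  intro k N q _ hq hqN f h0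
  exact eq_zero_of_qCoeff_eq_zero_of_not_dvd_level hq hqN f h0

end Fermat.Agent.Lib.Newform.H743

end
-- ===== PACK-END Lib/Newform/H743/SpecLemma16.lean

-- ===== PACK-BEGIN Lib/Newform/H863/Raise.lean
section



/-!
# NEWFORM library (helper863): the leaf `Raise`

`raise_statement` is *verbatim* the body of `Fermat.Agent.Lib.Newform.H23.Raise`
(row-lead's `Spec.lean`): the degeneracy map `B_d` from level `M` to any level `C` with
`d * M ∣ C`, in `q`-coefficients.  (Stated inline so that this file does not depend on the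
Spec file; `theorem raise : Raise := raise_statement` is then a one-liner.)
-/

set_option autoImplicit false

open CongruenceSubgroup
open scoped MatrixGroups

namespace Fermat.Agent.Lib.Newform.H863

open ModularFormClass

theorem raise_dvd {M d C : ℕ} (h : d * M ∣ C) : M * d ∣ C := by rwa [Nat.mul_comm] at h

/-- The raised form `B_d g` at level `C`, `d * M ∣ C`, `d ≠ 0`, as a linear map. -/
noncomputable def raiseLin {M d C : ℕ} [NeZero d] (h : d * M ∣ C) :
    CuspForm (Gamma0 M) 2 →ₗ[ℂ] CuspForm (Gamma0 C) 2 :=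
  (levelIncl (raise_dvd h)).comp (degen d)

theorem qCoeff_raiseLin {M d C : ℕ} [NeZero d] (h : d * M ∣ C) (g : CuspForm (Gamma0 M) 2)
    (n : ℕ) : qCoeff ⇑(raiseLin h g) n = if d ∣ n then qCoeff ⇑g (n / d) else 0 := by
  change qCoeff ⇑(levelIncl (raise_dvd h) (degen d g)) n = _
  rw [qCoeff_levelIncl, qCoeff_degen]

theorem raiseLin_apply {M d C : ℕ} [NeZero d] (h : d * M ∣ C) (g : CuspForm (Gamma0 M) 2)
    (τ : UpperHalfPlane) : raiseLin h g τ = g (ModularForm.heckeDiagMatrix d • τ) :=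
  degen_apply d g τ

theorem raiseLin_injective {M d C : ℕ} [NeZero d] (h : d * M ∣ C) :
    Function.Injective (raiseLin h : CuspForm (Gamma0 M) 2 → CuspForm (Gamma0 C) 2) :=
  (levelIncl_injective (raise_dvd h)).comp (degen_injective d)

/-- **RAISE** (body of `H23.Raise`). -/
theorem raise_statement :
    ∀ (M d C : ℕ) [NeZero C], d * M ∣ C → ∀ g : CuspForm (Gamma0 M) 2,
      ∃ h : CuspForm (Gamma0 C) 2, ∀ n : ℕ,
        qCoeff h n = if d ∣ n then qCoeff g (n / d) else 0 := by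
  intro M d C _ hdvd g
  have hd : d ≠ 0 := by
    rintro rfl
    rw [Nat.zero_mul, zero_dvd_iff] at hdvd
    exact NeZero.ne C hdvd
  haveI : NeZero d := ⟨hd⟩
  exact ⟨raiseLin hdvd g, fun n => qCoeff_raiseLin hdvd g n⟩

end Fermat.Agent.Lib.Newform.H863

end
-- ===== PACK-END Lib/Newform/H863/Raise.lean

-- ===== PACK-BEGIN Lib/Cheb/H221/CycEP.lean
section





/-!
# CYC, Euler product of `L_F(s, χ ∘ N)` (helper221)
-/

set_option autoImplicit false

open NumberField IsDedekindDomain Filter Topology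

namespace Fermat.Agent.Lib.Cheb.H221

set_option linter.unusedSectionVars false

section

variable (F : Type) [Field F] [NumberField F] {m : ℕ} [NeZero m] (χ : DirichletCharacter ℂ m)

/-- `χ(N I) N(I)^(-s)` -/
noncomputable def twTerm (s : ℝ) (I : Ideal (𝓞 F)) : ℂ :=
  χ (Ideal.absNorm I : ZMod m) * (((Ideal.absNorm I : ℝ) ^ (-s) : ℝ) : ℂ)

lemma twTerm_mul (s : ℝ) (I J : Ideal (𝓞 F)) :
    twTerm F χ s (I * J) = twTerm F χ s I * twTerm F χ s J := by
  unfold twTerm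
  have h := H761.normPow_mul F s I J
  unfold H761.normPow at h
  rw [h, map_mul, Nat.cast_mul, map_mul]
  push_cast
  ring

lemma twTerm_top (s : ℝ) : twTerm F χ s ⊤ = 1 := by
  simp [twTerm]

lemma twTerm_bot {s : ℝ} (hs : s ≠ 0) : twTerm F χ s ⊥ = 0 := by
  have h0 : (0 : ℝ) ^ (-s) = 0 := Real.zero_rpow (neg_ne_zero.mpr hs)
  simp [twTerm, h0]

lemma norm_twTerm_le (s : ℝ) (I : Ideal (𝓞 F)) : ‖twTerm F χ s I‖ ≤ H761.normPow F s I := by
  unfold twTerm H761.normPow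
  rw [norm_mul, Complex.norm_real, Real.norm_of_nonneg (Real.rpow_nonneg (Nat.cast_nonneg _) _)]
  calc ‖χ (Ideal.absNorm I : ZMod m)‖ * (Ideal.absNorm I : ℝ) ^ (-s)
      ≤ 1 * (Ideal.absNorm I : ℝ) ^ (-s) :=
        mul_le_mul_of_nonneg_right (DirichletCharacter.norm_le_one χ _)
          (Real.rpow_nonneg (Nat.cast_nonneg _) _)
    _ = _ := one_mul _

lemma summable_twTerm {s : ℝ} (hs : 1 < s) : Summable (twTerm F χ s) :=
  Summable.of_norm_bounded (H761.summable_normPow F hs) (norm_twTerm_le F χ s)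

/-- the sum over the ideals of norm `n` -/
lemma tsum_fiber_twTerm (s : ℝ) (n : ℕ) :
    ∑' I : {I : Ideal (𝓞 F) // Ideal.absNorm I = n}, twTerm F χ s I.1 =
      χ (n : ZMod m) * ((Spec.idealCount F n : ℂ) * (((n : ℝ) ^ (-s) : ℝ) : ℂ)) := by
  have hfin : Finite {I : Ideal (𝓞 F) // Ideal.absNorm I = n} :=
    (Ideal.finite_setOfPred_absNorm_eq n).to_subtype
  have : Fintype {I : Ideal (𝓞 F) // Ideal.absNorm I = n} := Fintype.ofFinite _
  rw [tsum_fintype]
  have h1 : ∀ I : {I : Ideal (𝓞 F) // Ideal.absNorm I = n},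
      twTerm F χ s I.1 = χ (n : ZMod m) * (((n : ℝ) ^ (-s) : ℝ) : ℂ) := by
    intro I
    simp only [twTerm, I.2]
  simp only [h1, Finset.sum_const, Finset.card_univ, nsmul_eq_mul, Spec.idealCount,
    Nat.card_eq_fintype_card]
  ring

lemma tsum_twTerm_eq_lseries {s : ℝ} (hs : 1 < s) :
    ∑' I : Ideal (𝓞 F), twTerm F χ s I =
      LSeries (fun n => χ (n : ZMod m) * (Spec.idealCount F n : ℂ)) (s : ℂ) := by
  have hsum := summable_twTerm F χ hs
  have hsum' : Summable (fun x : Σ n : ℕ, {I : Ideal (𝓞 F) // Ideal.absNorm I = n} =>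
      twTerm F χ s x.2.1) :=
    ((Equiv.sigmaFiberEquiv (fun I : Ideal (𝓞 F) => Ideal.absNorm I)).summable_iff
      (f := twTerm F χ s)).mpr hsum
  calc ∑' I : Ideal (𝓞 F), twTerm F χ s I
      = ∑' x : Σ n : ℕ, {I : Ideal (𝓞 F) // Ideal.absNorm I = n}, twTerm F χ s x.2.1 :=
        ((Equiv.sigmaFiberEquiv (fun I : Ideal (𝓞 F) => Ideal.absNorm I)).tsum_eq
          (twTerm F χ s)).symm
    _ = ∑' n : ℕ, ∑' I : {I : Ideal (𝓞 F) // Ideal.absNorm I = n}, twTerm F χ s I.1 :=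
        hsum'.tsum_sigma
    _ = _ := by
        unfold LSeries
        refine tsum_congr fun n => ?_
        rw [tsum_fiber_twTerm]
        rcases eq_or_ne n 0 with rfl | hn
        · have : (0 : ℝ) ^ (-s) = 0 := Real.zero_rpow (by linarith)
          simp [this]
        · rw [LSeries.term_of_ne_zero hn, Complex.ofReal_cpow (Nat.cast_nonneg n),
            Complex.ofReal_neg, Complex.cpow_neg]
          simp [div_eq_mul_inv, mul_assoc]

lemma tsum_sieveSet_empty_twTerm {s : ℝ} (hs : 1 < s) :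
    ∑' I : H761.sieveSet (∅ : Set (HeightOneSpectrum (𝓞 F))), twTerm F χ s I =
      ∑' I : Ideal (𝓞 F), twTerm F χ s I := by
  have hs0 : s ≠ 0 := by linarith
  rw [← tsum_subtype_eq_of_support_subset (f := twTerm F χ s)
    (s := H761.sieveSet (∅ : Set (HeightOneSpectrum (𝓞 F))))]
  intro I hI
  rw [H761.mem_sieveSet_empty]
  rintro rfl
  exact hI (twTerm_bot F χ hs0)

theorem eulerProduct : EulerProductStatement := by
  intro F _ _ m _ χ s hs
  have hf := summable_twTerm F χ hs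
  have h1 := H761.hasProd_one_sub hf (twTerm_mul F χ s) (twTerm_top F χ s)
  have hne := H761.tsum_sieve_empty_ne_zero hf (twTerm_mul F χ s) (twTerm_top F χ s)
  have h2 := h1.inv₀ (inv_ne_zero hne)
  rw [inv_inv, tsum_sieveSet_empty_twTerm F χ hs, tsum_twTerm_eq_lseries F χ hs] at h2
  exact h2

end

end Fermat.Agent.Lib.Cheb.H221

end
-- ===== PACK-END Lib/Cheb/H221/CycEP.lean

-- ===== PACK-BEGIN Lib/Cheb/H221/CycAbs.lean
section




/-!
# CYC, the abstract Dirichlet argument (helper221)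
-/

set_option autoImplicit false

open Filter Topology

namespace Fermat.Agent.Lib.Cheb.H221

set_option linter.unusedSectionVars false

section chars

variable {m : ℕ} [NeZero m] (A : Subgroup (ZMod m)ˣ)

/-- `χ` is trivial on `A` -/
def TrivOn (χ : DirichletCharacter ℂ m) : Prop :=
  ∀ u ∈ A, χ ((u : (ZMod m)ˣ) : ZMod m) = 1

open Classical in
lemma sum_subgroup_eq_zero {χ : DirichletCharacter ℂ m} (hχ : ¬ TrivOn A χ) :
    ∑ u : A, χ ((u : (ZMod m)ˣ) : ZMod m) = 0 := by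
  let f : A →* ℂ := χ.toMonoidHom.comp ((Units.coeHom (ZMod m)).comp A.subtype)
  have hf : f ≠ 1 := by
    intro h
    apply hχ
    intro u hu
    have := DFunLike.congr_fun h ⟨u, hu⟩
    simpa [f] using this
  have := sum_hom_units_eq_zero f hf
  simpa [f] using this

open Classical in
lemma sum_subgroup_eq_card {χ : DirichletCharacter ℂ m} (hχ : TrivOn A χ) :
    ∑ u : A, χ ((u : (ZMod m)ˣ) : ZMod m) = (Nat.card A : ℂ) := by
  have : ∀ u : A, χ ((u : (ZMod m)ˣ) : ZMod m) = 1 := fun u => hχ u.1 u.2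
  simp [this]

open Classical in
/-- the number of characters trivial on `A`, times `|A|`, is `φ(m)` -/
lemma card_trivOn_mul :
    ((Finset.univ.filter (fun χ : DirichletCharacter ℂ m => TrivOn A χ)).card : ℂ) *
      (Nat.card A : ℂ) = (m.totient : ℂ) := by
  have h1 : ∑ χ : DirichletCharacter ℂ m, ∑ u : A, χ ((u : (ZMod m)ˣ) : ZMod m) =
      ((Finset.univ.filter (fun χ : DirichletCharacter ℂ m => TrivOn A χ)).card : ℂ) *
        (Nat.card A : ℂ) := by
    have : ∀ χ : DirichletCharacter ℂ m, ∑ u : A, χ ((u : (ZMod m)ˣ) : ZMod m) =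
        if TrivOn A χ then (Nat.card A : ℂ) else 0 := by
      intro χ
      split_ifs with h
      · exact sum_subgroup_eq_card A h
      · exact sum_subgroup_eq_zero A h
    simp only [this]
    rw [← Finset.sum_filter, Finset.sum_const, nsmul_eq_mul]
  have h2 : ∑ χ : DirichletCharacter ℂ m, ∑ u : A, χ ((u : (ZMod m)ˣ) : ZMod m) =
      (m.totient : ℂ) := by
    rw [Finset.sum_comm]
    have : ∀ u : A, ∑ χ : DirichletCharacter ℂ m, χ ((u : (ZMod m)ˣ) : ZMod m) =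
        if (u : A) = 1 then (m.totient : ℂ) else 0 := by
      intro u
      rw [DirichletCharacter.sum_characters_eq]
      congr 1
      rw [eq_iff_iff]
      constructor
      · intro h
        ext
        simpa using h
      · intro h
        rw [h]
        simp
    simp only [this]
    simp
  rw [← h1, h2]

end chars

section analysis

variable {m : ℕ} [NeZero m] (c : Nat.Primes → ℝ)

/-- the weights `c(p) p^(-s)` -/
noncomputable def wt (s : ℝ) (p : Nat.Primes) : ℝ := c p * ((p : ℕ) : ℝ) ^ (-s)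

lemma wt_nonneg (hc : ∀ p, 0 ≤ c p) (s : ℝ) (p : Nat.Primes) : 0 ≤ wt c s p :=
  mul_nonneg (hc p) (Real.rpow_nonneg (Nat.cast_nonneg _) _)

lemma wt_le (hc : ∀ p, 0 ≤ c p) {s : ℝ} (hs : 0 ≤ s) (p : Nat.Primes) : wt c s p ≤ c p := by
  unfold wt
  have : (((p : ℕ) : ℝ)) ^ (-s) ≤ 1 :=
    Real.rpow_le_one_of_one_le_of_nonpos (by exact_mod_cast p.2.one_le) (by linarith)
  exact mul_le_of_le_one_right (hc p) this

/-- the twisted sums -/
noncomputable def Tsum (χ : DirichletCharacter ℂ m) (s : ℝ) : ℂ :=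
  ∑' p : Nat.Primes, χ ((p : ℕ) : ZMod m) * ((wt c s p : ℝ) : ℂ)

/-- the sums over a residue class -/
noncomputable def Dsum (b : ZMod m) (s : ℝ) : ℝ :=
  ∑' p : Nat.Primes, if ((p : ℕ) : ZMod m) = b then wt c s p else 0

variable (hc : ∀ p, 0 ≤ c p)
include hc

lemma summable_char_wt {s : ℝ} (hsum : Summable (wt c s)) (χ : DirichletCharacter ℂ m) :
    Summable (fun p : Nat.Primes => χ ((p : ℕ) : ZMod m) * ((wt c s p : ℝ) : ℂ)) := by
  refine Summable.of_norm_bounded hsum (fun p => ?_)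
  rw [norm_mul, Complex.norm_real, Real.norm_of_nonneg (wt_nonneg c hc s p)]
  calc ‖χ ((p : ℕ) : ZMod m)‖ * wt c s p ≤ 1 * wt c s p :=
        mul_le_mul_of_nonneg_right (DirichletCharacter.norm_le_one χ _) (wt_nonneg c hc s p)
    _ = _ := one_mul _

lemma sum_coeff_Tsum {s : ℝ} (hsum : Summable (wt c s)) (κ : DirichletCharacter ℂ m → ℂ) :
    ∑ χ, κ χ * Tsum c χ s =
      ∑' p : Nat.Primes, (∑ χ, κ χ * χ ((p : ℕ) : ZMod m)) * ((wt c s p : ℝ) : ℂ) := by
  unfold Tsum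
  simp_rw [← tsum_mul_left]
  rw [← Summable.tsum_finsetSum (fun χ _ => (summable_char_wt c hc hsum χ).mul_left (κ χ))]
  refine tsum_congr fun p => ?_
  rw [Finset.sum_mul]
  refine Finset.sum_congr rfl fun χ _ => ?_
  ring

lemma sum_inv_Tsum {s : ℝ} (hsum : Summable (wt c s)) {a : ZMod m} (ha : IsUnit a) :
    ∑ χ : DirichletCharacter ℂ m, χ a⁻¹ * Tsum c χ s =
      (m.totient : ℂ) * ((Dsum c a s : ℝ) : ℂ) := by
  rw [sum_coeff_Tsum c hc hsum]
  simp_rw [DirichletCharacter.sum_char_inv_mul_char_eq ℂ ha]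
  unfold Dsum
  rw [Complex.ofReal_tsum, ← tsum_mul_left]
  refine tsum_congr fun p => ?_
  by_cases h : ((p : ℕ) : ZMod m) = a
  · rw [if_pos h.symm, if_pos h]
  · rw [if_neg (fun h' => h h'.symm), if_neg h]
    simp

lemma sum_Tsum {s : ℝ} (hsum : Summable (wt c s)) :
    ∑ χ : DirichletCharacter ℂ m, Tsum c χ s =
      (m.totient : ℂ) * ((Dsum c (1 : ZMod m) s : ℝ) : ℂ) := by
  have := sum_inv_Tsum (m := m) c hc hsum (a := 1) isUnit_one
  simpa using this

/-- the primes in a finite set of naturals -/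
noncomputable def primesIn (B : Finset ℕ) : Finset Nat.Primes := by
  classical
  exact (Finset.subtype Nat.Prime B : Finset {n : ℕ // n.Prime})

omit hc in
lemma mem_primesIn {B : Finset ℕ} {p : Nat.Primes} : p ∈ primesIn B ↔ (p : ℕ) ∈ B := by
  classical
  unfold primesIn
  exact Finset.mem_subtype

lemma norm_Tsum_sub_le (A : Subgroup (ZMod m)ˣ) {B : Finset ℕ}
    (hB : ∀ p : Nat.Primes, (p : ℕ) ∉ B → c p ≠ 0 →
      ∃ u ∈ A, ((u : (ZMod m)ˣ) : ZMod m) = ((p : ℕ) : ZMod m))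
    {χ : DirichletCharacter ℂ m} (hχ : TrivOn A χ) {s : ℝ} (hs : 0 ≤ s)
    (hsum : Summable (wt c s)) :
    ‖Tsum c χ s - ((∑' p, wt c s p : ℝ) : ℂ)‖ ≤ ∑ p ∈ primesIn B, 2 * c p := by
  unfold Tsum
  rw [Complex.ofReal_tsum, ← (summable_char_wt c hc hsum χ).tsum_sub
    (Complex.summable_ofReal.mpr hsum)]
  have h0 : ∀ p : Nat.Primes, p ∉ primesIn B →
      χ ((p : ℕ) : ZMod m) * ((wt c s p : ℝ) : ℂ) - ((wt c s p : ℝ) : ℂ) = 0 := by
    intro p hp
    rw [mem_primesIn] at hp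
    by_cases hcp : c p = 0
    · simp [wt, hcp]
    · obtain ⟨u, hu, hup⟩ := hB p hp hcp
      rw [← hup, hχ u hu, one_mul, sub_self]
  rw [tsum_eq_sum h0]
  refine (norm_sum_le _ _).trans (Finset.sum_le_sum fun p _ => ?_)
  have h1 : ‖χ ((p : ℕ) : ZMod m) * ((wt c s p : ℝ) : ℂ)‖ ≤ wt c s p := by
    rw [norm_mul, Complex.norm_real, Real.norm_of_nonneg (wt_nonneg c hc s p)]
    calc ‖χ ((p : ℕ) : ZMod m)‖ * wt c s p ≤ 1 * wt c s p :=
          mul_le_mul_of_nonneg_right (DirichletCharacter.norm_le_one χ _) (wt_nonneg c hc s p)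
      _ = _ := one_mul _
  have h2 : ‖((wt c s p : ℝ) : ℂ)‖ = wt c s p := by
    rw [Complex.norm_real, Real.norm_of_nonneg (wt_nonneg c hc s p)]
  calc ‖χ ((p : ℕ) : ZMod m) * ((wt c s p : ℝ) : ℂ) - ((wt c s p : ℝ) : ℂ)‖
      ≤ ‖χ ((p : ℕ) : ZMod m) * ((wt c s p : ℝ) : ℂ)‖ + ‖((wt c s p : ℝ) : ℂ)‖ := norm_sub_le _ _
    _ ≤ wt c s p + wt c s p := by rw [h2]; linarith
    _ ≤ 2 * c p := by linarith [wt_le c hc hs p]

lemma Dsum_le_of_forall {a : ZMod m} {S : Finset ℕ}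
    (hS : ∀ p : Nat.Primes, (p : ℕ) ∉ S → ((p : ℕ) : ZMod m) = a → c p = 0)
    {s : ℝ} (hs : 0 ≤ s) : Dsum c a s ≤ ∑ p ∈ primesIn S, c p := by
  unfold Dsum
  have h0 : ∀ p : Nat.Primes, p ∉ primesIn S →
      (if ((p : ℕ) : ZMod m) = a then wt c s p else 0) = 0 := by
    intro p hp
    rw [mem_primesIn] at hp
    split_ifs with h
    · simp [wt, hS p hp h]
    · rfl
  rw [tsum_eq_sum h0]
  refine Finset.sum_le_sum fun p _ => ?_
  split_ifs
  · exact wt_le c hc hs p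
  · exact hc p

end analysis

lemma tendsto_log_one_div_sub :
    Tendsto (fun s : ℝ => Real.log (1 / (s - 1))) (𝓝[>] (1 : ℝ)) atTop := by
  have h1 : Tendsto (fun s : ℝ => s - 1) (𝓝[>] (1 : ℝ)) (𝓝[>] (0 : ℝ)) := by
    refine tendsto_nhdsWithin_of_tendsto_nhds_of_eventually_within _ ?_ ?_
    · have : Tendsto (fun s : ℝ => s - 1) (𝓝 (1 : ℝ)) (𝓝 (1 - 1)) :=
        (continuous_id.sub continuous_const).tendsto 1
      simpa using this.mono_left nhdsWithin_le_nhds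
    · filter_upwards [self_mem_nhdsWithin] with s hs
      have hs' : (1 : ℝ) < s := hs
      exact Set.mem_Ioi.mpr (sub_pos.mpr hs')
  have h2 := tendsto_inv_nhdsGT_zero.comp h1
  have h3 := Real.tendsto_log_atTop.comp h2
  refine h3.congr fun s => ?_
  simp [one_div]

theorem abstractDirichlet : AbstractDirichletStatement := by
  intro m _ c hc hsum A hsupp htot hone hχ a ha S
  classical
  obtain ⟨B, hB⟩ := hsupp
  obtain ⟨C0, hC0⟩ := htot
  obtain ⟨C1, hC1⟩ := hone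
  by_contra hcon
  push Not at hcon
  have hcon' : ∀ p : Nat.Primes, (p : ℕ) ∉ S →
      ((p : ℕ) : ZMod m) = ((a : (ZMod m)ˣ) : ZMod m) → c p = 0 := fun p hp hpa => hcon p hp hpa
  have hF : ∀ᶠ s in 𝓝[>] (1 : ℝ), 1 < s ∧ s ≤ 2 := by
    have : Set.Ioc (1 : ℝ) 2 ∈ 𝓝[>] (1 : ℝ) := Ioc_mem_nhdsGT (by norm_num)
    filter_upwards [this] with s hs using hs
  have hsw : ∀ s : ℝ, 1 < s → s ≤ 2 → Summable (wt c s) := hsum
  set Tr := Finset.univ.filter (fun χ : DirichletCharacter ℂ m => TrivOn A χ) with hTrdef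
  set Nt := Finset.univ.filter (fun χ : DirichletCharacter ℂ m => ¬ TrivOn A χ) with hNtdef
  have hk := card_trivOn_mul A
  have hkR : (Tr.card : ℝ) * (Nat.card A : ℝ) = (m.totient : ℝ) := by exact_mod_cast hk
  have hApos : (0 : ℝ) < Nat.card A := by exact_mod_cast Nat.card_pos
  have hφpos : (0 : ℝ) < m.totient := by exact_mod_cast Nat.totient_pos.mpr (NeZero.pos m)
  have hk0 : (0 : ℝ) ≤ Tr.card := Nat.cast_nonneg _
  have hkpos : (0 : ℝ) < Tr.card := by
    rcases hk0.eq_or_lt with h | h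
    · rw [← h, zero_mul] at hkR
      linarith
    · exact h
  have hdata : ∀ χ : DirichletCharacter ℂ m, ¬ TrivOn A χ →
      ∃ (Λ : ℝ → ℂ) (ℓ : ℂ) (C : ℝ), ContinuousOn Λ (Set.Ioi 1) ∧
        Tendsto (fun s => Complex.exp (Λ s)) (𝓝[>] (1 : ℝ)) (𝓝 ℓ) ∧
        ∀ s : ℝ, 1 < s → s ≤ 2 → ‖Λ s - Tsum c χ s‖ ≤ C := by
    intro χ hχn
    apply hχ χ
    unfold TrivOn at hχn
    push Not at hχn
    exact hχn
  choose! Λ ℓ C hΛc hΛt hΛb using hdata
  have hNt : ∀ χ ∈ Nt, ¬ TrivOn A χ := fun χ h => (Finset.mem_filter.mp h).2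
  set CB := ∑ p ∈ primesIn B, 2 * c p with hCBdef
  have hTr : ∀ χ ∈ Tr, ∀ s : ℝ, 1 < s → s ≤ 2 →
      ‖Tsum c χ s - ((∑' p, wt c s p : ℝ) : ℂ)‖ ≤ CB := fun χ hχ s h1 h2 =>
    norm_Tsum_sub_le c hc A hB (Finset.mem_filter.mp hχ).2 (by linarith) (hsw s h1 h2)
  have hsplit : ∀ f : DirichletCharacter ℂ m → ℂ,
      ∑ χ, f χ = ∑ χ ∈ Tr, f χ + ∑ χ ∈ Nt, f χ := fun f =>
    (Finset.sum_filter_add_sum_filter_not _ _ _).symm
  have hlgnn : ∀ s : ℝ, 1 < s → s ≤ 2 → 0 ≤ Real.log (1 / (s - 1)) := by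
    intro s h1 h2
    apply Real.log_nonneg
    rw [le_div_iff₀ (by linarith)]
    linarith
  have hTrre : ∀ χ ∈ Tr, ∀ s : ℝ, 1 < s → s ≤ 2 →
      |(Tsum c χ s).re - ∑' p, wt c s p| ≤ CB := by
    intro χ hχ s h1 h2
    have h3 := (Complex.abs_re_le_norm _).trans (hTr χ hχ s h1 h2)
    simpa using h3
  -- Step 1: lower bound for the nontrivial characters
  have hlow : ∀ s : ℝ, 1 < s → s ≤ 2 →
      -((m.totient : ℝ) * C1 + Tr.card * (C0 + CB)) ≤ ∑ χ ∈ Nt, (Tsum c χ s).re := by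
    intro s h1 h2
    have hS := sum_Tsum (m := m) c hc (hsw s h1 h2)
    rw [hsplit] at hS
    have hre := congrArg Complex.re hS
    simp only [Complex.add_re, Complex.re_sum, Complex.mul_re, Complex.natCast_re,
      Complex.natCast_im, Complex.ofReal_re, Complex.ofReal_im, zero_mul, sub_zero] at hre
    have hD1 : (Nat.card A : ℝ)⁻¹ * Real.log (1 / (s - 1)) - C1 ≤ Dsum c (1 : ZMod m) s :=
      hC1 s h1 h2
    have hW : |(∑' p, wt c s p) - Real.log (1 / (s - 1))| ≤ C0 := hC0 s h1 h2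
    rw [abs_le] at hW
    have hsumTr : ∑ χ ∈ Tr, (Tsum c χ s).re ≤ Tr.card * ((∑' p, wt c s p) + CB) := by
      calc ∑ χ ∈ Tr, (Tsum c χ s).re ≤ ∑ χ ∈ Tr, ((∑' p, wt c s p) + CB) :=
            Finset.sum_le_sum fun χ hχ => by
              have := hTrre χ hχ s h1 h2
              rw [abs_le] at this
              linarith [this.2]
        _ = _ := by rw [Finset.sum_const, nsmul_eq_mul]
    have hlg := hlgnn s h1 h2
    have e1 : (m.totient : ℝ) * ((Nat.card A : ℝ)⁻¹ * Real.log (1 / (s - 1))) =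
        Tr.card * Real.log (1 / (s - 1)) := by
      rw [← hkR]
      field_simp
    have e2 : (m.totient : ℝ) * ((Nat.card A : ℝ)⁻¹ * Real.log (1 / (s - 1)) - C1) ≤
        (m.totient : ℝ) * Dsum c (1 : ZMod m) s :=
      mul_le_mul_of_nonneg_left hD1 hφpos.le
    have e3 : (Tr.card : ℝ) * ((∑' p, wt c s p) + CB) ≤
        Tr.card * (Real.log (1 / (s - 1)) + C0 + CB) :=
      mul_le_mul_of_nonneg_left (by linarith [hW.2]) hk0
    linarith
  -- Step 2: nonvanishing of the limits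
  set K2 := (m.totient : ℝ) * C1 + Tr.card * (C0 + CB) + ∑ χ ∈ Nt, C χ with hK2
  have hexp : ∀ s : ℝ, 1 < s → s ≤ 2 →
      Real.exp (-K2) ≤ ∏ χ ∈ Nt, ‖Complex.exp (Λ χ s)‖ := by
    intro s h1 h2
    simp only [Complex.norm_exp]
    rw [← Real.exp_sum]
    apply Real.exp_le_exp.mpr
    have h3 : ∑ χ ∈ Nt, ((Tsum c χ s).re - C χ) ≤ ∑ χ ∈ Nt, (Λ χ s).re := by
      refine Finset.sum_le_sum fun χ hχ => ?_
      have h4 := (Complex.abs_re_le_norm _).trans (hΛb χ (hNt χ hχ) s h1 h2)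
      rw [Complex.sub_re, abs_le] at h4
      linarith [h4.1]
    rw [Finset.sum_sub_distrib] at h3
    linarith [hlow s h1 h2]
  have hlim : Tendsto (fun s => ∏ χ ∈ Nt, ‖Complex.exp (Λ χ s)‖) (𝓝[>] (1 : ℝ))
      (𝓝 (∏ χ ∈ Nt, ‖ℓ χ‖)) :=
    tendsto_finsetProd _ fun χ hχ => (hΛt χ (hNt χ hχ)).norm
  have hprod : Real.exp (-K2) ≤ ∏ χ ∈ Nt, ‖ℓ χ‖ :=
    ge_of_tendsto hlim (hF.mono fun s hs => hexp s hs.1 hs.2)
  have hℓ : ∀ χ ∈ Nt, ℓ χ ≠ 0 := by
    intro χ hχ h0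
    have : ∏ χ ∈ Nt, ‖ℓ χ‖ = 0 := Finset.prod_eq_zero hχ (by simp [h0])
    linarith [Real.exp_pos (-K2)]
  -- Step 3: the logarithms are bounded
  have hbd : ∀ χ ∈ Nt, ∃ Bχ : ℝ, ∀ᶠ s in 𝓝[>] (1 : ℝ), ‖Λ χ s‖ ≤ Bχ := fun χ hχ =>
    exists_bound_of_exp_tendsto (hΛc χ (hNt χ hχ)) (hℓ χ hχ) (hΛt χ (hNt χ hχ))
  choose! Bd hBd using hbd
  have hev : ∀ᶠ s in 𝓝[>] (1 : ℝ), ∀ χ ∈ Nt, ‖Λ χ s‖ ≤ Bd χ :=
    (Filter.eventually_all_finset Nt).mpr hBd
  -- Step 4: the class of `a`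
  set a' : ZMod m := ((a : (ZMod m)ˣ) : ZMod m) with ha'
  have hau : IsUnit a' := a.isUnit
  have hainv : a'⁻¹ = (((a⁻¹ : (ZMod m)ˣ) : (ZMod m)ˣ) : ZMod m) := by
    rw [ha', ZMod.inv_coe_unit]
  set K4 := (m.totient : ℝ) * (∑ p ∈ primesIn S, c p) + Tr.card * (C0 + CB) +
    ∑ χ ∈ Nt, (Bd χ + C χ) with hK4
  have hfinal : ∀ᶠ s in 𝓝[>] (1 : ℝ), (Tr.card : ℝ) * Real.log (1 / (s - 1)) ≤ K4 := by
    filter_upwards [hF, hev] with s hs hsev
    obtain ⟨h1, h2⟩ := hs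
    have hS := sum_inv_Tsum (m := m) c hc (hsw s h1 h2) hau
    rw [hsplit] at hS
    have hre := congrArg Complex.re hS
    simp only [Complex.add_re, Complex.re_sum] at hre
    rw [Complex.mul_re] at hre
    simp only [Complex.natCast_re, Complex.natCast_im, Complex.ofReal_re, Complex.ofReal_im,
      zero_mul, sub_zero] at hre
    have hW : |(∑' p, wt c s p) - Real.log (1 / (s - 1))| ≤ C0 := hC0 s h1 h2
    rw [abs_le] at hW
    have hDle : Dsum c a' s ≤ ∑ p ∈ primesIn S, c p :=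
      Dsum_le_of_forall c hc hcon' (by linarith)
    -- trivial characters
    have hT1 : (Tr.card : ℝ) * (Real.log (1 / (s - 1)) - C0 - CB) ≤
        ∑ χ ∈ Tr, (χ a'⁻¹ * Tsum c χ s).re := by
      calc (Tr.card : ℝ) * (Real.log (1 / (s - 1)) - C0 - CB)
          = ∑ χ ∈ Tr, (Real.log (1 / (s - 1)) - C0 - CB) := by
            rw [Finset.sum_const, nsmul_eq_mul]
        _ ≤ _ := Finset.sum_le_sum fun χ hχ => by
            have hχ1 : χ a'⁻¹ = 1 := by
              rw [hainv]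
              exact (Finset.mem_filter.mp hχ).2 _ (Subgroup.inv_mem A ha)
            rw [hχ1, one_mul]
            have := hTrre χ hχ s h1 h2
            rw [abs_le] at this
            linarith [this.1, hW.1]
    -- nontrivial characters
    have hT2 : -∑ χ ∈ Nt, (Bd χ + C χ) ≤ ∑ χ ∈ Nt, (χ a'⁻¹ * Tsum c χ s).re := by
      rw [← Finset.sum_neg_distrib]
      refine Finset.sum_le_sum fun χ hχ => ?_
      have h3 : ‖χ a'⁻¹ * Tsum c χ s‖ ≤ Bd χ + C χ := by
        rw [norm_mul]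
        have h4 : ‖Tsum c χ s‖ ≤ Bd χ + C χ := by
          have h5 := hΛb χ (hNt χ hχ) s h1 h2
          have h6 := hsev χ hχ
          calc ‖Tsum c χ s‖ = ‖Λ χ s - (Λ χ s - Tsum c χ s)‖ := by rw [sub_sub_cancel]
            _ ≤ ‖Λ χ s‖ + ‖Λ χ s - Tsum c χ s‖ := norm_sub_le _ _
            _ ≤ _ := by linarith
        calc ‖χ a'⁻¹‖ * ‖Tsum c χ s‖ ≤ 1 * ‖Tsum c χ s‖ :=
              mul_le_mul_of_nonneg_right (DirichletCharacter.norm_le_one χ _) (norm_nonneg _)
          _ ≤ _ := by rw [one_mul]; exact h4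
      have h7 := (Complex.abs_re_le_norm _).trans h3
      rw [abs_le] at h7
      linarith [h7.1]
    have hφD : (m.totient : ℝ) * Dsum c a' s ≤ (m.totient : ℝ) * ∑ p ∈ primesIn S, c p :=
      mul_le_mul_of_nonneg_left hDle hφpos.le
    have e4 : (Tr.card : ℝ) * (Real.log (1 / (s - 1)) - C0 - CB) =
        Tr.card * Real.log (1 / (s - 1)) - Tr.card * (C0 + CB) := by ring
    linarith
  have hgt := tendsto_log_one_div_sub.eventually_gt_atTop (K4 / Tr.card)
  obtain ⟨s, hs1, hs2⟩ := (hfinal.and hgt).exists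
  rw [div_lt_iff₀ hkpos] at hs2
  linarith

end Fermat.Agent.Lib.Cheb.H221

end
-- ===== PACK-END Lib/Cheb/H221/CycAbs.lean

-- ===== PACK-BEGIN S14/H74/Support.lean
section


/-!
# S14/N1 (helper74): the support of `rho` (piece P5a)

On the support of `rho` all the `normAtPlace w x` are comparable with `‖x‖`.
-/

namespace Fermat.Agent.S14.H74

open NumberField NumberField.mixedEmbedding NumberField.Units
  NumberField.Units.dirichletUnitTheorem NumberField.InfinitePlace Module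

open scoped Classical

variable {K : Type*} [Field K] [NumberField K]

theorem normAtPlace_le_norm (w : InfinitePlace K) (x : mixedSpace K) :
    normAtPlace w x ≤ ‖x‖ := by
  classical
  rw [norm_eq_sup'_normAtPlace]
  exact Finset.le_sup' (fun w ↦ normAtPlace w x) (Finset.mem_univ w)

theorem exists_norm_eq_normAtPlace (x : mixedSpace K) : ∃ w, ‖x‖ = normAtPlace w x := by
  classical
  obtain ⟨w, -, hw⟩ := Finset.exists_mem_eq_sup' Finset.univ_nonempty
    (fun w : InfinitePlace K ↦ normAtPlace w x)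
  exact ⟨w, by rw [norm_eq_sup'_normAtPlace, hw]⟩

theorem log_norm_eq_sum {x : mixedSpace K} (hx : mixedEmbedding.norm x ≠ 0) :
    Real.log (mixedEmbedding.norm x) = ∑ w, (mult w : ℝ) * Real.log (normAtPlace w x) := by
  rw [mixedEmbedding.norm_apply, Real.log_prod]
  · exact Finset.sum_congr rfl fun w _ ↦ by rw [Real.log_pow]
  · intro w _
    exact pow_ne_zero _ (mixedEmbedding.norm_ne_zero_iff.mp hx w)

theorem norm_ne_zero_of_rho_ne_zero {x : mixedSpace K} (h : rho K x ≠ 0) :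
    mixedEmbedding.norm x ≠ 0 := by
  intro h0
  exact h (by simp [rho, h0])

theorem rho_eq_prod {x : mixedSpace K} (hx : mixedEmbedding.norm x ≠ 0) :
    rho K x = ∏ j, tent (logCoord K x j) := by
  simp [rho, hx]

theorem rho_nonneg (x : mixedSpace K) : 0 ≤ rho K x := by
  unfold rho
  split_ifs
  · exact le_rfl
  · exact Finset.prod_nonneg fun j _ ↦ tent_nonneg _

theorem rho_le_one (x : mixedSpace K) : rho K x ≤ 1 := by
  unfold rho
  split_ifs
  · exact zero_le_one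
  · exact Finset.prod_le_one (fun j _ ↦ tent_nonneg _) fun j _ ↦ tent_le_one _

theorem abs_logCoord_lt_one_of_rho_ne_zero {x : mixedSpace K} (h : rho K x ≠ 0)
    (j : Fin (rank K)) : |logCoord K x j| < 1 := by
  have hx := norm_ne_zero_of_rho_ne_zero h
  rw [rho_eq_prod hx] at h
  exact abs_lt_one_of_tent_ne_zero fun h0 ↦ h (Finset.prod_eq_zero (Finset.mem_univ j) h0)

theorem logMap_eq_sum_logCoord (x : mixedSpace K) :
    logMap x = ∑ j, logCoord K x j • ((basisUnitLattice K).ofZLatticeBasis ℝ (unitLattice K)) j :=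
  (((basisUnitLattice K).ofZLatticeBasis ℝ (unitLattice K)).sum_repr (logMap x)).symm

/-- A bound for `logMap` on the support of `rho`. -/
theorem exists_logMap_bound : ∃ B : ℝ, 0 ≤ B ∧ ∀ x : mixedSpace K, rho K x ≠ 0 →
    ‖logMap x‖ ≤ B := by
  refine ⟨∑ j, ‖((basisUnitLattice K).ofZLatticeBasis ℝ (unitLattice K)) j‖,
    Finset.sum_nonneg fun j _ ↦ norm_nonneg _, fun x hx ↦ ?_⟩
  rw [logMap_eq_sum_logCoord x]
  refine (norm_sum_le _ _).trans (Finset.sum_le_sum fun j _ ↦ ?_)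
  rw [_root_.norm_smul, Real.norm_eq_abs]
  exact mul_le_of_le_one_left (norm_nonneg _) (abs_logCoord_lt_one_of_rho_ne_zero hx j).le

theorem sum_mult_mul_log_sub {x : mixedSpace K} (hx : mixedEmbedding.norm x ≠ 0) :
    ∑ w : InfinitePlace K, (mult w : ℝ) * (Real.log (normAtPlace w x) -
      Real.log (mixedEmbedding.norm x) * (finrank ℚ K : ℝ)⁻¹) = 0 := by
  have h1 : (∑ w : InfinitePlace K, (mult w : ℝ)) = (finrank ℚ K : ℝ) := by
    rw [← Nat.cast_sum, sum_mult_eq]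
  have h2 : (finrank ℚ K : ℝ) ≠ 0 := Nat.cast_ne_zero.mpr finrank_pos.ne'
  simp_rw [mul_sub]
  rw [Finset.sum_sub_distrib, ← log_norm_eq_sum hx, ← Finset.sum_mul, h1]
  field_simp
  ring

/-- On the support of `rho`, all `log (normAtPlace w x)` are within a bounded distance of
`log (norm x) / n`. -/
theorem exists_log_normAtPlace_bound : ∃ B : ℝ, 0 ≤ B ∧ ∀ x : mixedSpace K, rho K x ≠ 0 →
    ∀ w, |Real.log (normAtPlace w x) -
      Real.log (mixedEmbedding.norm x) * (finrank ℚ K : ℝ)⁻¹| ≤ B := by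
  obtain ⟨B, hB0, hB⟩ := exists_logMap_bound (K := K)
  refine ⟨(Fintype.card (InfinitePlace K) + 1) * B, by positivity, fun x hx w ↦ ?_⟩
  have hN := norm_ne_zero_of_rho_ne_zero hx
  set d : InfinitePlace K → ℝ := fun w ↦ Real.log (normAtPlace w x) -
      Real.log (mixedEmbedding.norm x) * (finrank ℚ K : ℝ)⁻¹ with hd
  have hne : ∀ w : InfinitePlace K, w ≠ w₀ → |(mult w : ℝ) * d w| ≤ B := by
    intro w hw
    have h1 : logMap x ⟨w, hw⟩ = (mult w : ℝ) * d w := by simp [hd]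
    rw [← h1]
    exact (norm_le_pi_norm (logMap x) ⟨w, hw⟩).trans (hB x hx)
  have hall : ∀ w : InfinitePlace K, |(mult w : ℝ) * d w| ≤ Fintype.card (InfinitePlace K) * B := by
    intro w
    by_cases hw : w = w₀
    · have hsum := sum_mult_mul_log_sub hN
      rw [← Finset.add_sum_erase Finset.univ _ (Finset.mem_univ w)] at hsum
      have h2 : (mult w : ℝ) * d w = - ∑ v ∈ Finset.univ.erase w, (mult v : ℝ) * d v := by
        linarith
      rw [h2, abs_neg]
      refine (Finset.abs_sum_le_sum_abs _ _).trans ?_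
      calc ∑ v ∈ Finset.univ.erase w, |(mult v : ℝ) * d v|
          ≤ ∑ v ∈ Finset.univ.erase w, B := by
            refine Finset.sum_le_sum fun v hv ↦ hne v ?_
            rw [← hw]
            exact Finset.ne_of_mem_erase hv
        _ = (Finset.univ.erase w).card * B := by rw [Finset.sum_const, nsmul_eq_mul]
        _ ≤ Fintype.card (InfinitePlace K) * B := by
            gcongr
            exact Finset.card_le_univ _
    · refine (hne w hw).trans ?_
      have : (1 : ℝ) ≤ Fintype.card (InfinitePlace K) := by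
        exact_mod_cast Fintype.card_pos
      nlinarith
  have h1 : |d w| ≤ |(mult w : ℝ) * d w| := by
    rw [abs_mul, abs_of_nonneg (by positivity : (0 : ℝ) ≤ mult w)]
    exact le_mul_of_one_le_left (abs_nonneg _) one_le_mult
  refine h1.trans ((hall w).trans ?_)
  nlinarith

/-- On the support of `rho`, all `normAtPlace w x` are comparable with `‖x‖`. -/
theorem exists_support_bound : ∃ A : ℝ, 1 ≤ A ∧ ∀ x : mixedSpace K, rho K x ≠ 0 →
    ∀ w, ‖x‖ ≤ A * normAtPlace w x := by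
  obtain ⟨B, hB0, hB⟩ := exists_log_normAtPlace_bound (K := K)
  refine ⟨Real.exp (2 * B), Real.one_le_exp (by positivity), fun x hx w ↦ ?_⟩
  have hN := norm_ne_zero_of_rho_ne_zero hx
  have hpos : ∀ v, 0 < normAtPlace v x := fun v ↦
    lt_of_le_of_ne (normAtPlace_nonneg v x) (mixedEmbedding.norm_ne_zero_iff.mp hN v).symm
  obtain ⟨v, hv⟩ := exists_norm_eq_normAtPlace x
  rw [hv]
  have h1 := abs_le.mp (hB x hx v)
  have h2 := abs_le.mp (hB x hx w)
  have h3 : Real.log (normAtPlace v x) ≤ 2 * B + Real.log (normAtPlace w x) := by linarith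
  calc normAtPlace v x = Real.exp (Real.log (normAtPlace v x)) := (Real.exp_log (hpos v)).symm
    _ ≤ Real.exp (2 * B + Real.log (normAtPlace w x)) := Real.exp_le_exp.mpr h3
    _ = Real.exp (2 * B) * normAtPlace w x := by rw [Real.exp_add, Real.exp_log (hpos w)]

end Fermat.Agent.S14.H74

end
-- ===== PACK-END S14/H74/Support.lean

-- ===== PACK-BEGIN S14/H74/Lipschitz.lean
section


/-!
# S14/N1 (helper74): Lipschitz estimate for `fS` (piece P5)
-/

namespace Fermat.Agent.S14.H74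

open NumberField NumberField.mixedEmbedding NumberField.Units
  NumberField.Units.dirichletUnitTheorem NumberField.InfinitePlace Module

open scoped Classical

variable {K : Type*} [Field K] [NumberField K]

theorem abs_log_sub_log_le {a b : ℝ} (ha : 0 < a) (hab : |b - a| ≤ a / 2) :
    |Real.log b - Real.log a| ≤ 2 * |b - a| / a := by
  have hb : 0 < b := by
    have := (abs_le.mp hab).1
    linarith
  have hb2 : a / 2 ≤ b := by
    have := (abs_le.mp hab).1
    linarith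
  rw [← Real.log_div hb.ne' ha.ne']
  have hr : 0 < b / a := div_pos hb ha
  have h1 : Real.log (b / a) ≤ b / a - 1 := Real.log_le_sub_one_of_pos hr
  have h2 : 1 - (b / a)⁻¹ ≤ Real.log (b / a) := Real.one_sub_inv_le_log_of_pos hr
  have e1 : b / a - 1 = (b - a) / a := by field_simp
  have e2 : 1 - (b / a)⁻¹ = (b - a) / b := by field_simp
  rw [e1] at h1
  rw [e2] at h2
  have h3 : (b - a) / a ≤ 2 * |b - a| / a := by
    apply div_le_div_of_nonneg_right _ ha.le
    have := le_abs_self (b - a)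
    have := abs_nonneg (b - a)
    linarith
  have h4 : -(2 * |b - a| / a) ≤ (b - a) / b := by
    rw [neg_le, ← neg_div, div_le_div_iff₀ hb ha]
    have h5 := neg_abs_le (b - a)
    have h6 := abs_nonneg (b - a)
    have h7 : -(b - a) ≤ |b - a| := by linarith
    calc -(b - a) * a ≤ |b - a| * a := by gcongr
      _ ≤ |b - a| * (2 * b) := by gcongr; linarith
      _ = 2 * |b - a| * b := by ring
  exact abs_le.mpr ⟨by linarith, by linarith⟩

theorem abs_normAtPlace_add_sub_le (w : InfinitePlace K) (x t : mixedSpace K) :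
    |normAtPlace w (x + t) - normAtPlace w x| ≤ ‖t‖ := by
  have h1 := normAtPlace_add_le w x t
  have h2 := normAtPlace_add_le w (x + t) (-t)
  rw [normAtPlace_neg, add_neg_cancel_right] at h2
  have h3 := normAtPlace_le_norm w t
  exact abs_le.mpr ⟨by linarith, by linarith⟩

/-- Bound for the coordinates in the unit lattice basis. -/
theorem exists_logCoord_bound : ∃ M : ℝ, 0 ≤ M ∧ ∀ (v : logSpace K) (j : Fin (rank K)),
    |((basisUnitLattice K).ofZLatticeBasis ℝ (unitLattice K)).repr v j| ≤ M * ‖v‖ := by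
  set b := (basisUnitLattice K).ofZLatticeBasis ℝ (unitLattice K) with hb
  refine ⟨‖(b.equivFunL : logSpace K →L[ℝ] (Fin (rank K) → ℝ))‖, norm_nonneg _, fun v j ↦ ?_⟩
  have h1 := (b.equivFunL : logSpace K →L[ℝ] (Fin (rank K) → ℝ)).le_opNorm v
  have h2 : b.repr v j = (b.equivFunL : logSpace K →L[ℝ] (Fin (rank K) → ℝ)) v j := by
    simp [Basis.equivFunL]
  rw [h2, ← Real.norm_eq_abs]
  exact (norm_le_pi_norm _ j).trans h1

theorem mult_le_two_real (w : InfinitePlace K) : (mult w : ℝ) ≤ 2 := by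
  unfold mult
  split_ifs <;> norm_num

theorem normAtPlace_pos_of_norm_ne_zero {x : mixedSpace K} (hx : mixedEmbedding.norm x ≠ 0)
    (w : InfinitePlace K) : 0 < normAtPlace w x :=
  lt_of_le_of_ne (normAtPlace_nonneg w x) (mixedEmbedding.norm_ne_zero_iff.mp hx w).symm

/-- L1: a small perturbation keeps the norm nonzero and moves the logarithms of the
`normAtPlace` by a small amount. -/
theorem log_normAtPlace_add_sub {x t : mixedSpace K} (hx : mixedEmbedding.norm x ≠ 0)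
    (ht : ∀ w, ‖t‖ ≤ normAtPlace w x / 2) :
    mixedEmbedding.norm (x + t) ≠ 0 ∧ ∀ w, |Real.log (normAtPlace w (x + t)) -
      Real.log (normAtPlace w x)| ≤ 2 * ‖t‖ / normAtPlace w x := by
  have hpos := normAtPlace_pos_of_norm_ne_zero hx
  have h1 : ∀ w, |normAtPlace w (x + t) - normAtPlace w x| ≤ normAtPlace w x / 2 :=
    fun w ↦ (abs_normAtPlace_add_sub_le w x t).trans (ht w)
  refine ⟨mixedEmbedding.norm_ne_zero_iff.mpr fun w ↦ ?_, fun w ↦ ?_⟩
  · have := (abs_le.mp (h1 w)).1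
    have := hpos w
    exact ne_of_gt (by linarith)
  · refine (abs_log_sub_log_le (hpos w) (h1 w)).trans ?_
    apply div_le_div_of_nonneg_right _ (hpos w).le
    have := abs_normAtPlace_add_sub_le w x t
    linarith

/-- L2 (i): the logarithm of the norm moves by at most `n δ`. -/
theorem abs_log_norm_sub_le {x y : mixedSpace K} (hx : mixedEmbedding.norm x ≠ 0)
    (hy : mixedEmbedding.norm y ≠ 0) {δ : ℝ}
    (h : ∀ w, |Real.log (normAtPlace w y) - Real.log (normAtPlace w x)| ≤ δ) :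
    |Real.log (mixedEmbedding.norm y) - Real.log (mixedEmbedding.norm x)|
      ≤ (finrank ℚ K : ℝ) * δ := by
  rw [log_norm_eq_sum hx, log_norm_eq_sum hy, ← Finset.sum_sub_distrib]
  refine (Finset.abs_sum_le_sum_abs _ _).trans ?_
  have h1 : (∑ w : InfinitePlace K, (mult w : ℝ)) = (finrank ℚ K : ℝ) := by
    rw [← Nat.cast_sum, sum_mult_eq]
  rw [← h1, Finset.sum_mul]
  refine Finset.sum_le_sum fun w _ ↦ ?_
  rw [← mul_sub, abs_mul, abs_of_nonneg (by positivity : (0 : ℝ) ≤ mult w)]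
  exact mul_le_mul_of_nonneg_left (h w) (by positivity)

/-- L2 (ii): `logMap` moves by at most `4 δ`. -/
theorem norm_logMap_sub_le {x y : mixedSpace K} (hx : mixedEmbedding.norm x ≠ 0)
    (hy : mixedEmbedding.norm y ≠ 0) {δ : ℝ} (hδ : 0 ≤ δ)
    (h : ∀ w, |Real.log (normAtPlace w y) - Real.log (normAtPlace w x)| ≤ δ) :
    ‖logMap y - logMap x‖ ≤ 4 * δ := by
  rw [pi_norm_le_iff_of_nonneg (by positivity)]
  intro w
  have hn : (0 : ℝ) < finrank ℚ K := Nat.cast_pos.mpr finrank_pos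
  have h1 := abs_log_norm_sub_le hx hy h
  have h2 := h w.1
  rw [Pi.sub_apply, logMap_apply, logMap_apply, ← mul_sub, Real.norm_eq_abs, abs_mul,
    abs_of_nonneg (by positivity : (0 : ℝ) ≤ mult w.1)]
  have h3 : |Real.log (normAtPlace w.1 y) -
      Real.log (mixedEmbedding.norm y) * (finrank ℚ K : ℝ)⁻¹ -
      (Real.log (normAtPlace w.1 x) - Real.log (mixedEmbedding.norm x) * (finrank ℚ K : ℝ)⁻¹)|
      ≤ 2 * δ := by
    have e : Real.log (normAtPlace w.1 y) -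
      Real.log (mixedEmbedding.norm y) * (finrank ℚ K : ℝ)⁻¹ -
      (Real.log (normAtPlace w.1 x) - Real.log (mixedEmbedding.norm x) * (finrank ℚ K : ℝ)⁻¹)
      = (Real.log (normAtPlace w.1 y) - Real.log (normAtPlace w.1 x)) -
        (Real.log (mixedEmbedding.norm y) - Real.log (mixedEmbedding.norm x)) *
          (finrank ℚ K : ℝ)⁻¹ := by ring
    rw [e]
    refine (abs_sub _ _).trans ?_
    rw [abs_mul, abs_of_pos (inv_pos.mpr hn)]
    have h4 : |Real.log (mixedEmbedding.norm y) - Real.log (mixedEmbedding.norm x)| *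
        (finrank ℚ K : ℝ)⁻¹ ≤ δ := by
      rw [← div_eq_mul_inv, div_le_iff₀ hn]
      linarith
    linarith
  calc (mult w.1 : ℝ) * _ ≤ 2 * (2 * δ) :=
        mul_le_mul (mult_le_two_real w.1) h3 (abs_nonneg _) (by norm_num)
    _ = 4 * δ := by ring

/-- L2 (iii): `rho` moves by at most `r M 4 δ`. -/
theorem exists_rho_sub_bound : ∃ M : ℝ, 0 ≤ M ∧ ∀ (x y : mixedSpace K),
    mixedEmbedding.norm x ≠ 0 → mixedEmbedding.norm y ≠ 0 → ∀ δ : ℝ, 0 ≤ δ →
    (∀ w, |Real.log (normAtPlace w y) - Real.log (normAtPlace w x)| ≤ δ) →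
    |rho K y - rho K x| ≤ M * δ := by
  obtain ⟨M, hM0, hM⟩ := exists_logCoord_bound (K := K)
  refine ⟨rank K * (M * 4), by positivity, fun x y hx hy δ hδ h ↦ ?_⟩
  rw [rho_eq_prod hx, rho_eq_prod hy]
  refine (abs_prod_sub_prod_le_sum _ _ _ (fun _ ↦ tent_nonneg _) (fun _ ↦ tent_le_one _)
    (fun _ ↦ tent_nonneg _) (fun _ ↦ tent_le_one _)).trans ?_
  have h1 : ∀ j, |tent (logCoord K y j) - tent (logCoord K x j)| ≤ M * 4 * δ := by
    intro j
    refine (tent_lipschitz _ _).trans ?_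
    have e : logCoord K y j - logCoord K x j =
        ((basisUnitLattice K).ofZLatticeBasis ℝ (unitLattice K)).repr (logMap y - logMap x) j := by
      simp [logCoord]
    rw [e]
    refine (hM _ j).trans ?_
    rw [mul_assoc]
    exact mul_le_mul_of_nonneg_left (norm_logMap_sub_le hx hy hδ h) hM0
  calc ∑ j, |tent (logCoord K y j) - tent (logCoord K x j)|
      ≤ ∑ _j : Fin (rank K), M * 4 * δ := Finset.sum_le_sum fun j _ ↦ h1 j
    _ = rank K * (M * 4) * δ := by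
        rw [Finset.sum_const, Finset.card_univ, Fintype.card_fin, nsmul_eq_mul]
        ring

theorem pow_le_norm_of_support {A : ℝ} (hA : 1 ≤ A) {x : mixedSpace K}
    (h : ∀ w, ‖x‖ ≤ A * normAtPlace w x) :
    (‖x‖ / A) ^ (finrank ℚ K) ≤ mixedEmbedding.norm x := by
  have hA0 : 0 < A := by linarith
  rw [mixedEmbedding.norm_apply, ← sum_mult_eq, ← Finset.prod_pow_eq_pow_sum]
  refine Finset.prod_le_prod (fun w _ ↦ by positivity) fun w _ ↦ ?_
  refine pow_le_pow_left₀ (by positivity) ?_ _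
  rw [div_le_iff₀ hA0, mul_comm]
  exact h w

theorem fS_eq_zero_of_rho_eq_zero {s : ℝ} {x : mixedSpace K} (h : rho K x = 0) :
    fS K s x = 0 := by
  simp [fS, h]

/-- P5, core case: Lipschitz estimate at points of the support of `rho`. -/
theorem exists_fS_lipschitz_core : ∃ C A : ℝ, 0 ≤ C ∧ 1 ≤ A ∧ ∀ s : ℝ, 1 ≤ s → s ≤ 2 →
    ∀ x t : mixedSpace K, rho K x ≠ 0 → 4 * (finrank ℚ K : ℝ) * A * ‖t‖ ≤ ‖x‖ → A ≤ ‖x‖ →
    |fS K s (x + t) - fS K s x| ≤ C * ‖t‖ / ‖x‖ ^ (finrank ℚ K + 1) := by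
  obtain ⟨A, hA1, hA⟩ := exists_support_bound (K := K)
  obtain ⟨M, hM0, hM⟩ := exists_rho_sub_bound (K := K)
  have hA0 : 0 < A := by linarith
  have hn1 : (1 : ℝ) ≤ finrank ℚ K := by exact_mod_cast finrank_pos
  set n : ℕ := finrank ℚ K with hn
  refine ⟨(3 * M + 4 * n) * 2 * A ^ (n + 1), A, by positivity, hA1,
    fun s hs1 hs2 x t hρ hxt hxA ↦ ?_⟩
  have hN := norm_ne_zero_of_rho_ne_zero hρ
  have hsupp := hA x hρ
  have hxpos : 0 < ‖x‖ := by linarith
  have hapos := normAtPlace_pos_of_norm_ne_zero hN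
  have htn : 0 ≤ ‖t‖ := norm_nonneg t
  -- `‖t‖` is small with respect to all `normAtPlace w x`
  have ht4 : ∀ w, 4 * (n : ℝ) * ‖t‖ ≤ normAtPlace w x := by
    intro w
    have h1 := hsupp w
    have h2 : A * (4 * (n : ℝ) * ‖t‖) ≤ A * normAtPlace w x := by
      calc A * (4 * (n : ℝ) * ‖t‖) = 4 * (n : ℝ) * A * ‖t‖ := by ring
        _ ≤ ‖x‖ := hxt
        _ ≤ A * normAtPlace w x := h1
    exact le_of_mul_le_mul_left h2 hA0
  have ht : ∀ w, ‖t‖ ≤ normAtPlace w x / 2 := by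
    intro w
    have := ht4 w
    nlinarith
  obtain ⟨hN', hlog⟩ := log_normAtPlace_add_sub hN ht
  set δ : ℝ := 2 * A * ‖t‖ / ‖x‖ with hδ
  have hδ0 : 0 ≤ δ := by positivity
  have hδ1 : 2 * (n : ℝ) * δ ≤ 1 := by
    rw [hδ, ← mul_div_assoc, div_le_one hxpos]
    calc 2 * (n : ℝ) * (2 * A * ‖t‖) = 4 * (n : ℝ) * A * ‖t‖ := by ring
      _ ≤ ‖x‖ := hxt
  have hlogδ : ∀ w, |Real.log (normAtPlace w (x + t)) - Real.log (normAtPlace w x)| ≤ δ := by
    intro w
    refine (hlog w).trans ?_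
    rw [hδ, div_le_div_iff₀ (hapos w) hxpos]
    calc 2 * ‖t‖ * ‖x‖ ≤ 2 * ‖t‖ * (A * normAtPlace w x) := by gcongr; exact hsupp w
      _ = 2 * A * ‖t‖ * normAtPlace w x := by ring
  have hΔ := abs_log_norm_sub_le hN hN' hlogδ
  have hρ' := hM x (x + t) hN hN' δ hδ0 hlogδ
  set Δ : ℝ := Real.log (mixedEmbedding.norm (x + t)) - Real.log (mixedEmbedding.norm x) with hΔdef
  have hNpos : 0 < mixedEmbedding.norm x :=
    lt_of_le_of_ne (mixedEmbedding.norm_nonneg x) hN.symm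
  have hNpos' : 0 < mixedEmbedding.norm (x + t) :=
    lt_of_le_of_ne (mixedEmbedding.norm_nonneg _) hN'.symm
  -- the exponential factor
  have hsΔ : |(-s) * Δ| ≤ 2 * (n : ℝ) * δ := by
    rw [abs_mul, abs_neg, abs_of_nonneg (by linarith : (0 : ℝ) ≤ s)]
    calc s * |Δ| ≤ 2 * ((n : ℝ) * δ) := mul_le_mul hs2 hΔ (abs_nonneg _) (by norm_num)
      _ = 2 * (n : ℝ) * δ := by ring
  have he1 : |Real.exp ((-s) * Δ) - 1| ≤ 4 * (n : ℝ) * δ := by
    refine (Real.abs_exp_sub_one_le (hsΔ.trans hδ1)).trans ?_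
    linarith
  have he2 : Real.exp ((-s) * Δ) ≤ 3 := by
    have := (abs_le.mp he1).2
    linarith
  have he0 : 0 ≤ Real.exp ((-s) * Δ) := (Real.exp_pos _).le
  have hpow : (mixedEmbedding.norm (x + t)) ^ (-s) =
      (mixedEmbedding.norm x) ^ (-s) * Real.exp ((-s) * Δ) := by
    rw [Real.rpow_def_of_pos hNpos, Real.rpow_def_of_pos hNpos', ← Real.exp_add, hΔdef]
    congr 1
    ring
  -- bound for `N(x)^(-s)`
  have hNge := pow_le_norm_of_support hA1 hsupp
  have hxA1 : 1 ≤ ‖x‖ / A := by rwa [le_div_iff₀ hA0, one_mul]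
  have hN1 : 1 ≤ mixedEmbedding.norm x := (one_le_pow₀ hxA1).trans hNge
  have hNs : (mixedEmbedding.norm x) ^ (-s) ≤ (A / ‖x‖) ^ n := by
    calc (mixedEmbedding.norm x) ^ (-s) ≤ (mixedEmbedding.norm x) ^ (-1 : ℝ) :=
          Real.rpow_le_rpow_of_exponent_le hN1 (by linarith)
      _ = (mixedEmbedding.norm x)⁻¹ := Real.rpow_neg_one _
      _ ≤ ((‖x‖ / A) ^ n)⁻¹ := inv_anti₀ (by positivity) hNge
      _ = (A / ‖x‖) ^ n := by rw [← inv_pow, inv_div]
  have hNs0 : 0 ≤ (mixedEmbedding.norm x) ^ (-s) := Real.rpow_nonneg hNpos.le _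
  -- assemble
  have hρ0 := rho_nonneg (K := K) x
  have hρ1 := rho_le_one (K := K) x
  have key : fS K s (x + t) - fS K s x = (mixedEmbedding.norm x) ^ (-s) *
      ((rho K (x + t) - rho K x) * Real.exp ((-s) * Δ) +
        rho K x * (Real.exp ((-s) * Δ) - 1)) := by
    have e1 : fS K s (x + t) = rho K (x + t) * (mixedEmbedding.norm (x + t)) ^ (-s) := rfl
    have e2 : fS K s x = rho K x * (mixedEmbedding.norm x) ^ (-s) := rfl
    rw [e1, e2, hpow]
    generalize rho K (x + t) = r1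
    generalize rho K x = r2
    generalize (mixedEmbedding.norm x) ^ (-s) = q
    generalize Real.exp ((-s) * Δ) = e
    ring
  rw [key, abs_mul, abs_of_nonneg hNs0]
  have hin : |(rho K (x + t) - rho K x) * Real.exp ((-s) * Δ) +
        rho K x * (Real.exp ((-s) * Δ) - 1)| ≤ (3 * M + 4 * n) * δ := by
    refine (abs_add_le _ _).trans ?_
    rw [abs_mul, abs_mul, abs_of_nonneg he0, abs_of_nonneg hρ0]
    have h1 : |rho K (x + t) - rho K x| * Real.exp ((-s) * Δ) ≤ (M * δ) * 3 :=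
      mul_le_mul hρ' he2 he0 (mul_nonneg hM0 hδ0)
    have h2 : rho K x * |Real.exp ((-s) * Δ) - 1| ≤ 1 * (4 * (n : ℝ) * δ) :=
      mul_le_mul hρ1 he1 (abs_nonneg _) (by norm_num)
    linarith
  calc (mixedEmbedding.norm x) ^ (-s) * _ ≤ (A / ‖x‖) ^ n * ((3 * M + 4 * n) * δ) :=
        mul_le_mul hNs hin (abs_nonneg _) (by positivity)
    _ = (3 * M + 4 * n) * 2 * A ^ (n + 1) * ‖t‖ / ‖x‖ ^ (n + 1) := by
        rw [hδ, div_pow]
        field_simp
        ring

/-- **P5**: Lipschitz estimate for `fS`, uniform in `s ∈ [1, 2]`. -/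
theorem exists_fS_lipschitz {T : ℝ} (hT : 0 ≤ T) : ∃ R C : ℝ, 0 < R ∧ 0 ≤ C ∧
    ∀ s : ℝ, 1 ≤ s → s ≤ 2 → ∀ x t : mixedSpace K, ‖t‖ ≤ T → R ≤ ‖x‖ →
    |fS K s (x + t) - fS K s x| ≤ C / ‖x‖ ^ (finrank ℚ K + 1) := by
  obtain ⟨C, A, hC0, hA1, h⟩ := exists_fS_lipschitz_core (K := K)
  have hA0 : 0 < A := by linarith
  have hn1 : (1 : ℝ) ≤ finrank ℚ K := by exact_mod_cast finrank_pos
  set n : ℕ := finrank ℚ K with hn
  have hnAT : 0 ≤ (n : ℝ) * A * T := by positivity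
  refine ⟨2 * A + 8 * n * A * T + 2 * T, C * T * 2 ^ (n + 1), by positivity, by positivity,
    fun s hs1 hs2 x t ht hx ↦ ?_⟩
  have hxpos : 0 < ‖x‖ := by linarith
  have htn : 0 ≤ ‖t‖ := norm_nonneg t
  have h2pow : (1 : ℝ) ≤ 2 ^ (n + 1) := one_le_pow₀ (by norm_num)
  by_cases hρ : rho K x = 0
  · by_cases hρ' : rho K (x + t) = 0
    · rw [fS_eq_zero_of_rho_eq_zero hρ, fS_eq_zero_of_rho_eq_zero hρ', sub_zero, abs_zero]
      positivity
    · -- apply the core case at `x + t` with `-t`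
      have hxt : ‖x‖ / 2 ≤ ‖x + t‖ := by
        have h1 : ‖x‖ ≤ ‖x + t‖ + ‖t‖ := by
          calc ‖x‖ = ‖(x + t) - t‖ := by rw [add_sub_cancel_right]
            _ ≤ ‖x + t‖ + ‖t‖ := norm_sub_le _ _
        linarith
      have hxt0 : 0 < ‖x + t‖ := by linarith
      have h1 := h s hs1 hs2 (x + t) (-t) hρ' (by
        rw [norm_neg]
        calc 4 * (n : ℝ) * A * ‖t‖ ≤ 4 * (n : ℝ) * A * T := by gcongr
          _ ≤ ‖x‖ / 2 := by linarith
          _ ≤ ‖x + t‖ := hxt) (by linarith)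
      rw [add_neg_cancel_right, norm_neg, abs_sub_comm] at h1
      refine h1.trans ?_
      rw [div_le_div_iff₀ (by positivity) (by positivity)]
      have h3 : ‖x‖ ^ (n + 1) ≤ 2 ^ (n + 1) * ‖x + t‖ ^ (n + 1) := by
        rw [← mul_pow]
        exact pow_le_pow_left₀ hxpos.le (by linarith) _
      calc C * ‖t‖ * ‖x‖ ^ (n + 1) ≤ C * T * (2 ^ (n + 1) * ‖x + t‖ ^ (n + 1)) := by gcongr
        _ = C * T * 2 ^ (n + 1) * ‖x + t‖ ^ (n + 1) := by ring
  · have h1 := h s hs1 hs2 x t hρ (by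
      calc 4 * (n : ℝ) * A * ‖t‖ ≤ 4 * (n : ℝ) * A * T := by gcongr
        _ ≤ ‖x‖ := by linarith) (by linarith)
    refine h1.trans ?_
    apply div_le_div_of_nonneg_right _ (by positivity)
    calc C * ‖t‖ ≤ C * T * 1 := by rw [mul_one]; gcongr
      _ ≤ C * T * 2 ^ (n + 1) := by gcongr

end Fermat.Agent.S14.H74

end
-- ===== PACK-END S14/H74/Lipschitz.lean

-- ===== PACK-BEGIN S14/H74/UnitSum.lean
section


/-!
# S14/N1 (helper74): `rho` is a partition of unity for the action of the units (piece P2)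
-/

namespace Fermat.Agent.S14.H74

open NumberField NumberField.mixedEmbedding NumberField.Units
  NumberField.Units.dirichletUnitTheorem NumberField.InfinitePlace Module

open scoped Classical

variable (K : Type*) [Field K] [NumberField K]

/-- The decomposition of the units as torsion times the free part. -/
noncomputable def unitsEquiv : torsion K × (Fin (rank K) → ℤ) ≃ (𝓞 K)ˣ :=
  Equiv.ofBijective (fun p ↦ (p.1 : (𝓞 K)ˣ) * ∏ i, (fundSystem K i) ^ (p.2 i)) (by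
    constructor
    · intro p q h
      obtain ⟨c, -, hc⟩ := exist_unique_eq_mul_prod K
        ((p.1 : (𝓞 K)ˣ) * ∏ i, (fundSystem K i) ^ (p.2 i))
      rw [hc p rfl, hc q h]
    · intro x
      obtain ⟨c, hc, -⟩ := exist_unique_eq_mul_prod K x
      exact ⟨c, hc.symm⟩)

theorem unitsEquiv_apply (p : torsion K × (Fin (rank K) → ℤ)) :
    unitsEquiv K p = (p.1 : (𝓞 K)ˣ) * ∏ i, (fundSystem K i) ^ (p.2 i) := rfl

theorem logEmbedding_unitsEquiv (p : torsion K × (Fin (rank K) → ℤ)) :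
    logEmbedding K (Additive.ofMul (unitsEquiv K p)) =
      ∑ i, ((p.2 i : ℤ) : ℝ) • ((basisUnitLattice K).ofZLatticeBasis ℝ (unitLattice K)) i := by
  rw [unitsEquiv_apply, ofMul_mul, map_add, ofMul_prod, map_sum]
  have h1 : logEmbedding K (Additive.ofMul (p.1 : (𝓞 K)ˣ)) = 0 := by
    rw [logEmbedding_eq_zero_iff]
    exact p.1.2
  rw [h1, zero_add]
  refine Finset.sum_congr rfl fun i _ ↦ ?_
  rw [ofMul_zpow, map_zsmul, logEmbedding_fundSystem, Basis.ofZLatticeBasis_apply,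
    Int.cast_smul_eq_zsmul]

variable {K}

theorem logCoord_unitsEquiv_smul (p : torsion K × (Fin (rank K) → ℤ)) {x : mixedSpace K}
    (hx : mixedEmbedding.norm x ≠ 0) (j : Fin (rank K)) :
    logCoord K (unitsEquiv K p • x) j = logCoord K x j + p.2 j := by
  unfold logCoord
  rw [logMap_unit_smul _ hx, map_add, Finsupp.add_apply, logEmbedding_unitsEquiv,
    Basis.repr_sum_self, add_comm]

theorem rho_unitsEquiv_smul (p : torsion K × (Fin (rank K) → ℤ)) {x : mixedSpace K}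
    (hx : mixedEmbedding.norm x ≠ 0) :
    rho K (unitsEquiv K p • x) = ∏ j, tent (logCoord K x j + p.2 j) := by
  have h : mixedEmbedding.norm (unitsEquiv K p • x) ≠ 0 := by rwa [norm_unit_smul]
  rw [rho_eq_prod h]
  exact Finset.prod_congr rfl fun j _ ↦ by rw [logCoord_unitsEquiv_smul p hx]

/-- **P2**: the translates of `rho` by the units sum to the number of roots of unity. -/
theorem hasSum_rho_unit_smul {x : mixedSpace K} (hx : mixedEmbedding.norm x ≠ 0) :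
    HasSum (fun u : (𝓞 K)ˣ ↦ rho K (u • x)) (torsionOrder K) := by
  rw [← (unitsEquiv K).hasSum_iff]
  have hfun : ((fun u : (𝓞 K)ˣ ↦ rho K (u • x)) ∘ unitsEquiv K) =
      fun p : torsion K × (Fin (rank K) → ℤ) ↦ ∏ j, tent (logCoord K x j + p.2 j) := by
    funext p
    exact rho_unitsEquiv_smul p hx
  rw [hfun]
  have h1 := tent_prod_hasSum (fun j ↦ logCoord K x j)
  have hnn : (0 : torsion K × (Fin (rank K) → ℤ) → ℝ) ≤
      fun p ↦ ∏ j, tent (logCoord K x j + p.2 j) :=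
    fun p ↦ Finset.prod_nonneg fun j _ ↦ tent_nonneg _
  have : Fintype (torsion K) := Fintype.ofFinite _
  have hsum : Summable fun p : torsion K × (Fin (rank K) → ℤ) ↦
      ∏ j, tent (logCoord K x j + p.2 j) := by
    rw [summable_prod_of_nonneg hnn]
    exact ⟨fun _ ↦ h1.summable, Summable.of_finite⟩
  have h2 := hsum.tsum_prod' (fun _ ↦ h1.summable)
  simp only [h1.tsum_eq, tsum_fintype, Finset.sum_const, Finset.card_univ, nsmul_eq_mul,
    mul_one] at h2
  have h3 : (Fintype.card (torsion K) : ℝ) = torsionOrder K := by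
    rw [torsionOrder, Nat.card_eq_fintype_card]
  rw [← h3, ← h2]
  exact hsum.hasSum

end Fermat.Agent.S14.H74

end
-- ===== PACK-END S14/H74/UnitSum.lean

-- ===== PACK-BEGIN Ribet/Spec3.lean
section



/-!
# Row RIBET, TARGET S40 (good reduction at `p`): interface statements in `W`-form (helper943)

Frozen S40: `W : WeierstrassCurve ℤ`, `Δ ≠ 0`, `p` odd, `W` good at `p`, `W[p]` irreducible,
`p ‖ M`, `W` residually modular of level `M`  ⊢  `W` residually modular of level `M / p`.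

`S40_of_walls : BLR-W → WALL-p (good) → R3S → R3'-W → S40Statement`   (proved below).

All curve-dependent interfaces are stated for an arbitrary integral Weierstrass curve `W`
(`E = W.map ℤ→ℚ`); the Frey forms of `Spec.lean` are the special case `W = P.freyCurveInt`.
-/

set_option autoImplicit false

open WeierstrassCurve WeierstrassCurve.Affine WeierstrassCurve.Affine.Point
open CuspForm ModularFormClass UpperHalfPlane ModularCurve

namespace Fermat.Agent.Ribet.Spec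

/-- `E[p]` for `E = W ⊗ ℚ`. -/
abbrev WTorsion (W : WeierstrassCurve ℤ) (p : ℕ) : Type :=
  Submodule.torsionBy ℤ ((W.map (Int.castRingHom ℚ))⁄(AlgebraicClosure ℚ)).Point p

/-- The congruence data of `W.IsResiduallyModularOfLevel p N` for a fixed form and ideal. -/
def IsWitnessW (W : WeierstrassCurve ℤ) (p N : ℕ)
    (f : CuspForm (CongruenceSubgroup.Gamma0 N) 2) (𝔪 : Ideal (integralClosure ℤ ℂ)) : Prop :=
  f.IsNormalizedEigenform ∧ 𝔪.IsMaximal ∧ (p : integralClosure ℤ ℂ) ∈ 𝔪 ∧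
    ∀ ℓ : ℕ, ℓ.Prime → W.IsGoodPrimeFor ℓ → ¬ ℓ ∣ N → ℓ ≠ p →
      ∃ a : integralClosure ℤ ℂ, (a : ℂ) = ModularFormClass.qCoeff f ℓ ∧
        a - ((W.apOfModel ℓ : ℤ) : integralClosure ℤ ℂ) ∈ 𝔪

theorem isResiduallyModularOfLevel_iff_exists_witness (W : WeierstrassCurve ℤ) (p N : ℕ) :
    W.IsResiduallyModularOfLevel p N ↔ ∃ f 𝔪, IsWitnessW W p N f 𝔪 :=
  Iff.rfl

/-- A Galois- and Hecke-equivariant embedding of `W[p]` into `J₀(N)`, with `T_ℓ` acting through
`a_ℓ(W)` away from `S`. -/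
def WEmbedsIn (W : WeierstrassCurve ℤ) (p N : ℕ) [NeZero N] (S : Finset ℕ) : Prop :=
  ∃ ι : WTorsion W p →+ JZero N, Function.Injective ι ∧
    (∀ (σ : GQ) (x : WTorsion W p), ι (σ • x) = σ • ι x) ∧
    ∀ ℓ : Nat.Primes, (ℓ : ℕ) ∉ S → ∀ x : WTorsion W p,
      heckeOperatorBar N ℓ (ι x) = W.apOfModel ℓ • ι x

/-- (BLR-W) [row S29, architect helper709]  Boston-Lenstra-Ribet for an arbitrary integral
curve: a congruence witness of level `N` for an irreducible `W[p]`, `p` odd, gives an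
equivariant embedding `W[p] ↪ J₀(N)[p]`. -/
def EmbedWStatement : Prop :=
  ∀ (W : WeierstrassCurve ℤ) (p N : ℕ) [NeZero N], W.Δ ≠ 0 → p.Prime → p ≠ 2 →
    W.ModRepIsIrreducible p →
    ∀ (f : CuspForm (CongruenceSubgroup.Gamma0 N) 2) (𝔪 : Ideal (integralClosure ℤ ℂ)),
      IsWitnessW W p N f 𝔪 → ∃ S : Finset ℕ, WEmbedsIn W p N S

/-- (WALL-p, good reduction)  Mazur-Ribet at `p` in support form: `W` good at `p`, `W[p]`
irreducible and embedded in `J₀(pM')`; then the eigensystem `a_ℓ(W)` occurs in `J₀(M')[p]`. -/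
def AtPOccursGoodStatement : Prop :=
  ∀ (W : WeierstrassCurve ℤ) (p M' : ℕ) [NeZero M'] [NeZero (p * M')], W.Δ ≠ 0 → p.Prime →
    p ≠ 2 → ¬ p ∣ M' → W.IsGoodPrimeFor p → W.ModRepIsIrreducible p →
    ∀ S : Finset ℕ, WEmbedsIn W p (p * M') S →
      ∃ S' : Finset ℕ, S ⊆ S' ∧ OccursIn M' p S' (fun ℓ => W.apOfModel ℓ)

/-- (R3'-W) [frozen S29 + Chebotarev + trace formula]  For an irreducible `W[p]`, a normalised
eigenform congruent to `W` outside a finite set is congruent at every good prime `ℓ ∤ M·p`. -/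
def AlmostAllToWitnessWStatement : Prop :=
  ∀ (W : WeierstrassCurve ℤ) (p M : ℕ), W.Δ ≠ 0 → p.Prime → p ≠ 2 → 0 < M →
    W.ModRepIsIrreducible p →
    ∀ (g : CuspForm (CongruenceSubgroup.Gamma0 M) 2) (𝔪 : Ideal (integralClosure ℤ ℂ))
      (S : Finset ℕ),
      g.IsNormalizedEigenform → 𝔪.IsMaximal → (p : integralClosure ℤ ℂ) ∈ 𝔪 →
      (∀ ℓ : ℕ, ℓ.Prime → ℓ ∉ S →
        ∃ b : integralClosure ℤ ℂ, (b : ℂ) = qCoeff g ℓ ∧
          b - ((W.apOfModel ℓ : ℤ) : integralClosure ℤ ℂ) ∈ 𝔪) →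
      IsWitnessW W p M g 𝔪

/-- Frozen S29 as a Prop (consumed by R3'-W). -/
def S29Statement : Prop :=
  ∀ {N : ℕ} {g : CuspForm (CongruenceSubgroup.Gamma0 N) 2}, g.IsNormalizedEigenform →
    ∀ {p : ℕ}, p.Prime → ∀ {k : Type} [Field k] [CharP k p]
    (φ : integralClosure ℤ ℂ →+* k),
    ∃ ρ : ResidualGaloisRep k, ρ.IsAttachedTo g φ ∧
      ∀ ℓ : ℕ, ℓ.Prime → ¬ ℓ ∣ N * p → ρ.IsUnramifiedAt ℓ

/-- (TF-W)  Trace formula for an integral curve with irreducible `W[p]`. -/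
def TraceFormulaWStatement : Prop :=
  ∀ (W : WeierstrassCurve ℤ) (p : ℕ), W.Δ ≠ 0 → p.Prime → p ≠ 2 → W.ModRepIsIrreducible p →
    ∀ (ℓ : ℕ), ℓ.Prime → ℓ ≠ p → W.IsGoodPrimeFor ℓ →
    ∀ A : ValuationSubring (AlgebraicClosure ℚ), A.LiesOverPrime ℓ →
    ∀ τ : GQ, A.IsFrobeniusAt τ ℓ →
      galoisTrace (S := ℚ) (K := AlgebraicClosure ℚ) (W.map (Int.castRingHom ℚ)) p τ
        = ((W.apOfModel ℓ : ℤ) : ZMod p)

/-- **TARGET S40 from its four inputs.** -/
theorem S40_of_walls (hE : EmbedWStatement) (hWall : AtPOccursGoodStatement)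
    (hR3 : EigenformOfOccursAwayStatement) (hR3' : AlmostAllToWitnessWStatement) :
    S40Statement := by
  intro W hΔ p hp hp2 hgood hirr M hM hpM hp2M hmod
  obtain ⟨M', rfl⟩ := hpM
  have hM'pos : 0 < M' := by
    rcases Nat.eq_zero_or_pos M' with h0 | h0
    · subst h0; simp at hM
    · exact h0
  rw [Nat.mul_div_cancel_left M' hp.pos]
  have hpM' : ¬ p ∣ M' := by
    rintro ⟨k, rfl⟩
    exact hp2M ⟨k, by ring⟩
  haveI : NeZero M' := ⟨hM'pos.ne'⟩
  haveI : NeZero (p * M') := ⟨hM.ne'⟩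
  obtain ⟨f, 𝔪, hwit⟩ := hmod
  obtain ⟨S, hemb⟩ := hE W p (p * M') hΔ hp hp2 hirr f 𝔪 hwit
  obtain ⟨S', -, hocc⟩ := hWall W p M' hΔ hp hp2 hpM' hgood hirr S hemb
  obtain ⟨g, 𝔪', hg, hmax, hpm, hc⟩ := exists_eigenform_of_occursIn hR3 hp hocc
  exact ⟨g, 𝔪', hR3' W p M' hΔ hp hp2 hM'pos hirr g 𝔪' _ hg hmax hpm hc⟩

end Fermat.Agent.Ribet.Spec

end
-- ===== PACK-END Ribet/Spec3.lean

-- ===== PACK-BEGIN S35/H433/Loc.lean
section


/-!
# S35 / (G) — localisations of a chart inside the function field (helper433)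

Elementwise API for `B_n ⊆ F` and `I · B_n ⊆ F` (`B` a subalgebra of a field `F`, `n` a prime of
`B`), bridging to the predicates `LocUnit`, `LocOne`, `OneAt` of `Fermat/Agent/A2/Alg/Spec.lean`.
Mathlib-only mathematics.
-/

set_option autoImplicit false

namespace Fermat.Agent.S35.H433

open Fermat.Agent.A2 Fermat.Agent.A2.Alg

variable {R F : Type*} [CommRing R] [Field F] [Algebra R F] (B : Subalgebra R F)

/-- `u ∈ I · B_n`: `u = a / b`, `a ∈ I`, `b ∉ n`. -/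
def InLoc (n I : Ideal B) (u : F) : Prop :=
  ∃ a b : B, a ∈ I ∧ b ∉ n ∧ u * (b : F) = (a : F)

variable {B}

theorem coe_ne_zero_of_not_mem {n : Ideal B} {b : B} (hb : b ∉ n) : (b : F) ≠ 0 := by
  intro h
  apply hb
  have : b = 0 := Subtype.ext h
  rw [this]
  exact n.zero_mem

theorem InLoc.mono {n I J : Ideal B} (hIJ : I ≤ J) {u : F} (h : InLoc B n I u) : InLoc B n J u := by
  obtain ⟨a, b, ha, hb, hab⟩ := h
  exact ⟨a, b, hIJ ha, hb, hab⟩

theorem InLoc.anti {n n' I : Ideal B} (hn : n' ≤ n) {u : F} (h : InLoc B n I u) :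
    InLoc B n' I u := by
  obtain ⟨a, b, ha, hb, hab⟩ := h
  exact ⟨a, b, ha, fun h' => hb (hn h'), hab⟩

theorem inLoc_zero (n I : Ideal B) [n.IsPrime] : InLoc B n I (0 : F) :=
  ⟨0, 1, I.zero_mem, fun h => (Ideal.IsPrime.ne_top ‹_›) ((Ideal.eq_top_iff_one n).2 h), by simp⟩

theorem inLoc_coe {n I : Ideal B} [n.IsPrime] {a : B} (ha : a ∈ I) : InLoc B n I (a : F) :=
  ⟨a, 1, ha, fun h => (Ideal.IsPrime.ne_top ‹_›) ((Ideal.eq_top_iff_one n).2 h), by simp⟩

theorem inLoc_one (n : Ideal B) [n.IsPrime] : InLoc B n ⊤ (1 : F) :=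
  ⟨1, 1, trivial, fun h => (Ideal.IsPrime.ne_top ‹_›) ((Ideal.eq_top_iff_one n).2 h), by simp⟩

theorem InLoc.add {n I : Ideal B} [hn : n.IsPrime] {u v : F} (hu : InLoc B n I u)
    (hv : InLoc B n I v) : InLoc B n I (u + v) := by
  obtain ⟨a, b, ha, hb, hab⟩ := hu
  obtain ⟨a', b', ha', hb', hab'⟩ := hv
  refine ⟨a * b' + a' * b, b * b', I.add_mem (I.mul_mem_right _ ha) (I.mul_mem_right _ ha'),
    fun h => (hn.mem_or_mem h).elim hb hb', ?_⟩
  push_cast
  rw [← hab, ← hab']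
  ring

theorem InLoc.neg {n I : Ideal B} {u : F} (hu : InLoc B n I u) : InLoc B n I (-u) := by
  obtain ⟨a, b, ha, hb, hab⟩ := hu
  refine ⟨-a, b, I.neg_mem ha, hb, ?_⟩
  push_cast
  rw [← hab]
  ring

theorem InLoc.sub {n I : Ideal B} [n.IsPrime] {u v : F} (hu : InLoc B n I u)
    (hv : InLoc B n I v) : InLoc B n I (u - v) := by
  rw [sub_eq_add_neg]
  exact hu.add hv.neg

/-- `B_n · I B_n ⊆ I B_n`. -/
theorem InLoc.mul {n I : Ideal B} [hn : n.IsPrime] {u v : F} (hu : InLoc B n ⊤ u)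
    (hv : InLoc B n I v) : InLoc B n I (u * v) := by
  obtain ⟨a, b, -, hb, hab⟩ := hu
  obtain ⟨a', b', ha', hb', hab'⟩ := hv
  refine ⟨a * a', b * b', I.mul_mem_left _ ha', fun h => (hn.mem_or_mem h).elim hb hb', ?_⟩
  push_cast
  rw [← hab, ← hab']
  ring

theorem InLoc.mul' {n I : Ideal B} [hn : n.IsPrime] {u v : F} (hu : InLoc B n I u)
    (hv : InLoc B n ⊤ v) : InLoc B n I (u * v) := by
  rw [mul_comm]
  exact hv.mul hu

theorem InLoc.top {n I : Ideal B} {u : F} (hu : InLoc B n I u) : InLoc B n ⊤ u :=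
  hu.mono le_top

theorem InLoc.pow {n : Ideal B} [hn : n.IsPrime] {u : F} (hu : InLoc B n ⊤ u) (k : ℕ) :
    InLoc B n ⊤ (u ^ k) := by
  induction k with
  | zero => rw [pow_zero]; exact inLoc_one n
  | succ k ih => rw [pow_succ]; exact ih.mul hu

/-- Contraction: `I B_n ∩ B_n = I B_n`, in the form: an element of `B_n` lying in `p B_p`
(`p ≤ n` prime) lies in `p B_n`. -/
theorem InLoc.of_le {n p : Ideal B} [hp : p.IsPrime] {u : F} (hu : InLoc B n ⊤ u)
    (hup : InLoc B p p u) : InLoc B n p u := by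
  obtain ⟨a, b, -, hb, hab⟩ := hu
  obtain ⟨a', b', ha', hb', hab'⟩ := hup
  refine ⟨a, b, ?_, hb, hab⟩
  have h1 : a * b' = a' * b := by
    apply Subtype.ext
    push_cast
    rw [← hab, ← hab']
    ring
  have h2 : a * b' ∈ p := by
    rw [h1]
    exact p.mul_mem_right _ ha'
  exact (hp.mem_or_mem h2).resolve_right hb'

/-- `p₁ B_n ∩ p₂ B_n = (p₁ ∩ p₂) B_n`. -/
theorem InLoc.inf {n p₁ p₂ : Ideal B} [hn : n.IsPrime] {u : F} (h₁ : InLoc B n p₁ u)
    (h₂ : InLoc B n p₂ u) : InLoc B n (p₁ ⊓ p₂) u := by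
  obtain ⟨a, b, ha, hb, hab⟩ := h₁
  obtain ⟨a', b', ha', hb', hab'⟩ := h₂
  refine ⟨a * b', b * b', ⟨p₁.mul_mem_right _ ha, ?_⟩, fun h => (hn.mem_or_mem h).elim hb hb', ?_⟩
  · have h1 : a * b' = a' * b := by
      apply Subtype.ext
      push_cast
      rw [← hab, ← hab']
      ring
    rw [h1]
    exact p₂.mul_mem_right _ ha'
  · push_cast
    rw [← hab]
    ring

/-- `(p₁ + p₂) B_n = p₁ B_n + p₂ B_n`. -/
theorem InLoc.exists_add {n p₁ p₂ : Ideal B} {u : F} (h : InLoc B n (p₁ ⊔ p₂) u) :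
    ∃ u₁ u₂ : F, InLoc B n p₁ u₁ ∧ InLoc B n p₂ u₂ ∧ u = u₁ + u₂ := by
  obtain ⟨a, b, ha, hb, hab⟩ := h
  obtain ⟨a₁, ha₁, a₂, ha₂, rfl⟩ := Submodule.mem_sup.1 ha
  have hb0 : (b : F) ≠ 0 := coe_ne_zero_of_not_mem hb
  refine ⟨(a₁ : F) / b, (a₂ : F) / b, ⟨a₁, b, ha₁, hb, by field_simp⟩,
    ⟨a₂, b, ha₂, hb, by field_simp⟩, ?_⟩
  push_cast at hab
  field_simp
  exact hab

/-- An element of `B_p` outside `p B_p` is a unit of `B_p`. -/
theorem inLoc_inv_of_not {p : Ideal B} {u : F} (hu : InLoc B p ⊤ u) (hnu : ¬ InLoc B p p u) :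
    InLoc B p ⊤ u⁻¹ := by
  obtain ⟨a, b, -, hb, hab⟩ := hu
  have ha : a ∉ p := fun ha => hnu ⟨a, b, ha, hb, hab⟩
  have ha0 : (a : F) ≠ 0 := coe_ne_zero_of_not_mem ha
  have hb0 : (b : F) ≠ 0 := coe_ne_zero_of_not_mem hb
  refine ⟨b, a, trivial, ha, ?_⟩
  have hu0 : u ≠ 0 := by
    rintro rfl
    rw [zero_mul] at hab
    exact ha0 hab.symm
  rw [← hab]
  field_simp

/-! ### Bridges to `Alg/Spec.lean` -/

theorem locUnit_ne_zero {n : Ideal B} {u : F} (h : LocUnit B n u) : u ≠ 0 := by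
  obtain ⟨a, b, ha, hb, hab⟩ := h
  rintro rfl
  rw [zero_mul] at hab
  exact coe_ne_zero_of_not_mem ha hab.symm

theorem locUnit_iff {n : Ideal B} [hn : n.IsPrime] {u : F} :
    LocUnit B n u ↔ u ≠ 0 ∧ InLoc B n ⊤ u ∧ InLoc B n ⊤ u⁻¹ := by
  constructor
  · intro h
    have hu0 := locUnit_ne_zero h
    obtain ⟨a, b, ha, hb, hab⟩ := h
    have ha0 : (a : F) ≠ 0 := coe_ne_zero_of_not_mem ha
    have hb0 : (b : F) ≠ 0 := coe_ne_zero_of_not_mem hb
    refine ⟨hu0, ⟨a, b, trivial, hb, hab⟩, ⟨b, a, trivial, ha, ?_⟩⟩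
    rw [← hab]
    field_simp
  · rintro ⟨hu0, ⟨a, b, -, hb, hab⟩, ⟨a', b', -, hb', hab'⟩⟩
    have hb0 : (b : F) ≠ 0 := coe_ne_zero_of_not_mem hb
    have hb'0 : (b' : F) ≠ 0 := coe_ne_zero_of_not_mem hb'
    refine ⟨a, b, ?_, hb, hab⟩
    intro ha
    have h1 : a * a' = b * b' := by
      apply Subtype.ext
      push_cast
      rw [← hab, ← hab']
      field_simp
    have h2 : b * b' ∈ n := by
      rw [← h1]
      exact n.mul_mem_right _ ha
    exact (hn.mem_or_mem h2).elim hb hb'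

theorem locOne_iff {n I : Ideal B} {u : F} : LocOne B n I u ↔ InLoc B n I (u - 1) := by
  constructor
  · rintro ⟨a, b, hb, hab, h⟩
    refine ⟨a - b, b, hab, hb, ?_⟩
    push_cast
    rw [← h]
    ring
  · rintro ⟨a, b, ha, hb, h⟩
    refine ⟨a + b, b, hb, by simpa using ha, ?_⟩
    push_cast
    rw [← h]
    ring

theorem oneAt_iff {p : Ideal B} {u : F} : OneAt B p u ↔ InLoc B p p (u - 1) :=
  locOne_iff

end Fermat.Agent.S35.H433

end
-- ===== PACK-END S35/H433/Loc.lean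

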