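import Mathlib.RingTheory.Ideal.KrullsHeightTheorem
import Mathlib.RingTheory.Ideal.MinimalPrime.Noetherian
import Mathlib.RingTheory.Ideal.BigOperators
import Fermat.Agent.Pack.S36.E12L2
import Fermat.Agent.Pack.S36.E4L1
import Fermat.Agent.Pack.S36.E12L3
import Fermat.Agent.Pack.S58.E2L2
import Fermat.Agent.Pack.S58.E1L2
import Fermat.Agent.Pack.S58.E0L1
import Fermat.Agent.Pack.S58.E2L3
import Fermat.Agent.Pack.S58.E2L0
import Fermat.Agent.Pack.S36.E13L0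
import Fermat.Agent.Pack.S58.E0L0
import Fermat.Agent.Pack.S36.E9L0
import Fermat.Agent.Pack.S58.E2L1

-- ===== PACK-BEGIN S58/H94/Cmp.lean
section




/-!
# Row S58 (helper94): comparison of two adic Galois representations by a common quadratic
relation

If two continuous Galois actions over a complete DVR `𝒪` satisfy, at every Frobenius element
outside a finite set `S ∋ p`, the *same* quadratic relation `X² - t_ℓ X + ℓ`, then every element
`g` of `G_ℚ` satisfies on both a common relation `X² - a X + χ(g)` (`χ` the `p`-adic cyclotomic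
character).  This is the Chebotarev argument of the S30 glue (helper990), applied to the direct
sum.  No determinant and no irreducibility are needed to compare the two actions afterwards.
-/

set_option autoImplicit false

namespace Fermat.Agent.S58.H94

open Fermat.Agent.S30.H990 Fermat.Agent.S55.H414

/-- The weak Chebotarev statement, unconditional. -/
theorem chebWeak_h94 : ChebWeak :=
  chebWeak_of_frobeniusDivision Fermat.Agent.Lib.Cheb.frobeniusDivision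

section Gen

variable {𝒪 : Type} [CommRing 𝒪] [IsDomain 𝒪] [IsDiscreteValuationRing 𝒪]
  [IsAdicComplete (IsLocalRing.maximalIdeal 𝒪) 𝒪] [Finite (IsLocalRing.ResidueField 𝒪)]
  {M : Type} [AddCommGroup M] [Module 𝒪 M]

omit [IsAdicComplete (IsLocalRing.maximalIdeal 𝒪) 𝒪] [Finite (IsLocalRing.ResidueField 𝒪)] in
/-- The quadratic relation modulo `𝔪 ^ n` for every element of `G_ℚ` (generic form of
`S30.H990.exists_rel_mod`). -/
theorem exists_rel_mod_gen (p : ℕ) [Fact p.Prime] (S : Finset ℕ) (hpS : p ∈ S)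
    (ρ : _root_.Fermat.Agent.S30.H990.GQ →* Module.End 𝒪 M) (cont : GaloisActionIsAdicContinuous 𝒪 ρ)
    (t : ℕ → 𝒪)
    (frob : ∀ ℓ : ℕ, ℓ.Prime → ℓ ∉ S →
      ∀ A : ValuationSubring (AlgebraicClosure ℚ), A.LiesOverPrime ℓ →
        ∀ σ : _root_.Fermat.Agent.S30.H990.GQ, A.IsFrobeniusAt σ ℓ →
          ρ σ * ρ σ - t ℓ • ρ σ + (ℓ : 𝒪) • 1 = 0)
    (d : _root_.Fermat.Agent.S30.H990.GQ →* 𝒪ˣ)
    (hdfrob : ∀ ℓ : ℕ, ℓ.Prime → ℓ ≠ p → ∀ A : ValuationSubring (AlgebraicClosure ℚ),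
      A.LiesOverPrime ℓ → ∀ σ : _root_.Fermat.Agent.S30.H990.GQ, A.IsFrobeniusAt σ ℓ → ((d σ : 𝒪ˣ) : 𝒪) = (ℓ : 𝒪))
    (hdcont : ∀ (n : ℕ) (σ : _root_.Fermat.Agent.S30.H990.GQ), (∀ x ∈ cycloLevel (p ^ n), σ x = x) →
      ((d σ : 𝒪ˣ) : 𝒪) - 1 ∈ IsLocalRing.maximalIdeal 𝒪 ^ n)
    (g : _root_.Fermat.Agent.S30.H990.GQ) (n : ℕ) :
    ∃ a : 𝒪, ∀ v : M, ρ g (ρ g v) - a • ρ g v + ((d g : 𝒪ˣ) : 𝒪) • v
      ∈ (IsLocalRing.maximalIdeal 𝒪 ^ n) • (⊤ : Submodule 𝒪 M) := by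
  obtain ⟨L₁, hL₁fin, hL₁⟩ := cont n
  have : FiniteDimensional ℚ L₁ := hL₁fin
  have hLfin : FiniteDimensional ℚ ↥(L₁ ⊔ cycloLevel (p ^ n)) :=
    IntermediateField.finiteDimensional_sup L₁ (cycloLevel (p ^ n))
  obtain ⟨ℓ, hℓ, hℓS, A, hA, τ, hτ, j, hj⟩ :=
    chebWeak_h94 (L₁ ⊔ cycloLevel (p ^ n)) hLfin g S
  have hℓp : ℓ ≠ p := fun h => hℓS (h ▸ hpS)
  set σ : _root_.Fermat.Agent.S30.H990.GQ := (τ ^ j)⁻¹ * g with hσ
  have hg : g = τ ^ j * σ := by rw [hσ, mul_inv_cancel_left]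
  have hσfix : ∀ x ∈ L₁ ⊔ cycloLevel (p ^ n), σ x = x := by
    intro x hx
    have h1 : σ x = (τ ^ j)⁻¹ (g x) := rfl
    rw [h1, hj x hx]
    exact (τ ^ j).symm_apply_apply x
  have hs : ∀ v : M, ρ σ v - v
      ∈ (IsLocalRing.maximalIdeal 𝒪 ^ n) • (⊤ : Submodule 𝒪 M) :=
    hL₁ σ (fun x hx => hσfix x ((le_sup_left : L₁ ≤ L₁ ⊔ cycloLevel (p ^ n)) hx))
  have hu : ((d σ : 𝒪ˣ) : 𝒪) - 1 ∈ IsLocalRing.maximalIdeal 𝒪 ^ n :=
    hdcont n σ (fun x hx =>
      hσfix x ((le_sup_right : cycloLevel (p ^ n) ≤ L₁ ⊔ cycloLevel (p ^ n)) hx))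
  have hfrob := frob ℓ hℓ hℓS A hA τ hτ
  obtain ⟨t', ht⟩ := lucas (ρ τ) (t ℓ) (ℓ : 𝒪) hfrob j
  refine ⟨t', fun v => ?_⟩
  have key := rel_mod_of_mul (IsLocalRing.maximalIdeal 𝒪 ^ n) (ρ τ ^ j) (ρ σ) t'
    ((ℓ : 𝒪) ^ j) ((d σ : 𝒪ˣ) : 𝒪) ht hs hu v
  have hρg : ρ g = ρ τ ^ j * ρ σ := by rw [hg, map_mul, map_pow]
  have hdg : ((d g : 𝒪ˣ) : 𝒪) = (ℓ : 𝒪) ^ j * ((d σ : 𝒪ˣ) : 𝒪) := by
    rw [hg, map_mul, map_pow, Units.val_mul, Units.val_pow_eq_pow_val,
      hdfrob ℓ hℓ hℓp A hA τ hτ]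
  rw [hρg, hdg]
  exact key

/-- The exact quadratic relation for every element of `G_ℚ`. -/
theorem exists_rel_gen [Module.Finite 𝒪 M] (p : ℕ) [Fact p.Prime] (S : Finset ℕ) (hpS : p ∈ S)
    (ρ : _root_.Fermat.Agent.S30.H990.GQ →* Module.End 𝒪 M) (cont : GaloisActionIsAdicContinuous 𝒪 ρ)
    (t : ℕ → 𝒪)
    (frob : ∀ ℓ : ℕ, ℓ.Prime → ℓ ∉ S →
      ∀ A : ValuationSubring (AlgebraicClosure ℚ), A.LiesOverPrime ℓ →
        ∀ σ : _root_.Fermat.Agent.S30.H990.GQ, A.IsFrobeniusAt σ ℓ →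
          ρ σ * ρ σ - t ℓ • ρ σ + (ℓ : 𝒪) • 1 = 0)
    (d : _root_.Fermat.Agent.S30.H990.GQ →* 𝒪ˣ)
    (hdfrob : ∀ ℓ : ℕ, ℓ.Prime → ℓ ≠ p → ∀ A : ValuationSubring (AlgebraicClosure ℚ),
      A.LiesOverPrime ℓ → ∀ σ : _root_.Fermat.Agent.S30.H990.GQ, A.IsFrobeniusAt σ ℓ → ((d σ : 𝒪ˣ) : 𝒪) = (ℓ : 𝒪))
    (hdcont : ∀ (n : ℕ) (σ : _root_.Fermat.Agent.S30.H990.GQ), (∀ x ∈ cycloLevel (p ^ n), σ x = x) →
      ((d σ : 𝒪ˣ) : 𝒪) - 1 ∈ IsLocalRing.maximalIdeal 𝒪 ^ n)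
    (g : _root_.Fermat.Agent.S30.H990.GQ) : ∃ a, Fermat.Agent.S30.H990.Rel ρ d g a :=
  exists_rel_of_mod ρ d g
    (fun n => exists_rel_mod_gen p S hpS ρ cont t frob d hdfrob hdcont g n)

end Gen

section Pair

variable {𝒪 : Type} [CommRing 𝒪] [IsDomain 𝒪] [IsDiscreteValuationRing 𝒪]
  [IsAdicComplete (IsLocalRing.maximalIdeal 𝒪) 𝒪] [Finite (IsLocalRing.ResidueField 𝒪)]

/-- The diagonal action on the product of two adic representations. -/
noncomputable def prodRho (ρ₁ ρ₂ : GaloisRepAdic 𝒪) : _root_.Fermat.Agent.S30.H990.GQ →* Module.End 𝒪 (ρ₁.V × ρ₂.V) where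
  toFun σ := LinearMap.prodMap (ρ₁.ρ σ) (ρ₂.ρ σ)
  map_one' := by
    rw [map_one, map_one]
    exact LinearMap.prodMap_one
  map_mul' σ τ := by
    rw [map_mul, map_mul]
    exact (LinearMap.prodMap_mul _ _ _ _).symm

omit [IsAdicComplete (IsLocalRing.maximalIdeal 𝒪) 𝒪] [Finite (IsLocalRing.ResidueField 𝒪)] in
theorem prodRho_apply (ρ₁ ρ₂ : GaloisRepAdic 𝒪) (σ : _root_.Fermat.Agent.S30.H990.GQ) (v : ρ₁.V × ρ₂.V) :
    prodRho ρ₁ ρ₂ σ v = (ρ₁.ρ σ v.1, ρ₂.ρ σ v.2) := rfl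

omit [IsDomain 𝒪] [IsDiscreteValuationRing 𝒪] [IsAdicComplete (IsLocalRing.maximalIdeal 𝒪) 𝒪]
  [Finite (IsLocalRing.ResidueField 𝒪)] in
theorem prod_mem_smul_top (I : Ideal 𝒪) {V₁ V₂ : Type} [AddCommGroup V₁] [Module 𝒪 V₁]
    [AddCommGroup V₂] [Module 𝒪 V₂] {x : V₁} {y : V₂}
    (hx : x ∈ I • (⊤ : Submodule 𝒪 V₁)) (hy : y ∈ I • (⊤ : Submodule 𝒪 V₂)) :
    ((x, y) : V₁ × V₂) ∈ I • (⊤ : Submodule 𝒪 (V₁ × V₂)) := by
  have h1 : ((x, 0) : V₁ × V₂) ∈ I • (⊤ : Submodule 𝒪 (V₁ × V₂)) := by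
    refine Submodule.smul_induction_on (p := fun x => ((x, 0) : V₁ × V₂) ∈
      I • (⊤ : Submodule 𝒪 (V₁ × V₂))) hx ?_ ?_
    · intro r hr n _
      have : ((r • n, 0) : V₁ × V₂) = r • ((n, 0) : V₁ × V₂) := by
        rw [Prod.smul_mk, smul_zero]
      rw [this]
      exact Submodule.smul_mem_smul hr Submodule.mem_top
    · intro a b ha hb
      have : ((a + b, 0) : V₁ × V₂) = (a, 0) + (b, 0) := by
        rw [Prod.mk_add_mk, add_zero]
      rw [this]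
      exact Submodule.add_mem _ ha hb
  have h2 : ((0, y) : V₁ × V₂) ∈ I • (⊤ : Submodule 𝒪 (V₁ × V₂)) := by
    refine Submodule.smul_induction_on (p := fun y => ((0, y) : V₁ × V₂) ∈
      I • (⊤ : Submodule 𝒪 (V₁ × V₂))) hy ?_ ?_
    · intro r hr n _
      have : ((0, r • n) : V₁ × V₂) = r • ((0, n) : V₁ × V₂) := by
        rw [Prod.smul_mk, smul_zero]
      rw [this]
      exact Submodule.smul_mem_smul hr Submodule.mem_top
    · intro a b ha hb
      have : ((0, a + b) : V₁ × V₂) = (0, a) + (0, b) := by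
        rw [Prod.mk_add_mk, add_zero]
      rw [this]
      exact Submodule.add_mem _ ha hb
  have : ((x, y) : V₁ × V₂) = (x, 0) + (0, y) := by
    rw [Prod.mk_add_mk, add_zero, zero_add]
  rw [this]
  exact Submodule.add_mem _ h1 h2

omit [IsAdicComplete (IsLocalRing.maximalIdeal 𝒪) 𝒪] [Finite (IsLocalRing.ResidueField 𝒪)] in
theorem prodRho_cont (ρ₁ ρ₂ : GaloisRepAdic 𝒪) :
    GaloisActionIsAdicContinuous 𝒪 (prodRho ρ₁ ρ₂) := by
  intro n
  obtain ⟨L₁, hL₁fin, hL₁⟩ := ρ₁.isAdicContinuous n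
  obtain ⟨L₂, hL₂fin, hL₂⟩ := ρ₂.isAdicContinuous n
  have : FiniteDimensional ℚ L₁ := hL₁fin
  have : FiniteDimensional ℚ L₂ := hL₂fin
  refine ⟨L₁ ⊔ L₂, IntermediateField.finiteDimensional_sup L₁ L₂, fun σ hσ v => ?_⟩
  have h1 := hL₁ σ (fun x hx => hσ x ((le_sup_left : L₁ ≤ L₁ ⊔ L₂) hx)) v.1
  have h2 := hL₂ σ (fun x hx => hσ x ((le_sup_right : L₂ ≤ L₁ ⊔ L₂) hx)) v.2
  have : prodRho ρ₁ ρ₂ σ v - v = (ρ₁.ρ σ v.1 - v.1, ρ₂.ρ σ v.2 - v.2) := by
    rw [prodRho_apply]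
    rfl
  rw [this]
  exact prod_mem_smul_top _ h1 h2

/-- **Common quadratic relation.**  Two adic representations with the same quadratic relation
at the Frobenius elements outside `S` satisfy a common relation `X² - a X + d(g)` at every
`g ∈ G_ℚ`. -/
theorem exists_common_rel (p : ℕ) [Fact p.Prime] (S : Finset ℕ) (hpS : p ∈ S)
    (ρ₁ ρ₂ : GaloisRepAdic 𝒪) (t : ℕ → 𝒪)
    (frob₁ : ∀ ℓ : ℕ, ℓ.Prime → ℓ ∉ S →
      ∀ A : ValuationSubring (AlgebraicClosure ℚ), A.LiesOverPrime ℓ →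
        ∀ σ : _root_.Fermat.Agent.S30.H990.GQ, A.IsFrobeniusAt σ ℓ →
          ρ₁.ρ σ * ρ₁.ρ σ - t ℓ • ρ₁.ρ σ + (ℓ : 𝒪) • 1 = 0)
    (frob₂ : ∀ ℓ : ℕ, ℓ.Prime → ℓ ∉ S →
      ∀ A : ValuationSubring (AlgebraicClosure ℚ), A.LiesOverPrime ℓ →
        ∀ σ : _root_.Fermat.Agent.S30.H990.GQ, A.IsFrobeniusAt σ ℓ →
          ρ₂.ρ σ * ρ₂.ρ σ - t ℓ • ρ₂.ρ σ + (ℓ : 𝒪) • 1 = 0)
    (d : _root_.Fermat.Agent.S30.H990.GQ →* 𝒪ˣ)
    (hdfrob : ∀ ℓ : ℕ, ℓ.Prime → ℓ ≠ p → ∀ A : ValuationSubring (AlgebraicClosure ℚ),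
      A.LiesOverPrime ℓ → ∀ σ : _root_.Fermat.Agent.S30.H990.GQ, A.IsFrobeniusAt σ ℓ → ((d σ : 𝒪ˣ) : 𝒪) = (ℓ : 𝒪))
    (hdcont : ∀ (n : ℕ) (σ : _root_.Fermat.Agent.S30.H990.GQ), (∀ x ∈ cycloLevel (p ^ n), σ x = x) →
      ((d σ : 𝒪ˣ) : 𝒪) - 1 ∈ IsLocalRing.maximalIdeal 𝒪 ^ n)
    (g : _root_.Fermat.Agent.S30.H990.GQ) : ∃ a : 𝒪, Fermat.Agent.S30.H990.Rel ρ₁.ρ d g a ∧ Fermat.Agent.S30.H990.Rel ρ₂.ρ d g a := by
  have frob : ∀ ℓ : ℕ, ℓ.Prime → ℓ ∉ S →
      ∀ A : ValuationSubring (AlgebraicClosure ℚ), A.LiesOverPrime ℓ →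
        ∀ σ : _root_.Fermat.Agent.S30.H990.GQ, A.IsFrobeniusAt σ ℓ →
          prodRho ρ₁ ρ₂ σ * prodRho ρ₁ ρ₂ σ - t ℓ • prodRho ρ₁ ρ₂ σ + (ℓ : 𝒪) • 1 = 0 := by
    intro ℓ hℓ hℓS A hA σ hσ
    have h1 := frob₁ ℓ hℓ hℓS A hA σ hσ
    have h2 := frob₂ ℓ hℓ hℓS A hA σ hσ
    apply LinearMap.ext
    rintro ⟨v, w⟩
    have e1 := congrArg (fun f : Module.End 𝒪 ρ₁.V => f v) h1
    have e2 := congrArg (fun f : Module.End 𝒪 ρ₂.V => f w) h2
    simp only [LinearMap.add_apply, LinearMap.sub_apply, Module.End.mul_apply,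
      LinearMap.smul_apply, Module.End.one_apply, LinearMap.zero_apply] at e1 e2
    simp only [LinearMap.add_apply, LinearMap.sub_apply, Module.End.mul_apply,
      LinearMap.smul_apply, Module.End.one_apply, LinearMap.zero_apply, prodRho_apply,
      Prod.smul_mk, Prod.mk_sub_mk, Prod.mk_add_mk, e1, e2]
    rfl
  obtain ⟨a, ha⟩ := exists_rel_gen p S hpS (prodRho ρ₁ ρ₂) (prodRho_cont ρ₁ ρ₂) t frob d
    hdfrob hdcont g
  refine ⟨a, ?_, ?_⟩
  · unfold Fermat.Agent.S30.H990.Rel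
    apply LinearMap.ext
    intro v
    have := rel_apply (prodRho ρ₁ ρ₂) d ha ((v, 0) : ρ₁.V × ρ₂.V)
    have e := congrArg Prod.fst this
    simpa [prodRho_apply] using e
  · unfold Fermat.Agent.S30.H990.Rel
    apply LinearMap.ext
    intro w
    have := rel_apply (prodRho ρ₁ ρ₂) d ha ((0, w) : ρ₁.V × ρ₂.V)
    have e := congrArg Prod.snd this
    simpa [prodRho_apply] using e

end Pair

end Fermat.Agent.S58.H94

end
-- ===== PACK-END S58/H94/Cmp.lean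

-- ===== PACK-BEGIN S52/H297/MHeight.lean
section


/-!
# The exact height on `M` and the parallelogram law
-/

set_option autoImplicit false

open Polynomial WeierstrassCurve
open scoped WeierstrassCurve.Affine

namespace Fermat.Agent.S52.H297

open Fermat.Agent.Lib.Frob.A2

variable {F : Type*} [Field F] (W : WeierstrassCurve F)
variable {K : Type*} [Field K] [Algebra F K]
variable (ι : RatFunc F →ₐ[F] K) (y : K)

/-- the ring homomorphism `F[X] → K` -/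
noncomputable def ιP : F[X] →+* K :=
  (ι : RatFunc F →+* K).comp (algebraMap F[X] (RatFunc F))

lemma ιP_apply (p : F[X]) : ιP ι p = ι (algebraMap F[X] (RatFunc F) p) := rfl

lemma ιP_injective : Function.Injective (ιP ι) :=
  (ι : RatFunc F →+* K).injective.comp (RatFunc.algebraMap_injective F)

lemma baseCurve_eq : (W⁄K) = H720.baseCurve W (ιP ι) := by
  show W.map (algebraMap F K) = W.map ((ιP ι).comp C)
  congr 1
  ext c
  show algebraMap F K c = ι (algebraMap F[X] (RatFunc F) (C c))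
  rw [← algebraMap_eq, ← IsScalarTower.algebraMap_apply, AlgHom.commutes]

open scoped Classical in
/-- the pullback of the `x`-coordinate to `F(X)` (junk value `0` outside `M`) -/
noncomputable def xInv : (W⁄K).Point → RatFunc F
  | .zero => 0
  | .some x _ _ => if h : ∃ u, ι u = x then h.choose else 0

lemma xInv_some {u : RatFunc F} {v : K} (h : (W⁄K).Nonsingular (ι u) v) :
    xInv W ι (.some (ι u) v h) = u := by
  have hex : ∃ u', ι u' = ι u := ⟨u, rfl⟩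
  simp only [xInv, dif_pos hex]
  exact (ι : RatFunc F →+* K).injective hex.choose_spec

/-- a coprime representative of the `x`-coordinate -/
noncomputable def rep : (W⁄K).Point → F[X] × F[X]
  | .zero => (1, 0)
  | .some x v h => ((xInv W ι (.some x v h)).num, (xInv W ι (.some x v h)).denom)

/-- the height of a point (meaningful on `M`) -/
noncomputable def ptHt (P : (W⁄K).Point) : ℕ := H720.ht (rep W ι P).1 (rep W ι P).2

lemma ptHt_zero : ptHt W ι 0 = 0 := by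
  show H720.ht (1 : F[X]) 0 = 0
  simp [H720.ht]

lemma ptHt_some {u : RatFunc F} {v : K} (h : (W⁄K).Nonsingular (ι u) v) :
    ptHt W ι (.some (ι u) v h) = hgt u := by
  show H720.ht (xInv W ι (.some (ι u) v h)).num (xInv W ι (.some (ι u) v h)).denom = hgt u
  rw [xInv_some]
  rfl

variable {W ι y}

/-- every point of `M` has a coprime representative of its `x`-coordinate. -/
lemma xrep_of_inM {P : (W⁄K).Point} (hP : InM W ι y P) :
    IsCoprime (rep W ι P).1 (rep W ι P).2 ∧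
      P.xRep 0 * ιP ι (rep W ι P).2 = P.xRep 1 * ιP ι (rep W ι P).1 := by
  rcases P with _ | ⟨x, v, h⟩
  · refine ⟨isCoprime_one_left, ?_⟩
    show (Affine.Point.xRep (0 : (W⁄K).Point)) 0 * ιP ι 0 = (Affine.Point.xRep (0 : (W⁄K).Point)) 1 * ιP ι 1
    simp [Affine.Point.xRep_zero]
  · obtain ⟨u, Y, hx, hv⟩ := hP
    subst hx
    show IsCoprime (xInv W ι (.some (ι u) v h)).num (xInv W ι (.some (ι u) v h)).denom ∧
      (Affine.Point.some (ι u) v h).xRep 0 * ιP ι (xInv W ι (.some (ι u) v h)).denom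
        = (Affine.Point.some (ι u) v h).xRep 1 * ιP ι (xInv W ι (.some (ι u) v h)).num
    rw [xInv_some]
    refine ⟨RatFunc.isCoprime_num_denom u, ?_⟩
    simp only [Affine.Point.xRep_some, Matrix.cons_val_zero, Matrix.cons_val_one, one_mul, ιP_apply]
    rw [← map_mul]
    congr 1
    have := RatFunc.num_div_denom u
    rw [div_eq_iff (by simpa using RatFunc.denom_ne_zero u)] at this
    exact this.symm

omit [Algebra F K] in
/-- transport of helper720's parallelogram law along an equality of curves -/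
theorem parallelogram_transport [DecidableEq K] [W.IsElliptic] (ι' : F[X] →+* K)
    (hι' : Function.Injective ι') (WK : Affine K) (hWK : WK = H720.baseCurve W ι')
    {P Q : WK.Point} {n₁ d₁ n₂ d₂ n₃ d₃ n₄ d₄ : F[X]}
    (hP : IsCoprime n₁ d₁ ∧ P.xRep 0 * ι' d₁ = P.xRep 1 * ι' n₁)
    (hQ : IsCoprime n₂ d₂ ∧ Q.xRep 0 * ι' d₂ = Q.xRep 1 * ι' n₂)
    (hadd : IsCoprime n₃ d₃ ∧ (P + Q).xRep 0 * ι' d₃ = (P + Q).xRep 1 * ι' n₃)
    (hsub : IsCoprime n₄ d₄ ∧ (P - Q).xRep 0 * ι' d₄ = (P - Q).xRep 1 * ι' n₄) :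
    H720.ht n₃ d₃ + H720.ht n₄ d₄ = 2 * (H720.ht n₁ d₁ + H720.ht n₂ d₂) := by
  subst hWK
  exact H720.parallelogram hι' hP hQ hadd hsub

lemma ptHt_neg (P : (W⁄K).Point) : ptHt W ι (-P) = ptHt W ι P := by
  rcases P with _ | ⟨x, v, h⟩
  · rfl
  · rfl

/-- **Exact parallelogram law on `M`.** -/
theorem ptHt_parallelogram [DecidableEq K] [W.IsElliptic] (hs : TwistSetup W ι y)
    {P Q : (W⁄K).Point} (hP : InM W ι y P) (hQ : InM W ι y Q) :
    ptHt W ι (P + Q) + ptHt W ι (P - Q) = 2 * ptHt W ι P + 2 * ptHt W ι Q := by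
  have hadd : InM W ι y (P + Q) := inM_add hs hP hQ
  have hsub : InM W ι y (P - Q) := by
    rw [sub_eq_add_neg]
    exact inM_add hs hP (inM_neg hs hQ)
  have := parallelogram_transport (W := W) (ιP ι) (ιP_injective ι) (W⁄K) (baseCurve_eq W ι)
    (xrep_of_inM hP) (xrep_of_inM hQ) (xrep_of_inM hadd) (xrep_of_inM hsub)
  unfold ptHt
  rw [this]
  ring

end Fermat.Agent.S52.H297

end
-- ===== PACK-END S52/H297/MHeight.lean

-- ===== PACK-BEGIN S52/H297/MFrob.lean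
section



/-!
# Frobenius on `M`: `h ∘ Φ = q h` and `h ∘ (Φ - 1) = #E(F) · h`
-/

set_option autoImplicit false
set_option linter.unusedSectionVars false

open Polynomial WeierstrassCurve
open scoped WeierstrassCurve.Affine

namespace Fermat.Agent.S52.H297

open Fermat.Agent.Lib.FrobRel.H230 (frobPt frobPsi)

section General

variable {F : Type*} [Field F]

lemma hgt_pow (u : RatFunc F) (n : ℕ) : hgt (u ^ n) = n * hgt u := by
  have hu := RatFunc.num_div_denom u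
  have hd := RatFunc.denom_ne_zero u
  have hc := RatFunc.isCoprime_num_denom u
  have e : u ^ n = algebraMap F[X] (RatFunc F) (u.num ^ n)
      / algebraMap F[X] (RatFunc F) (u.denom ^ n) := by
    rw [map_pow, map_pow, ← div_pow, hu]
  rw [e, hgt_div_of_isCoprime (pow_ne_zero n hd) hc.pow, natDegree_pow, natDegree_pow]
  show max _ _ = n * max _ _
  rw [Nat.mul_max_mul_left]

lemma exists_C_of_hgt_eq_zero {u : RatFunc F} (h : hgt u = 0) : ∃ c : F, u = RatFunc.C c := by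
  have h1 : u.num.natDegree = 0 := by
    unfold hgt at h
    omega
  have h2 : u.denom.natDegree = 0 := by
    unfold hgt at h
    omega
  obtain ⟨a, ha⟩ := natDegree_eq_zero.mp h1
  obtain ⟨b, hb⟩ := natDegree_eq_zero.mp h2
  refine ⟨a / b, ?_⟩
  rw [← RatFunc.num_div_denom u, ← ha, ← hb, RatFunc.algebraMap_C, RatFunc.algebraMap_C, map_div₀]

end General

variable {F : Type*} [Field F] [Fintype F] [DecidableEq F] {W : WeierstrassCurve F}
variable {K : Type*} [Field K] [Algebra F K] [DecidableEq K]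
variable {ι : RatFunc F →ₐ[F] K} {y : K}

omit [Algebra F K] in
lemma some_congr_x {WK : Affine K} {x x' v : K} (h : WK.Nonsingular x v) (e : x = x') :
    ∃ h' : WK.Nonsingular x' v, Affine.Point.some x v h = Affine.Point.some x' v h' := by
  subst e
  exact ⟨h, rfl⟩

lemma frobPt_some' {x v : K} (h : (W⁄K).Nonsingular x v) :
    ∃ h' : (W⁄K).Nonsingular (x ^ Fintype.card F) (v ^ Fintype.card F),
      frobPt W K (Affine.Point.some x v h)
        = Affine.Point.some (x ^ Fintype.card F) (v ^ Fintype.card F) h' :=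
  ⟨_, Fermat.Agent.Lib.FrobRel.H230.frobPt_some W K h⟩

lemma y_pow_card (hs : TwistSetup W ι y) (hF : ringChar F ≠ 2) :
    y ^ Fintype.card F = y * ι (fRat W ^ (Fintype.card F / 2)) := by
  have hq := card_eq_two_mul_add_one (F := F) hF
  generalize Fintype.card F / 2 = m at hq
  rw [hq, pow_succ, pow_mul, hs.hy', map_pow]
  ring

lemma inM_frob (hs : TwistSetup W ι y) (hF : ringChar F ≠ 2) {P : (W⁄K).Point}
    (hP : InM W ι y P) : InM W ι y (frobPt W K P) := by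
  rcases P with _ | ⟨x, v, h⟩
  · exact trivial
  · obtain ⟨u, Y, hx, hv⟩ := hP
    refine ⟨u ^ Fintype.card F, fRat W ^ (Fintype.card F / 2) * Y ^ Fintype.card F, ?_, ?_⟩
    · show x ^ Fintype.card F = _
      rw [hx, map_pow]
    · show v ^ Fintype.card F = _
      rw [hv, mul_pow, y_pow_card hs hF]
      simp only [map_mul, map_pow]
      ring

/-- `h (Φ Q) = q · h (Q)` on `M`. -/
theorem ptHt_frob {P : (W⁄K).Point} (hP : InM W ι y P) :
    ptHt W ι (frobPt W K P) = Fintype.card F * ptHt W ι P := by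
  rcases P with _ | ⟨x, v, h⟩
  · show ptHt W ι 0 = _ * ptHt W ι 0
    rw [ptHt_zero, mul_zero]
  · obtain ⟨u, Y, hx, hv⟩ := hP
    subst hx
    rw [ptHt_some]
    have e : ∃ h', frobPt W K (Affine.Point.some (ι u) v h)
        = Affine.Point.some (ι (u ^ Fintype.card F)) (v ^ Fintype.card F) h' := by
      have hx : (ι u) ^ Fintype.card F = ι (u ^ Fintype.card F) := (map_pow ι u _).symm
      obtain ⟨h1, e1⟩ := frobPt_some' (W := W) h
      rw [e1]
      exact some_congr_x _ hx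
    obtain ⟨h', e⟩ := e
    rw [e, ptHt_some, hgt_pow]

lemma pow_card_ne_self {u : RatFunc F} (hu : hgt u ≠ 0) : u ^ Fintype.card F ≠ u := by
  intro e
  apply transcendental_of_hgt_ne_zero hu
  refine ⟨X ^ Fintype.card F - X, FiniteField.X_pow_card_sub_X_ne_zero F Fintype.one_lt_card, ?_⟩
  simp [e]

/-- **Manin's identification**: for `Q = (ι u, v) ∈ W(K)` with `u` non-constant, the
`x`-coordinate of `Φ Q - Q` is `ι (R(u))`, `R` Manin's rational function. -/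
theorem frob_sub_some (hs : TwistSetup W ι y) (hF : ringChar F ≠ 2) {u : RatFunc F} {v : K}
    (h : (W⁄K).Nonsingular (ι u) v) (hu : hgt u ≠ 0) :
    ∃ (v' : K) (h' : (W⁄K).Nonsingular (ι (subst u hu (maninR W.a₂ W.a₄ W.a₆))) v'),
      frobPt W K (Affine.Point.some (ι u) v h) - Affine.Point.some (ι u) v h
        = Affine.Point.some (ι (subst u hu (maninR W.a₂ W.a₄ W.a₆))) v' h' := by
  have hne : (ι u) ^ Fintype.card F ≠ ι u := by
    intro e
    apply pow_card_ne_self hu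
    apply (ι : RatFunc F →+* K).injective
    rw [map_pow]
    exact e
  have hD : (ι u) ^ Fintype.card F - ι u ≠ 0 := sub_ne_zero.mpr hne
  obtain ⟨h1, e1⟩ := frobPt_some' (W := W) h
  rw [e1, sub_eq_add_neg, Affine.Point.neg_some, Affine.Point.add_of_X_ne hne]
  suffices hX : (W⁄K).addX (ι u ^ Fintype.card F) (ι u)
      ((W⁄K).slope (ι u ^ Fintype.card F) (ι u) (v ^ Fintype.card F) ((W⁄K).negY (ι u) v))
      = ι (subst u hu (maninR W.a₂ W.a₄ W.a₆)) from ⟨_, some_congr_x _ hX⟩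
  rw [Affine.slope_of_X_ne hne, hs.negY]
  -- the right-hand side
  have hR : ι (subst u hu (maninR W.a₂ W.a₄ W.a₆))
      = (((ι u) ^ 3 + algebraMap F K W.a₂ * (ι u) ^ 2 + algebraMap F K W.a₄ * ι u
            + algebraMap F K W.a₆)
          * (((ι u) ^ 3 + algebraMap F K W.a₂ * (ι u) ^ 2 + algebraMap F K W.a₄ * ι u
            + algebraMap F K W.a₆) ^ (Fintype.card F / 2) + 1) ^ 2
          - (algebraMap F K W.a₂ + (ι u) ^ Fintype.card F + ι u)
            * ((ι u) ^ Fintype.card F - ι u) ^ 2)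
        / ((ι u) ^ Fintype.card F - ι u) ^ 2 := by
    unfold maninR
    rw [subst_div, map_div₀, ← aeval_algHom_apply, ← aeval_algHom_apply]
    simp only [maninNum, maninDen, uPoly, cubic, map_sub, map_mul, map_add, map_pow, aeval_X,
      aeval_C, map_one]
  rw [hR]
  -- the curve equation
  have hv2 : v ^ 2 = (ι u) ^ 3 + algebraMap F K W.a₂ * (ι u) ^ 2 + algebraMap F K W.a₄ * ι u
      + algebraMap F K W.a₆ := by
    have := (Affine.equation_iff (W := (W⁄K)) (ι u) v).mp h.1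
    rw [hs.a₁K, hs.a₃K] at this
    have e2 : (W⁄K).a₂ = algebraMap F K W.a₂ := rfl
    have e4 : (W⁄K).a₄ = algebraMap F K W.a₄ := rfl
    have e6 : (W⁄K).a₆ = algebraMap F K W.a₆ := rfl
    rw [e2, e4, e6] at this
    linear_combination this
  rw [← hv2]
  have hq := card_eq_two_mul_add_one (F := F) hF
  have hvq : v ^ Fintype.card F - -v = v * ((v ^ 2) ^ (Fintype.card F / 2) + 1) := by
    generalize Fintype.card F / 2 = m at hq
    rw [hq]
    ring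
  rw [hvq, Affine.addX, hs.a₁K]
  have e2 : (W⁄K).a₂ = algebraMap F K W.a₂ := rfl
  rw [e2]
  field_simp
  ring

/-- `h (Φ Q - Q) = #E(F) · h (Q)` on `M`. -/
theorem ptHt_frob_sub (hs : TwistSetup W ι y) (hF : ringChar F ≠ 2) (hΔ : W.Δ ≠ 0)
    {Q : (W⁄K).Point} (hQ : InM W ι y Q) :
    ptHt W ι (frobPt W K Q - Q) = Nat.card W.toAffine.Point * ptHt W ι Q := by
  haveI : W.IsElliptic := ⟨isUnit_iff_ne_zero.mpr hΔ⟩
  rcases Q with _ | ⟨x, v, h⟩
  · show ptHt W ι (frobPt W K 0 - 0) = _ * ptHt W ι 0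
    rw [map_zero, sub_zero, ptHt_zero, mul_zero]
  · have hQ' := hQ
    obtain ⟨u, Y, hx, hv⟩ := hQ
    subst hx
    by_cases hu : hgt u = 0
    · rw [ptHt_some, hu, mul_zero]
      obtain ⟨c, rfl⟩ := exists_C_of_hgt_eq_zero hu
      obtain ⟨h1, e1⟩ := frobPt_some' (W := W) h
      have hxx : (ι (RatFunc.C c)) ^ Fintype.card F = ι (RatFunc.C c) := by
        rw [← map_pow, ← map_pow, FiniteField.pow_card]
      rcases (Affine.Point.X_eq_iff (h₁ := h1) (h₂ := h)).mp hxx with e | e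
      · rw [e1, e, sub_self, ptHt_zero]
      · rw [e1, e]
        have hpar := ptHt_parallelogram hs (inM_neg hs hQ') hQ'
        rw [neg_add_cancel, ptHt_zero, ptHt_neg, ptHt_some, hu] at hpar
        omega
    · obtain ⟨v', h', e⟩ := frob_sub_some hs hF h hu
      rw [e, ptHt_some, ptHt_some, hgt_subst, hgt_maninR_eq_card_point hF W hs.a₁ hs.a₃ hΔ]

end Fermat.Agent.S52.H297

end
-- ===== PACK-END S52/H297/MFrob.lean

-- ===== PACK-BEGIN S52/H297/MFinal.lean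
section



/-!
# The Frobenius relation over a finite field of odd characteristic (Manin's elementary proof)

`F` a finite field with `q` elements, `q` odd, `W : y² = x³ + a₂x² + a₄x + a₆` over `F` with
`Δ ≠ 0`.  Then `Φ² - a Φ + q = 0` on `W(L)` for every field `L ⊇ F`, where `Φ` is the `q`-power
Frobenius and `a = q + 1 - #W(F)`.
-/

set_option autoImplicit false
set_option linter.unusedSectionVars false

open Polynomial WeierstrassCurve
open scoped WeierstrassCurve.Affine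

namespace Fermat.Agent.S52.H297

open Fermat.Agent.Lib.FrobRel.H230 (frobPt frobPsi IsConstPt)

variable {F : Type*} [Field F] [Fintype F] [DecidableEq F] {W : WeierstrassCurve F}
variable {K : Type*} [Field K] [Algebra F K] [DecidableEq K]
variable {ι : RatFunc F →ₐ[F] K} {y : K}

/-- Frobenius restricted to `M`. -/
noncomputable def frobM (hs : TwistSetup W ι y) (hF : ringChar F ≠ 2) : Msub hs →+ Msub hs :=
  AddMonoidHom.codRestrict ((frobPt W K).comp (Msub hs).subtype) (Msub hs)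
    (fun P => inM_frob hs hF P.2)

/-- the height on `M` -/
noncomputable def hM (hs : TwistSetup W ι y) : Msub hs → ℕ := fun P => ptHt W ι P.1

lemma isParNat_hM (hs : TwistSetup W ι y) (hΔ : W.Δ ≠ 0) :
    Fermat.Agent.S52.H127.IsParNat (hM hs) := by
  have : W.IsElliptic := ⟨isUnit_iff_ne_zero.mpr hΔ⟩
  intro P Q
  exact ptHt_parallelogram hs P.2 Q.2

/-- On `M`, `Φ² - a Φ + q` takes values of height `0`. -/
theorem ptHt_frobPsi (hs : TwistSetup W ι y) (hF : ringChar F ≠ 2) (hΔ : W.Δ ≠ 0)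
    {Q : (W⁄K).Point} (hQ : InM W ι y Q) :
    InM W ι y (frobPsi W K ((Fintype.card F : ℤ) + 1 - (Nat.card W.toAffine.Point : ℤ)) Q) ∧
    ptHt W ι (frobPsi W K ((Fintype.card F : ℤ) + 1 - (Nat.card W.toAffine.Point : ℤ)) Q) = 0 := by
  have key := (isParNat_hM hs hΔ).frobenius_relation (frobM hs hF) (Fintype.card F)
    (Nat.card W.toAffine.Point) (fun P => ptHt_frob P.2) (fun P => ptHt_frob_sub hs hF hΔ P.2)
    ⟨Q, hQ⟩
  have e : ((frobM hs hF (frobM hs hF ⟨Q, hQ⟩)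
      - ((Fintype.card F : ℤ) + 1 - (Nat.card W.toAffine.Point : ℤ)) • frobM hs hF ⟨Q, hQ⟩
      + Fintype.card F • (⟨Q, hQ⟩ : Msub hs) : Msub hs) : (W⁄K).Point)
      = frobPsi W K ((Fintype.card F : ℤ) + 1 - (Nat.card W.toAffine.Point : ℤ)) Q := by
    rw [Fermat.Agent.Lib.FrobRel.H230.frobPsi_apply, natCast_zsmul]
    rfl
  rw [← e]
  exact ⟨Subtype.property _, key⟩

lemma isConstPt_of_ptHt_eq_zero {P : (W⁄K).Point} (hP : InM W ι y P) (h0 : ptHt W ι P = 0) :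
    IsConstPt W P := by
  rcases P with _ | ⟨x, v, h⟩
  · exact Or.inl rfl
  · obtain ⟨u, Y, hx, hv⟩ := hP
    subst hx
    rw [ptHt_some] at h0
    obtain ⟨c, rfl⟩ := exists_C_of_hgt_eq_zero h0
    refine Or.inr ⟨_, _, h, rfl, ?_⟩
    rw [← RatFunc.algebraMap_eq_C, AlgHom.commutes]
    exact isAlgebraic_algebraMap c

/-- **Frobenius relation from a twist setup.** -/
theorem frobPsi_eq_zero_of_setup (hs : TwistSetup W ι y) (hF : ringChar F ≠ 2) (hΔ : W.Δ ≠ 0)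
    {L : Type*} [Field L] [Algebra F L] [DecidableEq L] (T : (W⁄L).Point) :
    frobPsi W L ((Fintype.card F : ℤ) + 1 - (Nat.card W.toAffine.Point : ℤ)) T = 0 := by
  have hΔK : (W⁄K).Δ ≠ 0 := Fermat.Agent.Lib.FrobRel.H230.baseChange_Δ_ne_zero' W hΔ K
  have heq : (W⁄K).Equation (ι RatFunc.X) y := by
    rw [Affine.equation_iff, hs.a₁K, hs.a₃K, a₂K (ι := ι), a₄K (ι := ι), a₆K (ι := ι), hs.hy',
      fRat]
    simp only [map_add, map_mul, map_pow]
    ring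
  have hns : (W⁄K).Nonsingular (ι RatFunc.X) y :=
    (Affine.equation_iff_nonsingular_of_Δ_ne_zero hΔK).mp heq
  have hM : InM W ι y (Affine.Point.some _ _ hns) := ⟨RatFunc.X, 1, rfl, by rw [map_one, mul_one]⟩
  have hx : Transcendental F (ι RatFunc.X) := by
    have h1 : Transcendental F (RatFunc.X : RatFunc F) :=
      transcendental_of_hgt_ne_zero (by rw [hgt_X]; exact one_ne_zero)
    intro halg
    exact h1 ((isAlgebraic_algHom_iff ι (ι : RatFunc F →+* K).injective).mp halg)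
  obtain ⟨hmem, hht⟩ := ptHt_frobPsi hs hF hΔ hM
  exact Fermat.Agent.Lib.FrobRel.H230.frobPsi_eq_zero W hΔ hns hx _
    (isConstPt_of_ptHt_eq_zero hmem hht) T

end Fermat.Agent.S52.H297

end
-- ===== PACK-END S52/H297/MFinal.lean

-- ===== PACK-BEGIN S35/H433/Cong.lean
section


/-!
# S35 / (G) — congruences in localisations of a chart, normality, patching (helper433)

* `InLoc`-calculus of congruences `x ≡ y mod I B_n` (`InLoc B n I (x - y)`);
* `exists_res_of_pow` (Lemma N): `B / p` integrally closed, `y ∈ B_p`, `y ^ m ≡ z mod p B_p` with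
  `z ∈ B_n` (`p ≤ n`)  ⟹  `y ≡ ρ mod p B_p` for some `ρ ∈ B_n`;
* `exists_patch_smooth`, `exists_patch_node`: elements of `B_n` with prescribed residues on the two
  components.
-/

set_option autoImplicit false

namespace Fermat.Agent.S35.H433

open Fermat.Agent.A2 Fermat.Agent.A2.Alg

variable {R F : Type*} [CommRing R] [Field F] [Algebra R F] {B : Subalgebra R F}

/-! ### congruence calculus -/

theorem cong_mul {n I : Ideal B} [n.IsPrime] {x y x' y' : F} (hx : InLoc B n ⊤ x)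
    (hy' : InLoc B n ⊤ y') (h : InLoc B n I (x - y)) (h' : InLoc B n I (x' - y')) :
    InLoc B n I (x * x' - y * y') := by
  have e : x * x' - y * y' = x * (x' - y') + (x - y) * y' := by ring
  rw [e]
  exact (hx.mul h').add (h.mul' hy')

theorem inLoc_of_cong {n I : Ideal B} [n.IsPrime] {x y : F} (hy : InLoc B n ⊤ y)
    (h : InLoc B n I (x - y)) : InLoc B n ⊤ x := by
  have e : x = y + (x - y) := by ring
  rw [e]
  exact hy.add h.top

theorem cong_pow {n I : Ideal B} [n.IsPrime] {x y : F} (hx : InLoc B n ⊤ x)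
    (hy : InLoc B n ⊤ y) (h : InLoc B n I (x - y)) (k : ℕ) :
    InLoc B n I (x ^ k - y ^ k) := by
  induction k with
  | zero => simpa using inLoc_zero n I
  | succ k ih =>
    rw [pow_succ, pow_succ]
    exact cong_mul (hx.pow k) hy ih h

theorem cong_symm {n I : Ideal B} {x y : F} (h : InLoc B n I (x - y)) : InLoc B n I (y - x) := by
  have := h.neg
  rwa [neg_sub] at this

theorem cong_trans {n I : Ideal B} [n.IsPrime] {x y z : F} (h : InLoc B n I (x - y))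
    (h' : InLoc B n I (y - z)) : InLoc B n I (x - z) := by
  have e : x - z = (x - y) + (y - z) := by ring
  rw [e]
  exact h.add h'

/-- `1 ∉ n B_n`. -/
theorem not_inLoc_one {n : Ideal B} : ¬ InLoc B n n (1 : F) := by
  rintro ⟨a, b, ha, hb, hab⟩
  rw [one_mul] at hab
  have : b = a := Subtype.ext hab
  exact hb (this ▸ ha)

/-- A unit of `B_n` is not in `n B_n`. -/
theorem not_inLoc_of_locUnit {n : Ideal B} [hn : n.IsPrime] {x : F} (hx : LocUnit B n x) :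
    ¬ InLoc B n n x := by
  intro h
  obtain ⟨hx0, -, hxi⟩ := locUnit_iff.1 hx
  have := h.mul' hxi
  rw [mul_inv_cancel₀ hx0] at this
  exact not_inLoc_one this

/-- `x ∈ B_n ∖ n B_n` is a unit of `B_n`. -/
theorem locUnit_of_not_inLoc {n : Ideal B} [hn : n.IsPrime] {x : F} (hx : InLoc B n ⊤ x)
    (hnx : ¬ InLoc B n n x) : LocUnit B n x := by
  have hx0 : x ≠ 0 := by
    rintro rfl
    exact hnx (inLoc_zero n n)
  exact locUnit_iff.2 ⟨hx0, hx, inLoc_inv_of_not hx hnx⟩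

/-- Units are stable under congruence modulo `n B_n`. -/
theorem locUnit_of_cong {n : Ideal B} [hn : n.IsPrime] {x y : F} (hy : LocUnit B n y)
    (h : InLoc B n n (x - y)) : LocUnit B n x := by
  have hy' := (locUnit_iff.1 hy).2.1
  refine locUnit_of_not_inLoc (inLoc_of_cong hy' h) ?_
  intro hx
  apply not_inLoc_of_locUnit hy
  have e : y = x - (x - y) := by ring
  rw [e]
  exact hx.sub h

theorem locUnit_mul {n : Ideal B} [hn : n.IsPrime] {x y : F} (hx : LocUnit B n x)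
    (hy : LocUnit B n y) : LocUnit B n (x * y) := by
  obtain ⟨hx0, hx1, hx2⟩ := locUnit_iff.1 hx
  obtain ⟨hy0, hy1, hy2⟩ := locUnit_iff.1 hy
  refine locUnit_iff.2 ⟨mul_ne_zero hx0 hy0, hx1.mul hy1, ?_⟩
  rw [mul_inv]
  exact hx2.mul hy2

theorem locUnit_inv {n : Ideal B} [hn : n.IsPrime] {x : F} (hx : LocUnit B n x) :
    LocUnit B n x⁻¹ := by
  obtain ⟨hx0, hx1, hx2⟩ := locUnit_iff.1 hx
  refine locUnit_iff.2 ⟨inv_ne_zero hx0, hx2, ?_⟩
  rwa [inv_inv]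

theorem locUnit_one (n : Ideal B) [hn : n.IsPrime] : LocUnit B n (1 : F) :=
  locUnit_iff.2 ⟨one_ne_zero, inLoc_one n, by rw [inv_one]; exact inLoc_one n⟩

theorem locUnit_pow {n : Ideal B} [hn : n.IsPrime] {x : F} (hx : LocUnit B n x) (k : ℕ) :
    LocUnit B n (x ^ k) := by
  induction k with
  | zero => rw [pow_zero]; exact locUnit_one n
  | succ k ih => rw [pow_succ]; exact locUnit_mul ih hx

theorem LocUnit_anti {n p : Ideal B} (hpn : p ≤ n) {x : F} (hx : LocUnit B n x) :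
    LocUnit B p x := by
  obtain ⟨a, b, ha, hb, hab⟩ := hx
  exact ⟨a, b, fun h => ha (hpn h), fun h => hb (hpn h), hab⟩

/-- Inverses of congruent units are congruent. -/
theorem cong_inv {n I : Ideal B} [hn : n.IsPrime] {x y : F} (hx : LocUnit B n x)
    (hy : LocUnit B n y) (h : InLoc B n I (x - y)) : InLoc B n I (x⁻¹ - y⁻¹) := by
  obtain ⟨hx0, -, hx2⟩ := locUnit_iff.1 hx
  obtain ⟨hy0, -, hy2⟩ := locUnit_iff.1 hy
  have e : x⁻¹ - y⁻¹ = x⁻¹ * ((y - x) * y⁻¹) := by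
    field_simp
  rw [e]
  exact hx2.mul ((cong_symm h).mul' hy2)

/-! ### Lemma D: glueing the two components -/

/-- `z ∈ B_n`, `z ≡ 1` on both components  ⟹  `z ∈ 1 + (p₁ ∩ p₂) B_n`. -/
theorem inLoc_inf_of_oneAt {n p₁ p₂ : Ideal B} [hp₁ : p₁.IsPrime] [hp₂ : p₂.IsPrime] {z : F}
    (hz : InLoc B n ⊤ z) (h₁ : InLoc B p₁ p₁ (z - 1)) (h₂ : InLoc B p₂ p₂ (z - 1)) :
    InLoc B n (p₁ ⊓ p₂) (z - 1) := by
  obtain ⟨a, b, -, hb, hab⟩ := hz
  have key : ∀ (p : Ideal B), p.IsPrime → InLoc B p p (z - 1) → a - b ∈ p := by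
    rintro p hp ⟨a', b', ha', hb', hab'⟩
    have h1 : (a - b) * b' = a' * b := by
      apply Subtype.ext
      push_cast
      rw [← hab, ← hab']
      ring
    have h2 : (a - b) * b' ∈ p := by
      rw [h1]
      exact p.mul_mem_right _ ha'
    exact (hp.mem_or_mem h2).resolve_right hb'
  refine ⟨a - b, b, ⟨key p₁ hp₁ h₁, key p₂ hp₂ h₂⟩, hb, ?_⟩
  push_cast
  rw [← hab]
  ring

/-! ### Lemma N: normality of the components -/

/-- Abstract core of Lemma N: in a ring `A` with `A / p` an integrally closed domain,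
`a ^ m e₂ ≡ e₁ b ^ m mod p`, `b ∉ p`, `0 < m`  ⟹  `e₂ a ≡ g b mod p` for some `g`. -/
theorem exists_root_mod {A : Type*} [CommRing A] (p : Ideal A) [hp : p.IsPrime]
    (hnorm : IsIntegrallyClosed (A ⧸ p)) {m : ℕ} (hm : 0 < m) {a b e₁ e₂ : A} (hb : b ∉ p)
    (hkey : a ^ m * e₂ - e₁ * b ^ m ∈ p) : ∃ g : A, e₂ * a - g * b ∈ p := by
  let K := FractionRing (A ⧸ p)
  let ι : A →+* K := (algebraMap (A ⧸ p) K).comp (Ideal.Quotient.mk p)
  have hι : ∀ t : A, ι t = 0 ↔ t ∈ p := by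
    intro t
    show algebraMap (A ⧸ p) K (Ideal.Quotient.mk p t) = 0 ↔ _
    rw [map_eq_zero_iff _ (IsFractionRing.injective (A ⧸ p) K), Ideal.Quotient.eq_zero_iff_mem]
  have hιb : ι b ≠ 0 := fun h' => hb ((hι b).1 h')
  have hkey' : ι a ^ m * ι e₂ = ι e₁ * ι b ^ m := by
    have := (hι _).2 hkey
    rw [map_sub, map_mul, map_mul, map_pow, map_pow, sub_eq_zero] at this
    exact this
  set Y : K := ι (e₂ * a) / ι b with hY
  have hYm : Y ^ m = ι (e₂ ^ (m - 1) * e₁) := by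
    obtain ⟨k, rfl⟩ : ∃ k, m = k + 1 := ⟨m - 1, by omega⟩
    rw [hY, div_pow, map_mul, mul_pow, Nat.add_sub_cancel, map_mul, map_pow]
    rw [div_eq_iff (pow_ne_zero _ hιb)]
    calc ι e₂ ^ (k + 1) * ι a ^ (k + 1) = ι e₂ ^ k * (ι a ^ (k + 1) * ι e₂) := by ring
      _ = ι e₂ ^ k * (ι e₁ * ι b ^ (k + 1)) := by rw [hkey']
      _ = ι e₂ ^ k * ι e₁ * ι b ^ (k + 1) := by ring
  have hint : IsIntegral (A ⧸ p) Y := by
    refine ⟨Polynomial.X ^ m - Polynomial.C (Ideal.Quotient.mk p (e₂ ^ (m - 1) * e₁)),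
      Polynomial.monic_X_pow_sub_C _ hm.ne', ?_⟩
    rw [Polynomial.eval₂_sub, Polynomial.eval₂_pow, Polynomial.eval₂_X, Polynomial.eval₂_C]
    show Y ^ m - ι (e₂ ^ (m - 1) * e₁) = 0
    rw [hYm, sub_self]
  obtain ⟨gbar, hg⟩ := IsIntegrallyClosed.isIntegral_iff.1 hint
  obtain ⟨g, rfl⟩ := Ideal.Quotient.mk_surjective gbar
  have hg' : ι g * ι b = ι (e₂ * a) := by
    have : ι g = Y := hg
    rw [this, hY, div_mul_cancel₀ _ hιb]
  refine ⟨g, ?_⟩
  rw [← hι, map_sub, sub_eq_zero, ← hg', map_mul]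

/-- **Lemma N.**  `B / p` integrally closed, `p ≤ n`, `y ∈ B_p` with `y ^ m ≡ z mod p B_p`,
`z ∈ B_n`, `0 < m`  ⟹  `y ≡ ρ mod p B_p` for some `ρ ∈ B_n`. -/
theorem exists_res_of_pow {n p : Ideal B} [hp : p.IsPrime] (hpn : p ≤ n)
    (hnorm : IsIntegrallyClosed (B ⧸ p)) {m : ℕ} (hm : 0 < m) {y z : F}
    (hy : InLoc B p ⊤ y) (hz : InLoc B n ⊤ z) (h : InLoc B p p (y ^ m - z)) :
    ∃ ρ : F, InLoc B n ⊤ ρ ∧ InLoc B p p (y - ρ) := by
  obtain ⟨a, b, -, hb, hab⟩ := hy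
  obtain ⟨e₁, e₂, -, he₂, he⟩ := hz
  obtain ⟨a₃, b₃, ha₃, hb₃, h₃⟩ := h
  have he₂p : e₂ ∉ p := fun h' => he₂ (hpn h')
  have hb0 : (b : F) ≠ 0 := coe_ne_zero_of_not_mem hb
  have he0 : (e₂ : F) ≠ 0 := coe_ne_zero_of_not_mem he₂
  -- the key congruence in `B`
  have hkey : a ^ m * e₂ - e₁ * b ^ m ∈ p := by
    have h1 : (a ^ m * e₂ - e₁ * b ^ m) * b₃ = a₃ * (b ^ m * e₂) := by
      apply Subtype.ext
      push_cast
      rw [← h₃, ← hab, ← he]
      ring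
    have h2 : (a ^ m * e₂ - e₁ * b ^ m) * b₃ ∈ p := by
      rw [h1]
      exact p.mul_mem_right _ ha₃
    exact (hp.mem_or_mem h2).resolve_right hb₃
  obtain ⟨g, hgp⟩ := exists_root_mod p hnorm hm hb hkey
  refine ⟨(g : F) / e₂, ⟨g, e₂, trivial, he₂, by field_simp⟩,
    ⟨e₂ * a - g * b, b * e₂, hgp, fun h' => (hp.mem_or_mem h').elim hb he₂p, ?_⟩⟩
  push_cast
  rw [← hab]
  field_simp

/-! ### patching -/

/-- **Patching at a smooth point**: `p₁ ≤ n`, `p₂ ⊄ n`, `p₁ ⊄ p₂`. -/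
theorem exists_patch_smooth {n p₁ p₂ : Ideal B} [hn : n.IsPrime] [hp₁ : p₁.IsPrime]
    [hp₂ : p₂.IsPrime] (h1n : p₁ ≤ n) (h2n : ¬ p₂ ≤ n) (h12 : ¬ p₁ ≤ p₂) {ρ₁ ρ₂ : F}
    (hρ₁ : InLoc B n ⊤ ρ₁) (hρ₂ : InLoc B p₂ ⊤ ρ₂) :
    ∃ η : F, InLoc B n ⊤ η ∧ InLoc B p₁ p₁ (η - ρ₁) ∧ InLoc B p₂ p₂ (η - ρ₂) := by
  obtain ⟨a₁, b₁, -, hb₁, hab₁⟩ := hρ₁
  obtain ⟨a₂, b₂, -, hb₂, hab₂⟩ := hρ₂
  obtain ⟨t, ht2, htn⟩ := SetLike.not_le_iff_exists.1 h2n
  obtain ⟨s, hs1, hs2⟩ := SetLike.not_le_iff_exists.1 h12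
  have hb₁p : b₁ ∉ p₁ := fun h => hb₁ (h1n h)
  have hD : t * b₁ + s * b₂ ∉ n := by
    intro h
    have h1 : t * b₁ ∈ n := by
      have : t * b₁ = (t * b₁ + s * b₂) - s * b₂ := by ring
      rw [this]
      exact n.sub_mem h (n.mul_mem_right _ (h1n hs1))
    exact (hn.mem_or_mem h1).elim htn hb₁
  have hD1 : t * b₁ + s * b₂ ∉ p₁ := fun h => hD (h1n h)
  have hD2 : t * b₁ + s * b₂ ∉ p₂ := by
    intro h
    have h1 : s * b₂ ∈ p₂ := by
      have : s * b₂ = (t * b₁ + s * b₂) - t * b₁ := by ring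
      rw [this]
      exact p₂.sub_mem h (p₂.mul_mem_right _ ht2)
    exact (hp₂.mem_or_mem h1).elim hs2 hb₂
  have hD0 : ((t * b₁ + s * b₂ : B) : F) ≠ 0 := coe_ne_zero_of_not_mem hD
  have hb₁0 : (b₁ : F) ≠ 0 := coe_ne_zero_of_not_mem hb₁
  have hb₂0 : (b₂ : F) ≠ 0 := coe_ne_zero_of_not_mem hb₂
  have hρ₁e : ρ₁ = (a₁ : F) / b₁ := by field_simp; exact hab₁
  have hρ₂e : ρ₂ = (a₂ : F) / b₂ := by field_simp; exact hab₂
  refine ⟨((t * a₁ + s * a₂ : B) : F) / ((t * b₁ + s * b₂ : B) : F),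
    ⟨t * a₁ + s * a₂, t * b₁ + s * b₂, trivial, hD, by field_simp⟩,
    ⟨s * (a₂ * b₁ - a₁ * b₂), (t * b₁ + s * b₂) * b₁, p₁.mul_mem_right _ hs1,
      fun h => (hp₁.mem_or_mem h).elim hD1 hb₁p, ?_⟩,
    ⟨t * (a₁ * b₂ - a₂ * b₁), (t * b₁ + s * b₂) * b₂, p₂.mul_mem_right _ ht2,
      fun h => (hp₂.mem_or_mem h).elim hD2 hb₂, ?_⟩⟩
  · rw [hρ₁e]
    push_cast at hD0 ⊢
    field_simp
    ring
  · rw [hρ₂e]
    push_cast at hD0 ⊢
    field_simp
    ring

/-- **Patching at a crossing point**: residues agreeing modulo `(p₁ + p₂) B_n`. -/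
theorem exists_patch_node {n p₁ p₂ : Ideal B} [hn : n.IsPrime] (h1n : p₁ ≤ n) (h2n : p₂ ≤ n)
    {ρ₁ ρ₂ : F} (hρ₁ : InLoc B n ⊤ ρ₁) (h : InLoc B n (p₁ ⊔ p₂) (ρ₁ - ρ₂)) :
    ∃ η : F, InLoc B n ⊤ η ∧ InLoc B p₁ p₁ (η - ρ₁) ∧ InLoc B p₂ p₂ (η - ρ₂) := by
  obtain ⟨π₁, π₂, hπ₁, hπ₂, e⟩ := h.exists_add
  refine ⟨ρ₁ - π₁, hρ₁.sub hπ₁.top, ?_, ?_⟩
  · have : ρ₁ - π₁ - ρ₁ = -π₁ := by ring
    rw [this]
    exact (hπ₁.anti h1n).neg
  · have : ρ₁ - π₁ - ρ₂ = π₂ := by rw [sub_right_comm, e]; ring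
    rw [this]
    exact hπ₂.anti h2n

end Fermat.Agent.S35.H433

end
-- ===== PACK-END S35/H433/Cong.lean

-- ===== PACK-BEGIN S35/H433/PhiAsm.lean
section


/-!
# S35 / (G) — `φ`-ASM: local factorisation of `φ u / u ^ Q` for split `u` (helper433)

`φ` = a semilinear automorphism of the function field `F` which preserves a chart `B` of a
semistable model and its two components, acts on the constants as the `Q`-power map modulo `w`
and FIXES THE CROSSING POINTS (for `S35`: `φ = Frob²` at a prime `q ‖ N`, `Q = q²`; the crossing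
points of `X₀(N)` mod `q` are supersingular, hence `𝔽_{q²}`-rational).

`localFactor_phi_of_pureAt` : purity data for `u` at `φ⁻¹ n` and at `n` (leaves P-S / P-N of the
A2 wall, `Fermat/Agent/A2/Alg`), `u` split  ⟹  `LocalFactor B c m (φ u / u ^ Q) n`.

Together with the leaf GLUE of the A2 wall this gives `φ u = h ^ m · u ^ Q` (`FrobToric.lean`).
-/

set_option autoImplicit false

namespace Fermat.Agent.S35.H433

open Fermat.Agent.A2 Fermat.Agent.A2.Alg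

variable {R F : Type*} [CommRing R] [Field F] [Algebra R F]

/-- The standing hypotheses on `φ`, on one chart. -/
structure PhiCtx (w : R) (B : Subalgebra R F) (c : SSChart w B) (φ : F ≃+* F) (Q : ℕ) :
    Prop where
  /-- `φ` maps the chart into itself -/
  mapB : ∀ b : F, b ∈ B → φ b ∈ B
  /-- `φ⁻¹` maps the chart into itself -/
  mapB' : ∀ b : F, φ b ∈ B → b ∈ B
  /-- `φ` preserves the first component -/
  map₁ : ∀ b : B, (⟨φ b, mapB b b.2⟩ : B) ∈ c.p₁ ↔ b ∈ c.p₁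
  /-- `φ` preserves the second component -/
  map₂ : ∀ b : B, (⟨φ b, mapB b b.2⟩ : B) ∈ c.p₂ ↔ b ∈ c.p₂
  /-- `φ` is the `Q`-power map on constants modulo `w` -/
  frob : ∀ r : R, ∃ s : B, φ (algebraMap R F r) - algebraMap R F r ^ Q = algebraMap R F w * s

variable {w : R} {B : Subalgebra R F} {c : SSChart w B} {φ : F ≃+* F} {Q : ℕ}

/-- The restriction of `φ` to the chart. -/
def PhiCtx.hom (hφ : PhiCtx w B c φ Q) : B →+* B where
  toFun b := ⟨φ b, hφ.mapB b b.2⟩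
  map_one' := Subtype.ext (by simp)
  map_mul' a b := Subtype.ext (by simp)
  map_zero' := Subtype.ext (by simp)
  map_add' a b := Subtype.ext (by simp)

@[simp] theorem PhiCtx.coe_hom (hφ : PhiCtx w B c φ Q) (b : B) : ((hφ.hom b : B) : F) = φ b := rfl

/-- Transport of `I B_{n'}` to `J B_n` along `φ`. -/
theorem PhiCtx.inLoc (hφ : PhiCtx w B c φ Q) {n n' I J : Ideal B}
    (hnn' : ∀ b : B, b ∉ n' → hφ.hom b ∉ n) (hIJ : ∀ b : B, b ∈ I → hφ.hom b ∈ J) {u : F}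
    (h : InLoc B n' I u) : InLoc B n J (φ u) := by
  obtain ⟨a, b, ha, hb, hab⟩ := h
  refine ⟨hφ.hom a, hφ.hom b, hIJ a ha, hnn' b hb, ?_⟩
  rw [hφ.coe_hom, hφ.coe_hom, ← map_mul, hab]

/-- Transport of units of `B_{n'}` to units of `B_n` along `φ`. -/
theorem PhiCtx.locUnit (hφ : PhiCtx w B c φ Q) {n n' : Ideal B}
    (hnn' : ∀ b : B, b ∉ n' → hφ.hom b ∉ n) {u : F} (h : LocUnit B n' u) :
    LocUnit B n (φ u) := by
  obtain ⟨a, b, ha, hb, hab⟩ := h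
  refine ⟨hφ.hom a, hφ.hom b, hnn' a ha, hnn' b hb, ?_⟩
  rw [hφ.coe_hom, hφ.coe_hom, ← map_mul, hab]

theorem PhiCtx.hom_surjective (hφ : PhiCtx w B c φ Q) : Function.Surjective hφ.hom := by
  intro b
  refine ⟨⟨φ.symm b, hφ.mapB' _ (by rw [φ.apply_symm_apply]; exact b.2)⟩, ?_⟩
  apply Subtype.ext
  rw [hφ.coe_hom]
  exact φ.apply_symm_apply _

theorem PhiCtx.not_mem_comap (hφ : PhiCtx w B c φ Q) (n : Ideal B) :
    ∀ b : B, b ∉ n.comap hφ.hom → hφ.hom b ∉ n := fun _ hb => hb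

theorem mem_w_left (c : SSChart w B) : algebraMap R B w ∈ c.p₁ := by
  have : algebraMap R B w ∈ c.p₁ ⊓ c.p₂ := by
    rw [c.inf_eq]
    exact Ideal.mem_span_singleton_self _
  exact this.1

theorem mem_w_right (c : SSChart w B) : algebraMap R B w ∈ c.p₂ := by
  have : algebraMap R B w ∈ c.p₁ ⊓ c.p₂ := by
    rw [c.inf_eq]
    exact Ideal.mem_span_singleton_self _
  exact this.2

/-- A unit constant is a unit of every `B_p`. -/
theorem locUnit_const {p : Ideal B} [hp : p.IsPrime] {c₀ : R} (hc : IsUnit c₀) :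
    LocUnit B p (algebraMap R F c₀) := by
  have hu : IsUnit (algebraMap R B c₀) := hc.map _
  have hnp : algebraMap R B c₀ ∉ p := fun h => hp.ne_top (Ideal.eq_top_of_isUnit_mem _ h hu)
  refine ⟨algebraMap R B c₀, 1, hnp, fun h => hp.ne_top ((Ideal.eq_top_iff_one p).2 h), ?_⟩
  simp

/-- Data extracted from `ConstAt`: `u` is a unit at `p`, congruent to a unit constant. -/
theorem exists_const_of_constAt {p : Ideal B} [hp : p.IsPrime] {u : F} (h : ConstAt B p u) :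
    ∃ c₀ : R, IsUnit c₀ ∧ LocUnit B p u ∧ InLoc B p p (u - algebraMap R F c₀) := by
  obtain ⟨c₀, hc, a, b, hb, hab, hu⟩ := h
  have hcong : InLoc B p p (u - algebraMap R F c₀) := by
    refine ⟨a - algebraMap R B c₀ * b, b, hab, hb, ?_⟩
    push_cast
    rw [← hu]
    ring
  exact ⟨c₀, hc, locUnit_of_cong (locUnit_const hc) hcong, hcong⟩

/-- **Step 2.**  `u` with constant residue at a `φ`-stable component `p`  ⟹  `φ u / u ^ Q ≡ 1`
on `p`. -/
theorem PhiCtx.cong_one_of_constAt (hφ : PhiCtx w B c φ Q) {p : Ideal B} [hp : p.IsPrime]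
    (hwp : algebraMap R B w ∈ p) (hmap : ∀ b : B, hφ.hom b ∈ p ↔ b ∈ p) {u : F}
    (h : ConstAt B p u) : InLoc B p p (φ u * (u ^ Q)⁻¹ - 1) := by
  obtain ⟨c₀, hc, huu, hcong⟩ := exists_const_of_constAt h
  have hcu : LocUnit B p (algebraMap R F c₀) := locUnit_const hc
  have hnn : ∀ b : B, b ∉ p → hφ.hom b ∉ p := fun b hb h' => hb ((hmap b).1 h')
  have hII : ∀ b : B, b ∈ p → hφ.hom b ∈ p := fun b hb => (hmap b).2 hb
  -- `φ u ≡ φ c₀ ≡ c₀ ^ Q`
  have h1 : InLoc B p p (φ u - φ (algebraMap R F c₀)) := by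
    rw [← map_sub]
    exact hφ.inLoc hnn hII hcong
  have h2 : InLoc B p p (φ (algebraMap R F c₀) - algebraMap R F c₀ ^ Q) := by
    obtain ⟨s, hs⟩ := hφ.frob c₀
    rw [hs]
    have : algebraMap R F w * (s : F) = ((algebraMap R B w * s : B) : F) := rfl
    rw [this]
    exact inLoc_coe (p.mul_mem_right _ hwp)
  have h3 : InLoc B p p (φ u - algebraMap R F c₀ ^ Q) := cong_trans h1 h2
  have hcQ : LocUnit B p (algebraMap R F c₀ ^ Q) := locUnit_pow hcu Q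
  have huQ : LocUnit B p (u ^ Q) := locUnit_pow huu Q
  have h4 : InLoc B p p (u ^ Q - algebraMap R F c₀ ^ Q) :=
    cong_pow (locUnit_iff.1 huu).2.1 (locUnit_iff.1 hcu).2.1 hcong Q
  have h5 := cong_inv huQ hcQ h4
  have hφu : LocUnit B p (φ u) := locUnit_of_cong hcQ h3
  have h6 := cong_mul (locUnit_iff.1 hφu).2.1 (locUnit_iff.1 hcQ).2.2 h3 h5
  rwa [mul_inv_cancel₀ (locUnit_iff.1 hcQ).1] at h6

/-- **Step 6.**  The final assembly of a local factorisation. -/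
theorem localFactor_of_patch (c : SSChart w B) {m : ℕ} {v δ υ η : F} {n : Ideal B}
    [hn : n.IsPrime] (hrel : v * δ ^ m = υ) (hυ : InLoc B n ⊤ υ) (hη : InLoc B n ⊤ η)
    (hδ₁ : LocUnit B c.p₁ δ) (hδ₂ : LocUnit B c.p₂ δ)
    (hv₁ : InLoc B c.p₁ c.p₁ (v - 1)) (hv₂ : InLoc B c.p₂ c.p₂ (v - 1))
    (hη₁ : InLoc B c.p₁ c.p₁ (η - δ⁻¹)) (hη₂ : InLoc B c.p₂ c.p₂ (η - δ⁻¹)) :
    LocalFactor B c m v n := by
  have := c.prime₁
  have := c.prime₂
  have hδ0 : δ ≠ 0 := locUnit_ne_zero hδ₁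
  have key : ∀ (p : Ideal B) [p.IsPrime], LocUnit B p δ → InLoc B p p (v - 1) →
      InLoc B p p (η - δ⁻¹) → InLoc B p p (δ * η - 1) ∧ InLoc B p p (v * (δ * η) ^ m - 1) := by
    intro p _ hδ hv hη'
    have hδ' := (locUnit_iff.1 hδ).2.1
    have h1 : InLoc B p p (δ * η - 1) := by
      have e : δ * η - 1 = δ * (η - δ⁻¹) := by
        rw [mul_sub, mul_inv_cancel₀ hδ0]
      rw [e]
      exact hδ'.mul hη'
    have hone : InLoc B p ⊤ (1 : F) := inLoc_one p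
    have hh : InLoc B p ⊤ (δ * η) := inLoc_of_cong hone h1
    have hvv : InLoc B p ⊤ v := inLoc_of_cong hone hv
    have h2 := cong_pow hh hone h1 m
    have h3 := cong_mul hvv (hone.pow m) hv h2
    rw [one_pow, one_mul] at h3
    exact ⟨h1, h3⟩
  obtain ⟨h11, h12⟩ := key c.p₁ hδ₁ hv₁ hη₁
  obtain ⟨h21, h22⟩ := key c.p₂ hδ₂ hv₂ hη₂
  have hη0 : η ≠ 0 := by
    rintro rfl
    rw [mul_zero, zero_sub] at h11
    have := h11.neg
    rw [neg_neg] at this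
    exact not_inLoc_one this
  refine ⟨δ * η, mul_ne_zero hδ0 hη0, ?_, oneAt_iff.2 h11, oneAt_iff.2 h21⟩
  rw [locOne_iff, ← c.inf_eq]
  have hmem : InLoc B n ⊤ (v * (δ * η) ^ m) := by
    have e : v * (δ * η) ^ m = υ * η ^ m := by
      rw [mul_pow, ← mul_assoc, hrel]
    rw [e]
    exact hυ.mul (hη.pow m)
  exact inLoc_inf_of_oneAt hmem h12 h22

/-- **Step 4/5, smooth case.**  `n` lies on the component `p` and not on `p'`. -/
theorem exists_eta_smooth {n p p' : Ideal B} [hn : n.IsPrime] [hp : p.IsPrime]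
    [hp' : p'.IsPrime] (hpn : p ≤ n) (hp'n : ¬ p' ≤ n) (hpp' : ¬ p ≤ p')
    (hnorm : IsIntegrallyClosed (B ⧸ p)) {m : ℕ} (hm : 0 < m) {v δ υ : F}
    (hrel : v * δ ^ m = υ) (hυ : LocUnit B n υ)
    (hδ : LocUnit B p δ) (hδ' : LocUnit B p' δ) (hv : InLoc B p p (v - 1)) :
    ∃ η : F, InLoc B n ⊤ η ∧ InLoc B p p (η - δ⁻¹) ∧ InLoc B p' p' (η - δ⁻¹) := by
  obtain ⟨hδ0, hδ1, hδ2⟩ := locUnit_iff.1 hδ
  obtain ⟨hυ0, hυ1, hυ2⟩ := locUnit_iff.1 hυ
  have hpow : InLoc B p p (δ⁻¹ ^ m - υ⁻¹) := by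
    have e : δ⁻¹ ^ m - υ⁻¹ = (v - 1) * υ⁻¹ := by
      rw [← hrel] at hυ0 ⊢
      have hv0 : v ≠ 0 := left_ne_zero_of_mul hυ0
      have hδm : δ ^ m ≠ 0 := pow_ne_zero _ hδ0
      rw [inv_pow, mul_inv, sub_mul, one_mul, ← mul_assoc, mul_inv_cancel₀ hv0, one_mul]
    rw [e]
    exact hv.mul' (hυ2.anti hpn)
  obtain ⟨ρ, hρ, hρ'⟩ := exists_res_of_pow hpn hnorm hm hδ2 hυ2 hpow
  obtain ⟨η, hη, hη₁, hη₂⟩ := exists_patch_smooth hpn hp'n hpp' hρ (locUnit_iff.1 hδ').2.2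
  exact ⟨η, hη, cong_trans hη₁ (cong_symm hρ'), hη₂⟩

/-! ### crossing points -/

/-- `φ` fixes `n` as a set. -/
theorem PhiCtx.mem_of_hom_mem (hφ : PhiCtx w B c φ Q) {n : Ideal B} (hn : n.IsMaximal)
    (hfix : ∀ b : B, b ∈ n → hφ.hom b ∈ n) (b : B) (h : hφ.hom b ∈ n) : b ∈ n := by
  have hle : n ≤ n.comap hφ.hom := fun x hx => hfix x hx
  have hne : n.comap hφ.hom ≠ ⊤ := (Ideal.comap_isPrime hφ.hom n).ne_top
  have := hn.eq_of_le hne hle
  rw [this]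
  exact h

/-- **Lemma EV.**  At a fixed closed point with residue field `R / w`, `φ b ≡ b ^ Q`. -/
theorem PhiCtx.hom_sub_pow_mem (hφ : PhiCtx w B c φ Q) {n : Ideal B}
    (hwn : algebraMap R B w ∈ n) (hk : ∀ b : B, ∃ r : R, b - algebraMap R B r ∈ n)
    (hfix : ∀ b : B, b ∈ n → hφ.hom b ∈ n) (a : B) : hφ.hom a - a ^ Q ∈ n := by
  obtain ⟨r, hr⟩ := hk a
  obtain ⟨s, hs⟩ := hφ.frob r
  have h1 : hφ.hom (algebraMap R B r) - algebraMap R B r ^ Q = algebraMap R B w * s := by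
    apply Subtype.ext
    push_cast
    rw [hφ.coe_hom]
    exact hs
  have h2 : a ^ Q - algebraMap R B r ^ Q ∈ n := by
    obtain ⟨t, ht⟩ := sub_dvd_pow_sub_pow a (algebraMap R B r) Q
    rw [ht]
    exact n.mul_mem_right _ hr
  have e : hφ.hom a - a ^ Q = hφ.hom (a - algebraMap R B r) + algebraMap R B w * s
      - (a ^ Q - algebraMap R B r ^ Q) := by
    rw [← h1, map_sub]
    ring
  rw [e]
  exact n.sub_mem (n.add_mem (hfix _ hr) (n.mul_mem_right _ hwn)) h2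

/-- At a fixed closed point, `φ ρ / ρ ^ Q ≡ 1 mod n B_n` for every unit `ρ` of `B_n`. -/
theorem PhiCtx.cong_one_of_fixed (hφ : PhiCtx w B c φ Q) {n : Ideal B} (hn : n.IsMaximal)
    (hwn : algebraMap R B w ∈ n) (hk : ∀ b : B, ∃ r : R, b - algebraMap R B r ∈ n)
    (hfix : ∀ b : B, b ∈ n → hφ.hom b ∈ n) {ρ : F} (hρ : LocUnit B n ρ) :
    InLoc B n n (φ ρ * (ρ ^ Q)⁻¹ - 1) := by
  have hnp := hn.isPrime
  obtain ⟨a, b, ha, hb, hab⟩ := hρ
  have ha0 : (a : F) ≠ 0 := coe_ne_zero_of_not_mem ha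
  have hb0 : (b : F) ≠ 0 := coe_ne_zero_of_not_mem hb
  have hφb : hφ.hom b ∉ n := fun h => hb (hφ.mem_of_hom_mem hn hfix b h)
  have hφb0 : φ (b : F) ≠ 0 := (map_ne_zero φ).2 hb0
  refine ⟨hφ.hom a * b ^ Q - a ^ Q * hφ.hom b, hφ.hom b * a ^ Q, ?_, ?_, ?_⟩
  · have e : hφ.hom a * b ^ Q - a ^ Q * hφ.hom b
        = (hφ.hom a - a ^ Q) * b ^ Q - a ^ Q * (hφ.hom b - b ^ Q) := by ring
    rw [e]
    exact n.sub_mem (n.mul_mem_right _ (hφ.hom_sub_pow_mem hwn hk hfix a))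
      (n.mul_mem_left _ (hφ.hom_sub_pow_mem hwn hk hfix b))
  · intro h
    rcases hnp.mem_or_mem h with h | h
    · exact hφb h
    · exact ha (hnp.mem_of_pow_mem _ h)
  · have hρe : ρ = (a : F) / b := by
      field_simp
      exact hab
    push_cast
    rw [hφ.coe_hom, hφ.coe_hom, hρe, map_div₀, div_pow]
    field_simp

/-- **Step 4, crossing point, one branch.**  `d ≡ r` on the branch `p` for a unit `r` of `B_n`;
hence `φ d / d ^ Q ≡ θ := φ r / r ^ Q` on `p`, and `θ ≡ 1 mod n`. -/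
theorem PhiCtx.exists_theta (hφ : PhiCtx w B c φ Q) {n p : Ideal B} (hn : n.IsMaximal)
    [hp : p.IsPrime] (hpn : p ≤ n) (hmap : ∀ b : B, hφ.hom b ∈ p ↔ b ∈ p)
    (hnorm : IsIntegrallyClosed (B ⧸ p))
    (hwn : algebraMap R B w ∈ n) (hk : ∀ b : B, ∃ r : R, b - algebraMap R B r ∈ n)
    (hfix : ∀ b : B, b ∈ n → hφ.hom b ∈ n) {m : ℕ} (hm : 0 < m) {u d : F}
    (hu : ConstAt B p u) (hd : LocUnit B p d) (hε : LocUnit B n (u * d ^ m)) :
    ∃ θ : F, LocUnit B n θ ∧ InLoc B n n (θ - 1) ∧ InLoc B p p (φ d * (d ^ Q)⁻¹ - θ) := by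
  have hnp := hn.isPrime
  obtain ⟨c₀, hc, huu, hcong⟩ := exists_const_of_constAt hu
  obtain ⟨hu0, hu1, hu2⟩ := locUnit_iff.1 huu
  obtain ⟨hd0, hd1, hd2⟩ := locUnit_iff.1 hd
  obtain ⟨hε0, hε1, hε2⟩ := locUnit_iff.1 hε
  have hcn : LocUnit B n (algebraMap R F c₀) := locUnit_const hc
  have hcp : LocUnit B p (algebraMap R F c₀) := locUnit_const hc
  obtain ⟨hc0, hc1, hc2⟩ := locUnit_iff.1 hcn
  have hdm0 : d ^ m ≠ 0 := pow_ne_zero _ hd0
  -- `d ^ m ≡ ε c₀⁻¹` and `d⁻¹ ^ m ≡ c₀ ε⁻¹` on `p`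
  have hinv : InLoc B p p (u⁻¹ - (algebraMap R F c₀)⁻¹) := cong_inv huu hcp hcong
  have h1 : InLoc B p p (d ^ m - (u * d ^ m) * (algebraMap R F c₀)⁻¹) := by
    have e : d ^ m - (u * d ^ m) * (algebraMap R F c₀)⁻¹
        = (u * d ^ m) * (u⁻¹ - (algebraMap R F c₀)⁻¹) := by
      field_simp
    rw [e]
    exact (hε1.anti hpn).mul hinv
  have h2 : InLoc B p p (d⁻¹ ^ m - algebraMap R F c₀ * (u * d ^ m)⁻¹) := by
    have e : d⁻¹ ^ m - algebraMap R F c₀ * (u * d ^ m)⁻¹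
        = (u - algebraMap R F c₀) * (u * d ^ m)⁻¹ := by
      rw [sub_mul, mul_inv, mul_inv_cancel_left₀ hu0, inv_pow]
    rw [e]
    exact hcong.mul' (hε2.anti hpn)
  obtain ⟨r, hr, hr'⟩ := exists_res_of_pow hpn hnorm hm hd1 (hε1.mul hc2) h1
  obtain ⟨r', hr₂, hr₂'⟩ := exists_res_of_pow hpn hnorm hm hd2 (hc1.mul hε2) h2
  -- `r r' ≡ 1`, so `r` is a unit of `B_n`
  have h3 : InLoc B p p (r * r' - 1) := by
    have := cong_mul (hr.anti hpn) hd2 (cong_symm hr') (cong_symm hr₂')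
    rwa [mul_inv_cancel₀ hd0] at this
  have h4 : InLoc B n n (r * r' - 1) := (InLoc.of_le ((hr.mul hr₂).sub (inLoc_one n)) h3).mono hpn
  have h5 : LocUnit B n (r * r') := locUnit_of_cong (locUnit_one n) h4
  have hr0 : r ≠ 0 := left_ne_zero_of_mul (locUnit_ne_zero h5)
  have hrU : LocUnit B n r := by
    refine locUnit_iff.2 ⟨hr0, hr, ?_⟩
    have e : r⁻¹ = r' * (r * r')⁻¹ := by
      have hr'0 : r' ≠ 0 := right_ne_zero_of_mul (locUnit_ne_zero h5)
      field_simp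
    rw [e]
    exact hr₂.mul (locUnit_iff.1 h5).2.2
  have hrp : LocUnit B p r := LocUnit_anti hpn hrU
  -- transport along `φ`
  have hnn : ∀ b : B, b ∉ n → hφ.hom b ∉ n := fun b hb h => hb (hφ.mem_of_hom_mem hn hfix b h)
  have hpp : ∀ b : B, b ∉ p → hφ.hom b ∉ p := fun b hb h => hb ((hmap b).1 h)
  have hpI : ∀ b : B, b ∈ p → hφ.hom b ∈ p := fun b hb => (hmap b).2 hb
  have hφr : LocUnit B n (φ r) := hφ.locUnit hnn hrU
  have hφd : LocUnit B p (φ d) := hφ.locUnit hpp hd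
  have hrQ : LocUnit B n (r ^ Q) := locUnit_pow hrU Q
  refine ⟨φ r * (r ^ Q)⁻¹, locUnit_mul hφr (locUnit_inv hrQ),
    hφ.cong_one_of_fixed hn hwn hk hfix hrU, ?_⟩
  have h6 : InLoc B p p (φ d - φ r) := by
    rw [← map_sub]
    exact hφ.inLoc hpp hpI hr'
  have h7 : InLoc B p p (d ^ Q - r ^ Q) := cong_pow hd1 (hr.anti hpn) hr' Q
  have h8 := cong_inv (locUnit_pow hd Q) (locUnit_pow hrp Q) h7
  exact cong_mul (locUnit_iff.1 hφd).2.1 (locUnit_iff.1 (locUnit_pow hrp Q)).2.2 h6 h8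

/-- **Step 4/5, crossing point.** -/
theorem PhiCtx.exists_eta_node (hφ : PhiCtx w B c φ Q) {n : Ideal B} (hn : n.IsMaximal)
    (h1n : c.p₁ ≤ n) (h2n : c.p₂ ≤ n)
    (hwn : algebraMap R B w ∈ n) (hk : ∀ b : B, ∃ r : R, b - algebraMap R B r ∈ n)
    (hfix : ∀ b : B, b ∈ n → hφ.hom b ∈ n)
    (htr : ∀ b : B, b ∈ n → ∃ s : B, s ∉ n ∧ s * b ∈ c.p₁ ⊔ c.p₂)
    {m : ℕ} (hm : 0 < m) {u d : F} (hs : IsSplit B c u)
    (hd₁ : LocUnit B c.p₁ d) (hd₂ : LocUnit B c.p₂ d) (hε : LocUnit B n (u * d ^ m)) :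
    ∃ η : F, InLoc B n ⊤ η ∧ InLoc B c.p₁ c.p₁ (η - (φ d * (d ^ Q)⁻¹)⁻¹) ∧
      InLoc B c.p₂ c.p₂ (η - (φ d * (d ^ Q)⁻¹)⁻¹) := by
  have hnp := hn.isPrime
  have hp₁ := c.prime₁
  have hp₂ := c.prime₂
  obtain ⟨θ₁, hθ₁, hθ₁n, hθ₁p⟩ :=
    hφ.exists_theta hn h1n hφ.map₁ c.normal₁ hwn hk hfix hm hs.1 hd₁ hε
  obtain ⟨θ₂, hθ₂, hθ₂n, hθ₂p⟩ :=
    hφ.exists_theta hn h2n hφ.map₂ c.normal₂ hwn hk hfix hm hs.2 hd₂ hε
  have hpp₁ : ∀ b : B, b ∉ c.p₁ → hφ.hom b ∉ c.p₁ := fun b hb h => hb ((hφ.map₁ b).1 h)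
  have hpp₂ : ∀ b : B, b ∉ c.p₂ → hφ.hom b ∉ c.p₂ := fun b hb h => hb ((hφ.map₂ b).1 h)
  have hδ₁ : LocUnit B c.p₁ (φ d * (d ^ Q)⁻¹) :=
    locUnit_mul (hφ.locUnit hpp₁ hd₁) (locUnit_inv (locUnit_pow hd₁ Q))
  have hδ₂ : LocUnit B c.p₂ (φ d * (d ^ Q)⁻¹) :=
    locUnit_mul (hφ.locUnit hpp₂ hd₂) (locUnit_inv (locUnit_pow hd₂ Q))
  -- the residues `θ_i⁻¹` agree at `n`
  have e₁ : InLoc B n n (θ₁⁻¹ - 1) := by
    have := cong_inv hθ₁ (locUnit_one n) hθ₁n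
    rwa [inv_one] at this
  have e₂ : InLoc B n n (θ₂⁻¹ - 1) := by
    have := cong_inv hθ₂ (locUnit_one n) hθ₂n
    rwa [inv_one] at this
  have e₃ : InLoc B n n (θ₁⁻¹ - θ₂⁻¹) := cong_trans e₁ (cong_symm e₂)
  have e₄ : InLoc B n (c.p₁ ⊔ c.p₂) (θ₁⁻¹ - θ₂⁻¹) := by
    obtain ⟨a, b, ha, hb, hab⟩ := e₃
    obtain ⟨s, hs, hsa⟩ := htr a ha
    refine ⟨s * a, s * b, hsa, fun h => (hnp.mem_or_mem h).elim hs hb, ?_⟩
    push_cast
    rw [← hab]
    ring
  obtain ⟨η, hη, hη₁, hη₂⟩ := exists_patch_node h1n h2n (locUnit_iff.1 hθ₁).2.2 e₄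
  refine ⟨η, hη, cong_trans hη₁ (cong_symm ?_), cong_trans hη₂ (cong_symm ?_)⟩
  · exact cong_inv hδ₁ (LocUnit_anti h1n hθ₁) hθ₁p
  · exact cong_inv hδ₂ (LocUnit_anti h2n hθ₂) hθ₂p

/-! ### the theorem -/

/-- **`φ`-ASM.**  Purity data for a split `u` at `φ⁻¹ n` and at `n`  ⟹  local factorisation of
`φ u / u ^ Q` at `n`.  At a crossing point `n` one needs: `n` is fixed by `φ`, the residue field
of `n` is that of `R`, and the two components are transversal at `n`. -/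
theorem localFactor_phi_of_pureAt (w : R) (B : Subalgebra R F) (c : SSChart w B)
    (φ : F ≃+* F) (Q : ℕ) (hφ : PhiCtx w B c φ Q)
    (m : ℕ) (hm : 0 < m) (u : F) (hu : u ≠ 0) (hs : IsSplit B c u)
    (n : Ideal B) (hn : n.IsMaximal) (hwn : algebraMap R B w ∈ n)
    (hk : c.p₁ ≤ n → c.p₂ ≤ n → ∀ b : B, ∃ r : R, b - algebraMap R B r ∈ n)
    (hfix : c.p₁ ≤ n → c.p₂ ≤ n → ∀ b : B, b ∈ n → hφ.hom b ∈ n)
    (htr : c.p₁ ≤ n → c.p₂ ≤ n → ∀ b : B, b ∈ n → ∃ s : B, s ∉ n ∧ s * b ∈ c.p₁ ⊔ c.p₂)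
    (h' : PureAt B c m u (n.comap hφ.hom)) (h : PureAt B c m u n) :
    LocalFactor B c m (φ u * (u ^ Q)⁻¹) n := by
  have hnp := hn.isPrime
  have hp₁ := c.prime₁
  have hp₂ := c.prime₂
  have hpp₁ : ∀ b : B, b ∉ c.p₁ → hφ.hom b ∉ c.p₁ := fun b hb h => hb ((hφ.map₁ b).1 h)
  have hpp₂ : ∀ b : B, b ∉ c.p₂ → hφ.hom b ∉ c.p₂ := fun b hb h => hb ((hφ.map₂ b).1 h)
  have hv₁ := hφ.cong_one_of_constAt (mem_w_left c) hφ.map₁ hs.1
  have hv₂ := hφ.cong_one_of_constAt (mem_w_right c) hφ.map₂ hs.2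
  obtain ⟨d, hd0, hε, hd₁, hd₂⟩ := h
  have hφu : φ u ≠ 0 := (map_ne_zero φ).2 hu
  by_cases h1n : c.p₁ ≤ n
  · by_cases h2n : c.p₂ ≤ n
    · -- crossing point
      have hfix' := hfix h1n h2n
      have hnn : ∀ b : B, b ∉ n → hφ.hom b ∉ n :=
        fun b hb h => hb (hφ.mem_of_hom_mem hn hfix' b h)
      obtain ⟨η, hη, hη₁, hη₂⟩ := hφ.exists_eta_node hn h1n h2n hwn (hk h1n h2n) hfix'
        (htr h1n h2n) hm hs hd₁ hd₂ hε
      have hrel : φ u * (u ^ Q)⁻¹ * (φ d * (d ^ Q)⁻¹) ^ m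
          = φ (u * d ^ m) * ((u * d ^ m) ^ Q)⁻¹ := by
        rw [map_mul, map_pow]
        ring
      exact localFactor_of_patch c hrel
        (locUnit_iff.1 (locUnit_mul (hφ.locUnit hnn hε) (locUnit_inv (locUnit_pow hε Q)))).2.1 hη
        (locUnit_mul (hφ.locUnit hpp₁ hd₁) (locUnit_inv (locUnit_pow hd₁ Q)))
        (locUnit_mul (hφ.locUnit hpp₂ hd₂) (locUnit_inv (locUnit_pow hd₂ Q)))
        hv₁ hv₂ hη₁ hη₂
    · -- smooth point on the first component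
      obtain ⟨d', hd'0, hε', hd'₁, hd'₂⟩ := h'
      have hδ₁ : LocUnit B c.p₁ (φ d' * (d ^ Q)⁻¹) :=
        locUnit_mul (hφ.locUnit hpp₁ hd'₁) (locUnit_inv (locUnit_pow hd₁ Q))
      have hδ₂ : LocUnit B c.p₂ (φ d' * (d ^ Q)⁻¹) :=
        locUnit_mul (hφ.locUnit hpp₂ hd'₂) (locUnit_inv (locUnit_pow hd₂ Q))
      have hυ : LocUnit B n (φ (u * d' ^ m) * ((u * d ^ m) ^ Q)⁻¹) :=
        locUnit_mul (hφ.locUnit (hφ.not_mem_comap n) hε') (locUnit_inv (locUnit_pow hε Q))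
      have hrel : φ u * (u ^ Q)⁻¹ * (φ d' * (d ^ Q)⁻¹) ^ m
          = φ (u * d' ^ m) * ((u * d ^ m) ^ Q)⁻¹ := by
        rw [map_mul, map_pow]
        ring
      obtain ⟨η, hη, hη₁, hη₂⟩ :=
        exists_eta_smooth h1n h2n c.not_le₁₂ c.normal₁ hm hrel hυ hδ₁ hδ₂ hv₁
      exact localFactor_of_patch c hrel (locUnit_iff.1 hυ).2.1 hη hδ₁ hδ₂ hv₁ hv₂ hη₁ hη₂
  · -- smooth point on the second component
    have h2n : c.p₂ ≤ n := by
      have hle : c.p₁ ⊓ c.p₂ ≤ n := by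
        rw [c.inf_eq, Ideal.span_singleton_le_iff_mem]
        exact hwn
      rcases (Ideal.IsPrime.inf_le hnp).1 hle with h | h
      · exact absurd h h1n
      · exact h
    obtain ⟨d', hd'0, hε', hd'₁, hd'₂⟩ := h'
    have hδ₁ : LocUnit B c.p₁ (φ d' * (d ^ Q)⁻¹) :=
      locUnit_mul (hφ.locUnit hpp₁ hd'₁) (locUnit_inv (locUnit_pow hd₁ Q))
    have hδ₂ : LocUnit B c.p₂ (φ d' * (d ^ Q)⁻¹) :=
      locUnit_mul (hφ.locUnit hpp₂ hd'₂) (locUnit_inv (locUnit_pow hd₂ Q))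
    have hυ : LocUnit B n (φ (u * d' ^ m) * ((u * d ^ m) ^ Q)⁻¹) :=
      locUnit_mul (hφ.locUnit (hφ.not_mem_comap n) hε') (locUnit_inv (locUnit_pow hε Q))
    have hrel : φ u * (u ^ Q)⁻¹ * (φ d' * (d ^ Q)⁻¹) ^ m
        = φ (u * d' ^ m) * ((u * d ^ m) ^ Q)⁻¹ := by
      rw [map_mul, map_pow]
      ring
    obtain ⟨η, hη, hη₂, hη₁⟩ :=
      exists_eta_smooth h2n h1n c.not_le₂₁ c.normal₂ hm hrel hυ hδ₂ hδ₁ hv₂
    exact localFactor_of_patch c hrel (locUnit_iff.1 hυ).2.1 hη hδ₁ hδ₂ hv₁ hv₂ hη₁ hη₂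

end Fermat.Agent.S35.H433

end
-- ===== PACK-END S35/H433/PhiAsm.lean

-- ===== PACK-BEGIN S35/H433/Approx.lean
section


/-!
# S35 / (G) — F4 APPROX: from residues in `kˣ · (κˣ)^m` to split classes (helper433)

* `GSplitAt B p m u` : `u` is a unit on the component `p` whose residue is a constant times an
  `m`-th power (`u = c · y ^ m · (1 + p B_p)`, `y` a unit of `B_p`, `c` a unit of `R`);
* `exists_approx` : weak approximation on the two components of a chart;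
* `exists_isSplit_of_gSplit` : if `u` is `GSplitAt` both components, then `u · G⁻ᵐ` is split
  (`Alg.IsSplit`) for some `G ≠ 0`.
-/

set_option autoImplicit false

namespace Fermat.Agent.S35.H433

open Fermat.Agent.A2 Fermat.Agent.A2.Alg

variable {R F : Type*} [CommRing R] [Field F] [Algebra R F]

/-- `u` is a unit on the component `p` with residue in `kˣ · (κ(p)ˣ)^m`. -/
def GSplitAt (B : Subalgebra R F) (p : Ideal B) (m : ℕ) (u : F) : Prop :=
  ∃ y : F, LocUnit B p y ∧ ConstAt B p (u * (y ^ m)⁻¹)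

variable {B : Subalgebra R F}

/-- Converse of `exists_const_of_constAt`. -/
theorem constAt_of_cong {p : Ideal B} {u : F} {c₀ : R} (hc : IsUnit c₀)
    (h : InLoc B p p (u - algebraMap R F c₀)) : ConstAt B p u := by
  obtain ⟨a, b, ha, hb, hab⟩ := h
  refine ⟨c₀, hc, a + algebraMap R B c₀ * b, b, hb, by simpa using ha, ?_⟩
  push_cast
  rw [← hab]
  ring

theorem constAt_iff {p : Ideal B} [p.IsPrime] {u : F} :
    ConstAt B p u ↔ ∃ c₀ : R, IsUnit c₀ ∧ InLoc B p p (u - algebraMap R F c₀) := by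
  constructor
  · intro h
    obtain ⟨c₀, hc, -, hcong⟩ := exists_const_of_constAt h
    exact ⟨c₀, hc, hcong⟩
  · rintro ⟨c₀, hc, h⟩
    exact constAt_of_cong hc h

/-- A split class is `GSplitAt` both components. -/
theorem gSplitAt_of_constAt {p : Ideal B} [p.IsPrime] {m : ℕ} {u : F} (h : ConstAt B p u) :
    GSplitAt B p m u :=
  ⟨1, locUnit_one p, by simpa using h⟩

/-- **Weak approximation** on the two components of a chart. -/
theorem exists_approx {w : R} (c : SSChart w B) {y₁ y₂ : F} (h₁ : LocUnit B c.p₁ y₁)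
    (h₂ : LocUnit B c.p₂ y₂) :
    ∃ G : F, LocUnit B c.p₁ G ∧ LocUnit B c.p₂ G ∧ InLoc B c.p₁ c.p₁ (G - y₁) ∧
      InLoc B c.p₂ c.p₂ (G - y₂) := by
  have := c.prime₁
  have := c.prime₂
  obtain ⟨G, -, hG₁, hG₂⟩ := exists_patch_smooth (le_refl c.p₁) c.not_le₂₁ c.not_le₁₂
    (locUnit_iff.1 h₁).2.1 (locUnit_iff.1 h₂).2.1
  exact ⟨G, locUnit_of_cong h₁ hG₁, locUnit_of_cong h₂ hG₂, hG₁, hG₂⟩

/-- One component: `u ≡ c y ^ m`, `G ≡ y`  ⟹  `u G⁻ᵐ ≡ c`. -/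
theorem constAt_div_pow {p : Ideal B} [hp : p.IsPrime] {m : ℕ} {u y G : F}
    (hy : LocUnit B p y) (hu : ConstAt B p (u * (y ^ m)⁻¹)) (hG : LocUnit B p G)
    (hGy : InLoc B p p (G - y)) : ConstAt B p (u * (G ^ m)⁻¹) := by
  obtain ⟨c₀, hc, hu', hcong⟩ := exists_const_of_constAt hu
  refine constAt_of_cong hc ?_
  have hym : LocUnit B p (y ^ m) := locUnit_pow hy m
  have hGm : LocUnit B p (G ^ m) := locUnit_pow hG m
  have h1 : InLoc B p p (G ^ m - y ^ m) :=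
    cong_pow (locUnit_iff.1 hG).2.1 (locUnit_iff.1 hy).2.1 hGy m
  have h2 : InLoc B p p ((G ^ m)⁻¹ - (y ^ m)⁻¹) := cong_inv hGm hym h1
  -- `u = (u y⁻ᵐ) yᵐ ∈ B_p`
  have huB : InLoc B p ⊤ u := by
    have e : u = u * (y ^ m)⁻¹ * y ^ m := by
      rw [mul_assoc, inv_mul_cancel₀ (locUnit_ne_zero hym), mul_one]
    rw [e]
    exact (locUnit_iff.1 hu').2.1.mul (locUnit_iff.1 hym).2.1
  have h3 : InLoc B p p (u * (G ^ m)⁻¹ - u * (y ^ m)⁻¹) := by
    rw [← mul_sub]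
    exact huB.mul h2
  exact cong_trans h3 hcong

/-- **F4.**  `u` with residues in `kˣ · (κˣ)^m` on both components of a chart becomes split after
division by an `m`-th power. -/
theorem exists_isSplit_of_gSplit {w : R} (c : SSChart w B) {m : ℕ} {u : F}
    (h₁ : GSplitAt B c.p₁ m u) (h₂ : GSplitAt B c.p₂ m u) :
    ∃ G : F, G ≠ 0 ∧ IsSplit B c (u * (G ^ m)⁻¹) := by
  have := c.prime₁
  have := c.prime₂
  obtain ⟨y₁, hy₁, hu₁⟩ := h₁
  obtain ⟨y₂, hy₂, hu₂⟩ := h₂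
  obtain ⟨G, hG₁, hG₂, hc₁, hc₂⟩ := exists_approx c hy₁ hy₂
  exact ⟨G, locUnit_ne_zero hG₁, constAt_div_pow hy₁ hu₁ hG₁ hc₁, constAt_div_pow hy₂ hu₂ hG₂ hc₂⟩

end Fermat.Agent.S35.H433

end
-- ===== PACK-END S35/H433/Approx.lean

-- ===== PACK-BEGIN S35/H433/FrobToric.lean
section



/-!
# S35 / (G) — N4, the toric Frobenius relation, assembled from the A2-wall leaves (helper433)

`frobToric_of_parts` : in the setting of the A2 wall (`Fermat/Agent/A2/Alg`), let `φ` be a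
semilinear automorphism of `F` preserving both charts and their components, acting on constants as
the `Q`-power map modulo `w`, and fixing the crossing points.  If `u` is split with `m ∣ div u`,
then `φ u = h ^ m · u ^ Q`.

Inputs are the leaves PURITY (P-S + P-N) and GLUE of the A2 wall (both `τ`-free), as hypotheses in
exactly the shape of `Fermat/Agent/A2/Alg/Skel.lean` (origin/helper34).

For `S35`: `φ = σ²` (`σ` a Frobenius lift at `q ‖ N`), `Q = q²`; the conclusion says that `σ²` acts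
as `q²` on the toric part of `J₀(N)[m]`.
-/

set_option autoImplicit false

namespace Fermat.Agent.S35.H433

open Fermat.Agent.A2 Fermat.Agent.A2.Alg

section Div

variable {E F : Type*} [Field E] [Field F] [Algebra E F]

theorem divisibleDiv_pow (m : ℕ) (f : F) (hf : DivisibleDiv E m f) (k : ℕ) :
    DivisibleDiv E m (f ^ k) := by
  intro V hV hE
  obtain ⟨h, u, hh, hu, hu', rfl⟩ := hf V hV hE
  refine ⟨h ^ k, u ^ k, pow_ne_zero _ hh, pow_mem hu k, ?_, ?_⟩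
  · rw [← inv_pow]
    exact pow_mem hu' k
  · rw [mul_pow, ← pow_mul, ← pow_mul, mul_comm m k]

end Div

variable {R E F : Type*} [CommRing R] [Field E] [Field F] [Algebra E F] [Algebra R F]

/-- `w ∈ φ⁻¹ n` for a closed point `n` of the special fibre. -/
theorem PhiCtx.w_mem_comap {w : R} {B : Subalgebra R F} {c : SSChart w B} {φ : F ≃+* F} {Q : ℕ}
    (hφ : PhiCtx w B c φ Q) (hQ : 0 < Q) {n : Ideal B} (hwn : algebraMap R B w ∈ n) :
    algebraMap R B w ∈ n.comap hφ.hom := by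
  obtain ⟨s, hs⟩ := hφ.frob w
  have h1 : hφ.hom (algebraMap R B w) = algebraMap R B w ^ Q + algebraMap R B w * s := by
    apply Subtype.ext
    push_cast
    rw [hφ.coe_hom]
    have e1 : ((algebraMap R B w : B) : F) = algebraMap R F w := rfl
    rw [e1]
    linear_combination hs
  rw [Ideal.mem_comap, h1]
  exact n.add_mem (n.pow_mem_of_mem hwn Q hQ) (n.mul_mem_right _ hwn)

/-- Local factorisations of `φ u / u ^ Q` at all closed points of one chart. -/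
theorem locallyFactored_phi {w : R} (B : Subalgebra R F) (c : SSChart w B)
    (φ : F ≃+* F) (Q : ℕ) (hQ : 0 < Q) (hφ : PhiCtx w B c φ Q) (m : ℕ) (hm : 0 < m)
    (hk : ∀ n : Ideal B, n.IsMaximal → c.p₁ ≤ n → c.p₂ ≤ n →
      ∀ b : B, ∃ r : R, b - algebraMap R B r ∈ n)
    (hfix : ∀ n : Ideal B, n.IsMaximal → c.p₁ ≤ n → c.p₂ ≤ n →
      ∀ b : B, b ∈ n → hφ.hom b ∈ n)
    (htr : ∀ n : Ideal B, n.IsMaximal → c.p₁ ≤ n → c.p₂ ≤ n →
      ∀ b : B, b ∈ n → ∃ s : B, s ∉ n ∧ s * b ∈ c.p₁ ⊔ c.p₂)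
    (u : F) (hu : u ≠ 0) (hs : IsSplit B c u)
    (hpur : ∀ n : Ideal B, n.IsMaximal → algebraMap R B w ∈ n → PureAt B c m u n) :
    LocallyFactored B c m (φ u * (u ^ Q)⁻¹) := by
  intro n hn hwn
  have hn' : (n.comap hφ.hom).IsMaximal :=
    Ideal.comap_isMaximal_of_surjective hφ.hom hφ.hom_surjective
  exact localFactor_phi_of_pureAt w B c φ Q hφ m hm u hu hs n hn hwn (hk n hn) (hfix n hn)
    (htr n hn) (hpur _ hn' (hφ.w_mem_comap hQ hwn)) (hpur n hn hwn)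

/-- **N4 (toric Frobenius relation), assembled.**  `u` split on both charts, `m ∣ div u`
⟹ `φ u = h ^ m · u ^ Q`. -/
theorem frobToric_of_parts (m : ℕ) (hm : 0 < m) (w : R) (Bf Bi : Subalgebra R F)
    (cf : SSChart w Bf) (ci : SSChart w Bi)
    (φ : F ≃+* F) (φE : E ≃+* E) (Q : ℕ) (hQ : 0 < Q)
    (hφE : ∀ e : E, φ (algebraMap E F e) = algebraMap E F (φE e))
    (hφf : PhiCtx w Bf cf φ Q) (hφi : PhiCtx w Bi ci φ Q)
    (hkf : ∀ n : Ideal Bf, n.IsMaximal → cf.p₁ ≤ n → cf.p₂ ≤ n →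
      ∀ b : Bf, ∃ r : R, b - algebraMap R Bf r ∈ n)
    (hki : ∀ n : Ideal Bi, n.IsMaximal → ci.p₁ ≤ n → ci.p₂ ≤ n →
      ∀ b : Bi, ∃ r : R, b - algebraMap R Bi r ∈ n)
    (hfixf : ∀ n : Ideal Bf, n.IsMaximal → cf.p₁ ≤ n → cf.p₂ ≤ n →
      ∀ b : Bf, b ∈ n → hφf.hom b ∈ n)
    (hfixi : ∀ n : Ideal Bi, n.IsMaximal → ci.p₁ ≤ n → ci.p₂ ≤ n →
      ∀ b : Bi, b ∈ n → hφi.hom b ∈ n)
    (htrf : ∀ n : Ideal Bf, n.IsMaximal → cf.p₁ ≤ n → cf.p₂ ≤ n →
      ∀ b : Bf, b ∈ n → ∃ s : Bf, s ∉ n ∧ s * b ∈ cf.p₁ ⊔ cf.p₂)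
    (htri : ∀ n : Ideal Bi, n.IsMaximal → ci.p₁ ≤ n → ci.p₂ ≤ n →
      ∀ b : Bi, b ∈ n → ∃ s : Bi, s ∉ n ∧ s * b ∈ ci.p₁ ⊔ ci.p₂)
    (u : F) (hu : u ≠ 0) (hdiv : DivisibleDiv E m u)
    (hsf : IsSplit Bf cf u) (hsi : IsSplit Bi ci u)
    (hpurf : ∀ n : Ideal Bf, n.IsMaximal → algebraMap R Bf w ∈ n → PureAt Bf cf m u n)
    (hpuri : ∀ n : Ideal Bi, n.IsMaximal → algebraMap R Bi w ∈ n → PureAt Bi ci m u n)
    (hglue : ∀ v : F, v ≠ 0 → DivisibleDiv E m v → LocallyFactored Bf cf m v →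
      LocallyFactored Bi ci m v → ∃ y : F, y ≠ 0 ∧ v = y ^ m) :
    ∃ h : F, h ≠ 0 ∧ φ u = h ^ m * u ^ Q := by
  have hφu : φ u ≠ 0 := (map_ne_zero φ).2 hu
  have huQ : u ^ Q ≠ 0 := pow_ne_zero _ hu
  have hv : φ u * (u ^ Q)⁻¹ ≠ 0 := mul_ne_zero hφu (inv_ne_zero huQ)
  have hdivv : DivisibleDiv E m (φ u * (u ^ Q)⁻¹) :=
    H34.divisibleDiv_mul_inv m _ _ (H34.divisibleDiv_tau φ φE hφE m u hdiv)
      (divisibleDiv_pow m u hdiv Q)
  obtain ⟨y, hy, hyv⟩ := hglue _ hv hdivv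
    (locallyFactored_phi Bf cf φ Q hQ hφf m hm hkf hfixf htrf u hu hsf hpurf)
    (locallyFactored_phi Bi ci φ Q hQ hφi m hm hki hfixi htri u hu hsi hpuri)
  refine ⟨y, hy, ?_⟩
  rw [← hyv, mul_assoc, inv_mul_cancel₀ huQ, mul_one]

end Fermat.Agent.S35.H433

end
-- ===== PACK-END S35/H433/FrobToric.lean

-- ===== PACK-BEGIN A2/Alg/H34/StepI.lean
section




/-!
# WALL A2 / ALG — leaf A1 = Step I (helper34)

`stepI` : for every `f ≠ 0`, `τ f / f` has constant unit residues on both components of the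
chart (`IsSplit`).  Statement VERBATIM that of `Fermat/Agent/A2/Alg/Skel.lean`.

`constAt_tau_div` is the ring-theoretic core (one component, any noetherian chart with
fraction field `F`).
-/

set_option autoImplicit false
set_option linter.unusedSectionVars false
set_option linter.style.haveILetI false

namespace Fermat.Agent.A2.Alg.H34

open Fermat.Agent.A2 Fermat.Agent.A2.Alg

section Core

variable {R F : Type*} [CommRing R] [Field F] [Algebra R F]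

/-- every `f ≠ 0` is `w ^ (k₁ - k₂) * A / D` with `A, D ∈ B ∖ p`. -/
theorem exists_decomp (w : R) (B : Subalgebra R F) [IsNoetherianRing B] [IsFractionRing B F]
    (p q : Ideal B) (hp : p.IsPrime) (hpq : p ⊓ q = Ideal.span {algebraMap R B w})
    (hqp : ¬ q ≤ p) (f : F) (hf : f ≠ 0) :
    ∃ (k₁ k₂ : ℕ) (A D : B), A ∉ p ∧ D ∉ p ∧
      f * (algebraMap R F w ^ k₂ * (D : F)) = algebraMap R F w ^ k₁ * (A : F) := by
  haveI := hp
  have hwp : algebraMap R B w ∈ p := by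
    have : algebraMap R B w ∈ p ⊓ q := by
      rw [hpq]
      exact Ideal.mem_span_singleton_self _
    exact this.1
  obtain ⟨s, hsq, hsp⟩ := SetLike.not_le_iff_exists.1 hqp
  have hloc : ∀ a ∈ p, ∃ s, s ∉ p ∧ ∃ a', a * s = algebraMap R B w * a' := by
    intro a ha
    have h1 : a * s ∈ p ⊓ q := ⟨p.mul_mem_right _ ha, q.mul_mem_left _ hsq⟩
    rw [hpq, Ideal.mem_span_singleton'] at h1
    obtain ⟨a', ha'⟩ := h1
    exact ⟨s, hsp, a', by rw [← ha', mul_comm]⟩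
  obtain ⟨a₀, b₀, hb₀, hab⟩ := IsFractionRing.div_surjective (A := B) f
  have hb₀' : b₀ ≠ 0 := nonZeroDivisors.ne_zero hb₀
  have hb₀F : (b₀ : F) ≠ 0 := fun h => hb₀' (Subtype.ext h)
  have hfb : f * (b₀ : F) = (a₀ : F) := by
    have : (a₀ : F) / (b₀ : F) = f := hab
    rw [← this]
    field_simp
  have ha₀ : a₀ ≠ 0 := by
    rintro rfl
    have : f * (b₀ : F) = 0 := by rw [hfb]; rfl
    rcases mul_eq_zero.1 this with h | h
    · exact hf h
    · exact hb₀F h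
  obtain ⟨k₁, a₁, t₁, ha₁, ht₁, h₁⟩ := exists_pow_mul_eq p (algebraMap R B w) hwp hloc a₀ ha₀
  obtain ⟨k₂, a₂, t₂, ha₂, ht₂, h₂⟩ := exists_pow_mul_eq p (algebraMap R B w) hwp hloc b₀ hb₀'
  refine ⟨k₁, k₂, t₂ * a₁, a₂ * t₁, ?_, ?_, ?_⟩
  · intro h
    rcases hp.mem_or_mem h with h | h
    · exact ht₂ h
    · exact ha₁ h
  · intro h
    rcases hp.mem_or_mem h with h | h
    · exact ha₂ h
    · exact ht₁ h
  · have e₁ : (t₁ : F) * (a₀ : F) = algebraMap R F w ^ k₁ * (a₁ : F) := by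
      have := congrArg (fun b : B => (b : F)) h₁
      simpa using this
    have e₂ : (t₂ : F) * (b₀ : F) = algebraMap R F w ^ k₂ * (a₂ : F) := by
      have := congrArg (fun b : B => (b : F)) h₂
      simpa using this
    push_cast
    calc f * (algebraMap R F w ^ k₂ * ((a₂ : F) * (t₁ : F)))
        = f * ((algebraMap R F w ^ k₂ * (a₂ : F)) * (t₁ : F)) := by ring
      _ = f * (((t₂ : F) * (b₀ : F)) * (t₁ : F)) := by rw [e₂]
      _ = (t₂ : F) * ((t₁ : F) * (f * (b₀ : F))) := by ring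
      _ = (t₂ : F) * ((t₁ : F) * (a₀ : F)) := by rw [hfb]
      _ = (t₂ : F) * (algebraMap R F w ^ k₁ * (a₁ : F)) := by rw [e₁]
      _ = algebraMap R F w ^ k₁ * ((t₂ : F) * (a₁ : F)) := by ring

/-- **Step I, one component.** -/
theorem constAt_tau_div (w : R) (B : Subalgebra R F) [IsNoetherianRing B] [IsFractionRing B F]
    (p q : Ideal B) (hp : p.IsPrime) (hpq : p ⊓ q = Ideal.span {algebraMap R B w})
    (hqp : ¬ q ≤ p) (hw0 : algebraMap R F w ≠ 0)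
    (τ : F ≃+* F) (hτB : ∀ b ∈ B, ∃ c ∈ B, τ b - b = algebraMap R F w * c)
    (ξ ξ' : R) (hξ : ξ * ξ' = 1) (hτw : τ (algebraMap R F w) = algebraMap R F (ξ * w))
    (f : F) (hf : f ≠ 0) : ConstAt B p (τ f * f⁻¹) := by
  have hwp : algebraMap R B w ∈ p := by
    have : algebraMap R B w ∈ p ⊓ q := by
      rw [hpq]
      exact Ideal.mem_span_singleton_self _
    exact this.1
  obtain ⟨k₁, k₂, A, D, hA, hD, h⟩ := exists_decomp w B p q hp hpq hqp f hf
  obtain ⟨A', cA, hA', hcA⟩ := exists_tau_eq w B τ hτB A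
  obtain ⟨D', cD, hD', hcD⟩ := exists_tau_eq w B τ hτB D
  have hD'p : D' ∉ p := by
    intro h'
    apply hD
    have h1 : D = D' - algebraMap R B w * cD := by rw [← hcD]; ring
    rw [h1]
    exact p.sub_mem h' (p.mul_mem_right _ hwp)
  have hA0 : (A : F) ≠ 0 := fun h' => hA (by
    have : A = 0 := Subtype.ext h'
    rw [this]; exact p.zero_mem)
  have hD0 : (D : F) ≠ 0 := fun h' => hD (by
    have : D = 0 := Subtype.ext h'
    rw [this]; exact p.zero_mem)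
  have hD'0 : (D' : F) ≠ 0 := by
    rw [hD']
    exact (map_ne_zero τ).2 hD0
  -- the constant
  refine ⟨ξ ^ k₁ * ξ' ^ k₂, ?_, algebraMap R B (ξ ^ k₁ * ξ' ^ k₂) * (A' * D), D' * A, ?_, ?_, ?_⟩
  · have h1 : IsUnit ξ := IsUnit.of_mul_eq_one ξ' hξ
    have h2 : IsUnit ξ' := IsUnit.of_mul_eq_one ξ (by rw [mul_comm]; exact hξ)
    exact (h1.pow _).mul (h2.pow _)
  · intro h'
    rcases hp.mem_or_mem h' with h' | h'
    · exact hD'p h'
    · exact hA h'
  · have h1 : algebraMap R B (ξ ^ k₁ * ξ' ^ k₂) * (A' * D) -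
        algebraMap R B (ξ ^ k₁ * ξ' ^ k₂) * (D' * A) =
        algebraMap R B w * (algebraMap R B (ξ ^ k₁ * ξ' ^ k₂) * (cA * D - cD * A)) := by
      have e1 : A' = A + algebraMap R B w * cA := by rw [← hcA]; ring
      have e2 : D' = D + algebraMap R B w * cD := by rw [← hcD]; ring
      rw [e1, e2]
      ring
    rw [h1]
    exact p.mul_mem_right _ hwp
  · -- the identity in `F`
    set W : F := algebraMap R F w with hW
    set X : F := algebraMap R F ξ with hX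
    set X' : F := algebraMap R F ξ' with hX'
    have hXX' : X * X' = 1 := by
      rw [hX, hX', ← map_mul, hξ, map_one]
    have hτW : τ W = X * W := by
      rw [hW, hτw, map_mul]
    have h2 : τ f * ((X * W) ^ k₂ * (D' : F)) = (X * W) ^ k₁ * (A' : F) := by
      have := congrArg τ h
      rw [map_mul, map_mul, map_mul, map_pow, map_pow, hτW] at this
      rw [hD', hA']
      exact this
    have hX0 : X ≠ 0 := left_ne_zero_of_mul_eq_one hXX'
    have hfac : X ^ k₂ * W ^ k₂ * W ^ k₁ * f ≠ 0 :=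
      mul_ne_zero (mul_ne_zero (mul_ne_zero (pow_ne_zero _ hX0) (pow_ne_zero _ hw0))
        (pow_ne_zero _ hw0)) hf
    have hpow : X ^ k₂ * X' ^ k₂ = 1 := by rw [← mul_pow, hXX', one_pow]
    apply mul_right_cancel₀ hfac
    have hff : f⁻¹ * f = 1 := inv_mul_cancel₀ hf
    push_cast
    rw [← hX, ← hX']
    have e1 : τ f * f⁻¹ * ((D' : F) * (A : F)) * (X ^ k₂ * W ^ k₂ * W ^ k₁ * f) =
        (τ f * ((X * W) ^ k₂ * (D' : F))) * ((A : F) * W ^ k₁) * (f⁻¹ * f) := by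
      rw [mul_pow]; ring
    have e2 : X ^ k₁ * X' ^ k₂ * ((A' : F) * (D : F)) * (X ^ k₂ * W ^ k₂ * W ^ k₁ * f) =
        (X ^ k₂ * X' ^ k₂) * (X ^ k₁ * W ^ k₁ * (A' : F)) * (f * (W ^ k₂ * (D : F))) := by
      ring
    rw [e1, e2, h2, h, hff, hpow, mul_pow]
    ring

end Core

section Main

variable {R E F : Type*} [CommRing R] [IsDomain R] [IsDiscreteValuationRing R]
  [HenselianLocalRing R] [IsAlgClosed (IsLocalRing.ResidueField R)]
  [Field E] [CharZero E] [Algebra R E] [IsFractionRing R E]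
  [Field F] [Algebra E F] [Algebra R F] [IsScalarTower R E F]

/-- `τ w = ξ w` with `ξ` a unit of `R`. -/
theorem exists_tau_unif (w : R) (hw : Irreducible w) (B : Subalgebra R F)
    (τ : F ≃+* F) (τE : E ≃+* E) (τR : R ≃+* R) (hτ : TauCtx w B τ τE τR) :
    ∃ ξ ξ' : R, ξ * ξ' = 1 ∧ τ (algebraMap R F w) = algebraMap R F (ξ * w) := by
  have h1 : τ (algebraMap R F w) = algebraMap R F (τR w) := by
    rw [IsScalarTower.algebraMap_apply R E F, hτ.hτE, hτ.hτR, ← IsScalarTower.algebraMap_apply]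
  have h2 : Irreducible (τR w) := (MulEquiv.irreducible_iff τR).2 hw
  obtain ⟨v, hv⟩ := IsDiscreteValuationRing.associated_of_irreducible R hw h2
  refine ⟨v, ↑v⁻¹, Units.mul_inv v, ?_⟩
  rw [h1, ← hv, mul_comm]

/-- **A1 (Step I).**  `B_{p_i}` is a DVR with uniformiser `w`; write `f = w ^ k · a / b`,
`a, b ∈ B ∖ p_i`; `τ w / w ∈ Rˣ` and `τ a · b - a · τ b ∈ w B`. -/
theorem stepI (w : R) (x : F) (B : Subalgebra R F) (hB : ChartCtx E w x B)
    (c : SSChart w B) (hc : Incomparable c)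
    (τ : F ≃+* F) (τE : E ≃+* E) (τR : R ≃+* R) (hτ : TauCtx w B τ τE τR)
    (f : F) (hf : f ≠ 0) : IsSplit B c (τ f * f⁻¹) := by
  obtain ⟨hN, -, hFr⟩ := chart_instances' w x B hB
  haveI := hN
  haveI := hFr
  have hw0 : algebraMap R F w ≠ 0 := by
    intro h
    exact hB.hw.ne_zero (algebraMap_RF_injective E (by rw [h, map_zero]))
  obtain ⟨ξ, ξ', hξ, hτw⟩ := exists_tau_unif w hB.hw B τ τE τR hτ
  refine ⟨constAt_tau_div w B c.p₁ c.p₂ c.prime₁ c.inf_eq hc.2 hw0 τ hτ.hτB ξ ξ' hξ hτw f hf,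
    constAt_tau_div w B c.p₂ c.p₁ c.prime₂ (by rw [inf_comm]; exact c.inf_eq) hc.1 hw0 τ hτ.hτB
      ξ ξ' hξ hτw f hf⟩

end Main

end Fermat.Agent.A2.Alg.H34

end
-- ===== PACK-END A2/Alg/H34/StepI.lean

-- ===== PACK-BEGIN A2/H348/Conn.lean
section



/-!
# A2 / piece E (ALG_ss), part 5: the connectedness input from S18 (`H138.connected_special_fibre`)

`R` a noetherian domain with `R[X]` integrally closed, `F ⊇ R` a field of characteristic `0`,
`x ∈ F` transcendental over `R`, `F` finite over `Frac R (x)`.  For every finite field extension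
`L / F` in which `R` is integrally closed (constants do not grow), the special fibre of the
normalisation of the `x`-line model in `L` is connected: `ConnAt w B_fin B_inf B_mid L`
(`conn_of_const`).
-/

set_option autoImplicit false
set_option linter.unusedSectionVars false
set_option linter.style.haveILetI false

open Polynomial

namespace Fermat.Agent.A2.H348

open Fermat.Agent.S18.H138 (chart baseField)

section Adapter

variable {R F L : Type*} [CommRing R] [Field F] [Field L] [Algebra R F] [Algebra F L]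
  [Algebra R L] [IsScalarTower R F L]

/-- integrality over a subalgebra `T ⊆ F` and over its image in `L`. -/
theorem isIntegral_map_iff (T : Subalgebra R F) (e : L) :
    IsIntegral (T.map (IsScalarTower.toAlgHom R F L)) e ↔ IsIntegral T e := by
  have hinj : Function.Injective (IsScalarTower.toAlgHom R F L) := (algebraMap F L).injective
  set ψ := Subalgebra.equivMapOfInjective T (IsScalarTower.toAlgHom R F L) hinj with hψ
  constructor
  · intro h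
    have := IsIntegral.map_of_comp_eq (R := T.map (IsScalarTower.toAlgHom R F L)) (S := L)
      (T := T) (U := L) (ψ.symm : _ →+* _) (RingHom.id L) (by
        ext a
        obtain ⟨b, rfl⟩ := ψ.surjective a
        simp only [RingHom.coe_comp, Function.comp_apply, RingHom.coe_coe,
          AlgEquiv.symm_apply_apply, RingHom.id_apply]
        rfl) h
    simpa using this
  · intro h
    have := IsIntegral.map_of_comp_eq (R := T) (S := L)
      (T := T.map (IsScalarTower.toAlgHom R F L)) (U := L) (ψ : _ →+* _) (RingHom.id L) (by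
        ext a
        rfl) h
    simpa using this

/-- integrality over a chart of `F` is integrality over the generating subalgebra. -/
theorem isIntegral_chart_iff (S : Set F) (e : L) :
    IsIntegral (chart R S) e ↔ IsIntegral (Algebra.adjoin R S) e := by
  constructor
  · intro h
    -- transitivity
    set T := Algebra.adjoin R S with hT
    have h1 : IsIntegral (integralClosure T F) e := by
      have := IsIntegral.map_of_comp_eq (R := chart R S) (S := L)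
        (T := integralClosure T F) (U := L)
        (RingHom.id _ : (integralClosure T F) →+* (integralClosure T F)) (RingHom.id L) (by
          ext a
          rfl) h
      simpa using this
    exact isIntegral_trans (R := T) (A := integralClosure T F) e h1
  · intro h
    exact _root_.Fermat.Agent.A2.H348.isIntegral_of_le (Fermat.Agent.S18.H138.adjoin_le_chart S) h

/-- membership in a chart of `L` in terms of integrality over the chart of `F`. -/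
theorem mem_chart_image_iff (S : Set F) (e : L) :
    e ∈ chart R ((algebraMap F L) '' S) ↔ IsIntegral (chart R S) e := by
  rw [isIntegral_chart_iff, ← isIntegral_map_iff, AlgHom.map_adjoin]
  rfl

end Adapter

section Conn

variable {R F L : Type*} [CommRing R] [Field F] [Field L] [Algebra R F] [Algebra F L]
  [Algebra R L] [IsScalarTower R F L]

/-- `L` is finite over the base field of the `x`-line. -/
theorem finiteDimensional_baseField [FiniteDimensional F L] (x : F)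
    [FiniteDimensional (baseField R x) F] :
    FiniteDimensional (baseField R (algebraMap F L x)) L := by
  set K := baseField R x with hK
  set K' := baseField R (algebraMap F L x) with hK'
  have hle : K ≤ K'.comap (algebraMap F L) := by
    refine Subfield.closure_le.2 ?_
    rintro y (⟨r, rfl⟩ | hy)
    · show algebraMap F L (algebraMap R F r) ∈ K'
      rw [← IsScalarTower.algebraMap_apply]
      exact Subfield.subset_closure (Or.inl ⟨r, rfl⟩)
    · rw [Set.mem_singleton_iff] at hy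
      subst hy
      exact Subfield.subset_closure (Or.inr rfl)
  haveI : Module.Finite K L := Module.Finite.trans F L
  let φ : K →+* K' :=
    { toFun := fun a => ⟨algebraMap F L a, hle a.2⟩
      map_one' := Subtype.ext (map_one _)
      map_mul' := fun a b => Subtype.ext (map_mul _ _ _)
      map_zero' := Subtype.ext (map_zero _)
      map_add' := fun a b => Subtype.ext (map_add _ _ _) }
  letI : Algebra K K' := φ.toAlgebra
  haveI : IsScalarTower K K' L := IsScalarTower.of_algebraMap_eq fun _ => rfl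
  exact Module.Finite.of_restrictScalars_finite K K' L

variable [IsNoetherianRing R] [IsIntegrallyClosed R[X]] [CharZero F]

/-- **Connectedness of the special fibre** of the normalisation of the `x`-line model in a
finite extension `L / F` with the same constants, in the language of `ConnAt`. -/
theorem conn_of_const [FiniteDimensional F L] (hinjR : Function.Injective (algebraMap R F))
    {x : F} (hx : Transcendental R x) [FiniteDimensional (baseField R x) F]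
    (w : R) (hw : Prime w)
    (hRL : ∀ y : L, IsIntegral R y → y ∈ Set.range (algebraMap R L)) :
    ConnAt w (chart R ({x} : Set F)) (chart R ({x⁻¹} : Set F)) (chart R ({x, x⁻¹} : Set F)) L := by
  intro e₁ e₂ he₁ he₂ hi1 hi2 h12
  haveI := finiteDimensional_baseField (R := R) (L := L) x
  haveI : CharZero L := charZero_of_injective_algebraMap (algebraMap F L).injective
  set x' : L := algebraMap F L x with hx'def
  have hx' : Transcendental R x' :=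
    (transcendental_algebraMap_iff (algebraMap F L).injective).2 hx
  have hinjL : Function.Injective (algebraMap R L) := by
    rw [IsScalarTower.algebraMap_eq R F L]
    exact (algebraMap F L).injective.comp hinjR
  have himg1 : (algebraMap F L) '' ({x} : Set F) = {x'} := Set.image_singleton
  have himg2 : (algebraMap F L) '' ({x⁻¹} : Set F) = {x'⁻¹} := by
    rw [Set.image_singleton, map_inv₀]
  have himg3 : (algebraMap F L) '' ({x, x⁻¹} : Set F) = {x', x'⁻¹} := by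
    rw [Set.image_pair, map_inv₀]
  have hw' : algebraMap F L (algebraMap R F w) = algebraMap R L w :=
    (IsScalarTower.algebraMap_apply R F L w).symm
  have m1 : ∀ e : L, e ∈ chart R ({x'} : Set L) ↔ IsIntegral (chart R ({x} : Set F)) e :=
    fun e => by rw [← himg1]; exact mem_chart_image_iff _ e
  have m2 : ∀ e : L, e ∈ chart R ({x'⁻¹} : Set L) ↔ IsIntegral (chart R ({x⁻¹} : Set F)) e :=
    fun e => by rw [← himg2]; exact mem_chart_image_iff _ e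
  have m3 : ∀ e : L, e ∈ chart R ({x', x'⁻¹} : Set L) ↔
      IsIntegral (chart R ({x, x⁻¹} : Set F)) e :=
    fun e => by rw [← himg3]; exact mem_chart_image_iff _ e
  rw [hw'] at hi1 hi2 h12 ⊢
  have := Fermat.Agent.S18.H138.connected_special_fibre hinjL hRL hx' w hw e₁ e₂
    ((m1 e₁).2 he₁) ((m2 e₂).2 he₂)
    (by obtain ⟨t, ht, h⟩ := hi1; exact ⟨t, (m1 t).2 ht, h⟩)
    (by obtain ⟨t, ht, h⟩ := hi2; exact ⟨t, (m2 t).2 ht, h⟩)
    (by obtain ⟨t, ht, h⟩ := h12; exact ⟨t, (m3 t).2 ht, h⟩)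
  rcases this with ⟨⟨t, ht, h⟩, -⟩ | ⟨⟨t, ht, h⟩, -⟩
  · left
    exact ⟨t, (m1 t).1 ht, h⟩
  · right
    exact ⟨t, (m1 t).1 ht, h⟩

end Conn

end Fermat.Agent.A2.H348

end
-- ===== PACK-END A2/H348/Conn.lean

-- ===== PACK-BEGIN A2/H348/Final.lean
section


/-!
# A2 / piece E (ALG_ss): final theorem

`exists_pow_eq_of_local_factorisation`:

`R` a noetherian domain with `R[X]` integrally closed (e.g. a DVR), `w ∈ R` prime, `F ⊇ R` a field
of characteristic `0`, `x ∈ F` transcendental over `R`, `F` finite over `Frac R (x)`;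
`B_fin = chart R {x}`, `B_inf = chart R {x⁻¹}` the two charts of the normal `x`-line model (as in
`S18.H138`), `V ⊆ F` the semilocal Gauss ring (intersection of the valuation rings of the generic
points of the special fibre) with

* `GaussData w m u V` : `V` integrally closed in `F`, `w⁻¹ ∉ V`, `1 + w V ⊆ V^×`, `m⁻¹ ∈ R`,
  `u ∈ 1 + w V`;
* `ChartData w m u B V` for `B = B_fin, B_inf` : `B ⊆ V`, `B ∩ w V = w B` (reduced special fibre),
  and at every maximal ideal `𝔪 ∋ w` of `B` a **local factorisation** `u = ε h ^ m` with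
  `ε ∈ 1 + w B_𝔪`, `h ∈ 1 + w V`;
* constants do not grow in the residue fields of the Kummer algebra `F[X]/(X ^ m - u)`.

Then `u = y ^ m` with `y ∈ F`, `y ∈ 1 + w V`.
-/

set_option autoImplicit false
set_option linter.unusedSectionVars false
set_option linter.style.haveILetI false

open Polynomial

namespace Fermat.Agent.A2.H348

open Fermat.Agent.S18.H138 (chart baseField)

section KummerAlg

variable {F : Type*} [Field F]

/-- the Kummer basis of `F[X]/(X ^ m - u)`. -/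
noncomputable def kummerBasisAdjoinRoot {m : ℕ} (hm : m ≠ 0) (u : F) :
    haveI : Nontrivial (AdjoinRoot (X ^ m - C u)) :=
      AdjoinRoot.nontrivial _ (by rw [degree_X_pow_sub_C (Nat.pos_of_ne_zero hm)]; exact_mod_cast hm)
    KummerBasis m u (AdjoinRoot.root (X ^ m - C u)) :=
  haveI : Nontrivial (AdjoinRoot (X ^ m - C u)) :=
    AdjoinRoot.nontrivial _ (by rw [degree_X_pow_sub_C (Nat.pos_of_ne_zero hm)]; exact_mod_cast hm)
  have hf : (X ^ m - C u : F[X]) ≠ 0 := (monic_X_pow_sub_C u hm).ne_zero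
  { pow_eq := by
      have h := AdjoinRoot.eval₂_root (X ^ m - C u : F[X])
      rw [eval₂_sub, eval₂_pow, eval₂_X, eval₂_C, sub_eq_zero] at h
      exact h
    basis := (AdjoinRoot.powerBasis hf).basis.reindex
      (finCongr ((AdjoinRoot.powerBasis_dim hf).trans natDegree_X_pow_sub_C))
    basis_apply := by
      intro i
      rw [Module.Basis.reindex_apply, PowerBasis.basis_eq_pow, AdjoinRoot.powerBasis_gen]
      rfl }

end KummerAlg

section Final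

variable {R F : Type*} [CommRing R] [Field F] [Algebra R F]
  [IsNoetherianRing R] [IsIntegrallyClosed R[X]] [CharZero F]

/-- **ALG_ss (route S of the A2 wall).** -/
theorem exists_pow_eq_of_local_factorisation
    (hinjR : Function.Injective (algebraMap R F))
    {x : F} (hx : Transcendental R x) [FiniteDimensional (baseField R x) F]
    (w : R) (hw : Prime w) {m : ℕ} {u : F} {V : Subalgebra R F}
    (hV : GaussData w m u V)
    (hfin : ChartData w m u (chart R ({x} : Set F)) V)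
    (hinf : ChartData w m u (chart R ({x⁻¹} : Set F)) V)
    (hconst : ∀ 𝔫 : Ideal (AdjoinRoot (X ^ m - C u)), 𝔫.IsMaximal →
      ∀ y : AdjoinRoot (X ^ m - C u) ⧸ 𝔫, IsIntegral R y →
        y ∈ Set.range (algebraMap R (AdjoinRoot (X ^ m - C u) ⧸ 𝔫))) :
    ∃ y : F, y ^ m = u ∧ ∃ t ∈ V, y = 1 + algebraMap R F w * t := by
  have hm : m ≠ 0 := by
    rintro rfl
    exact hV.m_ne (by simp)
  have hx0 : x ≠ 0 := Fermat.Agent.S18.H138.ne_zero_of_transcendental hx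
  haveI : Nontrivial (AdjoinRoot (X ^ m - C u)) :=
    AdjoinRoot.nontrivial _ (by rw [degree_X_pow_sub_C (Nat.pos_of_ne_zero hm)]; exact_mod_cast hm)
  have kb := kummerBasisAdjoinRoot hm u
  haveI := kb.finiteDimensional
  refine exists_root_of_connected (Bmid := chart R ({x, x⁻¹} : Set F)) hV hfin hinf
    (Fermat.Agent.S18.H138.chart_mono (by simp)) (Fermat.Agent.S18.H138.chart_mono (by simp))
    ⟨x, Fermat.Agent.S18.H138.mem_chart_of_mem rfl⟩ hx0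
    (Fermat.Agent.S18.H138.mem_chart_of_mem (by simp))
    (fun f hf => Fermat.Agent.S18.H138.exists_pow_mul_mem_chart hx0 hf) kb ?_
  intro 𝔫 h𝔫
  letI : Field (AdjoinRoot (X ^ m - C u) ⧸ 𝔫) := Ideal.Quotient.field 𝔫
  exact conn_of_const hinjR hx w hw (hconst 𝔫 h𝔫)

end Final

end Fermat.Agent.A2.H348

end
-- ===== PACK-END A2/H348/Final.lean

-- ===== PACK-BEGIN A2/H609/Generator.lean
section





/-!
# Node purity, part 5: a simultaneous local generator of the root ideal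

`R` noetherian local integrally closed domain, `u ≠ 0`, `π ∈ 𝔪`, `V(u, π) = {𝔪}`.
If `m ∣ ord_𝔓 (u)` at every prime `𝔓 ∋ u`, `𝔓 ∌ π` (hypothesis `H1`), then there are `t r : R` with
`t ^ m = u * r` and `π ^ k ∈ (u, r)`.  Mathlib only.
-/

set_option autoImplicit false

namespace Fermat.Agent.A2.H609

open Ideal

variable {R : Type*} [CommRing R] [IsDomain R] [IsIntegrallyClosed R]

/-- `S_𝔓 = {f | f ^ m ∈ (u) * 𝔓}`: the elements of the root ideal that do not generate it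
at `𝔓`. -/
def nonGenIdeal (u : R) (m : ℕ) (hm : m ≠ 0) (𝔓 : Ideal R) [𝔓.IsPrime] : Ideal R where
  carrier := {f | f ^ m ∈ Ideal.span {u} * 𝔓}
  add_mem' := by
    intro f g hf hg
    show (f + g) ^ m ∈ Ideal.span {u} * 𝔓
    have hf' : f ^ m ∈ Ideal.span {u} * 𝔓 := hf
    have hg' : g ^ m ∈ Ideal.span {u} * 𝔓 := hg
    obtain ⟨x, hx, hfx⟩ := Ideal.mem_span_singleton_mul.mp hf'
    obtain ⟨y, hy, hgy⟩ := Ideal.mem_span_singleton_mul.mp hg'
    by_cases hu0 : u = 0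
    · subst hu0
      have h0 : f ^ m = 0 := by rw [← hfx, zero_mul]
      have h1 : g ^ m = 0 := by rw [← hgy, zero_mul]
      have hf0 : f = 0 := pow_eq_zero_iff hm |>.mp h0
      have hg0 : g = 0 := pow_eq_zero_iff hm |>.mp h1
      rw [hf0, hg0, add_zero, zero_pow hm]
      exact Ideal.zero_mem _
    rw [add_pow]
    refine Ideal.sum_mem _ fun i hi => ?_
    have hi' : i ≤ m := Nat.lt_succ_iff.mp (Finset.mem_range.mp hi)
    refine Ideal.mul_mem_right _ _ ?_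
    -- `f^i g^(m-i) = u z` with `z ∈ 𝔓`
    obtain ⟨z, hz⟩ : u ∣ f ^ i * g ^ (m - i) :=
      dvd_pow_mul_pow hm (Dvd.intro x hfx) (Dvd.intro y hgy) hi'
    have hzm : z ^ m = x ^ i * y ^ (m - i) := by
      have h1 : (u * z) ^ m = u ^ m * (x ^ i * y ^ (m - i)) := by
        rw [← hz]
        have : (f ^ i * g ^ (m - i)) ^ m = (f ^ m) ^ i * (g ^ m) ^ (m - i) := by ring
        rw [this, ← hfx, ← hgy, mul_pow, mul_pow]
        have hum : u ^ m = u ^ i * u ^ (m - i) := by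
          rw [← pow_add, Nat.add_sub_cancel' hi']
        rw [hum]; ring
      rw [mul_pow] at h1
      exact mul_left_cancel₀ (pow_ne_zero m hu0) h1
    have hzP : z ∈ 𝔓 := by
      apply Ideal.IsPrime.mem_of_pow_mem (inferInstance : 𝔓.IsPrime) m
      rw [hzm]
      by_cases hi0 : i = 0
      · subst hi0
        rw [pow_zero, one_mul, Nat.sub_zero]
        exact Ideal.pow_mem_of_mem _ hy m (Nat.pos_of_ne_zero hm)
      · exact Ideal.mul_mem_right _ _ (Ideal.pow_mem_of_mem _ hx i (Nat.pos_of_ne_zero hi0))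
    rw [hz]
    exact Ideal.mul_mem_mul (Ideal.mem_span_singleton_self u) hzP
  zero_mem' := by
    show (0 : R) ^ m ∈ Ideal.span {u} * 𝔓
    rw [zero_pow hm]
    exact Ideal.zero_mem _
  smul_mem' := by
    intro c f hf
    show (c • f) ^ m ∈ Ideal.span {u} * 𝔓
    rw [smul_eq_mul, mul_pow]
    exact Ideal.mul_mem_left _ _ hf

theorem mem_nonGenIdeal {u : R} {m : ℕ} {hm : m ≠ 0} {𝔓 : Ideal R} [𝔓.IsPrime] {f : R} :
    f ∈ nonGenIdeal u m hm 𝔓 ↔ f ^ m ∈ Ideal.span {u} * 𝔓 := Iff.rfl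

/-- If `f ^ m = u * r` then `f ∈ S_𝔓 ↔ r ∈ 𝔓`. -/
theorem mem_nonGenIdeal_iff_of_eq {u : R} (hu0 : u ≠ 0) {m : ℕ} {hm : m ≠ 0} {𝔓 : Ideal R}
    [𝔓.IsPrime] {f r : R} (hf : f ^ m = u * r) : f ∈ nonGenIdeal u m hm 𝔓 ↔ r ∈ 𝔓 := by
  rw [mem_nonGenIdeal, Ideal.mem_span_singleton_mul]
  constructor
  · rintro ⟨z, hz, hzf⟩
    rw [hf] at hzf
    rwa [← mul_left_cancel₀ hu0 hzf]
  · intro hr
    exact ⟨r, hr, hf.symm⟩

variable [IsNoetherianRing R] [IsLocalRing R]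

omit [IsIntegrallyClosed R] in
/-- Dimension argument: in a local ring in which `𝔪` is the only prime containing `u` and `π`,
there is no chain `u ∈ 𝔓 < 𝔔` of primes with `π ∉ 𝔔`. -/
theorem not_lt_of_mem_of_not_mem {u π : R} (hu0 : u ≠ 0)
    (hπ : π ∈ IsLocalRing.maximalIdeal R)
    (huπ : ∀ 𝔮 : Ideal R, 𝔮.IsPrime → u ∈ 𝔮 → π ∈ 𝔮 → 𝔮 = IsLocalRing.maximalIdeal R)
    {𝔓 𝔔 : Ideal R} [h𝔓 : 𝔓.IsPrime] [h𝔔 : 𝔔.IsPrime] (hu : u ∈ 𝔓) (hπ𝔔 : π ∉ 𝔔) (hlt : 𝔓 < 𝔔) :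
    False := by
  classical
  have hbot : (⊥ : Ideal R) < 𝔓 := by
    rw [bot_lt_iff_ne_bot]
    intro h
    rw [h, Ideal.mem_bot] at hu
    exact hu0 hu
  have h𝔔𝔪 : 𝔔 < IsLocalRing.maximalIdeal R := by
    refine lt_of_le_of_ne (IsLocalRing.le_maximalIdeal h𝔔.ne_top) ?_
    intro h
    rw [h] at hπ𝔔
    exact hπ𝔔 hπ
  have hmin : IsLocalRing.maximalIdeal R ∈ (Ideal.span (({u, π} : Finset R) : Set R)).minimalPrimes := by
    refine ⟨⟨inferInstance, ?_⟩, ?_⟩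
    · rw [Ideal.span_le]
      intro x hx
      simp only [Finset.coe_insert, Finset.coe_singleton, Set.mem_insert_iff,
        Set.mem_singleton_iff] at hx
      rcases hx with rfl | rfl
      · exact (IsLocalRing.le_maximalIdeal h𝔓.ne_top) hu
      · exact hπ
    · rintro 𝔮 ⟨h𝔮, h𝔮le⟩ _
      have h1 : u ∈ 𝔮 := h𝔮le (Ideal.subset_span (by simp))
      have h2 : π ∈ 𝔮 := h𝔮le (Ideal.subset_span (by simp))
      exact (huπ 𝔮 h𝔮 h1 h2).ge
  have hle : (IsLocalRing.maximalIdeal R).height ≤ (({u, π} : Finset R)).card :=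
    Ideal.height_le_card_of_mem_minimalPrimes_span_finset hmin
  have hcard : ((({u, π} : Finset R)).card : ℕ∞) ≤ 2 := by
    exact_mod_cast Finset.card_le_two
  have h1 : (⊥ : Ideal R).height + 1 ≤ 𝔓.height :=
    Ideal.height_add_one_le_of_lt_of_isPrime hbot
  have h2 : 𝔓.height + 1 ≤ 𝔔.height := Ideal.height_add_one_le_of_lt_of_isPrime hlt
  have h3 : 𝔔.height + 1 ≤ (IsLocalRing.maximalIdeal R).height :=
    Ideal.height_add_one_le_of_lt_of_isPrime h𝔔𝔪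
  have h4 : (3 : ℕ∞) ≤ (IsLocalRing.maximalIdeal R).height := by
    calc (3 : ℕ∞) = 0 + 1 + 1 + 1 := by norm_num
      _ ≤ (⊥ : Ideal R).height + 1 + 1 + 1 := by gcongr; exact zero_le
      _ ≤ 𝔓.height + 1 + 1 := by gcongr
      _ ≤ 𝔔.height + 1 := by gcongr
      _ ≤ _ := h3
  have h5 : (3 : ℕ∞) ≤ 2 := h4.trans (hle.trans hcard)
  exact absurd h5 (by norm_num)

/-- Existence of a simultaneous local generator. -/
theorem exists_generator {u π : R} {m : ℕ} (hm : m ≠ 0) (hu0 : u ≠ 0)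
    (hπ : π ∈ IsLocalRing.maximalIdeal R)
    (huπ : ∀ 𝔮 : Ideal R, 𝔮.IsPrime → u ∈ 𝔮 → π ∈ 𝔮 → 𝔮 = IsLocalRing.maximalIdeal R)
    (H1 : ∀ 𝔓 : Ideal R, 𝔓.IsPrime → u ∈ 𝔓 → π ∉ 𝔓 → ∃ f r : R, r ∉ 𝔓 ∧ f ^ m = u * r) :
    ∃ t r : R, ∃ k : ℕ, t ^ m = u * r ∧ π ^ k ∈ Ideal.span {u, r} := by
  classical
  have hfinite : (Ideal.span {u}).minimalPrimes.Finite :=
    Ideal.finite_minimalPrimes_of_isNoetherianRing R _
  set s : Finset (Ideal R) := hfinite.toFinset.filter (fun 𝔓 => π ∉ 𝔓) with hs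
  have hs_mem : ∀ 𝔓, 𝔓 ∈ s ↔ 𝔓 ∈ (Ideal.span {u}).minimalPrimes ∧ π ∉ 𝔓 := by
    intro 𝔓
    rw [hs, Finset.mem_filter, Set.Finite.mem_toFinset]
  have hs_prime : ∀ 𝔓 ∈ s, 𝔓.IsPrime := fun 𝔓 h𝔓 => ((hs_mem 𝔓).mp h𝔓).1.1.1
  have hs_u : ∀ 𝔓 ∈ s, u ∈ 𝔓 := fun 𝔓 h𝔓 =>
    ((hs_mem 𝔓).mp h𝔓).1.1.2 (Ideal.mem_span_singleton_self u)
  -- local generators
  have hex : ∀ 𝔓 : Ideal R, ∃ f r : R, 𝔓 ∈ s → (r ∉ 𝔓 ∧ f ^ m = u * r) := by
    intro 𝔓
    by_cases h𝔓 : 𝔓 ∈ s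
    · obtain ⟨f, r, hr, hf⟩ := H1 𝔓 (hs_prime 𝔓 h𝔓) (hs_u 𝔓 h𝔓) ((hs_mem 𝔓).mp h𝔓).2
      exact ⟨f, r, fun _ => ⟨hr, hf⟩⟩
    · exact ⟨0, 0, fun h => absurd h h𝔓⟩
  choose f r hfr using hex
  -- separating elements
  have hexe : ∀ 𝔓 : Ideal R, ∃ e : R, 𝔓 ∈ s → (e ∉ 𝔓 ∧ ∀ 𝔔 ∈ s, 𝔔 ≠ 𝔓 → e ∈ 𝔔) := by
    intro 𝔓
    by_cases h𝔓 : 𝔓 ∈ s
    · have := hs_prime 𝔓 h𝔓
      have hnle : ¬ (∏ 𝔔 ∈ s.erase 𝔓, 𝔔) ≤ 𝔓 := by
        intro hle
        obtain ⟨𝔔, h𝔔, h𝔔le⟩ := (Ideal.IsPrime.prod_le (hs_prime 𝔓 h𝔓)).mp hle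
        have h𝔔s : 𝔔 ∈ s := Finset.mem_of_mem_erase h𝔔
        have h𝔔ne : 𝔔 ≠ 𝔓 := Finset.ne_of_mem_erase h𝔔
        have hmin𝔓 := ((hs_mem 𝔓).mp h𝔓).1
        have hmin𝔔 := ((hs_mem 𝔔).mp h𝔔s).1
        exact h𝔔ne (le_antisymm h𝔔le (hmin𝔓.2 hmin𝔔.1 h𝔔le))
      obtain ⟨e, he, he'⟩ := SetLike.not_le_iff_exists.mp hnle
      refine ⟨e, fun _ => ⟨he', fun 𝔔 h𝔔 hne => ?_⟩⟩
      have : (∏ 𝔔' ∈ s.erase 𝔓, 𝔔') ≤ 𝔔 :=
        Ideal.prod_le_inf.trans (Finset.inf_le (Finset.mem_erase.mpr ⟨hne, h𝔔⟩))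
      exact this he
    · exact ⟨0, fun h => absurd h h𝔓⟩
  choose e he using hexe
  set t : R := ∑ 𝔓 ∈ s, e 𝔓 * f 𝔓 with ht
  -- `t ∈ I_1`
  have hterm : ∀ 𝔓 ∈ s, e 𝔓 * f 𝔓 ∈ rootIdeal u m hm 1 := by
    intro 𝔓 h𝔓
    refine Ideal.mul_mem_left _ _ ?_
    rw [mem_rootIdeal, pow_one, (hfr 𝔓 h𝔓).2]
    exact Dvd.intro _ rfl
  have htI : t ∈ rootIdeal u m hm 1 := Ideal.sum_mem _ hterm
  obtain ⟨r₀, hr₀⟩ : u ∣ t ^ m := by
    have := htI
    rwa [mem_rootIdeal, pow_one] at this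
  -- `r₀ ∉ 𝔓` for `𝔓 ∈ s`
  have hr₀s : ∀ 𝔓 ∈ s, r₀ ∉ 𝔓 := by
    intro 𝔓 h𝔓 hr𝔓
    have := hs_prime 𝔓 h𝔓
    have h1 : t ∈ nonGenIdeal u m hm 𝔓 := (mem_nonGenIdeal_iff_of_eq hu0 hr₀).mpr hr𝔓
    have h2 : ∀ 𝔔 ∈ s.erase 𝔓, e 𝔔 * f 𝔔 ∈ nonGenIdeal u m hm 𝔓 := by
      intro 𝔔 h𝔔
      have h𝔔s : 𝔔 ∈ s := Finset.mem_of_mem_erase h𝔔
      have h𝔔ne : 𝔔 ≠ 𝔓 := Finset.ne_of_mem_erase h𝔔
      have hmem : e 𝔔 ∈ 𝔓 := (he 𝔔 h𝔔s).2 𝔓 h𝔓 (Ne.symm h𝔔ne)
      have hpow : (e 𝔔 * f 𝔔) ^ m = u * (e 𝔔 ^ m * r 𝔔) := by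
        rw [mul_pow, (hfr 𝔔 h𝔔s).2]; ring
      exact (mem_nonGenIdeal_iff_of_eq hu0 hpow).mpr
        (Ideal.mul_mem_right _ _ (Ideal.pow_mem_of_mem _ hmem m (Nat.pos_of_ne_zero hm)))
    have h3 : e 𝔓 * f 𝔓 ∈ nonGenIdeal u m hm 𝔓 := by
      have hsum : t = e 𝔓 * f 𝔓 + ∑ 𝔔 ∈ s.erase 𝔓, e 𝔔 * f 𝔔 := by
        rw [ht, ← Finset.add_sum_erase s _ h𝔓]
      have : e 𝔓 * f 𝔓 = t - ∑ 𝔔 ∈ s.erase 𝔓, e 𝔔 * f 𝔔 := by rw [hsum]; ring
      rw [this]
      exact Ideal.sub_mem _ h1 (Ideal.sum_mem _ h2)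
    have hpow : (e 𝔓 * f 𝔓) ^ m = u * (e 𝔓 ^ m * r 𝔓) := by
      rw [mul_pow, (hfr 𝔓 h𝔓).2]; ring
    have h4 : e 𝔓 ^ m * r 𝔓 ∈ 𝔓 := (mem_nonGenIdeal_iff_of_eq hu0 hpow).mp h3
    rcases Ideal.IsPrime.mem_or_mem (hs_prime 𝔓 h𝔓) h4 with h | h
    · exact (he 𝔓 h𝔓).1 (Ideal.IsPrime.mem_of_pow_mem (hs_prime 𝔓 h𝔓) m h)
    · exact (hfr 𝔓 h𝔓).1 h
  -- `π ∈ √(u, r₀)`
  have hrad : π ∈ (Ideal.span {u, r₀}).radical := by
    rw [Ideal.radical_eq_sInf, Ideal.mem_sInf]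
    rintro 𝔔 ⟨h𝔔le, h𝔔⟩
    by_contra hπ𝔔
    have hu𝔔 : u ∈ 𝔔 := h𝔔le (Ideal.subset_span (by simp))
    have hr𝔔 : r₀ ∈ 𝔔 := h𝔔le (Ideal.subset_span (by simp))
    have hle : Ideal.span {u} ≤ 𝔔 := by
      rw [Ideal.span_le, Set.singleton_subset_iff]
      exact hu𝔔
    obtain ⟨𝔓, h𝔓min, h𝔓le⟩ := Ideal.exists_minimalPrimes_le hle
    have hπ𝔓 : π ∉ 𝔓 := fun h => hπ𝔔 (h𝔓le h)
    have h𝔓s : 𝔓 ∈ s := (hs_mem 𝔓).mpr ⟨h𝔓min, hπ𝔓⟩
    have := hs_prime 𝔓 h𝔓s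
    have hne : 𝔓 ≠ 𝔔 := by
      intro h
      rw [← h] at hr𝔔
      exact hr₀s 𝔓 h𝔓s hr𝔔
    exact not_lt_of_mem_of_not_mem hu0 hπ huπ (hs_u 𝔓 h𝔓s) hπ𝔔 (lt_of_le_of_ne h𝔓le hne)
  obtain ⟨k, hk⟩ := hrad
  exact ⟨t, r₀, k, hr₀, hk⟩

end Fermat.Agent.A2.H609

end
-- ===== PACK-END A2/H609/Generator.lean

-- ===== PACK-BEGIN A2/H609/Purity.lean
section



/-!
# Node purity, part 7: the abstract purity criterion

`R` a noetherian local integrally closed domain, `π ∈ 𝔪`, `u` regular modulo `π`, `(u, π)`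
`𝔪`-primary, (H1) `m ∣ ord_𝔓 u` at the horizontal primes.  If an ideal `J' ∋ π` contains every
`f` with `f ^ m = u r`, `r ∈ 𝔪`, and `ℓ(R/(u, π)) < m ℓ(R/J')`, then `u = ε f ^ m`.
Mathlib only.
-/

set_option autoImplicit false

namespace Fermat.Agent.A2.H609

open Ideal

variable {R : Type*} [CommRing R] [IsDomain R] [IsIntegrallyClosed R] [IsNoetherianRing R]
  [IsLocalRing R]

/-- The abstract purity criterion (length count). -/
theorem exists_unit_mul_pow_of_relLen {u π : R} {m : ℕ} (hm : m ≠ 0) (hu0 : u ≠ 0)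
    (hπ0 : π ≠ 0) (hπ : π ∈ IsLocalRing.maximalIdeal R)
    (hreg : ∀ x : R, π ∣ u * x → π ∣ x)
    (huπ : ∀ 𝔮 : Ideal R, 𝔮.IsPrime → u ∈ 𝔮 → π ∈ 𝔮 → 𝔮 = IsLocalRing.maximalIdeal R)
    (H1 : ∀ 𝔓 : Ideal R, 𝔓.IsPrime → u ∈ 𝔓 → π ∉ 𝔓 → ∃ f r : R, r ∉ 𝔓 ∧ f ^ m = u * r)
    (J' : Ideal R) (hπJ : π ∈ J')
    (hJ' : ∀ f r : R, f ^ m = u * r → r ∈ IsLocalRing.maximalIdeal R → f ∈ J')
    (B : ℕ) (hB : (B : ℕ∞) ≤ relLen J' (⊤ : Ideal R))
    (hlt : relLen (Ideal.span {u, π}) (⊤ : Ideal R) < (m : ℕ∞) * B) :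
    ∃ (f : R) (ε : Rˣ), u = ε * f ^ m := by
  by_contra hcon
  have hall : ∀ f r : R, f ^ m = u * r → r ∈ IsLocalRing.maximalIdeal R := by
    intro f r hfr
    by_contra hr
    have hr' : IsUnit r := by
      by_contra h
      exact hr ((IsLocalRing.mem_maximalIdeal r).mpr h)
    obtain ⟨ε, rfl⟩ := hr'
    apply hcon
    refine ⟨f, ε⁻¹, ?_⟩
    rw [hfr, mul_comm u, ← mul_assoc, Units.inv_mul, one_mul]
  have hI : rootIdeal u m hm 1 ⊔ Ideal.span {π} ≤ J' := by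
    refine sup_le ?_ ?_
    · intro f hf
      rw [mem_rootIdeal, pow_one] at hf
      obtain ⟨r, hr⟩ := hf
      exact hJ' f r hr (hall f r hr)
    · rw [Ideal.span_singleton_le_iff_mem]
      exact hπJ
  have h1 : (B : ℕ∞) ≤ relLen (rootIdeal u m hm 1 ⊔ Ideal.span {π}) (⊤ : Ideal R) :=
    hB.trans (relLen_mono_left hI le_top)
  obtain ⟨t, r, k, ht, hk⟩ := exists_generator hm hu0 hπ huπ H1
  have hfin : relLen (Ideal.span {u, π}) (⊤ : Ideal R) ≠ ⊤ := by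
    intro h
    rw [h] at hlt
    exact not_top_lt hlt
  have h2 := relLen_span_pair_eq_nsmul (hm := hm) hu0 hπ0 hreg ht hk hfin
  rw [h2, nsmul_eq_mul] at hlt
  exact absurd (mul_le_mul_right h1 (m : ℕ∞)) (not_le.mpr hlt)

end Fermat.Agent.A2.H609

end
-- ===== PACK-END A2/H609/Purity.lean

-- ===== PACK-BEGIN A2/H609/Smooth.lean
section


/-!
# Node purity, part 8: a smooth point of the special fibre

`R` a noetherian local integrally closed domain, `𝔭 = (π)` prime with `R ⧸ 𝔭` a discrete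
valuation ring (so `R` is regular of dimension two, but unique factorisation of regular local
rings is not used).  If `u ∉ 𝔭` satisfies (H1) `m ∣ ord_𝔓 u` at the horizontal primes and (H2)
`u` is a unit times an `m`-th power modulo `𝔭`, then `u = ε f ^ m`.  Mathlib only.
-/

set_option autoImplicit false

namespace Fermat.Agent.A2.H609

open Ideal

section BranchLength

variable {R : Type*} [CommRing R] [IsLocalRing R]
variable (𝔭 : Ideal R) [𝔭.IsPrime] [IsDiscreteValuationRing (R ⧸ 𝔭)]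

/-- `𝔪 = (x) + 𝔭` for a uniformiser `x` modulo `𝔭`. -/
theorem maximalIdeal_le_span_sup {x : R} (hx : Irreducible (Ideal.Quotient.mk 𝔭 x)) :
    IsLocalRing.maximalIdeal R ≤ Ideal.span {x} ⊔ 𝔭 := by
  intro s hs
  obtain ⟨g, hg⟩ := exists_sub_mul_mem_of_mem_maximalIdeal 𝔭 hx hs
  have h : s = x * g + (s - x * g) := by ring
  rw [h]
  exact Ideal.add_mem _ (Ideal.mem_sup_left (Ideal.mem_span_singleton.mpr (Dvd.intro g rfl)))
    (Ideal.mem_sup_right hg)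

/-- `ℓ(R / ((x ^ k) + 𝔭)) = k` for a uniformiser `x` modulo `𝔭`. -/
theorem relLen_branch_pow {x : R} (hx : Irreducible (Ideal.Quotient.mk 𝔭 x)) (k : ℕ) :
    relLen (Ideal.span {x ^ k} ⊔ 𝔭) (⊤ : Ideal R) = k := by
  have h := relLen_pow_chain 𝔭 hx 𝔭 le_rfl 0 ?_ k
  · rw [zero_add, pow_zero, Ideal.span_singleton_one, top_sup_eq] at h
    exact h
  · intro n _ s hs
    obtain ⟨g, hg⟩ := exists_sub_mul_mem_of_mem_maximalIdeal 𝔭 hx hs
    have h : s * x ^ n = x ^ (n + 1) * g + (s - x * g) * x ^ n := by ring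
    rw [h]
    exact Ideal.add_mem _
      (Ideal.mem_sup_left (Ideal.mem_span_singleton.mpr (Dvd.intro g rfl)))
      (Ideal.mem_sup_right (𝔭.mul_mem_right _ hg))

omit [IsLocalRing R] [IsDiscreteValuationRing (R ⧸ 𝔭)] [𝔭.IsPrime] in
/-- A prime containing `𝔭` and `u ≡ ε x ^ n` contains `x`. -/
theorem mem_of_le_of_mk_eq {x u : R} {n : ℕ} {ε : (R ⧸ 𝔭)ˣ}
    (hu : Ideal.Quotient.mk 𝔭 u = ε * (Ideal.Quotient.mk 𝔭 x) ^ n)
    {𝔮 : Ideal R} (h𝔮 : 𝔮.IsPrime) (hle : 𝔭 ≤ 𝔮) (hu𝔮 : u ∈ 𝔮) : x ∈ 𝔮 := by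
  obtain ⟨e, he⟩ := exists_pow_sub_mul_mem 𝔭 hu
  refine h𝔮.mem_of_pow_mem n ?_
  have h : x ^ n = (x ^ n - u * e) + u * e := by ring
  rw [h]
  exact 𝔮.add_mem (hle he) (𝔮.mul_mem_right _ hu𝔮)

end BranchLength

variable {R : Type*} [CommRing R] [IsDomain R] [IsIntegrallyClosed R] [IsNoetherianRing R]
  [IsLocalRing R]

/-- **Purity at a smooth point of the special fibre.** -/
theorem exists_unit_mul_pow_of_smooth {u π : R} {m : ℕ} (hm : m ≠ 0) (hπ0 : π ≠ 0)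
    (𝔭 : Ideal R) [𝔭.IsPrime] [IsDiscreteValuationRing (R ⧸ 𝔭)] (h𝔭 : 𝔭 = Ideal.span {π})
    (hu : u ∉ 𝔭)
    (H1 : ∀ 𝔓 : Ideal R, 𝔓.IsPrime → u ∈ 𝔓 → π ∉ 𝔓 → ∃ f r : R, r ∉ 𝔓 ∧ f ^ m = u * r)
    (H2 : ∃ v : R ⧸ 𝔭, Associated (v ^ m) (Ideal.Quotient.mk 𝔭 u)) :
    ∃ (f : R) (ε : Rˣ), u = ε * f ^ m := by
  have hπ𝔭 : π ∈ 𝔭 := by
    rw [h𝔭]
    exact Ideal.mem_span_singleton_self π
  have h𝔭𝔪 : 𝔭 ≤ IsLocalRing.maximalIdeal R :=
    IsLocalRing.le_maximalIdeal (Ideal.IsPrime.ne_top inferInstance)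
  have hu0 : u ≠ 0 := by
    rintro rfl
    exact hu 𝔭.zero_mem
  obtain ⟨ϖ, hϖ⟩ := IsDiscreteValuationRing.exists_irreducible (R ⧸ 𝔭)
  obtain ⟨x, rfl⟩ := Ideal.Quotient.mk_surjective ϖ
  obtain ⟨a, ε, hε⟩ := exists_mk_eq_unit_mul_pow 𝔭 hϖ hm hu H2
  have h𝔪 := maximalIdeal_le_span_sup 𝔭 hϖ
  have hreg : ∀ z : R, π ∣ u * z → π ∣ z := by
    intro z hz
    have h1 : u * z ∈ 𝔭 := by
      rw [h𝔭]
      exact Ideal.mem_span_singleton.mpr hz
    rcases Ideal.IsPrime.mem_or_mem inferInstance h1 with h | h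
    · exact absurd h hu
    · rw [h𝔭] at h
      exact Ideal.mem_span_singleton.mp h
  have huπ : ∀ 𝔮 : Ideal R, 𝔮.IsPrime → u ∈ 𝔮 → π ∈ 𝔮 →
      𝔮 = IsLocalRing.maximalIdeal R := by
    intro 𝔮 h𝔮 hu𝔮 hπ𝔮
    have hle : 𝔭 ≤ 𝔮 := by
      rw [h𝔭, Ideal.span_singleton_le_iff_mem]
      exact hπ𝔮
    have hx𝔮 : x ∈ 𝔮 := mem_of_le_of_mk_eq 𝔭 hε h𝔮 hle hu𝔮
    refine le_antisymm (IsLocalRing.le_maximalIdeal h𝔮.ne_top) (h𝔪.trans ?_)
    exact sup_le ((Ideal.span_singleton_le_iff_mem _).mpr hx𝔮) hle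
  refine exists_unit_mul_pow_of_relLen hm hu0 hπ0 (h𝔭𝔪 hπ𝔭) hreg huπ H1
    (Ideal.span {x ^ (a + 1)} ⊔ 𝔭) (Ideal.mem_sup_right hπ𝔭) ?_ (a + 1) ?_ ?_
  · intro f r hf hr
    obtain ⟨g, hg⟩ := exists_sub_pow_succ_mul_mem 𝔭 hϖ hε hf hr
    have h : f = x ^ (a + 1) * g + (f - x ^ (a + 1) * g) := by ring
    rw [h]
    exact Ideal.add_mem _
      (Ideal.mem_sup_left (Ideal.mem_span_singleton.mpr (Dvd.intro g rfl)))
      (Ideal.mem_sup_right hg)
  · rw [relLen_branch_pow 𝔭 hϖ (a + 1)]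
  · have hle : Ideal.span {x ^ (m * a)} ⊔ 𝔭 ≤ Ideal.span {u, π} := by
      refine sup_le ?_ ?_
      · rw [Ideal.span_singleton_le_iff_mem]
        obtain ⟨e, he⟩ := exists_pow_sub_mul_mem 𝔭 hε
        rw [h𝔭, Ideal.mem_span_singleton] at he
        obtain ⟨c, hc⟩ := he
        have h : x ^ (m * a) = e * u + c * π := by
          have : x ^ (m * a) = (x ^ (m * a) - u * e) + u * e := by ring
          rw [this, hc]
          ring
        rw [h]
        exact Ideal.add_mem _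
          (Ideal.mul_mem_left _ _ (Ideal.subset_span (by simp)))
          (Ideal.mul_mem_left _ _ (Ideal.subset_span (by simp)))
      · rw [h𝔭, Ideal.span_singleton_le_iff_mem]
        exact Ideal.subset_span (by simp)
    have h1 : relLen (Ideal.span {u, π}) (⊤ : Ideal R) ≤ ((m * a : ℕ) : ℕ∞) := by
      rw [← relLen_branch_pow 𝔭 hϖ (m * a)]
      exact relLen_mono_left hle le_top
    refine lt_of_le_of_lt h1 ?_
    have h2 : m * a < m * (a + 1) := by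
      have : 0 < m := Nat.pos_of_ne_zero hm
      nlinarith
    exact_mod_cast h2

end Fermat.Agent.A2.H609

end
-- ===== PACK-END A2/H609/Smooth.lean

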