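import Mathlib
import Fermat.Prelude.Def_FLTPrelim_GaloisRep
import Fermat.Prelude.Def_FLTPrelim_FreyPackage
import Mathlib.RingTheory.AdjoinRoot
import Fermat.Agent.Pack.S58.E2L2
import Fermat.Agent.Pack.S58.E1L2
import Fermat.Agent.Pack.S58.E2L1
import Fermat.Agent.Pack.S58.E2L3
import Fermat.Agent.Pack.S36.E6L3
import Fermat.Agent.Pack.S36.E8L1
import Fermat.Agent.Pack.S36.E10L0
import Fermat.Agent.Pack.S36.E13L3
import Fermat.Agent.Pack.S36.E0L1
import Fermat.Agent.Pack.S36.E7L2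
import Fermat.Agent.Pack.S58.E1L1
import Fermat.Agent.Pack.S58.E0L2
import Fermat.Agent.Pack.S36.E9L1
import Fermat.Agent.Pack.S36.E4L3
import Fermat.Agent.Pack.S36.E4L2
import Fermat.Agent.Pack.S58.E1L3
import Fermat.Agent.Pack.S36.E11L1
import Fermat.Agent.Pack.S58.E2L0
import Fermat.Agent.Pack.S58.E0L1
import Fermat.Agent.Pack.S58.E0L0
import Fermat.Agent.Pack.S36.E7L3

-- ===== PACK-BEGIN S59/H240/Unip.lean
section




/-!
# S59 / CR-I (helper240): inertia is unipotent on the torsion at a prime of multiplicative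
reduction (finite level, abstract form)

Setting of `Fermat.Agent.S05.GoodRed`: `W'` a Weierstrass curve over `R`, `K` an algebraically
closed field with a valuation `v`, `σ τ : K ≃ₐ[S] K` acting trivially on the residue field of `v`
(and `σ` preserving `v`).  If the base change of `W'` to `K` has `v`-integral coefficients,
`v c₄ = 1` and `Δ ≠ 0`, and the kernel of reduction has no `n`-torsion, then for every
`n`-torsion point `P`

  `τ • (σ • P - P) = σ • P - P`       (`smul_sub_fixed_of_mult`),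

in particular `(σ - 1)² P = 0`       (`sub_one_sq_of_mult`).

Proof: `P` and `σ P` have the same invariants `rad`, and their directions at the node agree
modulo the maximal ideal, hence `σ P - P ∈ E₀` by `sub_inE0`; a torsion point of `E₀` has
nonsingular reduction, hence is fixed by `τ` (`GoodRed.smul_eq_self_of_nonsingular_reduction`).
-/

set_option autoImplicit false
set_option linter.unusedSectionVars false
set_option linter.unusedVariables false

namespace Fermat.Agent.S59.H240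

open WeierstrassCurve WeierstrassCurve.Affine
open Fermat.Agent.S05.SameRed (IntegralCoeffs InKer)
open Fermat.Agent.S05

section galois

variable {R S K : Type*} [CommRing R] [CommRing S] [Field K] [DecidableEq K]
  [Algebra R S] [Algebra R K] [Algebra S K] [IsScalarTower R S K]
  {Γ₀ : Type*} [LinearOrderedCommGroupWithZero Γ₀]
  {W' : Affine R} {v : Valuation K Γ₀}

omit [DecidableEq K] in
lemma algEquiv_algebraMap_fix (σ : K ≃ₐ[S] K) (r : R) :
    σ (algebraMap R K r) = algebraMap R K r := by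
  rw [IsScalarTower.algebraMap_apply R S K, AlgEquiv.commutes]

omit [DecidableEq K] in
lemma apply_gX (σ : K ≃ₐ[S] K) (x y : K) :
    σ (gX (W'⁄K) x y) = gX (W'⁄K) (σ x) (σ y) := by
  simp only [gX, WeierstrassCurve.baseChange, WeierstrassCurve.map_a₁, WeierstrassCurve.map_a₂,
    WeierstrassCurve.map_a₄, map_sub, map_mul, map_add, map_pow, map_ofNat,
    algEquiv_algebraMap_fix]

omit [DecidableEq K] in
lemma apply_gY (σ : K ≃ₐ[S] K) (x y : K) :
    σ (gY (W'⁄K) x y) = gY (W'⁄K) (σ x) (σ y) := by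
  simp only [gY, WeierstrassCurve.baseChange, WeierstrassCurve.map_a₁, WeierstrassCurve.map_a₃,
    map_mul, map_add, map_ofNat, algEquiv_algebraMap_fix]

omit [DecidableEq K] in
lemma rad_apply (σ : K ≃ₐ[S] K) (hσv : ∀ t : K, v (σ t) = v t) (x y : K) :
    rad (W'⁄K) v (σ x) (σ y) = rad (W'⁄K) v x y := by
  unfold rad
  rw [← apply_gX, ← apply_gY, hσv, hσv]

omit [DecidableEq K] in
/-- The directions of `(G, H)` and `(σ G, σ H)` agree modulo the maximal ideal. -/
lemma val_cross_lt (σ : K ≃ₐ[S] K) (hσ : ∀ t : K, v t ≤ 1 → v (σ t - t) < 1)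
    (hσv : ∀ t : K, v (σ t) = v t) {G H : K} (h0 : G ≠ 0 ∨ H ≠ 0) :
    v (G * σ H - σ G * H) < max (v G) (v H) * max (v G) (v H) := by
  rcases le_total (v G) (v H) with hle | hle
  · have hH0 : H ≠ 0 := by
      rintro rfl
      rw [map_zero] at hle
      have hG : G = 0 := (map_eq_zero v).mp (le_antisymm hle zero_le)
      rcases h0 with h | h
      · exact h hG
      · exact h rfl
    rw [max_eq_right hle]
    have hvH : 0 < v H := (Valuation.pos_iff v).mpr hH0
    obtain ⟨g, hg⟩ : ∃ g : K, g = G / H := ⟨_, rfl⟩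
    have hgv : v g ≤ 1 := by rw [hg, map_div₀]; exact (div_le_one₀ hvH).mpr hle
    have hG : G = g * H := by rw [hg]; field_simp
    have e : G * σ H - σ G * H = -((σ g - g) * (H * σ H)) := by
      rw [hG, map_mul]; ring
    rw [e, Valuation.map_neg, map_mul, map_mul, hσv]
    exact mul_lt_of_lt_one_left (mul_pos hvH hvH) (hσ g hgv)
  · have hG0 : G ≠ 0 := by
      rintro rfl
      rw [map_zero] at hle
      have hH : H = 0 := (map_eq_zero v).mp (le_antisymm hle zero_le)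
      rcases h0 with h | h
      · exact h rfl
      · exact h hH
    rw [max_eq_left hle]
    have hvG : 0 < v G := (Valuation.pos_iff v).mpr hG0
    obtain ⟨g, hg⟩ : ∃ g : K, g = H / G := ⟨_, rfl⟩
    have hgv : v g ≤ 1 := by rw [hg, map_div₀]; exact (div_le_one₀ hvG).mpr hle
    have hH : H = g * G := by rw [hg]; field_simp
    have e : G * σ H - σ G * H = (σ g - g) * (G * σ G) := by
      rw [hH, map_mul]; ring
    rw [e, map_mul, map_mul, hσv]
    exact mul_lt_of_lt_one_left (mul_pos hvG hvG) (hσ g hgv)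

omit [DecidableEq K] in
lemma val_gX_le_one (hW : IntegralCoeffs (W'⁄K) v) {x y : K} (hx : v x ≤ 1) (hy : v y ≤ 1) :
    v (gX (W'⁄K) x y) ≤ 1 := by
  unfold gX
  refine vsub_le (vmul_le_one hW.a₁ hy) (vadd_le (vadd_le ?_ ?_) hW.a₄)
  · exact vmul_le_one vthree_le_one (vpow_le_one hx 2)
  · exact vmul_le_one (vmul_le_one vtwo_le_one hW.a₂) hx

omit [DecidableEq K] in
lemma val_gY_le_one (hW : IntegralCoeffs (W'⁄K) v) {x y : K} (hx : v x ≤ 1) (hy : v y ≤ 1) :
    v (gY (W'⁄K) x y) ≤ 1 := by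
  unfold gY
  exact vadd_le (vadd_le (vmul_le_one vtwo_le_one hy) (vmul_le_one hW.a₁ hx)) hW.a₃

/-- `σ P - P` lies in `E₀` for a torsion point `P`. -/
theorem smul_sub_inE0 [IsAlgClosed K] (h2 : (2 : K) ≠ 0)
    (hW : IntegralCoeffs (W'⁄K) v) (hc₄ : v (W'⁄K).c₄ = 1) (hΔ : (W'⁄K).Δ ≠ 0)
    (σ : K ≃ₐ[S] K) (hσ : ∀ t : K, v t ≤ 1 → v (σ t - t) < 1) (hσv : ∀ t : K, v (σ t) = v t)
    (n : ℤ) (hC1 : ∀ Q : (W'⁄K).Point, InKer (W'⁄K) v Q → n • Q = 0 → Q = 0)
    (P : (W'⁄K).Point) (hP : n • P = 0) : InE0 (W'⁄K) v (σ • P - P) := by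
  rcases P with _ | ⟨x, y, h⟩
  · have e : σ • (Point.zero : (W'⁄K).Point) - Point.zero = 0 := by
      change σ • (0 : (W'⁄K).Point) - 0 = 0
      rw [smul_zero, sub_zero]
    rw [e]
    exact inE0_zero _
  · have hx : v x ≤ 1 := by
      by_contra hx
      rw [not_le] at hx
      exact Point.some_ne_zero h (hC1 _ ((SameRed.inKer_some h).mpr hx) hP)
    have hy : v y ≤ 1 := GoodRed.val_y_le_one hW h.1 hx
    have hGle := val_gX_le_one hW hx hy
    have hHle := val_gY_le_one hW hx hy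
    by_cases hrad : rad (W'⁄K) v x y < 1
    · rw [GoodRed.smul_some]
      refine sub_inE0 h2 hW hc₄ hΔ h _ hx hy (by rw [hσv]; exact hx) hrad
        (rad_apply σ hσv x y) ?_
      rw [← apply_gX, ← apply_gY]
      refine val_cross_lt σ hσ hσv ?_
      -- the point is nonsingular
      have hns := (Affine.nonsingular_iff' x y).mp h
      by_contra hcon
      rw [not_or, not_not, not_not] at hcon
      rcases hns.2 with h1 | h1
      · apply h1
        have := hcon.1
        unfold gX at this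
        linear_combination this
      · apply h1
        have := hcon.2
        unfold gY at this
        linear_combination this
    · -- nonsingular reduction: `σ P = P`
      have hns : v (gX (W'⁄K) x y) = 1 ∨ v (gY (W'⁄K) x y) = 1 := by
        by_contra hcon
        rw [not_or] at hcon
        exact hrad (max_lt (lt_of_le_of_ne hGle hcon.1) (lt_of_le_of_ne hHle hcon.2))
      have := GoodRed.smul_eq_self_of_nonsingular_reduction hW σ hσ n hC1 h hx hns hP
      rw [this, sub_self]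
      exact inE0_zero _

/-- A torsion point of `E₀` is fixed by the inertia group. -/
theorem smul_eq_self_of_inE0 (hW : IntegralCoeffs (W'⁄K) v)
    (τ : K ≃ₐ[S] K) (hτ : ∀ t : K, v t ≤ 1 → v (τ t - t) < 1)
    (n : ℤ) (hC1 : ∀ Q : (W'⁄K).Point, InKer (W'⁄K) v Q → n • Q = 0 → Q = 0)
    (Q : (W'⁄K).Point) (hQ0 : InE0 (W'⁄K) v Q) (hQ : n • Q = 0) : τ • Q = Q := by
  rcases Q with _ | ⟨x, y, h⟩
  · exact smul_zero τ
  · have hx : v x ≤ 1 := by
      by_contra hx
      rw [not_le] at hx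
      exact Point.some_ne_zero h (hC1 _ ((SameRed.inKer_some h).mpr hx) hQ)
    rw [inE0_some] at hQ0
    exact GoodRed.smul_eq_self_of_nonsingular_reduction hW τ hτ n hC1 h hx
      (hQ0.resolve_left (not_lt.mpr hx)) hQ

/-- **CR-I, abstract form.**  At a place of multiplicative reduction, `(τ - 1)(σ - 1) = 0` on
the torsion prime to the residue characteristic, for `σ`, `τ` in the inertia group. -/
theorem smul_sub_fixed_of_mult [IsAlgClosed K] (h2 : (2 : K) ≠ 0)
    (hW : IntegralCoeffs (W'⁄K) v) (hc₄ : v (W'⁄K).c₄ = 1) (hΔ : (W'⁄K).Δ ≠ 0)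
    (σ τ : K ≃ₐ[S] K)
    (hσ : ∀ t : K, v t ≤ 1 → v (σ t - t) < 1) (hσv : ∀ t : K, v (σ t) = v t)
    (hτ : ∀ t : K, v t ≤ 1 → v (τ t - t) < 1)
    (n : ℤ) (hC1 : ∀ Q : (W'⁄K).Point, InKer (W'⁄K) v Q → n • Q = 0 → Q = 0)
    (P : (W'⁄K).Point) (hP : n • P = 0) : τ • (σ • P - P) = σ • P - P := by
  refine smul_eq_self_of_inE0 hW τ hτ n hC1 _
    (smul_sub_inE0 h2 hW hc₄ hΔ σ hσ hσv n hC1 P hP) ?_
  rw [smul_sub, ← Point.algEquiv_smul_zsmul, hP, smul_zero, sub_zero]

/-- **CR-I, abstract form**: `(σ - 1)² = 0` on the torsion. -/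
theorem sub_one_sq_of_mult [IsAlgClosed K] (h2 : (2 : K) ≠ 0)
    (hW : IntegralCoeffs (W'⁄K) v) (hc₄ : v (W'⁄K).c₄ = 1) (hΔ : (W'⁄K).Δ ≠ 0)
    (σ : K ≃ₐ[S] K)
    (hσ : ∀ t : K, v t ≤ 1 → v (σ t - t) < 1) (hσv : ∀ t : K, v (σ t) = v t)
    (n : ℤ) (hC1 : ∀ Q : (W'⁄K).Point, InKer (W'⁄K) v Q → n • Q = 0 → Q = 0)
    (P : (W'⁄K).Point) (hP : n • P = 0) :
    σ • σ • P - (2 : ℤ) • σ • P + (1 : ℤ) • P = 0 := by
  have key := smul_sub_fixed_of_mult h2 hW hc₄ hΔ σ σ hσ hσv hσ n hC1 P hP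
  rw [smul_sub] at key
  rw [one_smul, two_smul]
  have e : σ • σ • P - (σ • P + σ • P) + P = (σ • σ • P - σ • P) - (σ • P - P) := by abel
  rw [e, key, sub_self]

end galois

end Fermat.Agent.S59.H240

end
-- ===== PACK-END S59/H240/Unip.lean

-- ===== PACK-BEGIN Lib/Newform/H23/MultOne.lean
section


/-!
# NEWFORM library (helper23) — same-level multiplicity one, from the main lemma

`multOne_of : MainLemma → MultOne` and `multOneEigen_of : MainLemma → MultOneEigen`
(hypothesis-parametrised assembly; `OldEigen`, `EigenT` are already proved).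
-/

set_option autoImplicit false

open CongruenceSubgroup ModularFormClass ModularForm UpperHalfPlane

namespace Fermat.Agent.Lib.Newform.H23

open Fermat.Agent.Lib.Newform

/-- `EigenT` (adapter around helper683's E1). -/
theorem eigenT : H958.EigenT :=
  fun _ _ hg _ hp hpN => H683.heckeTLin_eq_of_eigenform hg hp hpN

/-- `EigenU` (adapter around helper683's E1). -/
theorem eigenU : H958.EigenU :=
  fun _ _ _ hg _ hp hpN => H683.heckeULin_eq_of_eigenform hg hp hpN

/-- A good eigenvector with `a_1 = 0` has `a_n = 0` for all `n` prime to the level. -/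
theorem qCoeff_eq_zero_of_coprime {N : ℕ} (h : CuspForm (Gamma0 N) 2) (a : ℕ → ℂ)
    (heig : ∀ ℓ : ℕ, ℓ.Prime → ¬ ℓ ∣ N → heckeT 2 ℓ ⇑h = a ℓ • ⇑h)
    (h1 : qCoeff ⇑h 1 = 0) : ∀ n : ℕ, n.Coprime N → qCoeff ⇑h n = 0 := by
  intro n
  induction n using Nat.strong_induction_on with
  | _ n ih =>
    intro hcop
    rcases Nat.eq_zero_or_pos n with rfl | hn
    · exact H683.qCoeff_zero_cusp 2 h
    rcases Nat.eq_or_lt_of_le (Nat.succ_le_of_lt hn) with h' | h'
    · rw [← h']; exact h1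
    · have hn1 : n ≠ 1 := by omega
      obtain ⟨p, hp, hpn⟩ := Nat.exists_prime_and_dvd hn1
      obtain ⟨m, rfl⟩ := hpn
      have hm : 0 < m := Nat.pos_of_ne_zero (by rintro rfl; simp at hn)
      have hlt : m < p * m := by
        have := hp.one_lt
        nlinarith
      have hpN : ¬ p ∣ N := by
        intro hdvd
        have h2 : p ∣ Nat.gcd (p * m) N := Nat.dvd_gcd (dvd_mul_right p m) hdvd
        rw [hcop.gcd_eq_one] at h2
        exact hp.one_lt.ne' (Nat.dvd_one.mp h2)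
      have hmcop : m.Coprime N := Nat.Coprime.coprime_dvd_left (dvd_mul_left m p) hcop
      have := H683.coeff_of_heckeT_eq h hp (a p) (heig p hp hpN) m
      rw [ih m hlt hmcop, mul_zero] at this
      rw [mul_comm p m]
      by_cases hpm : p ∣ m
      · have hdiv : (m / p).Coprime N :=
          Nat.Coprime.coprime_dvd_left (Nat.div_dvd_of_dvd hpm) hmcop
        rw [if_pos hpm, ih (m / p) (lt_of_le_of_lt (Nat.div_le_self m p) hlt) hdiv, mul_zero,
          add_zero] at this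
        exact this
      · rw [if_neg hpm, add_zero] at this
        exact this

/-- **MULT-ONE** from the main lemma. -/
theorem multOne_of (hML : MainLemma) : MultOne := by
  intro N _ f hf h heig
  by_contra hne
  set h' : CuspForm (Gamma0 N) 2 := h - qCoeff ⇑h 1 • f with hh'
  have hh'0 : h' ≠ 0 := fun h0 => hne (sub_eq_zero.mp h0)
  have hfeig : ∀ (ℓ : ℕ) (hℓ : ℓ.Prime) (hℓN : ¬ ℓ ∣ N),
      CuspForm.heckeTLin 2 hℓ hℓN f = qCoeff ⇑f ℓ • f :=
    fun ℓ hℓ hℓN => H683.heckeTLin_eq_of_eigenform hf.1 hℓ hℓN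
  have hh'eig : ∀ (ℓ : ℕ) (hℓ : ℓ.Prime) (hℓN : ¬ ℓ ∣ N),
      CuspForm.heckeTLin 2 hℓ hℓN h' = qCoeff ⇑f ℓ • h' := by
    intro ℓ hℓ hℓN
    rw [hh', map_sub, map_smul, heig ℓ hℓ hℓN, hfeig ℓ hℓ hℓN, smul_sub, smul_comm]
  have hh'1 : qCoeff ⇑h' 1 = 0 := by
    rw [hh', H683.qCoeff_sub_cusp, H683.qCoeff_smul_cusp, hf.1.qCoeff_one, mul_one, sub_self]
  have hvanish : ∀ n : ℕ, n.Coprime N → qCoeff ⇑h' n = 0 := by
    apply qCoeff_eq_zero_of_coprime h' (fun ℓ => qCoeff ⇑f ℓ) _ hh'1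
    intro ℓ hℓ hℓN
    have := congrArg (fun F : CuspForm (Gamma0 N) 2 => (⇑F : ℍ → ℂ)) (hh'eig ℓ hℓ hℓN)
    simpa using this
  obtain ⟨p, hp, hpN, G, hG, hGa⟩ :=
    _root_.Fermat.Agent.Lib.Newform.H23.oldEigen N h' hh'0 (fun ℓ => qCoeff ⇑f ℓ) hh'eig (hML N h' hvanish)
  have hN : N ≠ 0 := NeZero.ne N
  exact hf.2 (N / p) (Nat.div_dvd_of_dvd hpN)
    (Nat.div_lt_self (Nat.pos_of_ne_zero hN) hp.one_lt).ne ⟨G, hG, hGa⟩

/-- **MULT-ONE'** from **MULT-ONE**. -/
theorem multOneEigen_of (hM : MultOne) : MultOneEigen := by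
  intro N _ f g hf hg hfg
  have := hM N f hf g (fun ℓ hℓ hℓN => by
    rw [H683.heckeTLin_eq_of_eigenform hg hℓ hℓN, hfg ℓ hℓ hℓN])
  rw [hg.qCoeff_one, one_smul] at this
  exact this

end Fermat.Agent.Lib.Newform.H23

end
-- ===== PACK-END Lib/Newform/H23/MultOne.lean

-- ===== PACK-BEGIN Lib/Newform/H23/QNew.lean
section



/-!
# NEWFORM library (helper23) — the `q`-new kernel, from `TraceAL`

`qNewKernel_of : TraceAL → QNewKernel`; light versions of `Occurs`, `Incl`, `Stab`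
(closure: Mathlib + Prelude + `H683` + `H958.Spec/MainOf` only).
-/

set_option autoImplicit false

open CongruenceSubgroup ModularFormClass ModularForm UpperHalfPlane

namespace Fermat.Agent.Lib.Newform.H23

open Fermat.Agent.Lib.Newform

/-- `Occurs` (light adapter around helper683's E2). -/
theorem occurs : H958.Occurs := by
  intro M _ h hh P a heig
  exact H683.exists_normalizedEigenform_of_eigenvector (M := M) (fun ℓ => ℓ ∈ P) a h hh
    (fun ℓ hℓ hℓM hP => by
      have := congrArg (fun F : CuspForm (Gamma0 M) 2 => (⇑F : ℍ → ℂ)) (heig ℓ hℓ hℓM hP)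
      simpa using this)

theorem gamma0_le_gamma0_of_dvd {M C : ℕ} (h : M ∣ C) : Gamma0 C ≤ Gamma0 M := by
  intro γ hγ
  rw [Gamma0_mem] at hγ ⊢
  exact (ZMod.intCast_zmod_eq_zero_iff_dvd _ _).mpr
    ((Int.natCast_dvd_natCast.mpr h).trans ((ZMod.intCast_zmod_eq_zero_iff_dvd _ _).mp hγ))

/-- Level inclusion `S(M) → S(C)`, `M ∣ C`, as a linear map. -/
noncomputable def inclLin {M C : ℕ} (hMC : M ∣ C) :
    CuspForm (Gamma0 M) 2 →ₗ[ℂ] CuspForm (Gamma0 C) 2 where
  toFun g :=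
    { toFun := ⇑g
      slash_action_eq' := fun γ hγ => SlashInvariantFormClass.slash_action_eq g γ
        (Subgroup.map_mono (gamma0_le_gamma0_of_dvd hMC) hγ)
      holo' := CuspFormClass.holo g
      zero_at_cusps' := fun hc => CuspFormClass.zero_at_cusps g
        (hc.mono (Subgroup.map_mono (gamma0_le_gamma0_of_dvd hMC))) }
  map_add' _ _ := rfl
  map_smul' _ _ := rfl

@[simp] theorem coe_inclLin {M C : ℕ} (hMC : M ∣ C) (g : CuspForm (Gamma0 M) 2) :
    (⇑(inclLin hMC g) : ℍ → ℂ) = ⇑g := rfl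

/-- `Incl` (light). -/
theorem incl : H958.Incl := fun _ _ hMC g => ⟨inclLin hMC g, rfl⟩

/-- `Descent`. -/
theorem descent : H958.Descent := H958.descent

/-- `Stab`. -/
theorem stab : H958.Stab := H958.stab_of _root_.Fermat.Agent.Lib.Newform.H23.eigenT _root_.Fermat.Agent.Lib.Newform.H23.incl _root_.Fermat.Agent.Lib.Newform.H23.occurs

/-- The unique cusp form with a given underlying function, as a linear map, when every function
in the image of a linear map `Φ` (into functions) is the underlying function of a cusp form. -/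
theorem exists_linearMap_of_coe {N M : ℕ} (Φ : CuspForm (Gamma0 N) 2 → (ℍ → ℂ))
    (hadd : ∀ f f', Φ (f + f') = Φ f + Φ f') (hsmul : ∀ (c : ℂ) f, Φ (c • f) = c • Φ f)
    (hex : ∀ f, ∃ g : CuspForm (Gamma0 M) 2, (⇑g : ℍ → ℂ) = Φ f) :
    ∃ t : CuspForm (Gamma0 N) 2 →ₗ[ℂ] CuspForm (Gamma0 M) 2, ∀ f, (⇑(t f) : ℍ → ℂ) = Φ f := by
  choose t ht using hex
  refine ⟨{ toFun := t, map_add' := ?_, map_smul' := ?_ }, ht⟩
  · intro f f'
    apply DFunLike.coe_injective
    rw [ht, FunLike.coe_add, ht, ht, hadd]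
  · intro c f
    apply DFunLike.coe_injective
    rw [ht, RingHom.id_apply, FunLike.coe_smul, ht, hsmul]

/-- **Q-NEW-KERNEL** from `TraceAL`. -/
theorem qNewKernel_of (hT : H958.TraceAL) : QNewKernel := by
  intro N q _ hq hqN hq2
  obtain ⟨W, hWT, hTr, hTr'⟩ := hT N q hq hqN hq2
  have hper := CongruenceSubgroup.one_mem_strictPeriods_Gamma0 N
  obtain ⟨tr, htr⟩ := exists_linearMap_of_coe (N := N) (M := N / q)
    (fun f => ⇑f + heckeU 2 q ⇑(W f))
    (fun f f' => by
      simp only [map_add, FunLike.coe_add, heckeU_add]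
      abel)
    (fun c f => by
      simp only [map_smul, FunLike.coe_smul, heckeU_smul, smul_add])
    hTr
  obtain ⟨tr', htr'⟩ := exists_linearMap_of_coe (N := N) (M := N / q)
    (fun f => ⇑(W f) + heckeU 2 q ⇑f)
    (fun f f' => by
      simp only [map_add, FunLike.coe_add, heckeU_add]
      abel)
    (fun c f => by
      simp only [map_smul, FunLike.coe_smul, heckeU_smul, smul_add])
    hTr'
  have hcop : ∀ ℓ : ℕ, ℓ.Prime → ¬ ℓ ∣ N → Nat.Coprime ℓ q := by
    intro ℓ hℓ hℓN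
    rw [Nat.coprime_primes hℓ hq]
    rintro rfl
    exact hℓN hqN
  -- `tr`, `tr'` commute with `T_ℓ` at the level of functions
  have htrT : ∀ (ℓ : ℕ) (hℓ : ℓ.Prime) (hℓN : ¬ ℓ ∣ N) (f : CuspForm (Gamma0 N) 2),
      (⇑(tr (CuspForm.heckeTLin 2 hℓ hℓN f)) : ℍ → ℂ) = heckeT 2 ℓ ⇑(tr f) := by
    intro ℓ hℓ hℓN f
    rw [htr, htr, hWT ℓ hℓ hℓN f, CuspForm.coe_heckeTLin_apply, CuspForm.coe_heckeTLin_apply,
      heckeT_add, ModularFormClass.heckeT_heckeU_comm (W f) hper (hcop ℓ hℓ hℓN)]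
  have htr'T : ∀ (ℓ : ℕ) (hℓ : ℓ.Prime) (hℓN : ¬ ℓ ∣ N) (f : CuspForm (Gamma0 N) 2),
      (⇑(tr' (CuspForm.heckeTLin 2 hℓ hℓN f)) : ℍ → ℂ) = heckeT 2 ℓ ⇑(tr' f) := by
    intro ℓ hℓ hℓN f
    rw [htr', htr', hWT ℓ hℓ hℓN f, CuspForm.coe_heckeTLin_apply, CuspForm.coe_heckeTLin_apply,
      heckeT_add, ModularFormClass.heckeT_heckeU_comm f hper (hcop ℓ hℓ hℓN)]
  have hUU : ∀ f : CuspForm (Gamma0 N) 2, tr f = 0 → tr' f = 0 →
      heckeU 2 q (heckeU 2 q ⇑f) = ⇑f := by
    intro f h0 h0'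
    have h1 : (⇑f : ℍ → ℂ) + heckeU 2 q ⇑(W f) = 0 := by
      rw [← htr, h0]; rfl
    have h2 : (⇑(W f) : ℍ → ℂ) + heckeU 2 q ⇑f = 0 := by
      rw [← htr', h0']; rfl
    have h3 : (⇑(W f) : ℍ → ℂ) = -heckeU 2 q ⇑f := eq_neg_of_add_eq_zero_left h2
    rw [h3, heckeU_neg] at h1
    have h4 := eq_neg_of_add_eq_zero_left h1
    rw [neg_neg] at h4
    exact h4.symm
  refine ⟨W, tr, tr', htr, htr', ?_, hUU, ?_, ?_⟩
  · intro ℓ hℓ hℓN f h0 h0'
    constructor
    · apply DFunLike.coe_injective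
      rw [htrT, h0, FunLike.coe_zero, heckeT_zero]
    · apply DFunLike.coe_injective
      rw [htr'T, h0', FunLike.coe_zero, heckeT_zero]
  · intro g hg h0 h0'
    have hU := H683.heckeU_eq_of_eigenform hg hq hqN
    have h1 := hUU g h0 h0'
    rw [hU, heckeU_smul, hU, smul_smul] at h1
    have hgne : (⇑g : ℍ → ℂ) ≠ 0 := H958.coe_ne_zero_of_isNormalizedEigenform hg
    have h2 : (qCoeff ⇑g q * qCoeff ⇑g q - 1) • (⇑g : ℍ → ℂ) = 0 := by
      rw [sub_smul, one_smul, h1, sub_self]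
    rcases smul_eq_zero.mp h2 with h | h
    · show qCoeff ⇑g q ^ 2 = 1
      rw [pow_two]
      exact sub_eq_zero.mp h
    · exact absurd h hgne
  · intro g hg
    have hge := hg.1
    have hTg : ∀ ℓ : ℕ, ℓ.Prime → ¬ ℓ ∣ N →
        heckeT 2 ℓ (⇑g : ℍ → ℂ) = qCoeff ⇑g ℓ • (⇑g : ℍ → ℂ) :=
      fun ℓ hℓ hℓN => H683.heckeT_eq_of_eigenform hge hℓ hℓN
    have hTlin : ∀ (ℓ : ℕ) (hℓ : ℓ.Prime) (hℓN : ¬ ℓ ∣ N),
        CuspForm.heckeTLin 2 hℓ hℓN g = qCoeff ⇑g ℓ • g :=
      fun ℓ hℓ hℓN => H683.heckeTLin_eq_of_eigenform hge hℓ hℓN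
    constructor
    · apply H958.eq_zero_of_level_div _root_.Fermat.Agent.Lib.Newform.H23.occurs hq hg (tr g)
      intro ℓ hℓ hℓN
      rw [← htrT ℓ hℓ hℓN g, hTlin ℓ hℓ hℓN, map_smul, FunLike.coe_smul]
    · apply H958.eq_zero_of_level_div _root_.Fermat.Agent.Lib.Newform.H23.occurs hq hg (tr' g)
      intro ℓ hℓ hℓN
      rw [← htr'T ℓ hℓ hℓN g, hTlin ℓ hℓ hℓN, map_smul, FunLike.coe_smul]

/-- `BadCoeffAt` and `BadCoeff` from the two open leaves. -/
theorem badCoeffAt_of (hL : H958.LowerU) (hT : H958.TraceAL) : H958.BadCoeffAt :=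
  H958.badCoeffAt_of _root_.Fermat.Agent.Lib.Newform.H23.eigenT _root_.Fermat.Agent.Lib.Newform.H23.eigenU _root_.Fermat.Agent.Lib.Newform.H23.occurs hL hT

theorem badCoeff_of (hL : H958.LowerU) (hT : H958.TraceAL) : H958.BadCoeff :=
  H958.badCoeff_of (badCoeffAt_of hL hT)

end Fermat.Agent.Lib.Newform.H23

end
-- ===== PACK-END Lib/Newform/H23/QNew.lean

-- ===== PACK-BEGIN Lib/Newform/Main.lean
section







/-!
# Shared library NEWFORM — consumer entry point (row-lead helper23)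

All Petersson-free targets of the library, closed (no hypotheses), in ONE light module
(closure: Mathlib + Prelude + `Lib/Newform/{H23,H563,H683,H743,H803,H863,H923,H958}` only).

| theorem | statement |
|---|---|
| `newformBadPrimeCoeff N` | Prelude `CuspForm.NewformBadPrimeCoeff N` (`a_q² = 1` at `q ∥ N`, `a_q = 0` at `q² ∣ N`) |
| `badCoeffAt` | the same for `IsNewformAt q` |
| `descent` | every normalized eigenform comes from a Prelude-newform of a level `M ∣ N` |
| `stab` | a normalized eigenform of level `M` gives one of every level `C`, `M ∣ C` |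
| `incl`, `raise` | the two degeneracy maps (`q`-coefficients) |
| `lemma16`, `mainLemma` | Atkin–Lehner Lemma 16 and main lemma |
| `oldEigen` | an eigenvector in the old space lowers the level |
| `multOne`, `multOneEigen` | same-level multiplicity one for a Prelude-newform |
| `qNewKernel` | `W`, the two traces at `q ∥ N`; `U_q² = 1` and `IsNewAt q` on their kernel |
-/

set_option autoImplicit false

open CongruenceSubgroup ModularFormClass ModularForm UpperHalfPlane

namespace Fermat.Agent.Lib.Newform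

theorem eigenT : H958.EigenT := H23.eigenT

theorem eigenU : H958.EigenU := H23.eigenU

theorem incl : H958.Incl := H23.incl

theorem occurs : H958.Occurs := H23.occurs

theorem lowerU : H958.LowerU := H563.lowerU

theorem traceAL : H958.TraceAL := H923.traceAL

theorem badCoeffAt : H958.BadCoeffAt := H23.badCoeffAt_of lowerU traceAL

theorem badCoeff : H958.BadCoeff := H958.badCoeff_of badCoeffAt

/-- The Prelude target: coefficients of a newform at the primes dividing the level. -/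
theorem newformBadPrimeCoeff (N : ℕ) [NeZero N] : CuspForm.NewformBadPrimeCoeff N := badCoeff N

theorem descent : H958.Descent := H958.descent

theorem stab : H958.Stab := H23.stab

theorem raise : H23.Raise := H863.raise_statement

theorem lemma16 : H23.Lemma16 := H743.lemma16

theorem oldEigen : H23.OldEigen := H23.oldEigen

/-- **MAIN LEMMA** in `q`-coefficients (adapter around helper803's function-level theorem). -/
theorem mainLemma : H23.MainLemma := by
  intro N _ f hvan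
  obtain ⟨g, hg⟩ := H803.mainLemma N 2 f (fun n hn => hvan n hn)
  refine ⟨g, fun n => ?_⟩
  classical
  -- the raised forms
  let R : ℕ → CuspForm (Gamma0 N) 2 := fun p =>
    if hp : p ∈ N.primeFactors then
      haveI : NeZero p := ⟨(Nat.mem_primeFactors.mp hp).1.ne_zero⟩
      H863.raiseLin (d := p) (M := N / p) (C := N)
        (by rw [Nat.mul_div_cancel' (Nat.mem_primeFactors.mp hp).2.1]) (g p)
    else 0
  have hRτ : ∀ p ∈ N.primeFactors, ∀ τ : ℍ, R p τ = g p (heckeDiagMatrix p • τ) := by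
    intro p hp τ
    haveI : NeZero p := ⟨(Nat.mem_primeFactors.mp hp).1.ne_zero⟩
    simp only [R, dif_pos hp]
    exact H863.raiseLin_apply _ (g p) τ
  have hRq : ∀ p ∈ N.primeFactors, ∀ m : ℕ,
      qCoeff ⇑(R p) m = if p ∣ m then qCoeff ⇑(g p) (m / p) else 0 := by
    intro p hp m
    haveI : NeZero p := ⟨(Nat.mem_primeFactors.mp hp).1.ne_zero⟩
    simp only [R, dif_pos hp]
    exact H863.qCoeff_raiseLin _ (g p) m
  have hf : f = ∑ p ∈ N.primeFactors, R p := by
    apply DFunLike.ext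
    intro τ
    rw [hg τ]
    have hsum : (∑ p ∈ N.primeFactors, R p) τ = ∑ p ∈ N.primeFactors, R p τ := by
      have hcoe : ∀ s : Finset ℕ, (⇑(∑ p ∈ s, R p) : ℍ → ℂ) = ∑ p ∈ s, ⇑(R p) := by
        intro s
        induction s using Finset.induction_on with
        | empty => simp
        | insert a s ha ih => rw [Finset.sum_insert ha, Finset.sum_insert ha, FunLike.coe_add, ih]
      rw [hcoe, Finset.sum_apply]
    rw [hsum]
    exact Finset.sum_congr rfl (fun p hp => (hRτ p hp τ).symm)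
  have hq : qCoeff ⇑f n = ∑ p ∈ N.primeFactors, qCoeff ⇑(R p) n := by
    have := congrArg (H683.coeffLin N 2 n) hf
    rw [map_sum] at this
    simpa using this
  rw [hq]
  exact Finset.sum_congr rfl (fun p hp => hRq p hp n)

theorem multOne : H23.MultOne := H23.multOne_of mainLemma

theorem multOneEigen : H23.MultOneEigen := H23.multOneEigen_of multOne

theorem qNewKernel : H23.QNewKernel := H23.qNewKernel_of traceAL

/-- Consumer form: a normalized eigenform of the level of a newform with the same good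
eigenvalues has the same coefficients at ALL `n`. -/
theorem qCoeff_eq_of_isNewform {N : ℕ} [NeZero N] {f g : CuspForm (Gamma0 N) 2}
    (hf : f.IsNewform) (hg : g.IsNormalizedEigenform)
    (h : ∀ ℓ : ℕ, ℓ.Prime → ¬ ℓ ∣ N → qCoeff ⇑g ℓ = qCoeff ⇑f ℓ) (n : ℕ) :
    qCoeff ⇑g n = qCoeff ⇑f n := by
  rw [multOneEigen N f g hf hg h]

/-- Consumer form of `newformBadPrimeCoeff` at `q ∥ N`. -/
theorem qCoeff_sq_eq_one {N : ℕ} [NeZero N] {f : CuspForm (Gamma0 N) 2} (hf : f.IsNewform)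
    {q : ℕ} (hq : q.Prime) (hqN : q ∣ N) (hq2 : ¬ q ^ 2 ∣ N) : qCoeff ⇑f q ^ 2 = 1 :=
  (newformBadPrimeCoeff N f hf q hq hqN).1 hq2

/-- Consumer form of `newformBadPrimeCoeff` at `q² ∣ N`. -/
theorem qCoeff_eq_zero_of_sq_dvd {N : ℕ} [NeZero N] {f : CuspForm (Gamma0 N) 2}
    (hf : f.IsNewform) {q : ℕ} (hq : q.Prime) (hq2 : q ^ 2 ∣ N) : qCoeff ⇑f q = 0 :=
  (newformBadPrimeCoeff N f hf q hq ((dvd_pow_self q two_ne_zero).trans hq2)).2 hq2

end Fermat.Agent.Lib.Newform

end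
-- ===== PACK-END Lib/Newform/Main.lean

-- ===== PACK-BEGIN Lib/Cheb/H221/Cyc.lean
section











/-!
# CYC (helper221): `PrimeSum + Count + Frob + FrobFinite + DirichletLimit ⇒ CycStatement`
-/

set_option autoImplicit false

open NumberField IsDedekindDomain Filter Topology

namespace Fermat.Agent.Lib.Cheb.H221

set_option linter.unusedSectionVars false

section logsum

variable {P : Type*} {N : P → ℝ} (hN : ∀ r, 2 ≤ N r)
  (hsum : ∀ s : ℝ, 1 < s → Summable (xs N s)) {c : P → ℂ} (hc : ∀ r, ‖c r‖ ≤ 1)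

include hN in
lemma xs_sq_le {s : ℝ} (hs : 1 ≤ s) (r : P) : xs N s r ^ 2 ≤ xs N 2 r := by
  unfold xs
  have hpos : (0 : ℝ) < N r := by linarith [hN r]
  rw [← Real.rpow_natCast, ← Real.rpow_mul hpos.le]
  apply Real.rpow_le_rpow_of_exponent_le (by linarith [hN r])
  push_cast
  linarith

include hN hsum hc in
lemma norm_logEuler_sub_le {s : ℝ} (hs : 1 < s) :
    ‖logEuler N c s - ∑' r, c r * (xs N s r : ℂ)‖ ≤ ∑' r, xs N 2 r := by
  have h1 : Summable (fun r => c r * (xs N s r : ℂ)) :=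
    Summable.of_norm_bounded (hsum s hs) (fun r => norm_z_le hN hc s r)
  unfold logEuler
  rw [← (summable_logFactor hN hsum hc hs).tsum_sub h1]
  refine tsum_of_norm_bounded (hsum 2 (by norm_num)).hasSum (fun r => ?_)
  exact (norm_logFactor_sub_le hN hc hs.le r).trans (xs_sq_le hN hs.le r)

end logsum

section glue

lemma rpow_neg_le_one (p : Nat.Primes) {s : ℝ} (hs : 0 ≤ s) : (((p : ℕ) : ℝ)) ^ (-s) ≤ 1 :=
  Real.rpow_le_one_of_one_le_of_nonpos (by exact_mod_cast p.2.one_le) (by linarith)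

/-- the glue: CYC from its pieces -/
theorem cyc_of_pieces (hEP : EulerProductStatement) (hDEG : TwistedPrimeSumStatement)
    (hABS : AbstractDirichletStatement) (hALG : CycAlgStatement)
    (hZ : Spec.PrimeSumStatement) (hA : Spec.CountStatement) (hD : Spec.FrobStatement)
    (hM : Spec.FrobFiniteStatement) (hAN : Spec.DirichletLimitStatement) :
    Spec.CycStatement := by
  intro L _ _ _ m ζ hm hζ g hg S
  classical
  have : NeZero m := ⟨hm.ne'⟩
  obtain ⟨hord, B, hSUPP, hSPLIT, hNT, hFIN⟩ := hALG hA hD hM L m ζ hζ g hg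
  set a := hζ.autToPow ℚ g with ha
  set c : Nat.Primes → ℝ := fun p => (Spec.primeCount (fixM L g) p : ℝ) with hc
  have hc0 : ∀ p, 0 ≤ c p := fun p => Nat.cast_nonneg _
  have hsumc : ∀ s : ℝ, 1 < s → s ≤ 2 →
      Summable (fun p : Nat.Primes => c p * (p : ℝ) ^ (-s)) :=
    fun s h1 _ => summable_primeCount (fixM L g) h1
  have hcne : ∀ p : Nat.Primes, c p ≠ 0 → Spec.primeCount (fixM L g) p ≠ 0 := by
    intro p hcp h
    apply hcp
    simp [hc, h]
  have hsupp : ∃ B : Finset ℕ, ∀ p : Nat.Primes, (p : ℕ) ∉ B → c p ≠ 0 →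
      ∃ u ∈ Subgroup.zpowers a, ((u : (ZMod m)ˣ) : ZMod m) = ((p : ℕ) : ZMod m) :=
    ⟨B, fun p hpB hcp => hSUPP p p.2 hpB (hcne p hcp)⟩
  have htot : ∃ C : ℝ, ∀ s : ℝ, 1 < s → s ≤ 2 →
      |(∑' p : Nat.Primes, c p * (p : ℝ) ^ (-s)) - Real.log (1 / (s - 1))| ≤ C :=
    hZ (fixM L g)
  have hone : ∃ C : ℝ, ∀ s : ℝ, 1 < s → s ≤ 2 →
      (Nat.card (Subgroup.zpowers a) : ℝ)⁻¹ * Real.log (1 / (s - 1)) - C ≤
        ∑' p : Nat.Primes, if ((p : ℕ) : ZMod m) = 1 then c p * (p : ℝ) ^ (-s) else 0 := by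
    obtain ⟨C', hC'⟩ := hZ (fixBot L)
    set CE : ℝ := ∑ p ∈ primesIn B, (Spec.primeCount (fixBot L) p : ℝ) with hCE
    have hn : (0 : ℝ) < Nat.card (Subgroup.zpowers a) := by exact_mod_cast Nat.card_pos
    refine ⟨(C' + CE) / Nat.card (Subgroup.zpowers a), fun s h1 h2 => ?_⟩
    set u : Nat.Primes → ℝ :=
      fun p => (Spec.primeCount (fixBot L) p : ℝ) * ((p : ℕ) : ℝ) ^ (-s) with hu
    set v : Nat.Primes → ℝ :=
      fun p => if ((p : ℕ) : ZMod m) = 1 then c p * ((p : ℕ) : ℝ) ^ (-s) else 0 with hv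
    have hpw : ∀ p : Nat.Primes, 0 ≤ (((p : ℕ) : ℝ)) ^ (-s) :=
      fun p => Real.rpow_nonneg (Nat.cast_nonneg _) _
    have hv0 : ∀ p, 0 ≤ v p := by
      intro p
      simp only [hv]
      split_ifs
      · exact mul_nonneg (hc0 p) (hpw p)
      · exact le_rfl
    have husum : Summable u := summable_primeCount (fixBot L) h1
    have hvsum : Summable v := by
      refine Summable.of_nonneg_of_le hv0 (fun p => ?_) (hsumc s h1 h2)
      simp only [hv]
      split_ifs
      · exact le_rfl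
      · exact mul_nonneg (hc0 p) (hpw p)
    have hdiff : ∀ p : Nat.Primes, p ∉ primesIn B →
        u p - (Nat.card (Subgroup.zpowers a) : ℝ) * v p = 0 := by
      intro p hp
      rw [mem_primesIn] at hp
      have h3 := hSPLIT p p.2 hp
      simp only [hu, hv, h3, hord, hc]
      split_ifs
      · push_cast
        ring
      · simp
    have h3 : (∑' p, u p) - (Nat.card (Subgroup.zpowers a) : ℝ) * ∑' p, v p =
        ∑ p ∈ primesIn B, (u p - (Nat.card (Subgroup.zpowers a) : ℝ) * v p) := by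
      rw [← tsum_mul_left, ← husum.tsum_sub (hvsum.mul_left _)]
      exact tsum_eq_sum hdiff
    have h4 : ∑ p ∈ primesIn B, (u p - (Nat.card (Subgroup.zpowers a) : ℝ) * v p) ≤ CE := by
      refine Finset.sum_le_sum fun p _ => ?_
      have h5 : u p ≤ (Spec.primeCount (fixBot L) p : ℝ) :=
        mul_le_of_le_one_right (Nat.cast_nonneg _) (rpow_neg_le_one p (by linarith))
      have h6 : 0 ≤ (Nat.card (Subgroup.zpowers a) : ℝ) * v p := mul_nonneg hn.le (hv0 p)
      linarith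
    have h5 := hC' s h1 h2
    rw [abs_le] at h5
    have h6 : Real.log (1 / (s - 1)) - (C' + CE) ≤
        (Nat.card (Subgroup.zpowers a) : ℝ) * ∑' p, v p := by
      have : (∑' p : Nat.Primes, (Spec.primeCount (fixBot L) p : ℝ) * (p : ℝ) ^ (-s)) =
          ∑' p, u p := rfl
      linarith [h5.1]
    have h7 : (Nat.card (Subgroup.zpowers a) : ℝ)⁻¹ * Real.log (1 / (s - 1)) -
        (C' + CE) / Nat.card (Subgroup.zpowers a) =
        (Real.log (1 / (s - 1)) - (C' + CE)) / Nat.card (Subgroup.zpowers a) := by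
      field_simp
    rw [h7, div_le_iff₀ hn, mul_comm]
    exact h6
  have hχ : ∀ χ : DirichletCharacter ℂ m,
      (∃ u ∈ Subgroup.zpowers a, χ ((u : (ZMod m)ˣ) : ZMod m) ≠ 1) →
      ∃ (Λ : ℝ → ℂ) (ℓ : ℂ) (C : ℝ), ContinuousOn Λ (Set.Ioi 1) ∧
        Tendsto (fun s => Complex.exp (Λ s)) (𝓝[>] 1) (𝓝 ℓ) ∧
        ∀ s : ℝ, 1 < s → s ≤ 2 →
          ‖Λ s - ∑' p : Nat.Primes, χ ((p : ℕ) : ZMod m) *
            ((c p * (p : ℝ) ^ (-s) : ℝ) : ℂ)‖ ≤ C := by
    rintro χ ⟨u, hu, hχu⟩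
    have hχa : χ ((a : (ZMod m)ˣ) : ZMod m) ≠ 1 := by
      intro h1
      apply hχu
      obtain ⟨k, rfl⟩ := Subgroup.mem_zpowers_iff.mp hu
      have h2 : χ.toUnitHom a = 1 := by
        ext
        rw [MulChar.coe_toUnitHom]
        simpa using h1
      have h3 : χ.toUnitHom (a ^ k) = 1 := by rw [map_zpow, h2, one_zpow]
      have h4 := congrArg Units.val h3
      rwa [MulChar.coe_toUnitHom] at h4
    obtain ⟨I, hI0, hI1⟩ := hNT χ hχa
    obtain ⟨ℓ, hℓ⟩ := hAN (fixM L g) m χ ⟨I, hI0, hI1⟩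
    obtain ⟨CD, hCD⟩ := hDEG hZ (fixM L g) m χ
    set Nn : HeightOneSpectrum (𝓞 (fixM L g)) → ℝ :=
      fun 𝔭 => (Ideal.absNorm 𝔭.asIdeal : ℝ) with hNn
    set cχ : HeightOneSpectrum (𝓞 (fixM L g)) → ℂ :=
      fun 𝔭 => χ (Ideal.absNorm 𝔭.asIdeal : ZMod m) with hcχdef
    have hN : ∀ 𝔭, 2 ≤ Nn 𝔭 := fun 𝔭 => by
      simp only [hNn]
      exact_mod_cast H761.two_le_absNorm (fixM L g) 𝔭
    have hsumN : ∀ s : ℝ, 1 < s → Summable (xs Nn s) :=
      fun s hs => H761.summable_primeSum (fixM L g) hs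
    have hcχ : ∀ 𝔭, ‖cχ 𝔭‖ ≤ 1 := fun 𝔭 => DirichletCharacter.norm_le_one χ _
    refine ⟨logEuler Nn cχ, ℓ, (∑' r, xs Nn 2 r) + CD,
      continuousOn_logEuler hN hsumN hcχ, ?_, ?_⟩
    · refine hℓ.congr' ?_
      filter_upwards [self_mem_nhdsWithin] with s hs
      exact (exp_logEuler_eq hN hsumN hcχ hs (hEP (fixM L g) m χ s hs)).symm
    · intro s h1 h2
      have e1 := norm_logEuler_sub_le hN hsumN hcχ h1
      have e2 := (hCD s h1 h2).2
      exact (norm_sub_le_norm_sub_add_norm_sub _ _ _).trans (add_le_add e1 e2)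
  obtain ⟨p, hpS, hpa, hcp⟩ := hABS m c hc0 hsumc (Subgroup.zpowers a) hsupp htot hone hχ a
    (Subgroup.mem_zpowers a) (S ∪ B)
  have hpS' : (p : ℕ) ∉ S := fun h => hpS (Finset.mem_union_left _ h)
  have hpB : (p : ℕ) ∉ B := fun h => hpS (Finset.mem_union_right _ h)
  obtain ⟨P, hP, hpP, hI, hF⟩ := hFIN p p.2 hpB (hcne p hcp) hpa
  exact ⟨p, P, p.2, hpS', hP, hpP, hI, hF⟩

/-- **CYC** from the other interface statements. -/
theorem cyc (hZ : Spec.PrimeSumStatement) (hA : Spec.CountStatement) (hD : Spec.FrobStatement)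
    (hM : Spec.FrobFiniteStatement) (hAN : Spec.DirichletLimitStatement) :
    Spec.CycStatement :=
  cyc_of_pieces eulerProduct twistedPrimeSum abstractDirichlet cycAlg hZ hA hD hM hAN

end glue

end Fermat.Agent.Lib.Cheb.H221

end
-- ===== PACK-END Lib/Cheb/H221/Cyc.lean

-- ===== PACK-BEGIN Lib/Cheb/H221/Tier2.lean
section









/-!
# Tier 2 of CHEB modulo the analytic core (helper221)

Everything except `Spec.DirichletLimitStatement` (AN) is discharged with the theorems already on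
main: exact qualitative Chebotarev follows from AN alone.
-/

set_option autoImplicit false

namespace Fermat.Agent.Lib.Cheb.H221

open Fermat.Agent.Lib.Cheb

/-- Tier 1, finite level (assembled from landed pieces). -/
theorem frobFinite_main : Spec.FrobFiniteStatement :=
  H341.frobFinite H761.primeSum_statement H761.primeCountBound_statement H764.count
    H943.frobStatement

/-- CYC from AN. -/
theorem cyc_of_dirichletLimit (hAN : Spec.DirichletLimitStatement) : Spec.CycStatement :=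
  cyc H761.primeSum_statement H764.count H943.frobStatement frobFinite_main hAN

/-- Finite-level exact Chebotarev from AN. -/
theorem chebFinite_of_dirichletLimit (hAN : Spec.DirichletLimitStatement) :
    Spec.ChebFiniteStatement :=
  H223.cross H943.frobStatement (cyc_of_dirichletLimit hAN)

/-- Prelude-level exact qualitative Chebotarev from AN. -/
theorem chebotarev_of_dirichletLimit (hAN : Spec.DirichletLimitStatement) :
    Spec.ChebotarevStatement :=
  H476.bridge (chebFinite_of_dirichletLimit hAN)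

end Fermat.Agent.Lib.Cheb.H221

end
-- ===== PACK-END Lib/Cheb/H221/Tier2.lean

-- ===== PACK-BEGIN S14/H74/Lattice.lean
section


/-!
# S14/N1 (helper74): lattice sums of `fS` (piece P6)
-/

namespace Fermat.Agent.S14.H74

open NumberField NumberField.mixedEmbedding NumberField.Units
  NumberField.Units.dirichletUnitTheorem NumberField.InfinitePlace Module

open scoped Classical

variable (K : Type*) [Field K] [NumberField K]

/-- The summand on the ring of integers. -/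
noncomputable def FS (s : ℝ) (x : 𝓞 K) : ℝ := fS K s (mixedEmbedding K (x : K))

/-- The norm of the image in the mixed space. -/
noncomputable def mnorm (x : 𝓞 K) : ℝ := ‖mixedEmbedding K (x : K)‖

variable {K}

theorem mnorm_nonneg (x : 𝓞 K) : 0 ≤ mnorm K x := norm_nonneg _

theorem mnorm_eq_zero_iff {x : 𝓞 K} : mnorm K x = 0 ↔ x = 0 := by
  unfold mnorm
  rw [norm_eq_zero, map_eq_zero, RingOfIntegers.coe_eq_zero_iff]

theorem mnorm_add_le (x y : 𝓞 K) : mnorm K (x + y) ≤ mnorm K x + mnorm K y := by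
  unfold mnorm
  have : mixedEmbedding K ((x + y : 𝓞 K) : K) =
      mixedEmbedding K (x : K) + mixedEmbedding K (y : K) := by
    rw [← map_add]
    rfl
  rw [this]
  exact norm_add_le _ _

theorem mixedEmbedding_norm_coe (x : 𝓞 K) :
    mixedEmbedding.norm (mixedEmbedding K (x : K)) = |(Algebra.norm ℤ x : ℝ)| := by
  rw [mixedEmbedding.norm_eq_norm, ← Algebra.coe_norm_int]
  simp

theorem one_le_mixedEmbedding_norm {x : 𝓞 K} (hx : x ≠ 0) :
    1 ≤ mixedEmbedding.norm (mixedEmbedding K (x : K)) := by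
  rw [mixedEmbedding_norm_coe]
  have h : Algebra.norm ℤ x ≠ 0 := by
    rwa [Ne, Algebra.norm_eq_zero_iff]
  have : (1 : ℤ) ≤ |Algebra.norm ℤ x| := Int.one_le_abs h
  exact_mod_cast this

theorem FS_zero (s : ℝ) : FS K s 0 = 0 := by
  simp [FS, fS, rho]

theorem FS_nonneg (s : ℝ) (x : 𝓞 K) : 0 ≤ FS K s x :=
  mul_nonneg (rho_nonneg _) (Real.rpow_nonneg (mixedEmbedding.norm_nonneg _) _)

theorem FS_le_one {s : ℝ} (hs : 0 ≤ s) (x : 𝓞 K) : FS K s x ≤ 1 := by
  by_cases hx : x = 0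
  · rw [hx, FS_zero]
    exact zero_le_one
  · have h1 := one_le_mixedEmbedding_norm hx
    have h2 : (mixedEmbedding.norm (mixedEmbedding K (x : K))) ^ (-s) ≤ 1 :=
      Real.rpow_le_one_of_one_le_of_nonpos h1 (by linarith)
    calc FS K s x = rho K _ * _ := rfl
      _ ≤ 1 * 1 := mul_le_mul (rho_le_one _) h2 (Real.rpow_nonneg (by linarith) _) zero_le_one
      _ = 1 := one_mul 1

theorem abs_FS_le_one {s : ℝ} (hs : 0 ≤ s) (x : 𝓞 K) : |FS K s x| ≤ 1 := by
  rw [abs_of_nonneg (FS_nonneg s x)]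
  exact FS_le_one hs x

variable (K) in
/-- The ring of integers as the integer lattice. -/
noncomputable def toLattice : 𝓞 K ≃ mixedEmbedding.integerLattice K :=
  Equiv.ofBijective (fun x ↦ ⟨mixedEmbedding K (x : K), ⟨x, rfl⟩⟩) (by
    constructor
    · intro x y h
      have h1 : mixedEmbedding K (x : K) = mixedEmbedding K (y : K) := congrArg Subtype.val h
      exact RingOfIntegers.ext ((mixedEmbedding_injective K) h1)
    · rintro ⟨_, ⟨x, rfl⟩⟩
      exact ⟨x, rfl⟩)

theorem summable_mnorm_rpow {r : ℝ} (hr : r < -(finrank ℚ K : ℝ)) :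
    Summable fun x : 𝓞 K ↦ mnorm K x ^ r := by
  have h1 : finrank ℤ (mixedEmbedding.integerLattice K) = finrank ℚ K := by
    rw [ZLattice.rank ℝ, mixedEmbedding.finrank]
  have h2 := ZLattice.summable_norm_rpow (mixedEmbedding.integerLattice K) r (by rwa [h1])
  exact ((toLattice K).summable_iff (f := fun z : mixedEmbedding.integerLattice K ↦ ‖z‖ ^ r)).mpr h2

theorem exists_FS_le_mnorm_rpow : ∃ A : ℝ, 1 ≤ A ∧ ∀ s : ℝ, 0 ≤ s → ∀ x : 𝓞 K,
    FS K s x ≤ A ^ ((finrank ℚ K : ℝ) * s) * mnorm K x ^ (-((finrank ℚ K : ℝ) * s)) := by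
  obtain ⟨A, hA1, hA⟩ := exists_support_bound (K := K)
  have hA0 : 0 < A := by linarith
  refine ⟨A, hA1, fun s hs x ↦ ?_⟩
  by_cases hρ : rho K (mixedEmbedding K (x : K)) = 0
  · have : FS K s x = 0 := fS_eq_zero_of_rho_eq_zero hρ
    rw [this]
    exact mul_nonneg (Real.rpow_nonneg hA0.le _) (Real.rpow_nonneg (mnorm_nonneg x) _)
  · have hN := norm_ne_zero_of_rho_ne_zero hρ
    have hx : x ≠ 0 := by
      rintro rfl
      simp at hN
    have hm : 0 < mnorm K x := lt_of_le_of_ne (mnorm_nonneg x) (Ne.symm (by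
      rwa [Ne, mnorm_eq_zero_iff]))
    have h1 := pow_le_norm_of_support hA1 (hA _ hρ)
    have h2 : 0 < (mnorm K x / A) ^ (finrank ℚ K) := by positivity
    have h3 : (mixedEmbedding.norm (mixedEmbedding K (x : K))) ^ (-s) ≤
        ((mnorm K x / A) ^ (finrank ℚ K)) ^ (-s) :=
      Real.rpow_le_rpow_of_nonpos h2 h1 (by linarith)
    have h4 : ((mnorm K x / A) ^ (finrank ℚ K)) ^ (-s) =
        A ^ ((finrank ℚ K : ℝ) * s) * mnorm K x ^ (-((finrank ℚ K : ℝ) * s)) := by
      rw [← Real.rpow_natCast, ← Real.rpow_mul (by positivity), Real.div_rpow hm.le hA0.le,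
        mul_neg, Real.rpow_neg hA0.le, div_eq_mul_inv, inv_inv, mul_comm]
    calc FS K s x = rho K _ * (mixedEmbedding.norm (mixedEmbedding K (x : K))) ^ (-s) := rfl
      _ ≤ 1 * ((mnorm K x / A) ^ (finrank ℚ K)) ^ (-s) :=
          mul_le_mul (rho_le_one _) h3 (Real.rpow_nonneg (mixedEmbedding.norm_nonneg _) _)
            zero_le_one
      _ = _ := by rw [one_mul, h4]

theorem summable_FS {s : ℝ} (hs : 1 < s) : Summable (FS K s) := by
  obtain ⟨A, -, hA⟩ := exists_FS_le_mnorm_rpow (K := K)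
  have hn : (0 : ℝ) < finrank ℚ K := Nat.cast_pos.mpr finrank_pos
  refine Summable.of_nonneg_of_le (FS_nonneg s) (hA s (by linarith)) ?_
  refine Summable.mul_left _ (summable_mnorm_rpow ?_)
  rw [neg_lt_neg_iff]
  nlinarith

/-- Domination of the differences `FS (y + t) - FS y`, uniformly in `s ∈ [1, 2]`. -/
theorem exists_dominating (t : 𝓞 K) : ∃ g : 𝓞 K → ℝ, Summable g ∧ (∀ y, 0 ≤ g y) ∧
    ∀ s : ℝ, 1 ≤ s → s ≤ 2 → ∀ y : 𝓞 K, |FS K s (y + t) - FS K s y| ≤ g y := by
  obtain ⟨R, C, hR, hC, h⟩ := exists_fS_lipschitz (K := K) (mnorm_nonneg t)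
  set n : ℕ := finrank ℚ K with hn
  have hsum : Summable fun y : 𝓞 K ↦ mnorm K y ^ (-((n : ℝ) + 1)) :=
    summable_mnorm_rpow (by rw [neg_lt_neg_iff]; linarith)
  refine ⟨fun y ↦ (C + R ^ (n + 1)) * mnorm K y ^ (-((n : ℝ) + 1)) + if y = 0 then 1 else 0,
    (hsum.mul_left _).add (hasSum_ite_eq 0 (1 : ℝ)).summable, fun y ↦ ?_,
    fun s hs1 hs2 y ↦ ?_⟩
  · have : 0 ≤ mnorm K y ^ (-((n : ℝ) + 1)) := Real.rpow_nonneg (mnorm_nonneg y) _
    have : (0 : ℝ) ≤ if y = 0 then 1 else 0 := by split_ifs <;> norm_num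
    show 0 ≤ (C + R ^ (n + 1)) * mnorm K y ^ (-((n : ℝ) + 1)) + if y = 0 then 1 else 0
    positivity
  · have hs0 : (0 : ℝ) ≤ s := by linarith
    show |FS K s (y + t) - FS K s y| ≤
      (C + R ^ (n + 1)) * mnorm K y ^ (-((n : ℝ) + 1)) + if y = 0 then 1 else 0
    by_cases hy : y = 0
    · subst hy
      rw [zero_add, FS_zero, sub_zero, if_pos rfl]
      have : 0 ≤ mnorm K (0 : 𝓞 K) ^ (-((n : ℝ) + 1)) := Real.rpow_nonneg (mnorm_nonneg _) _
      have := abs_FS_le_one hs0 t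
      have : 0 ≤ (C + R ^ (n + 1)) * mnorm K (0 : 𝓞 K) ^ (-((n : ℝ) + 1)) := by positivity
      linarith
    · rw [if_neg hy, add_zero]
      have hm : 0 < mnorm K y := lt_of_le_of_ne (mnorm_nonneg y) (Ne.symm (by
        rwa [Ne, mnorm_eq_zero_iff]))
      have e : mnorm K y ^ (-((n : ℝ) + 1)) = 1 / mnorm K y ^ (n + 1) := by
        rw [Real.rpow_neg hm.le, one_div]
        congr 1
        exact_mod_cast Real.rpow_natCast (mnorm K y) (n + 1)
      rw [e, mul_one_div]
      by_cases hyR : R ≤ mnorm K y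
      · have h1 := h s hs1 hs2 (mixedEmbedding K (y : K)) (mixedEmbedding K (t : K)) le_rfl hyR
        have h2 : FS K s (y + t) = fS K s (mixedEmbedding K (y : K) + mixedEmbedding K (t : K)) := by
          unfold FS
          rw [← map_add]
          rfl
        rw [h2]
        refine h1.trans ?_
        apply div_le_div_of_nonneg_right _ (by positivity)
        have : 0 ≤ R ^ (n + 1) := by positivity
        linarith
      · have h1 : |FS K s (y + t) - FS K s y| ≤ 1 := by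
          have a1 := FS_nonneg s (y + t)
          have a2 := FS_le_one hs0 (y + t)
          have a3 := FS_nonneg s y
          have a4 := FS_le_one hs0 y
          exact abs_le.mpr ⟨by linarith, by linarith⟩
        refine h1.trans ?_
        rw [le_div_iff₀ (by positivity), one_mul]
        have h3 : mnorm K y ^ (n + 1) ≤ R ^ (n + 1) :=
          pow_le_pow_left₀ hm.le (not_le.mp hyR).le _
        linarith

/-- Coset decomposition of `𝓞 K` along an ideal. -/
noncomputable def cosetEquiv (J : Ideal (𝓞 K)) : (𝓞 K ⧸ J) × J ≃ 𝓞 K where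
  toFun p := Quotient.out p.1 + (p.2 : 𝓞 K)
  invFun x := (Ideal.Quotient.mk J x, ⟨x - Quotient.out (Ideal.Quotient.mk J x), by
    rw [← Ideal.Quotient.eq, Ideal.Quotient.mk_out]⟩)
  left_inv := by
    rintro ⟨q, y⟩
    have h1 : Ideal.Quotient.mk J (Quotient.out q + (y : 𝓞 K)) = q := by
      rw [map_add, Ideal.Quotient.mk_out, Ideal.Quotient.eq_zero_iff_mem.mpr y.2, add_zero]
    ext
    · exact h1
    · simp only
      rw [h1, add_sub_cancel_left]
  right_inv := by
    intro x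
    simp

theorem cosetEquiv_apply (J : Ideal (𝓞 K)) (q : 𝓞 K ⧸ J) (y : J) :
    cosetEquiv J (q, y) = Quotient.out q + (y : 𝓞 K) := rfl

/-- **P6**: comparison of the smoothed sums over `𝓞 K` and over an ideal `J`. -/
theorem exists_compare_bound (J : Ideal (𝓞 K)) (hJ : J ≠ ⊥) : ∃ B : ℝ, ∀ s : ℝ, 1 < s → s ≤ 2 →
    |∑' x : 𝓞 K, FS K s x - (Ideal.absNorm J : ℝ) * ∑' y : J, FS K s (y : 𝓞 K)| ≤ B := by
  have : Finite (𝓞 K ⧸ J) := Ideal.finiteQuotientOfFreeOfNeBot J hJ
  let _ : Fintype (𝓞 K ⧸ J) := Fintype.ofFinite _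
  have hcard : (Ideal.absNorm J : ℝ) = Fintype.card (𝓞 K ⧸ J) := by
    rw [Ideal.absNorm_apply, Submodule.cardQuot_apply, Nat.card_eq_fintype_card]
  choose g hg hg0 hgb using fun t : 𝓞 K ↦ exists_dominating (K := K) t
  refine ⟨∑ q : 𝓞 K ⧸ J, ∑' y : J, g (Quotient.out q) (y : 𝓞 K), fun s hs1 hs2 ↦ ?_⟩
  have hsumF := summable_FS (K := K) hs1
  have hsumJ : Summable fun y : J ↦ FS K s (y : 𝓞 K) :=
    hsumF.comp_injective Subtype.val_injective
  have hsumq : ∀ q : 𝓞 K ⧸ J, Summable fun y : J ↦ FS K s (Quotient.out q + (y : 𝓞 K)) := by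
    intro q
    refine hsumF.comp_injective (f := FS K s) (i := fun y : J ↦ Quotient.out q + (y : 𝓞 K)) ?_
    intro y y' h
    exact Subtype.ext (add_left_cancel h)
  have h1 : ∑' x : 𝓞 K, FS K s x = ∑ q : 𝓞 K ⧸ J, ∑' y : J,
      FS K s (Quotient.out q + (y : 𝓞 K)) := by
    have hs' : Summable (FS K s ∘ cosetEquiv J) :=
      ((cosetEquiv J).summable_iff (f := FS K s)).mpr hsumF
    have e1 : ∑' x : 𝓞 K, FS K s x = ∑' p : (𝓞 K ⧸ J) × J, (FS K s ∘ cosetEquiv J) p :=
      ((cosetEquiv J).tsum_eq (FS K s)).symm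
    have hsumq' : ∀ q : 𝓞 K ⧸ J, Summable fun y : J ↦ (FS K s ∘ cosetEquiv J) (q, y) := by
      intro q
      simp only [Function.comp_apply, cosetEquiv_apply]
      exact hsumq q
    rw [e1, hs'.tsum_prod' hsumq', tsum_fintype]
    simp only [Function.comp_apply, cosetEquiv_apply]
  have h2 : (Ideal.absNorm J : ℝ) * ∑' y : J, FS K s (y : 𝓞 K) =
      ∑ _q : 𝓞 K ⧸ J, ∑' y : J, FS K s (y : 𝓞 K) := by
    rw [Finset.sum_const, Finset.card_univ, nsmul_eq_mul, hcard]
  rw [h1, h2, ← Finset.sum_sub_distrib]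
  refine (Finset.abs_sum_le_sum_abs _ _).trans (Finset.sum_le_sum fun q _ ↦ ?_)
  rw [← (hsumq q).tsum_sub hsumJ, ← Real.norm_eq_abs]
  have hgJ : Summable fun y : J ↦ g (Quotient.out q) (y : 𝓞 K) :=
    (hg (Quotient.out q)).comp_injective Subtype.val_injective
  refine tsum_of_norm_bounded hgJ.hasSum fun y ↦ ?_
  rw [Real.norm_eq_abs, add_comm (Quotient.out q) (y : 𝓞 K)]
  exact hgb (Quotient.out q) s hs1.le hs2 y

end Fermat.Agent.S14.H74

end
-- ===== PACK-END S14/H74/Lattice.lean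

-- ===== PACK-BEGIN Lib/NormL/Defs.lean
section



/-!
# Shared library `NormL` (analytic core of qualitative Chebotarev), definitions

For a number field `K` and a Dirichlet character `χ` mod `m` we study
`normL K χ s = ∑_I χ(N I) N(I)^(-s)` (sum over nonzero integral ideals) for real `s > 1`.
Main result (file `Main.lean`): if `χ(N I₀) ∉ {0, 1}` for some ideal `I₀`, then `normL K χ`
extends to a continuous function on `[1, 2]`.
-/

namespace Fermat.Agent.Lib.NormL

open NumberField NumberField.mixedEmbedding Fermat.Agent.S14.H74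
open scoped nonZeroDivisors Classical

variable (K : Type*) [Field K] [NumberField K]

/-- The norm-twisted `L`-series `∑_I χ(N I) N(I)^(-s)` over the nonzero ideals of `𝓞 K`,
for a real argument `s`. -/
noncomputable def normL {m : ℕ} (χ : DirichletCharacter ℂ m) (s : ℝ) : ℂ :=
  ∑' I : (Ideal (𝓞 K))⁰, χ ((Ideal.absNorm (I : Ideal (𝓞 K)) : ℕ) : ZMod m) *
    (((Ideal.absNorm (I : Ideal (𝓞 K)) : ℝ) ^ (-s) : ℝ) : ℂ)

/-- The summand `ρ(x) |N(x)|^(-s)` on `𝓞 K`, twisted by the sign of the norm if `ε = true`. -/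
noncomputable def GS (ε : Bool) (s : ℝ) (x : 𝓞 K) : ℝ :=
  FS K s x * (if ε then (((Algebra.norm ℤ x).sign : ℤ) : ℝ) else 1)

/-- The sum over the principal nonzero ideals divisible by `A` of `χ(N I) N(I)^(-s)`. -/
noncomputable def prinL {m : ℕ} (χ : DirichletCharacter ℂ m) (A : Ideal (𝓞 K)) (s : ℝ) : ℂ :=
  ∑' I : {I : (Ideal (𝓞 K))⁰ // (I : Ideal (𝓞 K)).IsPrincipal ∧ A ∣ (I : Ideal (𝓞 K))},
    χ ((Ideal.absNorm (I.1 : Ideal (𝓞 K)) : ℕ) : ZMod m) *
      (((Ideal.absNorm (I.1 : Ideal (𝓞 K)) : ℝ) ^ (-s) : ℝ) : ℂ)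

/-- The partial `L`-series of the ideal class `C`. -/
noncomputable def classL {m : ℕ} (χ : DirichletCharacter ℂ m) (C : ClassGroup (𝓞 K)) (s : ℝ) :
    ℂ :=
  ∑' I : {I : (Ideal (𝓞 K))⁰ // ClassGroup.mk0 I = C},
    χ ((Ideal.absNorm (I.1 : Ideal (𝓞 K)) : ℕ) : ZMod m) *
      (((Ideal.absNorm (I.1 : Ideal (𝓞 K)) : ℝ) ^ (-s) : ℝ) : ℂ)

/-- The sum over the elements `x` of the ideal `A` of `χ(N x) GS(x)`. -/
noncomputable def elemSum {m : ℕ} (χ : DirichletCharacter ℂ m) (ε : Bool) (A : Ideal (𝓞 K))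
    (s : ℝ) : ℂ :=
  ∑' x : A, χ ((Algebra.norm ℤ (x : 𝓞 K) : ℤ) : ZMod m) * ((GS K ε s (x : 𝓞 K) : ℝ) : ℂ)

end Fermat.Agent.Lib.NormL

end
-- ===== PACK-END Lib/NormL/Defs.lean

-- ===== PACK-BEGIN Lib/NormL/Sign.lean
section


/-!
# `NormL`: stability of the sign of the norm under small perturbations
-/

namespace Fermat.Agent.Lib.NormL

open NumberField

variable {K : Type*} [Field K] [NumberField K]

/-- The auxiliary function `λ ↦ ∏_σ (σ x + λ σ t)`. -/
noncomputable def normPath (x t : K) (l : ℝ) : ℂ :=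
  ∏ σ : K →ₐ[ℚ] ℂ, (σ x + (l : ℂ) * σ t)

theorem continuous_normPath (x t : K) : Continuous (normPath x t) := by
  unfold normPath
  exact continuous_finsetProd _ fun σ _ ↦
    continuous_const.add (Complex.continuous_ofReal.mul continuous_const)

theorem normPath_ratCast (x t : K) (q : ℚ) :
    normPath x t (q : ℝ) = ((Algebra.norm ℚ (x + q • t) : ℚ) : ℂ) := by
  have h := Algebra.norm_eq_prod_embeddings ℚ ℂ (x + q • t)
  rw [eq_ratCast] at h
  rw [h]
  unfold normPath
  refine Finset.prod_congr rfl fun σ _ ↦ ?_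
  rw [map_add, Algebra.smul_def, map_mul, AlgHom.commutes, Complex.ofReal_ratCast, eq_ratCast]

theorem normPath_im (x t : K) (l : ℝ) : (normPath x t l).im = 0 := by
  have h1 : Continuous fun l : ℝ ↦ (normPath x t l).im :=
    Complex.continuous_im.comp (continuous_normPath x t)
  have h2 : Continuous fun _ : ℝ ↦ (0 : ℝ) := continuous_const
  have h3 := Continuous.ext_on Rat.denseRange_cast h1 h2 (by
    rintro _ ⟨q, rfl⟩
    show (normPath x t (q : ℝ)).im = 0
    rw [normPath_ratCast]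
    exact Complex.ratCast_im _)
  exact congrFun h3 l

theorem normPath_ne_zero {x t : K} (h : ∀ w : InfinitePlace K, w t < w x) {l : ℝ}
    (hl0 : 0 ≤ l) (hl1 : l ≤ 1) : normPath x t l ≠ 0 := by
  unfold normPath
  rw [Finset.prod_ne_zero_iff]
  intro σ _ h0
  have hw := h (InfinitePlace.mk σ.toRingHom)
  rw [InfinitePlace.apply, InfinitePlace.apply] at hw
  have h1 : σ x = -((l : ℂ) * σ t) := eq_neg_of_add_eq_zero_left h0
  have h2 : ‖σ x‖ = l * ‖σ t‖ := by
    rw [h1, norm_neg, norm_mul, Complex.norm_real, Real.norm_of_nonneg hl0]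
  have h3 : l * ‖σ t‖ ≤ ‖σ t‖ := by
    have := norm_nonneg (σ t)
    nlinarith
  have hw' : ‖σ t‖ < ‖σ x‖ := hw
  linarith

theorem normPath_zero (x t : K) : normPath x t 0 = ((Algebra.norm ℚ x : ℚ) : ℂ) := by
  have := normPath_ratCast x t 0
  simpa using this

theorem normPath_one (x t : K) : normPath x t 1 = ((Algebra.norm ℚ (x + t) : ℚ) : ℂ) := by
  have := normPath_ratCast x t 1
  simpa using this

/-- If `t` is smaller than `x` at every infinite place, then `N(x + t)` and `N(x)` have the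
same sign. -/
theorem norm_pos_iff_of_lt {x t : K} (h : ∀ w : InfinitePlace K, w t < w x) :
    0 < Algebra.norm ℚ (x + t) ↔ 0 < Algebra.norm ℚ x := by
  set g : ℝ → ℝ := fun l ↦ (normPath x t l).re with hg
  have hgc : Continuous g := Complex.continuous_re.comp (continuous_normPath x t)
  have hg0 : g 0 = ((Algebra.norm ℚ x : ℚ) : ℝ) := by
    simp only [hg]
    rw [normPath_zero]
    exact Complex.ratCast_re _
  have hg1 : g 1 = ((Algebra.norm ℚ (x + t) : ℚ) : ℝ) := by
    simp only [hg]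
    rw [normPath_one]
    exact Complex.ratCast_re _
  have hne : ∀ l ∈ Set.Icc (0 : ℝ) 1, g l ≠ 0 := by
    intro l hl h0
    apply normPath_ne_zero h hl.1 hl.2
    apply Complex.ext
    · exact h0
    · exact normPath_im x t l
  have key : 0 < g 1 ↔ 0 < g 0 := by
    constructor
    · intro h1
      by_contra h0
      have h0' : g 0 ≤ 0 := not_lt.mp h0
      obtain ⟨l, hl, hl0⟩ := intermediate_value_Icc zero_le_one hgc.continuousOn
        (show (0 : ℝ) ∈ Set.Icc (g 0) (g 1) from ⟨h0', h1.le⟩)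
      exact hne l hl hl0
    · intro h0
      by_contra h1
      have h1' : g 1 ≤ 0 := not_lt.mp h1
      obtain ⟨l, hl, hl0⟩ := intermediate_value_Icc' zero_le_one hgc.continuousOn
        (show (0 : ℝ) ∈ Set.Icc (g 1) (g 0) from ⟨h1', h0.le⟩)
      exact hne l hl hl0
  rw [hg0, hg1] at key
  exact_mod_cast key

/-- Integral version: the sign of the norm is stable. -/
theorem sign_norm_add_eq {x t : 𝓞 K} (h : ∀ w : InfinitePlace K, w (t : K) < w (x : K)) :
    (Algebra.norm ℤ (x + t)).sign = (Algebra.norm ℤ x).sign := by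
  have h1 := norm_pos_iff_of_lt h
  have e1 : ((Algebra.norm ℤ x : ℤ) : ℚ) = Algebra.norm ℚ (x : K) := Algebra.coe_norm_int x
  have e2 : ((Algebra.norm ℤ (x + t) : ℤ) : ℚ) = Algebra.norm ℚ ((x : K) + (t : K)) := by
    exact Algebra.coe_norm_int (x + t)
  rw [← e1, ← e2] at h1
  have h2 : 0 < Algebra.norm ℤ (x + t) ↔ 0 < Algebra.norm ℤ x := by exact_mod_cast h1
  have hx : x ≠ 0 := by
    rintro rfl
    have := h (Classical.arbitrary _)
    simp only [map_zero] at this
    exact absurd this (not_lt.mpr (apply_nonneg _ _))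
  have hxt : x + t ≠ 0 := by
    intro h0
    have ht : t = -x := eq_neg_of_add_eq_zero_right h0
    have := h (Classical.arbitrary _)
    rw [ht] at this
    have e : (((-x : 𝓞 K) : 𝓞 K) : K) = -(x : K) := rfl
    rw [e, ← InfinitePlace.norm_embedding_eq, ← InfinitePlace.norm_embedding_eq, map_neg,
      norm_neg] at this
    exact lt_irrefl _ this
  have n1 : Algebra.norm ℤ x ≠ 0 := by rwa [Ne, Algebra.norm_eq_zero_iff]
  have n2 : Algebra.norm ℤ (x + t) ≠ 0 := by rwa [Ne, Algebra.norm_eq_zero_iff]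
  rcases lt_or_gt_of_ne n1 with hneg | hpos
  · have : ¬ 0 < Algebra.norm ℤ (x + t) := fun h' ↦ absurd (h2.mp h') (not_lt.mpr hneg.le)
    have hneg' : Algebra.norm ℤ (x + t) < 0 := lt_of_le_of_ne (not_lt.mp this) n2
    rw [Int.sign_eq_neg_one_of_neg hneg, Int.sign_eq_neg_one_of_neg hneg']
  · rw [Int.sign_eq_one_of_pos hpos, Int.sign_eq_one_of_pos (h2.mpr hpos)]

end Fermat.Agent.Lib.NormL

end
-- ===== PACK-END Lib/NormL/Sign.lean

-- ===== PACK-BEGIN Lib/NormL/Periodic.lean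
section


/-!
# `NormL`, block KEY, part 1: `x ↦ N(x) mod m` is periodic modulo `m 𝓞 K`
-/

namespace Fermat.Agent.Lib.NormL

open NumberField

variable {K : Type*} [Field K] [NumberField K]

theorem intCast_det_zmod {ι : Type*} [Fintype ι] [DecidableEq ι] (m : ℕ) (M : Matrix ι ι ℤ) :
    ((M.det : ℤ) : ZMod m) = ((Int.castRingHom (ZMod m)).mapMatrix M).det := by
  rw [← RingHom.map_det]
  rfl

theorem norm_add_natCast_mul_zmod (m : ℕ) (x y : 𝓞 K) :
    ((Algebra.norm ℤ (x + (m : 𝓞 K) * y) : ℤ) : ZMod m) =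
      ((Algebra.norm ℤ x : ℤ) : ZMod m) := by
  classical
  let b := RingOfIntegers.basis K
  rw [Algebra.norm_eq_matrix_det b, Algebra.norm_eq_matrix_det b, intCast_det_zmod,
    intCast_det_zmod]
  congr 1
  rw [map_add (Algebra.leftMulMatrix b), map_mul (Algebra.leftMulMatrix b), map_add, map_mul,
    map_natCast (Algebra.leftMulMatrix b), map_natCast]
  have h0 : ((m : ℕ) : Matrix (Module.Free.ChooseBasisIndex ℤ (𝓞 K))
      (Module.Free.ChooseBasisIndex ℤ (𝓞 K)) (ZMod m)) = 0 := by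
    ext i j
    rw [Matrix.natCast_apply]
    simp
  rw [h0, zero_mul, add_zero]

/-- Periodicity modulo the ideal generated by `m`. -/
theorem norm_add_zmod_of_mem (m : ℕ) (x : 𝓞 K) {y : 𝓞 K}
    (hy : y ∈ Ideal.span {(m : 𝓞 K)}) :
    ((Algebra.norm ℤ (x + y) : ℤ) : ZMod m) = ((Algebra.norm ℤ x : ℤ) : ZMod m) := by
  obtain ⟨z, rfl⟩ := Ideal.mem_span_singleton'.mp hy
  rw [mul_comm]
  exact norm_add_natCast_mul_zmod m x z

/-- If `x ≡ x'` modulo `m`, the norms agree modulo `m`. -/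
theorem norm_zmod_eq_of_sub_mem (m : ℕ) {x x' : 𝓞 K}
    (h : x - x' ∈ Ideal.span {(m : 𝓞 K)}) :
    ((Algebra.norm ℤ x : ℤ) : ZMod m) = ((Algebra.norm ℤ x' : ℤ) : ZMod m) := by
  have := norm_add_zmod_of_mem m x' h
  rwa [add_sub_cancel] at this

end Fermat.Agent.Lib.NormL

end
-- ===== PACK-END Lib/NormL/Periodic.lean

-- ===== PACK-BEGIN Lib/NormL/Cls_584.lean
section



/-!
# `NormL`, block CLS (helper584): decomposition of `normL` along ideal classes

* `normL_eq_sum_classL` (CLS1): `normL K χ s = ∑ C, classL K χ C s` for `s > 1`;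
* `prinL_eq_mul_classL` (CLS2): if `[J] = C⁻¹` then
  `prinL K χ J s = χ(N J) * N(J)^(-s) * classL K χ C s`.

Statements are those of `Fermat/Agent/Lib/NormL/Interface.lean` (origin/helper44 @c43fef9),
with `classL` from `Defs.lean`.
-/

namespace Fermat.Agent.Lib.NormL

open NumberField NumberField.mixedEmbedding
open scoped nonZeroDivisors Classical

variable (K : Type*) [Field K] [NumberField K]

/-- The general term of `normL`. -/
noncomputable def normLTerm {m : ℕ} (χ : DirichletCharacter ℂ m) (s : ℝ)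
    (I : (Ideal (𝓞 K))⁰) : ℂ :=
  χ ((Ideal.absNorm (I : Ideal (𝓞 K)) : ℕ) : ZMod m) *
    (((Ideal.absNorm (I : Ideal (𝓞 K)) : ℝ) ^ (-s) : ℝ) : ℂ)

lemma normL_eq_tsum_normLTerm {m : ℕ} (χ : DirichletCharacter ℂ m) (s : ℝ) :
    normL K χ s = ∑' I : (Ideal (𝓞 K))⁰, normLTerm K χ s I := rfl

lemma classL_eq_tsum_normLTerm {m : ℕ} (χ : DirichletCharacter ℂ m) (C : ClassGroup (𝓞 K))
    (s : ℝ) :
    classL K χ C s = ∑' I : {I : (Ideal (𝓞 K))⁰ // ClassGroup.mk0 I = C}, normLTerm K χ s I.1 :=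
  rfl

lemma prinL_eq_tsum_normLTerm {m : ℕ} (χ : DirichletCharacter ℂ m) (A : Ideal (𝓞 K)) (s : ℝ) :
    prinL K χ A s =
      ∑' I : {I : (Ideal (𝓞 K))⁰ // (I : Ideal (𝓞 K)).IsPrincipal ∧ A ∣ (I : Ideal (𝓞 K))},
        normLTerm K χ s I.1 := rfl

lemma norm_normLTerm_le {m : ℕ} (χ : DirichletCharacter ℂ m) (s : ℝ) (I : (Ideal (𝓞 K))⁰) :
    ‖normLTerm K χ s I‖ ≤ (Ideal.absNorm (I : Ideal (𝓞 K)) : ℝ) ^ (-s) := by
  unfold normLTerm
  rw [norm_mul, Complex.norm_real, Real.norm_eq_abs,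
    abs_of_nonneg (Real.rpow_nonneg (Nat.cast_nonneg _) _)]
  calc ‖χ ((Ideal.absNorm (I : Ideal (𝓞 K)) : ℕ) : ZMod m)‖ *
        (Ideal.absNorm (I : Ideal (𝓞 K)) : ℝ) ^ (-s)
      ≤ 1 * (Ideal.absNorm (I : Ideal (𝓞 K)) : ℝ) ^ (-s) :=
        mul_le_mul_of_nonneg_right (DirichletCharacter.norm_le_one χ _)
          (Real.rpow_nonneg (Nat.cast_nonneg _) _)
    _ = _ := one_mul _

/-- Summability of the terms of `normL` for `s > 1`. -/
theorem summable_normLTerm {m : ℕ} (χ : DirichletCharacter ℂ m) {s : ℝ} (hs : 1 < s) :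
    Summable (normLTerm K χ s) := by
  have h1 : Summable (fun I : (Ideal (𝓞 K))⁰ ↦ (Ideal.absNorm (I : Ideal (𝓞 K)) : ℝ) ^ (-s)) :=
    (Fermat.Agent.Lib.EulerProd.summable_absNorm_rpow K hs).comp_injective
      Subtype.val_injective
  exact Summable.of_norm_bounded h1 (norm_normLTerm_le K χ s)

/-- CLS1 -/
theorem normL_eq_sum_classL {m : ℕ} (χ : DirichletCharacter ℂ m) {s : ℝ} (hs : 1 < s) :
    normL K χ s = ∑ C : ClassGroup (𝓞 K), classL K χ C s := by
  have hsum := summable_normLTerm K χ hs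
  set e := Equiv.sigmaFiberEquiv (fun I : (Ideal (𝓞 K))⁰ ↦ ClassGroup.mk0 I) with he
  have hsum' : Summable (fun x : (Σ C : ClassGroup (𝓞 K),
      {I : (Ideal (𝓞 K))⁰ // ClassGroup.mk0 I = C}) ↦ normLTerm K χ s (e x)) :=
    e.summable_iff.mpr hsum
  rw [normL_eq_tsum_normLTerm, ← e.tsum_eq (normLTerm K χ s), hsum'.tsum_sigma, tsum_fintype]
  rfl

/-- multiplicativity of the general term -/
lemma normLTerm_mul {m : ℕ} (χ : DirichletCharacter ℂ m) (s : ℝ) (I J : (Ideal (𝓞 K))⁰) :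
    normLTerm K χ s (I * J) = normLTerm K χ s I * normLTerm K χ s J := by
  unfold normLTerm
  have h1 : Ideal.absNorm ((I * J : (Ideal (𝓞 K))⁰) : Ideal (𝓞 K)) =
      Ideal.absNorm (I : Ideal (𝓞 K)) * Ideal.absNorm (J : Ideal (𝓞 K)) := by
    rw [Submonoid.coe_mul, map_mul]
  rw [h1, Nat.cast_mul, map_mul, Nat.cast_mul,
    Real.mul_rpow (Nat.cast_nonneg _) (Nat.cast_nonneg _), Complex.ofReal_mul]
  ring

/-- The bijection between the ideals of the class `C` and the principal ideals divisible by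
`J`, where `[J] = C⁻¹`. -/
noncomputable def classEquivPrin (C : ClassGroup (𝓞 K)) (J : (Ideal (𝓞 K))⁰)
    (hJ : ClassGroup.mk0 J = C⁻¹) :
    {I : (Ideal (𝓞 K))⁰ // ClassGroup.mk0 I = C} ≃
      {I : (Ideal (𝓞 K))⁰ // (I : Ideal (𝓞 K)).IsPrincipal ∧ J.1 ∣ (I : Ideal (𝓞 K))} where
  toFun I := ⟨J * I.1, by
    constructor
    · rw [← ClassGroup.mk0_eq_one_iff (J * I.1).2, map_mul, hJ, I.2, inv_mul_cancel]
    · rw [Submonoid.coe_mul]
      exact Dvd.intro _ rfl⟩
  invFun I := ⟨⟨(I.2.2).choose, by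
      rw [mem_nonZeroDivisors_iff_ne_zero]
      intro h0
      have h := (I.2.2).choose_spec
      rw [h0, mul_zero] at h
      exact nonZeroDivisors.coe_ne_zero I.1 h⟩, by
    have h := (I.2.2).choose_spec
    have hprin : ClassGroup.mk0 I.1 = 1 := (ClassGroup.mk0_eq_one_iff I.1.2).mpr I.2.1
    set I' : (Ideal (𝓞 K))⁰ := ⟨(I.2.2).choose, by
      rw [mem_nonZeroDivisors_iff_ne_zero]
      intro h0
      rw [h0, mul_zero] at h
      exact nonZeroDivisors.coe_ne_zero I.1 h⟩ with hI'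
    have h2 : I.1 = J * I' := Subtype.ext (by rw [Submonoid.coe_mul]; exact h)
    have h3 : ClassGroup.mk0 J * ClassGroup.mk0 I' = 1 := by
      rw [← map_mul, ← h2]; exact hprin
    rw [hJ] at h3
    calc ClassGroup.mk0 I' = C * (C⁻¹ * ClassGroup.mk0 I') := by rw [mul_inv_cancel_left]
      _ = C := by rw [h3, mul_one]⟩
  left_inv I := by
    apply Subtype.ext
    apply Subtype.ext
    have hmem : (J : Ideal (𝓞 K)) ∣ ((J * I.1 : (Ideal (𝓞 K))⁰) : Ideal (𝓞 K)) := by
      rw [Submonoid.coe_mul]; exact Dvd.intro _ rfl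
    have h : ((J * I.1 : (Ideal (𝓞 K))⁰) : Ideal (𝓞 K)) = J * hmem.choose := hmem.choose_spec
    have h' : (J : Ideal (𝓞 K)) * (I.1 : Ideal (𝓞 K)) = J * hmem.choose :=
      (Submonoid.coe_mul _ J I.1).symm.trans h
    have hJ0 : (J : Ideal (𝓞 K)) ≠ 0 := nonZeroDivisors.coe_ne_zero J
    exact (mul_left_cancel₀ hJ0 h').symm
  right_inv I := by
    apply Subtype.ext
    apply Subtype.ext
    rw [Submonoid.coe_mul]
    exact (I.2.2).choose_spec.symm

set_option linter.unusedVariables false in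
/-- CLS2: ideals in the class `C` correspond to principal ideals divisible by `J`, where `J`
is in the class `C⁻¹`. -/
theorem prinL_eq_mul_classL {m : ℕ} (χ : DirichletCharacter ℂ m) (C : ClassGroup (𝓞 K))
    (J : (Ideal (𝓞 K))⁰) (hJ : ClassGroup.mk0 J = C⁻¹) {s : ℝ} (hs : 1 < s) :
    prinL K χ (J : Ideal (𝓞 K)) s =
      χ ((Ideal.absNorm (J : Ideal (𝓞 K)) : ℕ) : ZMod m) *
        (((Ideal.absNorm (J : Ideal (𝓞 K)) : ℝ) ^ (-s) : ℝ) : ℂ) * classL K χ C s := by
  rw [prinL_eq_tsum_normLTerm, classL_eq_tsum_normLTerm,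
    ← (classEquivPrin K C J hJ).tsum_eq, ← tsum_mul_left]
  refine tsum_congr fun I ↦ ?_
  exact normLTerm_mul K χ s J I.1

end Fermat.Agent.Lib.NormL

end
-- ===== PACK-END Lib/NormL/Cls_584.lean

-- ===== PACK-BEGIN S14/H74/Orbit.lean
section



/-!
# S14/N1 (helper74): orbit decomposition of the smoothed sum (piece P3)
-/

namespace Fermat.Agent.S14.H74

open NumberField NumberField.mixedEmbedding NumberField.Units
  NumberField.Units.dirichletUnitTheorem NumberField.InfinitePlace Module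

open scoped Classical

variable {K : Type*} [Field K] [NumberField K]

/-- Nonzero principal ideals contained in `J`. -/
def PJ (J : Ideal (𝓞 K)) : Type _ :=
  {I : Ideal (𝓞 K) // I ≠ ⊥ ∧ I.IsPrincipal ∧ I ≤ J}

/-- A chosen generator. -/
noncomputable def pjGen {J : Ideal (𝓞 K)} (I : PJ J) : 𝓞 K :=
  haveI := I.2.2.1
  Submodule.IsPrincipal.generator I.1

theorem span_pjGen {J : Ideal (𝓞 K)} (I : PJ J) : Ideal.span {pjGen I} = I.1 := by
  have := I.2.2.1
  exact Ideal.span_singleton_generator I.1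

theorem pjGen_ne_zero {J : Ideal (𝓞 K)} (I : PJ J) : pjGen I ≠ 0 := by
  intro h
  have := span_pjGen I
  rw [h, Ideal.span_singleton_eq_bot.mpr rfl] at this
  exact I.2.1 this.symm

theorem pjGen_mem {J : Ideal (𝓞 K)} (I : PJ J) : pjGen I ∈ J := by
  apply I.2.2.2
  rw [← span_pjGen I]
  exact Ideal.mem_span_singleton_self _

theorem span_unit_mul (u : (𝓞 K)ˣ) (g : 𝓞 K) :
    Ideal.span {(u : 𝓞 K) * g} = Ideal.span {g} :=
  Ideal.span_singleton_mul_left_unit u.isUnit g

/-- The orbit decomposition of the nonzero elements of `J`. -/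
noncomputable def orbitEquiv (J : Ideal (𝓞 K)) :
    PJ J × (𝓞 K)ˣ ≃ {y : 𝓞 K // y ∈ J ∧ y ≠ 0} :=
  Equiv.ofBijective (fun p ↦ ⟨(p.2 : 𝓞 K) * pjGen p.1,
    J.mul_mem_left _ (pjGen_mem p.1), mul_ne_zero p.2.ne_zero (pjGen_ne_zero p.1)⟩) (by
    constructor
    · rintro ⟨I, u⟩ ⟨I', u'⟩ h
      have h1 : (u : 𝓞 K) * pjGen I = (u' : 𝓞 K) * pjGen I' := congrArg Subtype.val h
      have e1 : I.1 = Ideal.span {(u : 𝓞 K) * pjGen I} := by rw [span_unit_mul, span_pjGen]
      have e2 : I'.1 = Ideal.span {(u' : 𝓞 K) * pjGen I'} := by rw [span_unit_mul, span_pjGen]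
      have h2 : I = I' := Subtype.ext (by rw [e1, e2, h1])
      subst h2
      have h3 : (u : 𝓞 K) = u' := mul_right_cancel₀ (pjGen_ne_zero I) h1
      rw [Units.ext h3]
    · rintro ⟨y, hyJ, hy0⟩
      let I : PJ J := ⟨Ideal.span {y}, by
        rw [Ne, Ideal.span_singleton_eq_bot]
        exact hy0, ⟨⟨y, rfl⟩⟩, by
        rw [Ideal.span_singleton_le_iff_mem]
        exact hyJ⟩
      have h1 : Ideal.span {pjGen I} = Ideal.span {y} := span_pjGen I
      rw [Ideal.span_singleton_eq_span_singleton] at h1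
      obtain ⟨u, hu⟩ := h1
      refine ⟨(I, u), Subtype.ext ?_⟩
      show (u : 𝓞 K) * pjGen I = y
      rw [mul_comm]
      exact hu)

theorem orbitEquiv_apply (J : Ideal (𝓞 K)) (p : PJ J × (𝓞 K)ˣ) :
    ((orbitEquiv J p : {y : 𝓞 K // y ∈ J ∧ y ≠ 0}) : 𝓞 K) = (p.2 : 𝓞 K) * pjGen p.1 := rfl

theorem mixedEmbedding_unit_mul (u : (𝓞 K)ˣ) (g : 𝓞 K) :
    mixedEmbedding K (((u : 𝓞 K) * g : 𝓞 K) : K) = u • mixedEmbedding K (g : K) := by
  rw [unitSMul_smul, ← map_mul]
  rfl

theorem norm_pjGen {J : Ideal (𝓞 K)} (I : PJ J) :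
    mixedEmbedding.norm (mixedEmbedding K (pjGen I : K)) = (Ideal.absNorm I.1 : ℝ) := by
  rw [mixedEmbedding_norm_coe, ← span_pjGen I, Ideal.absNorm_span_singleton, Nat.cast_natAbs,
    Int.cast_abs]

theorem FS_unit_mul (s : ℝ) (u : (𝓞 K)ˣ) {J : Ideal (𝓞 K)} (I : PJ J) :
    FS K s ((u : 𝓞 K) * pjGen I) =
      rho K (u • mixedEmbedding K (pjGen I : K)) * (Ideal.absNorm I.1 : ℝ) ^ (-s) := by
  unfold FS fS
  rw [mixedEmbedding_unit_mul, norm_unit_smul, norm_pjGen]

theorem tsum_ideal_eq_tsum_ne_zero (J : Ideal (𝓞 K)) (s : ℝ) :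
    ∑' y : J, FS K s (y : 𝓞 K) = ∑' y : {y : 𝓞 K // y ∈ J ∧ y ≠ 0}, FS K s (y : 𝓞 K) := by
  have h1 := tsum_subtype (J : Set (𝓞 K)) (FS K s)
  have h2 := tsum_subtype ({y : 𝓞 K | y ∈ J ∧ y ≠ 0}) (FS K s)
  have h3 : (J : Set (𝓞 K)).indicator (FS K s) =
      ({y : 𝓞 K | y ∈ J ∧ y ≠ 0}).indicator (FS K s) := by
    funext y
    by_cases hy : y = 0
    · subst hy
      simp [Set.indicator, FS_zero]
    · simp [Set.indicator, hy]
  calc ∑' y : J, FS K s (y : 𝓞 K) = ∑' y, (J : Set (𝓞 K)).indicator (FS K s) y := h1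
    _ = ∑' y, ({y : 𝓞 K | y ∈ J ∧ y ≠ 0}).indicator (FS K s) y := by rw [h3]
    _ = _ := h2.symm

/-- **P3**: the smoothed sum over `J` is the sum over the nonzero principal ideals contained
in `J`, counted with multiplicity `torsionOrder K`. -/
theorem tsum_FS_eq (J : Ideal (𝓞 K)) {s : ℝ} (hs : 1 < s) :
    ∑' y : J, FS K s (y : 𝓞 K) =
      (torsionOrder K : ℝ) * ∑' I : PJ J, (Ideal.absNorm I.1 : ℝ) ^ (-s) := by
  rw [tsum_ideal_eq_tsum_ne_zero]
  have hsumF := summable_FS (K := K) hs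
  have hsum0 : Summable fun y : {y : 𝓞 K // y ∈ J ∧ y ≠ 0} ↦ FS K s (y : 𝓞 K) :=
    hsumF.comp_injective Subtype.val_injective
  set G : PJ J × (𝓞 K)ˣ → ℝ := fun p ↦
    rho K (p.2 • mixedEmbedding K (pjGen p.1 : K)) * (Ideal.absNorm p.1.1 : ℝ) ^ (-s) with hG
  have hcomp : (fun y : {y : 𝓞 K // y ∈ J ∧ y ≠ 0} ↦ FS K s (y : 𝓞 K)) ∘ orbitEquiv J = G := by
    funext p
    simp only [Function.comp_apply, orbitEquiv_apply, hG]
    exact FS_unit_mul s p.2 p.1
  have hsumG : Summable G := by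
    rw [← hcomp]
    exact (orbitEquiv J).summable_iff.mpr hsum0
  have hfib : ∀ I : PJ J, HasSum (fun u : (𝓞 K)ˣ ↦ G (I, u))
      ((torsionOrder K : ℝ) * (Ideal.absNorm I.1 : ℝ) ^ (-s)) := by
    intro I
    have hN : mixedEmbedding.norm (mixedEmbedding K (pjGen I : K)) ≠ 0 := by
      rw [norm_pjGen]
      have : Ideal.absNorm I.1 ≠ 0 := by
        rw [Ne, Ideal.absNorm_eq_zero_iff]
        exact I.2.1
      exact_mod_cast this
    exact (hasSum_rho_unit_smul hN).mul_right _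
  calc ∑' y : {y : 𝓞 K // y ∈ J ∧ y ≠ 0}, FS K s (y : 𝓞 K)
      = ∑' p : PJ J × (𝓞 K)ˣ, G p := by
        rw [← hcomp]
        exact ((orbitEquiv J).tsum_eq _).symm
    _ = ∑' I : PJ J, ∑' u : (𝓞 K)ˣ, G (I, u) := hsumG.tsum_prod' fun I ↦ (hfib I).summable
    _ = ∑' I : PJ J, (torsionOrder K : ℝ) * (Ideal.absNorm I.1 : ℝ) ^ (-s) :=
        tsum_congr fun I ↦ (hfib I).tsum_eq
    _ = _ := tsum_mul_left

end Fermat.Agent.S14.H74

end
-- ===== PACK-END S14/H74/Orbit.lean

-- ===== PACK-BEGIN Lib/NormL/Orb.lean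
section



/-!
# `NormL`, piece ORB (helper941): sums over elements vs sums over principal ideals

`elemSum K χ ε A s = torsionOrder K * prinL K χ A s` for `ε = decide (χ (-1) = -1)` and `s > 1`.

The weight `χ(N x) sign(N x)^ε` only depends on `|N x| = N((x))`, hence is constant on the orbits
of the units; the orbit sums of `rho` are `torsionOrder K` (helper74, `hasSum_rho_unit_smul`).
-/

namespace Fermat.Agent.Lib.NormL

open NumberField NumberField.mixedEmbedding NumberField.Units Fermat.Agent.S14.H74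
open scoped nonZeroDivisors Classical

/-- The sign-twisted character value only depends on `|n|`. -/
theorem orb941_char_sign {m : ℕ} (χ : DirichletCharacter ℂ m) {n : ℤ} (hn : n ≠ 0) :
    χ ((n : ℤ) : ZMod m) *
        (((if decide (χ (-1) = -1) = true then ((n.sign : ℤ) : ℝ) else 1 : ℝ)) : ℂ) =
      χ ((n.natAbs : ℕ) : ZMod m) := by
  have hsq : χ (-1) * χ (-1) = 1 := by
    rw [← map_mul]
    simp
  have h11 : χ (-1) = 1 ∨ χ (-1) = -1 := mul_self_eq_one_iff.mp hsq
  rcases lt_or_gt_of_ne hn with h | h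
  · have hs : n.sign = -1 := Int.sign_eq_neg_one_of_neg h
    have hn' : ((n : ℤ) : ZMod m) = -1 * ((n.natAbs : ℕ) : ZMod m) := by
      have h0 : n = -((n.natAbs : ℕ) : ℤ) := by omega
      calc ((n : ℤ) : ZMod m) = ((-((n.natAbs : ℕ) : ℤ) : ℤ) : ZMod m) := by rw [← h0]
        _ = -1 * ((n.natAbs : ℕ) : ZMod m) := by
          rw [Int.cast_neg, Int.cast_natCast, neg_one_mul]
    rw [hn', map_mul, hs]
    by_cases hε : χ (-1) = -1
    · rw [hε]
      simp
    · have h1 : χ (-1) = 1 := h11.resolve_right hε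
      rw [h1]
      have h2 : ¬ ((1 : ℂ) = -1) := by norm_num
      simp [h2]
  · have hs : n.sign = 1 := Int.sign_eq_one_of_pos h
    have hn' : ((n : ℤ) : ZMod m) = ((n.natAbs : ℕ) : ZMod m) := by
      have h0 : n = ((n.natAbs : ℕ) : ℤ) := by omega
      calc ((n : ℤ) : ZMod m) = ((((n.natAbs : ℕ) : ℤ) : ℤ) : ZMod m) := by rw [← h0]
        _ = ((n.natAbs : ℕ) : ZMod m) := Int.cast_natCast _
    rw [hn', hs]
    by_cases hε : χ (-1) = -1 <;> simp [hε]

variable (K : Type*) [Field K] [NumberField K]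

/-- The summand of `elemSum` in terms of the ideal generated by `x`. -/
theorem orb941_term_eq {m : ℕ} (χ : DirichletCharacter ℂ m) (s : ℝ) (x : 𝓞 K) :
    χ ((Algebra.norm ℤ (x : 𝓞 K) : ℤ) : ZMod m) *
        ((GS K (decide (χ (-1) = -1)) s x : ℝ) : ℂ) =
      χ ((Ideal.absNorm (Ideal.span {x}) : ℕ) : ZMod m) * ((FS K s x : ℝ) : ℂ) := by
  by_cases hx : x = 0
  · subst hx
    simp [GS, FS_zero]
  · have hN : Algebra.norm ℤ x ≠ 0 := by
      rwa [Ne, Algebra.norm_eq_zero_iff]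
    rw [Ideal.absNorm_span_singleton, ← orb941_char_sign χ hN]
    unfold GS
    push_cast
    ring

variable {K} in
/-- `PJ A` (helper74) against the index type of `prinL`. -/
noncomputable def orb941_equiv (A : Ideal (𝓞 K)) :
    PJ A ≃ {I : (Ideal (𝓞 K))⁰ // (I : Ideal (𝓞 K)).IsPrincipal ∧ A ∣ (I : Ideal (𝓞 K))} where
  toFun I := ⟨⟨I.1, mem_nonZeroDivisors_iff_ne_zero.mpr I.2.1⟩, I.2.2.1,
    Ideal.dvd_iff_le.mpr I.2.2.2⟩
  invFun I := ⟨I.1.1, nonZeroDivisors.coe_ne_zero I.1, I.2.1, Ideal.dvd_iff_le.mp I.2.2⟩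
  left_inv _ := rfl
  right_inv _ := rfl

/-- **ORB**: the sum over elements is `torsionOrder` times the sum over principal ideals. -/
theorem elemSum_eq_torsionOrder_mul_prinL {m : ℕ} (χ : DirichletCharacter ℂ m)
    (A : (Ideal (𝓞 K))⁰) {s : ℝ} (hs : 1 < s) :
    elemSum K χ (decide (χ (-1) = -1)) (A : Ideal (𝓞 K)) s =
      (Units.torsionOrder K : ℂ) * prinL K χ (A : Ideal (𝓞 K)) s := by
  set J : Ideal (𝓞 K) := (A : Ideal (𝓞 K)) with hJ
  set T : 𝓞 K → ℂ := fun x ↦
    χ ((Ideal.absNorm (Ideal.span {x}) : ℕ) : ZMod m) * ((FS K s x : ℝ) : ℂ) with hT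
  have hT0 : T 0 = 0 := by simp [hT, FS_zero]
  have hTn : ∀ x, ‖T x‖ ≤ FS K s x := by
    intro x
    simp only [hT]
    rw [norm_mul, Complex.norm_real, Real.norm_of_nonneg (FS_nonneg s x)]
    exact mul_le_of_le_one_left (FS_nonneg s x) (DirichletCharacter.norm_le_one χ _)
  have hsumF := summable_FS (K := K) hs
  have hsumT : Summable T := Summable.of_norm_bounded hsumF hTn
  have h1 : elemSum K χ (decide (χ (-1) = -1)) J s = ∑' x : J, T (x : 𝓞 K) := by
    unfold elemSum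
    exact tsum_congr fun x ↦ orb941_term_eq K χ s x
  rw [h1]
  have h2 : ∑' x : J, T (x : 𝓞 K) = ∑' y : {y : 𝓞 K // y ∈ J ∧ y ≠ 0}, T (y : 𝓞 K) := by
    have e1 := tsum_subtype (J : Set (𝓞 K)) T
    have e2 := tsum_subtype ({y : 𝓞 K | y ∈ J ∧ y ≠ 0}) T
    have e3 : (J : Set (𝓞 K)).indicator T = ({y : 𝓞 K | y ∈ J ∧ y ≠ 0}).indicator T := by
      funext y
      by_cases hy : y = 0
      · subst hy
        simp [Set.indicator, hT0]
      · simp [Set.indicator, hy]
    calc ∑' x : J, T (x : 𝓞 K) = ∑' y, (J : Set (𝓞 K)).indicator T y := e1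
      _ = ∑' y, ({y : 𝓞 K | y ∈ J ∧ y ≠ 0}).indicator T y := by rw [e3]
      _ = _ := e2.symm
  rw [h2]
  have hsum0 : Summable fun y : {y : 𝓞 K // y ∈ J ∧ y ≠ 0} ↦ T (y : 𝓞 K) :=
    hsumT.comp_injective Subtype.val_injective
  set c : PJ J → ℂ := fun I ↦
    χ ((Ideal.absNorm I.1 : ℕ) : ZMod m) * (((Ideal.absNorm I.1 : ℝ) ^ (-s) : ℝ) : ℂ) with hc
  set G : PJ J × (𝓞 K)ˣ → ℂ := fun p ↦
    c p.1 * ((rho K (p.2 • mixedEmbedding K (pjGen p.1 : K)) : ℝ) : ℂ) with hG
  have hcomp : (fun y : {y : 𝓞 K // y ∈ J ∧ y ≠ 0} ↦ T (y : 𝓞 K)) ∘ orbitEquiv J = G := by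
    funext p
    simp only [Function.comp_apply, orbitEquiv_apply, hG, hT, hc]
    rw [FS_unit_mul s p.2 p.1, span_unit_mul, span_pjGen]
    push_cast
    ring
  have hsumG : Summable G := by
    rw [← hcomp]
    exact (orbitEquiv J).summable_iff.mpr hsum0
  have hfib : ∀ I : PJ J, HasSum (fun u : (𝓞 K)ˣ ↦ G (I, u))
      (c I * (torsionOrder K : ℂ)) := by
    intro I
    have hN : mixedEmbedding.norm (mixedEmbedding K (pjGen I : K)) ≠ 0 := by
      rw [norm_pjGen]
      have : Ideal.absNorm I.1 ≠ 0 := by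
        rw [Ne, Ideal.absNorm_eq_zero_iff]
        exact I.2.1
      exact_mod_cast this
    have h := hasSum_rho_unit_smul hN
    have h' : HasSum (fun u : (𝓞 K)ˣ ↦
        ((rho K (u • mixedEmbedding K (pjGen I : K)) : ℝ) : ℂ)) (((torsionOrder K : ℝ)) : ℂ) :=
      Complex.hasSum_ofReal.mpr h
    have h'' := h'.mul_left (c I)
    simpa [hG] using h''
  have hre : ∑' I : PJ J, c I = prinL K χ J s := by
    unfold prinL
    exact (orb941_equiv J).tsum_eq (fun I ↦
      χ ((Ideal.absNorm (I.1 : Ideal (𝓞 K)) : ℕ) : ZMod m) *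
        (((Ideal.absNorm (I.1 : Ideal (𝓞 K)) : ℝ) ^ (-s) : ℝ) : ℂ))
  calc ∑' y : {y : 𝓞 K // y ∈ J ∧ y ≠ 0}, T (y : 𝓞 K)
      = ∑' p : PJ J × (𝓞 K)ˣ, G p := by
        rw [← hcomp]
        exact ((orbitEquiv J).tsum_eq _).symm
    _ = ∑' I : PJ J, ∑' u : (𝓞 K)ˣ, G (I, u) := hsumG.tsum_prod' fun I ↦ (hfib I).summable
    _ = ∑' I : PJ J, c I * (torsionOrder K : ℂ) := tsum_congr fun I ↦ (hfib I).tsum_eq
    _ = (∑' I : PJ J, c I) * (torsionOrder K : ℂ) := tsum_mul_right
    _ = _ := by rw [hre, mul_comm]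

end Fermat.Agent.Lib.NormL

end
-- ===== PACK-END Lib/NormL/Orb.lean

-- ===== PACK-BEGIN S41/H701/CardTorsion.lean
section




/-!
# `#E[n] = n ^ 2` over an algebraically closed field of characteristic zero
(helper701, S41 piece D1)

Generic-fibre argument on the `x`-ladder of `S13/H891`: for generic `t = x(P)`, the fibre
`{Q | n • Q = P}` is in bijection (via `Q ↦ x(Q)`) with the roots of `N_n - t D_n`, a separable
polynomial of degree `n ^ 2`; and the fibre is a coset of `E[n]`.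
-/

open WeierstrassCurve WeierstrassCurve.Affine Polynomial
open Fermat.Agent.S51.Five (xc dD xc_neg xc_some eq_or_eq_neg_of_xc_eq exists_equation
  add_self_ne_zero_of_dD_ne_zero)
open Fermat.Agent.S13.H891

set_option autoImplicit false
set_option linter.unusedSectionVars false

namespace Fermat.Agent.S41.H701

variable {K : Type*} [Field K] [DecidableEq K] [IsAlgClosed K] [CharZero K]
  (E : WeierstrassCurve.Affine K) [E.IsElliptic]

/-- Every `x ∈ K` is the `x`-coordinate of a nonzero point. -/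
lemma exists_point_xc_h701 (x : K) : ∃ Q : E.Point, Q ≠ 0 ∧ xc Q = x := by
  obtain ⟨y, hy⟩ := exists_equation E x
  exact ⟨Point.some x y (Affine.equation_iff_nonsingular.mp hy), Point.some_ne_zero _, rfl⟩

/-- The ladder polynomials have no common root. -/
lemma polyN_polyD_no_common_root_h701 (n : ℕ) (x : K) :
    ¬ ((polyN E.b₂ E.b₄ E.b₆ E.b₈ n).eval x = 0 ∧ (polyD E.b₂ E.b₄ E.b₆ E.b₈ n).eval x = 0) := by
  obtain ⟨Q, hQ, rfl⟩ := exists_point_xc_h701 E x
  rw [eval_polyN, eval_polyD]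
  rintro ⟨h1, h2⟩
  rcases rep_lad hQ n with ⟨-, -, h⟩ | ⟨-, h, -⟩
  · exact h h1
  · exact h h2

lemma natDegree_polyN_h701 (n : ℕ) (hn : 1 ≤ n) :
    (polyN E.b₂ E.b₄ E.b₆ E.b₈ n).natDegree = n ^ 2 := by
  obtain ⟨h1, h2⟩ := (dc_poly E.b₂ E.b₄ E.b₆ E.b₈ n hn).1
  exact natDegree_eq_of_le_of_coeff_ne_zero h1 (by rw [h2]; exact one_ne_zero)

lemma natDegree_polyD_lt_h701 (n : ℕ) (hn : 1 ≤ n) :
    (polyD E.b₂ E.b₄ E.b₆ E.b₈ n).natDegree < n ^ 2 := by
  obtain ⟨h1, -⟩ := (dc_poly E.b₂ E.b₄ E.b₆ E.b₈ n hn).2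
  have : 1 ≤ n ^ 2 := Nat.one_le_pow _ _ hn
  omega

/-- the fibre polynomial `N_n - t D_n` -/
noncomputable def fibrePoly_h701 (n : ℕ) (t : K) : K[X] :=
  polyN E.b₂ E.b₄ E.b₆ E.b₈ n - C t * polyD E.b₂ E.b₄ E.b₆ E.b₈ n

lemma natDegree_fibrePoly_h701 (n : ℕ) (hn : 1 ≤ n) (t : K) :
    (fibrePoly_h701 E n t).natDegree = n ^ 2 := by
  rw [fibrePoly_h701, natDegree_sub_eq_left_of_natDegree_lt, natDegree_polyN_h701 E n hn]
  rw [natDegree_polyN_h701 E n hn]
  exact lt_of_le_of_lt (natDegree_C_mul_le _ _) (natDegree_polyD_lt_h701 E n hn)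

lemma eval_fibrePoly_h701 (n : ℕ) (t x : K) :
    (fibrePoly_h701 E n t).eval x
      = ladN E.b₂ E.b₄ E.b₆ E.b₈ x n - t * ladD E.b₂ E.b₄ E.b₆ E.b₈ x n := by
  rw [fibrePoly_h701, eval_sub, eval_mul, eval_C, eval_polyN, eval_polyD]

variable {E}

/-- `x(Q)` is a root of the fibre polynomial over `x(n • Q)`. -/
lemma eval_fibrePoly_xc_h701 (n : ℕ) {Q P : E.Point} (hP : P ≠ 0) (h : n • Q = P) :
    (fibrePoly_h701 E n (xc P)).eval (xc Q) = 0 := by
  have hQ : Q ≠ 0 := by
    rintro rfl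
    rw [smul_zero] at h
    exact hP h.symm
  rw [eval_fibrePoly_h701]
  rcases rep_lad hQ n with ⟨h0, -, -⟩ | ⟨-, -, h3⟩
  · rw [h] at h0; exact absurd h0 hP
  · rw [← h3, h]; ring

/-- Conversely a root of the fibre polynomial over `x(P)` is `x(Q)` with `n • Q = P`. -/
lemma exists_of_eval_fibrePoly_h701 (n : ℕ) {P : E.Point} (hP : P ≠ 0) {x : K}
    (hx : (fibrePoly_h701 E n (xc P)).eval x = 0) :
    ∃ Q : E.Point, n • Q = P ∧ xc Q = x := by
  obtain ⟨Q, hQ, rfl⟩ := exists_point_xc_h701 E x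
  rw [eval_fibrePoly_h701] at hx
  rcases rep_lad hQ n with ⟨-, h2, h3⟩ | ⟨h1, h2, h3⟩
  · rw [h2, mul_zero, sub_zero] at hx
    exact absurd hx h3
  · have hxc : xc (n • Q) = xc P := by
      have : (xc (n • Q) - xc P) * ladD E.b₂ E.b₄ E.b₆ E.b₈ (xc Q) n = 0 := by
        rw [sub_mul, h3]; exact hx
      exact sub_eq_zero.mp ((mul_eq_zero.mp this).resolve_right h2)
    rcases eq_or_eq_neg_of_xc_eq h1 hP hxc with h | h
    · exact ⟨Q, h, rfl⟩
    · refine ⟨-Q, ?_, xc_neg Q⟩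
      rw [smul_neg, h, neg_neg]

/-- The fibre of `[n]` over a point `P` which is not `2`-torsion is in bijection with the roots
of the fibre polynomial. -/
noncomputable def fibreEquivRoots_h701 (n : ℕ) {P : E.Point} (hP : P ≠ 0) (h2P : P + P ≠ 0) :
    {Q : E.Point // n • Q = P} ≃ {x : K // (fibrePoly_h701 E n (xc P)).eval x = 0} :=
  Equiv.ofBijective (fun Q => ⟨xc Q.1, eval_fibrePoly_xc_h701 n hP Q.2⟩) (by
    constructor
    · rintro ⟨Q, hQ⟩ ⟨Q', hQ'⟩ h
      have hx : xc Q = xc Q' := congrArg Subtype.val h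
      have hQ0 : Q ≠ 0 := by
        rintro rfl
        rw [smul_zero] at hQ
        exact hP hQ.symm
      have hQ'0 : Q' ≠ 0 := by
        rintro rfl
        rw [smul_zero] at hQ'
        exact hP hQ'.symm
      rcases eq_or_eq_neg_of_xc_eq hQ0 hQ'0 hx with h' | h'
      · exact Subtype.ext h'
      · exfalso
        apply h2P
        have hPneg : P = -P := by
          calc P = n • Q := hQ.symm
            _ = n • (-Q') := by rw [h']
            _ = -(n • Q') := smul_neg n Q'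
            _ = -P := by rw [hQ']
        calc P + P = P + -P := by rw [← hPneg]
          _ = 0 := add_neg_cancel P
    · rintro ⟨x, hx⟩
      obtain ⟨Q, hQ, hxQ⟩ := exists_of_eval_fibrePoly_h701 n hP hx
      exact ⟨⟨Q, hQ⟩, Subtype.ext hxQ⟩)

/-- A nonempty fibre of `[n]` is a coset of `E[n]`. -/
noncomputable def fibreEquivTorsion_h701 (n : ℕ) {P : E.Point} (Q₀ : E.Point)
    (hQ₀ : n • Q₀ = P) :
    {Q : E.Point // n • Q = P} ≃ Submodule.torsionBy ℤ E.Point ((n : ℕ) : ℤ) where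
  toFun Q := ⟨Q.1 - Q₀, by
    rw [Submodule.mem_torsionBy_iff, natCast_zsmul, smul_sub, Q.2, hQ₀, sub_self]⟩
  invFun T := ⟨T.1 + Q₀, by
    have h := (Submodule.mem_torsionBy_iff _ _).mp T.2
    rw [natCast_zsmul] at h
    rw [smul_add, h, hQ₀, zero_add]⟩
  left_inv Q := Subtype.ext (by simp)
  right_inv T := Subtype.ext (by simp)

variable (E)

/-- **The `n`-torsion of an elliptic curve over an algebraically closed field of characteristic
zero has exactly `n ^ 2` elements.** -/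
theorem card_torsionBy_eq_sq_h701 (n : ℕ) (hn : 1 ≤ n) :
    Nat.card (Submodule.torsionBy ℤ E.Point ((n : ℕ) : ℤ)) = n ^ 2 := by
  classical
  -- bad values of `t`
  obtain ⟨B, hB⟩ := exists_finset_separable_h701 (polyN E.b₂ E.b₄ E.b₆ E.b₈ n)
    (polyD E.b₂ E.b₄ E.b₆ E.b₈ n)
    (by rw [natDegree_polyN_h701 E n hn]; positivity)
    (polyN_polyD_no_common_root_h701 E n)
  set T : K[X] := C 4 * X ^ 3 + C E.b₂ * X ^ 2 + C (2 * E.b₄) * X + C E.b₆ with hT
  have hT0 : T ≠ 0 := by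
    intro h
    have := congrArg (fun p : K[X] => p.coeff 3) h
    simp [hT] at this
  obtain ⟨t, ht⟩ := Infinite.exists_notMem_finset (B ∪ T.roots.toFinset)
  rw [Finset.mem_union, not_or] at ht
  obtain ⟨htB, htT⟩ := ht
  obtain ⟨P, hP, rfl⟩ := exists_point_xc_h701 E t
  have h2P : P + P ≠ 0 := by
    apply add_self_ne_zero_of_dD_ne_zero hP
    intro h
    apply htT
    rw [Multiset.mem_toFinset, mem_roots hT0, IsRoot.def, hT]
    simp only [eval_add, eval_mul, eval_C, eval_pow, eval_X]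
    simp only [dD] at h
    linear_combination h
  have hsep : (fibrePoly_h701 E n (xc P)).Separable := hB _ htB
  have hroots := card_roots_of_separable_h701 _ hsep
  rw [natDegree_fibrePoly_h701 E n hn] at hroots
  -- the fibre is nonempty
  have hne : Nonempty {x : K // (fibrePoly_h701 E n (xc P)).eval x = 0} := by
    by_contra h
    rw [not_nonempty_iff] at h
    rw [Nat.card_of_isEmpty] at hroots
    have : 1 ≤ n ^ 2 := Nat.one_le_pow _ _ hn
    omega
  obtain ⟨⟨x, hx⟩⟩ := hne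
  obtain ⟨Q₀, hQ₀, -⟩ := exists_of_eval_fibrePoly_h701 n hP hx
  rw [← Nat.card_congr (fibreEquivTorsion_h701 n Q₀ hQ₀),
    Nat.card_congr (fibreEquivRoots_h701 n hP h2P), hroots]

end Fermat.Agent.S41.H701

end
-- ===== PACK-END S41/H701/CardTorsion.lean

-- ===== PACK-BEGIN S41/H701/FinrankTorsion.lean
section




/-!
# `E[p]` is two-dimensional over `𝔽_p` (helper701, S41 piece D1)

In the Prelude language (`Submodule.torsionBy ℤ (W'⁄K).Point p` with the `ZMod p`-module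
structure `instModuleZModTorsionBy`).
-/

open WeierstrassCurve WeierstrassCurve.Affine WeierstrassCurve.Affine.Point

set_option autoImplicit false

namespace Fermat.Agent.S41.H701

section

variable {R : Type*} {K : Type*} [CommRing R] [Field K] [DecidableEq K] [Algebra R K]
  [IsAlgClosed K] [CharZero K] (W' : Affine R) [(W'⁄K).IsElliptic]

/-- `#E[n] = n ^ 2`, Prelude language. -/
theorem card_torsion_eq_sq_prelude_h701 (n : ℕ) (hn : 1 ≤ n) :
    Nat.card (Submodule.torsionBy ℤ (W'⁄K).Point n) = n ^ 2 :=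
  card_torsionBy_eq_sq_h701 (W'⁄K) n hn

/-- `E[n]` is finite. -/
theorem finite_torsion_prelude_h701 (n : ℕ) (hn : 1 ≤ n) :
    Finite (Submodule.torsionBy ℤ (W'⁄K).Point n) := by
  apply Nat.finite_of_card_ne_zero
  rw [card_torsion_eq_sq_prelude_h701 W' n hn]
  positivity

/-- `dim_{𝔽_p} E[p] = 2`. -/
theorem finrank_torsion_eq_two_h701 (p : ℕ) [hp : Fact p.Prime] :
    Module.finrank (ZMod p) (Submodule.torsionBy ℤ (W'⁄K).Point p) = 2 := by
  have hfin : Finite (Submodule.torsionBy ℤ (W'⁄K).Point p) :=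
    finite_torsion_prelude_h701 W' p hp.out.one_le
  have h1 := card_torsion_eq_sq_prelude_h701 (K := K) W' p hp.out.one_le
  have h2 : Nat.card (Submodule.torsionBy ℤ (W'⁄K).Point p)
      = Nat.card (ZMod p) ^ Module.finrank (ZMod p) (Submodule.torsionBy ℤ (W'⁄K).Point p) :=
    Module.natCard_eq_pow_finrank
  rw [Nat.card_zmod, h1] at h2
  exact (Nat.pow_right_injective hp.out.two_le h2).symm

end

end Fermat.Agent.S41.H701

end
-- ===== PACK-END S41/H701/FinrankTorsion.lean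

-- ===== PACK-BEGIN S13/H891/Frey.lean
section





/-!
# S13 / T1 for the Frey curve

`T1_frey`: for a Frey package `P`, `V = E[p](ℚ̄)` is nontrivial, finite, of cardinality `≤ p^2`.
`exists_integral_poly`: the division polynomial with coefficients in a subring.
-/

open WeierstrassCurve WeierstrassCurve.Affine Polynomial
open Fermat.Agent.S51.Five (xc)

namespace Fermat.Agent.S13.H891

/-- the division polynomial `W_m` has coefficients in any ring `R` containing the `b`-invariants,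
leading coefficient `2m+1`, and vanishes at the `x`-coordinates of the nonzero `(2m+1)`-torsion
points -/
theorem exists_integral_poly {K : Type*} [Field K] [DecidableEq K]
    (E : WeierstrassCurve.Affine K) {R : Type*} [CommRing R] (φ : R →+* K)
    (c₂ c₄ c₆ c₈ : R) (h₂ : φ c₂ = E.b₂) (h₄ : φ c₄ = E.b₄) (h₆ : φ c₆ = E.b₆)
    (h₈ : φ c₈ = E.b₈) (m : ℕ) (hm : 1 ≤ m) :
    ∃ Q : R[X], Q.natDegree ≤ 2*m^2 + 2*m ∧ Q.coeff (2*m^2 + 2*m) = ((2*m+1 : ℕ) : R) ∧
      ∀ P : E.Point, P ≠ 0 → ((2*m+1) • P = 0 ↔ (Q.map φ).eval (xc P) = 0) := by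
  refine ⟨polyW c₂ c₄ c₆ c₈ m, (dc_polyW c₂ c₄ c₆ c₈ m hm).1, (dc_polyW c₂ c₄ c₆ c₈ m hm).2, ?_⟩
  intro P hP
  rw [map_polyW, h₂, h₄, h₆, h₈]
  exact torsion_iff_root hP m

local notation "Qbar" => AlgebraicClosure ℚ

lemma freyCurve_Δ (P : FreyPackage) :
    P.freyCurve.Δ = ((P.a : ℚ) * P.b * P.c) ^ (2 * P.p) / 2 ^ 8 := by
  have h : ((P.c : ℚ)) ^ P.p = (P.a : ℚ) ^ P.p + (P.b : ℚ) ^ P.p := by
    exact_mod_cast P.hFLT.symm
  simp only [WeierstrassCurve.Δ, WeierstrassCurve.b₂, WeierstrassCurve.b₄, WeierstrassCurve.b₆,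
    WeierstrassCurve.b₈, FreyPackage.freyCurve]
  rw [mul_pow, mul_pow, pow_mul', pow_mul', pow_mul', h]
  ring

lemma freyCurve_Δ_ne_zero (P : FreyPackage) : P.freyCurve.Δ ≠ 0 := by
  rw [freyCurve_Δ]
  have : ((P.a : ℚ) * P.b * P.c) ≠ 0 := by exact_mod_cast P.habc0
  exact div_ne_zero (pow_ne_zero _ this) (by norm_num)

/-- **T1 for the Frey curve**: `E[p](ℚ̄)` is nontrivial, finite, of cardinality at most `p^2`. -/
theorem T1_frey (P : FreyPackage) :
    Nontrivial (Submodule.torsionBy ℤ (P.freyCurve⁄Qbar).Point ((P.p : ℕ) : ℤ)) ∧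
    Finite (Submodule.torsionBy ℤ (P.freyCurve⁄Qbar).Point ((P.p : ℕ) : ℤ)) ∧
    Nat.card (Submodule.torsionBy ℤ (P.freyCurve⁄Qbar).Point ((P.p : ℕ) : ℤ)) ≤ P.p ^ 2 := by
  haveI : (P.freyCurve⁄Qbar).IsElliptic := by
    constructor
    rw [isUnit_iff_ne_zero]
    show (P.freyCurve.map (algebraMap ℚ Qbar)).Δ ≠ 0
    rw [WeierstrassCurve.map_Δ]
    exact (_root_.map_ne_zero _).mpr (freyCurve_Δ_ne_zero P)
  exact T1_odd (P.freyCurve⁄Qbar) P.p (by have := P.hp5; omega) P.hp_odd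

end Fermat.Agent.S13.H891

end
-- ===== PACK-END S13/H891/Frey.lean

-- ===== PACK-BEGIN Ribet/H52/TraceFormula.lean
section







/-!
# Row RIBET, piece TF (helper52): the trace formula from the Frobenius relation

* `FrobRelAll` : the Frobenius relation `σ² − a_ℓ σ + ℓ = 0` of `Lib/Frob/Statement.lean`
  WITHOUT the restriction `5 ≤ ℓ` (the cases `ℓ = 2, 3` are the deliverable of `Lib/Frob/Small`).
* `relation_of_model_h52` : a quadratic Galois relation on the points of an integral model `W`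
  of a `ℚ`-curve `E` holds on the points of `E` (transport along the change of variables,
  `Lib/VC`).
* `trace_of_rel_det_h52` : `n` prime, `τ` with `τ² − aτ + ℓ = 0` on `W[n]` and
  `det (τ | E[n]) = ℓ`  ⟹  `tr (τ | E[n]) = a`.
  (Cayley–Hamilton in rank two; `dim E[n] = 2` is `S41/H701`.)
* `trace_of_det_h52` : the same from `FrobRelAll`, for a Frobenius `τ` at a good prime `ℓ ≠ n`
  and `a = a_ℓ(W)`.
* `traceFormula_of_det_h52` : `Spec.TraceFormulaStatement` from `FrobRelAll` and the determinant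
  formula for all curves (`DetFrobAllStatement`);
  `traceFormulaFrey_of_h52` : the Frey form `TraceFormulaFreyStatement` from `FrobRelAll` and
  `Spec.DetFrobStatement`.

No Weil pairing is used; the determinant is an explicit hypothesis.
-/

set_option autoImplicit false

open WeierstrassCurve WeierstrassCurve.Affine WeierstrassCurve.Affine.Point

namespace Fermat.Agent.Ribet.H52

open Fermat.Agent.Lib.Frob (Qb Pts)
open Fermat.Agent.Ribet.Spec (GQ)

/-- The Frobenius relation of `Lib/Frob/Statement.lean` for ALL primes `ℓ` of good reduction. -/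
def FrobRelAll : Prop :=
  ∀ (W : WeierstrassCurve ℤ) (ℓ : ℕ), ℓ.Prime → W.IsGoodPrimeFor ℓ →
    ∀ (A : ValuationSubring Qb) (σ : Qb ≃ₐ[ℚ] Qb), A.LiesOverPrime ℓ → A.IsFrobeniusAt σ ℓ →
      ∀ (n : ℕ), 0 < n → ¬ ℓ ∣ n → ∀ P : Pts W, n • P = 0 →
        σ • σ • P - W.apOfModel ℓ • σ • P + (ℓ : ℤ) • P = 0

/-- `FrobRelAll` restricted to `ℓ ≥ 5` is `Lib.Frob.FrobRelation`. -/
theorem frobRelation_of_frobRelAll_h52 (hF : FrobRelAll) : Fermat.Agent.Lib.Frob.FrobRelation :=
  fun W ℓ hℓ _ hgood A σ hA hσ n hn hℓn P hP => hF W ℓ hℓ hgood A σ hA hσ n hn hℓn P hP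

/-- Transport of a quadratic Galois relation along a change of variables over `ℚ`. -/
theorem relation_of_smul_h52 (E : WeierstrassCurve ℚ) (C : VariableChange ℚ) (σ : Qb ≃ₐ[ℚ] Qb)
    (a b : ℤ) (n : ℕ)
    (h : ∀ P : ((C • E)⁄Qb).Point, n • P = 0 → σ • σ • P - a • σ • P + b • P = 0)
    (Q : (E⁄Qb).Point) (hQ : n • Q = 0) :
    σ • σ • Q - a • σ • Q + b • Q = 0 := by
  obtain ⟨P, rfl⟩ := (Fermat.Agent.Lib.VC.vcPointBC E C Qb).surjective Q
  have hP : n • P = 0 := by
    apply (Fermat.Agent.Lib.VC.vcPointBC E C Qb).injective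
    rw [map_nsmul, hQ, _root_.map_zero]
  have := congrArg (Fermat.Agent.Lib.VC.vcPointBC E C Qb) (h P hP)
  rw [_root_.map_zero, map_add, map_sub, map_zsmul, map_zsmul] at this
  simp only [algEquiv_smul_def] at this ⊢
  rw [← Fermat.Agent.Lib.VC.map_vcPointBC, ← Fermat.Agent.Lib.VC.map_vcPointBC] at this
  exact this

/-- A quadratic Galois relation on the `n`-torsion of an integral model `W` of `E` holds on the
`n`-torsion of `E`. -/
theorem relation_of_model_h52 (E : WeierstrassCurve ℚ) (W : WeierstrassCurve ℤ)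
    (hW : W.IsIntegralModelOf E) (σ : Qb ≃ₐ[ℚ] Qb) (a b : ℤ) (n : ℕ)
    (h : ∀ P : Pts W, n • P = 0 → σ • σ • P - a • σ • P + b • P = 0)
    (Q : (E⁄Qb).Point) (hQ : n • Q = 0) :
    σ • σ • Q - a • σ • Q + b • Q = 0 := by
  obtain ⟨C, hC⟩ := hW
  have h1 : ∀ P : ((W.map (Int.castRingHom ℚ))⁄Qb).Point, n • P = 0 →
      σ • σ • P - a • σ • P + b • P = 0 := h
  rw [← hC] at h1
  exact relation_of_smul_h52 E C σ a b n h1 Q hQ

section Trace

variable (E : WeierstrassCurve ℚ)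

/-- The Galois action on `E[n]` is the restriction of the action on points. -/
theorem coe_smul_torsion_h52 (n : ℕ) (σ : Qb ≃ₐ[ℚ] Qb)
    (P : Submodule.torsionBy ℤ (E⁄Qb).Point n) :
    ((σ • P : Submodule.torsionBy ℤ (E⁄Qb).Point n) : (E⁄Qb).Point) = σ • (P : (E⁄Qb).Point) :=
  rfl

variable [E.IsElliptic]

/-- The base change of an elliptic curve to `ℚ̄` is elliptic. -/
theorem isElliptic_baseChange_h52 : (E⁄Qb).IsElliptic :=
  inferInstanceAs ((E.map (algebraMap ℚ Qb)).IsElliptic)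

/-- `dim E[n] = 2` over `𝔽_n`, for `E` over `ℚ`. -/
theorem finrank_torsion_h52 (n : ℕ) [Fact n.Prime] :
    Module.finrank (ZMod n) (Submodule.torsionBy ℤ (E⁄Qb).Point n) = 2 := by
  have := isElliptic_baseChange_h52 E
  exact Fermat.Agent.S41.H701.finrank_torsion_eq_two_h701 (K := Qb) E n

/-- The Galois action on `E[n]` is by nonzero endomorphisms. -/
theorem galoisRepModuleEnd_ne_zero_h52 (n : ℕ) [Fact n.Prime] (σ : Qb ≃ₐ[ℚ] Qb) :
    galoisRepModuleEnd (S := ℚ) (K := Qb) E n σ ≠ 0 := by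
  intro h0
  have hnt : Nontrivial (Submodule.torsionBy ℤ (E⁄Qb).Point n) := by
    apply Module.nontrivial_of_finrank_pos (R := ZMod n)
    rw [finrank_torsion_h52 E n]; norm_num
  obtain ⟨x, hx⟩ := exists_ne (0 : Submodule.torsionBy ℤ (E⁄Qb).Point n)
  apply hx
  have h1 : σ • x = 0 := by
    have := congrArg (fun f => f x) h0
    simpa using this
  have h2 := congrArg (fun y => σ⁻¹ • y) h1
  simpa using h2

/-- **Trace from a quadratic relation and the determinant.**  `n` prime, `W` an integral model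
of `E`, `τ ∈ G_ℚ` with `τ² − a τ + ℓ = 0` on `W[n]`.  If `det (τ | E[n]) = ℓ` then
`tr (τ | E[n]) = a`. -/
theorem trace_of_rel_det_h52 (W : WeierstrassCurve ℤ) (hW : W.IsIntegralModelOf E)
    (n : ℕ) (hn : n.Prime) (a ℓ : ℤ) (τ : GQ)
    (hrel : ∀ P : Pts W, n • P = 0 → τ • τ • P - a • τ • P + ℓ • P = 0)
    (hdet : LinearMap.det (galoisRepModuleEnd (S := ℚ) (K := Qb) E n τ) = (ℓ : ZMod n)) :
    galoisTrace (S := ℚ) (K := Qb) E n τ = (a : ZMod n) := by
  have : Fact n.Prime := ⟨hn⟩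
  rw [galoisTrace_def]
  refine trace_eq_of_quadratic_h52 (finrank_torsion_h52 E n) _ _ (ℓ : ZMod n) ?_ hdet
    (galoisRepModuleEnd_ne_zero_h52 E n τ)
  apply LinearMap.ext
  intro x
  apply Subtype.ext
  have hx : n • (x : (E⁄Qb).Point) = 0 := by
    have := x.2
    rw [Submodule.mem_torsionBy_iff] at this
    rw [← this]
    exact (natCast_zsmul (x : (E⁄Qb).Point) n).symm
  have key := relation_of_model_h52 E W hW τ a ℓ n hrel (x : (E⁄Qb).Point) hx
  have e1 : (((a : ℤ) : ZMod n) • galoisRepModuleEnd (S := ℚ) (K := Qb) E n τ) x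
      = a • (τ • x) := by
    rw [LinearMap.smul_apply, galoisRepModuleEnd_apply, Int.cast_smul_eq_zsmul]
  have e2 : (((ℓ : ZMod n)) • (1 : Module.End (ZMod n)
      (Submodule.torsionBy ℤ (E⁄Qb).Point n))) x = ℓ • x := by
    rw [LinearMap.smul_apply, Module.End.one_apply, Int.cast_smul_eq_zsmul]
  rw [LinearMap.add_apply, LinearMap.sub_apply, e1, e2, Module.End.mul_apply,
    galoisRepModuleEnd_apply, galoisRepModuleEnd_apply]
  simp only [Submodule.coe_add, Submodule.coe_sub, Submodule.coe_smul_of_tower,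
    coe_smul_torsion_h52, ZeroMemClass.coe_zero, LinearMap.zero_apply]
  exact key

/-- **Trace from determinant.**  `n ≠ ℓ` primes, `W` an integral model of `E` good at `ℓ`, `τ` a
Frobenius at a place over `ℓ`.  If `det (τ | E[n]) = ℓ` then `tr (τ | E[n]) = a_ℓ(W)`. -/
theorem trace_of_det_h52 (hF : FrobRelAll) (W : WeierstrassCurve ℤ)
    (hW : W.IsIntegralModelOf E) (n ℓ : ℕ) (hn : n.Prime) (hℓ : ℓ.Prime) (hℓn : ℓ ≠ n)
    (hgood : W.IsGoodPrimeFor ℓ) (A : ValuationSubring Qb) (hA : A.LiesOverPrime ℓ)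
    (τ : GQ) (hτ : A.IsFrobeniusAt τ ℓ)
    (hdet : LinearMap.det (galoisRepModuleEnd (S := ℚ) (K := Qb) E n τ) = (ℓ : ZMod n)) :
    galoisTrace (S := ℚ) (K := Qb) E n τ = ((W.apOfModel ℓ : ℤ) : ZMod n) := by
  have hndvd : ¬ ℓ ∣ n := fun h => hℓn ((Nat.prime_dvd_prime_iff_eq hℓ hn).mp h)
  refine trace_of_rel_det_h52 E W hW n hn (W.apOfModel ℓ) (ℓ : ℤ) τ
    (fun P hP => hF W ℓ hℓ hgood A τ hA hτ n hn.pos hndvd P hP) ?_
  rw [hdet]
  push_cast
  rfl

/-- The same for `ℓ ≥ 5`, from `Lib.Frob.FrobRelation` (which is proved on main: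
`Lib.Frob.frobRelation_of_parts frobRelationFin reductionData`). -/
theorem trace_of_det_of_five_le_h52 (hF : Fermat.Agent.Lib.Frob.FrobRelation)
    (W : WeierstrassCurve ℤ)
    (hW : W.IsIntegralModelOf E) (n ℓ : ℕ) (hn : n.Prime) (hℓ : ℓ.Prime) (h5 : 5 ≤ ℓ)
    (hℓn : ℓ ≠ n)
    (hgood : W.IsGoodPrimeFor ℓ) (A : ValuationSubring Qb) (hA : A.LiesOverPrime ℓ)
    (τ : GQ) (hτ : A.IsFrobeniusAt τ ℓ)
    (hdet : LinearMap.det (galoisRepModuleEnd (S := ℚ) (K := Qb) E n τ) = (ℓ : ZMod n)) :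
    galoisTrace (S := ℚ) (K := Qb) E n τ = ((W.apOfModel ℓ : ℤ) : ZMod n) := by
  have hndvd : ¬ ℓ ∣ n := fun h => hℓn ((Nat.prime_dvd_prime_iff_eq hℓ hn).mp h)
  refine trace_of_rel_det_h52 E W hW n hn (W.apOfModel ℓ) (ℓ : ℤ) τ
    (fun P hP => hF W ℓ hℓ h5 hgood A τ hA hτ n hn.pos hndvd P hP) ?_
  rw [hdet]
  push_cast
  rfl

end Trace

/-- The determinant formula at Frobenius elements, for all elliptic curves over `ℚ`
(consequence of the Weil pairing; NOT proved here). -/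
def DetFrobAllStatement : Prop :=
  ∀ (E : WeierstrassCurve ℚ) [E.IsElliptic] (n ℓ : ℕ), n.Prime → ℓ.Prime → ℓ ≠ n →
    ∀ A : ValuationSubring Qb, A.LiesOverPrime ℓ → ∀ τ : GQ, A.IsFrobeniusAt τ ℓ →
      LinearMap.det (galoisRepModuleEnd (S := ℚ) (K := Qb) E n τ) = (ℓ : ZMod n)

/-- `Spec.TraceFormulaStatement` from the Frobenius relation at all primes and the determinant
formula. -/
theorem traceFormula_of_det_h52 (hF : FrobRelAll) (hD : DetFrobAllStatement) :
    Fermat.Agent.Ribet.Spec.TraceFormulaStatement := by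
  intro E _ W hW n ℓ hn hℓ hℓn hgood A hA τ hτ
  exact trace_of_det_h52 E hF W hW n ℓ hn hℓ hℓn hgood A hA τ hτ (hD E n ℓ hn hℓ hℓn A hA τ hτ)

/-- (TF-Frey) the trace formula for the Frey curve: for every integral model `W` of the Frey
curve, every prime `ℓ ≠ p` of good reduction of `W` and every Frobenius `τ` at a place over `ℓ`,
`tr (τ | E[p]) = a_ℓ(W)`. -/
def TraceFormulaFreyStatement : Prop :=
  ∀ (P : FreyPackage) (W : WeierstrassCurve ℤ), W.IsIntegralModelOf P.freyCurve →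
    ∀ ℓ : ℕ, ℓ.Prime → ℓ ≠ P.p → W.IsGoodPrimeFor ℓ →
    ∀ A : ValuationSubring Qb, A.LiesOverPrime ℓ → ∀ τ : GQ, A.IsFrobeniusAt τ ℓ →
      galoisTrace (S := ℚ) (K := Qb) P.freyCurve P.p τ = ((W.apOfModel ℓ : ℤ) : ZMod P.p)

/-- The Frey curve is an elliptic curve. -/
theorem freyCurve_isElliptic_h52 (P : FreyPackage) : P.freyCurve.IsElliptic :=
  ⟨isUnit_iff_ne_zero.mpr (Fermat.Agent.S13.H891.freyCurve_Δ_ne_zero P)⟩

/-- **TF, Frey form**, from the Frobenius relation at all primes and `Spec.DetFrobStatement`. -/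
theorem traceFormulaFrey_of_h52 (hF : FrobRelAll)
    (hD : Fermat.Agent.Ribet.Spec.DetFrobStatement) : _root_.Fermat.Agent.Ribet.H52.TraceFormulaFreyStatement := by
  intro P W hW ℓ hℓ hℓp hgood A hA τ hτ
  have := freyCurve_isElliptic_h52 P
  exact trace_of_det_h52 P.freyCurve hF W hW P.p ℓ P.pp hℓ hℓp hgood A hA τ hτ
    (hD P ℓ hℓ hℓp A hA τ hτ)

/-- TF, Frey form, at the primes `ℓ ≥ 5`, from `Lib.Frob.FrobRelation` (on main) and
`Spec.DetFrobStatement`. -/
theorem traceFormulaFrey_of_five_le_h52 (hF : Fermat.Agent.Lib.Frob.FrobRelation)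
    (hD : Fermat.Agent.Ribet.Spec.DetFrobStatement)
    (P : FreyPackage) (W : WeierstrassCurve ℤ) (hW : W.IsIntegralModelOf P.freyCurve)
    (ℓ : ℕ) (hℓ : ℓ.Prime) (h5 : 5 ≤ ℓ) (hℓp : ℓ ≠ P.p) (hgood : W.IsGoodPrimeFor ℓ)
    (A : ValuationSubring Qb) (hA : A.LiesOverPrime ℓ) (τ : GQ) (hτ : A.IsFrobeniusAt τ ℓ) :
    galoisTrace (S := ℚ) (K := Qb) P.freyCurve P.p τ = ((W.apOfModel ℓ : ℤ) : ZMod P.p) := by
  have := freyCurve_isElliptic_h52 P
  exact trace_of_det_of_five_le_h52 P.freyCurve hF W hW P.p ℓ P.pp hℓ h5 hℓp hgood A hA τ hτ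
    (hD P ℓ hℓ hℓp A hA τ hτ)

end Fermat.Agent.Ribet.H52

end
-- ===== PACK-END Ribet/H52/TraceFormula.lean

-- ===== PACK-BEGIN S28/H508/CoreToBasis.lean
section
/-
S28 (Igusa) -- helper508: adapter `CoreData N (ZMod ℓ) → BasisData N ℓ`
(captain interfaces `Fermat/Agent/S28/Defs.lean`, `Fermat/Agent/S28/Basis.lean`).
-/



set_option autoImplicit false

noncomputable section

open ModularCurve HahnSeries Polynomial

namespace Fermat.Agent.S28.H508

/-- Elements of `ℤ[j(q^d) : d ∣ N]` are integral over `ℤ[j]` as soon as the generators are. -/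
theorem isIntegralElem_of_mem_closure (N : ℕ)
    (hint : ∀ (d : ℕ) [NeZero d], d ∣ N →
      ∃ P : Polynomial (Polynomial ℤ), P.Monic ∧
        P.eval₂ (evalAt (jqModC ℤ)) (qExpand ℤ d (jqModC ℤ)) = 0)
    {y : LaurentSeries ℤ} (hy : y ∈ Subring.closure (intDivisorExpansions N)) :
    (evalAt (jqModC ℤ)).IsIntegralElem y := by
  induction hy using Subring.closure_induction with
  | mem x hx =>
    obtain ⟨d, hd, hdN, rfl⟩ := hx
    exact hint d hdN
  | zero => exact (evalAt (jqModC ℤ)).isIntegralElem_zero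
  | one => exact (evalAt (jqModC ℤ)).isIntegralElem_one
  | add x y _ _ hx hy => exact RingHom.IsIntegralElem.add _ hx hy
  | neg x _ hx => exact RingHom.IsIntegralElem.neg _ hx
  | mul x y _ _ hx hy => exact RingHom.IsIntegralElem.mul _ hx hy

theorem evalAt_C (a : ℤ) : evalAt (jqModC ℚ) (C a) = (a : LaurentSeries ℚ) := by
  simp [evalAt]

/-- Every element of `ℚ(j)` is a quotient of two integer polynomials in `j`. -/
theorem exists_int_fraction {c : LaurentSeries ℚ} (hc : c ∈ jField ℚ) :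
    ∃ f g : Polynomial ℤ, evalAt (jqModC ℚ) g ≠ 0 ∧
      evalAt (jqModC ℚ) g * c = evalAt (jqModC ℚ) f := by
  unfold jField at hc
  induction hc using IntermediateField.adjoin_induction with
  | mem x hx =>
    rw [Set.mem_singleton_iff] at hx
    subst hx
    refine ⟨X, 1, ?_, ?_⟩
    · rw [map_one]; exact one_ne_zero
    · rw [map_one, one_mul]
      simp [evalAt]
  | algebraMap r =>
    refine ⟨C r.num, C (r.den : ℤ), ?_, ?_⟩
    · rw [evalAt_C, Int.cast_natCast, ← map_natCast (HahnSeries.C (Γ := ℤ) (R := ℚ))]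
      exact (map_ne_zero_iff _ HahnSeries.C_injective).mpr (by exact_mod_cast r.den_ne_zero)
    · rw [evalAt_C, evalAt_C]
      have h : ((r.den : ℚ)) * r = (r.num : ℚ) := by
        rw [mul_comm]; exact Rat.mul_den_eq_num r
      have h2 := congrArg (algebraMap ℚ (LaurentSeries ℚ)) h
      rw [map_mul, map_natCast, map_intCast] at h2
      exact_mod_cast h2
  | add x y _ _ hx hy =>
    obtain ⟨f₁, g₁, hg₁, h₁⟩ := hx
    obtain ⟨f₂, g₂, hg₂, h₂⟩ := hy
    refine ⟨f₁ * g₂ + f₂ * g₁, g₁ * g₂, ?_, ?_⟩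
    · rw [map_mul]; exact mul_ne_zero hg₁ hg₂
    · rw [map_mul, map_add, map_mul, map_mul, ← h₁, ← h₂]; ring
  | inv x _ hx =>
    obtain ⟨f, g, hg, h⟩ := hx
    by_cases hf : evalAt (jqModC ℚ) f = 0
    · have hx0 : x = 0 := by
        rw [hf] at h
        exact (mul_eq_zero.mp h).resolve_left hg
      refine ⟨0, 1, ?_, ?_⟩
      · rw [map_one]; exact one_ne_zero
      · rw [hx0, inv_zero, mul_zero, map_zero]
    · refine ⟨g, f, hf, ?_⟩
      have hx0 : x ≠ 0 := by
        rintro rfl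
        rw [mul_zero] at h
        exact hf h.symm
      rw [← h]
      field_simp
  | mul x y _ _ hx hy =>
    obtain ⟨f₁, g₁, hg₁, h₁⟩ := hx
    obtain ⟨f₂, g₂, hg₂, h₂⟩ := hy
    refine ⟨f₁ * f₂, g₁ * g₂, ?_, ?_⟩
    · rw [map_mul]; exact mul_ne_zero hg₁ hg₂
    · rw [map_mul, map_mul, ← h₁, ← h₂]; ring

/-- Clearing denominators in a `ℚ(j)`-linear combination. -/
theorem exists_cleared_of_mem_span {n : ℕ} (v : Fin n → LaurentSeries ℚ) {x : LaurentSeries ℚ}
    (hx : x ∈ Submodule.span (jField ℚ) (Set.range v)) :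
    ∃ (g : Polynomial ℤ) (f : Fin n → Polynomial ℤ), g ≠ 0 ∧
      evalAt (jqModC ℚ) g * x = ∑ i, evalAt (jqModC ℚ) (f i) * v i := by
  obtain ⟨c, rfl⟩ := (Submodule.mem_span_range_iff_exists_fun (jField ℚ)).mp hx
  have hc : ∀ i, ∃ f g : Polynomial ℤ, evalAt (jqModC ℚ) g ≠ 0 ∧
      evalAt (jqModC ℚ) g * (c i : LaurentSeries ℚ) = evalAt (jqModC ℚ) f :=
    fun i => exists_int_fraction (c i).2
  choose f g hg hfg using hc
  refine ⟨∏ i, g i, fun i => f i * ∏ k ∈ Finset.univ.erase i, g k, ?_, ?_⟩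
  · intro h0
    have : evalAt (jqModC ℚ) (∏ i, g i) = 0 := by rw [h0, map_zero]
    rw [map_prod] at this
    obtain ⟨i, -, hi⟩ := Finset.prod_eq_zero_iff.mp this
    exact hg i hi
  · rw [Finset.mul_sum]
    refine Finset.sum_congr rfl fun i _ => ?_
    rw [← Finset.mul_prod_erase Finset.univ g (Finset.mem_univ i), map_mul, map_mul,
      IntermediateField.smul_def, smul_eq_mul, ← hfg i]
    ring

/-- The adapter: the field-theoretic core output `CoreData` (over `𝔽_ℓ`) gives the K-free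
interface `BasisData` consumed by the valuation layer. -/
theorem basisData_of_coreData (N : ℕ) [NeZero N] (ℓ : ℕ) [Fact ℓ.Prime]
    (h : CoreData N (ZMod ℓ)) : BasisData N ℓ := by
  obtain ⟨n, y, hy, hspan, hind⟩ := h.exists_basis
  refine ⟨n, y, ?_, ?_, ?_⟩
  · intro i
    obtain ⟨P, hP, hPy⟩ := isIntegralElem_of_mem_closure N h.integral (hy i)
    refine ⟨1, P, ?_, ?_, hPy⟩
    · exact (Nat.Prime.one_lt (Fact.out : ℓ.Prime)).ne' ∘ Nat.dvd_one.mp
    · rw [hP.leadingCoeff]; simp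
  · intro x hx
    exact exists_cleared_of_mem_span _ (hspan x hx)
  · intro f hf
    have hmem : ∀ i, Polynomial.aeval (jqModC (ZMod ℓ)) (f i) ∈ jField (ZMod ℓ) := fun i =>
      IntermediateField.algebra_adjoin_le_adjoin _ _ (Polynomial.aeval_mem_adjoin_singleton _ _)
    have h0 := Fintype.linearIndependent_iff.mp hind
      (fun i => ⟨Polynomial.aeval (jqModC (ZMod ℓ)) (f i), hmem i⟩) (by
        simpa [IntermediateField.smul_def] using hf)
    intro i
    have hi := congrArg Subtype.val (h0 i)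
    simp only [ZeroMemClass.coe_zero] at hi
    exact h88_aeval_jqModC_injective (ZMod ℓ) (by rw [hi, map_zero])

end Fermat.Agent.S28.H508

end
end
-- ===== PACK-END S28/H508/CoreToBasis.lean

-- ===== PACK-BEGIN A2/H552/HConst.lean
section



/-!
# A2 / ALG, route S: the hypothesis `hconst` of `A2.H348.exists_pow_eq_of_local_factorisation`
over a Henselian base (helper552)

`R` a Henselian discrete valuation ring with algebraically closed residue field, uniformiser `w`,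
`E = Frac R` of characteristic zero, `m` invertible in the residue field; `F ⊇ R` a field with a
valuation subring `V ⊇ R` with uniformiser `w` and `F = V[1/w]` (the Gauss valuation ring `V∞`),
`u = 1 + w t` with `t ∈ V`.

`hconst_of_henselian` : constants do not grow in the residue fields of the Kummer algebra
`F[X]/(X ^ m - u)` — VERBATIM the hypothesis `hconst` of
`Fermat.Agent.A2.H348.exists_pow_eq_of_local_factorisation`.
-/

set_option autoImplicit false

namespace Fermat.Agent.A2.H552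

open Polynomial IsLocalRing

section HConst

variable {R E F : Type*} [CommRing R] [IsDomain R] [IsDiscreteValuationRing R]
  [HenselianLocalRing R] [IsAlgClosed (ResidueField R)]
  [Field E] [CharZero E] [Algebra R E] [IsFractionRing R E]
  [Field F] [Algebra R F] [Algebra E F] [IsScalarTower R E F]

variable (E) in
include E in
/-- **`hconst` over a Henselian base.** -/
theorem hconst_of_henselian (w : R) (hw : Irreducible w) (V : ValuationSubring F)
    (hRV : ∀ r : R, algebraMap R F r ∈ V)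
    (hwV : (algebraMap R F w)⁻¹ ∉ V)
    (hVgen : ∀ a ∈ V, a⁻¹ ∉ V → a * (algebraMap R F w)⁻¹ ∈ V)
    (hdisc : ∀ c : F, ∃ k : ℕ, algebraMap R F w ^ k * c ∈ V)
    (m : ℕ) (hm : (m : ResidueField R) ≠ 0)
    (t : F) (ht : t ∈ V) (u : F) (hu : u = 1 + algebraMap R F w * t) :
    ∀ 𝔫 : Ideal (AdjoinRoot (X ^ m - C u)), 𝔫.IsMaximal →
      ∀ y : AdjoinRoot (X ^ m - C u) ⧸ 𝔫, IsIntegral R y →
        y ∈ Set.range (algebraMap R (AdjoinRoot (X ^ m - C u) ⧸ 𝔫)) := by
  intro 𝔫 h𝔫 y hy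
  let _ : Field (AdjoinRoot (X ^ m - C u) ⧸ 𝔫) := Ideal.Quotient.field 𝔫
  have : IsScalarTower R E (AdjoinRoot (X ^ m - C u) ⧸ 𝔫) :=
    IsScalarTower.of_algebraMap_eq fun r => by
      change Ideal.Quotient.mk 𝔫 (AdjoinRoot.of _ (algebraMap R F r)) =
        Ideal.Quotient.mk 𝔫 (AdjoinRoot.of _ (algebraMap E F (algebraMap R E r)))
      rw [← IsScalarTower.algebraMap_apply R E F]
  have : IsScalarTower R F (AdjoinRoot (X ^ m - C u) ⧸ 𝔫) :=
    IsScalarTower.of_algebraMap_eq fun r => rfl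
  set z : AdjoinRoot (X ^ m - C u) ⧸ 𝔫 := Ideal.Quotient.mk 𝔫 (AdjoinRoot.root _) with hzdef
  have hz : z ^ m = algebraMap F (AdjoinRoot (X ^ m - C u) ⧸ 𝔫) (1 + algebraMap R F w * t) := by
    rw [← hu]
    have h := AdjoinRoot.eval₂_root (X ^ m - C u : F[X])
    rw [eval₂_sub, eval₂_pow, eval₂_X, eval₂_C, sub_eq_zero] at h
    rw [hzdef, ← map_pow, h]
    rfl
  have hgen : ∀ b : AdjoinRoot (X ^ m - C u) ⧸ 𝔫,
      b ∈ Algebra.adjoin F ({z} : Set (AdjoinRoot (X ^ m - C u) ⧸ 𝔫)) := by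
    intro b
    obtain ⟨a, rfl⟩ := Ideal.Quotient.mk_surjective b
    have ha : a ∈ Algebra.adjoin F ({AdjoinRoot.root (X ^ m - C u)} : Set (AdjoinRoot _)) := by
      rw [AdjoinRoot.adjoinRoot_eq_top]
      exact Algebra.mem_top
    have := Algebra.adjoin_image F (Ideal.Quotient.mkₐ F 𝔫)
      ({AdjoinRoot.root (X ^ m - C u)} : Set (AdjoinRoot _))
    rw [Set.image_singleton] at this
    rw [hzdef]
    change Ideal.Quotient.mkₐ F 𝔫 a ∈ Algebra.adjoin F {Ideal.Quotient.mkₐ F 𝔫 (AdjoinRoot.root _)}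
    rw [this]
    exact ⟨a, ha, rfl⟩
  exact kummer_isIntegral_mem_range E w hw V hRV hwV hVgen hdisc m hm t ht z hz hgen y hy

end HConst

end Fermat.Agent.A2.H552

end
-- ===== PACK-END A2/H552/HConst.lean

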