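import Mathlib
import Fermat.Prelude.Def_GaloisRep_Adic
import Fermat.Prelude.Def_FLTPrelim_GaloisRep
import Fermat.Prelude.Def_ModularCurve_X0ModL
import Fermat.Prelude.Thm_ModularCurve_coeffMap_qExpand
import Fermat.Agent.Pack.S58.E2L0
import Fermat.Agent.Pack.S58.E1L2
import Fermat.Agent.Pack.S58.E2L1
import Fermat.Agent.Pack.S58.E1L1
import Fermat.Agent.Pack.S36.E7L2
import Fermat.Agent.Pack.S36.E9L0
import Fermat.Agent.Pack.S58.E0L3
import Fermat.Agent.Pack.S36.E13L2
import Fermat.Agent.Pack.S36.E12L1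
import Fermat.Agent.Pack.S36.E12L2
import Fermat.Agent.Pack.S36.E3L2

-- ===== PACK-BEGIN S59/H127/FibPoly.lean
section



/-!
# E-side foundation, part 1: fibres of multiplication by `n` on the `x`-line

For a Weierstrass curve `E` over a field `K`, the landed `x`-ladder (`S13/H891`) gives polynomials
`N_n, D_n` with `x(nQ) = N_n(x(Q)) / D_n(x(Q))`.  Here we study the *fibre polynomial*
`fibPoly E n c = N_n - c D_n`:

* it is monic of degree `n^2` (`fibPoly_monic`, `natDegree_fibPoly`);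
* for `Q ≠ 0`, `x(Q)` is a root iff `nQ ≠ 0` and `x(nQ) = c` (`fibPoly_root_iff`);
* over an algebraically closed field of characteristic `0`, multiplication by `n ≥ 1` is
  surjective on `E(K)` (`exists_nsmul_eq`).
-/

open WeierstrassCurve WeierstrassCurve.Affine Polynomial
open Fermat.Agent.S51.Five (xc dD dN xc_add_self add_self_ne_zero_of_dD_ne_zero
  eq_or_eq_neg_of_xc_eq xc_neg xc_some exists_equation)
open Fermat.Agent.S13.H891

namespace Fermat.Agent.S59.H127

variable {K : Type*} [Field K]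

/-- the fibre polynomial `N_n - c D_n`; its roots are the `x(Q)` with `x(nQ) = c` -/
noncomputable def fibPoly (E : WeierstrassCurve.Affine K) (n : ℕ) (c : K) : K[X] :=
  polyN E.b₂ E.b₄ E.b₆ E.b₈ n - C c * polyD E.b₂ E.b₄ E.b₆ E.b₈ n

section degree

variable (E : WeierstrassCurve.Affine K)

lemma dc_fibPoly (n : ℕ) (hn : 1 ≤ n) (c : K) : DC (fibPoly E n c) (n ^ 2) 1 := by
  obtain ⟨hN, hD⟩ := dc_poly E.b₂ E.b₄ E.b₆ E.b₈ n hn
  have h1 : 1 ≤ n ^ 2 := Nat.one_le_pow _ _ hn
  have hD' : DC (C c * polyD E.b₂ E.b₄ E.b₆ E.b₈ n) (n ^ 2) 0 :=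
    DC.of_lt ((natDegree_C_mul_le c _).trans hD.1) (by omega)
  have := hN.sub hD'
  rw [sub_zero] at this
  exact this

lemma natDegree_fibPoly (n : ℕ) (hn : 1 ≤ n) (c : K) : (fibPoly E n c).natDegree = n ^ 2 := by
  obtain ⟨h1, h2⟩ := dc_fibPoly E n hn c
  exact natDegree_eq_of_le_of_coeff_ne_zero h1 (by rw [h2]; exact one_ne_zero)

lemma fibPoly_monic (n : ℕ) (hn : 1 ≤ n) (c : K) : (fibPoly E n c).Monic := by
  rw [Monic, leadingCoeff, natDegree_fibPoly E n hn c]
  exact (dc_fibPoly E n hn c).2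

lemma fibPoly_ne_zero (n : ℕ) (hn : 1 ≤ n) (c : K) : fibPoly E n c ≠ 0 :=
  (fibPoly_monic E n hn c).ne_zero

lemma eval_fibPoly (n : ℕ) (c x : K) :
    (fibPoly E n c).eval x
      = ladN E.b₂ E.b₄ E.b₆ E.b₈ x n - c * ladD E.b₂ E.b₄ E.b₆ E.b₈ x n := by
  simp only [fibPoly, eval_sub, eval_mul, eval_C, eval_polyN, eval_polyD]

end degree

variable [DecidableEq K] {E : WeierstrassCurve.Affine K}

/-- for `Q ≠ 0`: `x(Q)` is a root of `N_n - c D_n` iff `nQ ≠ 0` and `x(nQ) = c` -/
theorem fibPoly_root_iff {Q : E.Point} (hQ : Q ≠ 0) (n : ℕ) (c : K) :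
    (fibPoly E n c).eval (xc Q) = 0 ↔ n • Q ≠ 0 ∧ xc (n • Q) = c := by
  rw [eval_fibPoly]
  rcases rep_lad hQ n with ⟨h0, hd, hN⟩ | ⟨h0, hd, hx⟩
  · rw [hd, mul_zero, sub_zero]
    exact ⟨fun h => absurd h hN, fun h => absurd h0 h.1⟩
  · rw [← hx, ← sub_mul]
    constructor
    · intro h
      exact ⟨h0, sub_eq_zero.mp ((mul_eq_zero.mp h).resolve_right hd)⟩
    · rintro ⟨-, h⟩
      rw [h, sub_self, zero_mul]

/-- `N_n` and `D_n` have no common zero -/
theorem ladN_ne_zero_of_ladD_eq_zero {Q : E.Point} (hQ : Q ≠ 0) (n : ℕ)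
    (hD : ladD E.b₂ E.b₄ E.b₆ E.b₈ (xc Q) n = 0) :
    ladN E.b₂ E.b₄ E.b₆ E.b₈ (xc Q) n ≠ 0 := by
  rcases rep_lad hQ n with ⟨-, -, hN⟩ | ⟨-, hd, -⟩
  · exact hN
  · exact absurd hD hd

section algClosed

variable [IsAlgClosed K] [CharZero K] [E.IsElliptic]

/-- every `x ∈ K` is the `x`-coordinate of a point -/
lemma exists_point_xc (E : WeierstrassCurve.Affine K) [E.IsElliptic] (x : K) :
    ∃ Q : E.Point, Q ≠ 0 ∧ xc Q = x := by
  obtain ⟨y, hy⟩ := exists_equation E x
  have hns : E.Nonsingular x y := Affine.equation_iff_nonsingular.mp hy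
  exact ⟨Point.some x y hns, Point.some_ne_zero _, rfl⟩

/-- the points over the roots of the fibre polynomial: for a root `x` of `N_n - x(P) D_n` there
is `Q` with `x(Q) = x` and `nQ = P` -/
lemma exists_nsmul_eq_of_root {P : E.Point} (hP : P ≠ 0) (n : ℕ) {x : K}
    (hx : (fibPoly E n (xc P)).eval x = 0) : ∃ Q : E.Point, xc Q = x ∧ n • Q = P := by
  obtain ⟨Q, hQ, rfl⟩ := exists_point_xc E x
  obtain ⟨h0, h1⟩ := (fibPoly_root_iff hQ n (xc P)).mp hx
  rcases eq_or_eq_neg_of_xc_eq h0 hP h1 with h | h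
  · exact ⟨Q, rfl, h⟩
  · exact ⟨-Q, xc_neg Q, by rw [smul_neg, h, neg_neg]⟩

/-- multiplication by `n ≥ 1` is surjective on `E(K)`, `K` algebraically closed of
characteristic `0` -/
theorem exists_nsmul_eq (n : ℕ) (hn : 1 ≤ n) (P : E.Point) : ∃ Q : E.Point, n • Q = P := by
  by_cases hP : P = 0
  · exact ⟨0, by rw [hP, smul_zero]⟩
  have hdeg : (fibPoly E n (xc P)).degree ≠ 0 := by
    rw [degree_eq_natDegree (fibPoly_ne_zero E n hn _), natDegree_fibPoly E n hn]
    have : 0 < n ^ 2 := by positivity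
    exact_mod_cast this.ne'
  obtain ⟨x, hx⟩ := IsAlgClosed.exists_root _ hdeg
  obtain ⟨Q, -, hQ⟩ := exists_nsmul_eq_of_root hP n hx
  exact ⟨Q, hQ⟩

end algClosed

end Fermat.Agent.S59.H127

end
-- ===== PACK-END S59/H127/FibPoly.lean

-- ===== PACK-BEGIN S59/H127/CardTorsion.lean
section



/-!
# E-side foundation, part 2: `#E[n] = n^2`

Over an algebraically closed field `K` of characteristic `0`, for an elliptic curve `E` (in affine
Weierstrass form) and every `n : ℕ`:

* `card_torsion_eq` : `Nat.card (Submodule.torsionBy ℤ E.Point n) = n ^ 2`;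
* `finite_torsion` : `E[n]` is finite for `n ≥ 1`.

Proof: for a generic `c = x(P)` the fibre polynomial `N_n - c D_n` (monic of degree `n^2`) is
separable (the bad `c` are the values of `N_n / D_n` at the roots of the Wronskian
`N_n' D_n - N_n D_n'`, which has leading coefficient `n^2 ≠ 0`), its roots are exactly the `x(Q)`
with `nQ = ± P`, and `{Q | nQ = P}` is a torsor under `E[n]` on which `x` is injective as soon as
`2P ≠ 0`.
-/

open WeierstrassCurve WeierstrassCurve.Affine Polynomial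
open Fermat.Agent.S51.Five (xc dD dN xc_add_self add_self_ne_zero_of_dD_ne_zero
  eq_or_eq_neg_of_xc_eq xc_neg xc_some exists_equation)
open Fermat.Agent.S13.H891

namespace Fermat.Agent.S59.H127

variable {K : Type*} [Field K]

section wronskian

lemma DC.derivative' {p : K[X]} {m : ℕ} {a : K} (hp : DC p (m + 1) a) :
    DC (derivative p) m (a * ((m : K) + 1)) := by
  refine ⟨(natDegree_derivative_le p).trans ?_, ?_⟩
  · have := hp.1; omega
  · rw [coeff_derivative, hp.2]

variable (E : WeierstrassCurve.Affine K)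

/-- the Wronskian `N_n' D_n - N_n D_n'` -/
noncomputable def wronskPoly (n : ℕ) : K[X] :=
  derivative (polyN E.b₂ E.b₄ E.b₆ E.b₈ n) * polyD E.b₂ E.b₄ E.b₆ E.b₈ n
    - polyN E.b₂ E.b₄ E.b₆ E.b₈ n * derivative (polyD E.b₂ E.b₄ E.b₆ E.b₈ n)

lemma dc_wronskPoly (n : ℕ) (hn : 2 ≤ n) :
    DC (wronskPoly E n) (2 * n ^ 2 - 2) ((n : K) ^ 2) := by
  obtain ⟨hN, hD⟩ := dc_poly E.b₂ E.b₄ E.b₆ E.b₈ n (by omega)
  have h4 : 4 ≤ n ^ 2 := by nlinarith
  obtain ⟨B, hB⟩ : ∃ B, n ^ 2 = B + 2 := ⟨n ^ 2 - 2, by omega⟩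
  have hBK : (n : K) ^ 2 = (B : K) + 2 := by
    have := congrArg (Nat.cast : ℕ → K) hB
    push_cast at this
    exact this
  rw [hB] at hN
  have hD1 : DC (polyD E.b₂ E.b₄ E.b₆ E.b₈ n) (B + 1) ((n : K) ^ 2) :=
    hD.congr (by omega) rfl
  have hN' := DC.derivative' hN
  have hD' := DC.derivative' hD1
  have h1 := hN'.mul hD1
  have h2 := hN.mul hD'
  have h2' := h2.congr (show B + 1 + 1 + B = B + 1 + (B + 1) by ring) rfl
  have h3 := h1.sub h2'
  unfold wronskPoly
  refine h3.congr (by omega) ?_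
  push_cast
  rw [hBK]
  ring

lemma wronskPoly_ne_zero [CharZero K] (n : ℕ) (hn : 2 ≤ n) : wronskPoly E n ≠ 0 := by
  intro h
  have := (dc_wronskPoly E n hn).2
  rw [h, coeff_zero] at this
  have hn0 : (n : K) ≠ 0 := Nat.cast_ne_zero.mpr (by omega)
  exact pow_ne_zero 2 hn0 this.symm

lemma polyD_two_ne_zero [CharZero K] : polyD E.b₂ E.b₄ E.b₆ E.b₈ 2 ≠ 0 := by
  intro h
  have := (dc_poly E.b₂ E.b₄ E.b₆ E.b₈ 2 (by norm_num)).2.2
  rw [h, coeff_zero] at this
  have h2 : ((2 : ℕ) : K) ≠ 0 := Nat.cast_ne_zero.mpr (by norm_num)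
  exact pow_ne_zero 2 h2 this.symm

lemma eval_derivative_fibPoly (n : ℕ) (c x : K) :
    (derivative (fibPoly E n c)).eval x
      = (derivative (polyN E.b₂ E.b₄ E.b₆ E.b₈ n)).eval x
        - c * (derivative (polyD E.b₂ E.b₄ E.b₆ E.b₈ n)).eval x := by
  simp only [fibPoly, derivative_sub, derivative_mul, derivative_C, zero_mul, zero_add, eval_sub,
    eval_mul, eval_C]

end wronskian

variable [DecidableEq K] {E : WeierstrassCurve.Affine K}

/-- `2P ≠ 0` as soon as `x(P)` is not a root of `D_2` -/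
lemma add_self_ne_zero_of_polyD_two {P : E.Point} (hP : P ≠ 0)
    (h : (polyD E.b₂ E.b₄ E.b₆ E.b₈ 2).eval (xc P) ≠ 0) : P + P ≠ 0 := by
  rw [eval_polyD] at h
  have := rep_lad hP 2
  rw [two_nsmul] at this
  exact fun h0 => h (this.eq_zero_iff.mp h0)

lemma mem_torsionBy_natCast_iff {n : ℕ} {T : E.Point} :
    T ∈ Submodule.torsionBy ℤ E.Point ((n : ℕ) : ℤ) ↔ n • T = 0 := by
  rw [Submodule.mem_torsionBy_iff, natCast_zsmul]

section algClosed

variable [IsAlgClosed K] [CharZero K] [E.IsElliptic]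

/-- the set of bad values `c` -/
noncomputable def badValues (E : WeierstrassCurve.Affine K) (n : ℕ) : Finset K :=
  (polyD E.b₂ E.b₄ E.b₆ E.b₈ 2).roots.toFinset ∪
    (wronskPoly E n).roots.toFinset.image
      (fun x => (polyN E.b₂ E.b₄ E.b₆ E.b₈ n).eval x / (polyD E.b₂ E.b₄ E.b₆ E.b₈ n).eval x)

/-- for `c` outside the bad set, the fibre polynomial has simple roots -/
theorem nodup_roots_fibPoly (n : ℕ) (hn : 2 ≤ n) {c : K} (hc : c ∉ badValues E n) :
    (fibPoly E n c).roots.Nodup := by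
  rw [Multiset.nodup_iff_count_le_one]
  intro x
  rw [count_roots]
  by_contra hlt
  rw [not_le] at hlt
  obtain ⟨h0, h1⟩ := (one_lt_rootMultiplicity_iff_isRoot (fibPoly_ne_zero E n (by omega) c)).mp hlt
  rw [IsRoot.def] at h0 h1
  have h0' := h0
  rw [eval_fibPoly] at h0
  rw [eval_derivative_fibPoly] at h1
  obtain ⟨Q, hQ, rfl⟩ := exists_point_xc E x
  have hD : ladD E.b₂ E.b₄ E.b₆ E.b₈ (xc Q) n ≠ 0 := by
    intro hD
    apply ladN_ne_zero_of_ladD_eq_zero hQ n hD
    rw [hD, mul_zero, sub_zero] at h0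
    exact h0
  apply hc
  unfold badValues
  rw [Finset.mem_union]
  right
  rw [Finset.mem_image]
  refine ⟨xc Q, ?_, ?_⟩
  · rw [Multiset.mem_toFinset, mem_roots (wronskPoly_ne_zero E n hn), IsRoot.def]
    unfold wronskPoly
    rw [eval_sub, eval_mul, eval_mul, eval_polyN, eval_polyD]
    linear_combination (ladD E.b₂ E.b₄ E.b₆ E.b₈ (xc Q) n) * h1
      - (derivative (polyD E.b₂ E.b₄ E.b₆ E.b₈ n)).eval (xc Q) * h0
  · rw [eval_polyN, eval_polyD, div_eq_iff hD]
    linear_combination h0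

/-- for `c` outside the bad set, the fibre polynomial has exactly `n^2` roots -/
theorem card_roots_fibPoly (n : ℕ) (hn : 2 ≤ n) {c : K} (hc : c ∉ badValues E n) :
    (fibPoly E n c).roots.toFinset.card = n ^ 2 := by
  rw [Multiset.toFinset_card_of_nodup (nodup_roots_fibPoly n hn hc),
    IsAlgClosed.card_roots_eq_natDegree, natDegree_fibPoly E n (by omega)]

/-- a good base point: `P ≠ 0`, `2P ≠ 0`, `x(P)` outside the bad set -/
lemma exists_good_point (E : WeierstrassCurve.Affine K) [E.IsElliptic] (n : ℕ) :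
    ∃ P : E.Point, P ≠ 0 ∧ P + P ≠ 0 ∧ xc P ∉ badValues E n := by
  obtain ⟨c, hc⟩ := Infinite.exists_notMem_finset (badValues E n)
  obtain ⟨P, hP, rfl⟩ := exists_point_xc E c
  refine ⟨P, hP, add_self_ne_zero_of_polyD_two hP ?_, hc⟩
  intro h
  apply hc
  unfold badValues
  rw [Finset.mem_union]
  left
  rw [Multiset.mem_toFinset, mem_roots (polyD_two_ne_zero E)]
  exact h

omit [IsAlgClosed K] [CharZero K] [E.IsElliptic] in
/-- the `x`-coordinate map from the `n`-torsion, translated by `Q₁`, to the roots of the fibre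
polynomial -/
lemma xc_add_mem_roots {P Q₁ : E.Point} (hP : P ≠ 0) {n : ℕ} (hn : 1 ≤ n) (hQ₁ : n • Q₁ = P)
    {T : E.Point} (hT : n • T = 0) :
    xc (Q₁ + T) ∈ (fibPoly E n (xc P)).roots.toFinset := by
  have hnQ : n • (Q₁ + T) = P := by rw [smul_add, hQ₁, hT, add_zero]
  have hQ0 : Q₁ + T ≠ 0 := by
    intro h
    rw [h, smul_zero] at hnQ
    exact hP hnQ.symm
  rw [Multiset.mem_toFinset, mem_roots (fibPoly_ne_zero E n hn _), IsRoot.def,
    fibPoly_root_iff hQ0, hnQ]
  exact ⟨hP, rfl⟩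

omit [IsAlgClosed K] [CharZero K] [E.IsElliptic] in
lemma xc_add_injective {P Q₁ : E.Point} (hP2 : P + P ≠ 0) {n : ℕ} (hQ₁ : n • Q₁ = P)
    {T T' : E.Point} (hT : n • T = 0) (hT' : n • T' = 0)
    (hQ0 : Q₁ + T ≠ 0) (hQ0' : Q₁ + T' ≠ 0) (h : xc (Q₁ + T) = xc (Q₁ + T')) : T = T' := by
  rcases eq_or_eq_neg_of_xc_eq hQ0 hQ0' h with h' | h'
  · exact add_left_cancel h'
  · exfalso
    apply hP2
    have h1 : n • (Q₁ + T) = P := by rw [smul_add, hQ₁, hT, add_zero]
    have h2 : n • (Q₁ + T') = P := by rw [smul_add, hQ₁, hT', add_zero]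
    rw [h', smul_neg, h2] at h1
    calc P + P = P + -P := by rw [h1]
      _ = 0 := add_neg_cancel P

/-- `E[n]` is finite, of cardinality at most the number of roots of a fibre polynomial -/
theorem torsion_le_roots {P : E.Point} (hP : P ≠ 0) (hP2 : P + P ≠ 0) (n : ℕ) (hn : 1 ≤ n) :
    Finite (Submodule.torsionBy ℤ E.Point ((n : ℕ) : ℤ)) ∧
    Nat.card (Submodule.torsionBy ℤ E.Point ((n : ℕ) : ℤ))
      ≤ (fibPoly E n (xc P)).roots.toFinset.card := by
  obtain ⟨Q₁, hQ₁⟩ := exists_nsmul_eq n hn P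
  have hne : ∀ T : E.Point, n • T = 0 → Q₁ + T ≠ 0 := by
    intro T hT h
    have hnQ : n • (Q₁ + T) = P := by rw [smul_add, hQ₁, hT, add_zero]
    rw [h, smul_zero] at hnQ
    exact hP hnQ.symm
  let f : Submodule.torsionBy ℤ E.Point ((n : ℕ) : ℤ) → (fibPoly E n (xc P)).roots.toFinset :=
    fun T => ⟨xc (Q₁ + T.1), xc_add_mem_roots hP hn hQ₁ (mem_torsionBy_natCast_iff.mp T.2)⟩
  have hf : Function.Injective f := by
    intro T T' h
    have h' : xc (Q₁ + T.1) = xc (Q₁ + T'.1) := congrArg Subtype.val h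
    exact Subtype.ext (xc_add_injective hP2 hQ₁ (mem_torsionBy_natCast_iff.mp T.2)
      (mem_torsionBy_natCast_iff.mp T'.2) (hne _ (mem_torsionBy_natCast_iff.mp T.2))
      (hne _ (mem_torsionBy_natCast_iff.mp T'.2)) h')
  refine ⟨Finite.of_injective f hf, ?_⟩
  calc Nat.card (Submodule.torsionBy ℤ E.Point ((n : ℕ) : ℤ))
      ≤ Nat.card (fibPoly E n (xc P)).roots.toFinset := Nat.card_le_card_of_injective f hf
    _ = (fibPoly E n (xc P)).roots.toFinset.card := by
        rw [Nat.card_eq_fintype_card, Fintype.card_coe]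

/-- the number of roots of a fibre polynomial is at most `#E[n]` -/
theorem roots_le_torsion {P : E.Point} (hP : P ≠ 0) (n : ℕ) (hn : 1 ≤ n)
    [Finite (Submodule.torsionBy ℤ E.Point ((n : ℕ) : ℤ))] :
    (fibPoly E n (xc P)).roots.toFinset.card
      ≤ Nat.card (Submodule.torsionBy ℤ E.Point ((n : ℕ) : ℤ)) := by
  obtain ⟨Q₁, hQ₁⟩ := exists_nsmul_eq n hn P
  have hex : ∀ x : (fibPoly E n (xc P)).roots.toFinset,
      ∃ Q : E.Point, xc Q = x.1 ∧ n • Q = P := by
    intro x
    have hx := x.2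
    rw [Multiset.mem_toFinset, mem_roots (fibPoly_ne_zero E n hn _), IsRoot.def] at hx
    exact exists_nsmul_eq_of_root hP n hx
  choose q hq1 hq2 using hex
  let g : (fibPoly E n (xc P)).roots.toFinset → Submodule.torsionBy ℤ E.Point ((n : ℕ) : ℤ) :=
    fun x => ⟨q x - Q₁, mem_torsionBy_natCast_iff.mpr (by rw [smul_sub, hq2, hQ₁, sub_self])⟩
  have hg : Function.Injective g := by
    intro x y h
    have h' : q x - Q₁ = q y - Q₁ := congrArg Subtype.val h
    have h'' : q x = q y := sub_left_inj.mp h'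
    apply Subtype.ext
    rw [← hq1 x, ← hq1 y, h'']
  calc (fibPoly E n (xc P)).roots.toFinset.card
      = Nat.card (fibPoly E n (xc P)).roots.toFinset := by
        rw [Nat.card_eq_fintype_card, Fintype.card_coe]
    _ ≤ Nat.card (Submodule.torsionBy ℤ E.Point ((n : ℕ) : ℤ)) :=
        Nat.card_le_card_of_injective g hg

variable (E)

/-- `E[n]` is finite for `n ≥ 1` -/
theorem finite_torsion (n : ℕ) (hn : 1 ≤ n) :
    Finite (Submodule.torsionBy ℤ E.Point ((n : ℕ) : ℤ)) := by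
  obtain ⟨P, hP, hP2, -⟩ := exists_good_point E n
  exact (torsion_le_roots hP hP2 n hn).1

/-- `E(K)` is infinite -/
theorem infinite_point : Infinite E.Point := by
  have hsurj : Function.Surjective (xc : E.Point → K) := fun x => by
    obtain ⟨Q, -, hQ⟩ := exists_point_xc E x
    exact ⟨Q, hQ⟩
  exact Infinite.of_surjective _ hsurj

/-- **`#E[n] = n^2`** over an algebraically closed field of characteristic `0` -/
theorem card_torsion_eq (n : ℕ) :
    Nat.card (Submodule.torsionBy ℤ E.Point ((n : ℕ) : ℤ)) = n ^ 2 := by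
  rcases Nat.lt_or_ge n 2 with hlt | hn
  · interval_cases n
    · -- `n = 0`: the whole (infinite) group
      have hI := infinite_point E
      have hinf : Infinite (Submodule.torsionBy ℤ E.Point ((0 : ℕ) : ℤ)) :=
        Infinite.of_injective
          (fun P : E.Point => (⟨P, mem_torsionBy_natCast_iff.mpr (zero_nsmul P)⟩ :
            Submodule.torsionBy ℤ E.Point ((0 : ℕ) : ℤ)))
          (fun P Q h => congrArg Subtype.val h)
      rw [Nat.card_eq_zero_of_infinite]
      rfl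
    · -- `n = 1`: the trivial group
      have hbot : Submodule.torsionBy ℤ E.Point ((1 : ℕ) : ℤ) = ⊥ := by
        rw [Nat.cast_one]; exact Submodule.torsionBy_one
      have : Subsingleton (Submodule.torsionBy ℤ E.Point ((1 : ℕ) : ℤ)) := by
        rw [hbot]; infer_instance
      rw [Nat.card_unique]
      rfl
  · obtain ⟨P, hP, hP2, hc⟩ := exists_good_point E n
    obtain ⟨hfin, hle⟩ := torsion_le_roots hP hP2 n (by omega)
    have hge := roots_le_torsion hP n (by omega)
    rw [card_roots_fibPoly n hn hc] at hle hge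
    exact le_antisymm hle hge

end algClosed

end Fermat.Agent.S59.H127

end
-- ===== PACK-END S59/H127/CardTorsion.lean

-- ===== PACK-BEGIN S59/H127/TateE.lean
section






/-!
# E-side foundation, part 5: the `p`-adic Tate module of an elliptic curve over `ℚ`

* `nonempty_compatBasis_point` : over an algebraically closed field of characteristic `0`, the
  torsion `E[p^k]` has a compatible system of bases (`E[p^k] ≃ (ℤ/p^k)^2` compatibly in `k`);
* `tateGaloisRep W' cb : GaloisRepAdic ℤ_[p]` : the `p`-adic Galois representation on the Tate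
  module of an elliptic curve `W'` over `ℚ` (in the coordinates given by `cb`), with
  `Φ_tateGaloisRep : cb.Φ (ρ σ a) k = σ • cb.Φ a k`.
-/

open WeierstrassCurve WeierstrassCurve.Affine
open scoped WeierstrassCurve.Affine

namespace Fermat.Agent.S59.H127

section general

variable {K : Type*} [Field K] [DecidableEq K] [IsAlgClosed K] [CharZero K]

/-- `E[p^∞]` is `p`-divisible of height `2` -/
theorem nonempty_compatBasis_point (E : WeierstrassCurve.Affine K) [E.IsElliptic] (p : ℕ)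
    [hp : Fact p.Prime] : Nonempty (CompatBasis E.Point p 2) :=
  nonempty_compatBasis p 2 (fun P => exists_nsmul_eq p hp.out.one_le P) (card_torsion_eq E p)

end general

section coords

variable {K : Type*} [Field K] [DecidableEq K] {E : WeierstrassCurve.Affine K}

/-- the (finite) set of coordinates of a point -/
def coordSet : E.Point → Set K
  | .zero => ∅
  | .some x y _ => {x, y}

omit [DecidableEq K] in
lemma finite_coordSet (P : E.Point) : (coordSet P).Finite := by
  cases P with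
  | zero => exact Set.finite_empty
  | some x y h => exact Set.toFinite {x, y}

end coords

section galois

/-- the absolute Galois group of `ℚ` -/
abbrev GQ : Type := AlgebraicClosure ℚ ≃ₐ[ℚ] AlgebraicClosure ℚ

variable (W' : WeierstrassCurve.Affine ℚ)

/-- an automorphism fixing the coordinates of a point fixes the point -/
lemma smul_eq_self_of_coordSet (σ : GQ) (P : (W'⁄(AlgebraicClosure ℚ)).Point)
    (hσ : ∀ x ∈ coordSet P, σ x = x) : σ • P = P := by
  cases P with
  | zero => rfl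
  | some x y h =>
    rw [Point.algEquiv_smul_def, Point.map_some]
    have hx : σ x = x := hσ x (Set.mem_insert _ _)
    have hy : σ y = y := hσ y (Set.mem_insert_of_mem _ rfl)
    rw [Point.some.injEq]
    exact ⟨hx, hy⟩

variable [hE : (W'⁄(AlgebraicClosure ℚ)).IsElliptic]

/-- the `p^n`-torsion of `E(ℚ̄)` is fixed by the Galois group of a finite extension -/
theorem exists_finite_level (m : ℕ) (hm : 1 ≤ m) :
    ∃ L : IntermediateField ℚ (AlgebraicClosure ℚ), FiniteDimensional ℚ L ∧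
      ∀ σ : GQ, (∀ x ∈ L, σ x = x) →
        ∀ P : (W'⁄(AlgebraicClosure ℚ)).Point, m • P = 0 → σ • P = P := by
  classical
  have hfin := finite_torsion (W'⁄(AlgebraicClosure ℚ)) m hm
  have hTfin : {P : (W'⁄(AlgebraicClosure ℚ)).Point | m • P = 0}.Finite := by
    have : {P : (W'⁄(AlgebraicClosure ℚ)).Point | m • P = 0} =
        ((Submodule.torsionBy ℤ (W'⁄(AlgebraicClosure ℚ)).Point ((m : ℕ) : ℤ) :
          Set (W'⁄(AlgebraicClosure ℚ)).Point)) := by
      ext P
      exact mem_torsionBy_natCast_iff.symm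
    rw [this]
    exact Set.toFinite _
  have hSfin : (⋃ P ∈ {P : (W'⁄(AlgebraicClosure ℚ)).Point | m • P = 0}, coordSet P).Finite :=
    hTfin.biUnion fun P _ => finite_coordSet P
  have : Finite (⋃ P ∈ {P : (W'⁄(AlgebraicClosure ℚ)).Point | m • P = 0}, coordSet P) :=
    hSfin.to_subtype
  refine ⟨IntermediateField.adjoin ℚ
    (⋃ P ∈ {P : (W'⁄(AlgebraicClosure ℚ)).Point | m • P = 0}, coordSet P), ?_, ?_⟩
  · have halg : Algebra.IsAlgebraic ℚ (AlgebraicClosure ℚ) := AlgebraicClosure.isAlgebraic ℚ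
    exact IntermediateField.finiteDimensional_adjoin fun x _ =>
      (Algebra.IsAlgebraic.isAlgebraic x).isIntegral
  · intro σ hσ P hP
    apply smul_eq_self_of_coordSet
    intro x hx
    apply hσ
    apply IntermediateField.subset_adjoin
    exact Set.mem_biUnion (show P ∈ {P : (W'⁄(AlgebraicClosure ℚ)).Point | m • P = 0} from hP) hx

variable {p : ℕ} [hp : Fact p.Prime]

/-- **the `p`-adic Tate module of an elliptic curve over `ℚ`** as a `GaloisRepAdic ℤ_[p]`,
in the coordinates given by a compatible system of bases `cb` of the `E[p^k]` -/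
noncomputable def tateGaloisRep (cb : CompatBasis (W'⁄(AlgebraicClosure ℚ)).Point p 2) :
    GaloisRepAdic ℤ_[p] where
  V := Fin 2 → ℤ_[p]
  finrank_eq := by
    rw [Module.finrank_pi, Fintype.card_fin]
  ρ := cb.tateRep GQ
  isAdicContinuous := by
    intro n
    obtain ⟨L, hL, hfix⟩ := exists_finite_level W' (p ^ n) (Nat.one_le_pow _ _ hp.out.pos)
    exact ⟨L, hL, fun σ hσ v => cb.tateRep_sub_mem σ n (fun x hx => hfix σ hσ x hx) v⟩

/-- the defining property of the Tate representation -/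
theorem Φ_tateGaloisRep (cb : CompatBasis (W'⁄(AlgebraicClosure ℚ)).Point p 2) (σ : GQ)
    (a : Fin 2 → ℤ_[p]) (k : ℕ) :
    cb.Φ ((tateGaloisRep W' cb).ρ σ a) k = σ • cb.Φ a k :=
  cb.Φ_tateRep σ a k

/-- the Tate representation is unramified at `q` as soon as the inertia groups at `q` act
trivially on the `p`-power torsion -/
theorem tateGaloisRep_isUnramifiedAt (cb : CompatBasis (W'⁄(AlgebraicClosure ℚ)).Point p 2)
    (q : ℕ)
    (h : ∀ P : ValuationSubring (AlgebraicClosure ℚ), P.LiesOverPrime q →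
      ∀ σ ∈ P.inertiaSubgroupIn ℚ, ∀ (n : ℕ) (x : (W'⁄(AlgebraicClosure ℚ)).Point),
        p ^ n • x = 0 → σ • x = x) :
    (tateGaloisRep W' cb).IsUnramifiedAt q := by
  intro P hP σ hσ
  exact (cb.tateRep_eq_one_iff σ).mpr (h P hP σ hσ)

/-- conversely, if the Tate representation is unramified at `q`, inertia acts trivially on the
`p`-power torsion -/
theorem smul_eq_of_isUnramifiedAt (cb : CompatBasis (W'⁄(AlgebraicClosure ℚ)).Point p 2)
    (q : ℕ) (h : (tateGaloisRep W' cb).IsUnramifiedAt q)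
    (P : ValuationSubring (AlgebraicClosure ℚ)) (hP : P.LiesOverPrime q)
    (σ : GQ) (hσ : σ ∈ P.inertiaSubgroupIn ℚ) (n : ℕ) (x : (W'⁄(AlgebraicClosure ℚ)).Point)
    (hx : p ^ n • x = 0) : σ • x = x :=
  (cb.tateRep_eq_one_iff σ).mp (h P hP σ hσ) n x hx

/-- an integral quadratic relation on the `p`-power torsion lifts to the Tate representation -/
theorem tateGaloisRep_quadratic (cb : CompatBasis (W'⁄(AlgebraicClosure ℚ)).Point p 2)
    (σ : GQ) (a b : ℤ)
    (hσ : ∀ (n : ℕ) (x : (W'⁄(AlgebraicClosure ℚ)).Point), p ^ n • x = 0 →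
      σ • σ • x - a • σ • x + b • x = 0) :
    (tateGaloisRep W' cb).ρ σ * (tateGaloisRep W' cb).ρ σ
      - (a : ℤ_[p]) • (tateGaloisRep W' cb).ρ σ
      + (b : ℤ_[p]) • (1 : Module.End ℤ_[p] (tateGaloisRep W' cb).V) = 0 :=
  cb.tateRep_quadratic σ a b hσ

end galois

end Fermat.Agent.S59.H127

end
-- ===== PACK-END S59/H127/TateE.lean

-- ===== PACK-BEGIN Lib/Red/H290/RedHom.lean
section



/-!
# The reduction homomorphism for good reduction (row S52, piece GR = A1b; part 5)

`A : ValuationSubring K`, `φ : A →+* κ` with kernel the maximal ideal, `W` a Weierstrass curve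
over `K` with coefficients in `A` reducing to `Wκ` with `Wκ.Δ ≠ 0`.  Then

* `red : W.Point → Wκ.Point`, `(x, y) ↦ (φ x, φ y)` on integral points, `↦ 0` on `E₁`;
* `red_add` : `red` is additive; `redHom` is the bundled `AddMonoidHom`;
* `red_eq_zero_iff` : the kernel of `red` is `E₁` (`InKer`);
* `red_injOn_torsion` : `red` is injective on points killed by an integer `n` that is a unit
  of `A`.
-/

set_option autoImplicit false

namespace Fermat.Agent.Lib.Red.H290

open WeierstrassCurve WeierstrassCurve.Affine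
open Fermat.Agent.S05.SameRed (IntegralCoeffs InKer inKer_zero inKer_some
  inKer_sub_of_same_reduction)

variable {K : Type*} [Field K] [DecidableEq K] {κ : Type*} [Field κ] [DecidableEq κ]
variable {A : ValuationSubring K} {φ : A →+* κ} {W : Affine K} {Wκ : Affine κ}

omit [DecidableEq κ] in
/-- With good reduction, the reduction of an integral point is a nonsingular point. -/
lemma rd_nonsingular (h : IsRedOf A φ W Wκ) (hΔ : Wκ.Δ ≠ 0) {x y : K} (hx : x ∈ A)
    (hxy : W.Equation x y) : Wκ.Nonsingular (rd A φ x) (rd A φ y) :=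
  (Affine.equation_iff_nonsingular_of_Δ_ne_zero hΔ).mp
    (rd_equation h hx (y_mem_of_x_mem h hxy hx) hxy)

/-- The reduction map on points. -/
noncomputable def red (h : IsRedOf A φ W Wκ) (hΔ : Wκ.Δ ≠ 0) : W.Point → Wκ.Point
  | .zero => 0
  | .some x y hxy =>
    open Classical in
    if hx : x ∈ A then Point.some (rd A φ x) (rd A φ y) (rd_nonsingular h hΔ hx hxy.1) else 0

section

variable (h : IsRedOf A φ W Wκ) (hΔ : Wκ.Δ ≠ 0)

omit [DecidableEq κ] in
@[simp] lemma red_zero : red h hΔ 0 = 0 := rfl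

omit [DecidableEq κ] in
lemma red_some_of_mem {x y : K} (hxy : W.Nonsingular x y) (hx : x ∈ A) :
    red h hΔ (Point.some x y hxy) =
      Point.some (rd A φ x) (rd A φ y) (rd_nonsingular h hΔ hx hxy.1) := by
  simp only [red, hx, dite_true]

omit [DecidableEq κ] in
lemma red_some_of_not_mem {x y : K} (hxy : W.Nonsingular x y) (hx : x ∉ A) :
    red h hΔ (Point.some x y hxy) = 0 := by
  simp only [red, hx, dite_false]

omit [DecidableEq K] [DecidableEq κ] in
lemma not_mem_iff_one_lt {x : K} : x ∉ A ↔ 1 < A.valuation x := by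
  rw [← A.valuation_le_one_iff, not_le]

omit [DecidableEq κ] in
/-- The kernel of reduction is `E₁`. -/
theorem red_eq_zero_iff (P : W.Point) : red h hΔ P = 0 ↔ InKer W A.valuation P := by
  rcases P with _ | ⟨x, y, hxy⟩
  · exact ⟨fun _ => trivial, fun _ => rfl⟩
  · by_cases hx : x ∈ A
    · rw [red_some_of_mem h hΔ hxy hx]
      constructor
      · intro h0; exact absurd h0 (Point.some_ne_zero _)
      · intro hk
        exact absurd hx (not_mem_iff_one_lt.mpr hk)
    · rw [red_some_of_not_mem h hΔ hxy hx]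
      exact ⟨fun _ => not_mem_iff_one_lt.mp hx, fun _ => rfl⟩

theorem red_neg (P : W.Point) : red h hΔ (-P) = -red h hΔ P := by
  rcases P with _ | ⟨x, y, hxy⟩
  · rfl
  · rw [Point.neg_some]
    by_cases hx : x ∈ A
    · rw [red_some_of_mem h hΔ _ hx, red_some_of_mem h hΔ hxy hx, Point.neg_some]
      have hy := y_mem_of_x_mem h hxy.1 hx
      congr 1
      exact rd_negY h hx hy
    · rw [red_some_of_not_mem h hΔ _ hx, red_some_of_not_mem h hΔ hxy hx, neg_zero]

end

section add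

variable (h : IsRedOf A φ W Wκ) (hφ : KerMax A φ) (hΔ : Wκ.Δ ≠ 0)
include hφ

/-- Additivity on integral points. -/
theorem red_add_of_mem {x₁ y₁ x₂ y₂ : K} (h₁ : W.Nonsingular x₁ y₁) (h₂ : W.Nonsingular x₂ y₂)
    (hx₁ : x₁ ∈ A) (hx₂ : x₂ ∈ A) :
    red h hΔ (Point.some x₁ y₁ h₁ + Point.some x₂ y₂ h₂) =
      red h hΔ (Point.some x₁ y₁ h₁) + red h hΔ (Point.some x₂ y₂ h₂) := by
  have hy₁ : y₁ ∈ A := y_mem_of_x_mem h h₁.1 hx₁
  have hy₂ : y₂ ∈ A := y_mem_of_x_mem h h₂.1 hx₂
  rw [red_some_of_mem h hΔ h₁ hx₁, red_some_of_mem h hΔ h₂ hx₂]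
  by_cases hb : rd A φ x₁ = rd A φ x₂ ∧ rd A φ y₁ = Wκ.negY (rd A φ x₂) (rd A φ y₂)
  · -- the reductions are opposite: the sum lies in `E₁`
    rw [Point.add_of_Y_eq hb.1 hb.2, red_eq_zero_iff]
    have h₂' : W.Nonsingular x₂ (W.negY x₂ y₂) := (Affine.nonsingular_neg ..).mpr h₂
    have hn₂ : W.negY x₂ y₂ ∈ A := negY_mem h hx₂ hy₂
    have hx : A.valuation (x₁ - x₂) < 1 := (rd_eq_iff hφ hx₁ hx₂).mp hb.1
    have hy : A.valuation (y₁ - W.negY x₂ y₂) < 1 := by
      rw [← rd_eq_iff hφ hy₁ hn₂, rd_negY h hx₂ hy₂]; exact hb.2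
    have hns : A.valuation (W.a₁ * y₁ - (3 * x₁ ^ 2 + 2 * W.a₂ * x₁ + W.a₄)) = 1 ∨
        A.valuation (2 * y₁ + W.a₁ * x₁ + W.a₃) = 1 := by
      have hN := rd_nonsingular h hΔ hx₁ h₁.1
      rw [Affine.nonsingular_iff'] at hN
      rcases hN.2 with hN | hN
      · left
        obtain ⟨hgA, hgrd⟩ := rd_slopeNum h hx₁ hy₁
        have hm : W.a₁ * y₁ - (3 * x₁ ^ 2 + 2 * W.a₂ * x₁ + W.a₄) ∈ A := by
          have : W.a₁ * y₁ - (3 * x₁ ^ 2 + 2 * W.a₂ * x₁ + W.a₄) =
              -(3 * x₁ ^ 2 + 2 * W.a₂ * x₁ + W.a₄ - W.a₁ * y₁) := by ring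
          rw [this]; exact A.neg_mem _ hgA
        refine (rd_ne_zero_iff hφ hm).mp ?_
        have : W.a₁ * y₁ - (3 * x₁ ^ 2 + 2 * W.a₂ * x₁ + W.a₄) =
            -(3 * x₁ ^ 2 + 2 * W.a₂ * x₁ + W.a₄ - W.a₁ * y₁) := by ring
        rw [this, rd_neg hgA, hgrd]
        intro h0
        apply hN
        linear_combination h0
      · right
        have hm : 2 * y₁ + W.a₁ * x₁ + W.a₃ ∈ A := by
          have : 2 * y₁ + W.a₁ * x₁ + W.a₃ = y₁ - W.negY x₁ y₁ := by
            simp only [Affine.negY]; ring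
          rw [this]; exact A.sub_mem hy₁ (negY_mem h hx₁ hy₁)
        refine (rd_ne_zero_iff hφ hm).mp ?_
        have : 2 * y₁ + W.a₁ * x₁ + W.a₃ = y₁ - W.negY x₁ y₁ := by
          simp only [Affine.negY]; ring
        rw [this, rd_sub hy₁ (negY_mem h hx₁ hy₁), rd_negY h hx₁ hy₁]
        intro h0
        apply hN
        simp only [Affine.negY] at h0
        linear_combination h0
    have key := inKer_sub_of_same_reduction h.integralCoeffs h₁ h₂' (val_le_of_mem hx₁)
      (val_le_of_mem hy₁) (val_le_of_mem hx₂) (val_le_of_mem hn₂) hx hy hns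
    have e : Point.some x₁ y₁ h₁ - Point.some x₂ (W.negY x₂ y₂) h₂' =
        Point.some x₁ y₁ h₁ + Point.some x₂ y₂ h₂ := by
      rw [sub_eq_add_neg, Point.neg_some]
      congr 2
      exact Affine.negY_negY ..
    rwa [e] at key
  · -- generic case: the slope reduces
    have hK : ¬(x₁ = x₂ ∧ y₁ = W.negY x₂ y₂) := by
      rintro ⟨rfl, rfl⟩
      exact hb ⟨rfl, rd_negY h hx₂ hy₂⟩
    obtain ⟨hℓA, hℓrd⟩ := slope_mem_and_rd h hφ hx₁ hx₂ h₁.1 h₂.1 hb
    rw [Point.add_some hK, Point.add_some hb,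
      red_some_of_mem h hΔ _ (addX_mem h hx₁ hx₂ hℓA)]
    congr 1
    · rw [rd_addX h hx₁ hx₂ hℓA, hℓrd]
    · rw [rd_addY h hx₁ hx₂ hy₁ hℓA, hℓrd]

/-- Additivity when the first point lies in `E₁` and the second is integral. -/
theorem red_add_of_inKer_of_mem {P : W.Point} (hP : InKer W A.valuation P) {x₂ y₂ : K}
    (h₂ : W.Nonsingular x₂ y₂) (hx₂ : x₂ ∈ A) :
    red h hΔ (P + Point.some x₂ y₂ h₂) = red h hΔ (Point.some x₂ y₂ h₂) := by
  have hQ : ¬ InKer W A.valuation (Point.some x₂ y₂ h₂) := fun hk =>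
    absurd hx₂ (not_mem_iff_one_lt.mpr hk)
  -- `R = P + Q` is not in `E₁`
  have hR : ¬ InKer W A.valuation (P + Point.some x₂ y₂ h₂) := by
    intro hk
    apply hQ
    have := inKer_sub h.integralCoeffs hk hP
    rwa [add_sub_cancel_left] at this
  rcases hPQ : P + Point.some x₂ y₂ h₂ with _ | ⟨x₃, y₃, h₃⟩
  · rw [hPQ] at hR; exact absurd trivial hR
  · rw [hPQ] at hR
    have hx₃ : x₃ ∈ A := by
      by_contra hx; exact hR (not_mem_iff_one_lt.mp hx)
    -- `red (R - Q) = red R - red Q` and `R - Q = P ∈ E₁`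
    have h₂' : W.Nonsingular x₂ (W.negY x₂ y₂) := (Affine.nonsingular_neg ..).mpr h₂
    have hadd := red_add_of_mem h hφ hΔ h₃ h₂' hx₃ hx₂
    have e : Point.some x₃ y₃ h₃ + Point.some x₂ (W.negY x₂ y₂) h₂' = P := by
      rw [← hPQ, ← Point.neg_some h₂, add_neg_cancel_right]
    rw [e, (red_eq_zero_iff h hΔ P).mpr hP, ← Point.neg_some h₂, red_neg] at hadd
    exact (add_neg_eq_zero.mp hadd.symm)

/-- **The reduction map is additive.** -/
theorem red_add (P Q : W.Point) : red h hΔ (P + Q) = red h hΔ P + red h hΔ Q := by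
  rcases hP : P with _ | ⟨x₁, y₁, h₁⟩
  · have : (Point.zero : W.Point) + Q = Q := zero_add Q
    rw [this]
    exact (zero_add _).symm
  rcases hQ : Q with _ | ⟨x₂, y₂, h₂⟩
  · have : Point.some x₁ y₁ h₁ + (Point.zero : W.Point) = Point.some x₁ y₁ h₁ := add_zero _
    rw [this]
    exact (add_zero _).symm
  by_cases hx₁ : x₁ ∈ A
  · by_cases hx₂ : x₂ ∈ A
    · exact red_add_of_mem h hφ hΔ h₁ h₂ hx₁ hx₂
    · have hk : InKer W A.valuation (Point.some x₂ y₂ h₂) := not_mem_iff_one_lt.mp hx₂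
      rw [add_comm, red_add_of_inKer_of_mem h hφ hΔ hk h₁ hx₁,
        (red_eq_zero_iff h hΔ _).mpr hk, add_zero]
  · have hk₁ : InKer W A.valuation (Point.some x₁ y₁ h₁) := not_mem_iff_one_lt.mp hx₁
    by_cases hx₂ : x₂ ∈ A
    · rw [red_add_of_inKer_of_mem h hφ hΔ hk₁ h₂ hx₂,
        (red_eq_zero_iff h hΔ _).mpr hk₁, zero_add]
    · have hk₂ : InKer W A.valuation (Point.some x₂ y₂ h₂) := not_mem_iff_one_lt.mp hx₂
      rw [(red_eq_zero_iff h hΔ _).mpr hk₁, (red_eq_zero_iff h hΔ _).mpr hk₂,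
        (red_eq_zero_iff h hΔ _).mpr (inKer_add h.integralCoeffs hk₁ hk₂), add_zero]

/-- The reduction homomorphism. -/
noncomputable def redHom : W.Point →+ Wκ.Point where
  toFun := red h hΔ
  map_zero' := rfl
  map_add' := red_add h hφ hΔ

@[simp] lemma redHom_apply (P : W.Point) : redHom h hφ hΔ P = red h hΔ P := rfl

omit [DecidableEq κ] hφ in
/-- The reduction map is injective on `n`-torsion for `n` a unit of `A`. -/
theorem eq_zero_of_red_eq_zero_of_nsmul (n : ℕ) (hn : A.valuation (n : K) = 1) (P : W.Point)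
    (hP : n • P = 0) (hr : red h hΔ P = 0) : P = 0 :=
  Fermat.Agent.S05.C1b.eq_zero_of_inKer_of_nsmul_eq_zero h.integralCoeffs n hn P
    ((red_eq_zero_iff h hΔ P).mp hr) hP

theorem eq_of_red_eq_of_nsmul (n : ℕ) (hn : A.valuation (n : K) = 1) (P Q : W.Point)
    (hP : n • P = 0) (hQ : n • Q = 0) (hr : red h hΔ P = red h hΔ Q) : P = Q := by
  have h1 : red h hΔ (P - Q) = 0 := by
    have := (redHom h hφ hΔ).map_sub P Q
    simp only [redHom_apply] at this
    rw [this, hr, sub_self]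
  have h2 : n • (P - Q) = 0 := by rw [smul_sub, hP, hQ, sub_zero]
  exact sub_eq_zero.mp (eq_zero_of_red_eq_zero_of_nsmul h hΔ n hn _ h2 h1)

end add

end Fermat.Agent.Lib.Red.H290

end
-- ===== PACK-END Lib/Red/H290/RedHom.lean

-- ===== PACK-BEGIN Lib/Frob/A1/H290/Main.lean
section



/-!
# Piece A1 of row S52: `ReductionData` (helper290)

For `W : WeierstrassCurve ℤ`, a prime `ℓ ∤ Δ(W)`, a valuation subring `A` of `ℚ̄` over `ℓ` and a
Frobenius element `σ` at `A`: the reduction map of `Fermat.Agent.Lib.Red.H290` with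
`k = κ_A` (the residue field of `A`) restricted to the `n`-torsion (`ℓ ∤ n`) is additive, injective
and intertwines `σ` with the `ℓ`-power Frobenius.
-/

set_option autoImplicit false
set_option linter.style.haveILetI false

open WeierstrassCurve WeierstrassCurve.Affine WeierstrassCurve.Affine.Point

namespace Fermat.Agent.Lib.Frob.A1.H290

open Fermat.Agent.Lib.Red.H290
open Fermat.Agent.Lib.Frob

variable (A : ValuationSubring Qb)

/-- The residue field of `A`. -/
abbrev Res : Type := IsLocalRing.ResidueField A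

lemma rd_intCast {K : Type*} [Field K] {κ : Type*} [Field κ] {V : ValuationSubring K}
    {φ : V →+* κ} (m : ℤ) : rd V φ (m : K) = (m : κ) := by
  rw [rd_of_mem (intCast_mem V m)]
  have : (⟨(m : K), intCast_mem V m⟩ : V) = (m : V) := rfl
  rw [this, map_intCast]

section char

variable {A} {ℓ : ℕ} [hℓ : Fact ℓ.Prime] (hA : A.LiesOverPrime ℓ)
include hA

omit hℓ in
lemma natCast_res_eq_zero : ((ℓ : ℕ) : Res A) = 0 := by
  have h1 : A.valuation ((ℓ : ℕ) : Qb) < 1 := (A.mem_nonunits_iff).mp hA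
  have h2 := rd_eq_zero_of_lt (kerMax_residue A) h1
  rwa [rd_natCast] at h2

lemma charP_res : CharP (Res A) ℓ := by
  obtain ⟨p, hp⟩ := CharP.exists (Res A)
  have hdvd : p ∣ ℓ := (CharP.cast_eq_zero_iff (Res A) p ℓ).mp (natCast_res_eq_zero hA)
  have hp1 : p ≠ 1 := CharP.char_ne_one (Res A) p
  have : p = ℓ := (Nat.prime_dvd_prime_iff_eq
    ((Nat.dvd_prime hℓ.out).mp hdvd |>.resolve_left hp1 ▸ hℓ.out) hℓ.out).mp hdvd
  exact this ▸ hp

lemma val_natCast_eq_one {n : ℕ} (hn : ¬ ℓ ∣ n) : A.valuation (n : Qb) = 1 := by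
  have := charP_res hA
  have hne : ((n : ℕ) : Res A) ≠ 0 := by
    intro h0
    exact hn ((CharP.cast_eq_zero_iff (Res A) ℓ n).mp h0)
  rw [← rd_natCast (A := A) (φ := IsLocalRing.residue A)] at hne
  exact (rd_ne_zero_iff (kerMax_residue A) (natCast_mem A n)).mp hne

end char

section curve

variable {A} {ℓ : ℕ} [Fact ℓ.Prime] [Algebra (ZMod ℓ) (Res A)]

/-- The reduction of the `ℚ̄`-curve of `W` is the base change of `W mod ℓ`. -/
lemma isRedOf_int (W : WeierstrassCurve ℤ) :
    IsRedOf A (IsLocalRing.residue A) ((W.map (Int.castRingHom ℚ))⁄Qb)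
      ((W.reductionMod ℓ)⁄(Res A)) := by
  have e : ∀ m : ℤ, algebraMap ℚ Qb (Int.castRingHom ℚ m) = (m : Qb) := fun m => by simp
  have e' : ∀ m : ℤ, algebraMap (ZMod ℓ) (Res A) (Int.castRingHom (ZMod ℓ) m) = (m : Res A) :=
    fun m => by simp
  have hm : ∀ m : ℤ, algebraMap ℚ Qb (Int.castRingHom ℚ m) ∈ A := fun m => by
    rw [e]; exact intCast_mem A m
  have hr : ∀ m : ℤ, rd A (IsLocalRing.residue A) (algebraMap ℚ Qb (Int.castRingHom ℚ m)) =
      algebraMap (ZMod ℓ) (Res A) (Int.castRingHom (ZMod ℓ) m) := fun m => by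
    rw [e, e', rd_intCast]
  exact ⟨hm _, hm _, hm _, hm _, hm _, hr _, hr _, hr _, hr _, hr _⟩

lemma Δ_red_ne_zero [CharP (Res A) ℓ] (W : WeierstrassCurve ℤ) (hgood : W.IsGoodPrimeFor ℓ) :
    ((W.reductionMod ℓ)⁄(Res A)).Δ ≠ 0 := by
  have h1 : ((W.reductionMod ℓ)⁄(Res A)).Δ =
      algebraMap (ZMod ℓ) (Res A) (Int.castRingHom (ZMod ℓ) W.Δ) := by
    show ((W.map (Int.castRingHom (ZMod ℓ))).map (algebraMap (ZMod ℓ) (Res A))).Δ = _
    rw [WeierstrassCurve.map_Δ, WeierstrassCurve.map_Δ]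
  rw [h1]
  have e' : algebraMap (ZMod ℓ) (Res A) (Int.castRingHom (ZMod ℓ) W.Δ) = (W.Δ : Res A) := by simp
  rw [e']
  intro h0
  exact hgood ((CharP.intCast_eq_zero_iff (Res A) ℓ W.Δ).mp h0)

end curve

section frob

variable {A} {ℓ : ℕ} {σ : Qb ≃ₐ[ℚ] Qb} (hσ : A.IsFrobeniusAt σ ℓ)
include hσ

lemma frob_mem {x : Qb} (hx : x ∈ A) : σ x ∈ A := by
  obtain ⟨hd, -⟩ := hσ
  exact ((⟨σ, hd⟩ : A.decompositionSubgroup ℚ) • (⟨x, hx⟩ : A)).2

lemma frob_mem_iff (x : Qb) : σ x ∈ A ↔ x ∈ A := by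
  refine ⟨fun h => ?_, frob_mem hσ⟩
  obtain ⟨hd, -⟩ := hσ
  have := ((⟨σ, hd⟩ : A.decompositionSubgroup ℚ)⁻¹ • (⟨σ x, h⟩ : A)).2
  have e : (((⟨σ, hd⟩ : A.decompositionSubgroup ℚ)⁻¹ • (⟨σ x, h⟩ : A) : A) : Qb) = x := by
    show σ⁻¹ (σ x) = x
    exact σ.symm_apply_apply x
  rwa [e] at this

lemma rd_frob {x : Qb} (hx : x ∈ A) :
    rd A (IsLocalRing.residue A) (σ x) = rd A (IsLocalRing.residue A) x ^ ℓ := by
  have hx' := frob_mem hσ hx
  obtain ⟨hd, hF⟩ := hσ
  rw [rd_of_mem hx', rd_of_mem hx, ← hF, ← IsLocalRing.ResidueField.residue_smul]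
  rfl

end frob

/-- **A1.** -/
theorem reductionData : ReductionData := by
  intro W ℓ _ hgood A σ hA hσ n hn hℓn
  letI : DecidableEq (Res A) := Classical.decEq _
  haveI : CharP (Res A) ℓ := charP_res hA
  letI : Algebra (ZMod ℓ) (Res A) := ZMod.algebra _ ℓ
  have h := isRedOf_int (A := A) (ℓ := ℓ) W
  have hφ := kerMax_residue A
  have hΔ := Δ_red_ne_zero (A := A) W hgood
  have hn1 : A.valuation (n : Qb) = 1 := val_natCast_eq_one hA hℓn
  refine ⟨Res A, inferInstance, inferInstance, inferInstance,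
    (redHom h hφ hΔ).comp (Submodule.torsionBy ℤ (Pts W) n).subtype.toAddMonoidHom, ?_, ?_⟩
  · intro P Q hPQ
    have hP : n • (P : Pts W) = 0 := by
      have := (Submodule.mem_torsionBy_iff _ _).mp P.2
      rwa [natCast_zsmul] at this
    have hQ : n • (Q : Pts W) = 0 := by
      have := (Submodule.mem_torsionBy_iff _ _).mp Q.2
      rwa [natCast_zsmul] at this
    exact Subtype.ext (eq_of_red_eq_of_nsmul h hφ hΔ n hn1 _ _ hP hQ hPQ)
  · intro P
    show red h hΔ (σ • (P : Pts W)) = frobPt ℓ (W.reductionMod ℓ) (Res A) (red h hΔ (P : Pts W))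
    rcases hP : (P : Pts W) with _ | ⟨x, y, hxy⟩
    · rfl
    · rw [WeierstrassCurve.Affine.Point.algEquiv_smul_def, Point.map_some]
      by_cases hx : x ∈ A
      · have hy : y ∈ A := y_mem_of_x_mem h hxy.1 hx
        rw [red_some_of_mem h hΔ (x := σ.toAlgHom x) (y := σ.toAlgHom y) _ (frob_mem hσ hx),
          red_some_of_mem h hΔ hxy hx]
        simp only [frobPt, Point.map_some]
        congr 1
        · refine (rd_frob hσ hx).trans ?_
          simp [FiniteField.frobeniusAlgHom, ZMod.card]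
        · refine (rd_frob hσ hy).trans ?_
          simp [FiniteField.frobeniusAlgHom, ZMod.card]
      · rw [red_some_of_not_mem h hΔ (x := σ.toAlgHom x) (y := σ.toAlgHom y) _
            (fun h' => hx ((frob_mem_iff hσ x).mp h')),
          red_some_of_not_mem h hΔ hxy hx]
        exact (_root_.map_zero _).symm

end Fermat.Agent.Lib.Frob.A1.H290

end
-- ===== PACK-END Lib/Frob/A1/H290/Main.lean

-- ===== PACK-BEGIN Lib/Frob/A1/Main.lean
section



/-!
# Shared library `Frob`, piece A1: the deliverable `reductionData : ReductionData`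

Proof: `Fermat/Agent/Lib/Frob/A1/H290/Main.lean` (helper290), an instance of the general reduction
homomorphism `Fermat.Agent.Lib.Red.H290.redHom` with `k` the residue field of `A`.
-/

set_option autoImplicit false

namespace Fermat.Agent.Lib.Frob

/-- **A1**: reduction of prime-to-`ℓ` torsion at a valuation subring of `ℚ̄` over a good prime. -/
theorem reductionData : ReductionData := A1.H290.reductionData

end Fermat.Agent.Lib.Frob

end
-- ===== PACK-END Lib/Frob/A1/Main.lean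

-- ===== PACK-BEGIN S35/H891/NewSub3.lean
section
/-
S35 top glue for the CUBIC relation (helper891): the adic eigenmodule of the NEW part, variant of
helper991's `S35.H991.exists_adic_eigenmodule_new` with

* the degeneracy maps `f c` only required to be operator-equivariant on the `p`-power TORSION
  (this is the form in which helper155's `pushA_hecke`, `pushB_hecke` are proved);
* one more clause: CUBIC relations with integer coefficients on the `p`-power torsion of the new
  part are inherited by the module.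

The module is built inside the Galois-stable subgroup
`newTorsSub p f = {x | x is p-power torsion ∧ ∀ γ c, f c (γ • x) = 0}`.
-/



set_option autoImplicit false
set_option linter.style.haveILetI false

namespace Fermat.Agent.S35.H891

open TensorProduct IsLocalRing Fermat.Agent.S30.H529

section Transfer

variable (O : Type*) [CommRing O] [Module.Flat ℤ O]
variable {J J' : Type*} [AddCommGroup J] [AddCommGroup J']

/-- A map `J → J'` killing the `m`-torsion of `J` has a base change killing the `m`-torsion of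
`O ⊗ J`. -/
theorem baseChange_eq_zero_of_torsion' (m : ℤ) (A : J →ₗ[ℤ] J')
    (hA : ∀ y : J, m • y = 0 → A y = 0) (x : O ⊗[ℤ] J) (hx : m • x = 0) :
    A.baseChange O x = 0 := by
  obtain ⟨z, rfl⟩ := exists_lTensor_eq_of_smul_eq_zero O m x hx
  have h1 : A ∘ₗ (LinearMap.ker (m • (LinearMap.id : J →ₗ[ℤ] J))).subtype = 0 := by
    apply LinearMap.ext
    intro y
    have hy := y.2
    rw [LinearMap.mem_ker, LinearMap.smul_apply, LinearMap.id_apply] at hy
    simpa using hA y hy
  have h2 : A.baseChange O ((LinearMap.ker (m • (LinearMap.id : J →ₗ[ℤ] J))).subtype.lTensor O z)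
      = (A ∘ₗ (LinearMap.ker (m • (LinearMap.id : J →ₗ[ℤ] J))).subtype).lTensor O z := by
    rw [LinearMap.lTensor_comp]
    rfl
  rw [h2, h1, LinearMap.lTensor_zero, LinearMap.zero_apply]

end Transfer

section NewTorsSub

variable {G : Type*} [Group G] {J : Type*} [AddCommGroup J] [DistribMulAction G J]
variable {C : Type*} {J' : C → Type*} [∀ c, AddCommGroup (J' c)]

theorem smul_nsmul_comm (γ : G) (k : ℕ) (x : J) : γ • (k • x) = k • (γ • x) :=
  map_nsmul (DistribSMul.toAddMonoidHom J γ) k x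

theorem smul_zsmul_comm (γ : G) (k : ℤ) (x : J) : γ • (k • x) = k • (γ • x) :=
  map_zsmul (DistribSMul.toAddMonoidHom J γ) k x

/-- The `G`-stable subgroup of the `p`-power torsion of `J` cut out by the additive maps `f c`. -/
def newTorsSub (G : Type*) [Group G] [DistribMulAction G J] (p : ℕ) (f : ∀ c, J →+ J' c) :
    Submodule ℤ J where
  carrier := {x | (∃ n : ℕ, p ^ n • x = 0) ∧ ∀ (γ : G) (c : C), f c (γ • x) = 0}
  zero_mem' := by
    refine ⟨⟨0, smul_zero _⟩, ?_⟩
    intro γ c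
    rw [smul_zero, map_zero]
  add_mem' := by
    rintro x y ⟨⟨n, hn⟩, hx⟩ ⟨⟨k, hk⟩, hy⟩
    refine ⟨⟨n + k, ?_⟩, ?_⟩
    · have h1 : p ^ (n + k) • x = 0 := by rw [pow_add, mul_comm, mul_smul, hn, smul_zero]
      have h2 : p ^ (n + k) • y = 0 := by rw [pow_add, mul_smul, hk, smul_zero]
      rw [smul_add, h1, h2, add_zero]
    · intro γ c
      rw [smul_add, map_add, hx γ c, hy γ c, add_zero]
  smul_mem' := by
    rintro r x ⟨⟨n, hn⟩, hx⟩
    refine ⟨⟨n, ?_⟩, ?_⟩
    · rw [smul_comm, hn, smul_zero]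
    · intro γ c
      rw [smul_zsmul_comm, map_zsmul, hx γ c, smul_zero]

theorem mem_newTorsSub {p : ℕ} {f : ∀ c, J →+ J' c} {x : J} :
    x ∈ newTorsSub G p f ↔ (∃ n : ℕ, p ^ n • x = 0) ∧ ∀ (γ : G) (c : C), f c (γ • x) = 0 :=
  Iff.rfl

theorem smul_mem_newTorsSub {p : ℕ} {f : ∀ c, J →+ J' c} (γ : G) {x : J}
    (hx : x ∈ newTorsSub G p f) : γ • x ∈ newTorsSub G p f := by
  obtain ⟨⟨n, hn⟩, hx⟩ := hx
  refine ⟨⟨n, ?_⟩, ?_⟩
  · rw [← smul_nsmul_comm, hn, smul_zero]
  · intro γ' c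
    rw [← mul_smul]
    exact hx (γ' * γ) c

/-- The Galois action on the new torsion subgroup. -/
@[reducible] def newTorsSubAction (p : ℕ) (f : ∀ c, J →+ J' c) :
    DistribMulAction G (newTorsSub G p f) where
  smul γ x := ⟨γ • (x : J), smul_mem_newTorsSub γ x.2⟩
  one_smul x := Subtype.ext (one_smul G (x : J))
  mul_smul γ δ x := Subtype.ext (mul_smul γ δ (x : J))
  smul_zero γ := Subtype.ext (smul_zero γ)
  smul_add γ x y := Subtype.ext (smul_add γ (x : J) (y : J))

end NewTorsSub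

section Main

/-- The absolute Galois group of `ℚ`. -/
local notation "Γℚ" => (AlgebraicClosure ℚ ≃ₐ[ℚ] AlgebraicClosure ℚ)

variable {O : Type} [CommRing O] [IsDomain O] [IsDiscreteValuationRing O]
  [IsAdicComplete (maximalIdeal O) O] [CharZero O]

/-- **The adic eigenmodule of the new part**, torsion form, with the cubic clause. -/
theorem exists_adic_eigenmodule_new3 {p : ℕ} (hpO : (p : O) ∈ maximalIdeal O) (hp0 : p ≠ 0)
    {J : Type} [AddCommGroup J] [DistribMulAction Γℚ J]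
    {ι : Type} (T : ι → J →+ J) (a : ι → O)
    (hT : ∀ (i : ι) (γ : Γℚ) (x : J), T i (γ • x) = γ • T i x)
    (hfin : {x : J | p • x = 0}.Finite)
    (hsm : ∀ x : J, (∃ n : ℕ, p ^ n • x = 0) →
      ∃ L : IntermediateField ℚ (AlgebraicClosure ℚ), FiniteDimensional ℚ L ∧
        ∀ σ : Γℚ, (∀ y ∈ L, σ y = y) → σ • x = x)
    {C : Type} {J' : C → Type} [∀ c, AddCommGroup (J' c)]
    (T' : ∀ c, ι → J' c →+ J' c) (f : ∀ c, J →+ J' c)
    (hf : ∀ (c : C) (i : ι) (x : J), (∃ n : ℕ, p ^ n • x = 0) →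
      f c (T i x) = T' c i (f c x))
    (hexcl : ∀ (c : C) (z : ℕ → O ⊗[ℤ] J' c), (p : O) • z 0 = 0 →
      (∀ n, (p : O) • z (n + 1) = z n) →
      (∀ i n, tensorOp O (T' c) i (z n) = a i • z n) → z = 0)
    (v : ℕ → O ⊗[ℤ] J) (hv0 : (p : O) • v 0 = 0) (hv : ∀ n, (p : O) • v (n + 1) = v n)
    (hne : v ≠ 0) (heig : ∀ i n, tensorOp O T i (v n) = a i • v n) :
    ∃ (M : Type) (_ : AddCommGroup M) (_ : Module O M) (_ : Module.Free O M)
      (_ : Module.Finite O M) (ρ : Γℚ →* Module.End O M),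
      Nontrivial M ∧ GaloisActionIsAdicContinuous O ρ ∧
      (∀ γ : Γℚ,
        (∀ x : J, (∃ n : ℕ, p ^ n • x = 0) → (∀ (γ' : Γℚ) (c : C), f c (γ' • x) = 0) →
          γ • x = x) → ρ γ = 1) ∧
      (∀ (γ : Γℚ) (i : ι) (c : ℤ),
        (∀ x : J, (∃ n : ℕ, p ^ n • x = 0) → (∀ (γ' : Γℚ) (c' : C), f c' (γ' • x) = 0) →
          γ • γ • x - T i (γ • x) + c • x = 0) →
        ρ γ * ρ γ - a i • ρ γ + (c : O) • (1 : Module.End O M) = 0) ∧
      (∀ (γ : Γℚ) (c₂ c₁ c₀ : ℤ),
        (∀ x : J, (∃ n : ℕ, p ^ n • x = 0) → (∀ (γ' : Γℚ) (c' : C), f c' (γ' • x) = 0) →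
          γ • γ • γ • x + c₂ • (γ • γ • x) + c₁ • (γ • x) + c₀ • x = 0) →
        ∀ m : M, ρ γ (ρ γ (ρ γ m)) + (c₂ : O) • ρ γ (ρ γ m) + (c₁ : O) • ρ γ m
          + (c₀ : O) • m = 0) := by
  classical
  -- the new subgroup, with its Galois action
  let K : Submodule ℤ J := newTorsSub Γℚ p f
  letI actK : DistribMulAction Γℚ K := newTorsSubAction p f
  have hsmulK : ∀ (γ : Γℚ) (x : K), ((γ • x : K) : J) = γ • (x : J) := fun _ _ => rfl
  have htorsK : ∀ x : K, ∃ n : ℕ, p ^ n • (x : J) = 0 := fun x => x.2.1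
  have hcoe_nsmul : ∀ (k : ℕ) (x : K), ((k • x : K) : J) = k • (x : J) := fun _ _ => rfl
  have hcoe_zsmul : ∀ (k : ℤ) (x : K), ((k • x : K) : J) = k • (x : J) := fun _ _ => rfl
  -- the operators on `K`
  have hTK : ∀ (i : ι) (x : J), x ∈ K → T i x ∈ K := by
    rintro i x ⟨⟨n, hn⟩, hx⟩
    refine ⟨⟨n, ?_⟩, ?_⟩
    · rw [← map_nsmul, hn, map_zero]
    · intro γ c
      rw [← hT, hf c i (γ • x) ⟨n, by rw [← smul_nsmul_comm, hn, smul_zero]⟩, hx γ c, map_zero]
  let TK : ι → K →+ K := fun i =>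
    { toFun := fun x => ⟨T i (x : J), hTK i (x : J) x.2⟩
      map_zero' := Subtype.ext (map_zero (T i))
      map_add' := fun x y => Subtype.ext (map_add (T i) (x : J) (y : J)) }
  have hTKl : ∀ (i : ι) (x : K), ((TK i x : K) : J) = T i (x : J) := fun _ _ => rfl
  have hTKG : ∀ (i : ι) (γ : Γℚ) (x : K), TK i (γ • x) = γ • TK i x := by
    intro i γ x
    apply Subtype.ext
    rw [hTKl, hsmulK, hsmulK, hTKl]
    exact hT i γ (x : J)
  have hfinK : {x : K | p • x = 0}.Finite := by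
    refine Set.Finite.of_finite_image (f := fun x : K => (x : J)) ?_
      (fun x _ y _ h => Subtype.ext h)
    refine hfin.subset ?_
    rintro _ ⟨x, hx, rfl⟩
    show p • (x : J) = 0
    have : ((p • x : K) : J) = 0 := by rw [hx]; rfl
    exact this
  have hsmK : ∀ x : K, (∃ n : ℕ, p ^ n • x = 0) →
      ∃ L : IntermediateField ℚ (AlgebraicClosure ℚ), FiniteDimensional ℚ L ∧
        ∀ σ : Γℚ, (∀ y ∈ L, σ y = y) → σ • x = x := by
    rintro x -
    obtain ⟨L, hL, hLx⟩ := hsm (x : J) (htorsK x)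
    exact ⟨L, hL, fun σ hσ => Subtype.ext (hLx σ hσ)⟩
  -- the eigen-sequence lies in `O ⊗ K`
  have hvpow : ∀ n, ((p ^ (n + 1) : ℕ) : ℤ) • v n = 0 := by
    intro n
    have h1 : (p : O) ^ (n + 1) • v n = 0 :=
      tate_pow_succ_smul (ϖ := (p : O)) (t := tensorOp O T) (a := a) ⟨hv0, hv, heig⟩ n
    rw [← natCast_pow_smul]
    exact h1
  have hinj : Function.Injective (K.subtype.baseChange O) := by
    have := Module.Flat.lTensor_preserves_injective_linearMap (M := O) K.subtype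
      K.injective_subtype
    exact this
  -- vanishing of the images under the degeneracy maps
  have hvan : ∀ (γ : Γℚ) (c : C) (n : ℕ),
      ((f c).toIntLinearMap.comp (actLin J γ)).baseChange O (v n) = 0 := by
    intro γ c n
    have hz := hexcl c (fun n => ((f c).toIntLinearMap.comp (actLin J γ)).baseChange O (v n))
      (by rw [← map_smul, hv0, map_zero])
      (fun n => by rw [← map_smul, hv n])
      (fun i n => by
        show ((T' c i).toIntLinearMap.baseChange O)
            (((f c).toIntLinearMap.comp (actLin J γ)).baseChange O (v n))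
          = a i • ((f c).toIntLinearMap.comp (actLin J γ)).baseChange O (v n)
        have h1 : ((T' c i).toIntLinearMap.comp ((f c).toIntLinearMap.comp (actLin J γ))
            - ((f c).toIntLinearMap.comp (actLin J γ)).comp (T i).toIntLinearMap).baseChange O
              (v n) = 0 := by
          refine baseChange_eq_zero_of_torsion' O ((p ^ (n + 1) : ℕ) : ℤ) _ ?_ (v n) (hvpow n)
          intro y hy
          rw [natCast_zsmul] at hy
          show T' c i (f c (γ • y)) - f c (γ • T i y) = 0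
          rw [← hT, hf c i (γ • y) ⟨n + 1, by rw [← smul_nsmul_comm, hy, smul_zero]⟩, sub_self]
        rw [LinearMap.baseChange_sub, LinearMap.sub_apply, sub_eq_zero,
          LinearMap.baseChange_comp, LinearMap.baseChange_comp (f := (T i).toIntLinearMap),
          LinearMap.comp_apply, LinearMap.comp_apply] at h1
        rw [h1]
        have h2 : (T i).toIntLinearMap.baseChange O (v n) = a i • v n := heig i n
        rw [h2, map_smul])
    exact congrFun hz n
  have hlift : ∀ n, ∃ s : O ⊗[ℤ] K, K.subtype.baseChange O s = v n := by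
    intro n
    have hfin' : {x : J | p ^ (n + 1) • x = 0}.Finite := finite_torsion_pow J p hfin (n + 1)
    obtain ⟨s, hs⟩ := Fermat.Agent.S35.H991.exists_lTensor_subtype_eq O (p ^ (n + 1)) hfin'
      (C := Γℚ × C) (J' := fun γc => J' γc.2)
      (fun γc => (f γc.2).toIntLinearMap.comp (actLin J γc.1)) K
      (fun x hx0 hx => ⟨⟨n + 1, hx0⟩, fun γ c => hx (γ, c)⟩) (v n) (hvpow n)
      (fun γc => hvan γc.1 γc.2 n)
    exact ⟨s, hs⟩
  choose s hs using hlift
  have hs0 : (p : O) • s 0 = 0 := by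
    apply hinj
    rw [map_smul, hs, hv0, map_zero]
  have hss : ∀ n, (p : O) • s (n + 1) = s n := by
    intro n
    apply hinj
    rw [map_smul, hs, hs, hv n]
  have hsne : s ≠ 0 := by
    intro h
    apply hne
    funext n
    rw [← hs n, h]
    simp
  have hseig : ∀ i n, tensorOp O TK i (s n) = a i • s n := by
    intro i n
    apply hinj
    show K.subtype.baseChange O ((TK i).toIntLinearMap.baseChange O (s n))
      = K.subtype.baseChange O (a i • s n)
    have h1 : K.subtype.comp (TK i).toIntLinearMap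
        = (T i).toIntLinearMap.comp K.subtype := by
      apply LinearMap.ext
      intro x
      rfl
    rw [← LinearMap.comp_apply, ← LinearMap.baseChange_comp, h1, LinearMap.baseChange_comp,
      LinearMap.comp_apply, hs, map_smul, hs]
    exact heig i n
  obtain ⟨M, i1, i2, i3, i4, ρ, hnt, hcont, hunr, hquad, hcub⟩ :=
    exists_adic_galois_eigenmodule3 p O K TK a hpO hp0 hTKG hfinK hsmK s hs0 hss hsne hseig
  refine ⟨M, i1, i2, i3, i4, ρ, hnt, hcont, ?_, ?_, ?_⟩
  · intro γ hγ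
    refine hunr γ ?_
    rintro x -
    apply Subtype.ext
    rw [hsmulK]
    exact hγ (x : J) (htorsK x) x.2.2
  · intro γ i c hγ
    refine hquad γ i c ?_
    rintro x -
    apply Subtype.ext
    exact hγ (x : J) (htorsK x) x.2.2
  · intro γ c₂ c₁ c₀ hγ
    refine hcub γ c₂ c₁ c₀ ?_
    rintro x -
    apply Subtype.ext
    exact hγ (x : J) (htorsK x) x.2.2

end Main

end Fermat.Agent.S35.H891

end
-- ===== PACK-END S35/H891/NewSub3.lean

-- ===== PACK-BEGIN A2/H729/Glue.lean
section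


/-!
# A2, piece ALG_ss (helper729), version A: gluing a generic idempotent

Setting of `S18.H138.connected_special_fibre`: `R` a noetherian domain with `R[X]` integrally
closed (a DVR), `w ∈ R` prime, `F` a field of characteristic `0`, `x ∈ F` transcendental, `F`
finite over `baseField R x`, `R` integrally closed in `F`.  The charts are the integral closures of
`R[x]`, `R[x⁻¹]`, `R[x, x⁻¹]` in `F`.

`O` is the *Gauss ring*: a subalgebra of `F` containing the charts (in the application the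
intersection of the valuation rings of `F` over the Gauss valuations of the special fibre), with
the `q`-expansion principle `chart ∩ w O = w chart` for the three charts (the special fibre is
reduced).  `e₀ ∈ O` is idempotent modulo `w O` (an idempotent of the total ring of fractions of
the special fibre).

**Theorem** (`generic_idempotent_trivial`).  If `e₀` is *locally regular* at every closed point
of the special fibre of both charts (for every maximal ideal `𝔫 ∋ w` of the chart there is a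
denominator `s ∉ 𝔫` with `s e₀ ≡` an element of the chart modulo `w O`), then `e₀ ≡ 0` or
`e₀ ≡ 1` modulo `w O`.

No normality of the special fibre is used: only reducedness (the three `qep` hypotheses).
-/

set_option autoImplicit false

namespace Fermat.Agent.A2.H729

open Fermat.Agent.S18.H138

variable {R : Type*} [CommRing R] {F : Type*} [Field F] [Algebra R F]

/-- `z ∈ w O`. -/
def InW (O : Subalgebra R F) (w : R) (z : F) : Prop :=
  ∃ t ∈ O, z = algebraMap R F w * t

theorem InW.add {O : Subalgebra R F} {w : R} {a b : F} (ha : InW O w a) (hb : InW O w b) :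
    InW O w (a + b) := by
  obtain ⟨s, hs, rfl⟩ := ha
  obtain ⟨t, ht, rfl⟩ := hb
  exact ⟨s + t, O.add_mem hs ht, by ring⟩

theorem InW.neg {O : Subalgebra R F} {w : R} {a : F} (ha : InW O w a) : InW O w (-a) := by
  obtain ⟨s, hs, rfl⟩ := ha
  exact ⟨-s, O.neg_mem hs, by ring⟩

theorem InW.sub {O : Subalgebra R F} {w : R} {a b : F} (ha : InW O w a) (hb : InW O w b) :
    InW O w (a - b) := by
  rw [sub_eq_add_neg]
  exact ha.add hb.neg

theorem InW.mul_left {O : Subalgebra R F} {w : R} {a : F} (ha : InW O w a) {c : F}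
    (hc : c ∈ O) : InW O w (c * a) := by
  obtain ⟨s, hs, rfl⟩ := ha
  exact ⟨c * s, O.mul_mem hc hs, by ring⟩

theorem InW.mul_right {O : Subalgebra R F} {w : R} {a : F} (ha : InW O w a) {c : F}
    (hc : c ∈ O) : InW O w (a * c) := by
  rw [mul_comm]
  exact ha.mul_left hc

theorem InW.zero (O : Subalgebra R F) (w : R) : InW O w 0 :=
  ⟨0, O.zero_mem, by ring⟩

theorem InW.of_mul {O : Subalgebra R F} (w : R) {t : F} (ht : t ∈ O) :
    InW O w (algebraMap R F w * t) :=
  ⟨t, ht, rfl⟩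

theorem InW.mem {O : Subalgebra R F} {w : R} {a : F} (ha : InW O w a) : a ∈ O := by
  obtain ⟨s, hs, rfl⟩ := ha
  exact O.mul_mem (O.algebraMap_mem w) hs

theorem InW.sum {O : Subalgebra R F} {w : R} {ι : Type*} (s : Finset ι) (f : ι → F)
    (h : ∀ i ∈ s, InW O w (f i)) : InW O w (∑ i ∈ s, f i) := by
  classical
  induction s using Finset.induction_on with
  | empty => simpa using InW.zero O w
  | insert a s ha ih =>
    rw [Finset.sum_insert ha]
    exact (h a (Finset.mem_insert_self a s)).add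
      (ih fun i hi => h i (Finset.mem_insert_of_mem hi))

/-- The *regularity ideal* of `e₀` on the chart `C`: the denominators `s ∈ C` such that
`s e₀` is congruent modulo `w O` to an element of `C`. -/
def regIdeal (C O : Subalgebra R F) (hCO : C ≤ O) (w : R) (e₀ : F) : Ideal C where
  carrier := {s | ∃ e ∈ C, InW O w ((s : F) * e₀ - e)}
  add_mem' := by
    rintro a b ⟨e, he, h⟩ ⟨e', he', h'⟩
    refine ⟨e + e', C.add_mem he he', ?_⟩
    have : ((a + b : C) : F) * e₀ - (e + e') = ((a : F) * e₀ - e) + ((b : F) * e₀ - e') := by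
      push_cast; ring
    rw [this]
    exact h.add h'
  zero_mem' := ⟨0, C.zero_mem, by simpa using InW.zero O w⟩
  smul_mem' := by
    rintro c a ⟨e, he, h⟩
    refine ⟨c * e, C.mul_mem c.2 he, ?_⟩
    have : ((c • a : C) : F) * e₀ - c * e = (c : F) * ((a : F) * e₀ - e) := by
      rw [smul_eq_mul]; push_cast; ring
    rw [this]
    exact h.mul_left (hCO c.2)

theorem mem_regIdeal {C O : Subalgebra R F} {hCO : C ≤ O} {w : R} {e₀ : F} {s : C} :
    s ∈ regIdeal C O hCO w e₀ ↔ ∃ e ∈ C, InW O w ((s : F) * e₀ - e) := Iff.rfl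

/-- If `e₀ ∈ O` is locally regular at all maximal ideals of `C` containing `w`, it is congruent
modulo `w O` to an element of `C`. -/
theorem exists_chart_rep {C O : Subalgebra R F} (hCO : C ≤ O) (w : R) {e₀ : F} (he₀ : e₀ ∈ O)
    (hloc : ∀ 𝔫 : Ideal C, 𝔫.IsMaximal → algebraMap R C w ∈ 𝔫 →
      ∃ s : C, s ∉ 𝔫 ∧ ∃ e ∈ C, InW O w ((s : F) * e₀ - e)) :
    ∃ e ∈ C, InW O w (e₀ - e) := by
  have hw : algebraMap R C w ∈ regIdeal C O hCO w e₀ := by
    refine ⟨0, C.zero_mem, ?_⟩
    rw [sub_zero]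
    exact ⟨e₀, he₀, rfl⟩
  have htop : regIdeal C O hCO w e₀ = ⊤ := by
    by_contra hne
    obtain ⟨𝔫, h𝔫, hle⟩ := Ideal.exists_le_maximal _ hne
    obtain ⟨s, hs, e, he, h⟩ := hloc 𝔫 h𝔫 (hle hw)
    exact hs (hle ⟨e, he, h⟩)
  have h1 : (1 : C) ∈ regIdeal C O hCO w e₀ := by rw [htop]; trivial
  obtain ⟨e, he, h⟩ := h1
  refine ⟨e, he, ?_⟩
  simpa using h

section Main

variable [IsNoetherianRing R] [IsIntegrallyClosed (Polynomial R)] [CharZero F]

/-- **ALG_ss, version A.**  A generic idempotent of a reduced special fibre which is locally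
regular at every closed point of both charts is `0` or `1`. -/
theorem generic_idempotent_trivial
    (hinjR : Function.Injective (algebraMap R F))
    (hRF : ∀ y : F, IsIntegral R y → y ∈ Set.range (algebraMap R F))
    {x : F} (hx : Transcendental R x) [FiniteDimensional (baseField R x) F]
    (w : R) (hw : Prime w)
    (O : Subalgebra R F)
    (hfin : chart R ({x} : Set F) ≤ O) (hinf : chart R ({x⁻¹} : Set F) ≤ O)
    (qep_fin : ∀ b ∈ chart R ({x} : Set F), InW O w b →
      ∃ t ∈ chart R ({x} : Set F), b = algebraMap R F w * t)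
    (qep_inf : ∀ b ∈ chart R ({x⁻¹} : Set F), InW O w b →
      ∃ t ∈ chart R ({x⁻¹} : Set F), b = algebraMap R F w * t)
    (qep_mid : ∀ b ∈ chart R ({x, x⁻¹} : Set F), InW O w b →
      ∃ t ∈ chart R ({x, x⁻¹} : Set F), b = algebraMap R F w * t)
    {e₀ : F} (he₀ : e₀ ∈ O) (hidem : InW O w (e₀ ^ 2 - e₀))
    (hloc_fin : ∀ 𝔫 : Ideal (chart R ({x} : Set F)), 𝔫.IsMaximal →
      algebraMap R (chart R ({x} : Set F)) w ∈ 𝔫 →
      ∃ s : chart R ({x} : Set F), s ∉ 𝔫 ∧
        ∃ e ∈ chart R ({x} : Set F), InW O w ((s : F) * e₀ - e))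
    (hloc_inf : ∀ 𝔫 : Ideal (chart R ({x⁻¹} : Set F)), 𝔫.IsMaximal →
      algebraMap R (chart R ({x⁻¹} : Set F)) w ∈ 𝔫 →
      ∃ s : chart R ({x⁻¹} : Set F), s ∉ 𝔫 ∧
        ∃ e ∈ chart R ({x⁻¹} : Set F), InW O w ((s : F) * e₀ - e)) :
    InW O w e₀ ∨ InW O w (1 - e₀) := by
  obtain ⟨e₁, he₁, h₁⟩ := exists_chart_rep hfin w he₀ hloc_fin
  obtain ⟨e₂, he₂, h₂⟩ := exists_chart_rep hinf w he₀ hloc_inf
  have he₁O : e₁ ∈ O := hfin he₁
  have he₂O : e₂ ∈ O := hinf he₂
  -- `e₁` is idempotent modulo `w` in the finite chart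
  have hi₁ : ∃ t ∈ chart R ({x} : Set F), e₁ ^ 2 - e₁ = algebraMap R F w * t := by
    refine qep_fin _ (Subalgebra.sub_mem _ (Subalgebra.pow_mem _ he₁ 2) he₁) ?_
    have : e₁ ^ 2 - e₁ = (e₀ ^ 2 - e₀) - (e₀ - e₁) * (e₀ + e₁ - 1) := by ring
    rw [this]
    exact hidem.sub (h₁.mul_right
      (O.sub_mem (O.add_mem he₀ he₁O) O.one_mem))
  have hi₂ : ∃ t ∈ chart R ({x⁻¹} : Set F), e₂ ^ 2 - e₂ = algebraMap R F w * t := by
    refine qep_inf _ (Subalgebra.sub_mem _ (Subalgebra.pow_mem _ he₂ 2) he₂) ?_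
    have : e₂ ^ 2 - e₂ = (e₀ ^ 2 - e₀) - (e₀ - e₂) * (e₀ + e₂ - 1) := by ring
    rw [this]
    exact hidem.sub (h₂.mul_right
      (O.sub_mem (O.add_mem he₀ he₂O) O.one_mem))
  have h₁₂ : ∃ t ∈ chart R ({x, x⁻¹} : Set F), e₁ - e₂ = algebraMap R F w * t := by
    refine qep_mid _ (Subalgebra.sub_mem _ (chart_mono (by simp) he₁)
      (chart_mono (by simp) he₂)) ?_
    have : e₁ - e₂ = (e₀ - e₂) - (e₀ - e₁) := by ring
    rw [this]
    exact h₂.sub h₁
  rcases connected_special_fibre hinjR hRF hx w hw e₁ e₂ he₁ he₂ hi₁ hi₂ h₁₂ with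
    ⟨⟨t, ht, h⟩, _⟩ | ⟨⟨t, ht, h⟩, _⟩
  · left
    have : e₀ = (e₀ - e₁) + e₁ := by ring
    rw [this]
    exact h₁.add ⟨t, hfin ht, h⟩
  · right
    have : 1 - e₀ = (1 - e₁) - (e₀ - e₁) := by ring
    rw [this]
    exact InW.sub ⟨t, hfin ht, h⟩ h₁

end Main

end Fermat.Agent.A2.H729

end
-- ===== PACK-END A2/H729/Glue.lean

-- ===== PACK-BEGIN A2/H729/Gauss.lean
section



/-!
# A2 (helper729): the canonical Gauss ring of the `x`-line model and its `q`-expansion principle

`R` a domain with `R[X]` integrally closed, `w ∈ R` prime, `F ⊇ R` a field, `x ∈ F` transcendental.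
`gaussO hw x` is the ring of all `t ∈ F` such that `Q(x) t` is integral over `R[x]` for some
polynomial `Q` which is nonzero modulo `w` (the integral closure in `F` of the Gauss valuation ring
`R[x]_(w)` of `R(x)`; the intersection of the valuation rings of `F` over the Gauss valuation).

Results (all hypotheses of `generic_idempotent_trivial` / `kummer_trivial_of_local` about `O`):
* `chart_fin_le_gaussO`, `chart_inf_le_gaussO`, `chart_mid_le_gaussO`;
* `qep_fin`, `qep_inf`, `qep_mid`: `chart ∩ w O = w chart`.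
These hold for EVERY finite extension `F` (normality of the charts); reducedness of the special
fibre is what allows the user to prove congruences modulo `w O`.
-/

set_option autoImplicit false
set_option linter.unusedSectionVars false

namespace Fermat.Agent.A2.H729

open Polynomial Fermat.Agent.S18.H138

variable {R : Type*} [CommRing R] {F : Type*} [Field F] [Algebra R F]

/-- `s = Q(x)` for a polynomial `Q` which is nonzero modulo `w`. -/
def IsGaussDenom (w : R) (x s : F) : Prop :=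
  ∃ Q : R[X], ¬ C w ∣ Q ∧ s = aeval x Q

theorem not_C_dvd_one {w : R} (hw : Prime w) : ¬ (C w : R[X]) ∣ 1 := fun h =>
  hw.not_isUnit (Polynomial.isUnit_C.1 (isUnit_of_dvd_one h))

theorem not_C_dvd_X_pow {w : R} (hw : Prime w) (k : ℕ) : ¬ (C w : R[X]) ∣ X ^ k := by
  intro h
  have hp : Prime (C w : R[X]) := prime_C_iff.2 hw
  have h1 : (C w : R[X]) ∣ X := hp.dvd_of_dvd_pow h
  obtain ⟨q, hq⟩ := h1
  have := congrArg (fun p : R[X] => p.coeff 1) hq
  simp only [coeff_X_one, coeff_C_mul] at this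
  exact hw.not_isUnit (IsUnit.of_mul_eq_one _ this.symm)

theorem isGaussDenom_one {w : R} (hw : Prime w) (x : F) : IsGaussDenom w x 1 :=
  ⟨1, not_C_dvd_one hw, by simp⟩

theorem isGaussDenom_X_pow {w : R} (hw : Prime w) (x : F) (k : ℕ) : IsGaussDenom w x (x ^ k) :=
  ⟨X ^ k, not_C_dvd_X_pow hw k, by simp⟩

theorem IsGaussDenom.mul {w : R} (hw : Prime w) {x s s' : F} (hs : IsGaussDenom w x s)
    (hs' : IsGaussDenom w x s') : IsGaussDenom w x (s * s') := by
  obtain ⟨Q, hQ, rfl⟩ := hs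
  obtain ⟨Q', hQ', rfl⟩ := hs'
  refine ⟨Q * Q', fun h => ?_, by simp⟩
  rcases (prime_C_iff.2 hw).dvd_or_dvd h with h | h
  · exact hQ h
  · exact hQ' h

theorem IsGaussDenom.mem_adjoin {w : R} {x s : F} (hs : IsGaussDenom w x s) :
    s ∈ Algebra.adjoin R ({x} : Set F) := by
  obtain ⟨Q, -, rfl⟩ := hs
  exact mem_adjoin_singleton_iff.2 ⟨Q, rfl⟩

theorem x_mem_chart_fin (x : F) : x ∈ chart R ({x} : Set F) :=
  mem_chart_of_mem (Set.mem_singleton x)

theorem xinv_mem_chart_inf (x : F) : x⁻¹ ∈ chart R ({x⁻¹} : Set F) :=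
  mem_chart_of_mem (Set.mem_singleton x⁻¹)

theorem xinv_mem_chart_mid (x : F) : x⁻¹ ∈ chart R ({x, x⁻¹} : Set F) :=
  mem_chart_of_mem (Set.mem_insert_of_mem _ (Set.mem_singleton x⁻¹))

theorem chart_fin_le_mid (x : F) : chart R ({x} : Set F) ≤ chart R ({x, x⁻¹} : Set F) :=
  chart_mono (Set.singleton_subset_iff.2 (Set.mem_insert _ _))

theorem chart_inf_le_mid (x : F) : chart R ({x⁻¹} : Set F) ≤ chart R ({x, x⁻¹} : Set F) :=
  chart_mono (Set.singleton_subset_iff.2 (Set.mem_insert_of_mem _ (Set.mem_singleton x⁻¹)))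

/-- The canonical Gauss ring. -/
def gaussO {w : R} (hw : Prime w) (x : F) : Subalgebra R F where
  carrier := {t | ∃ s, IsGaussDenom w x s ∧ s * t ∈ chart R ({x} : Set F)}
  mul_mem' := by
    rintro a b ⟨s, hs, ha⟩ ⟨s', hs', hb⟩
    refine ⟨s * s', hs.mul hw hs', ?_⟩
    have : s * s' * (a * b) = (s * a) * (s' * b) := by ring
    rw [this]
    exact Subalgebra.mul_mem _ ha hb
  add_mem' := by
    rintro a b ⟨s, hs, ha⟩ ⟨s', hs', hb⟩
    refine ⟨s * s', hs.mul hw hs', ?_⟩
    have : s * s' * (a + b) = s' * (s * a) + s * (s' * b) := by ring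
    rw [this]
    exact Subalgebra.add_mem _
      (Subalgebra.mul_mem _ (adjoin_le_chart _ hs'.mem_adjoin) ha)
      (Subalgebra.mul_mem _ (adjoin_le_chart _ hs.mem_adjoin) hb)
  algebraMap_mem' r := ⟨1, isGaussDenom_one hw x, by
    rw [one_mul]; exact Subalgebra.algebraMap_mem _ r⟩

theorem mem_gaussO {w : R} {hw : Prime w} {x t : F} :
    t ∈ gaussO hw x ↔ ∃ s, IsGaussDenom w x s ∧ s * t ∈ chart R ({x} : Set F) := Iff.rfl

theorem chart_fin_le_gaussO {w : R} (hw : Prime w) (x : F) :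
    chart R ({x} : Set F) ≤ gaussO hw x := fun t ht =>
  ⟨1, isGaussDenom_one hw x, by rwa [one_mul]⟩

theorem chart_mid_le_gaussO {w : R} (hw : Prime w) {x : F} (hx : x ≠ 0) :
    chart R ({x, x⁻¹} : Set F) ≤ gaussO hw x := fun t ht => by
  obtain ⟨K, hK⟩ := exists_pow_mul_mem_chart hx ht
  exact ⟨x ^ K, isGaussDenom_X_pow hw x K, hK⟩

theorem chart_inf_le_gaussO {w : R} (hw : Prime w) {x : F} (hx : x ≠ 0) :
    chart R ({x⁻¹} : Set F) ≤ gaussO hw x :=
  le_trans (chart_inf_le_mid (R := R) x) (chart_mid_le_gaussO hw hx)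

section Transcendental

variable [IsDomain R]

/-- `R[X] ≃ R[x]` for transcendental `x`. -/
noncomputable def adjoinEquiv {x : F} (hx : Transcendental R x) :
    R[X] ≃ₐ[R] Algebra.adjoin R ({x} : Set F) :=
  (AlgEquiv.ofInjective (aeval x) (transcendental_iff_injective.1 hx)).trans
    (Subalgebra.equivOfEq _ _ (Algebra.adjoin_singleton_eq_range_aeval R x).symm)

theorem coe_adjoinEquiv {x : F} (hx : Transcendental R x) (Q : R[X]) :
    ((adjoinEquiv hx Q : Algebra.adjoin R ({x} : Set F)) : F) = aeval x Q := rfl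

theorem prime_algebraMap_adjoin {w : R} (hw : Prime w) {x : F} (hx : Transcendental R x) :
    Prime (algebraMap R (Algebra.adjoin R ({x} : Set F)) w) := by
  have h : Prime (adjoinEquiv hx (C w)) :=
    (MulEquiv.prime_iff (adjoinEquiv hx).toMulEquiv).2 (prime_C_iff.2 hw)
  have h2 : adjoinEquiv hx (C w) = algebraMap R (Algebra.adjoin R ({x} : Set F)) w := by
    apply Subtype.ext
    rw [coe_adjoinEquiv, aeval_C]
    rfl
  rwa [h2] at h

theorem not_dvd_adjoinEquiv {w : R} {x : F} (hx : Transcendental R x) {Q : R[X]}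
    (hQ : ¬ C w ∣ Q) :
    ¬ algebraMap R (Algebra.adjoin R ({x} : Set F)) w ∣ adjoinEquiv hx Q := by
  rintro ⟨a, ha⟩
  apply hQ
  refine ⟨(adjoinEquiv hx).symm a, ?_⟩
  apply (adjoinEquiv hx).injective
  rw [map_mul, AlgEquiv.apply_symm_apply, ha]
  congr 1
  apply Subtype.ext
  rw [coe_adjoinEquiv, aeval_C]
  rfl

variable [IsIntegrallyClosed R[X]]

/-- The regular-sequence lemma on the chart: if `w t` and `Q(x) t` are integral over `R[x]`,
`Q ≢ 0 mod w`, then `t` is integral over `R[x]`. -/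
theorem mem_chart_of_mul_mem {w : R} (hw : Prime w) {x : F} (hx : Transcendental R x)
    {s t : F} (hs : IsGaussDenom w x s)
    (h1 : algebraMap R F w * t ∈ chart R ({x} : Set F))
    (h2 : s * t ∈ chart R ({x} : Set F)) : t ∈ chart R ({x} : Set F) := by
  obtain ⟨Q, hQ, rfl⟩ := hs
  have := isIntegrallyClosed_adjoin_singleton (R := R) hx
  rw [mem_chart] at h1 h2 ⊢
  refine isIntegral_of_smul_of_smul (prime_algebraMap_adjoin hw hx)
    (not_dvd_adjoinEquiv hx hQ) ?_ ?_
  · have : algebraMap R (Algebra.adjoin R ({x} : Set F)) w • t = algebraMap R F w * t := rfl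
    rw [this]; exact h1
  · have : adjoinEquiv hx Q • t = aeval x Q * t := rfl
    rw [this]; exact h2

/-- **QEP** on the finite chart. -/
theorem qep_fin {w : R} (hw : Prime w) {x : F} (hx : Transcendental R x) :
    ∀ b ∈ chart R ({x} : Set F), InW (gaussO hw x) w b →
      ∃ t ∈ chart R ({x} : Set F), b = algebraMap R F w * t := by
  rintro b hb ⟨t, ⟨s, hs, hst⟩, rfl⟩
  exact ⟨t, mem_chart_of_mul_mem hw hx hs hb hst, rfl⟩

/-- **QEP** on the middle chart. -/
theorem qep_mid {w : R} (hw : Prime w) {x : F} (hx : Transcendental R x) :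
    ∀ b ∈ chart R ({x, x⁻¹} : Set F), InW (gaussO hw x) w b →
      ∃ t ∈ chart R ({x, x⁻¹} : Set F), b = algebraMap R F w * t := by
  have hx0 : x ≠ 0 := ne_zero_of_transcendental hx
  rintro b hb ⟨t, ⟨s, hs, hst⟩, rfl⟩
  obtain ⟨K, hK⟩ := exists_pow_mul_mem_chart hx0 hb
  have h1 : algebraMap R F w * (x ^ K * t) ∈ chart R ({x} : Set F) := by
    have : algebraMap R F w * (x ^ K * t) = x ^ K * (algebraMap R F w * t) := by ring
    rw [this]; exact hK
  have h2 : s * (x ^ K * t) ∈ chart R ({x} : Set F) := by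
    have : s * (x ^ K * t) = x ^ K * (s * t) := by ring
    rw [this]
    exact Subalgebra.mul_mem _ (Subalgebra.pow_mem _ (x_mem_chart_fin (R := R) x) K) hst
  have h3 : x ^ K * t ∈ chart R ({x} : Set F) := mem_chart_of_mul_mem hw hx hs h1 h2
  refine ⟨t, ?_, rfl⟩
  have : t = x⁻¹ ^ K * (x ^ K * t) := by
    rw [← mul_assoc, ← mul_pow, inv_mul_cancel₀ hx0, one_pow, one_mul]
  rw [this]
  exact Subalgebra.mul_mem _ (Subalgebra.pow_mem _ (xinv_mem_chart_mid (R := R) x) K)
    (chart_fin_le_mid (R := R) x h3)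

theorem not_C_dvd_reflect {w : R} {Q : R[X]} (hQ : ¬ C w ∣ Q) (d : ℕ) :
    ¬ C w ∣ reflect d Q := by
  rintro ⟨q, hq⟩
  apply hQ
  have h1 : Q = reflect d (reflect d Q) := reflect_reflect.symm
  rw [hq, reflect_C_mul] at h1
  exact ⟨_, h1⟩

/-- Membership in the Gauss ring can be tested on the chart at infinity. -/
theorem exists_denom_inv_of_mem_gaussO {w : R} (hw : Prime w) {x : F} (hx0 : x ≠ 0) {t : F}
    (ht : t ∈ gaussO hw x) :
    ∃ s, IsGaussDenom w x⁻¹ s ∧ s * t ∈ chart R ({x⁻¹} : Set F) := by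
  obtain ⟨s, ⟨Q, hQ, rfl⟩, hst⟩ := ht
  obtain ⟨D, hD⟩ := exists_inv_pow_mul_mem_chart hx0 hst
  set d := Q.natDegree with hd
  have hrefl : x⁻¹ ^ d * aeval x Q = aeval x⁻¹ (reflect d Q) := by
    have := pow_mul_aeval_inv (R := R) (x := x⁻¹) (inv_ne_zero hx0) Q (d := d) le_rfl
    rwa [inv_inv] at this
  refine ⟨aeval x⁻¹ (X ^ D * reflect d Q), ⟨X ^ D * reflect d Q, fun h => ?_, rfl⟩, ?_⟩
  · rcases (prime_C_iff.2 hw).dvd_or_dvd h with h | h
    · exact not_C_dvd_X_pow hw D h
    · exact not_C_dvd_reflect hQ d h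
  · rw [map_mul, map_pow, aeval_X, ← hrefl]
    have : x⁻¹ ^ D * (x⁻¹ ^ d * aeval x Q) * t = x⁻¹ ^ d * (x⁻¹ ^ D * (aeval x Q * t)) := by ring
    rw [this]
    exact Subalgebra.mul_mem _ (Subalgebra.pow_mem _ (xinv_mem_chart_inf (R := R) x) d) hD

/-- **QEP** on the chart at infinity. -/
theorem qep_inf {w : R} (hw : Prime w) {x : F} (hx : Transcendental R x) :
    ∀ b ∈ chart R ({x⁻¹} : Set F), InW (gaussO hw x) w b →
      ∃ t ∈ chart R ({x⁻¹} : Set F), b = algebraMap R F w * t := by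
  have hx0 : x ≠ 0 := ne_zero_of_transcendental hx
  rintro b hb ⟨t, ht, rfl⟩
  obtain ⟨s, hs, hst⟩ := exists_denom_inv_of_mem_gaussO hw hx0 ht
  exact ⟨t, mem_chart_of_mul_mem hw (transcendental_inv hx) hs hb hst, rfl⟩

end Transcendental

end Fermat.Agent.A2.H729

end
-- ===== PACK-END A2/H729/Gauss.lean

-- ===== PACK-BEGIN A2/H729/GaussUnits.lean
section


/-!
# A2 (helper729): units and roots in the canonical Gauss ring

* `mem_chart_of_pow_mem`, `mem_gaussO_of_pow_mem` : the charts and the Gauss ring are closed under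
  taking roots (they are integrally closed in `F`).
* `inv_one_add_mem_gaussO` : `w` lies in the Jacobson radical of the Gauss ring:
  `t ∈ O → (1 + w t)⁻¹ ∈ O`.
* `inW_inv_sub_one` : `h ≡ 1 mod w O → h⁻¹ ≡ 1 mod w O`.
-/

set_option autoImplicit false
set_option linter.unusedSectionVars false

namespace Fermat.Agent.A2.H729

open Polynomial Fermat.Agent.S18.H138

variable {R : Type*} [CommRing R] {F : Type*} [Field F] [Algebra R F]

theorem mem_chart_of_pow_mem {S : Set F} {z : F} {n : ℕ} (hn : 0 < n)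
    (h : z ^ n ∈ chart R S) : z ∈ chart R S := by
  rw [mem_chart] at h ⊢
  exact IsIntegral.of_pow hn h

theorem mem_gaussO_of_pow_mem {w : R} (hw : Prime w) {x z : F} {n : ℕ} (hn : 0 < n)
    (h : z ^ n ∈ gaussO hw x) : z ∈ gaussO hw x := by
  obtain ⟨s, hs, hsz⟩ := h
  refine ⟨s, hs, mem_chart_of_pow_mem hn ?_⟩
  have : (s * z) ^ n = s ^ (n - 1) * (s * z ^ n) := by
    rw [mul_pow, ← mul_assoc, ← pow_succ]
    congr 2
    omega
  rw [this]
  exact Subalgebra.mul_mem _ (Subalgebra.pow_mem _ (adjoin_le_chart _ hs.mem_adjoin) _) hsz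

section Transcendental

variable [IsDomain R]

theorem not_C_dvd_symm {w : R} {x : F} (hx : Transcendental R x)
    {a : Algebra.adjoin R ({x} : Set F)}
    (ha : ¬ algebraMap R (Algebra.adjoin R ({x} : Set F)) w ∣ a) :
    ¬ C w ∣ (adjoinEquiv hx).symm a := by
  rintro ⟨q, hq⟩
  apply ha
  refine ⟨adjoinEquiv hx q, ?_⟩
  have h1 := congrArg (adjoinEquiv hx) hq
  rw [AlgEquiv.apply_symm_apply, map_mul] at h1
  rw [h1]
  congr 1
  apply Subtype.ext
  rw [coe_adjoinEquiv, aeval_C]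
  rfl

theorem isGaussDenom_of_not_dvd {w : R} {x : F} (hx : Transcendental R x)
    {a : Algebra.adjoin R ({x} : Set F)}
    (ha : ¬ algebraMap R (Algebra.adjoin R ({x} : Set F)) w ∣ a) :
    IsGaussDenom w x (a : F) := by
  refine ⟨(adjoinEquiv hx).symm a, not_C_dvd_symm hx ha, ?_⟩
  rw [← coe_adjoinEquiv hx, AlgEquiv.apply_symm_apply]

/-- `w` is in the Jacobson radical of the Gauss ring. -/
theorem one_add_unit_gaussO {w : R} (hw : Prime w) {x : F} (hx : Transcendental R x)
    {t : F} (ht : t ∈ gaussO hw x) :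
    (1 + algebraMap R F w * t) ≠ 0 ∧ (1 + algebraMap R F w * t)⁻¹ ∈ gaussO hw x := by
  classical
  obtain ⟨s, ⟨Q, hQ, rfl⟩, hst⟩ := ht
  set A := Algebra.adjoin R ({x} : Set F) with hA
  set w' : A := algebraMap R A w with hw'
  have hw'p : Prime w' := prime_algebraMap_adjoin hw hx
  set sA : A := adjoinEquiv hx Q with hsA
  have hsA' : ¬ w' ∣ sA := not_dvd_adjoinEquiv hx hQ
  have hsAcoe : (sA : F) = aeval x Q := coe_adjoinEquiv hx Q
  set c : F := aeval x Q * t with hc
  obtain ⟨m, hm, hmc⟩ := (mem_chart.1 hst : IsIntegral A c)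
  set n := m.natDegree with hn
  set P : A[X] := (m.scaleRoots w').comp (X - C sA) with hP
  set β : F := aeval x Q + algebraMap R F w * c with hβ
  have hβC : β ∈ chart R ({x} : Set F) :=
    Subalgebra.add_mem _ (adjoin_le_chart _ (mem_adjoin_singleton_iff.2 ⟨Q, rfl⟩))
      (Subalgebra.mul_mem _ (Subalgebra.algebraMap_mem _ w) hst)
  -- `P(β) = 0`
  have hPβ : aeval β P = 0 := by
    rw [hP, aeval_comp]
    have h1 : aeval β (X - C sA : A[X]) = algebraMap A F w' * c := by
      rw [map_sub, aeval_X, aeval_C]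
      have : algebraMap A F sA = aeval x Q := hsAcoe
      rw [this, hβ]
      have : algebraMap A F w' = algebraMap R F w := rfl
      rw [this]
      ring
    rw [h1]
    exact scaleRoots_aeval_eq_zero hmc
  -- constant term of `P`
  have hP0 : ¬ w' ∣ P.coeff 0 := by
    rw [coeff_zero_eq_eval_zero, hP, eval_comp]
    have h0 : eval 0 (X - C sA : A[X]) = -sA := by simp
    rw [h0, eval_eq_sum_range, natDegree_scaleRoots, Finset.sum_range_succ]
    intro hdvd
    have hlow : w' ∣ ∑ i ∈ Finset.range m.natDegree,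
        (m.scaleRoots w').coeff i * (-sA) ^ i := by
      refine Finset.dvd_sum fun i hi => ?_
      rw [coeff_scaleRoots]
      have hi' : 0 < m.natDegree - i := by
        have := Finset.mem_range.1 hi
        omega
      exact Dvd.dvd.mul_right (Dvd.dvd.mul_left (dvd_pow_self _ hi'.ne') _) _
    have htop : w' ∣ (m.scaleRoots w').coeff m.natDegree * (-sA) ^ m.natDegree :=
      (dvd_add_right hlow).1 hdvd
    rw [coeff_scaleRoots, Nat.sub_self, pow_zero, mul_one, hm.coeff_natDegree, one_mul] at htop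
    have := hw'p.dvd_of_dvd_pow htop
    exact hsA' ((dvd_neg).1 this)
  -- `β * γ = p₀`
  set γ : F := -aeval β P.divX with hγ
  have hγC : γ ∈ chart R ({x} : Set F) := by
    rw [hγ]
    refine Subalgebra.neg_mem _ ?_
    rw [aeval_eq_sum_range]
    refine Subalgebra.sum_mem _ fun i _ => ?_
    rw [Algebra.smul_def]
    exact Subalgebra.mul_mem _ (adjoin_le_chart _ (P.divX.coeff i).2)
      (Subalgebra.pow_mem _ hβC i)
  have hβγ : β * γ = ((P.coeff 0 : A) : F) := by
    have h1 : aeval β (P.divX * X + C (P.coeff 0)) = 0 := by rw [divX_mul_X_add, hPβ]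
    rw [map_add, map_mul, aeval_X, aeval_C] at h1
    have h2 : algebraMap A F (P.coeff 0) = ((P.coeff 0 : A) : F) := rfl
    rw [h2] at h1
    rw [hγ]
    linear_combination -h1
  have hp0 : ((P.coeff 0 : A) : F) ≠ 0 := by
    intro h
    have : P.coeff 0 = 0 := Subtype.ext h
    exact hP0 (this ▸ dvd_zero _)
  have hβ0 : β ≠ 0 := fun h => hp0 (by rw [← hβγ, h, zero_mul])
  have hz : β = aeval x Q * (1 + algebraMap R F w * t) := by
    rw [hβ, hc]; ring
  have hz0 : (1 + algebraMap R F w * t) ≠ 0 := fun h => hβ0 (by rw [hz, h, mul_zero])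
  refine ⟨hz0, ((P.coeff 0 : A) : F), isGaussDenom_of_not_dvd hx hP0, ?_⟩
  have : ((P.coeff 0 : A) : F) * (1 + algebraMap R F w * t)⁻¹ = aeval x Q * γ := by
    rw [← hβγ, hz]
    field_simp
  rw [this]
  exact Subalgebra.mul_mem _ (adjoin_le_chart _ (mem_adjoin_singleton_iff.2 ⟨Q, rfl⟩)) hγC

theorem inv_one_add_mem_gaussO {w : R} (hw : Prime w) {x : F} (hx : Transcendental R x)
    {t : F} (ht : t ∈ gaussO hw x) : (1 + algebraMap R F w * t)⁻¹ ∈ gaussO hw x :=
  (one_add_unit_gaussO hw hx ht).2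

/-- `h ≡ 1 mod w O` implies `h ≠ 0`, `h⁻¹ ∈ O` and `h⁻¹ ≡ 1 mod w O`. -/
theorem inW_inv_sub_one {w : R} (hw : Prime w) {x : F} (hx : Transcendental R x)
    {h : F} (hh : InW (gaussO hw x) w (h - 1)) :
    h ≠ 0 ∧ h⁻¹ ∈ gaussO hw x ∧ InW (gaussO hw x) w (h⁻¹ - 1) := by
  obtain ⟨t, ht, htt⟩ := hh
  have hh' : h = 1 + algebraMap R F w * t := by rw [← htt]; ring
  obtain ⟨hne, hinv⟩ := one_add_unit_gaussO hw hx ht
  rw [← hh'] at hne hinv
  refine ⟨hne, hinv, ⟨-(h⁻¹ * t), Subalgebra.neg_mem _ (Subalgebra.mul_mem _ hinv ht), ?_⟩⟩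
  field_simp
  rw [hh']
  ring

end Transcendental

end Fermat.Agent.A2.H729

end
-- ===== PACK-END A2/H729/GaussUnits.lean

-- ===== PACK-BEGIN S35/G/Top.lean
section




/-!
# S35, piece (G') — the assembly (architect helper450), sorry-free

* `levelFrob_of_parts` : `ALG-FROB + MODEL + STABLE + NODE-RAT + TORIC + FROB-RES + COORD`
                          `⟹ LevelFrobAt A E M q m` (levels with the auxiliary prime).
* `newPartFrobExplicit_of_parts`, `newPartFrobStatement_of_parts` : the leaves `DEG`, `T0F`,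
  `T1F`, `D2F`, `IFs` and the level statement give (G').
-/

set_option autoImplicit false
set_option linter.style.haveILetI false
set_option linter.unusedSectionVars false
set_option synthInstance.maxHeartbeats 400000
set_option maxHeartbeats 1600000

noncomputable section

namespace Fermat.Agent.S35.G

open ModularCurve AlgebraicCurve

/-! ## Small lemmas -/

theorem actE_mul_apply (E : IntermediateField ℚ Qb) (N : ℕ) (t₁ t₂ : E ≃ₐ[ℚ] E)
    (f : A2.Mod.FE E N) : actE E N (t₁ * t₂) f = actE E N t₁ (actE E N t₂ f) := by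
  have h := congrArg SemilinearAut.toRingAut
    (map_mul (arithmeticGalois (L := E) (modularFunctionFieldFull N)) t₁ t₂)
  exact congrArg (fun φ : RingAut (A2.Mod.FE E N) => φ f) h

theorem frobSub_ne_zero {F : Type*} [Field F] (φ : F ≃+* F) (Q : ℕ) {f : F} (hf : f ≠ 0) :
    frobSub φ Q f ≠ 0 :=
  mul_ne_zero ((map_ne_zero φ).2 hf) (inv_ne_zero (pow_ne_zero Q hf))

theorem divisibleDiv_frobSub_one {E F : Type*} [Field E] [Field F] [Algebra E F]
    (φ : F ≃+* F) (φE : E ≃+* E)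
    (hφE : ∀ e : E, φ (algebraMap E F e) = algebraMap E F (φE e)) (m : ℕ) (f : F)
    (h : A2.DivisibleDiv E m f) : A2.DivisibleDiv E m (frobSub φ 1 f) := by
  unfold frobSub
  rw [pow_one]
  exact A2.Alg.H34.divisibleDiv_mul_inv m _ _ (A2.Alg.H34.divisibleDiv_tau φ φE hφE m f h) h

theorem auxM_ne_zero {M : ℕ} (q : ℕ) (hM : M ≠ 0) : auxM M q ≠ 0 := by
  unfold auxM
  split_ifs
  · exact Nat.lcm_ne_zero hM (by norm_num)
  · exact Nat.lcm_ne_zero hM (by norm_num)
  · exact hM

theorem not_dvd_lcm_prime {M q a : ℕ} (hq : q.Prime) (ha : a.Prime) (hqa : q ≠ a)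
    (hqM : ¬ q ∣ M) : ¬ q ∣ Nat.lcm M a := by
  intro h
  have h1 : q ∣ M * a := h.trans (Nat.lcm_dvd_mul M a)
  rcases (Nat.Prime.dvd_mul hq).1 h1 with h2 | h2
  · exact hqM h2
  · exact hqa ((Nat.prime_dvd_prime_iff_eq hq ha).1 h2)

theorem not_dvd_auxM {M q : ℕ} (hq : q.Prime) (hqM : ¬ q ∣ M) : ¬ q ∣ auxM M q := by
  unfold auxM
  split_ifs with h3 h2
  · exact not_dvd_lcm_prime hq Nat.prime_two (by omega) hqM
  · exact not_dvd_lcm_prime hq Nat.prime_three (by omega) hqM
  · exact hqM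

theorem hasAux_auxM (M q : ℕ) : HasAux (auxM M q) q := by
  refine ⟨fun h => ?_, fun h => ?_⟩
  · unfold auxM
    rw [if_pos h]
    exact Nat.dvd_lcm_right M 2
  · unfold auxM
    rw [if_neg (by omega), if_pos h]
    exact Nat.dvd_lcm_right M 3

/-! ## The level statement from ALG-FROB and the modular inputs -/

theorem levelFrob_of_parts (A : ValuationSubring Qb) (E : IntermediateField ℚ Qb)
    (M q m : ℕ) [NeZero M] [NeZero q]
    (hq : q.Prime) (hqM : ¬ q ∣ M) (haux : HasAux M q) (hm : 0 < m) (hqm : ¬ q ∣ m)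
    (hALG : AlgFrobStatement)
    (hMODEL : ∀ w, ModelStatement A E M q w)
    (hSTAB : StableStatement A E)
    (hNODE : ∀ w, NodeRatStatement A E M q w)
    (hTORIC : ∀ w, ToricStatement A E M q m w)
    (hRES : FrobResStatement A E q)
    (hCOORD : CoordStatement E M q) :
    LevelFrobAt A E M q m := by
  intro hA hE s hs hsF y hy hdiv hNα hNβ
  haveI : IsDiscreteValuationRing ↥(A2.Mod.RE A E) := hE.dvr
  haveI : HenselianLocalRing ↥(A2.Mod.RE A E) := hE.henselian
  haveI : IsAlgClosed (IsLocalRing.ResidueField ↥(A2.Mod.RE A E)) := hE.algClosed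
  obtain ⟨w, hw⟩ := IsDiscreteValuationRing.exists_irreducible ↥(A2.Mod.RE A E)
  have hS : A2.Mod.Setting A E M q w :=
    { q_prime := hq
      q_not_dvd := hqM
      M_ne_zero := NeZero.ne M
      lies_over := hA
      dvr := hE.dvr
      unif := hw }
  obtain ⟨V, W, VM, hV, hW, hVM, hg1, hg2, hDeg, sf, si, cf, ci, hcf, hci⟩ :=
    hMODEL w hS hE haux
  obtain ⟨hx, hfr, hconst⟩ := hDeg hq hqM
  have hpos : 0 < Module.finrank
      (IntermediateField.adjoin E ({A2.Mod.xE E M q} : Set (A2.Mod.FE E (M * q))))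
      (A2.Mod.FE E (M * q)) := by
    rw [hfr]
    have h1 := A2.Mod.dedekindPsi_pos_of_ne_zero M (NeZero.ne M)
    positivity
  have hfin : FiniteDimensional
      (IntermediateField.adjoin E ({A2.Mod.xE E M q} : Set (A2.Mod.FE E (M * q))))
      (A2.Mod.FE E (M * q)) := Module.finite_of_finrank_pos hpos
  obtain ⟨ψR, hψR, hQ⟩ := hRES hA hq s hs hsF
  have hsD : s ∈ A.decompositionSubgroup ℚ := hsF.mem_decompositionSubgroup
  have hN0 : M * q ≠ 0 := Nat.mul_ne_zero (NeZero.ne M) (NeZero.ne q)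
  obtain ⟨hcomm, hσV⟩ := hSTAB (M * q) hN0 hE.dvr V W hV hW s hs hsD
  -- `ψ = σ ∘ σ`
  have hψσ : ∀ f : A2.Mod.FE E (M * q), psiE E (M * q) s hs f =
      actE E (M * q) (A2.Mod.resE E s hs) (actE E (M * q) (A2.Mod.resE E s hs) f) :=
    fun f => actE_mul_apply E (M * q) _ _ f
  have hψV : ∀ f ∈ V, psiE E (M * q) s hs f ∈ V := fun f hf => by
    rw [hψσ]
    exact hσV _ (hσV _ hf)
  have hψV₀ : ∀ f ∈ V.comap (W : A2.Mod.FE E (M * q) →+* A2.Mod.FE E (M * q)),
      psiE E (M * q) s hs f ∈ V.comap (W : A2.Mod.FE E (M * q) →+* A2.Mod.FE E (M * q)) :=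
    fun f hf => by
      show W (psiE E (M * q) s hs f) ∈ V
      rw [hψσ, ← hcomm, ← hcomm]
      exact hσV _ (hσV _ hf)
  -- semilinearity
  have hψE : ∀ e : E, psiE E (M * q) s hs (algebraMap E (A2.Mod.FE E (M * q)) e) =
      algebraMap E (A2.Mod.FE E (M * q))
        ((A2.Mod.resE E s hs * A2.Mod.resE E s hs).toRingEquiv e) :=
    fun e => arithmeticRingAut_algebraMap (modularFunctionFieldFull (M * q)) _ e
  have hψRE : ∀ r : ↥(A2.Mod.RE A E),
      (A2.Mod.resE E s hs * A2.Mod.resE E s hs).toRingEquiv (algebraMap ↥(A2.Mod.RE A E) E r) =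
        algebraMap ↥(A2.Mod.RE A E) E (ψR r) := fun r => hψR r
  -- the function `(ψ - 1)² y`
  set h₁ := frobSub (psiE E (M * q) s hs) 1 y with hh₁
  set h₂ := frobSub (psiE E (M * q) s hs) 1 h₁ with hh₂
  have hh₁0 : h₁ ≠ 0 := frobSub_ne_zero _ 1 hy
  have hh₂0 : h₂ ≠ 0 := frobSub_ne_zero _ 1 hh₁0
  have hd₁ : A2.DivisibleDiv E m h₁ := divisibleDiv_frobSub_one _ _ hψE m y hdiv
  have hd₂ : A2.DivisibleDiv E m h₂ := divisibleDiv_frobSub_one _ _ hψE m h₁ hd₁
  obtain ⟨ht₁, ht₂⟩ := hTORIC w hS hE hm hqm V W hV hW s hs hsF y hy hNα hNβ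
  have hnf := hNODE w hS hE VM V W hVM hV hW _ _ (Or.inl ⟨rfl, rfl⟩) hg1 cf
    hcf.cut₁ hcf.cut₂ s hs hsF
  have hni := hNODE w hS hE VM V W hVM hV hW _ _ (Or.inr ⟨rfl, rfl⟩) hg2 ci
    hci.cut₁ hci.cut₂ s hs hsF
  obtain ⟨z, hz, hzz⟩ := hALG (R := ↥(A2.Mod.RE A E)) (E := E) (F := ↥(A2.Mod.FE E (M * q)))
    w hw q m (q ^ 2) hq (A2.T1.H669.natCast_mem_maximalIdeal_RE E hA) hm hqm
    (A2.Mod.xE E M q) hx hfin hconst
    (A2.Mod.chartAlg A E (M * q) (A2.Mod.xE E M q))
    (A2.Mod.chartAlg A E (M * q) (A2.Mod.xE E M q)⁻¹)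
    (fun _ => Iff.rfl) (fun _ => Iff.rfl) cf ci sf si V
    (V.comap (W : A2.Mod.FE E (M * q) →+* A2.Mod.FE E (M * q))) hcf hci
    (psiE E (M * q) s hs) (A2.Mod.resE E s hs * A2.Mod.resE E s hs).toRingEquiv ψR
    hψE hψRE (hCOORD _) hQ hψV hψV₀ hnf hni h₂ hh₂0 hd₂ ht₁ ht₂
  refine ⟨z, hz, ?_⟩
  show frobSub (psiE E (M * q) s hs) (q ^ 2) h₂ = z ^ m
  unfold frobSub
  rw [hzz, mul_assoc, mul_inv_cancel₀ (pow_ne_zero _ hh₂0), mul_one]

/-! ## The top assembly -/

/-- **(G'), explicit form, from the leaves.** -/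
theorem newPartFrobExplicit_of_parts (hDEG : DegStatement) (hT0 : T0FStatement)
    (hT1 : T1FStatement) (hD2 : D2FStatement) (hIF : IFsStatement)
    (hLEV : ∀ (M q m : ℕ) [NeZero M] [NeZero q], q.Prime → ¬ q ∣ M → HasAux M q → 0 < m →
      ¬ q ∣ m → ∀ (A : ValuationSubring Qb) (E : IntermediateField ℚ Qb),
        LevelFrobAt A E M q m) :
    NewPartFrobExplicit := by
  intro M q m _ _ hq hqM hm hqm
  haveI : NeZero (auxM M q) := ⟨auxM_ne_zero q (NeZero.ne M)⟩
  have hqM' : ¬ q ∣ auxM M q := not_dvd_auxM hq hqM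
  apply hD2 M q m hq hqM hm hqm
  obtain ⟨hα, hβ, -, -⟩ := hDEG (auxM M q) q hq hqM'
  apply hT0 (auxM M q) q m hq hqM' hm hqm hα hβ
  apply hT1 (auxM M q) q m hq hqM' hm hqm hIF
  intro A E
  exact hLEV (auxM M q) q m hq hqM' (hasAux_auxM M q) hm hqm A E

/-- **(G'), bundled form, from the leaves.** -/
theorem newPartFrobStatement_of_explicit (hDEG : DegStatement) (h : NewPartFrobExplicit) :
    NewPartFrobStatement := by
  intro M q p _ _ hq hqM hp hpq
  obtain ⟨-, -, hA, hB⟩ := hDEG M q hq hqM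
  refine ⟨degA M q, degB M q, ?_, ?_, ?_⟩
  · intro ℓ hℓ x
    exact hA ℓ (fun hd => hℓ (Dvd.dvd.mul_right hd p)) x
  · intro ℓ hℓ x
    exact hB ℓ (fun hd => hℓ (Dvd.dvd.mul_right hd p)) x
  · intro A hA' s hs x hx ha hb
    obtain ⟨n, hn⟩ := hx
    have hqm : ¬ q ∣ p ^ n := fun hd =>
      hpq ((Nat.prime_dvd_prime_iff_eq hq hp).1 (hq.dvd_of_dvd_pow hd)).symm
    exact h M q (p ^ n) hq hqM (pow_pos hp.pos n) hqm A hA' s hs x hn ha hb

end Fermat.Agent.S35.G

end

end
-- ===== PACK-END S35/G/Top.lean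

-- ===== PACK-BEGIN S35/G/H516/KronFrob.lean
section






/-!
# S35 (G'), leaf KRON-FROB (helper516)

* `kronFrob A E M q w : G.KronFrobStatement A E M q w` (`Fermat/Agent/S35/G/SpecLevel.lean`,
  verbatim): for a Frobenius lift `s` at `A` stabilising `E` and `a ∈ V∞_M`,
  `β (σ a) ≡ (α a) ^ q mod w V∞`.

Generic part (any field `L ⊇ ℚ`, valuation subring `A` with residue characteristic `q`,
`σ` with `σ A ⊆ A` and `σ a ≡ a ^ q mod 𝔪_A`):

* `pow_eq_qExpand_frob` : in characteristic `q`, `y ^ q = (Frob y)(t ^ q)`;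
* `red_qExpand_coeffMap` : `red ((σ U)(t ^ q)) = (red U) ^ q` for integral series `U`;
* `isGaussInt_kron` : `((σ f)(t ^ q) - f ^ q) / w` is Gauss-integral (at the higher level) if `f`
  is Gauss-integral;
* `sub_pow_mem_nonunits_of_isFrobeniusAt` : `s z - z ^ q ∈ 𝔪_A` for `z ∈ A`.
-/

set_option autoImplicit false
set_option linter.unusedSectionVars false
set_option synthInstance.maxHeartbeats 400000
set_option maxHeartbeats 1600000

noncomputable section

namespace Fermat.Agent.S35.G.H516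

open ModularCurve HahnSeries Fermat.Agent.A2

/-! ## Frobenius on Laurent series in characteristic `q` -/

/-- In characteristic `q`: `(∑ cₙ tⁿ) ^ q = ∑ cₙ ^ q t ^ (q n)`. -/
theorem pow_eq_qExpand_frob {k : Type*} [Field k] (q : ℕ) [hq : Fact q.Prime] [CharP k q]
    [NeZero q] (y : LaurentSeries k) :
    y ^ q = qExpand k q (coeffMap (frobenius k q) y) := by
  have hps : ∀ u : PowerSeries k, u ^ q = (u.map (frobenius k q)).expand q hq.out.ne_zero := by
    intro u
    have h := MvPowerSeries.map_frobenius_expand (σ := Unit) (R := k) q hq.out.ne_zero (f := u)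
    rw [← h]
    exact PowerSeries.map_expand q hq.out.ne_zero (frobenius k q) u
  conv_lhs => rw [← LaurentSeries.single_order_mul_powerSeriesPart y]
  conv_rhs => rw [← LaurentSeries.single_order_mul_powerSeriesPart y]
  rw [mul_pow, map_mul (coeffMap (frobenius k q)), map_mul (qExpand k q), coeffMap_single,
    RingHom.map_one, qExpand_single, HahnSeries.single_pow, one_pow, coeffMap_ofPowerSeries,
    Fermat.Agent.A2.H528.qExpand_ofPowerSeries, ← map_pow, hps, nsmul_eq_mul]

/-! ## Generic part -/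

section generic

variable {L : Type*} [Field L] [Algebra ℚ L] {A : ValuationSubring L}
  (q : ℕ) [Fact q.Prime] [NeZero q]

/-- `red ((ρ U)(t ^ q)) = (red U) ^ q` if `ρ` induces the `q`-Frobenius on the residue field. -/
theorem red_qExpand_coeffMap [CharP (IsLocalRing.ResidueField A) q] (ρ : A →+* A)
    (hρ : ∀ a : A, IsLocalRing.residue A (ρ a) = (IsLocalRing.residue A a) ^ q)
    (U : LaurentSeries A) :
    H708.red A (qExpand A q (coeffMap ρ U)) = (H708.red A U) ^ q := by
  rw [pow_eq_qExpand_frob q, H708.red, coeffMap_qExpand]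
  congr 1
  ext n
  rw [coeffMap_coeff, coeffMap_coeff, coeffMap_coeff, coeffMap_coeff, hρ, frobenius_def]

theorem incl_qExpand_coeffMap (σ : L ≃ₐ[ℚ] L) (hσA : ∀ a ∈ A, σ a ∈ A) (U : LaurentSeries A) :
    H708.incl A (qExpand A q (coeffMap (Mod.H549.resA A σ hσA) U)) =
      qExpand L q (coeffMap (σ : L →+* L) (H708.incl A U)) := by
  rw [H708.incl, coeffMap_qExpand]
  exact congrArg (qExpand L q) (Mod.H549.incl_coeffMap_resA σ hσA U)

/-- **Kronecker congruence with explicit Frobenius twist, series form.** -/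
theorem isGaussInt_kron [CharP (IsLocalRing.ResidueField A) q]
    (F₀ F₁ : IntermediateField ℚ (LaurentSeries ℚ))
    (σ : L ≃ₐ[ℚ] L) (hσA : ∀ a ∈ A, σ a ∈ A)
    (hfrob : ∀ a ∈ A, σ a - a ^ q ∈ A.nonunits)
    (hα : ∀ x ∈ laurentBaseChange L F₀, x ∈ laurentBaseChange L F₁)
    (hβ : ∀ x ∈ laurentBaseChange L F₀, qExpand L q x ∈ laurentBaseChange L F₁)
    (w : A) (hw0 : w ≠ 0) (hw : ∀ a : A, (a : L) ∈ A.nonunits → w ∣ a)
    {f : LaurentSeries L} (hf : H708.IsGaussInt A F₀ f) :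
    H708.IsGaussInt A F₁
      ((qExpand L q (coeffMap (σ : L →+* L) f) - f ^ q) * (H708.cst (w : L))⁻¹) := by
  obtain ⟨U₁, U₂, hred, hmem, heq⟩ := hf
  have hρ : ∀ a : A, IsLocalRing.residue A (Mod.H549.resA A σ hσA a) =
      (IsLocalRing.residue A a) ^ q := by
    intro a
    rw [← map_pow, ← sub_eq_zero, ← map_sub, IsLocalRing.residue_eq_zero_iff,
      ← ValuationSubring.coe_mem_nonunits_iff]
    exact hfrob a a.2
  set V₁ : LaurentSeries A := qExpand A q (coeffMap (Mod.H549.resA A σ hσA) U₁) with hV₁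
  set V₂ : LaurentSeries A := qExpand A q (coeffMap (Mod.H549.resA A σ hσA) U₂) with hV₂
  have e1 : qExpand L q (coeffMap (σ : L →+* L) f) * H708.incl A V₂ = H708.incl A V₁ := by
    rw [hV₁, hV₂, incl_qExpand_coeffMap, incl_qExpand_coeffMap, ← map_mul, ← map_mul, heq]
  have e2 : f ^ q * H708.incl A (U₂ ^ q) = H708.incl A (U₁ ^ q) := by
    rw [map_pow, map_pow, ← mul_pow, heq]
  have hredV₂ : H708.red A V₂ = (H708.red A U₂) ^ q := red_qExpand_coeffMap q _ hρ U₂
  have hredV₁ : H708.red A V₁ = (H708.red A U₁) ^ q := red_qExpand_coeffMap q _ hρ U₁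
  have hred0 : H708.red A (V₁ * U₂ ^ q - U₁ ^ q * V₂) = 0 := by
    rw [map_sub, map_mul, map_mul, map_pow, map_pow, hredV₁, hredV₂, sub_self]
  have hdiv : ∀ n, w ∣ (V₁ * U₂ ^ q - U₁ ^ q * V₂).coeff n := by
    intro n
    refine hw _ ?_
    rw [ValuationSubring.mem_nonunits_iff]
    exact (H708.red_eq_zero_iff A _).mp hred0 n
  obtain ⟨U₃, hU₃⟩ := Mod.H549.exists_cstA_mul_eq w hw0 _ hdiv
  have hwL : (w : L) ≠ 0 := fun h => hw0 (Subtype.ext h)
  have hcst : H708.cst (w : L) ≠ 0 := H708.cst_ne_zero hwL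
  refine ⟨U₃, V₂ * U₂ ^ q, ?_, ?_, ?_⟩
  · rw [map_mul, map_pow, hredV₂]
    exact mul_ne_zero (pow_ne_zero _ hred) (pow_ne_zero _ hred)
  · rw [map_mul, map_pow]
    refine mul_mem ?_ (hα _ (pow_mem hmem q))
    rw [hV₂, incl_qExpand_coeffMap]
    exact hβ _ (coeffMap_mem_laurentBaseChange σ hmem)
  · have key : H708.cst (w : L) * H708.incl A U₃
        = (qExpand L q (coeffMap (σ : L →+* L) f) - f ^ q) * H708.incl A (V₂ * U₂ ^ q) := by
      rw [← H708.incl_cstA, ← map_mul, hU₃, map_sub, map_mul, map_mul, map_mul, ← e1, ← e2]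
      ring
    rw [mul_right_comm, ← key, mul_comm (H708.cst (w : L)), mul_assoc,
      mul_inv_cancel₀ hcst, mul_one]

end generic

/-! ## Frobenius elements -/

/-- A Frobenius element at `A` is congruent to the `q`-th power map on `A`. -/
theorem sub_pow_mem_nonunits_of_isFrobeniusAt {K L : Type*} [Field K] [Field L] [Algebra K L]
    (A : ValuationSubring L) {q : ℕ} {φ : L ≃ₐ[K] L} (hφ : A.IsFrobeniusAt φ q) {z : L}
    (hz : z ∈ A) : φ z - z ^ q ∈ A.nonunits := by
  obtain ⟨hσD, hF⟩ := hφ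
  have h2 := hF (IsLocalRing.residue A ⟨z, hz⟩)
  rw [← IsLocalRing.ResidueField.residue_smul, ← map_pow] at h2
  have h3 : ((⟨φ, hσD⟩ : A.decompositionSubgroup K) • (⟨z, hz⟩ : A)) - (⟨z, hz⟩ : A) ^ q
      ∈ IsLocalRing.maximalIdeal A := by
    rw [← Ideal.Quotient.eq]
    exact h2
  rw [ValuationSubring.valuation_lt_one_iff] at h3
  exact A.mem_nonunits_iff.mpr h3

section inst

variable (A : ValuationSubring _root_.Fermat.Agent.S35.G.Qb) (E : IntermediateField ℚ _root_.Fermat.Agent.S35.G.Qb)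

/-- The restriction to `E` of an element of the decomposition group of `A` maps `R_E = A ∩ E`
into itself. -/
theorem resE_mem_RE (s : _root_.Fermat.Agent.S35.G.Qb ≃ₐ[ℚ] _root_.Fermat.Agent.S35.G.Qb) (hs : StableUnder E s)
    (hsD : s ∈ A.decompositionSubgroup ℚ) :
    ∀ a ∈ Mod.RE A E, (Mod.resE E s hs) a ∈ Mod.RE A E := by
  intro a ha
  rw [ValuationSubring.mem_comap] at ha ⊢
  have e : algebraMap ↥E _root_.Fermat.Agent.S35.G.Qb (Mod.resE E s hs a) = s (algebraMap ↥E _root_.Fermat.Agent.S35.G.Qb a) := rfl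
  rw [e]
  exact H708.apply_mem_of_mem_decomposition A hsD ha

theorem natCast_mem_nonunits_RE {q : ℕ} (hA : A.LiesOverPrime q) :
    (q : E) ∈ (Mod.RE A E).nonunits := by
  rw [Mod.H549.mem_nonunits_comap, map_natCast]
  exact hA

theorem charP_residueField_RE {q : ℕ} (hq : q.Prime) (hA : A.LiesOverPrime q) :
    CharP (IsLocalRing.ResidueField (Mod.RE A E)) q := by
  rw [CharP.charP_iff_prime_eq_zero hq]
  have h1 : IsLocalRing.residue (Mod.RE A E) ((q : ℕ) : Mod.RE A E) = 0 := by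
    rw [IsLocalRing.residue_eq_zero_iff, ← ValuationSubring.coe_mem_nonunits_iff]
    have : (((q : ℕ) : Mod.RE A E) : E) = (q : E) := by simp
    rw [this]
    exact natCast_mem_nonunits_RE A E hA
  rw [map_natCast] at h1
  exact h1

/-- The restriction to `E` of a Frobenius lift at `A` is congruent to the `q`-th power map on
`R_E`. -/
theorem resE_sub_pow_mem_nonunits {q : ℕ} (s : _root_.Fermat.Agent.S35.G.Qb ≃ₐ[ℚ] _root_.Fermat.Agent.S35.G.Qb) (hs : StableUnder E s)
    (hF : A.IsFrobeniusAt s q) :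
    ∀ a ∈ Mod.RE A E, (Mod.resE E s hs) a - a ^ q ∈ (Mod.RE A E).nonunits := by
  intro a ha
  rw [ValuationSubring.mem_comap] at ha
  rw [Mod.H549.mem_nonunits_comap, map_sub, map_pow]
  have e : algebraMap ↥E _root_.Fermat.Agent.S35.G.Qb (Mod.resE E s hs a) = s (algebraMap ↥E _root_.Fermat.Agent.S35.G.Qb a) := rfl
  rw [e]
  exact sub_pow_mem_nonunits_of_isFrobeniusAt A hF ha

theorem dvd_of_mem_nonunits_RE (w : Mod.RE A E) (hdvr : IsDiscreteValuationRing (Mod.RE A E))
    (hw : Irreducible w) :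
    ∀ a : Mod.RE A E, (a : E) ∈ (Mod.RE A E).nonunits → w ∣ a := by
  intro a ha
  rw [ValuationSubring.coe_mem_nonunits_iff, hw.maximalIdeal_eq, Ideal.mem_span_singleton] at ha
  exact ha

end inst

/-- **Leaf KRON-FROB** (`G.KronFrobStatement`, verbatim). -/
theorem kronFrob (A : ValuationSubring _root_.Fermat.Agent.S35.G.Qb) (E : IntermediateField ℚ _root_.Fermat.Agent.S35.G.Qb) (M q : ℕ) [NeZero M]
    [NeZero q] (w : Mod.RE A E) : KronFrobStatement A E M q w := by
  intro hS VM V hVM hV s hs hF a ha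
  have hq := hS.q_prime
  have : Fact q.Prime := ⟨hq⟩
  have := charP_residueField_RE A E hq hS.lies_over
  have hsD := hF.mem_decompositionSubgroup
  have key := isGaussInt_kron (A := Mod.RE A E) q (modularFunctionFieldFull M)
    (modularFunctionFieldFull (M * q)) (Mod.resE E s hs) (resE_mem_RE A E s hs hsD)
    (resE_sub_pow_mem_nonunits A E s hs hF)
    (fun x hx => by
      have := (Mod.αE E M q ⟨x, hx⟩).2
      rwa [coe_heckeAlphaBar] at this)
    (fun x hx => by
      have := (Mod.βE E M q ⟨x, hx⟩).2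
      rwa [coe_heckeBetaBar] at this)
    w hS.unif.ne_zero (dvd_of_mem_nonunits_RE A E w hS.dvr hS.unif) ((hVM a).mp ha)
  have hcoe : (((Mod.βE E M q (actE E M (Mod.resE E s hs) a) - (Mod.αE E M q a) ^ q) *
      (Mod.cE A E (M * q) w)⁻¹ : Mod.FE E (M * q)) : LaurentSeries E) =
      (qExpand E q (coeffMap ((Mod.resE E s hs : E ≃ₐ[ℚ] E) : E →+* E) (a : LaurentSeries E)) -
        (a : LaurentSeries E) ^ q) * (H708.cst ((w : E)))⁻¹ := by
    rw [IntermediateField.coe_mul, IntermediateField.coe_inv, AddSubgroupClass.coe_sub,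
      IntermediateField.coe_pow, coe_heckeBetaBar, coe_heckeAlphaBar,
      coe_arithmeticRingAut_apply]
    rfl
  rw [Mod.InW, hV, hcoe]
  exact key

end Fermat.Agent.S35.G.H516

end

end
-- ===== PACK-END S35/G/H516/KronFrob.lean

-- ===== PACK-BEGIN A2/H729/Kummer.lean
section


/-!
# A2, piece ALG_ss (helper729), versions B and C: the Kummer idempotent

Same setting as `Glue.lean`; `F` is now the Kummer field `F₀(y)`, `y ^ m = u`, `m` invertible
in `R`, and `y ≡ (root of unity)` generically on the special fibre: `y ^ m - 1 ∈ w O`.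

* `kummerIdem mi m y = mi * ∑_{i < m} y ^ i` is idempotent modulo `w O`
  (`inW_kummerIdem_sq_sub`), and `(y - 1) * kummerIdem ∈ w O` (`inW_sub_one_mul_kummerIdem`).
* **Version B** (`kummer_trivial_of_local`): if at every closed point `𝔫 ∋ w` of both charts
  there is `y₁ ≡ y mod w O` and a denominator `s ∉ 𝔫` with `s * y₁` in the chart, then
  `kummerIdem ∈ w O` or `y - 1 ∈ w O`.
* **Version C** (`kummer_trivial_of_local_factorisation`): the same with the local hypothesis
  stated on the charts of a base subalgebra `F₀` (local factorisation `y ^ m = ε * h ^ m`,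
  `h ≡ 1 mod w O`, `ε` regular at the point).
-/

set_option autoImplicit false

namespace Fermat.Agent.A2.H729

open Fermat.Agent.S18.H138

variable {R : Type*} [CommRing R] {F : Type*} [Field F] [Algebra R F]

/-- The Kummer idempotent `(1/m) ∑_{i<m} y^i`. -/
noncomputable def kummerIdem (mi : R) (m : ℕ) (y : F) : F :=
  algebraMap R F mi * ∑ i ∈ Finset.range m, y ^ i

theorem kummerIdem_mem {O : Subalgebra R F} (mi : R) (m : ℕ) {y : F} (hy : y ∈ O) :
    kummerIdem mi m y ∈ O :=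
  O.mul_mem (O.algebraMap_mem mi) (O.sum_mem fun i _ => O.pow_mem hy i)

theorem sub_one_mul_geom (m : ℕ) (y : F) :
    (y - 1) * ∑ i ∈ Finset.range m, y ^ i = y ^ m - 1 := by
  rw [mul_comm]
  exact geom_sum_mul y m

/-- `(y - 1) e₀ ∈ w O`. -/
theorem inW_sub_one_mul_kummerIdem {O : Subalgebra R F} {w : R} (mi : R) (m : ℕ) {y : F}
    (hym : InW O w (y ^ m - 1)) : InW O w ((y - 1) * kummerIdem mi m y) := by
  have : (y - 1) * kummerIdem mi m y = algebraMap R F mi * (y ^ m - 1) := by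
    rw [kummerIdem, ← sub_one_mul_geom m y]; ring
  rw [this]
  exact hym.mul_left (O.algebraMap_mem mi)

theorem inW_pow_sub_one_mul_kummerIdem {O : Subalgebra R F} {w : R} (mi : R) (m : ℕ) {y : F}
    (hy : y ∈ O) (hym : InW O w (y ^ m - 1)) (k : ℕ) :
    InW O w ((y ^ k - 1) * kummerIdem mi m y) := by
  induction k with
  | zero => simpa using InW.zero O w
  | succ k ih =>
    have : (y ^ (k + 1) - 1) * kummerIdem mi m y =
        y * ((y ^ k - 1) * kummerIdem mi m y) + (y - 1) * kummerIdem mi m y := by ring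
    rw [this]
    exact (ih.mul_left hy).add (inW_sub_one_mul_kummerIdem mi m hym)

/-- `e₀² ≡ e₀ mod w O`. -/
theorem inW_kummerIdem_sq_sub {O : Subalgebra R F} {w : R} {mi : R} {m : ℕ}
    (hmi : (m : R) * mi = 1) {y : F} (hy : y ∈ O) (hym : InW O w (y ^ m - 1)) :
    InW O w (kummerIdem mi m y ^ 2 - kummerIdem mi m y) := by
  have hmiF : (m : F) * algebraMap R F mi = 1 := by
    have := congrArg (algebraMap R F) hmi
    simpa using this
  have key : kummerIdem mi m y ^ 2 - kummerIdem mi m y =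
      algebraMap R F mi * ∑ i ∈ Finset.range m, (y ^ i - 1) * kummerIdem mi m y := by
    have h1 : ∑ i ∈ Finset.range m, (y ^ i - 1) * kummerIdem mi m y =
        (∑ i ∈ Finset.range m, y ^ i) * kummerIdem mi m y - (m : F) * kummerIdem mi m y := by
      rw [← Finset.sum_mul, Finset.sum_sub_distrib]
      simp [sub_mul]
    rw [h1]
    have h2 : algebraMap R F mi * ((∑ i ∈ Finset.range m, y ^ i) * kummerIdem mi m y) =
        kummerIdem mi m y ^ 2 := by
      rw [kummerIdem]; ring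
    have h3 : algebraMap R F mi * ((m : F) * kummerIdem mi m y) = kummerIdem mi m y := by
      rw [← mul_assoc, mul_comm (algebraMap R F mi), hmiF, one_mul]
    rw [mul_sub, h2, h3]
  rw [key]
  exact (InW.sum _ _ fun i _ => inW_pow_sub_one_mul_kummerIdem mi m hy hym i).mul_left
    (O.algebraMap_mem mi)

/-- If `e₀ ≡ 1` then `y ≡ 1`. -/
theorem inW_sub_one_of_inW_one_sub_kummerIdem {O : Subalgebra R F} {w : R} (mi : R) (m : ℕ)
    {y : F} (hy : y ∈ O) (hym : InW O w (y ^ m - 1))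
    (h : InW O w (1 - kummerIdem mi m y)) : InW O w (y - 1) := by
  have : y - 1 = (y - 1) * kummerIdem mi m y + (y - 1) * (1 - kummerIdem mi m y) := by ring
  rw [this]
  exact (inW_sub_one_mul_kummerIdem mi m hym).add (h.mul_left (O.sub_mem hy O.one_mem))

/-- `y ^ i ≡ y₁ ^ i` if `y ≡ y₁`. -/
theorem inW_pow_sub_pow {O : Subalgebra R F} {w : R} {y y₁ : F} (hy : y ∈ O) (hy₁ : y₁ ∈ O)
    (h : InW O w (y - y₁)) (i : ℕ) : InW O w (y ^ i - y₁ ^ i) := by
  induction i with
  | zero => simpa using InW.zero O w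
  | succ i ih =>
    have : y ^ (i + 1) - y₁ ^ (i + 1) = y * (y ^ i - y₁ ^ i) + (y - y₁) * y₁ ^ i := by ring
    rw [this]
    exact (ih.mul_left hy).add (h.mul_right (O.pow_mem hy₁ i))

/-- Local regularity of the Kummer idempotent from a local integral model of `y`. -/
theorem kummerIdem_locally_regular {C O : Subalgebra R F} (hCO : C ≤ O) {w : R} (mi : R)
    {m : ℕ} (hm : 0 < m) {y : F} (hy : y ∈ O) (𝔫 : Ideal C) [h𝔫 : 𝔫.IsPrime]
    {s : C} (hs : s ∉ 𝔫) {y₁ : F} (h₁ : InW O w (y - y₁)) (hsy : (s : F) * y₁ ∈ C) :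
    ∃ s' : C, s' ∉ 𝔫 ∧ ∃ e ∈ C, InW O w ((s' : F) * kummerIdem mi m y - e) := by
  have hy₁ : y₁ ∈ O := by
    have : y₁ = y - (y - y₁) := by ring
    rw [this]
    exact O.sub_mem hy h₁.mem
  refine ⟨s ^ (m - 1), fun h => hs (h𝔫.mem_of_pow_mem _ h),
    (s : F) ^ (m - 1) * kummerIdem mi m y₁, ?_, ?_⟩
  · -- `s^(m-1) * e₁ ∈ C`
    have : (s : F) ^ (m - 1) * kummerIdem mi m y₁ =
        algebraMap R F mi * ∑ i ∈ Finset.range m, (s : F) ^ (m - 1 - i) * ((s : F) * y₁) ^ i := by
      rw [kummerIdem, Finset.mul_sum, Finset.mul_sum, Finset.mul_sum]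
      refine Finset.sum_congr rfl fun i hi => ?_
      have hi' : i ≤ m - 1 := by
        have := Finset.mem_range.1 hi
        omega
      have : (s : F) ^ (m - 1) = (s : F) ^ (m - 1 - i) * (s : F) ^ i := by
        rw [← pow_add]; congr 1; omega
      rw [this, mul_pow]; ring
    rw [this]
    exact C.mul_mem (C.algebraMap_mem mi)
      (C.sum_mem fun i _ => C.mul_mem (C.pow_mem s.2 _) (C.pow_mem hsy i))
  · have : ((s ^ (m - 1) : C) : F) * kummerIdem mi m y - (s : F) ^ (m - 1) * kummerIdem mi m y₁ =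
        ((s : F) ^ (m - 1) * algebraMap R F mi) * ∑ i ∈ Finset.range m, (y ^ i - y₁ ^ i) := by
      rw [kummerIdem, kummerIdem, Finset.sum_sub_distrib]
      push_cast
      ring
    rw [this]
    exact (InW.sum _ _ fun i _ => inW_pow_sub_pow hy hy₁ h₁ i).mul_left
      (O.mul_mem (O.pow_mem (hCO s.2) _) (O.algebraMap_mem mi))

section Main

variable [IsNoetherianRing R] [IsIntegrallyClosed (Polynomial R)] [CharZero F]

/-- **ALG_ss, version B.** -/
theorem kummer_trivial_of_local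
    (hinjR : Function.Injective (algebraMap R F))
    (hRF : ∀ y : F, IsIntegral R y → y ∈ Set.range (algebraMap R F))
    {x : F} (hx : Transcendental R x) [FiniteDimensional (baseField R x) F]
    (w : R) (hw : Prime w)
    (O : Subalgebra R F)
    (hfin : chart R ({x} : Set F) ≤ O) (hinf : chart R ({x⁻¹} : Set F) ≤ O)
    (qep_fin : ∀ b ∈ chart R ({x} : Set F), InW O w b →
      ∃ t ∈ chart R ({x} : Set F), b = algebraMap R F w * t)
    (qep_inf : ∀ b ∈ chart R ({x⁻¹} : Set F), InW O w b →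
      ∃ t ∈ chart R ({x⁻¹} : Set F), b = algebraMap R F w * t)
    (qep_mid : ∀ b ∈ chart R ({x, x⁻¹} : Set F), InW O w b →
      ∃ t ∈ chart R ({x, x⁻¹} : Set F), b = algebraMap R F w * t)
    {mi : R} {m : ℕ} (hm : 0 < m) (hmi : (m : R) * mi = 1)
    {y : F} (hy : y ∈ O) (hym : InW O w (y ^ m - 1))
    (hloc_fin : ∀ 𝔫 : Ideal (chart R ({x} : Set F)), 𝔫.IsMaximal →
      algebraMap R (chart R ({x} : Set F)) w ∈ 𝔫 →
      ∃ s : chart R ({x} : Set F), s ∉ 𝔫 ∧
        ∃ y₁ : F, InW O w (y - y₁) ∧ (s : F) * y₁ ∈ chart R ({x} : Set F))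
    (hloc_inf : ∀ 𝔫 : Ideal (chart R ({x⁻¹} : Set F)), 𝔫.IsMaximal →
      algebraMap R (chart R ({x⁻¹} : Set F)) w ∈ 𝔫 →
      ∃ s : chart R ({x⁻¹} : Set F), s ∉ 𝔫 ∧
        ∃ y₁ : F, InW O w (y - y₁) ∧ (s : F) * y₁ ∈ chart R ({x⁻¹} : Set F)) :
    InW O w (kummerIdem mi m y) ∨ InW O w (y - 1) := by
  have h := generic_idempotent_trivial hinjR hRF hx w hw O hfin hinf qep_fin qep_inf qep_mid
    (kummerIdem_mem mi m hy) (inW_kummerIdem_sq_sub hmi hy hym)
    (fun 𝔫 h𝔫 hw𝔫 => by
      obtain ⟨s, hs, y₁, h₁, hsy⟩ := hloc_fin 𝔫 h𝔫 hw𝔫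
      have := h𝔫.isPrime
      exact kummerIdem_locally_regular hfin mi hm hy 𝔫 hs h₁ hsy)
    (fun 𝔫 h𝔫 hw𝔫 => by
      obtain ⟨s, hs, y₁, h₁, hsy⟩ := hloc_inf 𝔫 h𝔫 hw𝔫
      have := h𝔫.isPrime
      exact kummerIdem_locally_regular hinf mi hm hy 𝔫 hs h₁ hsy)
  rcases h with h | h
  · exact Or.inl h
  · exact Or.inr (inW_sub_one_of_inW_one_sub_kummerIdem mi m hy hym h)

end Main

end Fermat.Agent.A2.H729

end
-- ===== PACK-END A2/H729/Kummer.lean

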