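import Mathlib
import Fermat.Prelude.Def_FLTPrelim_Modularity
import Fermat.Prelude.Def_ModularCurve_ReductionModL
import Fermat.Prelude.Def_AlgebraicCurve_Correspondence
import Fermat.Agent.Pack.S58.E2L3
import Fermat.Agent.Pack.S58.E2L0
import Fermat.Agent.Pack.S58.E0L1
import Fermat.Agent.Pack.S58.E1L2
import Fermat.Agent.Pack.S58.E1L1
import Fermat.Agent.Pack.S58.E2L2
import Fermat.Agent.Pack.S58.E2L1
import Fermat.Agent.Pack.S36.E7L0
import Fermat.Agent.Pack.S36.E0L1
import Fermat.Agent.Pack.S36.E9L3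
import Fermat.Agent.Pack.S36.E13L2
import Fermat.Agent.Pack.S36.E12L2
import Fermat.Agent.Pack.S36.E0L3

-- ===== PACK-BEGIN Lib/Frob/Small/TwoFormula.lean
section



/-!
# Shared library `Frob`, small primes: Manin's rational function over `𝔽_2` (helper545)

For a Weierstrass curve `E` over `ZMod 2` and a point `P = (X, Y)` with `X² ≠ X` over the function
field, the `x`-coordinate of `Φ P - P` is the rational function `manU2 E / manV2` of `X`:
`maninPair_two : ManinPair E κ (manU2 E) manV2`.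
-/

set_option autoImplicit false

namespace Fermat.Agent.Lib.Frob.Small

open WeierstrassCurve WeierstrassCurve.Affine Polynomial
open Fermat.Agent.S52.H545

/-- Numerator of Manin's rational function `x(Φ P - P)` over `𝔽_2`. -/
noncomputable def manU2 (E : WeierstrassCurve (ZMod 2)) : (ZMod 2)[X] :=
  (C E.a₁ * X + C E.a₃ + 1) ^ 2 * (X ^ 3 + C E.a₂ * X ^ 2 + C E.a₄ * X + C E.a₆)
    + (X ^ 3 + C E.a₂ * X ^ 2 + C E.a₄ * X + C E.a₆ + C E.a₁ * X + C E.a₃) ^ 2
    + C E.a₁ * (X ^ 2 + X) *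
        (X ^ 3 + C E.a₂ * X ^ 2 + C E.a₄ * X + C E.a₆ + C E.a₁ * X + C E.a₃)
    + (C E.a₂ + X ^ 2 + X) * (X ^ 2 + X) ^ 2

/-- Denominator of Manin's rational function over `𝔽_2`. -/
noncomputable def manV2 : (ZMod 2)[X] := (X ^ 2 - X) ^ 2

lemma zmod_two_sq (a : ZMod 2) : a ^ 2 = a := by
  revert a; decide

variable (E : WeierstrassCurve (ZMod 2)) (κ : Type*) [Field κ] [Algebra (ZMod 2) κ]

lemma two_eq_zero_KK : (2 : KK E κ) = 0 := by
  have h : (2 : ZMod 2) = 0 := by decide
  have := congrArg (algebraMap (ZMod 2) (KK E κ)) h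
  rwa [map_ofNat, map_zero] at this

/-- Manin's pair over `𝔽_2`. -/
theorem maninPair_two : ManinPair E κ (manU2 E) manV2 where
  formula := by
    intro X Y h hX
    rw [ZMod.card] at hX
    obtain ⟨h1, e1⟩ := PhiP_some E κ h
    have hneg : (E⁄(KK E κ)).Nonsingular X ((E⁄(KK E κ)).negY X Y) :=
      (nonsingular_neg ..).mpr h
    have hX' : X ^ Fintype.card (ZMod 2) ≠ X := by rw [ZMod.card]; exact hX
    refine ⟨_, _, nonsingular_add h1 hneg fun hxy => hX' hxy.left, ?_, ?_⟩
    · rw [e1, sub_eq_add_neg, Point.neg_some, Point.add_of_X_ne hX']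
    · have hγ : X ^ 2 - X ≠ 0 := sub_ne_zero.mpr hX
      have h2 := two_eq_zero_KK E κ
      have hE := (equation_iff _ _).mp h.1
      have ha₁ : (algebraMap (ZMod 2) (KK E κ) E.a₁) ^ 2 = algebraMap (ZMod 2) (KK E κ) E.a₁ := by
        rw [← map_pow, zmod_two_sq]
      have ha₃ : (algebraMap (ZMod 2) (KK E κ) E.a₃) ^ 2 = algebraMap (ZMod 2) (KK E κ) E.a₃ := by
        rw [← map_pow, zmod_two_sq]
      simp only [WeierstrassCurve.baseChange, WeierstrassCurve.map_a₁, WeierstrassCurve.map_a₂,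
        WeierstrassCurve.map_a₃, WeierstrassCurve.map_a₄, WeierstrassCurve.map_a₆] at hE
      rw [slope_of_X_ne hX']
      simp only [ZMod.card, manU2, manV2, addX, negY, WeierstrassCurve.baseChange,
        WeierstrassCurve.map_a₁, WeierstrassCurve.map_a₂, WeierstrassCurve.map_a₃, eval₂_add,
        eval₂_sub, eval₂_mul, eval₂_pow, eval₂_X, eval₂_C, eval₂_one]
      set a₁ := algebraMap (ZMod 2) (KK E κ) E.a₁
      set a₂ := algebraMap (ZMod 2) (KK E κ) E.a₂
      set a₃ := algebraMap (ZMod 2) (KK E κ) E.a₃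
      set a₄ := algebraMap (ZMod 2) (KK E κ) E.a₄
      set a₆ := algebraMap (ZMod 2) (KK E κ) E.a₆
      have hlam : (Y ^ 2 - (-Y - a₁ * X - a₃)) / (X ^ 2 - X) * (X ^ 2 - X) =
          Y ^ 2 - (-Y - a₁ * X - a₃) := div_mul_cancel₀ _ hγ
      generalize (Y ^ 2 - (-Y - a₁ * X - a₃)) / (X ^ 2 - X) = lam at hlam ⊢
      linear_combination
        (lam * (X ^ 2 - X) + (Y ^ 2 - (-Y - a₁ * X - a₃)) + a₁ * (X ^ 2 - X)) * hlam
        + (X ^ 3 + X ^ 2 * a₁ ^ 2 + X ^ 2 * a₁ + X ^ 2 * a₂ - X * Y * a₁ + 2 * X * a₁ * a₃ - X * a₁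
          + X * a₄ + Y ^ 2 - Y * a₃ + 2 * Y + a₃ ^ 2 + a₆ + 1) * hE
        + (-X ^ 3 * Y * a₁ - 2 * X ^ 3 * Y - 3 * X ^ 2 * Y * a₃ + X ^ 2 * Y - 2 * X ^ 2) * ha₁
        + (-3 * X * Y * a₁ - Y * a₃ - Y) * ha₃
        + (-X ^ 6 - X ^ 5 - X ^ 4 * Y * a₁ - 3 * X ^ 4 * a₁ - X ^ 4 * a₂ - X ^ 4
          - X ^ 3 * Y * a₁ * a₂ - X ^ 3 * Y * a₁ - X ^ 3 * Y * a₃ + X ^ 3 * Y - 3 * X ^ 3 * a₁ * a₂
          - 2 * X ^ 3 * a₃ - X ^ 3 - 2 * X ^ 2 * Y * a₁ * a₃ - X ^ 2 * Y * a₁ * a₄ + X ^ 2 * Y * a₁
          - X ^ 2 * Y * a₂ * a₃ + X ^ 2 * Y * a₂ - 3 * X ^ 2 * a₁ * a₄ - X ^ 2 * a₁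
          - 2 * X ^ 2 * a₂ * a₃ - X ^ 2 * a₂ - X * Y * a₁ * a₃ - X * Y * a₁ * a₆ - X * Y * a₃ * a₄
          + X * Y * a₄ - X * a₁ * a₃ - 3 * X * a₁ * a₆ - 2 * X * a₃ * a₄ - Y * a₃ * a₆ + Y * a₆
          - 2 * a₃ * a₆) * h2
  ne_zero := by
    intro X hX
    rw [ZMod.card] at hX
    simp only [manV2, eval₂_sub, eval₂_pow, eval₂_X]
    exact pow_ne_zero _ (sub_ne_zero.mpr hX)

end Fermat.Agent.Lib.Frob.Small

end
-- ===== PACK-END Lib/Frob/Small/TwoFormula.lean

-- ===== PACK-BEGIN Lib/Frob/Small/TwoData.lean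
section





/-!
# Shared library `Frob`, small primes: Manin's count over `𝔽_2` (helper545)

For each of the 16 Weierstrass equations over `ZMod 2` with `Δ ≠ 0`: the reduced form of Manin's
rational function `manU2 E / manV2` has degree `#E(𝔽_2)` (`RedData`), by explicit computation.
(Generated by a script; every proof is a polynomial identity checked by `linear_combination`.)
-/

set_option autoImplicit false

namespace Fermat.Agent.Lib.Frob.Small

open WeierstrassCurve WeierstrassCurve.Affine Polynomial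
open Fermat.Agent.S52.H545

lemma two_eq_zero_poly : (2 : (ZMod 2)[X]) = 0 := by
  have h : (2 : ZMod 2) = 0 := by decide
  have := congrArg (C : ZMod 2 → (ZMod 2)[X]) h
  rwa [map_ofNat, map_zero] at this

/-- Point count of a Weierstrass curve over `𝔽_2` from the count of affine solutions. -/
lemma card_eq_of_count (W : WeierstrassCurve (ZMod 2)) (hΔ : W.Δ ≠ 0) (n : ℕ)
    (h : (Finset.univ.filter (fun q : ZMod 2 × ZMod 2 =>
      q.2 ^ 2 + W.a₁ * q.1 * q.2 + W.a₃ * q.2 = q.1 ^ 3 + W.a₂ * q.1 ^ 2 + W.a₄ * q.1 + W.a₆)).card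
        = n) : W.card = n + 1 := by
  rw [WeierstrassCurve.card, Fermat.Agent.S52.H621.card_point_eq W.toAffine hΔ]
  congr 1
  rw [← h, ← Fintype.card_subtype, ← Nat.card_eq_fintype_card]
  apply Nat.card_congr
  exact Equiv.subtypeEquivRight fun q => equation_iff _ _

theorem card_00100 : (⟨0, 0, 1, 0, 0⟩ : WeierstrassCurve (ZMod 2)).card = 3 :=
  card_eq_of_count _ (by decide) 2 (by decide)

theorem redData_00100 : Nonempty (RedData (manU2 (⟨0, 0, 1, 0, 0⟩ : WeierstrassCurve (ZMod 2))) manV2 3) := by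
  refine ⟨⟨X ^ 2 + 1, X ^ 3 + X ^ 2 + 1, X ^ 2, ?_, ?_, ⟨1, X + 1, ?_⟩, ?_, ?_⟩⟩
  · simp only [manU2, map_one, map_zero]
    linear_combination (X ^ 6 + X ^ 5 + X ^ 4 + 3 * X ^ 3 - X ^ 2) * two_eq_zero_poly
  · simp only [manV2]
    linear_combination (-X ^ 3) * two_eq_zero_poly
  · linear_combination (X ^ 3 + X ^ 2) * two_eq_zero_poly
  · compute_degree!
  · compute_degree
    all_goals norm_num

theorem card_00101 : (⟨0, 0, 1, 0, 1⟩ : WeierstrassCurve (ZMod 2)).card = 3 :=
  card_eq_of_count _ (by decide) 2 (by decide)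

theorem redData_00101 : Nonempty (RedData (manU2 (⟨0, 0, 1, 0, 1⟩ : WeierstrassCurve (ZMod 2))) manV2 3) := by
  refine ⟨⟨X ^ 2, X ^ 3 + X ^ 2 + X, X ^ 2 + 1, ?_, ?_, ⟨1, X + 1, ?_⟩, ?_, ?_⟩⟩
  · simp only [manU2, map_one, map_zero]
    linear_combination (X ^ 6 + X ^ 5 + X ^ 4 + 4 * X ^ 3 + 4) * two_eq_zero_poly
  · simp only [manV2]
    linear_combination (-X ^ 3) * two_eq_zero_poly
  · linear_combination (X ^ 3 + X ^ 2 + X) * two_eq_zero_poly
  · compute_degree!
  · compute_degree
    all_goals norm_num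

theorem card_00110 : (⟨0, 0, 1, 1, 0⟩ : WeierstrassCurve (ZMod 2)).card = 5 :=
  card_eq_of_count _ (by decide) 4 (by decide)

theorem redData_00110 : Nonempty (RedData (manU2 (⟨0, 0, 1, 1, 0⟩ : WeierstrassCurve (ZMod 2))) manV2 5) := by
  refine ⟨⟨1, X ^ 5 + X ^ 4 + X ^ 3 + X ^ 2 + 1, X ^ 4 + X ^ 2, ?_, ?_, ⟨1, X + 1, ?_⟩, ?_, ?_⟩⟩
  · simp only [manU2, map_one, map_zero]
    linear_combination (X ^ 6 + X ^ 5 + 2 * X ^ 4 + 3 * X ^ 3 + 3 * X) * two_eq_zero_poly
  · simp only [manV2]
    linear_combination (-X ^ 3) * two_eq_zero_poly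
  · linear_combination (X ^ 5 + X ^ 4 + X ^ 3 + X ^ 2) * two_eq_zero_poly
  · compute_degree!
  · compute_degree
    all_goals norm_num

theorem card_00111 : (⟨0, 0, 1, 1, 1⟩ : WeierstrassCurve (ZMod 2)).card = 1 :=
  card_eq_of_count _ (by decide) 0 (by decide)

theorem redData_00111 : Nonempty (RedData (manU2 (⟨0, 0, 1, 1, 1⟩ : WeierstrassCurve (ZMod 2))) manV2 1) := by
  refine ⟨⟨X ^ 4 + X ^ 2, X + 1, 1, ?_, ?_, ⟨0, 1, ?_⟩, ?_, ?_⟩⟩
  · simp only [manU2, map_one, map_zero]
    linear_combination (X ^ 6 + X ^ 5 + 2 * X ^ 4 + 4 * X ^ 3 + 4 * X + 4) * two_eq_zero_poly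
  · simp only [manV2]
    linear_combination (-X ^ 3) * two_eq_zero_poly
  · linear_combination (0) * two_eq_zero_poly
  · compute_degree!
  · compute_degree
    all_goals norm_num

theorem card_01100 : (⟨0, 1, 1, 0, 0⟩ : WeierstrassCurve (ZMod 2)).card = 5 :=
  card_eq_of_count _ (by decide) 4 (by decide)

theorem redData_01100 : Nonempty (RedData (manU2 (⟨0, 1, 1, 0, 0⟩ : WeierstrassCurve (ZMod 2))) manV2 5) := by
  refine ⟨⟨1, X ^ 5 + X ^ 4 + X ^ 3 + X ^ 2 + 1, X ^ 4 + X ^ 2, ?_, ?_, ⟨1, X + 1, ?_⟩, ?_, ?_⟩⟩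
  · simp only [manU2, map_one, map_zero]
    linear_combination (X ^ 6 + 2 * X ^ 5 + 2 * X ^ 4 + 4 * X ^ 3 + 3 * X ^ 2) * two_eq_zero_poly
  · simp only [manV2]
    linear_combination (-X ^ 3) * two_eq_zero_poly
  · linear_combination (X ^ 5 + X ^ 4 + X ^ 3 + X ^ 2) * two_eq_zero_poly
  · compute_degree!
  · compute_degree
    all_goals norm_num

theorem card_01101 : (⟨0, 1, 1, 0, 1⟩ : WeierstrassCurve (ZMod 2)).card = 1 :=
  card_eq_of_count _ (by decide) 0 (by decide)

theorem redData_01101 : Nonempty (RedData (manU2 (⟨0, 1, 1, 0, 1⟩ : WeierstrassCurve (ZMod 2))) manV2 1) := by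
  refine ⟨⟨X ^ 4 + X ^ 2, X + 1, 1, ?_, ?_, ⟨0, 1, ?_⟩, ?_, ?_⟩⟩
  · simp only [manU2, map_one, map_zero]
    linear_combination (X ^ 6 + 2 * X ^ 5 + 2 * X ^ 4 + 5 * X ^ 3 + 4 * X ^ 2 + 4) * two_eq_zero_poly
  · simp only [manV2]
    linear_combination (-X ^ 3) * two_eq_zero_poly
  · linear_combination (0) * two_eq_zero_poly
  · compute_degree!
  · compute_degree
    all_goals norm_num

theorem card_01110 : (⟨0, 1, 1, 1, 0⟩ : WeierstrassCurve (ZMod 2)).card = 3 :=
  card_eq_of_count _ (by decide) 2 (by decide)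

theorem redData_01110 : Nonempty (RedData (manU2 (⟨0, 1, 1, 1, 0⟩ : WeierstrassCurve (ZMod 2))) manV2 3) := by
  refine ⟨⟨X ^ 2 + 1, X ^ 3 + X ^ 2 + 1, X ^ 2, ?_, ?_, ⟨1, X + 1, ?_⟩, ?_, ?_⟩⟩
  · simp only [manU2, map_one, map_zero]
    linear_combination (X ^ 6 + 2 * X ^ 5 + 3 * X ^ 4 + 5 * X ^ 3 + 3 * X ^ 2 + 3 * X) * two_eq_zero_poly
  · simp only [manV2]
    linear_combination (-X ^ 3) * two_eq_zero_poly
  · linear_combination (X ^ 3 + X ^ 2) * two_eq_zero_poly
  · compute_degree!
  · compute_degree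
    all_goals norm_num

theorem card_01111 : (⟨0, 1, 1, 1, 1⟩ : WeierstrassCurve (ZMod 2)).card = 3 :=
  card_eq_of_count _ (by decide) 2 (by decide)

theorem redData_01111 : Nonempty (RedData (manU2 (⟨0, 1, 1, 1, 1⟩ : WeierstrassCurve (ZMod 2))) manV2 3) := by
  refine ⟨⟨X ^ 2, X ^ 3 + X ^ 2 + X, X ^ 2 + 1, ?_, ?_, ⟨1, X + 1, ?_⟩, ?_, ?_⟩⟩
  · simp only [manU2, map_one, map_zero]
    linear_combination (X ^ 6 + 2 * X ^ 5 + 3 * X ^ 4 + 6 * X ^ 3 + 5 * X ^ 2 + 4 * X + 4) * two_eq_zero_poly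
  · simp only [manV2]
    linear_combination (-X ^ 3) * two_eq_zero_poly
  · linear_combination (X ^ 3 + X ^ 2 + X) * two_eq_zero_poly
  · compute_degree!
  · compute_degree
    all_goals norm_num

theorem card_10001 : (⟨1, 0, 0, 0, 1⟩ : WeierstrassCurve (ZMod 2)).card = 4 :=
  card_eq_of_count _ (by decide) 3 (by decide)

theorem redData_10001 : Nonempty (RedData (manU2 (⟨1, 0, 0, 0, 1⟩ : WeierstrassCurve (ZMod 2))) manV2 4) := by
  refine ⟨⟨X, X ^ 4 + X ^ 2 + 1, X ^ 3 + X, ?_, ?_, ⟨1, X, ?_⟩, ?_, ?_⟩⟩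
  · simp only [manU2, map_one, map_zero]
    linear_combination (X ^ 6 + 2 * X ^ 5 + 4 * X ^ 4 + 2 * X ^ 3 + 2 * X ^ 2 + 2 * X + 1) * two_eq_zero_poly
  · simp only [manV2]
    linear_combination (-X ^ 3) * two_eq_zero_poly
  · linear_combination (X ^ 4 + X ^ 2) * two_eq_zero_poly
  · compute_degree!
  · compute_degree
    all_goals norm_num

theorem card_10010 : (⟨1, 0, 0, 1, 0⟩ : WeierstrassCurve (ZMod 2)).card = 4 :=
  card_eq_of_count _ (by decide) 3 (by decide)

theorem redData_10010 : Nonempty (RedData (manU2 (⟨1, 0, 0, 1, 0⟩ : WeierstrassCurve (ZMod 2))) manV2 4) := by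
  refine ⟨⟨X, X ^ 4 + X ^ 2 + 1, X ^ 3 + X, ?_, ?_, ⟨1, X, ?_⟩, ?_, ?_⟩⟩
  · simp only [manU2, map_one, map_zero]
    linear_combination (X ^ 6 + 2 * X ^ 5 + 5 * X ^ 4 + 2 * X ^ 3 + 4 * X ^ 2) * two_eq_zero_poly
  · simp only [manV2]
    linear_combination (-X ^ 3) * two_eq_zero_poly
  · linear_combination (X ^ 4 + X ^ 2) * two_eq_zero_poly
  · compute_degree!
  · compute_degree
    all_goals norm_num

theorem card_10101 : (⟨1, 0, 1, 0, 1⟩ : WeierstrassCurve (ZMod 2)).card = 2 :=
  card_eq_of_count _ (by decide) 1 (by decide)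

theorem redData_10101 : Nonempty (RedData (manU2 (⟨1, 0, 1, 0, 1⟩ : WeierstrassCurve (ZMod 2))) manV2 2) := by
  refine ⟨⟨X ^ 3 + X ^ 2, X ^ 2 + X + 1, X + 1, ?_, ?_, ⟨1, X, ?_⟩, ?_, ?_⟩⟩
  · simp only [manU2, map_one, map_zero]
    linear_combination (X ^ 6 + 2 * X ^ 5 + 4 * X ^ 4 + 4 * X ^ 3 + 2 * X ^ 2 + 5 * X + 4) * two_eq_zero_poly
  · simp only [manV2]
    linear_combination (-2 * X ^ 3) * two_eq_zero_poly
  · linear_combination (X ^ 2 + X) * two_eq_zero_poly
  · compute_degree!
  · compute_degree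
    all_goals norm_num

theorem card_10111 : (⟨1, 0, 1, 1, 1⟩ : WeierstrassCurve (ZMod 2)).card = 2 :=
  card_eq_of_count _ (by decide) 1 (by decide)

theorem redData_10111 : Nonempty (RedData (manU2 (⟨1, 0, 1, 1, 1⟩ : WeierstrassCurve (ZMod 2))) manV2 2) := by
  refine ⟨⟨X ^ 3 + X ^ 2, X ^ 2 + X + 1, X + 1, ?_, ?_, ⟨1, X, ?_⟩, ?_, ?_⟩⟩
  · simp only [manU2, map_one, map_zero]
    linear_combination (X ^ 6 + 2 * X ^ 5 + 5 * X ^ 4 + 5 * X ^ 3 + 6 * X ^ 2 + 9 * X + 4) * two_eq_zero_poly
  · simp only [manV2]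
    linear_combination (-2 * X ^ 3) * two_eq_zero_poly
  · linear_combination (X ^ 2 + X) * two_eq_zero_poly
  · compute_degree!
  · compute_degree
    all_goals norm_num

theorem card_11001 : (⟨1, 1, 0, 0, 1⟩ : WeierstrassCurve (ZMod 2)).card = 2 :=
  card_eq_of_count _ (by decide) 1 (by decide)

theorem redData_11001 : Nonempty (RedData (manU2 (⟨1, 1, 0, 0, 1⟩ : WeierstrassCurve (ZMod 2))) manV2 2) := by
  refine ⟨⟨X ^ 3 + X, X ^ 2 + 1, X, ?_, ?_, ⟨1, X, ?_⟩, ?_, ?_⟩⟩
  · simp only [manU2, map_one, map_zero]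
    linear_combination (X ^ 6 + 3 * X ^ 5 + 6 * X ^ 4 + 5 * X ^ 3 + 4 * X ^ 2 + 2 * X + 1) * two_eq_zero_poly
  · simp only [manV2]
    linear_combination (-X ^ 3) * two_eq_zero_poly
  · linear_combination (X ^ 2) * two_eq_zero_poly
  · compute_degree!
  · compute_degree
    all_goals norm_num

theorem card_11010 : (⟨1, 1, 0, 1, 0⟩ : WeierstrassCurve (ZMod 2)).card = 2 :=
  card_eq_of_count _ (by decide) 1 (by decide)

theorem redData_11010 : Nonempty (RedData (manU2 (⟨1, 1, 0, 1, 0⟩ : WeierstrassCurve (ZMod 2))) manV2 2) := by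
  refine ⟨⟨X ^ 3 + X, X ^ 2 + 1, X, ?_, ?_, ⟨1, X, ?_⟩, ?_, ?_⟩⟩
  · simp only [manU2, map_one, map_zero]
    linear_combination (X ^ 6 + 3 * X ^ 5 + 7 * X ^ 4 + 6 * X ^ 3 + 5 * X ^ 2) * two_eq_zero_poly
  · simp only [manV2]
    linear_combination (-X ^ 3) * two_eq_zero_poly
  · linear_combination (X ^ 2) * two_eq_zero_poly
  · compute_degree!
  · compute_degree
    all_goals norm_num

theorem card_11100 : (⟨1, 1, 1, 0, 0⟩ : WeierstrassCurve (ZMod 2)).card = 4 :=
  card_eq_of_count _ (by decide) 3 (by decide)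

theorem redData_11100 : Nonempty (RedData (manU2 (⟨1, 1, 1, 0, 0⟩ : WeierstrassCurve (ZMod 2))) manV2 4) := by
  refine ⟨⟨X + 1, X ^ 4 + X ^ 3 + 1, X ^ 3 + X ^ 2, ?_, ?_, ⟨1, X, ?_⟩, ?_, ?_⟩⟩
  · simp only [manU2, map_one, map_zero]
    linear_combination (X ^ 6 + 3 * X ^ 5 + 6 * X ^ 4 + 8 * X ^ 3 + 5 * X ^ 2 + X) * two_eq_zero_poly
  · simp only [manV2]
    linear_combination (-2 * X ^ 3) * two_eq_zero_poly
  · linear_combination (X ^ 4 + X ^ 3) * two_eq_zero_poly
  · compute_degree!
  · compute_degree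
    all_goals norm_num

theorem card_11110 : (⟨1, 1, 1, 1, 0⟩ : WeierstrassCurve (ZMod 2)).card = 4 :=
  card_eq_of_count _ (by decide) 3 (by decide)

theorem redData_11110 : Nonempty (RedData (manU2 (⟨1, 1, 1, 1, 0⟩ : WeierstrassCurve (ZMod 2))) manV2 4) := by
  refine ⟨⟨X + 1, X ^ 4 + X ^ 3 + 1, X ^ 3 + X ^ 2, ?_, ?_, ⟨1, X, ?_⟩, ?_, ?_⟩⟩
  · simp only [manU2, map_one, map_zero]
    linear_combination (X ^ 6 + 3 * X ^ 5 + 7 * X ^ 4 + 10 * X ^ 3 + 9 * X ^ 2 + 4 * X) * two_eq_zero_poly
  · simp only [manV2]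
    linear_combination (-2 * X ^ 3) * two_eq_zero_poly
  · linear_combination (X ^ 4 + X ^ 3) * two_eq_zero_poly
  · compute_degree!
  · compute_degree
    all_goals norm_num

end Fermat.Agent.Lib.Frob.Small

end
-- ===== PACK-END Lib/Frob/Small/TwoData.lean

-- ===== PACK-BEGIN S52/H545/Final.lean
section





/-!
# S52 Part A (helper545): the generic point is sent to a constant point by `Φ² − aΦ + q`

Assembly of the exact-height argument (Manin): on `MM ⊂ W₀(κ(W₀))` the height `hgt` satisfies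
the exact parallelogram law (`Gen.lean`), `hgt (Φ P) = q · hgt P` and
`hgt (Φ P − P) = N · hgt P` (`Frob.lean`), hence `hgt ((Φ² − (q + 1 − N) Φ + q) P) = 0`
(helper127), and points of `MM` of height `0` are constant.
-/

set_option autoImplicit false

namespace Fermat.Agent.S52.H545

open WeierstrassCurve WeierstrassCurve.Affine Polynomial
open Fermat.Agent.Lib.FrobRel

section Transc

variable {k : Type*} [Field k] (W : WeierstrassCurve.Affine k)

/-- The function `x` is transcendental over the base field. -/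
theorem xF_transcendental : Transcendental k (xF W) := by
  rw [transcendental_iff_injective]
  intro p q hpq
  apply ιP_injective W
  have h : ∀ r : k[X], aeval (xF W) r = ιP W r := by
    intro r
    rw [xF, aeval_algebraMap_apply, aeval_X_left_apply]
    rfl
  rw [← h, ← h, hpq]

end Transc

section Const

variable {F : Type*} [Field F] [Fintype F] (W₀ : WeierstrassCurve F)
variable (κ : Type*) [Field κ] [Algebra F κ]

omit [Fintype F] in
/-- Points of `MM` of height `0` are constant. -/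
theorem isConstPt_of_hgt_eq_zero (hs : Sep (Wκ W₀ κ)) (halg : ∀ c : κ, IsAlgebraic F c)
    {P : EK W₀ κ} (hP : P ∈ MM W₀ κ) (h0 : hgt W₀ κ P = 0) : H230.IsConstPt W₀ P := by
  rcases P with _ | ⟨X, Y, h⟩
  · exact Or.inl rfl
  · right
    refine ⟨X, Y, h, rfl, ?_⟩
    obtain ⟨r, hr⟩ := exists_ιK_eq_of_mem W₀ κ hs hP
    rw [hgt, xvec_some W₀ κ r hr, maxDeg_fin2] at h0
    simp only [Fin.isValue, Matrix.cons_val_zero, Matrix.cons_val_one] at h0
    have hn : r.num.natDegree = 0 := by
      have := le_max_left r.num.natDegree r.denom.natDegree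
      omega
    have hd : r.denom.natDegree = 0 := by
      have := le_max_right r.num.natDegree r.denom.natDegree
      omega
    have hX : X = algebraMap κ (KK W₀ κ) (r.num.coeff 0 / r.denom.coeff 0) := by
      rw [← hr, ιK_apply, eq_C_of_natDegree_eq_zero hn, eq_C_of_natDegree_eq_zero hd, ιP_C, ιP_C,
        map_div₀]
      simp
    rw [hX]
    exact (halg _).algebraMap

end Const

section Main

variable {F : Type*} [Field F] [Fintype F] (W₀ : WeierstrassCurve F)
variable (κ : Type*) [Field κ] [Algebra F κ]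

/-- Frobenius restricted to `MM`. -/
noncomputable def PhiM : MM W₀ κ →+ MM W₀ κ :=
  ((PhiP W₀ κ).comp (MM W₀ κ).subtype).codRestrict (MM W₀ κ) (fun P => PhiP_mem W₀ κ P.2)

lemma coe_PhiM (Q : MM W₀ κ) : ((PhiM W₀ κ Q : MM W₀ κ) : EK W₀ κ) = PhiP W₀ κ Q := rfl

variable [W₀.IsElliptic]

/-- **Exact-height argument.**  For `P ∈ MM`, the point `(Φ² − (q + 1 − N) Φ + q) P` is
constant, where `N` is the degree of the rational function `x(Φ P − P)` of `x(P)`. -/
theorem isConstPt_psi_of_pair (hs : Sep (Wκ W₀ κ)) (halg : ∀ c : κ, IsAlgebraic F c)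
    {U V : Polynomial F} (MP : ManinPair W₀ κ U V) {N : ℕ} (D : RedData U V N)
    {P : EK W₀ κ} (hP : P ∈ MM W₀ κ) :
    H230.IsConstPt W₀ (PhiP W₀ κ (PhiP W₀ κ P) - ((Fintype.card F : ℤ) + 1 - N) • PhiP W₀ κ P
      + (Fintype.card F : ℤ) • P) := by
  have hpar : H127.IsParNat (fun Q : MM W₀ κ => hgt W₀ κ (Q : EK W₀ κ)) := by
    intro Q R
    exact hgt_parallelogram W₀ κ hs Q.2 R.2
  have key := hpar.frobenius_relation (PhiM W₀ κ) (Fintype.card F) N
    (fun Q => hgt_PhiP W₀ κ hs Q.2) (fun Q => hgt_PhiP_sub_of_pair W₀ κ hs MP D Q.2) ⟨P, hP⟩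
  set Rm : MM W₀ κ := PhiM W₀ κ (PhiM W₀ κ ⟨P, hP⟩)
    - ((Fintype.card F : ℤ) + 1 - N) • PhiM W₀ κ ⟨P, hP⟩ + Fintype.card F • ⟨P, hP⟩ with hRm
  have hR : (Rm : EK W₀ κ) = PhiP W₀ κ (PhiP W₀ κ P)
      - ((Fintype.card F : ℤ) + 1 - N) • PhiP W₀ κ P + (Fintype.card F : ℤ) • P := by
    rw [hRm, AddSubgroup.coe_add, AddSubgroup.coe_sub, AddSubgroup.coe_zsmul,
      AddSubgroup.coe_nsmul, coe_PhiM, coe_PhiM, natCast_zsmul]
  rw [← hR]
  exact isConstPt_of_hgt_eq_zero W₀ κ hs halg Rm.2 key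

/-- The exact-height argument in odd characteristic. -/
theorem isConstPt_psi (h2 : (2 : κ) ≠ 0) (halg : ∀ c : κ, IsAlgebraic F c) {N : ℕ}
    (D : ManinData W₀ N) {P : EK W₀ κ} (hP : P ∈ MM W₀ κ) :
    H230.IsConstPt W₀ (PhiP W₀ κ (PhiP W₀ κ P) - ((Fintype.card F : ℤ) + 1 - N) • PhiP W₀ κ P
      + (Fintype.card F : ℤ) • P) :=
  isConstPt_psi_of_pair W₀ κ (sep_of_two_ne_zero _ h2) halg (maninPair_odd W₀ κ h2) D.toRedData hP

end Main

end Fermat.Agent.S52.H545

end
-- ===== PACK-END S52/H545/Final.lean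

-- ===== PACK-BEGIN Lib/Frob/Small/Two.lean
section





/-!
# Shared library `Frob`, small primes: the Hasse–Weil Frobenius relation over `𝔽_2` (helper545)

`frobRelationFin_two` : for every Weierstrass curve `E` over `ZMod 2` with `Δ ≠ 0`, every field `k`
over `ZMod 2` and every `P : (E⁄k).Point`:  `Φ (Φ P) - a₂ • Φ P + 2 • P = 0`.

Proof: Manin's exact-height argument on the generic point (`S52/H545`, valid in characteristic
`2` because `a₁ x + a₃ ≠ 0`), with the explicit reduced forms of `x(Φ P - P)` of `TwoData.lean`,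
then helper230's `frobPsi_eq_zero` (generic point ⇒ all points).
-/

set_option autoImplicit false

namespace Fermat.Agent.Lib.Frob.Small

open WeierstrassCurve WeierstrassCurve.Affine Polynomial
open Fermat.Agent.S52.H545 Fermat.Agent.Lib.FrobRel

/-- Manin's count over `𝔽_2`, all nonsingular Weierstrass equations. -/
theorem exists_redData_two (E : WeierstrassCurve (ZMod 2)) (hΔ : E.Δ ≠ 0) :
    Nonempty (RedData (manU2 E) manV2 E.card) ∧ (E.a₁ ≠ 0 ∨ E.a₃ ≠ 0) := by
  obtain ⟨a₁, a₂, a₃, a₄, a₆⟩ := E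
  have key : ∀ a : ZMod 2, a = 0 ∨ a = 1 := by decide
  rcases key a₁ with rfl | rfl
  · rcases key a₂ with rfl | rfl
    · rcases key a₃ with rfl | rfl
      · rcases key a₄ with rfl | rfl
        · rcases key a₆ with rfl | rfl
          · exact absurd (by decide) hΔ
          · exact absurd (by decide) hΔ
        · rcases key a₆ with rfl | rfl
          · exact absurd (by decide) hΔ
          · exact absurd (by decide) hΔ
      · rcases key a₄ with rfl | rfl
        · rcases key a₆ with rfl | rfl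
          · exact ⟨by rw [card_00100]; exact redData_00100, Or.inr (by decide)⟩
          · exact ⟨by rw [card_00101]; exact redData_00101, Or.inr (by decide)⟩
        · rcases key a₆ with rfl | rfl
          · exact ⟨by rw [card_00110]; exact redData_00110, Or.inr (by decide)⟩
          · exact ⟨by rw [card_00111]; exact redData_00111, Or.inr (by decide)⟩
    · rcases key a₃ with rfl | rfl
      · rcases key a₄ with rfl | rfl
        · rcases key a₆ with rfl | rfl
          · exact absurd (by decide) hΔ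
          · exact absurd (by decide) hΔ
        · rcases key a₆ with rfl | rfl
          · exact absurd (by decide) hΔ
          · exact absurd (by decide) hΔ
      · rcases key a₄ with rfl | rfl
        · rcases key a₆ with rfl | rfl
          · exact ⟨by rw [card_01100]; exact redData_01100, Or.inr (by decide)⟩
          · exact ⟨by rw [card_01101]; exact redData_01101, Or.inr (by decide)⟩
        · rcases key a₆ with rfl | rfl
          · exact ⟨by rw [card_01110]; exact redData_01110, Or.inr (by decide)⟩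
          · exact ⟨by rw [card_01111]; exact redData_01111, Or.inr (by decide)⟩
  · rcases key a₂ with rfl | rfl
    · rcases key a₃ with rfl | rfl
      · rcases key a₄ with rfl | rfl
        · rcases key a₆ with rfl | rfl
          · exact absurd (by decide) hΔ
          · exact ⟨by rw [card_10001]; exact redData_10001, Or.inl (by decide)⟩
        · rcases key a₆ with rfl | rfl
          · exact ⟨by rw [card_10010]; exact redData_10010, Or.inl (by decide)⟩
          · exact absurd (by decide) hΔ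
      · rcases key a₄ with rfl | rfl
        · rcases key a₆ with rfl | rfl
          · exact absurd (by decide) hΔ
          · exact ⟨by rw [card_10101]; exact redData_10101, Or.inl (by decide)⟩
        · rcases key a₆ with rfl | rfl
          · exact absurd (by decide) hΔ
          · exact ⟨by rw [card_10111]; exact redData_10111, Or.inl (by decide)⟩
    · rcases key a₃ with rfl | rfl
      · rcases key a₄ with rfl | rfl
        · rcases key a₆ with rfl | rfl
          · exact absurd (by decide) hΔ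
          · exact ⟨by rw [card_11001]; exact redData_11001, Or.inl (by decide)⟩
        · rcases key a₆ with rfl | rfl
          · exact ⟨by rw [card_11010]; exact redData_11010, Or.inl (by decide)⟩
          · exact absurd (by decide) hΔ
      · rcases key a₄ with rfl | rfl
        · rcases key a₆ with rfl | rfl
          · exact ⟨by rw [card_11100]; exact redData_11100, Or.inl (by decide)⟩
          · exact absurd (by decide) hΔ
        · rcases key a₆ with rfl | rfl
          · exact ⟨by rw [card_11110]; exact redData_11110, Or.inl (by decide)⟩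
          · exact absurd (by decide) hΔ

/-- **Piece A2 at `ℓ = 2`.** -/
theorem frobRelationFin_two (E : WeierstrassCurve (ZMod 2)) (hΔ : E.Δ ≠ 0)
    (k : Type) [Field k] [Algebra (ZMod 2) k] [DecidableEq k] (P : (E⁄k).Point) :
    Fermat.Agent.Lib.Frob.frobPt 2 E k (Fermat.Agent.Lib.Frob.frobPt 2 E k P)
      - E.traceOfFrobenius • Fermat.Agent.Lib.Frob.frobPt 2 E k P + ((2 : ℕ) : ℤ) • P = 0 := by
  have : E.IsElliptic := ⟨isUnit_iff_ne_zero.mpr hΔ⟩
  obtain ⟨⟨D⟩, hsep⟩ := exists_redData_two E hΔ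
  have hs : Sep (Wκ E (ZMod 2)) := by
    right
    rcases hsep with h | h
    · left
      simpa [Wκ, WeierstrassCurve.baseChange] using h
    · right
      simpa [Wκ, WeierstrassCurve.baseChange] using h
  have key := isConstPt_psi_of_pair E (ZMod 2) hs (fun c => isAlgebraic_algebraMap c)
    (maninPair_two E (ZMod 2)) D (genericPoint_mem E (ZMod 2))
  have ha : E.traceOfFrobenius = (Fintype.card (ZMod 2) : ℤ) + 1 - E.card := by
    rw [WeierstrassCurve.traceOfFrobenius, Nat.card_eq_fintype_card]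
  have hC : H230.IsConstPt E (H230.frobPsi E (KK E (ZMod 2)) E.traceOfFrobenius
      (Point.some _ _ (generic_nonsingular E (ZMod 2)))) := by
    rw [H230.frobPsi_apply, ha]
    exact key
  have h0 := H230.frobPsi_eq_zero E hΔ (generic_nonsingular E (ZMod 2)) (xF_transcendental _)
    E.traceOfFrobenius hC (L := k) P
  rw [H230.frobPsi_apply, ZMod.card] at h0
  exact h0

end Fermat.Agent.Lib.Frob.Small

end
-- ===== PACK-END Lib/Frob/Small/Two.lean

-- ===== PACK-BEGIN Lib/Frob/A2/H230/Height.lean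
section




/-!
# The degree height on the odd points (helper230)

Glue between helper311's exact parallelogram law (`H311.hgt_add_sub`), helper621's `ratDeg`
and the odd points of `OddPts.lean`.

* `hgt_some_eq`   : for an odd point `(x, y)` with `x = jhat S`, the height is `ratDeg S`.
* `hgt_parallelogram` : parallelogram law on the odd points.
* `hgt_frob`      : `h (Φ P) = q · h P`.
-/

set_option linter.unusedSectionVars false

open WeierstrassCurve Polynomial
open scoped Polynomial.Bivariate WeierstrassCurve.Affine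

namespace Fermat.Agent.Lib.Frob.A2.H230

open Fermat.Agent.Lib.FrobRel.H230 Fermat.Agent.S52.H311 Fermat.Agent.S52.H621

universe u

variable {F : Type u} [Field F] {W : WeierstrassCurve F} [DecidableEq (KK W)]

/-- The height on points of `W` over its function field. -/
noncomputable def hh (P : (W⁄(KK W)).Point) : ℕ := hgt (jj W) P

lemma isXRep_of_jhat {x y : KK W} (h : (W⁄(KK W)).Nonsingular x y) (S : RatFunc F)
    (hx : x = jhat W S) : IsXRep (jj W) (Affine.Point.some x y h) S.num S.denom := by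
  refine isXRep_some h (RatFunc.isCoprime_num_denom S) (jj_denom_ne_zero W S) ?_
  rw [hx, jhat_eq_num_div_denom, div_mul_cancel₀ _ (jj_denom_ne_zero W S)]

lemma hh_some_eq {x y : KK W} (h : (W⁄(KK W)).Nonsingular x y) (S : RatFunc F)
    (hx : x = jhat W S) : hh (Affine.Point.some x y h) = ratDeg S := by
  rw [hh, hgt_eq (jj_injective W) (isXRep_of_jhat h S hx)]
  rfl

lemma hh_zero : hh (0 : (W⁄(KK W)).Point) = 0 := hgt_zero (jj_injective W)

lemma exists_isXRep_of_mem (ha₁ : W.a₁ = 0) (ha₃ : W.a₃ = 0) (h2 : (2 : F) ≠ 0)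
    {P : (W⁄(KK W)).Point} (hP : P ∈ oddPts W) : ∃ a b, IsXRep (jj W) P a b := by
  rcases P with _ | ⟨x, y, h⟩
  · exact ⟨1, 0, isXRep_zero⟩
  · obtain ⟨S, hS⟩ := exists_ratFunc_of_mem_oddPts ha₁ ha₃ h2 hP
    exact ⟨_, _, isXRep_of_jhat h S hS⟩

/-- **Parallelogram law** for the height on the odd points. -/
theorem hh_parallelogram (ha₁ : W.a₁ = 0) (ha₃ : W.a₃ = 0) (h2 : (2 : F) ≠ 0) (hΔ : W.Δ ≠ 0)
    {P Q : (W⁄(KK W)).Point} (hP : P ∈ oddPts W) (hQ : Q ∈ oddPts W) :
    hh (P + Q) + hh (P - Q) = 2 * hh P + 2 * hh Q := by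
  have : W.IsElliptic := ⟨isUnit_iff_ne_zero.mpr hΔ⟩
  exact hgt_add_sub (W := W) (jj_injective W)
    (exists_isXRep_of_mem ha₁ ha₃ h2 hP) (exists_isXRep_of_mem ha₁ ha₃ h2 hQ)
    (exists_isXRep_of_mem ha₁ ha₃ h2 ((oddPts W).add_mem hP hQ))
    (exists_isXRep_of_mem ha₁ ha₃ h2 ((oddPts W).sub_mem hP hQ))

lemma hh_eq_zero_iff_isConst (ha₁ : W.a₁ = 0) (ha₃ : W.a₃ = 0) (h2 : (2 : F) ≠ 0)
    {P : (W⁄(KK W)).Point} (hP : P ∈ oddPts W) (h0 : hh P = 0) :
    P = 0 ∨ ∃ (x y : KK W) (h : (W⁄(KK W)).Nonsingular x y),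
      P = Affine.Point.some x y h ∧ IsAlgebraic F x := by
  rcases P with _ | ⟨x, y, h⟩
  · exact Or.inl rfl
  · obtain ⟨S, hS⟩ := exists_ratFunc_of_mem_oddPts ha₁ ha₃ h2 hP
    rw [hh_some_eq h S hS, ratDeg_eq_zero_iff] at h0
    obtain ⟨c, rfl⟩ := h0
    refine Or.inr ⟨x, y, h, rfl, ?_⟩
    rw [hS, jhat_C]
    exact isAlgebraic_algebraMap c

end Fermat.Agent.Lib.Frob.A2.H230

end
-- ===== PACK-END Lib/Frob/A2/H230/Height.lean

-- ===== PACK-BEGIN Lib/Frob/A2/H230/FrobHeight.lean
section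



/-!
# Frobenius and the height on odd points (helper230)

* `hh_frob`     : `h (Φ P) = q · h P` on odd points (any finite field, short form, char ≠ 2).
* `hh_frob_sub` : `h (Φ P - P) = ratDeg (maninFun) · h P` on odd points of `y² = x³ + A x + B`
  over `ZMod p`, `p ≠ 2`.
-/

set_option linter.unusedSectionVars false

open WeierstrassCurve Polynomial
open scoped Polynomial.Bivariate WeierstrassCurve.Affine

namespace Fermat.Agent.Lib.Frob.A2.H230

open Fermat.Agent.Lib.FrobRel.H230 Fermat.Agent.S52.H311 Fermat.Agent.S52.H621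

universe u

section General

variable {F : Type u} [Field F] [Fintype F] {W : WeierstrassCurve F} [DecidableEq (KK W)]

lemma frobPt_mem_oddPts {P : (W⁄(KK W)).Point} (hP : P ∈ oddPts W) :
    _root_.Fermat.Agent.Lib.FrobRel.H230.frobPt W (KK W) P ∈ oddPts W :=
  map_mem_oddPts _ (fun P => frobPt_map W (tau W) P) hP

lemma frobPt_some_exists {L : Type*} [Field L] [Algebra F L] [DecidableEq L] {x y : L}
    (h : (W⁄L).Nonsingular x y) :
    ∃ h' : (W⁄L).Nonsingular (x ^ Fintype.card F) (y ^ Fintype.card F),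
      _root_.Fermat.Agent.Lib.FrobRel.H230.frobPt W L (Affine.Point.some x y h)
        = Affine.Point.some (x ^ Fintype.card F) (y ^ Fintype.card F) h' :=
  ⟨_, frobPt_some W L h⟩

lemma hh_frob (ha₁ : W.a₁ = 0) (ha₃ : W.a₃ = 0) (h2 : (2 : F) ≠ 0)
    {P : (W⁄(KK W)).Point} (hP : P ∈ oddPts W) :
    hh (_root_.Fermat.Agent.Lib.FrobRel.H230.frobPt W (KK W) P) = Fintype.card F * hh P := by
  rcases P with _ | ⟨x, y, h⟩
  · have : _root_.Fermat.Agent.Lib.FrobRel.H230.frobPt W (KK W) (Affine.Point.zero) = 0 := map_zero _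
    rw [this]
    show hh (0 : (W⁄(KK W)).Point) = _ * hh (0 : (W⁄(KK W)).Point)
    rw [hh_zero, mul_zero]
  · obtain ⟨S, hS⟩ := exists_ratFunc_of_mem_oddPts ha₁ ha₃ h2 hP
    obtain ⟨h', e⟩ := frobPt_some_exists h
    rw [e, hh_some_eq h S hS,
      hh_some_eq h' (S ^ Fintype.card F) (by rw [hS, map_pow]), ratDeg_pow]

lemma hh_neg (ha₁ : W.a₁ = 0) (ha₃ : W.a₃ = 0) (h2 : (2 : F) ≠ 0) (hΔ : W.Δ ≠ 0)
    {P : (W⁄(KK W)).Point} (hP : P ∈ oddPts W) : hh (-P) = hh P := by
  have := hh_parallelogram ha₁ ha₃ h2 hΔ (oddPts W).zero_mem hP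
  rw [zero_add, zero_sub, hh_zero] at this
  omega

lemma hh_neg_sub_self (ha₁ : W.a₁ = 0) (ha₃ : W.a₃ = 0) (h2 : (2 : F) ≠ 0) (hΔ : W.Δ ≠ 0)
    {P : (W⁄(KK W)).Point} (hP : P ∈ oddPts W) : hh (-P - P) = 4 * hh P := by
  have := hh_parallelogram ha₁ ha₃ h2 hΔ ((oddPts W).neg_mem hP) hP
  rw [neg_add_cancel, hh_zero, hh_neg ha₁ ha₃ h2 hΔ hP] at this
  omega

end General

section Manin

variable (p : ℕ) [Fact p.Prime] (A B : ZMod p)

lemma maninDen_ne_zero' : maninDen p ≠ 0 := by
  rw [maninDen_eq p 0 0]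
  exact mul_ne_zero (cancelPoly_monic p 0 0).ne_zero (redDen_monic p 0 0).ne_zero

variable {p A B}

lemma equation_short {x y : KK (shortW p A B)}
    (h : ((shortW p A B)⁄(KK (shortW p A B))).Equation x y) :
    y ^ 2 = x ^ 3 + algebraMap (ZMod p) (KK (shortW p A B)) A * x
      + algebraMap (ZMod p) (KK (shortW p A B)) B := by
  rw [Affine.equation_iff] at h
  have h1 : ((shortW p A B)⁄(KK (shortW p A B))).a₁ = 0 := map_zero _
  have h2 : ((shortW p A B)⁄(KK (shortW p A B))).a₂ = 0 := map_zero _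
  have h3 : ((shortW p A B)⁄(KK (shortW p A B))).a₃ = 0 := map_zero _
  have h4 : ((shortW p A B)⁄(KK (shortW p A B))).a₄
      = algebraMap (ZMod p) (KK (shortW p A B)) A := rfl
  have h6 : ((shortW p A B)⁄(KK (shortW p A B))).a₆
      = algebraMap (ZMod p) (KK (shortW p A B)) B := rfl
  rw [h1, h2, h3, h4, h6] at h
  linear_combination h

lemma addX_short (x₁ x₂ l : KK (shortW p A B)) :
    ((shortW p A B)⁄(KK (shortW p A B))).addX x₁ x₂ l = l ^ 2 - x₁ - x₂ := by
  have h1 : ((shortW p A B)⁄(KK (shortW p A B))).a₁ = 0 := map_zero _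
  have h2 : ((shortW p A B)⁄(KK (shortW p A B))).a₂ = 0 := map_zero _
  rw [Affine.addX, h1, h2]
  ring

lemma aeval_cubic (x : KK (shortW p A B)) :
    aeval x (cubic p A B) = x ^ 3 + algebraMap (ZMod p) (KK (shortW p A B)) A * x
      + algebraMap (ZMod p) (KK (shortW p A B)) B := by
  simp [cubic]

lemma aeval_maninDen (x : KK (shortW p A B)) :
    aeval x (maninDen p) = (x ^ p - x) ^ 2 := by
  simp [maninDen]

lemma aeval_maninNum (x : KK (shortW p A B)) :
    aeval x (maninNum p A B) = aeval x (cubic p A B) * (aeval x (cubic p A B) ^ ((p - 1) / 2) + 1) ^ 2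
      - (x ^ p + x) * (x ^ p - x) ^ 2 := by
  simp [maninNum]

/-- The `x`-coordinate of `Φ P - P` is Manin's function of the `x`-coordinate of `P`. -/
lemma manin_x (hp2 : p ≠ 2) {x y : KK (shortW p A B)}
    (heq : ((shortW p A B)⁄(KK (shortW p A B))).Equation x y) (hx : x ^ p ≠ x) :
    ((y ^ p + y) / (x ^ p - x)) ^ 2 - x ^ p - x
      = aeval x (maninNum p A B) / aeval x (maninDen p) := by
  obtain ⟨hm, -, -⟩ := half_spec hp2
  have hy : y ^ p = y * (y ^ 2) ^ ((p - 1) / 2) := by
    have e : y ^ (2 * ((p - 1) / 2) + 1) = y ^ p := congrArg (fun n : ℕ => y ^ n) hm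
    rw [← e, pow_succ, pow_mul]
    ring
  have hd : x ^ p - x ≠ 0 := sub_ne_zero.mpr hx
  rw [aeval_maninNum, aeval_maninDen, aeval_cubic, ← equation_short heq, hy]
  field_simp
  ring

lemma jhat_manin (x : KK (shortW p A B)) (S : RatFunc (ZMod p))
    (hS : x = jhat (shortW p A B) S) :
    jhat (shortW p A B) (aeval S (maninNum p A B) / aeval S (maninDen p))
      = aeval x (maninNum p A B) / aeval x (maninDen p) := by
  rw [map_div₀, hS, Polynomial.aeval_algHom_apply, Polynomial.aeval_algHom_apply]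

variable [DecidableEq (KK (shortW p A B))]

/-- **Manin's count on the odd points**: `h (Φ P - P) = ratDeg (maninFun) · h P`. -/
theorem hh_frob_sub (hp2 : p ≠ 2) (hΔ : (shortW p A B).Δ ≠ 0)
    {P : ((shortW p A B)⁄(KK (shortW p A B))).Point} (hP : P ∈ oddPts (shortW p A B)) :
    hh (_root_.Fermat.Agent.Lib.FrobRel.H230.frobPt (shortW p A B) (KK (shortW p A B)) P - P)
      = ratDeg (maninFun p A B) * hh P := by
  have ha₁ : (shortW p A B).a₁ = 0 := rfl
  have ha₃ : (shortW p A B).a₃ = 0 := rfl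
  have h2 : (2 : ZMod p) ≠ 0 := two_ne_zero_zmod p hp2
  have hq : Fintype.card (ZMod p) = p := ZMod.card p
  rcases P with _ | ⟨x, y, h⟩
  · have e0 : _root_.Fermat.Agent.Lib.FrobRel.H230.frobPt (shortW p A B) (KK (shortW p A B)) (Affine.Point.zero) - Affine.Point.zero
        = (0 : ((shortW p A B)⁄(KK (shortW p A B))).Point) := by
      have : (Affine.Point.zero : ((shortW p A B)⁄(KK (shortW p A B))).Point) = 0 := rfl
      rw [this, map_zero, sub_zero]
    rw [e0]
    show hh (0 : ((shortW p A B)⁄(KK (shortW p A B))).Point)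
      = _ * hh (0 : ((shortW p A B)⁄(KK (shortW p A B))).Point)
    rw [hh_zero, mul_zero]
  · obtain ⟨S, hS⟩ := exists_ratFunc_of_mem_oddPts ha₁ ha₃ h2 hP
    obtain ⟨h', e⟩ := frobPt_some_exists h
    by_cases hx : x ^ p = x
    · -- constant `x`-coordinate
      have hS0 : ratDeg S = 0 := by
        have hSp : S ^ p = S := jhat_injective _ (by rw [map_pow, ← hS, hx])
        have h3 := ratDeg_pow S p
        rw [hSp] at h3
        have h4 := (Fact.out : p.Prime).two_le
        by_contra hne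
        have : 0 < ratDeg S := Nat.pos_of_ne_zero hne
        nlinarith
      have hhP : hh (Affine.Point.some x y h) = 0 := by rw [hh_some_eq h S hS, hS0]
      rw [hhP, mul_zero]
      have hxx : x ^ Fintype.card (ZMod p) = x := by rw [hq]; exact hx
      rcases (Affine.Point.X_eq_iff (h₁ := h') (h₂ := h)).mp hxx with e1 | e1
      · rw [e, e1, sub_self]; exact hh_zero
      · rw [e, e1, hh_neg_sub_self ha₁ ha₃ h2 hΔ hP, hhP, mul_zero]
    · -- generic case
      have hxne : x ^ Fintype.card (ZMod p) ≠ x := by rw [hq]; exact hx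
      rw [e, sub_eq_add_neg, Affine.Point.neg_some, Affine.Point.add_of_X_ne hxne]
      rw [hh_some_eq _ (aeval S (maninNum p A B) / aeval S (maninDen p)),
        ratDeg_comp _ _ (maninDen_ne_zero' p) S, hh_some_eq h S hS]
      · rfl
      · rw [jhat_manin x S hS, ← manin_x hp2 h.1 hx, addX_short, Affine.slope_of_X_ne hxne,
          negY_eq_neg ha₁ ha₃, hq, sub_neg_eq_add]

end Manin

end Fermat.Agent.Lib.Frob.A2.H230

end
-- ===== PACK-END Lib/Frob/A2/H230/FrobHeight.lean

-- ===== PACK-BEGIN Lib/Frob/A2/H230/Main.lean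
section




/-!
# Piece A2 of row S52: the Hasse–Weil Frobenius relation over `𝔽_ℓ` (helper230 assembly)

`frobRelationFin : FrobRelationFin` — for every prime `ℓ ≥ 5`, every Weierstrass curve `E` over
`ZMod ℓ` with `Δ ≠ 0`, every field `k` over `ZMod ℓ` and every `P : (E⁄k).Point`:
`Φ (Φ P) - a_ℓ • Φ P + ℓ • P = 0`.

Assembly of: helper311 (exact parallelogram law), helper621 (Manin count, degree of
compositions), helper127 (quadratic form algebra), helper240 (short Weierstrass form),
helper230 (odd points, generic point ⇒ all points).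
-/

open WeierstrassCurve Polynomial
open scoped Polynomial.Bivariate WeierstrassCurve.Affine

namespace Fermat.Agent.Lib.Frob.A2.H230

open Fermat.Agent.S52.H311 Fermat.Agent.S52.H621 Fermat.Agent.S52.H127

/-- The Frobenius relation for the literal short Weierstrass curves, in terms of `frobPsi`. -/
theorem frobPsi_shortW_eq_zero (ℓ : ℕ) [Fact ℓ.Prime] (hℓ2 : ℓ ≠ 2) (A B : ZMod ℓ)
    (hΔ : (shortW ℓ A B).Δ ≠ 0) (k : Type) [Field k] [Algebra (ZMod ℓ) k] [DecidableEq k]
    (P : ((shortW ℓ A B)⁄k).Point) :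
    Fermat.Agent.Lib.FrobRel.H230.frobPsi (shortW ℓ A B) k
      (shortW ℓ A B).traceOfFrobenius P = 0 := by
  classical
  have h2 : (2 : ZMod ℓ) ≠ 0 := two_ne_zero_zmod ℓ hℓ2
  have hΔF : ((shortW ℓ A B)⁄(ZMod ℓ)).Δ ≠ 0 :=
    Fermat.Agent.Lib.FrobRel.H230.baseChange_Δ_ne_zero' _ hΔ _
  have hpar : IsParNat (fun P : oddPts (shortW ℓ A B) => hh P.1) :=
    fun P Q => hh_parallelogram rfl rfl h2 hΔ P.2 Q.2
  have key := IsParNat.frobenius_relation hpar
    (((Fermat.Agent.Lib.FrobRel.H230.frobPt (shortW ℓ A B) (KK (shortW ℓ A B))).comp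
      (oddPts (shortW ℓ A B)).subtype).codRestrict (oddPts (shortW ℓ A B))
      (fun P => frobPt_mem_oddPts P.2))
    ℓ (ratDeg (maninFun ℓ A B))
    (fun Q => by
      show hh (Fermat.Agent.Lib.FrobRel.H230.frobPt (shortW ℓ A B) (KK (shortW ℓ A B)) Q.1)
        = ℓ * hh Q.1
      rw [hh_frob rfl rfl h2 Q.2, ZMod.card])
    (fun Q => hh_frob_sub hℓ2 hΔ Q.2)
    ⟨Fermat.Agent.Lib.FrobRel.H230.genericPoint (shortW ℓ A B) (ZMod ℓ) hΔF,
      generic_mem_oddPts hΔF⟩
  have hconst := hh_eq_zero_iff_isConst rfl rfl h2 (SetLike.coe_mem _) key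
  have htr : (ℓ : ℤ) + 1 - (ratDeg (maninFun ℓ A B) : ℤ) = (shortW ℓ A B).traceOfFrobenius := by
    rw [ratDeg_maninFun_eq_trace ℓ hℓ2 A B hΔ]
    ring
  refine Fermat.Agent.Lib.FrobRel.H230.frobPsi_eq_zero (shortW ℓ A B) hΔ
    (Fermat.Agent.Lib.FrobRel.H230.generic_nonsingular (shortW ℓ A B) (ZMod ℓ) hΔF)
    (Fermat.Agent.Lib.FrobRel.H230.gx_transcendental (shortW ℓ A B) (ZMod ℓ))
    (shortW ℓ A B).traceOfFrobenius ?_ P
  rw [← htr]
  convert hconst using 1
  rw [Fermat.Agent.Lib.FrobRel.H230.frobPsi_apply, ZMod.card]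
  simp only [AddSubgroup.coe_add, AddSubgroup.coe_sub, AddSubgroup.coe_zsmul,
    AddSubgroup.coe_nsmul, natCast_zsmul]
  rfl

/-- Piece A2 for the literal short Weierstrass curves `⟨0, 0, 0, A, B⟩`. -/
theorem frobRelationFinShortLit : Fermat.Agent.Lib.Frob.A2.H240.FrobRelationFinShortLit := by
  intro ℓ _ hℓ A B hΔ k _ _ _ P
  have hℓ2 : ℓ ≠ 2 := by omega
  have h := frobPsi_shortW_eq_zero ℓ hℓ2 A B hΔ k P
  have e := Fermat.Agent.Lib.FrobRel.H230.frobPsi_apply (shortW ℓ A B) k
    (shortW ℓ A B).traceOfFrobenius P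
  rw [h, ZMod.card] at e
  exact e.symm

/-- **Piece A2** (frozen interface `FrobRelationFin` of `Lib/Frob/Interfaces.lean`). -/
theorem frobRelationFin_H230 : Fermat.Agent.Lib.Frob.FrobRelationFin :=
  Fermat.Agent.Lib.Frob.A2.H240.frobRelationFin_of_shortLit frobRelationFinShortLit

end Fermat.Agent.Lib.Frob.A2.H230

end
-- ===== PACK-END Lib/Frob/A2/H230/Main.lean

-- ===== PACK-BEGIN S37/Core/Weak.lean
section


/-!
# S37 row (helper37): weak reduction data suffice

`IsWeakRed` drops the field `frob_ker` of `Fermat.Agent.S37.H99.IsRed` and asks for the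
Eichler-Shimura relation at ONE Frobenius element `σ₀` only.  From a weak reduction map `red`
we build `red' x = (n ↦ red (σ₀ ^ n • x))`, which satisfies all four fields of `IsRed`.
Consequently the geometric part of S37 never has to talk about a Frobenius action on the
special fibre.
-/

set_option autoImplicit false

noncomputable section

namespace Fermat.Agent.S37.Core

open ModularCurve ValuationSubring Fermat.Agent.S37.H99

section Abstract

variable {K L : Type*} [Field K] [Field L] [Algebra K L]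
variable (p : ℕ) (J : Type) [AddCommGroup J] [Module HeckeAlg J]
  [DistribMulAction (L ≃ₐ[K] L) J] [SMulCommClass (L ≃ₐ[K] L) HeckeAlg J]

/-- Weak reduction data at `(A, ℓ)` relative to ONE Frobenius element `σ₀`. -/
structure IsWeakRed (A : ValuationSubring L) (ℓ : ℕ) (hℓ : ℓ.Prime) (σ₀ : L ≃ₐ[K] L)
    {Y : Type*} [AddCommGroup Y] (red : J →+ Y) : Prop where
  frob : A.IsFrobeniusAt σ₀ ℓ
  inertia : ∀ τ ∈ A.inertiaSubgroupIn K, ∀ x : J, red (τ • x) = red x
  inj_torsion : ∀ x : J, (∃ n : ℕ, p ^ n • x = 0) → red x = 0 → x = 0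
  relation : ∀ x : J, red (σ₀ • σ₀ • x - heckeGen ⟨ℓ, hℓ⟩ • (σ₀ • x) + ℓ • x) = 0

variable {p J}

/-- the inertia subgroup is stable under conjugation by the decomposition group -/
theorem conj_mem_inertiaSubgroupIn {A : ValuationSubring L} {g τ : L ≃ₐ[K] L}
    (hg : g ∈ A.decompositionSubgroup K) (hτ : τ ∈ A.inertiaSubgroupIn K) :
    g * τ * g⁻¹ ∈ A.inertiaSubgroupIn K := by
  obtain ⟨t, ht, rfl⟩ := hτ
  let d : A.decompositionSubgroup K := ⟨g, hg⟩
  haveI : (A.inertiaSubgroup K).Normal := MonoidHom.normal_ker _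
  refine ⟨d * t * d⁻¹, Subgroup.Normal.conj_mem ‹_› t ht d, rfl⟩

/-- `red' x = (n ↦ red (σ₀ ^ n • x))` -/
def iterRed (σ₀ : L ≃ₐ[K] L) {Y : Type*} [AddCommGroup Y] (red : J →+ Y) : J →+ (ℕ → Y) where
  toFun x n := red (σ₀ ^ n • x)
  map_zero' := by
    funext n
    simp
  map_add' x y := by
    funext n
    simp [smul_add]

@[simp] theorem iterRed_apply (σ₀ : L ≃ₐ[K] L) {Y : Type*} [AddCommGroup Y] (red : J →+ Y)
    (x : J) (n : ℕ) : iterRed σ₀ red x n = red (σ₀ ^ n • x) := rfl

theorem IsWeakRed.red_pow_smul_inertia {A : ValuationSubring L} {ℓ : ℕ} {hℓ : ℓ.Prime}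
    {σ₀ : L ≃ₐ[K] L} {Y : Type*} [AddCommGroup Y] {red : J →+ Y}
    (h : IsWeakRed (K := K) p J A ℓ hℓ σ₀ red) (n : ℕ) {τ : L ≃ₐ[K] L}
    (hτ : τ ∈ A.inertiaSubgroupIn K) (x : J) :
    red (σ₀ ^ n • τ • x) = red (σ₀ ^ n • x) := by
  have hg : σ₀ ^ n ∈ A.decompositionSubgroup K :=
    pow_mem h.frob.mem_decompositionSubgroup n
  have hconj := conj_mem_inertiaSubgroupIn hg hτ
  have e : σ₀ ^ n • τ • x = (σ₀ ^ n * τ * (σ₀ ^ n)⁻¹) • (σ₀ ^ n • x) := by
    rw [← mul_smul, ← mul_smul, inv_mul_cancel_right]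
  rw [e, h.inertia _ hconj]

theorem IsWeakRed.red_pow_smul_frob {A : ValuationSubring L} {ℓ : ℕ} {hℓ : ℓ.Prime}
    {σ₀ : L ≃ₐ[K] L} {Y : Type*} [AddCommGroup Y] {red : J →+ Y}
    (h : IsWeakRed (K := K) p J A ℓ hℓ σ₀ red) (n : ℕ) {σ : L ≃ₐ[K] L}
    (hσ : A.IsFrobeniusAt σ ℓ) (x : J) :
    red (σ₀ ^ n • σ • x) = red (σ₀ ^ (n + 1) • x) := by
  have hτ := inv_mul_mem_inertiaSubgroupIn h.frob hσ
  have e : σ₀ ^ n • σ • x = σ₀ ^ (n + 1) • (σ₀⁻¹ * σ) • x := by
    rw [← mul_smul, ← mul_smul, pow_succ, mul_assoc, mul_inv_cancel_left]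
  rw [e, h.red_pow_smul_inertia (n + 1) hτ]

/-- **Weak reduction data suffice.** -/
theorem IsWeakRed.isRed_iterRed {A : ValuationSubring L} {ℓ : ℕ} {hℓ : ℓ.Prime}
    {σ₀ : L ≃ₐ[K] L} {Y : Type*} [AddCommGroup Y] {red : J →+ Y}
    (h : IsWeakRed (K := K) p J A ℓ hℓ σ₀ red) :
    IsRed (K := K) p J A ℓ hℓ (iterRed σ₀ red) where
  inertia τ hτ x := by
    funext n
    exact h.red_pow_smul_inertia n hτ x
  frob_ker σ hσ x hx := by
    funext n
    rw [iterRed_apply, h.red_pow_smul_frob n hσ]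
    exact congrFun hx (n + 1)
  inj_torsion x hx hx0 := by
    refine h.inj_torsion x hx ?_
    have := congrFun hx0 0
    simpa using this
  relation σ hσ x := by
    funext n
    have hgal : ∀ (g : L ≃ₐ[K] L) (t : HeckeAlg) (y : J), t • (g • y) = g • (t • y) :=
      fun g t y => (smul_comm g t y).symm
    have e2 : σ₀ • σ₀ • (σ₀ ^ n • x) = σ₀ ^ (n + 1 + 1) • x := by
      rw [smul_smul, smul_smul, pow_succ' σ₀ (n + 1), pow_succ' σ₀ n, mul_assoc]
    have e1 : σ₀ • (σ₀ ^ n • x) = σ₀ ^ (n + 1) • x := by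
      rw [smul_smul, pow_succ' σ₀ n]
    have h1 : red (σ₀ ^ n • σ • σ • x) = red (σ₀ • σ₀ • (σ₀ ^ n • x)) := by
      rw [e2, h.red_pow_smul_frob n hσ (σ • x), h.red_pow_smul_frob (n + 1) hσ x]
    have h2 : red (σ₀ ^ n • (heckeGen ⟨ℓ, hℓ⟩ • (σ • x))) =
        red (heckeGen ⟨ℓ, hℓ⟩ • (σ₀ • (σ₀ ^ n • x))) := by
      rw [e1, hgal σ (heckeGen ⟨ℓ, hℓ⟩) x, h.red_pow_smul_frob n hσ (heckeGen ⟨ℓ, hℓ⟩ • x),
        hgal (σ₀ ^ (n + 1)) (heckeGen ⟨ℓ, hℓ⟩) x]
    have h3 : red (σ₀ ^ n • ((ℓ : ℕ) • x)) = red ((ℓ : ℕ) • (σ₀ ^ n • x)) := by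
      rw [smul_comm]
    have := h.relation (σ₀ ^ n • x)
    rw [map_add, map_sub] at this
    show red (σ₀ ^ n • (σ • σ • x - heckeGen ⟨ℓ, hℓ⟩ • (σ • x) + ℓ • x)) = 0
    rw [smul_add, smul_sub, map_add, map_sub, h1, h2, h3]
    exact this

variable (p) in
/-- **R1 at one place, weak form.** -/
theorem exists_specialization_of_isWeakRed (A : ValuationSubring L) (ℓ : ℕ) (hℓ : ℓ.Prime)
    (σ₀ : L ≃ₐ[K] L) {Y : Type*} [AddCommGroup Y] (red : J →+ Y)
    (hred : IsWeakRed (K := K) p J A ℓ hℓ σ₀ red) :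
    ∃ (J' : Type) (_ : AddCommGroup J') (_ : Module HeckeAlg J') (sp : J →+ J')
      (F : J' →+ J'),
      IsSpecialization (K := K) p J J' A ℓ sp F ∧ SpecialFibreRelation J' ℓ hℓ F :=
  exists_specialization_of_isRed p A ℓ hℓ ⟨σ₀, hred.frob⟩ (iterRed σ₀ red) hred.isRed_iterRed

end Abstract

end Fermat.Agent.S37.Core

end
end
-- ===== PACK-END S37/Core/Weak.lean

-- ===== PACK-BEGIN S37/Core/PlaceRed.lean
section



/-!
# S37 row (helper37): from a place reduction map to the frozen statement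

`PlaceRed N A ℓ σ₀` is the geometric datum to be constructed by the row:
a map `r` from the places of `ℚ̄(X₀(N))` to the places of the function field of the special
fibre such that
* `isRed`, `gen` : `r` witnesses `ReductionInputsModL A N` (Prelude);
* `inertia` : `r (τ • P) = r P` for `τ` in the inertia group at `A`;
* `es` : Eichler-Shimura on divisors, `r_* (T_ℓ P) = r (σ₀ P) + ℓ · r (σ₀⁻¹ P)`.

`specialization_of_placeRed` turns it (together with `HeckeInputsAlong` and the conclusion of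
the frozen statement S18, both taken as hypotheses) into the conclusion of S37 at `(ℓ, A)`.
Everything here is fully proved.
-/

set_option autoImplicit false
set_option synthInstance.maxHeartbeats 400000

noncomputable section

namespace Fermat.Agent.S37.Core

open ModularCurve ValuationSubring AlgebraicCurve HahnSeries

/-- the conclusion of the frozen statement S18 at `(N, ℓ, A)` -/
def InjTorsionModL (N : ℕ) [NeZero N] (ℓ : ℕ) (A : ValuationSubring (AlgebraicClosure ℚ)) :
    Prop :=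
  ∀ (_ : ReductionInputsModL A N) (m : ℕ), ¬ ℓ ∣ m → ∀ z : JZero N, m • z = 0 →
    reductionModL A N z = 0 → z = 0

/-- The geometric datum: a place reduction map with inertia invariance and the
Eichler-Shimura congruence on divisors, relative to one Frobenius element `σ₀`. -/
structure PlaceRed (N : ℕ) [NeZero N] (A : ValuationSubring (AlgebraicClosure ℚ)) (ℓ : ℕ)
    [NeZero ℓ] (σ₀ : AlgebraicClosure ℚ ≃ₐ[ℚ] AlgebraicClosure ℚ) : Type where
  /-- the reduction map on places -/
  r : Place (AlgebraicClosure ℚ) (modularFunctionFieldBar N) →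
    Place (IsLocalRing.ResidueField A) (modularFunctionFieldFullC (IsLocalRing.ResidueField A) N)
  isRed : IsPlaceReductionModL A N r
  gen : PrincipalGeneratedByIntegral A (IsLocalRing.residue A) N
  inertia : ∀ τ ∈ A.inertiaSubgroupIn ℚ,
    ∀ P : Place (AlgebraicClosure ℚ) (modularFunctionFieldBar N),
      r (arithmeticGalois (modularFunctionFieldFull N) τ • P) = r P
  es : ∀ (hα : HeckeAlphaBarIntegral (AlgebraicClosure ℚ) N ℓ)
    (hβ : HeckeBetaBarIntegral (AlgebraicClosure ℚ) N ℓ)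
    [HasPrincipalDivisors (AlgebraicClosure ℚ) (modularFunctionFieldBar (N * ℓ))]
    (P : Place (AlgebraicClosure ℚ) (modularFunctionFieldBar N)),
    Finsupp.mapDomain r (heckeDivBar hα hβ (Finsupp.single P 1)) =
      Finsupp.single (r (arithmeticGalois (modularFunctionFieldFull N) σ₀ • P)) 1 +
        Finsupp.single (r ((arithmeticGalois (modularFunctionFieldFull N) σ₀)⁻¹ • P)) (ℓ : ℤ)

section Torsion

variable {L : Type*} [Field L] [Algebra ℚ L] {A : ValuationSubring L}
variable {k : Type*} [Field k] {π : A →+* k} {N : ℕ}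

/-- two place reductions agree on principal divisors -/
theorem mapDomain_eq_of_mem_principal
    {r₁ r₂ : Place L (laurentBaseChange L (modularFunctionFieldFull N)) →
      Place k (modularFunctionFieldFullC k N)}
    (h₁ : IsPlaceReductionAlong A π N r₁) (h₂ : IsPlaceReductionAlong A π N r₂)
    (hgen : PrincipalGeneratedByIntegral A π N)
    {D : Divisor L (laurentBaseChange L (modularFunctionFieldFull N))}
    (hD : D ∈ Divisor.principal (K := L) (F := laurentBaseChange L (modularFunctionFieldFull N))) :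
    Finsupp.mapDomain r₁ D = Finsupp.mapDomain r₂ D := by
  have hD' := hgen hD
  clear hD
  induction hD' using AddSubgroup.closure_induction with
  | mem E hE =>
    obtain ⟨y, hy, hyk, hne, hDy⟩ := hE
    ext Q
    rw [h₁.2 y hy hyk hne E hDy Q, h₂.2 y hy hyk hne E hDy Q]
  | zero => rw [Finsupp.mapDomain_zero, Finsupp.mapDomain_zero]
  | add E E' _ _ hE hE' => rw [Finsupp.mapDomain_add, Finsupp.mapDomain_add, hE, hE']
  | neg E _ hE =>
    rw [← Finsupp.mapDomain.addMonoidHom_apply, ← Finsupp.mapDomain.addMonoidHom_apply, map_neg,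
      map_neg, Finsupp.mapDomain.addMonoidHom_apply, Finsupp.mapDomain.addMonoidHom_apply, hE]

/-- two place reductions agree on divisors some nonzero multiple of which is principal -/
theorem mapDomain_eq_of_nsmul_mem_principal
    {r₁ r₂ : Place L (laurentBaseChange L (modularFunctionFieldFull N)) →
      Place k (modularFunctionFieldFullC k N)}
    (h₁ : IsPlaceReductionAlong A π N r₁) (h₂ : IsPlaceReductionAlong A π N r₂)
    (hgen : PrincipalGeneratedByIntegral A π N)
    {D : Divisor L (laurentBaseChange L (modularFunctionFieldFull N))} {m : ℕ} (hm : m ≠ 0)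
    (hD : m • D ∈
      Divisor.principal (K := L) (F := laurentBaseChange L (modularFunctionFieldFull N))) :
    Finsupp.mapDomain r₁ D = Finsupp.mapDomain r₂ D := by
  have h := mapDomain_eq_of_mem_principal h₁ h₂ hgen hD
  rw [← Finsupp.mapDomain.addMonoidHom_apply, ← Finsupp.mapDomain.addMonoidHom_apply,
    map_nsmul, map_nsmul, Finsupp.mapDomain.addMonoidHom_apply,
    Finsupp.mapDomain.addMonoidHom_apply] at h
  ext Q
  have hQ := DFunLike.congr_fun h Q
  rw [Finsupp.smul_apply, Finsupp.smul_apply, nsmul_eq_mul, nsmul_eq_mul] at hQ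
  exact mul_left_cancel₀ (Nat.cast_ne_zero.mpr hm) hQ

/-- on torsion classes the reduction map does not depend on the place reduction -/
theorem reductionPic0Along_eq_of_nsmul_eq_zero
    {r₁ r₂ : Place L (laurentBaseChange L (modularFunctionFieldFull N)) →
      Place k (modularFunctionFieldFullC k N)}
    (h₁ : IsPlaceReductionAlong A π N r₁) (h₂ : IsPlaceReductionAlong A π N r₂)
    (hgen : PrincipalGeneratedByIntegral A π N) {m : ℕ} (hm : m ≠ 0)
    {x : Pic0 L (laurentBaseChange L (modularFunctionFieldFull N))} (hx : m • x = 0) :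
    reductionPic0Along r₁ h₁ hgen x = reductionPic0Along r₂ h₂ hgen x := by
  obtain ⟨D, rfl⟩ := Pic0.mk_surjective x
  rw [reductionPic0Along_mk, reductionPic0Along_mk]
  congr 1
  apply Subtype.ext
  rw [coe_reductionDegZeroAlong, coe_reductionDegZeroAlong]
  refine mapDomain_eq_of_nsmul_mem_principal h₁ h₂ hgen hm ?_
  have h0 : (m • D : Divisor.degZero (K := L)
      (F := laurentBaseChange L (modularFunctionFieldFull N))) ∈
      (Divisor.principal (K := L)
        (F := laurentBaseChange L (modularFunctionFieldFull N))).addSubgroupOf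
        (Divisor.degZero (K := L) (F := laurentBaseChange L (modularFunctionFieldFull N))) := by
    rw [← QuotientAddGroup.eq_zero_iff]
    exact hx
  rw [AddSubgroup.mem_addSubgroupOf, AddSubgroupClass.coe_nsmul] at h0
  exact h0

end Torsion

section Main

variable {N : ℕ} [NeZero N] {A : ValuationSubring (AlgebraicClosure ℚ)} {ℓ : ℕ} [NeZero ℓ]
  {σ₀ : AlgebraicClosure ℚ ≃ₐ[ℚ] AlgebraicClosure ℚ}

/-- the reduction map on `J₀(N)` attached to a `PlaceRed` -/
def PlaceRed.red (D : PlaceRed N A ℓ σ₀) : JZero N →+ JZeroC (IsLocalRing.ResidueField A) N :=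
  reductionPic0Along D.r D.isRed D.gen

theorem PlaceRed.red_mk (D : PlaceRed N A ℓ σ₀)
    (E : Divisor.degZero (K := AlgebraicClosure ℚ) (F := modularFunctionFieldBar N)) :
    D.red (Pic0.mk E) = Pic0.mk (reductionDegZeroAlong D.r D.isRed.1 E) := rfl

theorem PlaceRed.reductionInputs (D : PlaceRed N A ℓ σ₀) : ReductionInputsModL A N :=
  ⟨D.r, D.isRed, D.gen⟩

/-- on torsion classes `D.red` is the Prelude reduction map -/
theorem PlaceRed.red_eq_reductionModL (D : PlaceRed N A ℓ σ₀) {m : ℕ} (hm : m ≠ 0)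
    {x : JZero N} (hx : m • x = 0) : D.red x = reductionModL A N x := by
  have h := D.reductionInputs
  show reductionPic0Along D.r D.isRed D.gen x = reductionAlong A (IsLocalRing.residue A) N x
  rw [reductionAlong_eq h]
  exact reductionPic0Along_eq_of_nsmul_eq_zero D.isRed h.choose_spec.1 D.gen hm hx

/-- inertia acts trivially after reduction -/
theorem PlaceRed.red_inertia (D : PlaceRed N A ℓ σ₀)
    {τ : AlgebraicClosure ℚ ≃ₐ[ℚ] AlgebraicClosure ℚ} (hτ : τ ∈ A.inertiaSubgroupIn ℚ)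
    (x : JZero N) : D.red (τ • x) = D.red x := by
  obtain ⟨E, rfl⟩ := Pic0.mk_surjective x
  rw [galois_smul_pic0_def, SemilinearAut.pic0_smul_mk, D.red_mk, D.red_mk]
  congr 1
  apply Subtype.ext
  rw [coe_reductionDegZeroAlong, coe_reductionDegZeroAlong, SemilinearAut.coe_degZeroSMulHom,
    SemilinearAut.divisor_smul_def, ← Finsupp.mapDomain_comp]
  congr 1
  funext P
  exact D.inertia τ hτ P

/-- injectivity on prime-to-`ℓ` torsion, from the conclusion of S18 -/
theorem PlaceRed.red_inj_torsion (D : PlaceRed N A ℓ σ₀) (hS18 : InjTorsionModL N ℓ A)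
    {m : ℕ} (hm : ¬ ℓ ∣ m) {x : JZero N} (hx : m • x = 0) (h0 : D.red x = 0) : x = 0 := by
  have hm0 : m ≠ 0 := fun h => hm (h ▸ dvd_zero ℓ)
  refine hS18 D.reductionInputs m hm x hx ?_
  rw [← D.red_eq_reductionModL hm0 hx]
  exact h0

/-- the Eichler-Shimura relation on divisors -/
theorem PlaceRed.mapDomain_relation (D : PlaceRed N A ℓ σ₀)
    (hα : HeckeAlphaBarIntegral (AlgebraicClosure ℚ) N ℓ)
    (hβ : HeckeBetaBarIntegral (AlgebraicClosure ℚ) N ℓ)
    [HasPrincipalDivisors (AlgebraicClosure ℚ) (modularFunctionFieldBar (N * ℓ))]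
    (E : Divisor (AlgebraicClosure ℚ) (modularFunctionFieldBar N)) :
    Finsupp.mapDomain D.r
      (arithmeticGalois (modularFunctionFieldFull N) σ₀ •
          arithmeticGalois (modularFunctionFieldFull N) σ₀ • E -
        heckeDivBar hα hβ (arithmeticGalois (modularFunctionFieldFull N) σ₀ • E) +
        ℓ • E) = 0 := by
  set g := arithmeticGalois (modularFunctionFieldFull N) σ₀ with hg
  let Ψ : Divisor (AlgebraicClosure ℚ) (modularFunctionFieldBar N) →+
      Divisor (IsLocalRing.ResidueField A)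
        (modularFunctionFieldFullC (IsLocalRing.ResidueField A) N) :=
    (Finsupp.mapDomain.addMonoidHom D.r).comp
      ((DistribSMul.toAddMonoidHom _ g).comp (DistribSMul.toAddMonoidHom _ g) -
        (heckeDivBar hα hβ).comp (DistribSMul.toAddMonoidHom _ g) +
        ℓ • AddMonoidHom.id _)
  have hΨ : Ψ = 0 := by
    refine Finsupp.addHom_ext' fun P => ?_
    refine AddMonoidHom.ext_int ?_
    show Finsupp.mapDomain D.r (g • g • Finsupp.single P 1 -
      heckeDivBar hα hβ (g • Finsupp.single P 1) + ℓ • Finsupp.single P 1) = 0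
    rw [SemilinearAut.smul_single, SemilinearAut.smul_single, Finsupp.mapDomain_add,
      Finsupp.mapDomain_sub, D.es hα hβ (g • P), inv_smul_smul, Finsupp.mapDomain_single,
      Finsupp.smul_single, Finsupp.mapDomain_single, nsmul_eq_mul, mul_one]
    abel
  exact DFunLike.congr_fun hΨ E

end Main

end Fermat.Agent.S37.Core

end
end
-- ===== PACK-END S37/Core/PlaceRed.lean

-- ===== PACK-BEGIN S37/Core/Assemble.lean
section


/-!
# S37 row (helper37): assembly

`result_of_pieces` : the frozen statement S37 from the three top-level pieces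
* `hHIA`  : `HeckeInputsAlong ℚ̄ N ℓ` (so that the Prelude `T_ℓ` is the honest correspondence),
* `hS18`  : the conclusion of the frozen statement S18,
* `hPR`   : a `PlaceRed N A ℓ σ₀` for every Frobenius element `σ₀` at `A`.
Fully proved.
-/

set_option autoImplicit false
set_option synthInstance.maxHeartbeats 400000

noncomputable section

namespace Fermat.Agent.S37.Core

open ModularCurve ValuationSubring AlgebraicCurve HahnSeries Fermat.Agent.S37.H99

section Main

variable {N : ℕ} [NeZero N] {A : ValuationSubring (AlgebraicClosure ℚ)} {ℓ : ℕ} [NeZero ℓ]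
  {σ₀ : AlgebraicClosure ℚ ≃ₐ[ℚ] AlgebraicClosure ℚ}

/-- the Eichler-Shimura relation after reduction -/
theorem PlaceRed.red_relation (D : PlaceRed N A ℓ σ₀)
    (HIA : HeckeInputsAlong (AlgebraicClosure ℚ) N ℓ) (x : JZero N) :
    D.red (σ₀ • σ₀ • x - heckeOperatorAlong (AlgebraicClosure ℚ) N ℓ (σ₀ • x) + ℓ • x) = 0 := by
  obtain ⟨hα, hβ, hP, hfin, hFI, hN⟩ := HIA
  haveI := hP
  rw [heckeOperatorAlong_eq hα hβ hFI hfin hN]
  obtain ⟨E, rfl⟩ := Pic0.mk_surjective x
  set g := arithmeticGalois (modularFunctionFieldFull N) σ₀ with hg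
  have e1 : σ₀ • σ₀ • Pic0.mk E - heckePic0Bar hα hβ hFI hfin hN (σ₀ • Pic0.mk E) + ℓ • Pic0.mk E
      = Pic0.mk (SemilinearAut.degZeroSMulHom g (SemilinearAut.degZeroSMulHom g E) -
          Pic0.degZeroCorrespondence (heckeBetaBar (AlgebraicClosure ℚ) N ℓ)
            (heckeAlphaBar (AlgebraicClosure ℚ) N ℓ) hβ hα hFI (SemilinearAut.degZeroSMulHom g E) +
          ℓ • E) := rfl
  rw [e1, D.red_mk]
  have e2 : reductionDegZeroAlong D.r D.isRed.1
      (SemilinearAut.degZeroSMulHom g (SemilinearAut.degZeroSMulHom g E) -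
          Pic0.degZeroCorrespondence (heckeBetaBar (AlgebraicClosure ℚ) N ℓ)
            (heckeAlphaBar (AlgebraicClosure ℚ) N ℓ) hβ hα hFI (SemilinearAut.degZeroSMulHom g E) +
          ℓ • E) = 0 := by
    apply Subtype.ext
    rw [coe_reductionDegZeroAlong]
    exact D.mapDomain_relation hα hβ (E : Divisor (AlgebraicClosure ℚ) (modularFunctionFieldBar N))
  rw [e2]
  rfl

end Main

/-- **S37 at one place from the pieces.** -/
theorem isWeakRed_of_placeRed (N p : ℕ) [NeZero N] (hcomm : HeckeOperatorsCommuteBar N)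
    (A : ValuationSubring (AlgebraicClosure ℚ)) (ℓ : ℕ) (hℓ : ℓ.Prime) (hℓp : ¬ ℓ ∣ p)
    (σ₀ : AlgebraicClosure ℚ ≃ₐ[ℚ] AlgebraicClosure ℚ) (hσ₀ : A.IsFrobeniusAt σ₀ ℓ)
    (HIA : haveI : NeZero ℓ := ⟨hℓ.ne_zero⟩; HeckeInputsAlong (AlgebraicClosure ℚ) N ℓ)
    (hS18 : InjTorsionModL N ℓ A)
    (D : haveI : NeZero ℓ := ⟨hℓ.ne_zero⟩; PlaceRed N A ℓ σ₀) :
    letI := heckeModuleBar N
    ∀ (_ : SMulCommClass (AlgebraicClosure ℚ ≃ₐ[ℚ] AlgebraicClosure ℚ) HeckeAlg (JZero N)),
      IsWeakRed (K := ℚ) p (JZero N) A ℓ hℓ σ₀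
        (haveI : NeZero ℓ := ⟨hℓ.ne_zero⟩; D.red) := by
  letI := heckeModuleBar N
  haveI : NeZero ℓ := ⟨hℓ.ne_zero⟩
  intro _
  refine ⟨hσ₀, fun τ hτ x => D.red_inertia hτ x, ?_, ?_⟩
  · rintro x ⟨n, hn⟩ hx
    refine D.red_inj_torsion hS18 (m := p ^ n) ?_ hn hx
    exact fun h => hℓp (hℓ.dvd_of_dvd_pow h)
  · intro x
    have h := D.red_relation HIA x
    rw [heckeModuleBar_heckeGen_smul hcomm ⟨ℓ, hℓ⟩ (σ₀ • x)]
    exact h

/-- **S37 from the three top-level pieces.** -/
theorem result_of_pieces (N p : ℕ) [NeZero N]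
    (hHIA : ∀ (ℓ : ℕ) (hℓ : ℓ.Prime), ¬ ℓ ∣ N →
      haveI : NeZero ℓ := ⟨hℓ.ne_zero⟩; HeckeInputsAlong (AlgebraicClosure ℚ) N ℓ)
    (hS18 : ∀ (ℓ : ℕ), ℓ.Prime → ¬ ℓ ∣ N →
      ∀ A : ValuationSubring (AlgebraicClosure ℚ), A.LiesOverPrime ℓ → InjTorsionModL N ℓ A)
    (hPR : ∀ (ℓ : ℕ) (hℓ : ℓ.Prime), ¬ ℓ ∣ N →
      ∀ A : ValuationSubring (AlgebraicClosure ℚ), A.LiesOverPrime ℓ →
        ∀ σ₀ : AlgebraicClosure ℚ ≃ₐ[ℚ] AlgebraicClosure ℚ, A.IsFrobeniusAt σ₀ ℓ →
          haveI : NeZero ℓ := ⟨hℓ.ne_zero⟩; Nonempty (PlaceRed N A ℓ σ₀))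
    (hcomm : ModularCurve.HeckeOperatorsCommuteBar N) :
    letI := ModularCurve.heckeModuleBar N
    ∀ (_ : SMulCommClass (AlgebraicClosure ℚ ≃ₐ[ℚ] AlgebraicClosure ℚ) ModularCurve.HeckeAlg
      (ModularCurve.JZero N)),
      ModularCurve.SpecializationExists (K := ℚ) (L := AlgebraicClosure ℚ) N p
        (ModularCurve.JZero N) := by
  letI := ModularCurve.heckeModuleBar N
  intro inst
  intro ℓ hℓ hdvd A hA
  have hℓN : ¬ ℓ ∣ N := fun h => hdvd (Dvd.dvd.mul_right h p)
  have hℓp : ¬ ℓ ∣ p := fun h => hdvd (Dvd.dvd.mul_left h N)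
  obtain ⟨σ₀, hσ₀⟩ := exists_isFrobeniusAt ℓ hℓ A hA
  haveI : NeZero ℓ := ⟨hℓ.ne_zero⟩
  obtain ⟨D⟩ := hPR ℓ hℓ hℓN A hA σ₀ hσ₀
  exact exists_specialization_of_isWeakRed p A ℓ hℓ σ₀ D.red
    (isWeakRed_of_placeRed N p hcomm A ℓ hℓ hℓp σ₀ hσ₀ (hHIA ℓ hℓ hℓN) (hS18 ℓ hℓ hℓN A hA) D inst)

end Fermat.Agent.S37.Core

end
end
-- ===== PACK-END S37/Core/Assemble.lean

-- ===== PACK-BEGIN S37/H99/Glue.lean
section


/-!
# S37 (helper99): the frozen statement S37 from reduction data (R1, final glue)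

`RedData N A ℓ hℓ` is the ONLY thing left to construct: an additive map `red` from
`JZero N = Pic⁰(ℚ̄(X₀(N)))` to an arbitrary additive group such that
* inertia at `A` acts trivially after `red`,
* Frobenius elements at `A` preserve `ker red`,
* `red` is injective on torsion of order prime to `ℓ`,
* (Eichler–Shimura) `red (σ²x - T_ℓ σ x + ℓ x) = 0` for Frobenius elements `σ` at `A`.
No Hecke-module structure on the target is needed.
-/

set_option autoImplicit false

noncomputable section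

namespace Fermat.Agent.S37.H99

open ModularCurve ValuationSubring

/-- Reduction data for `J₀(N)` at a valuation subring `A` of `ℚ̄` over the prime `ℓ`. -/
structure RedData (N : ℕ) [NeZero N] (A : ValuationSubring (AlgebraicClosure ℚ)) (ℓ : ℕ)
    (hℓ : ℓ.Prime) where
  /-- the target group (e.g. divisor classes on the special fibre) -/
  Y : Type
  /-- additive group structure on the target -/
  instY : AddCommGroup Y
  /-- the reduction map -/
  red : JZero N →+ Y
  inertia : ∀ τ ∈ A.inertiaSubgroupIn ℚ, ∀ x : JZero N, red (τ • x) = red x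
  frob_ker : ∀ σ : AlgebraicClosure ℚ ≃ₐ[ℚ] AlgebraicClosure ℚ, A.IsFrobeniusAt σ ℓ →
    ∀ x : JZero N, red x = 0 → red (σ • x) = 0
  inj_torsion : ∀ (m : ℕ) (x : JZero N), m.Coprime ℓ → m • x = 0 → red x = 0 → x = 0
  relation : ∀ σ : AlgebraicClosure ℚ ≃ₐ[ℚ] AlgebraicClosure ℚ, A.IsFrobeniusAt σ ℓ →
    ∀ x : JZero N, red (σ • σ • x - heckeOperatorBar N ⟨ℓ, hℓ⟩ (σ • x) + ℓ • x) = 0

attribute [instance] RedData.instY

/-- **S37 from reduction data.**  Same binders and conclusion as the frozen statement, plus the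
hypothesis `H`. -/
theorem result_of_redData (N p : ℕ) [NeZero N]
    (H : ∀ ℓ : ℕ, (hℓ : ℓ.Prime) → ¬ ℓ ∣ N →
      ∀ A : ValuationSubring (AlgebraicClosure ℚ), A.LiesOverPrime ℓ →
        Nonempty (RedData N A ℓ hℓ))
    (hcomm : ModularCurve.HeckeOperatorsCommuteBar N) :
    letI := ModularCurve.heckeModuleBar N
    ∀ (_ : SMulCommClass (AlgebraicClosure ℚ ≃ₐ[ℚ] AlgebraicClosure ℚ) ModularCurve.HeckeAlg
      (ModularCurve.JZero N)),
      ModularCurve.SpecializationExists (K := ℚ) (L := AlgebraicClosure ℚ) N p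
        (ModularCurve.JZero N) := by
  letI := ModularCurve.heckeModuleBar N
  intro _
  refine specializationExists_of_isRed N p (JZero N) ?_
  intro ℓ hℓ hdvd A hA
  have hℓN : ¬ ℓ ∣ N := fun h => hdvd (Dvd.dvd.mul_right h p)
  have hℓp : ¬ ℓ ∣ p := fun h => hdvd (Dvd.dvd.mul_left h N)
  obtain ⟨D⟩ := H ℓ hℓ hℓN A hA
  refine ⟨D.Y, D.instY, D.red, ⟨D.inertia, D.frob_ker, ?_, ?_⟩⟩
  · rintro x ⟨n, hn⟩ hx
    refine D.inj_torsion (p ^ n) x ?_ hn hx
    exact Nat.Coprime.pow_left n ((Nat.coprime_comm.mp ((Nat.Prime.coprime_iff_not_dvd hℓ).mpr hℓp)))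
  · intro σ hσ x
    have h := D.relation σ hσ x
    rwa [← heckeModuleBar_heckeGen_smul hcomm ⟨ℓ, hℓ⟩ (σ • x)] at h

end Fermat.Agent.S37.H99

end
end
-- ===== PACK-END S37/H99/Glue.lean

-- ===== PACK-BEGIN S37/H155/PullAbstract.lean
section
/-
S37 / [PULL] (helper155), abstract part.

For embeddings of function fields (Prelude language `Place`, `Divisor`, `Pic0`, `…Along`):

* `hasLocalGenerators`            : `H818.HasLocalGenerators` always holds (weak approximation);
* `normCompat_of_span`            : `H818.NormCompat` for a square with equal degrees in which the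
                                    image of `F₁` spans `G₁` over `G` (basis transport);
* `pullbackPic0Along_smul`        : `π^*` is equivariant for intertwined semilinear automorphisms;
* `pushforwardAlong_pullbackAlong`: `π_* π^* D = [G : F] • D`;
* `pullbackPic0Along_eq_zero`     : `π^*` is injective on torsion prime to `[G : F]`.
-/






set_option autoImplicit false
set_option linter.style.haveILetI false

noncomputable section

namespace Fermat.Agent.S37.H155

open AlgebraicCurve Fermat.Agent.S37.H818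

variable {K F F₁ G G₁ : Type*} [Field K] [Field F] [Field F₁] [Field G] [Field G₁]
  [Algebra K F] [Algebra K F₁] [Algebra K G] [Algebra K G₁]

/-! ### Local generators -/

/-- Local generators always exist, by the weak approximation theorem. -/
theorem hasLocalGenerators [HasPrincipalDivisors K F₁] (a : F →ₐ[K] F₁)
    (ha : a.toRingHom.IsIntegral) : HasLocalGenerators a ha := by
  classical
  intro w
  obtain ⟨z, hz⟩ := Fermat.Agent.Lib.RR.H623.weak_approximation
    (Place.fiberAlong a ha (w.restrictAlong a ha)) (fun _ => (0 : F₁))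
    (fun v => if v = w then 1 else 0)
  have hw := hz w (Place.mem_fiberAlong.mpr rfl)
  refine ⟨z, ?_, ?_, ?_⟩
  · simpa using hw.1
  · have h2 := hw.2
    simp only [sub_zero, if_true] at h2
    rw [h2]
    exact one_ne_zero
  · intro w' hne hw'
    have h2 := (hz w' (Place.mem_fiberAlong.mpr hw')).2
    simpa [hne] using h2

/-! ### Norm compatibility -/

/-- **Norm compatibility by basis transport.**  In a commutative square with
`[G₁ : G] = [F₁ : F] < ∞` in which the image of `F₁` spans `G₁` over `G`, norms are compatible. -/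
theorem normCompat_of_span (a : F →ₐ[K] F₁) (i : F →ₐ[K] G) (a' : G →ₐ[K] G₁)
    (i₁ : F₁ →ₐ[K] G₁) (hsq : i₁.comp a = a'.comp i)
    (hfin : FiniteAlong K a)
    (hdeg : finrankAlong K a' = finrankAlong K a)
    (hspan : ∀ g : G₁, g ∈ (letI := algebraAlong a'; Submodule.span G (Set.range i₁))) :
    NormCompat a i a' i₁ := by
  letI := algebraAlong a
  letI := algebraAlong a'
  haveI : Module.Finite F F₁ := hfin
  intro f
  show Algebra.norm G (i₁ f) = i (Algebra.norm F f)
  let b := Module.finBasis F F₁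
  have hsq' : ∀ c : F, i₁ (algebraMap F F₁ c) = algebraMap G G₁ (i c) := fun c =>
    congrArg (fun φ : F →ₐ[K] G₁ => φ c) hsq
  have hmap : ∀ y : F₁, i₁ y = ∑ r, (i (b.repr y r)) • i₁ (b r) := by
    intro y
    conv_lhs => rw [← b.sum_repr y]
    rw [map_sum]
    refine Finset.sum_congr rfl fun r _ => ?_
    rw [Algebra.smul_def, map_mul, hsq', Algebra.smul_def]
  have hspan' : ⊤ ≤ Submodule.span G (Set.range (fun r => i₁ (b r))) := by
    intro g _
    have hg := hspan g
    refine Submodule.span_le.mpr ?_ hg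
    rintro _ ⟨y, rfl⟩
    rw [SetLike.mem_coe, hmap y]
    exact Submodule.sum_mem _ fun r _ =>
      Submodule.smul_mem _ _ (Submodule.subset_span ⟨r, rfl⟩)
  have hcard : Fintype.card (Fin (Module.finrank F F₁)) = Module.finrank G G₁ := by
    rw [Fintype.card_fin]
    exact hdeg.symm
  let b' : Module.Basis (Fin (Module.finrank F F₁)) G G₁ :=
    basisOfTopLeSpanOfCardEqFinrank (fun r => i₁ (b r)) hspan' hcard
  have hb' : ∀ r, b' r = i₁ (b r) := fun r => by
    simp only [b', coe_basisOfTopLeSpanOfCardEqFinrank]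
  have hrepr : ∀ (y : F₁) (r : Fin (Module.finrank F F₁)),
      b'.repr (i₁ y) r = i (b.repr y r) := by
    intro y r
    have h1 : i₁ y = ∑ r, (i (b.repr y r)) • b' r := by
      rw [hmap y]
      exact Finset.sum_congr rfl fun r _ => by rw [hb']
    rw [h1, map_sum, Finsupp.finsetSum_apply]
    simp only [map_smul, Module.Basis.repr_self, Finsupp.smul_single, smul_eq_mul, mul_one,
      Finsupp.single_apply]
    rw [Finset.sum_ite_eq' Finset.univ r]
    simp
  rw [Algebra.norm_eq_matrix_det b', Algebra.norm_eq_matrix_det b]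
  have hdet := RingHom.map_det (i : F →+* G) (Algebra.leftMulMatrix b f)
  rw [show (i (Algebra.leftMulMatrix b f).det : G)
    = (i : F →+* G) (Algebra.leftMulMatrix b f).det from rfl, hdet]
  congr 1
  ext r c
  rw [Algebra.leftMulMatrix_eq_repr_mul, RingHom.mapMatrix_apply, Matrix.map_apply,
    Algebra.leftMulMatrix_eq_repr_mul, hb', ← map_mul, hrepr]
  rfl

/-! ### Galois equivariance -/

/-- `π^*` on `Pic0` is equivariant for intertwined semilinear automorphisms. -/
theorem pullbackPic0Along_smul [HasPrincipalDivisors K G] (i : F →ₐ[K] G)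
    (hi : i.toRingHom.IsIntegral) (hFI : FundamentalIdentityAlong K i hi)
    {g : SemilinearAut K F} {g' : SemilinearAut K G}
    (h : SemilinearAut.IntertwinesAlong (i : F →+* G) g g') (x : Pic0 K F) :
    pullbackPic0Along i hi hFI (g • x) = g' • pullbackPic0Along i hi hFI x := by
  obtain ⟨D, rfl⟩ := Pic0.mk_surjective x
  rw [SemilinearAut.pic0_smul_mk, pullbackPic0Along_mk, pullbackPic0Along_mk,
    SemilinearAut.pic0_smul_mk]
  refine congrArg Pic0.mk (Subtype.ext ?_)
  rw [coe_pullbackDegZeroAlong, SemilinearAut.coe_degZeroSMulHom,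
    SemilinearAut.coe_degZeroSMulHom, coe_pullbackDegZeroAlong]
  exact Fermat.Agent.S29.H571.pullbackAlong_smul i hi h (D : Divisor K F)

/-! ### `π_* π^* = deg` -/

/-- The sum formula `∑ e f = n` along a homomorphism. -/
def SumRamificationInertiaAlong [HasPrincipalDivisors K G] (i : F →ₐ[K] G)
    (hi : i.toRingHom.IsIntegral) : Prop :=
  letI := algebraAlong i
  haveI := isScalarTower_along i
  haveI := isIntegral_along i hi
  SumRamificationInertia K F G

section Instance

variable [Algebra F G] [IsScalarTower K F G] [Algebra.IsIntegral F G] [HasPrincipalDivisors K G]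

theorem pushforward_pullback [SumRamificationInertia K F G] (D : Divisor K F) :
    Divisor.pushforward F (Divisor.pullback G D) = (Module.finrank F G : ℤ) • D := by
  classical
  induction D using Finsupp.induction with
  | zero => simp
  | single_add v n D _ _ ih =>
    rw [map_add, map_add, ih, smul_add]
    congr 1
    rw [Divisor.pullback_single, map_sum]
    have h1 : ∀ w ∈ v.fiber G, Divisor.pushforward F
        (Finsupp.single w (n * (w.ramificationIndex F : ℤ)))
        = Finsupp.single v (n * ((w.ramificationIndex F : ℤ) * (w.inertiaDeg F : ℤ))) := by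
      intro w hw
      rw [Divisor.pushforward_single, Place.mem_fiber.mp hw, mul_assoc]
    rw [Finset.sum_congr rfl h1, ← Finsupp.single_finsetSum, ← Finset.mul_sum,
      SumRamificationInertia.sum_ramificationIndex_mul_inertiaDeg (K := K) (F := F) (F' := G) v,
      Finsupp.smul_single, smul_eq_mul, mul_comm]

end Instance

/-- `π_* π^* D = [G : F] • D`. -/
theorem pushforwardAlong_pullbackAlong [HasPrincipalDivisors K G] (i : F →ₐ[K] G)
    (hi : i.toRingHom.IsIntegral) (hS : SumRamificationInertiaAlong i hi) (D : Divisor K F) :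
    Divisor.pushforwardAlong i hi (Divisor.pullbackAlong i hi D)
      = (finrankAlong K i : ℤ) • D := by
  letI := algebraAlong i
  haveI := isScalarTower_along i
  haveI := isIntegral_along i hi
  haveI : SumRamificationInertia K F G := hS
  exact pushforward_pullback D

/-! ### Injectivity on torsion -/

theorem mk_eq_zero_iff (D : Divisor.degZero (K := K) (F := F)) :
    Pic0.mk D = 0 ↔ (D : Divisor K F) ∈ Divisor.principal (K := K) (F := F) := by
  unfold Pic0.mk
  rw [QuotientAddGroup.eq_zero_iff, AddSubgroup.mem_addSubgroupOf]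

/-- **`π^*` is injective on torsion prime to the degree.** -/
theorem pullbackPic0Along_eq_zero [HasPrincipalDivisors K G] (i : F →ₐ[K] G)
    (hi : i.toRingHom.IsIntegral) (hFI : FundamentalIdentityAlong K i hi)
    (hS : SumRamificationInertiaAlong i hi)
    (hfin : FiniteAlong K i) (hN : NormFormulaAlong K i hfin)
    (m : ℕ) (hcop : Nat.Coprime m (finrankAlong K i)) (x : Pic0 K F) (hm : m • x = 0)
    (hx : pullbackPic0Along i hi hFI x = 0) : x = 0 := by
  obtain ⟨D, rfl⟩ := Pic0.mk_surjective x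
  rw [pullbackPic0Along_mk, mk_eq_zero_iff, coe_pullbackDegZeroAlong] at hx
  have h1 : (finrankAlong K i : ℤ) • (D : Divisor K F) ∈ Divisor.principal (K := K) (F := F) := by
    rw [← pushforwardAlong_pullbackAlong i hi hS]
    exact Divisor.isPrincipal_pushforwardAlong i hi hfin hN hx
  have h2 : (m : ℤ) • (D : Divisor K F) ∈ Divisor.principal (K := K) (F := F) := by
    have h3 : Pic0.mk (m • D) = 0 := hm
    rw [mk_eq_zero_iff] at h3
    rw [natCast_zsmul]
    exact h3
  rw [mk_eq_zero_iff]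
  have hb := Int.gcd_eq_gcd_ab (m : ℤ) (finrankAlong K i : ℤ)
  have hg : ((Int.gcd (m : ℤ) (finrankAlong K i : ℤ) : ℕ) : ℤ) = 1 := by
    rw [Int.gcd_natCast_natCast]
    exact_mod_cast hcop
  rw [hg] at hb
  have e : (D : Divisor K F)
      = Int.gcdA (m : ℤ) (finrankAlong K i : ℤ) • ((m : ℤ) • (D : Divisor K F))
        + Int.gcdB (m : ℤ) (finrankAlong K i : ℤ) • ((finrankAlong K i : ℤ) • (D : Divisor K F)) := by
    rw [smul_smul, smul_smul, ← add_smul, mul_comm _ (m : ℤ), mul_comm _ (finrankAlong K i : ℤ),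
      ← hb, one_smul]
  rw [e]
  exact add_mem (AddSubgroup.zsmul_mem _ h2 _) (AddSubgroup.zsmul_mem _ h1 _)

end Fermat.Agent.S37.H155

end

end
-- ===== PACK-END S37/H155/PullAbstract.lean

-- ===== PACK-BEGIN S35/G/H126/Stable.lean
section



/-!
# S35, piece (G') — leaves STABLE, COORD, FROB-RES (helper126)

Statements of `Fermat/Agent/S35/G/SpecLevel.lean`, verbatim:

* `stable   : StableStatement A E`      — an element of the decomposition group of `A` stabilising
  `E` commutes with the Fricke involution and preserves the Gauss valuation ring `V∞`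
  (`A2.Mod.H549.fricke_comm`, `A2.Mod.H549.isGaussInt_coeffMap`);
* `coord    : CoordStatement E M q`     — `x = j · j_q` is fixed by the action on the coefficients;
* `frobRes  : FrobResStatement A E q`   — `s²` induces on `R_E = A ∩ E` an automorphism which is
  `r ↦ r ^ (q ^ 2)` modulo the maximal ideal.
-/

set_option autoImplicit false
set_option linter.unusedSectionVars false
set_option synthInstance.maxHeartbeats 400000
set_option maxHeartbeats 1600000

noncomputable section

namespace Fermat.Agent.S35.G.H126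

open ModularCurve HahnSeries Fermat.Agent.A2

/-! ## STABLE -/

/-- The restriction `resE` is the restriction. -/
theorem coe_resE (E : IntermediateField ℚ A2.Mod.Qb) (s : A2.Mod.Qb ≃ₐ[ℚ] A2.Mod.Qb)
    (hs : StableUnder E s) (e : E) :
    ((A2.Mod.resE E s hs e : E) : A2.Mod.Qb) = s (e : A2.Mod.Qb) := rfl

/-- An element of the decomposition group stabilising `E` preserves `R_E = A ∩ E`. -/
theorem resE_mem_RE (A : ValuationSubring A2.Mod.Qb) (E : IntermediateField ℚ A2.Mod.Qb)
    (s : A2.Mod.Qb ≃ₐ[ℚ] A2.Mod.Qb) (hs : StableUnder E s)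
    (hsD : s ∈ A.decompositionSubgroup ℚ) (a : E) (ha : a ∈ A2.Mod.RE A E) :
    A2.Mod.resE E s hs a ∈ A2.Mod.RE A E := by
  rw [ValuationSubring.mem_comap] at ha ⊢
  exact H708.apply_mem_of_mem_decomposition A hsD ha

/-- ... and reflects it. -/
theorem mem_RE_of_resE_mem (A : ValuationSubring A2.Mod.Qb) (E : IntermediateField ℚ A2.Mod.Qb)
    (s : A2.Mod.Qb ≃ₐ[ℚ] A2.Mod.Qb) (hs : StableUnder E s)
    (hsD : s ∈ A.decompositionSubgroup ℚ) (a : E) (ha : A2.Mod.resE E s hs a ∈ A2.Mod.RE A E) :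
    a ∈ A2.Mod.RE A E := by
  rw [ValuationSubring.mem_comap] at ha ⊢
  exact H708.mem_of_apply_mem_of_mem_decomposition A hsD ha

/-- **STABLE.** -/
theorem stable (A : ValuationSubring A2.Mod.Qb) (E : IntermediateField ℚ A2.Mod.Qb) :
    StableStatement A E := by
  intro N hN _hdvr V W hV hW s hs hsD
  constructor
  · -- `σ W = W σ`
    refine A2.Mod.H549.fricke_comm N (W : _ →+* _) (fun c => W.commutes c)
      (A2.Mod.resE E s hs) ?_
    intro d hne hd
    obtain ⟨d', hd'⟩ := hd
    have hd'0 : d' ≠ 0 := by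
      rintro rfl
      exact hN (by rw [hd', mul_zero])
    have : NeZero d' := ⟨hd'0⟩
    have hdN : d ∣ N := ⟨d', hd'⟩
    have hd'N : d' ∣ N := ⟨d, by rw [hd', mul_comm]⟩
    show W (A2.Mod.jE E N d hdN) ∈ A2.Mod.H549.fixSub N (A2.Mod.resE E s hs)
    rw [hW.1 d d' hdN hd'N hd'.symm, A2.Mod.H549.mem_fixSub]
    exact Subtype.ext (coeffMap_coeffEmb (A2.Mod.resE E s hs) _)
  · -- `σ V∞ ⊆ V∞`
    intro f hf
    exact (hV _).mpr
      (A2.Mod.H549.isGaussInt_coeffMap (F₀ := modularFunctionFieldFull N) (A2.Mod.resE E s hs)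
        (resE_mem_RE A E s hs hsD) ((hV f).mp hf))

/-! ## COORD -/

/-- the generators `j_d` are fixed by the action on the coefficients -/
theorem actE_jE (E : IntermediateField ℚ A2.Mod.Qb) (N : ℕ) (t : E ≃ₐ[ℚ] E) (d : ℕ) [NeZero d]
    (hd : d ∣ N) : actE E N t (A2.Mod.jE E N d hd) = A2.Mod.jE E N d hd :=
  Subtype.ext (coeffMap_coeffEmb t _)

/-- **COORD.** -/
theorem coord (E : IntermediateField ℚ A2.Mod.Qb) (M q : ℕ) [NeZero M] [NeZero q] :
    CoordStatement E M q := by
  intro t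
  rw [A2.Mod.xE, map_mul, actE_jE, actE_jE]

/-! ## FROB-RES -/

/-- A Frobenius element is the `q`-th power map on the residue field (elementwise form). -/
theorem frob_sub_pow_mem_nonunits (A : ValuationSubring A2.Mod.Qb) {q : ℕ}
    {s : A2.Mod.Qb ≃ₐ[ℚ] A2.Mod.Qb} (hF : A.IsFrobeniusAt s q) {z : A2.Mod.Qb} (hz : z ∈ A) :
    s z - z ^ q ∈ A.nonunits := by
  obtain ⟨hσD, hF⟩ := hF
  have h2 := hF (IsLocalRing.residue A ⟨z, hz⟩)
  rw [← IsLocalRing.ResidueField.residue_smul, ← map_pow] at h2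
  have h3 : ((⟨s, hσD⟩ : A.decompositionSubgroup ℚ) • (⟨z, hz⟩ : A)) - (⟨z, hz⟩ : A) ^ q
      ∈ IsLocalRing.maximalIdeal A := by
    rw [← Ideal.Quotient.eq]
    exact h2
  rw [← ValuationSubring.coe_mem_nonunits_iff] at h3
  exact h3

/-- `s² z ≡ z ^ (q²)`. -/
theorem frob_sq_sub_pow_mem_nonunits (A : ValuationSubring A2.Mod.Qb) {q : ℕ}
    {s : A2.Mod.Qb ≃ₐ[ℚ] A2.Mod.Qb} (hF : A.IsFrobeniusAt s q) {z : A2.Mod.Qb} (hz : z ∈ A) :
    s (s z) - z ^ (q ^ 2) ∈ A.nonunits := by
  have hsz : s z ∈ A := H708.apply_mem_of_mem_decomposition A hF.mem_decompositionSubgroup hz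
  have h1 := frob_sub_pow_mem_nonunits A hF hsz
  have h2 := frob_sub_pow_mem_nonunits A hF hz
  -- work in `A`
  have e1 : (⟨s (s z), H708.apply_mem_of_mem_decomposition A hF.mem_decompositionSubgroup hsz⟩ : A)
      - (⟨s z, hsz⟩ : A) ^ q ∈ IsLocalRing.maximalIdeal A := by
    rw [← ValuationSubring.coe_mem_nonunits_iff]
    exact h1
  have e2 : (⟨s z, hsz⟩ : A) - (⟨z, hz⟩ : A) ^ q ∈ IsLocalRing.maximalIdeal A := by
    rw [← ValuationSubring.coe_mem_nonunits_iff]
    exact h2
  have e3 : (⟨s z, hsz⟩ : A) ^ q - ((⟨z, hz⟩ : A) ^ q) ^ q ∈ IsLocalRing.maximalIdeal A :=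
    Ideal.mem_of_dvd _ (sub_dvd_pow_sub_pow _ _ q) e2
  have e4 := add_mem e1 e3
  rw [sub_add_sub_cancel, ← pow_mul, ← sq, ← ValuationSubring.coe_mem_nonunits_iff] at e4
  exact e4

/-- **FROB-RES.** -/
theorem frobRes (A : ValuationSubring A2.Mod.Qb) (E : IntermediateField ℚ A2.Mod.Qb) (q : ℕ)
    [NeZero q] : FrobResStatement A E q := by
  intro _hA _hq s hs hF
  have hsD : s ∈ A.decompositionSubgroup ℚ := hF.mem_decompositionSubgroup
  -- the ring homomorphism induced by `s²` on `R_E`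
  let φ : A2.Mod.RE A E →+* A2.Mod.RE A E :=
    { toFun := fun r => ⟨(A2.Mod.resE E s hs * A2.Mod.resE E s hs) (r : E),
        resE_mem_RE A E s hs hsD _ (resE_mem_RE A E s hs hsD _ r.2)⟩
      map_one' := Subtype.ext (map_one _)
      map_mul' := fun a b => Subtype.ext (map_mul _ (a : E) (b : E))
      map_zero' := Subtype.ext (map_zero _)
      map_add' := fun a b => Subtype.ext (map_add _ (a : E) (b : E)) }
  have hφ : Function.Bijective φ := by
    constructor
    · intro a b hab
      have h := congrArg Subtype.val hab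
      exact Subtype.ext ((A2.Mod.resE E s hs * A2.Mod.resE E s hs).injective h)
    · intro b
      obtain ⟨a, ha⟩ := (A2.Mod.resE E s hs * A2.Mod.resE E s hs).surjective (b : E)
      have ha' : A2.Mod.resE E s hs (A2.Mod.resE E s hs a) = (b : E) := ha
      have hmem : a ∈ A2.Mod.RE A E := by
        apply mem_RE_of_resE_mem A E s hs hsD
        apply mem_RE_of_resE_mem A E s hs hsD
        rw [ha']
        exact b.2
      exact ⟨⟨a, hmem⟩, Subtype.ext ha⟩
  refine ⟨RingEquiv.ofBijective φ hφ, fun r => rfl, fun r => ?_⟩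
  rw [← ValuationSubring.coe_mem_nonunits_iff, A2.Mod.H549.mem_nonunits_comap]
  have hr : ((r : E) : A2.Mod.Qb) ∈ A := r.2
  have key := frob_sq_sub_pow_mem_nonunits A hF hr
  exact key

end Fermat.Agent.S35.G.H126

end

end
-- ===== PACK-END S35/G/H126/Stable.lean

-- ===== PACK-BEGIN S28/H208/Gcd.lean
section
/-
S28 [L4]: the gcd / generation lemma.  For distinct primes `p ≠ r` invertible in `k`,
`j(q^{pr}) ∈ k(j(q^r), j(q^p))`, because it is the unique common root of
`Φ_p(X, j(q^r))` and `Φ_r(X, j(q^p))`.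
-/





set_option autoImplicit false

noncomputable section

open ModularCurve Polynomial

namespace Fermat.Agent.S28.H208

section Gcd

variable (k : Type*) [Field k]

/-- The embedding `k((q)) → k̄((t))`, `q ↦ t^e`. -/
def iotaE (e : ℕ) [NeZero e] : LaurentSeries k →+* LaurentSeries (AlgebraicClosure k) :=
  (qExpand (AlgebraicClosure k) e).comp (coeffMap (algebraMap k (AlgebraicClosure k)))

theorem iotaE_jd (e : ℕ) [NeZero e] (d : ℕ) [NeZero d] :
    iotaE k e (qExpand k d (jqModC k)) =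
      qExpand (AlgebraicClosure k) (e * d) (jqModC (AlgebraicClosure k)) := by
  rw [iotaE, RingHom.comp_apply, coeffMap_qExpand, coeffMap_jqModC, qExpand_qExpand]

theorem iotaE_injective (e : ℕ) [NeZero e] : Function.Injective (iotaE k e) :=
  (iotaE k e).injective

variable {k}

theorem qExpand_coeff_neg_eq_zero_of_not_dvd {A : Type*} [CommRing A] (a b : ℕ) [NeZero a]
    (h : ¬ a ∣ b) (f : LaurentSeries A) : (qExpand A a f).coeff (-(b : ℤ)) = 0 := by
  apply qExpand_coeff_of_not_dvd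
  intro h'
  exact h (by exact_mod_cast (dvd_neg.mp h'))

theorem qExpand_rootAt_some_coeff {K : Type*} [Field K] {p : ℕ} [NeZero p] (ζ : K) (hζ : ζ ≠ 0)
    (m : ℕ) [NeZero m] (b : Fin p) :
    (qExpand K m (rootAt (p := p) ζ hζ (some b))).coeff (-(m : ℤ)) = (ζ ^ (b : ℕ))⁻¹ := by
  have h := qExpand_coeff_mul (R := K) m (rootAt (p := p) ζ hζ (some b)) (-1)
  rw [rootAt_some_coeff_neg_one, mul_neg, mul_one] at h
  exact h

theorem qExpand_rootAt_none {K : Type*} [Field K] {p : ℕ} [NeZero p] (ζ : K) (hζ : ζ ≠ 0)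
    (m : ℕ) [NeZero m] :
    qExpand K m (rootAt (p := p) ζ hζ none) = qExpand K (m * (p * p)) (jqModC K) := by
  show qExpand K m (qExpand K (p * p) (jqModC K)) = _
  rw [qExpand_qExpand]

/-- Key coprimality: the "new" roots of `Φ_p(X, j(t^{r²p}))` are not roots of
`Φ_r(X, j(t^{p²r}))`. -/
theorem gcd_core {K : Type*} [Field K] {p r : ℕ} [NeZero p] [NeZero r]
    (hp : p.Prime) (hr : r.Prime) (hpr : p ≠ r) (Dr : ModPolyData r)
    (ζp ζr : K) (hζp : IsPrimitiveRoot ζp p) (hζr : IsPrimitiveRoot ζr r) :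
    IsCoprime
      (∏ b : Fin p, (X - C (qExpand K (r * r) (rootAt ζp (hζp.ne_zero (NeZero.ne p)) (some b)))))
      (Dr.Φ.map (evZ (qExpand K (p * p * r) (jqModC K)))) := by
  have hζp0 : ζp ≠ 0 := hζp.ne_zero (NeZero.ne p)
  have hζr0 : ζr ≠ 0 := hζr.ne_zero (NeZero.ne r)
  rw [map_eq_prod_rootAt_qExpand Dr hr.one_lt ζr hζr (p * p)]
  refine IsCoprime.prod_left fun b _ => IsCoprime.prod_right fun i _ => ?_
  refine Polynomial.isCoprime_X_sub_C_of_isUnit_sub (IsUnit.mk0 _ (sub_ne_zero.mpr ?_))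
  intro heq
  have hc : (qExpand K (r * r) (rootAt ζp hζp0 (some b))).coeff (-((r * r : ℕ) : ℤ)) =
      (qExpand K (p * p) (rootAt ζr hζr0 i)).coeff (-((r * r : ℕ) : ℤ)) := by rw [heq]
  rw [qExpand_rootAt_some_coeff, qExpand_coeff_neg_eq_zero_of_not_dvd] at hc
  · exact inv_ne_zero (pow_ne_zero _ hζp0) hc
  · intro hdvd
    have h1 : p ∣ r * r := dvd_trans (dvd_mul_right p p) hdvd
    have h2 : p ∣ r := by
      rcases (Nat.Prime.dvd_mul hp).mp h1 with h | h <;> exact h
    exact hpr ((Nat.prime_dvd_prime_iff_eq hp hr).mp h2)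

end Gcd

section Main

variable (k : Type*) [Field k]

/-- **gcd lemma**: `j(q^{pr}) ∈ k(j(q^r), j(q^p))` for distinct primes `p, r` invertible
in `k`. -/
theorem jpr_mem_adjoin {p r : ℕ} [NeZero p] [NeZero r]
    (hp : p.Prime) (hr : r.Prime) (hpr : p ≠ r) (hpk : (p : k) ≠ 0) (hrk : (r : k) ≠ 0)
    (Dp : ModPolyData p) (Dr : ModPolyData r) :
    qExpand k (p * r) (jqModC k) ∈
      IntermediateField.adjoin k
        ({qExpand k r (jqModC k), qExpand k p (jqModC k)} : Set (LaurentSeries k)) := by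
  classical
  -- notation
  set E := IntermediateField.adjoin k
    ({qExpand k r (jqModC k), qExpand k p (jqModC k)} : Set (LaurentSeries k)) with hE
  set x : LaurentSeries k := qExpand k (p * r) (jqModC k) with hx
  have hr_mem : qExpand k r (jqModC k) ∈ E :=
    IntermediateField.subset_adjoin k _ (Set.mem_insert _ _)
  have hp_mem : qExpand k p (jqModC k) ∈ E :=
    IntermediateField.subset_adjoin k _ (Set.mem_insert_of_mem _ rfl)
  let yr : E := ⟨_, hr_mem⟩
  let yp : E := ⟨_, hp_mem⟩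
  let AE : Polynomial E := Dp.Φ.map (evZ yr)
  let BE : Polynomial E := Dr.Φ.map (evZ yp)
  have hAE_map : AE.map (algebraMap E (LaurentSeries k)) =
      Dp.Φ.map (evZ (qExpand k r (jqModC k))) := map_map_evZ _ _ _
  have hBE_map : BE.map (algebraMap E (LaurentSeries k)) =
      Dr.Φ.map (evZ (qExpand k p (jqModC k))) := map_map_evZ _ _ _
  have hAx : Polynomial.aeval x AE = 0 := by
    rw [Polynomial.aeval_def, ← Polynomial.eval_map, hAE_map, Polynomial.eval_map, hx,
      qExpand_congr (mul_comm p r)]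
    exact eval_jp_ring_qExpand k Dp r
  have hBx : Polynomial.aeval x BE = 0 := by
    rw [Polynomial.aeval_def, ← Polynomial.eval_map, hBE_map, Polynomial.eval_map, hx]
    exact eval_jp_ring_qExpand k Dr p
  have hAE_monic : AE.Monic := Dp.monic.map _
  have hint : IsIntegral E x := ⟨AE, hAE_monic, by rwa [Polynomial.aeval_def] at hAx⟩
  have hμA : minpoly E x ∣ AE := minpoly.dvd E x hAx
  have hμB : minpoly E x ∣ BE := minpoly.dvd E x hBx
  -- roots of unity upstairs
  haveI : NeZero ((p : ℕ) : k) := ⟨hpk⟩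
  haveI : NeZero ((r : ℕ) : k) := ⟨hrk⟩
  obtain ⟨ζp, hζp⟩ := HasEnoughRootsOfUnity.exists_primitiveRoot (AlgebraicClosure k) p
  obtain ⟨ζr, hζr⟩ := HasEnoughRootsOfUnity.exists_primitiveRoot (AlgebraicClosure k) r
  have hζp0 : ζp ≠ 0 := hζp.ne_zero (NeZero.ne p)
  -- the embedding
  let φ : E →+* LaurentSeries (AlgebraicClosure k) :=
    (iotaE k (p * r)).comp (algebraMap E (LaurentSeries k))
  have hAφ : AE.map φ = Dp.Φ.map (evZ (qExpand (AlgebraicClosure k) (r * r * p)
      (jqModC (AlgebraicClosure k)))) := by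
    rw [← Polynomial.map_map, hAE_map, map_map_evZ, iotaE_jd]
    rw [qExpand_congr (show p * r * r = r * r * p by ring)]
  have hBφ : BE.map φ = Dr.Φ.map (evZ (qExpand (AlgebraicClosure k) (p * p * r)
      (jqModC (AlgebraicClosure k)))) := by
    rw [← Polynomial.map_map, hBE_map, map_map_evZ, iotaE_jd]
    rw [qExpand_congr (show p * r * p = p * p * r by ring)]
  have hcop := gcd_core hp hr hpr Dr ζp ζr hζp hζr
  rw [← hBφ] at hcop
  have hAfac : AE.map φ =
      (X - C (qExpand (AlgebraicClosure k) (r * r * (p * p)) (jqModC (AlgebraicClosure k)))) *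
      ∏ b : Fin p, (X - C (qExpand (AlgebraicClosure k) (r * r) (rootAt ζp hζp0 (some b)))) := by
    rw [hAφ, map_eq_prod_rootAt_qExpand Dp hp.one_lt ζp hζp (r * r), Fintype.prod_option,
      qExpand_rootAt_none]
  have hμφA : (minpoly E x).map φ ∣ AE.map φ := Polynomial.map_dvd φ hμA
  have hμφB : (minpoly E x).map φ ∣ BE.map φ := Polynomial.map_dvd φ hμB
  have hcop' : IsCoprime ((minpoly E x).map φ)
      (∏ b : Fin p, (X - C (qExpand (AlgebraicClosure k) (r * r) (rootAt ζp hζp0 (some b))))) :=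
    IsCoprime.of_isCoprime_of_dvd_left hcop.symm hμφB
  rw [hAfac] at hμφA
  have hdvd := hcop'.dvd_of_dvd_mul_right hμφA
  have hdeg : (minpoly E x).natDegree ≤ 1 := by
    have h1 := Polynomial.natDegree_le_of_dvd hdvd (Polynomial.X_sub_C_ne_zero _)
    rwa [Polynomial.natDegree_map, Polynomial.natDegree_X_sub_C] at h1
  have hpos : 0 < (minpoly E x).natDegree := minpoly.natDegree_pos hint
  have hone : (minpoly E x).natDegree = 1 := le_antisymm hdeg hpos
  obtain ⟨e, he⟩ := (minpoly.natDegree_eq_one_iff).mp hone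
  rw [← he]
  exact e.2

/-- gcd lemma, after the substitution `q ↦ q^c`. -/
theorem jpr_mem_adjoin_qExpand {p r : ℕ} [NeZero p] [NeZero r]
    (hp : p.Prime) (hr : r.Prime) (hpr : p ≠ r) (hpk : (p : k) ≠ 0) (hrk : (r : k) ≠ 0)
    (Dp : ModPolyData p) (Dr : ModPolyData r) (c : ℕ) [NeZero c] :
    qExpand k (c * (p * r)) (jqModC k) ∈
      IntermediateField.adjoin k
        ({qExpand k (c * r) (jqModC k), qExpand k (c * p) (jqModC k)} :
          Set (LaurentSeries k)) := by
  have h := jpr_mem_adjoin k hp hr hpr hpk hrk Dp Dr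
  have h2 : qExpandAlgHomC k c (qExpand k (p * r) (jqModC k)) ∈
      (IntermediateField.adjoin k
        ({qExpand k r (jqModC k), qExpand k p (jqModC k)} : Set (LaurentSeries k))).map
        (qExpandAlgHomC k c) := ⟨_, h, rfl⟩
  rw [IntermediateField.adjoin_map, qExpandAlgHomC_apply, qExpand_qExpand, Set.image_pair,
    qExpandAlgHomC_apply, qExpandAlgHomC_apply, qExpand_qExpand, qExpand_qExpand] at h2
  exact h2

end Main

end Fermat.Agent.S28.H208

end

end
-- ===== PACK-END S28/H208/Gcd.lean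

-- ===== PACK-BEGIN S28/H208/Tower.lean
section
/-
S28 [L4]: the tower step.  For a field `k`, a level `M` and a prime `p` with `p * M`
invertible in `k`:  `E_{pM} = E_M(ξ)` with `ξ = j(q^{p·p^a})`, `p^a ∥ M`, and `ξ` is a root of a
monic polynomial of degree `p + 1` (if `p ∤ M`) resp. `p` (if `p ∣ M`) over `E_M`.
-/






set_option autoImplicit false

noncomputable section

open ModularCurve Polynomial IntermediateField

namespace Fermat.Agent.S28.H208

section Numerics

/-- If `d ∣ p * M` but `d ∤ M`, then `d = p · p^a · e` with `p^a ∥ M` and `e ∣ M / p^a`. -/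
theorem exists_eq_mul_of_dvd_of_not_dvd {p M d : ℕ} (hp : p.Prime)
    (hd : d ∣ p * M) (hnd : ¬ d ∣ M) :
    ∃ e, d = p * p ^ M.factorization p * e ∧ e ∣ M / p ^ M.factorization p := by
  have hM : p ^ M.factorization p * (M / p ^ M.factorization p) = M :=
    Nat.ordProj_mul_ordCompl_eq_self M p
  have hpM : p * M = p ^ (M.factorization p + 1) * (M / p ^ M.factorization p) := by
    conv_lhs => rw [← hM]
    rw [pow_succ]
    ring
  rw [hpM] at hd
  obtain ⟨y, z, hy, hz, rfl⟩ := Nat.dvd_mul.mp hd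
  obtain ⟨i, hi, rfl⟩ := (Nat.dvd_prime_pow hp).mp hy
  rcases Nat.lt_or_ge i (M.factorization p + 1) with hlt | hge
  · exfalso
    apply hnd
    rw [← hM]
    exact Nat.mul_dvd_mul (pow_dvd_pow p (Nat.lt_succ_iff.mp hlt)) hz
  · have : i = M.factorization p + 1 := le_antisymm hi hge
    subst this
    exact ⟨z, by rw [pow_succ]; ring, hz⟩

theorem natCast_ne_zero_of_dvd {k : Type*} [Semiring k] {a b : ℕ} (hab : a ∣ b)
    (hb : (b : k) ≠ 0) : (a : k) ≠ 0 := by
  intro ha
  obtain ⟨c, rfl⟩ := hab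
  apply hb
  rw [Nat.cast_mul, ha, zero_mul]

end Numerics

section Generation

variable (k : Type*) [Field k]

/-- The tower generator `ξ = j(q^{p · p^a})`, `p^a ∥ M`. -/
def towerGen (M p : ℕ) [NeZero p] : LaurentSeries k :=
  qExpand k (p * p ^ M.factorization p) (jqModC k)

/-- The integral version of the tower generator. -/
def towerGenZ (M p : ℕ) [NeZero p] : LaurentSeries ℤ :=
  qExpand ℤ (p * p ^ M.factorization p) (jqModC ℤ)

theorem coeffMap_towerGenZ (M p : ℕ) [NeZero p] :
    coeffMap (Int.castRingHom k) (towerGenZ M p) = towerGen k M p :=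
  coeffMap_int_jd k _

/-- The hypothesis: modular polynomials exist for all primes dividing `N`. -/
def HasModPoly (N : ℕ) : Prop :=
  ∀ (r : ℕ) [NeZero r], r.Prime → r ∣ N → Nonempty (ModPolyData r)

theorem HasModPoly.of_dvd {M N : ℕ} (h : HasModPoly N) (hMN : M ∣ N) : HasModPoly M :=
  fun r _ hr hrM => h r hr (hrM.trans hMN)

variable {k}

theorem jd_mem_full {M d : ℕ} [NeZero d] (hd : d ∣ M) :
    qExpand k d (jqModC k) ∈ modularFunctionFieldFullC k M :=
  jqModCd_mem_full k M hd

/-- Auxiliary: all `j(q^{p p^a e})`, `e ∣ M / p^a`, lie in `E_M(ξ)`. -/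
theorem jd_mem_adjoin_aux (M p : ℕ) [NeZero M] [NeZero p] (hp : p.Prime)
    (hk : ((p * M : ℕ) : k) ≠ 0) (hΦ : HasModPoly (p * M)) :
    ∀ (e : ℕ) [NeZero e], e ∣ M / p ^ M.factorization p →
      qExpand k (p * p ^ M.factorization p * e) (jqModC k) ∈
        (IntermediateField.adjoin (modularFunctionFieldFullC k M)
          ({towerGen k M p} : Set (LaurentSeries k))) := by
  intro e
  induction e using Nat.strong_induction_on with
  | _ e ih =>
    intro _ he
    have hM0 : M ≠ 0 := NeZero.ne M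
    have hMfac : p ^ M.factorization p * (M / p ^ M.factorization p) = M :=
      Nat.ordProj_mul_ordCompl_eq_self M p
    rcases eq_or_ne e 1 with rfl | he1
    · rw [qExpand_congr (mul_one _)]
      exact IntermediateField.mem_adjoin_simple_self _ _
    · -- a prime factor `r ≠ p` of `e`
      obtain ⟨r, hr, hre⟩ : ∃ r : ℕ, r.Prime ∧ r ∣ e :=
        ⟨e.minFac, Nat.minFac_prime he1, Nat.minFac_dvd e⟩
      obtain ⟨e', he'⟩ := hre
      have he0 : e ≠ 0 := NeZero.ne e
      have he'0 : e' ≠ 0 := by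
        rintro rfl
        rw [mul_zero] at he'
        exact he0 he'
      haveI : NeZero e' := ⟨he'0⟩
      haveI : NeZero r := ⟨hr.ne_zero⟩
      have he'lt : e' < e := by
        have h2 := hr.two_le
        calc e' < r * e' := by nlinarith [Nat.pos_of_ne_zero he'0]
          _ = e := he'.symm
      have he'dvd : e' ∣ M / p ^ M.factorization p :=
        (Dvd.intro_left _ he'.symm).trans he
      have hrM' : r ∣ M / p ^ M.factorization p := (Dvd.intro _ he'.symm).trans he
      have hrp : p ≠ r := by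
        intro h
        rw [← h] at hrM'
        exact Nat.not_dvd_ordCompl hp hM0 hrM'
      have hrdvd : r ∣ p * M := by
        have h2 : M / p ^ M.factorization p ∣ M := Dvd.intro_left _ hMfac
        exact (hrM'.trans h2).trans (Dvd.intro_left _ rfl)
      have hpk : (p : k) ≠ 0 := natCast_ne_zero_of_dvd (Dvd.intro _ rfl) hk
      have hrk : (r : k) ≠ 0 := natCast_ne_zero_of_dvd hrdvd hk
      obtain ⟨Dp⟩ := hΦ p hp (Dvd.intro _ rfl)
      obtain ⟨Dr⟩ := hΦ r hr hrdvd
      -- the gcd lemma with `c = p^a * e'`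
      have hgcd := jpr_mem_adjoin_qExpand k hp hr hrp hpk hrk Dp Dr
        (p ^ M.factorization p * e')
      have hidx : p ^ M.factorization p * e' * (p * r) =
          p * p ^ M.factorization p * e := by
        rw [he']; ring
      rw [qExpand_congr hidx] at hgcd
      -- both generators lie in `E_M(ξ)`
      have h1 : qExpand k (p ^ M.factorization p * e' * r) (jqModC k) ∈
          (IntermediateField.adjoin (modularFunctionFieldFullC k M)
            ({towerGen k M p} : Set (LaurentSeries k))) := by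
        have hdvd : p ^ M.factorization p * e' * r ∣ M := by
          have : p ^ M.factorization p * e' * r = p ^ M.factorization p * e := by
            rw [he']; ring
          rw [this]
          conv_rhs => rw [← hMfac]
          exact Nat.mul_dvd_mul_left _ he
        have hmem := jd_mem_full (k := k) hdvd
        exact (IntermediateField.adjoin (modularFunctionFieldFullC k M)
            ({towerGen k M p} : Set (LaurentSeries k))).algebraMap_mem ⟨_, hmem⟩
      have h2 : qExpand k (p ^ M.factorization p * e' * p) (jqModC k) ∈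
          (IntermediateField.adjoin (modularFunctionFieldFullC k M)
            ({towerGen k M p} : Set (LaurentSeries k))) := by
        have := ih e' he'lt he'dvd
        rwa [qExpand_congr (show p ^ M.factorization p * e' * p =
          p * p ^ M.factorization p * e' by ring)]
      have hle : IntermediateField.adjoin k
          ({qExpand k (p ^ M.factorization p * e' * r) (jqModC k),
            qExpand k (p ^ M.factorization p * e' * p) (jqModC k)} : Set (LaurentSeries k)) ≤
          (IntermediateField.adjoin (modularFunctionFieldFullC k M)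
            ({towerGen k M p} : Set (LaurentSeries k))).restrictScalars k := by
        rw [IntermediateField.adjoin_le_iff]
        rintro y (rfl | rfl)
        · exact h1
        · exact h2
      exact hle hgcd

/-- **Generation**: every `j(q^d)`, `d ∣ p * M`, lies in `E_M(ξ)`. -/
theorem jd_mem_adjoin_tower (M p : ℕ) [NeZero M] [NeZero p] (hp : p.Prime)
    (hk : ((p * M : ℕ) : k) ≠ 0) (hΦ : HasModPoly (p * M))
    (d : ℕ) [NeZero d] (hd : d ∣ p * M) :
    qExpand k d (jqModC k) ∈
      (IntermediateField.adjoin (modularFunctionFieldFullC k M)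
        ({towerGen k M p} : Set (LaurentSeries k))) := by
  by_cases hdM : d ∣ M
  · exact (IntermediateField.adjoin (modularFunctionFieldFullC k M)
      ({towerGen k M p} : Set (LaurentSeries k))).algebraMap_mem ⟨_, jd_mem_full hdM⟩
  · obtain ⟨e, hde, he⟩ := exists_eq_mul_of_dvd_of_not_dvd hp hd hdM
    have he0 : e ≠ 0 := by
      rintro rfl
      rw [mul_zero] at hde
      exact NeZero.ne d hde
    haveI : NeZero e := ⟨he0⟩
    rw [qExpand_congr hde]
    exact jd_mem_adjoin_aux M p hp hk hΦ e he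

/-- `E_{pM} ≤ E_M(ξ)`. -/
theorem full_le_adjoin_tower (M p : ℕ) [NeZero M] [NeZero p] (hp : p.Prime)
    (hk : ((p * M : ℕ) : k) ≠ 0) (hΦ : HasModPoly (p * M)) :
    modularFunctionFieldFullC k (p * M) ≤
      (IntermediateField.adjoin (modularFunctionFieldFullC k M)
        ({towerGen k M p} : Set (LaurentSeries k))).restrictScalars k := by
  rw [modularFunctionFieldFullC, IntermediateField.adjoin_le_iff]
  rintro y ⟨d, hd0, hd, rfl⟩
  exact jd_mem_adjoin_tower M p hp hk hΦ d hd

end Generation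

end Fermat.Agent.S28.H208

end

end
-- ===== PACK-END S28/H208/Tower.lean

-- ===== PACK-BEGIN S28/H208/Span.lean
section
/-
S28 [L4] = [L.UP]: spanning monomials, uniform in the field `k`.

`exists_spanning_monomials`: from `ModPolyData r` for the primes `r ∣ N` one gets
`dedekindPsi N` monomials in the `j(q^d)`, `d ∣ N` (defined over `ℤ`), whose images span
`k(j(q^d) : d ∣ N)` over `k(j)` for EVERY field `k` in which `N` is invertible.
-/







set_option autoImplicit false

noncomputable section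

open ModularCurve Polynomial IntermediateField

namespace Fermat.Agent.S28.H208

/-! ### Arithmetic of `dedekindPsi` (copied from helper872, `Fermat.Agent.S20.H872`) -/

section Psi

theorem psi_mul_prime_of_dvd {N p : ℕ} (hN : N ≠ 0) (hp : p.Prime) (hpN : p ∣ N) :
    ModularCurve.dedekindPsi (N * p) = p * ModularCurve.dedekindPsi N := by
  unfold ModularCurve.dedekindPsi
  have hset : (N * p).divisors.filter Squarefree = N.divisors.filter Squarefree := by
    ext d
    simp only [Finset.mem_filter, Nat.mem_divisors]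
    constructor
    · rintro ⟨⟨hd, _⟩, hsq⟩
      refine ⟨⟨?_, hN⟩, hsq⟩
      have h2 : d ∣ N ^ 2 := by
        rw [pow_two]
        exact hd.trans (mul_dvd_mul_left N hpN)
      exact (hsq.dvd_pow_iff_dvd two_ne_zero).1 h2
    · rintro ⟨⟨hd, _⟩, hsq⟩
      exact ⟨⟨hd.mul_right p, mul_ne_zero hN hp.ne_zero⟩, hsq⟩
  rw [hset, Finset.mul_sum]
  refine Finset.sum_congr rfl fun d hd => ?_
  have hdN : d ∣ N := (Nat.mem_divisors.1 (Finset.mem_filter.1 hd).1).1
  obtain ⟨e, rfl⟩ := hdN
  have hd0 : 0 < d := Nat.pos_of_ne_zero (by rintro rfl; simp at hN)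
  rw [mul_assoc, Nat.mul_div_cancel_left _ hd0, Nat.mul_div_cancel_left _ hd0, mul_comm]

theorem psi_mul_prime_of_not_dvd {N p : ℕ} (hN : N ≠ 0) (hp : p.Prime) (hpN : ¬ p ∣ N) :
    ModularCurve.dedekindPsi (N * p) = (p + 1) * ModularCurve.dedekindPsi N := by
  unfold ModularCurve.dedekindPsi
  have hcop : ∀ d, d ∣ N → Nat.Coprime d p := fun d hd =>
    (Nat.Coprime.symm ((Nat.Prime.coprime_iff_not_dvd hp).2 fun h => hpN (h.trans hd)))
  have hset : (N * p).divisors.filter Squarefree
      = (N.divisors.filter Squarefree) ∪ (N.divisors.filter Squarefree).image (· * p) := by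
    ext d
    simp only [Finset.mem_filter, Nat.mem_divisors, Finset.mem_union, Finset.mem_image]
    constructor
    · rintro ⟨⟨hd, _⟩, hsq⟩
      by_cases hpd : p ∣ d
      · right
        obtain ⟨e, rfl⟩ := hpd
        refine ⟨e, ⟨⟨?_, hN⟩, hsq.squarefree_of_dvd (Dvd.intro_left p rfl)⟩, mul_comm e p⟩
        rw [mul_comm p e] at hd
        exact Nat.dvd_of_mul_dvd_mul_right hp.pos hd
      · left
        refine ⟨⟨?_, hN⟩, hsq⟩
        have : Nat.Coprime d p := (Nat.Coprime.symm ((Nat.Prime.coprime_iff_not_dvd hp).2 hpd))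
        exact this.dvd_of_dvd_mul_right hd
    · rintro (⟨⟨hd, _⟩, hsq⟩ | ⟨e, ⟨⟨he, _⟩, hsq⟩, rfl⟩)
      · exact ⟨⟨hd.mul_right p, mul_ne_zero hN hp.ne_zero⟩, hsq⟩
      · refine ⟨⟨mul_dvd_mul_right he p, mul_ne_zero hN hp.ne_zero⟩, ?_⟩
        exact (Nat.squarefree_mul (hcop e he)).2 ⟨hsq, hp.squarefree⟩
  have hdisj : Disjoint (N.divisors.filter Squarefree)
      ((N.divisors.filter Squarefree).image (· * p)) := by
    rw [Finset.disjoint_left]
    intro d hd hd'
    simp only [Finset.mem_filter, Nat.mem_divisors, Finset.mem_image] at hd hd'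
    obtain ⟨e, _, rfl⟩ := hd'
    exact hpN ((Dvd.intro_left e rfl).trans hd.1.1)
  rw [hset, Finset.sum_union hdisj, Finset.sum_image, add_mul, one_mul, Finset.mul_sum]
  · congr 1
    · refine Finset.sum_congr rfl fun d hd => ?_
      have hdN : d ∣ N := (Nat.mem_divisors.1 (Finset.mem_filter.1 hd).1).1
      obtain ⟨e, rfl⟩ := hdN
      have hd0 : 0 < d := Nat.pos_of_ne_zero (by rintro rfl; simp at hN)
      rw [mul_assoc, Nat.mul_div_cancel_left _ hd0, Nat.mul_div_cancel_left _ hd0, mul_comm]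
    · refine Finset.sum_congr rfl fun d hd => ?_
      exact Nat.mul_div_mul_right N d hp.pos
  · intro a _ b _ hab
    exact Nat.eq_of_mul_eq_mul_right hp.pos hab

/-- The degree of the tower step `M → p * M`. -/
def stepDeg (M p : ℕ) : ℕ := if p ∣ M then p else p + 1

theorem stepDeg_pos (M p : ℕ) (hp : p.Prime) : 0 < stepDeg M p := by
  unfold stepDeg
  split_ifs
  · exact hp.pos
  · exact Nat.succ_pos p

theorem psi_mul_stepDeg {M p : ℕ} (hM : M ≠ 0) (hp : p.Prime) :
    ModularCurve.dedekindPsi M * stepDeg M p = ModularCurve.dedekindPsi (p * M) := by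
  unfold stepDeg
  rw [mul_comm p M]
  split_ifs with h
  · rw [psi_mul_prime_of_dvd hM hp h, mul_comm]
  · rw [psi_mul_prime_of_not_dvd hM hp h, mul_comm]

end Psi

/-! ### Integrality of the tower generator, with degree -/

section Integral

variable {k : Type*} [Field k]

theorem towerGen_ne {M p : ℕ} [NeZero p] (hp : p.Prime) (a' : ℕ)
    (ha : M.factorization p = a' + 1) :
    towerGen k M p ≠ qExpand k (p ^ a') (jqModC k) := by
  intro h
  have h1 : (towerGen k M p).coeff (-((p * p ^ M.factorization p : ℕ) : ℤ)) = 1 :=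
    coeff_jd_neg k _
  rw [h, coeff_jd_of_lt] at h1
  · exact zero_ne_one h1
  · rw [ha]
    have hp2 := hp.two_le
    have hpos : 0 < p ^ a' := pow_pos hp.pos a'
    have h4 : 4 ≤ p * p := Nat.mul_le_mul hp2 hp2
    have h5 := Nat.mul_le_mul_left (p ^ a') h4
    have : p ^ a' < p * p ^ (a' + 1) := by
      rw [pow_succ]
      nlinarith
    exact_mod_cast neg_lt_neg (by exact_mod_cast this : ((p ^ a' : ℕ) : ℤ) < (p * p ^ (a' + 1) : ℕ))

theorem exists_monic_towerGen (M p : ℕ) [NeZero M] [NeZero p] (hp : p.Prime)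
    (Dp : ModPolyData p) :
    ∃ Q : Polynomial (modularFunctionFieldFullC k M), Q.Monic ∧
      Q.natDegree = stepDeg M p ∧ Polynomial.aeval (towerGen k M p) Q = 0 := by
  have hM0 : M ≠ 0 := NeZero.ne M
  by_cases hpM : p ∣ M
  · -- old prime: divide by the known root
    obtain ⟨a', ha⟩ : ∃ a', M.factorization p = a' + 1 :=
      Nat.exists_eq_succ_of_ne_zero (hp.factorization_pos_of_dvd hM0 hpM).ne'
    have hP0 : p ^ (a' + 1) ∣ M := by
      rw [← ha]; exact Nat.ordProj_dvd M p
    have hP1 : p ^ a' ∣ M := (pow_dvd_pow p (Nat.le_succ a')).trans hP0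
    let y₀ : modularFunctionFieldFullC k M := ⟨qExpand k (p ^ (a' + 1)) (jqModC k), jd_mem_full hP0⟩
    let y₁ : modularFunctionFieldFullC k M := ⟨qExpand k (p ^ a') (jqModC k), jd_mem_full hP1⟩
    let Φ' : Polynomial (modularFunctionFieldFullC k M) := Dp.Φ.map (evZ y₀)
    have hΦ'monic : Φ'.Monic := Dp.monic.map _
    have hΦ'deg : Φ'.natDegree = p + 1 := by
      rw [Dp.monic.natDegree_map, Dp.natDegree_eq]
    have hΦ'map : Φ'.map (algebraMap (modularFunctionFieldFullC k M) (LaurentSeries k)) =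
        Dp.Φ.map (evZ (qExpand k (p ^ (a' + 1)) (jqModC k))) := map_map_evZ _ _ _
    have hroot : Φ'.IsRoot y₁ := by
      rw [Polynomial.IsRoot]
      apply (algebraMap (modularFunctionFieldFullC k M) (LaurentSeries k)).injective
      rw [map_zero, ← Polynomial.eval_map_apply, hΦ'map, Polynomial.eval_map]
      have h := eval_j_ring_qExpand k Dp (p ^ a')
      rw [qExpand_congr (pow_succ p a').symm] at h
      exact h
    have hfac : (X - C y₁) * (Φ' /ₘ (X - C y₁)) = Φ' :=
      Polynomial.mul_divByMonic_eq_iff_isRoot.mpr hroot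
    refine ⟨Φ' /ₘ (X - C y₁), ?_, ?_, ?_⟩
    · exact Polynomial.Monic.of_mul_monic_left (Polynomial.monic_X_sub_C y₁)
        (by rw [hfac]; exact hΦ'monic)
    · rw [Polynomial.natDegree_divByMonic _ (Polynomial.monic_X_sub_C y₁), hΦ'deg,
        Polynomial.natDegree_X_sub_C, stepDeg, if_pos hpM]
      rfl
    · have hΦ'ξ : Polynomial.aeval (towerGen k M p) Φ' = 0 := by
        have hξ : towerGen k M p = qExpand k (p ^ (a' + 1) * p) (jqModC k) :=
          qExpand_congr (by rw [ha]; ring) _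
        rw [Polynomial.aeval_def, ← Polynomial.eval_map, hΦ'map, Polynomial.eval_map, hξ]
        exact eval_jp_ring_qExpand k Dp (p ^ (a' + 1))
      rw [← hfac, map_mul, map_sub, Polynomial.aeval_X, Polynomial.aeval_C] at hΦ'ξ
      rcases mul_eq_zero.mp hΦ'ξ with h | h
      · exact absurd (sub_eq_zero.mp h) (towerGen_ne hp a' ha)
      · exact h
  · -- new prime
    have ha : M.factorization p = 0 := Nat.factorization_eq_zero_of_not_dvd hpM
    let y₀ : modularFunctionFieldFullC k M := ⟨jqModC k, jqModC_mem_full k M⟩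
    refine ⟨Dp.Φ.map (evZ y₀), Dp.monic.map _, ?_, ?_⟩
    · rw [Dp.monic.natDegree_map, Dp.natDegree_eq, stepDeg, if_neg hpM]
    · have hmap : (Dp.Φ.map (evZ y₀)).map
          (algebraMap (modularFunctionFieldFullC k M) (LaurentSeries k)) =
          Dp.Φ.map (evZ (jqModC k)) := map_map_evZ _ _ _
      have hξ : towerGen k M p = qExpand k p (jqModC k) :=
        qExpand_congr (by rw [ha]; simp) _
      rw [Polynomial.aeval_def, ← Polynomial.eval_map, hmap, Polynomial.eval_map, hξ]
      exact eval_jp_ring k Dp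

end Integral

/-! ### The spanning step -/

section SpanStep

variable {k : Type*} [Field k]

theorem mul_mem_span_of_mem_span {ι : Type*} (y : ι → LaurentSeries k) (w : LaurentSeries k)
    {z : LaurentSeries k} (hz : z ∈ Submodule.span (jField k) (Set.range y)) :
    z * w ∈ Submodule.span (jField k) (Set.range fun i => y i * w) := by
  induction hz using Submodule.span_induction with
  | mem x hx =>
    obtain ⟨i, rfl⟩ := hx
    exact Submodule.subset_span ⟨i, rfl⟩
  | zero => rw [zero_mul]; exact Submodule.zero_mem _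
  | add x y _ _ hx hy => rw [add_mul]; exact Submodule.add_mem _ hx hy
  | smul c x _ hx => rw [smul_mul_assoc]; exact Submodule.smul_mem _ c hx

theorem span_step (M p : ℕ) [NeZero M] [NeZero p] (hp : p.Prime)
    (hk : ((p * M : ℕ) : k) ≠ 0) (hΦ : HasModPoly (p * M))
    {n : ℕ} (y : Fin n → LaurentSeries k)
    (hy : ∀ z ∈ modularFunctionFieldFullC k M, z ∈ Submodule.span (jField k) (Set.range y)) :
    ∀ x ∈ modularFunctionFieldFullC k (p * M),
      x ∈ Submodule.span (jField k)
        (Set.range fun t : Fin n × Fin (stepDeg M p) => y t.1 * towerGen k M p ^ (t.2 : ℕ)) := by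
  intro x hx
  obtain ⟨Dp⟩ := hΦ p hp (Dvd.intro _ rfl)
  obtain ⟨Q, hQmonic, hQdeg, hQξ⟩ := exists_monic_towerGen (k := k) M p hp Dp
  have hint : IsIntegral (modularFunctionFieldFullC k M) (towerGen k M p) :=
    ⟨Q, hQmonic, by rwa [Polynomial.aeval_def] at hQξ⟩
  have hx' : x ∈ (IntermediateField.adjoin (modularFunctionFieldFullC k M)
      ({towerGen k M p} : Set (LaurentSeries k))) := full_le_adjoin_tower M p hp hk hΦ hx
  have hx'' : x ∈ (IntermediateField.adjoin (modularFunctionFieldFullC k M)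
      ({towerGen k M p} : Set (LaurentSeries k))).toSubalgebra := hx'
  rw [IntermediateField.adjoin_simple_toSubalgebra_of_isAlgebraic hint.isAlgebraic,
    Algebra.adjoin_singleton_eq_range_aeval] at hx''
  obtain ⟨f, rfl⟩ := hx''
  have hQ1 : Q ≠ 1 := by
    intro h
    have := stepDeg_pos M p hp
    rw [← hQdeg, h, Polynomial.natDegree_one] at this
    exact lt_irrefl _ this
  have hdeg : (f %ₘ Q).natDegree < stepDeg M p := by
    rw [← hQdeg]
    exact Polynomial.natDegree_modByMonic_lt f hQmonic hQ1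
  have hf : Polynomial.aeval (towerGen k M p) f = Polynomial.aeval (towerGen k M p) (f %ₘ Q) :=
    (Polynomial.aeval_modByMonic_eq_self_of_root hQξ).symm
  show Polynomial.aeval (towerGen k M p) f ∈ _
  rw [hf, Polynomial.aeval_eq_sum_range' hdeg]
  refine Submodule.sum_mem _ fun m hm => ?_
  have hm' : m < stepDeg M p := Finset.mem_range.mp hm
  have hc : (((f %ₘ Q).coeff m : modularFunctionFieldFullC k M) : LaurentSeries k) ∈
      Submodule.span (jField k) (Set.range y) := hy _ ((f %ₘ Q).coeff m).2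
  have h1 := mul_mem_span_of_mem_span y (towerGen k M p ^ m) hc
  have h2 : Submodule.span (jField k) (Set.range fun i => y i * towerGen k M p ^ m) ≤
      Submodule.span (jField k)
        (Set.range fun t : Fin n × Fin (stepDeg M p) => y t.1 * towerGen k M p ^ (t.2 : ℕ)) := by
    apply Submodule.span_mono
    rintro _ ⟨i, rfl⟩
    exact ⟨(i, ⟨m, hm'⟩), rfl⟩
  have h3 : ((f %ₘ Q).coeff m) • (towerGen k M p ^ m) =
      (((f %ₘ Q).coeff m : modularFunctionFieldFullC k M) : LaurentSeries k) *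
        towerGen k M p ^ m := by
    rw [Algebra.smul_def]
    rfl
  rw [h3]
  exact h2 h1

end SpanStep

/-! ### The main theorem -/

section Main

theorem intDivisorExpansions_mono {M N : ℕ} (h : M ∣ N) :
    intDivisorExpansions M ⊆ intDivisorExpansions N := by
  rintro x ⟨d, hd0, hd, rfl⟩
  exact ⟨d, hd0, hd.trans h, rfl⟩

/-- **Spanning monomials, uniform in `k`.** -/
theorem exists_spanning_monomials (N : ℕ) (hN : N ≠ 0) (hΦ : HasModPoly N) :
    ∃ (n : ℕ) (y : Fin n → LaurentSeries ℤ), n = dedekindPsi N ∧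
      (∀ i, y i ∈ Subring.closure (intDivisorExpansions N)) ∧
      ∀ (k : Type) [Field k], (N : k) ≠ 0 →
        ∀ x ∈ modularFunctionFieldFullC k N,
          x ∈ Submodule.span (jField k)
            (Set.range fun i => coeffMap (Int.castRingHom k) (y i)) := by
  induction N using induction_on_primes with
  | zero => exact absurd rfl hN
  | one =>
    refine ⟨1, fun _ => 1, dedekindPsi_one.symm, fun _ => Subring.one_mem _, ?_⟩
    intro k _ _ x hx
    have hle : modularFunctionFieldFullC k 1 ≤ jField k := by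
      rw [modularFunctionFieldFullC, IntermediateField.adjoin_le_iff]
      rintro _ ⟨d, hd0, hd, rfl⟩
      have hd1 : d = 1 := Nat.dvd_one.mp hd
      subst hd1
      rw [qExpand_one_apply]
      exact IntermediateField.subset_adjoin k _ rfl
    have hxj : x ∈ jField k := hle hx
    have h1 : (1 : LaurentSeries k) ∈ Submodule.span (jField k)
        (Set.range fun _ : Fin 1 => coeffMap (Int.castRingHom k) (1 : LaurentSeries ℤ)) := by
      apply Submodule.subset_span
      exact ⟨0, map_one _⟩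
    have h2 := Submodule.smul_mem _ (⟨x, hxj⟩ : jField k) h1
    have h3 : (⟨x, hxj⟩ : jField k) • (1 : LaurentSeries k) = x := by
      rw [Algebra.smul_def, mul_one]
      rfl
    rwa [h3] at h2
  | prime_mul p M hp ih =>
    have hM : M ≠ 0 := fun h => hN (by rw [h, mul_zero])
    haveI : NeZero M := ⟨hM⟩
    haveI : NeZero p := ⟨hp.ne_zero⟩
    obtain ⟨n, y, hn, hcl, hspan⟩ := ih hM (hΦ.of_dvd (Dvd.intro_left _ rfl))
    refine ⟨n * stepDeg M p,
      fun t => y (finProdFinEquiv.symm t).1 * towerGenZ M p ^ ((finProdFinEquiv.symm t).2 : ℕ),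
      ?_, ?_, ?_⟩
    · rw [hn, psi_mul_stepDeg hM hp]
    · intro t
      refine Subring.mul_mem _ ?_ (Subring.pow_mem _ ?_ _)
      · exact Subring.closure_mono (intDivisorExpansions_mono (Dvd.intro_left _ rfl)) (hcl _)
      · apply Subring.subset_closure
        refine ⟨p * p ^ M.factorization p, inferInstance, ?_, rfl⟩
        exact Nat.mul_dvd_mul_left p (Nat.ordProj_dvd M p)
    · intro k _ hk x hx
      have hkM : (M : k) ≠ 0 := natCast_ne_zero_of_dvd (Dvd.intro_left _ rfl) hk
      have h := span_step (k := k) M p hp hk hΦ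
        (fun i => coeffMap (Int.castRingHom k) (y i)) (hspan k hkM) x hx
      refine Submodule.span_mono ?_ h
      rintro _ ⟨t, rfl⟩
      refine ⟨finProdFinEquiv t, ?_⟩
      simp only [Equiv.symm_apply_apply, map_mul, map_pow, coeffMap_towerGenZ]

end Main

end Fermat.Agent.S28.H208

end

end
-- ===== PACK-END S28/H208/Span.lean

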