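import Fermat.Agent.Pack.S58.E1L1
import Fermat.Agent.Pack.S58.E3L3
import Fermat.Agent.Pack.S58.E3L2
import Fermat.Agent.Pack.S58.E0L1
import Fermat.Agent.Pack.S36.E15L2
import Fermat.Agent.Pack.S36.E15L3
import Fermat.Agent.Pack.S36.E6L2
import Fermat.Agent.Pack.S58.E1L3
import Fermat.Agent.Pack.S58.E3L0
import Fermat.Agent.Pack.S36.E15L1
import Fermat.Agent.Pack.S58.E2L1
import Fermat.Agent.Pack.S36.E13L2
import Fermat.Agent.Pack.S36.E13L1

-- ===== PACK-BEGIN Lib/Frob/A2/Main.lean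
section



/-!
# Shared library `Frob`, piece A2: the deliverable `frobRelationFin : FrobRelationFin`

Proof: `Fermat/Agent/Lib/Frob/A2/H230/Main.lean` (helper230 assembly) from
* helper311 `S52/H311` (exact parallelogram law for the degree height),
* helper621 `S52/H621` (Manin count, degree of a composition of rational functions),
* helper127 `S52/H127/QuadForm` (quadratic form algebra),
* helper240 `Lib/Frob/A2/H240/ShortNF` + `Lib/VC` (reduction to short Weierstrass form),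
* helper230 `Lib/FrobRel` (generic point implies all points) and `Lib/Frob/A2/H230` (odd points).
-/

set_option autoImplicit false

namespace Fermat.Agent.Lib.Frob

/-- **A2**: the Hasse–Weil Frobenius relation `Φ² - a_ℓ Φ + ℓ = 0` on `E(k)` for every
Weierstrass curve `E` over `ZMod ℓ` (`ℓ ≥ 5` prime, `Δ ≠ 0`) and every field `k` over `ZMod ℓ`. -/
theorem frobRelationFin : FrobRelationFin := A2.H230.frobRelationFin_H230

end Fermat.Agent.Lib.Frob

end
-- ===== PACK-END Lib/Frob/A2/Main.lean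

-- ===== PACK-BEGIN S35/H891/Mid3.lean
section
/-
S35 mid layer for the CUBIC relation (helper891): `S35.H991.HasNewformEigenModules` (the input of
the landed top glue `S35.H991.result_of`) from

* the inputs of row S30 in the unfolded lattice form (`hfin hsm hgeq hunr hes hlat`, exactly as in
  `S35/H991/Mid.lean`);
* `NewPartFrob3Statement` : for `q ∥ M` there are two GALOIS-equivariant additive maps
  `a b : J₀(M) → J₀(M/q)` such that every Frobenius lift `σ` at `q` satisfies the CUBIC relation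
  `(σ² - q²)(σ² - 1)² x = 0` on the torsion prime to `q` of `ker a ∩ ker b`;
* `S35.H991.ExclTateStatement`.

Differences with `S35.H991.hasNewformEigenModules_of_inputs`:
* the relation is cubic in `σ²` (this is what the norm-residue argument NR gives without
  normalising the Kummer generator; the quartic relation on the eigenmodule FOLLOWS, by the
  algebra of `Cubic.lean` and the quadratic relation with determinant `q`);
* no Hecke-equivariance of `a`, `b` is asked: on torsion it follows from the Galois-equivariance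
  and the Eichler–Shimura relations (`S35.H155.map_hecke_of_galois`).
-/





set_option autoImplicit false

namespace Fermat.Agent.S35.H891

open TensorProduct IsLocalRing Fermat.Agent.S30.H990 Fermat.Agent.S30.H529
  Fermat.Agent.S35.H991

/-- Bad Frobenius on the `q`-new torsion, cubic form, for degeneracy maps `J₀(M) → J₀(K)`. -/
def NewPartFrob3At (M K q : ℕ) [NeZero M] [NeZero K] : Prop :=
  ∃ a b : ModularCurve.JZero M →+ ModularCurve.JZero K,
    (∀ (γ : GQ) (x : ModularCurve.JZero M), a (γ • x) = γ • a x) ∧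
    (∀ (γ : GQ) (x : ModularCurve.JZero M), b (γ • x) = γ • b x) ∧
    ∀ A : ValuationSubring (AlgebraicClosure ℚ), A.LiesOverPrime q →
      ∀ σ : GQ, A.IsFrobeniusAt σ q →
        ∀ m : ℕ, ¬ q ∣ m → ∀ x : ModularCurve.JZero M, m • x = 0 → a x = 0 → b x = 0 →
          σ • σ • σ • σ • σ • σ • x + (1 + 2 * q ^ 2) • (σ • σ • x)
            = (2 + q ^ 2) • (σ • σ • σ • σ • x) + q ^ 2 • x

/-- **Bad Frobenius on the `q`-new torsion, cubic form.** -/
def NewPartFrob3Statement : Prop :=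
  ∀ (M q : ℕ) [NeZero M] [NeZero (M / q)], q.Prime → q ∣ M → ¬ q ^ 2 ∣ M →
    NewPartFrob3At M (M / q) q

/-- **The newform eigenmodules from the inputs of row S30, the cubic relation and (X).** -/
theorem hasNewformEigenModules_of_cubic
    (hfin : ∀ (N p : ℕ) [NeZero N], p.Prime →
      Finite {x : ModularCurve.JZero N // (p : ℤ) • x = 0})
    (hsm : ∀ (N p : ℕ) [NeZero N], ∀ x : ModularCurve.JZero N,
      (∃ n : ℕ, ((p : ℤ) ^ n) • x = 0) →
        ∃ L : IntermediateField ℚ (AlgebraicClosure ℚ), FiniteDimensional ℚ L ∧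
          ∀ σ : GQ, (∀ y ∈ L, σ y = y) → σ • x = x)
    (hgeq : ∀ (N : ℕ) [NeZero N] (ℓ : Nat.Primes) (σ : GQ) (x : ModularCurve.JZero N),
      ModularCurve.heckeOperatorBar N ℓ (σ • x) = σ • ModularCurve.heckeOperatorBar N ℓ x)
    (hunr : ∀ (N p : ℕ) [NeZero N], ∀ q : ℕ, q.Prime → ¬ q ∣ N * p →
      ∀ A : ValuationSubring (AlgebraicClosure ℚ), A.LiesOverPrime q →
        ∀ σ ∈ A.inertiaSubgroupIn ℚ, ∀ x : ModularCurve.JZero N,
          (∃ n : ℕ, ((p : ℤ) ^ n) • x = 0) → σ • x = x)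
    (hes : ∀ (N p : ℕ) [NeZero N], ∀ (ℓ : ℕ) (hℓ : ℓ.Prime), ¬ ℓ ∣ N * p →
      ∀ A : ValuationSubring (AlgebraicClosure ℚ), A.LiesOverPrime ℓ →
        ∀ σ : GQ, A.IsFrobeniusAt σ ℓ → ∀ x : ModularCurve.JZero N,
          (∃ n : ℕ, ((p : ℤ) ^ n) • x = 0) →
            σ • σ • x - ModularCurve.heckeOperatorBar N ⟨ℓ, hℓ⟩ (σ • x) + (ℓ : ℤ) • x = 0)
    (hlat : ∀ (N p : ℕ) [NeZero N], p.Prime →
      ∃ (Λ : Type) (_ : AddCommGroup Λ) (_ : Module.Free ℤ Λ) (_ : Module.Finite ℤ Λ)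
        (TΛ : Nat.Primes → Λ →ₗ[ℤ] Λ) (κ : ℕ → Λ →ₗ[ℤ] ModularCurve.JZero N),
        (∀ (n : ℕ) (x : Λ), κ n x = 0 ↔ ∃ y : Λ, x = ((p : ℤ) ^ n) • y) ∧
        (∀ (n : ℕ) (x : Λ), (p : ℤ) • κ (n + 1) x = κ n x) ∧
        (∀ ℓ : Nat.Primes, ¬ (ℓ : ℕ) ∣ N * p → ∀ (n : ℕ) (x : Λ),
          κ n (TΛ ℓ x) = ModularCurve.heckeOperatorBar N ℓ (κ n x)) ∧
        (∀ (S : Set ℕ) (R : Type) [CommRing R] [IsDomain R] [CharZero R]
          (χ : CuspForm.heckeAlgebra N 2 S →+* R),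
          ∃ v : R ⊗[ℤ] Λ, v ≠ 0 ∧
            ∀ (ℓ : ℕ) (hℓ : ℓ.Prime) (hℓN : ¬ ℓ ∣ N) (hℓS : ℓ ∉ S),
              (TΛ ⟨ℓ, hℓ⟩).baseChange R v = χ (CuspForm.heckeAlgebra.T hℓ hℓN hℓS) • v))
    (hG : NewPartFrob3Statement) (hX : ExclTateStatement) :
    HasNewformEigenModules := by
  classical
  intro M _ g hg p _ S O' _ _ _ _ _ _ hpO' chig hchig iota hpS hMS
  have hp : p.Prime := Fact.out
  set χ : CuspForm.heckeAlgebra M 2 (↑S : Set ℕ) →+* O' := iota.comp chig.rangeRestrict with hχ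
  obtain ⟨Λ, i1, i2, i3, TΛ, κ, hκ0, hκs, hκT, hocc⟩ := hlat M p hp
  obtain ⟨v, hv, hva⟩ := hocc (↑S : Set ℕ) O' χ
  -- good primes
  have hNp : ∀ ℓ : ℕ, ℓ.Prime → ¬ ℓ ∣ M → ℓ ≠ p → ¬ ℓ ∣ M * p := by
    intro ℓ hℓ hℓN hℓp h
    rcases (Nat.Prime.dvd_mul hℓ).1 h with h | h
    · exact hℓN h
    · exact hℓp ((Nat.prime_dvd_prime_iff_eq hℓ hp).1 h)
  have hιp : ∀ i : {ℓ : Nat.Primes // ¬ (ℓ : ℕ) ∣ M ∧ (ℓ : ℕ) ∉ (↑S : Set ℕ)},
      ((i.1 : Nat.Primes) : ℕ) ≠ p := by
    intro i h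
    exact i.2.2 (by rw [h]; exact hpS)
  -- conversions between `ℤ`- and `ℕ`-torsion
  have hpow : ∀ (N : ℕ) (n : ℕ) (x : ModularCurve.JZero N),
      ((p : ℤ) ^ n) • x = p ^ n • x := by
    intro N n x
    rw [← Nat.cast_pow, natCast_zsmul]
  -- the torsion relations in the form of helper155
  have hTors : ∀ (N : ℕ) [NeZero N], Fermat.Agent.S35.H155.TorsRel N p := by
    intro N _ ℓ hℓ hℓN A hA
    refine ⟨fun σ hσ x hx => hunr N p ℓ hℓ hℓN A hA σ hσ x ?_, fun σ hσ x hx => ?_⟩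
    · obtain ⟨n, hn⟩ := hx
      exact ⟨n, by rw [hpow]; exact hn⟩
    · have h := hes N p ℓ hℓ hℓN A hA σ hσ x (by
        obtain ⟨n, hn⟩ := hx
        exact ⟨n, by rw [hpow]; exact hn⟩)
      rw [natCast_zsmul] at h
      exact h
  -- the operators
  let T : {ℓ : Nat.Primes // ¬ (ℓ : ℕ) ∣ M ∧ (ℓ : ℕ) ∉ (↑S : Set ℕ)} →
      ModularCurve.JZero M →+ ModularCurve.JZero M :=
    fun i => (ModularCurve.heckeOperatorBar M i.1).toAddMonoidHom
  let a : {ℓ : Nat.Primes // ¬ (ℓ : ℕ) ∣ M ∧ (ℓ : ℕ) ∉ (↑S : Set ℕ)} → O' :=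
    fun i => χ (CuspForm.heckeAlgebra.T i.1.2 i.2.1 i.2.2)
  have hT' : ∀ i, (T i).toIntLinearMap = ModularCurve.heckeOperatorBar M i.1 :=
    fun i => LinearMap.ext fun _ => rfl
  have hfin' : {x : ModularCurve.JZero M | p • x = 0}.Finite := by
    have h1 : {x : ModularCurve.JZero M | (p : ℤ) • x = 0}.Finite :=
      Set.finite_coe_iff.mp (hfin M p hp)
    refine h1.subset fun x hx => ?_
    show (p : ℤ) • x = 0
    rw [natCast_zsmul]
    exact hx
  -- the Kummer sequence (as in `S30.H649.exists_adicFrobModule_of_lattice`)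
  have hκzero : ∀ w : O' ⊗[ℤ] Λ, (κ 0).baseChange O' w = 0 := by
    have h0 : κ 0 = 0 := by
      apply LinearMap.ext
      intro x
      rw [LinearMap.zero_apply, hκ0 0 x]
      exact ⟨x, by rw [pow_zero, one_smul]⟩
    intro w
    rw [h0, LinearMap.baseChange_zero, LinearMap.zero_apply]
  have hκsucc : ∀ (n : ℕ) (w : O' ⊗[ℤ] Λ),
      (p : O') • (κ (n + 1)).baseChange O' w = (κ n).baseChange O' w := by
    intro n w
    have h1 : (p : ℤ) • κ (n + 1) = κ n := LinearMap.ext fun x => hκs n x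
    have h2 : ((p : ℤ) : O') • (κ (n + 1)).baseChange O' w
        = (p : ℤ) • (κ (n + 1)).baseChange O' w := Fermat.Agent.S30.H649.intCast_smul_tensor _ _
    rw [Int.cast_natCast] at h2
    rw [h2, ← LinearMap.smul_apply, ← LinearMap.baseChange_smul, h1]
  obtain ⟨n₀, hn₀⟩ := Fermat.Agent.S30.H649.exists_baseChange_ne_zero (𝒪 := O') hpO' κ hκ0 v hv
  obtain ⟨m₀, rfl⟩ : ∃ m₀, n₀ = m₀ + 1 := by
    cases n₀ with
    | zero => exact absurd (hκzero v) hn₀
    | succ m => exact ⟨m, rfl⟩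
  let seq : ℕ → O' ⊗[ℤ] ModularCurve.JZero M := fun n => (κ (n + 1)).baseChange O' v
  have hseq0 : (p : O') • seq 0 = 0 := by
    show (p : O') • (κ (0 + 1)).baseChange O' v = 0
    rw [hκsucc 0 v, hκzero v]
  have hseqs : ∀ n, (p : O') • seq (n + 1) = seq n := fun n => hκsucc (n + 1) v
  have hseqne : seq ≠ 0 := fun h => hn₀ (congrFun h m₀)
  have hseqeig : ∀ i n, tensorOp O' T i (seq n) = a i • seq n := by
    intro i n
    show ((T i).toIntLinearMap.baseChange O') ((κ (n + 1)).baseChange O' v)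
      = a i • (κ (n + 1)).baseChange O' v
    have h1 : ModularCurve.heckeOperatorBar M i.1 ∘ₗ κ (n + 1) = κ (n + 1) ∘ₗ TΛ i.1 :=
      LinearMap.ext fun x => (hκT i.1 (hNp _ i.1.2 i.2.1 (hιp i)) (n + 1) x).symm
    have hva' : (TΛ i.1).baseChange O' v = a i • v := hva i.1 i.1.2 i.2.1 i.2.2
    rw [hT' i, ← LinearMap.comp_apply, ← LinearMap.baseChange_comp, h1,
      LinearMap.baseChange_comp, LinearMap.comp_apply, hva', map_smul]
  -- the degeneracy maps at the primes `q ∥ M`, `q ≠ p`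
  let Q : Type := {q : ℕ // q.Prime ∧ q ≠ p ∧ q ∣ M ∧ ¬ q ^ 2 ∣ M}
  have hne0 : ∀ q : Q, NeZero (M / q.1) := by
    intro q
    refine ⟨?_⟩
    have hM : M ≠ 0 := NeZero.ne M
    intro h0
    have h1 := Nat.div_mul_cancel q.2.2.2.1
    rw [h0, zero_mul] at h1
    exact hM h1.symm
  have hab : ∀ q : Q, ∃ a b : ModularCurve.JZero M →+ ModularCurve.JZero (M / q.1),
      (∀ (γ : GQ) (x : ModularCurve.JZero M), a (γ • x) = γ • a x) ∧
      (∀ (γ : GQ) (x : ModularCurve.JZero M), b (γ • x) = γ • b x) ∧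
      ∀ A : ValuationSubring (AlgebraicClosure ℚ), A.LiesOverPrime q.1 →
        ∀ σ : GQ, A.IsFrobeniusAt σ q.1 →
          ∀ m : ℕ, ¬ q.1 ∣ m → ∀ x : ModularCurve.JZero M, m • x = 0 → a x = 0 → b x = 0 →
            σ • σ • σ • σ • σ • σ • x + (1 + 2 * q.1 ^ 2) • (σ • σ • x)
              = (2 + q.1 ^ 2) • (σ • σ • σ • σ • x) + q.1 ^ 2 • x :=
    fun q => @hG M q.1 _ (hne0 q) q.2.1 q.2.2.2.1 q.2.2.2.2
  choose da db hda hdb hfrobq using hab
  let J' : Q × Bool → Type := fun c => ModularCurve.JZero (M / c.1.1)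
  let f : ∀ c : Q × Bool, ModularCurve.JZero M →+ J' c := fun c =>
    match c with
    | (q, true) => da q
    | (q, false) => db q
  let T'' : ∀ c : Q × Bool, {ℓ : Nat.Primes // ¬ (ℓ : ℕ) ∣ M ∧ (ℓ : ℕ) ∉ (↑S : Set ℕ)} →
      J' c →+ J' c :=
    fun c i => (@ModularCurve.heckeOperatorBar (M / c.1.1) (hne0 c.1) i.1).toAddMonoidHom
  have hdivp : ∀ (q : Q) (ℓ : ℕ), ℓ.Prime → ¬ ℓ ∣ M → ℓ ≠ p → ¬ ℓ ∣ (M / q.1) * p := by
    intro q ℓ hℓ hℓN hℓp h
    rcases (Nat.Prime.dvd_mul hℓ).1 h with h | h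
    · exact hℓN (h.trans (Nat.div_dvd_of_dvd q.2.2.2.1))
    · exact hℓp ((Nat.prime_dvd_prime_iff_eq hℓ hp).1 h)
  have hf : ∀ (c : Q × Bool) (i : {ℓ : Nat.Primes // ¬ (ℓ : ℕ) ∣ M ∧ (ℓ : ℕ) ∉ (↑S : Set ℕ)})
      (x : ModularCurve.JZero M), (∃ n : ℕ, p ^ n • x = 0) → f c (T i x) = T'' c i (f c x) := by
    rintro ⟨q, b⟩ i x hx
    cases b with
    | true =>
      exact @Fermat.Agent.S35.H155.map_hecke_of_galois M (M / q.1) _ (hne0 q) p (da q) (hda q)
        (hTors M) (@hTors (M / q.1) (hne0 q)) i.1.1 i.1.2 (hNp _ i.1.2 i.2.1 (hιp i))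
        (hdivp q _ i.1.2 i.2.1 (hιp i)) x hx
    | false =>
      exact @Fermat.Agent.S35.H155.map_hecke_of_galois M (M / q.1) _ (hne0 q) p (db q) (hdb q)
        (hTors M) (@hTors (M / q.1) (hne0 q)) i.1.1 i.1.2 (hNp _ i.1.2 i.2.1 (hιp i))
        (hdivp q _ i.1.2 i.2.1 (hιp i)) x hx
  have hexcl : ∀ (c : Q × Bool) (z : ℕ → O' ⊗[ℤ] J' c), (p : O') • z 0 = 0 →
      (∀ n, (p : O') • z (n + 1) = z n) →
      (∀ i n, tensorOp O' (T'' c) i (z n) = a i • z n) → z = 0 := by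
    intro c z hz0 hzs hzeig
    exact @hX M _ g hg c.1.1 (hne0 c.1) c.1.2.1 c.1.2.2.2.1 p _ S O' _ _ _ _ _ _ hpO' chig hchig
      iota hpS hMS z hz0 hzs (fun ℓ hℓ hℓM hℓS n => hzeig ⟨⟨ℓ, hℓ⟩, hℓM, hℓS⟩ n)
  -- the eigenmodule of the new part
  obtain ⟨E, j1, j2, j3, j4, ρ, hnt, hcont, hone, hquad, hcub⟩ :=
    exists_adic_eigenmodule_new3 (O := O') hpO' hp.ne_zero (J := ModularCurve.JZero M) T a
      (fun i γ x => hgeq M i.1 γ x) hfin'
      (fun x hx => hsm M p x (by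
        obtain ⟨n, hn⟩ := hx
        exact ⟨n, by rw [hpow]; exact hn⟩))
      T'' f hf hexcl seq hseq0 hseqs hseqne hseqeig
  -- the adic eigenmodule
  let EM : AdicEigenModule p M S O' χ :=
    { M := E
      ρ := ρ
      cont := hcont
      unram := fun q hq hqN hqp P hP σ hσ =>
        hone σ fun x hx _ => hunr M p q hq (hNp q hq hqN hqp) P hP σ hσ x (by
          obtain ⟨n, hn⟩ := hx
          exact ⟨n, by rw [hpow]; exact hn⟩)
      frob := fun ℓ hℓ hℓN hℓS A hA σ hσ => by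
        have hℓp : ℓ ≠ p := fun h => hℓS (Finset.mem_coe.mpr (h ▸ hpS))
        have h := hquad σ ⟨⟨ℓ, hℓ⟩, hℓN, hℓS⟩ ((ℓ : ℕ) : ℤ)
          (fun x hx _ => hes M p ℓ hℓ (hNp ℓ hℓ hℓN hℓp) A hA σ hσ x (by
            obtain ⟨n, hn⟩ := hx
            exact ⟨n, by rw [hpow]; exact hn⟩))
        simpa using h }
  refine ⟨EM, ?_⟩
  -- the bad-Frobenius relation: cubic on the module, then quartic by algebra
  intro q hq hqp hqM hq2 A hA σ hσ
  have hqpn : ∀ n : ℕ, ¬ q ∣ p ^ n := by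
    intro n h
    exact hqp ((Nat.prime_dvd_prime_iff_eq hq hp).1 (hq.dvd_of_dvd_pow h))
  have hc := hcub (σ * σ) (-(2 + (q : ℤ) ^ 2)) (1 + 2 * (q : ℤ) ^ 2) (-((q : ℤ) ^ 2)) (by
    rintro x ⟨n, hn⟩ hnew
    have h1 := hfrobq ⟨q, hq, hqp, hqM, hq2⟩ A hA σ hσ (p ^ n) (hqpn n) x hn
      (by simpa using hnew 1 (⟨q, hq, hqp, hqM, hq2⟩, true))
      (by simpa using hnew 1 (⟨q, hq, hqp, hqM, hq2⟩, false))
    simp only [mul_smul]
    have h2 : σ • σ • σ • σ • σ • σ • x + (1 + 2 * q ^ 2) • (σ • σ • x)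
        = (2 + q ^ 2) • (σ • σ • σ • σ • x) + q ^ 2 • x := h1
    generalize σ • σ • σ • σ • σ • σ • x = X6 at h2 ⊢
    generalize σ • σ • σ • σ • x = X4 at h2 ⊢
    generalize σ • σ • x = X2 at h2 ⊢
    linear_combination (norm := module) h2)
  -- the quadratic relation with determinant `q`
  obtain ⟨d, hdfrob, -, -, hdcont⟩ := exists_cyclo p O' hpO'
  have hcheb : ChebWeak :=
    chebWeak_of_frobeniusDivision Fermat.Agent.Lib.Cheb.frobeniusDivision
  obtain ⟨tr, htr⟩ : ∃ tr, S30.H990.Rel EM.ρ d σ tr :=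
    exists_rel_of_mod EM.ρ d σ (fun n => exists_rel_mod hcheb hpS hMS EM d hdfrob hdcont σ n)
  have hdσ : ((d σ : O'ˣ) : O') = (q : O') := hdfrob q hq hqp A hA σ hσ
  have hq0 : (q : O') ≠ 0 := Nat.cast_ne_zero.mpr hq.ne_zero
  have hquad' : ∀ w : EM.M, EM.ρ σ (EM.ρ σ w) - tr • EM.ρ σ w + (q : O') • w = 0 := by
    intro w
    have := rel_apply EM.ρ d htr w
    rwa [hdσ] at this
  have hcubic : CubicFrobRel (q : O') (EM.ρ σ) := by
    intro w
    have h2 := hc w
    have hmul : ∀ u : E, ρ (σ * σ) u = ρ σ (ρ σ u) := by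
      intro u
      rw [map_mul]
      rfl
    rw [hmul, hmul, hmul] at h2
    show ρ σ (ρ σ (ρ σ (ρ σ (ρ σ (ρ σ w))))) - (2 + (q : O') ^ 2) • ρ σ (ρ σ (ρ σ (ρ σ w)))
      + (1 + 2 * (q : O') ^ 2) • ρ σ (ρ σ w) - ((q : O') ^ 2) • w = 0
    have e1 : ((-(2 + (q : ℤ) ^ 2) : ℤ) : O') = -(2 + (q : O') ^ 2) := by push_cast; ring
    have e2 : ((1 + 2 * (q : ℤ) ^ 2 : ℤ) : O') = 1 + 2 * (q : O') ^ 2 := by push_cast; ring
    have e3 : ((-((q : ℤ) ^ 2) : ℤ) : O') = -((q : O') ^ 2) := by push_cast; ring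
    rw [e1, e2, e3] at h2
    rw [← h2]
    module
  intro w
  exact quartic_of_cubicFrob hq0 hquad' hcubic w

end Fermat.Agent.S35.H891

end
-- ===== PACK-END S35/H891/Mid3.lean

-- ===== PACK-BEGIN S35/H891/Wired3.lean
section
/-
S35 (helper891): the frozen statement S35 from the CUBIC bad-Frobenius relation.

`result_of_cubic` : the frozen statement S35 (binders as in the template) from
* the six inputs of row S30 in the unfolded lattice form (`S34/H789/Inputs.lean` shapes, exactly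
  as in `S35/H991/Wired.lean`),
* `NewPartFrob3Statement` (cubic relation on the `q`-new torsion, Galois-equivariant degeneracy
  maps),
* `S35.H991.ExclTateStatement`.
-/


set_option autoImplicit false

namespace Fermat.Agent.S35.H891

open Polynomial TensorProduct Fermat.Agent.S30.H990 Fermat.Agent.S35.H991

theorem result_of_cubic
    (hfin : ∀ (N p : ℕ) [NeZero N], p.Prime →
      Finite {x : ModularCurve.JZero N // (p : ℤ) • x = 0})
    (hsm : ∀ (N p : ℕ) [NeZero N], ∀ x : ModularCurve.JZero N,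
      (∃ n : ℕ, ((p : ℤ) ^ n) • x = 0) →
        ∃ L : IntermediateField ℚ (AlgebraicClosure ℚ), FiniteDimensional ℚ L ∧
          ∀ σ : GQ, (∀ y ∈ L, σ y = y) → σ • x = x)
    (hgeq : ∀ (N : ℕ) [NeZero N] (ℓ : Nat.Primes) (σ : GQ) (x : ModularCurve.JZero N),
      ModularCurve.heckeOperatorBar N ℓ (σ • x) = σ • ModularCurve.heckeOperatorBar N ℓ x)
    (hunr : ∀ (N p : ℕ) [NeZero N], ∀ q : ℕ, q.Prime → ¬ q ∣ N * p →
      ∀ A : ValuationSubring (AlgebraicClosure ℚ), A.LiesOverPrime q →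
        ∀ σ ∈ A.inertiaSubgroupIn ℚ, ∀ x : ModularCurve.JZero N,
          (∃ n : ℕ, ((p : ℤ) ^ n) • x = 0) → σ • x = x)
    (hes : ∀ (N p : ℕ) [NeZero N], ∀ (ℓ : ℕ) (hℓ : ℓ.Prime), ¬ ℓ ∣ N * p →
      ∀ A : ValuationSubring (AlgebraicClosure ℚ), A.LiesOverPrime ℓ →
        ∀ σ : GQ, A.IsFrobeniusAt σ ℓ → ∀ x : ModularCurve.JZero N,
          (∃ n : ℕ, ((p : ℤ) ^ n) • x = 0) →
            σ • σ • x - ModularCurve.heckeOperatorBar N ⟨ℓ, hℓ⟩ (σ • x) + (ℓ : ℤ) • x = 0)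
    (hlat : ∀ (N p : ℕ) [NeZero N], p.Prime →
      ∃ (Λ : Type) (_ : AddCommGroup Λ) (_ : Module.Free ℤ Λ) (_ : Module.Finite ℤ Λ)
        (TΛ : Nat.Primes → Λ →ₗ[ℤ] Λ) (κ : ℕ → Λ →ₗ[ℤ] ModularCurve.JZero N),
        (∀ (n : ℕ) (x : Λ), κ n x = 0 ↔ ∃ y : Λ, x = ((p : ℤ) ^ n) • y) ∧
        (∀ (n : ℕ) (x : Λ), (p : ℤ) • κ (n + 1) x = κ n x) ∧
        (∀ ℓ : Nat.Primes, ¬ (ℓ : ℕ) ∣ N * p → ∀ (n : ℕ) (x : Λ),
          κ n (TΛ ℓ x) = ModularCurve.heckeOperatorBar N ℓ (κ n x)) ∧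
        (∀ (S : Set ℕ) (R : Type) [CommRing R] [IsDomain R] [CharZero R]
          (χ : CuspForm.heckeAlgebra N 2 S →+* R),
          ∃ v : R ⊗[ℤ] Λ, v ≠ 0 ∧
            ∀ (ℓ : ℕ) (hℓ : ℓ.Prime) (hℓN : ¬ ℓ ∣ N) (hℓS : ℓ ∉ S),
              (TΛ ⟨ℓ, hℓ⟩).baseChange R v = χ (CuspForm.heckeAlgebra.T hℓ hℓN hℓS) • v))
    (hG : NewPartFrob3Statement) (hX : ExclTateStatement)
    {M : ℕ} [NeZero M] {g : CuspForm (CongruenceSubgroup.Gamma0 M) 2} (hg : g.IsNewform)
    (lam : ℕ) [Fact lam.Prime]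
    (S : Finset ℕ)
    (O' : Type) [CommRing O'] [IsDomain O'] [IsDiscreteValuationRing O']
    [IsAdicComplete (IsLocalRing.maximalIdeal O') O'] [Finite (IsLocalRing.ResidueField O')]
    [CharZero O'] (hlamO' : (lam : O') ∈ IsLocalRing.maximalIdeal O')
    (chig : CuspForm.heckeAlgebra M 2 (↑S : Set ℕ) →+* ℂ)
    (hchig : ∀ (ℓ : ℕ) (hℓ : ℓ.Prime) (hℓM : ¬ ℓ ∣ M) (hℓS : ℓ ∉ (↑S : Set ℕ)),
      chig (CuspForm.heckeAlgebra.T hℓ hℓM hℓS) = ModularFormClass.qCoeff g ℓ)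
    (iota : chig.range →+* O')
    (hlamS : lam ∈ S) (hMS : ∀ q : ℕ, q.Prime → q ∣ M → q ∈ S) :
    ∃ (O'' : Type) (_ : CommRing O'') (_ : IsDomain O'') (_ : IsDiscreteValuationRing O'')
      (_ : IsAdicComplete (IsLocalRing.maximalIdeal O'') O'') (_ : Finite (IsLocalRing.ResidueField O''))
      (_ : CharZero O'') (_ : Algebra O' O'') (_ : Module.Finite O' O'') (_ : IsLocalHom (algebraMap O' O'')),
      Function.Injective (algebraMap O' O'') ∧
      ∃ ρ : GaloisRepAdic O'',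
        (∀ (ℓ : ℕ) (hℓ : ℓ.Prime) (hℓM : ¬ ℓ ∣ M) (hℓS : ℓ ∉ (↑S : Set ℕ)),
          ∀ A : ValuationSubring (AlgebraicClosure ℚ), A.LiesOverPrime ℓ →
            ∀ σ : AlgebraicClosure ℚ ≃ₐ[ℚ] AlgebraicClosure ℚ, A.IsFrobeniusAt σ ℓ →
              LinearMap.charpoly (ρ.ρ σ) =
                X ^ 2 - C (algebraMap O' O'' ((iota.comp chig.rangeRestrict) (CuspForm.heckeAlgebra.T hℓ hℓM hℓS))) * X
                  + C ((ℓ : O''))) ∧
        (∀ q : ℕ, q.Prime → q ≠ lam → q ∣ M → ¬ q ^ 2 ∣ M →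
          ∀ A : ValuationSubring (AlgebraicClosure ℚ), A.LiesOverPrime q →
            ∀ σ : AlgebraicClosure ℚ ≃ₐ[ℚ] AlgebraicClosure ℚ, A.IsFrobeniusAt σ q →
              LinearMap.charpoly (ρ.ρ σ) = X ^ 2 - C ((q : O'') + 1) * X + C ((q : O'')) ∨
              LinearMap.charpoly (ρ.ρ σ) = X ^ 2 + C ((q : O'') + 1) * X + C ((q : O''))) :=
  _root_.Fermat.Agent.S35.H991.result_of (hasNewformEigenModules_of_cubic hfin hsm hgeq hunr hes hlat hG hX)
    hg lam S O' hlamO' chig hchig iota hlamS hMS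

end Fermat.Agent.S35.H891

end
-- ===== PACK-END S35/H891/Wired3.lean

-- ===== PACK-BEGIN A2/Alg/H348/ChartComp.lean
section




/-!
# A2 / ALG / GLUE, `hconst` part, step 2: the components of a chart give discrete valuation rings

In the setting of `Alg/Spec.lean` (`ChartCtx E w x B`, `c : SSChart w B`): the hypotheses
`CompData` of `CompDvr.lean` hold for `A = R[x]`, `B`, `p = c.p₁`, `p' = c.p₂` (and symmetrically),
hence `B_{p_i}` is a discrete valuation ring of `F` with uniformiser `w`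
(`compData₁`, `compData₂`).

Reusable pieces:
* `chart_eq`                 : `B = H138.chart R {x}`;
* `injective_algebraMap_RF`, `transcendental_R`, `prime_w`;
* `isAlgebraic_adjoin`       : `F` is algebraic over `R[x]` (from `hfin`);
* `exists_mul_mem_chart`     : `F = Frac B`, denominators in `R[x]`;
* `contract_of_inf`          : `p ∩ R[x] = w R[x]` (torsion-freeness of `B / w B` over `k[x]`,
                               `H729.mem_chart_of_mul_mem`).
-/

set_option autoImplicit false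
set_option linter.unusedSectionVars false
set_option linter.style.haveILetI false

open Polynomial

namespace Fermat.Agent.A2.Alg.H348

open Fermat.Agent.A2 Fermat.Agent.A2.Alg Fermat.Agent.A2.H348
open Fermat.Agent.S18.H138 (chart baseField)

section Basic

theorem injective_algebraMap_RF (R E F : Type*) [CommRing R] [IsDomain R]
    [Field E] [Algebra R E] [IsFractionRing R E]
    [Field F] [Algebra E F] [Algebra R F] [IsScalarTower R E F] :
    Function.Injective (algebraMap R F) := by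
  rw [IsScalarTower.algebraMap_eq R E F]
  exact (algebraMap E F).injective.comp (IsFractionRing.injective R E)

variable {R E F : Type*} [CommRing R] [IsDomain R]
  [Field E] [Algebra R E] [IsFractionRing R E]
  [Field F] [Algebra E F] [Algebra R F] [IsScalarTower R E F]

variable (R) in
theorem transcendental_R {x : F} (hx : Transcendental E x) : Transcendental R x :=
  hx.restrictScalars (IsFractionRing.injective R E)

/-- `E(x) ⊆ Frac R[x]` inside `F`. -/
theorem adjoin_le_baseField (x : F) :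
    (IntermediateField.adjoin E ({x} : Set F)).toSubfield ≤ baseField R x := by
  rw [IntermediateField.adjoin_toSubfield, Subfield.closure_le]
  rintro y (⟨e, rfl⟩ | hy)
  · obtain ⟨a, b, -, rfl⟩ := IsFractionRing.div_surjective (A := R) e
    rw [map_div₀, ← IsScalarTower.algebraMap_apply, ← IsScalarTower.algebraMap_apply]
    exact (baseField R x).div_mem (Subfield.subset_closure (Or.inl ⟨a, rfl⟩))
      (Subfield.subset_closure (Or.inl ⟨b, rfl⟩))
  · exact Subfield.subset_closure (Or.inr hy)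

/-- `F` is algebraic over `R[x]`. -/
theorem isAlgebraic_adjoin {x : F}
    (hfin : FiniteDimensional (IntermediateField.adjoin E ({x} : Set F)) F) (f : F) :
    IsAlgebraic (Algebra.adjoin R ({x} : Set F)) f := by
  classical
  set A : Subalgebra R F := Algebra.adjoin R ({x} : Set F) with hA
  set K : Subfield F := baseField R x with hK
  have hle := _root_.Fermat.Agent.A2.Alg.H348.adjoin_le_baseField (R := R) (E := E) x
  have h1 : IsAlgebraic (IntermediateField.adjoin E ({x} : Set F)) f :=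
    Algebra.IsAlgebraic.isAlgebraic f
  obtain ⟨P, hP0, hP⟩ := h1
  let φ : A →+* K :=
    { toFun := fun a => ⟨a, Fermat.Agent.S18.H138.adjoin_le_baseField x a.2⟩
      map_one' := rfl
      map_mul' := fun _ _ => rfl
      map_zero' := rfl
      map_add' := fun _ _ => rfl }
  letI : Algebra A K := φ.toAlgebra
  haveI : IsScalarTower A K F := IsScalarTower.of_algebraMap_eq (fun _ => rfl)
  have hinj : Function.Injective (algebraMap A K) := by
    intro a b hab
    have : (a : F) = b := congrArg (fun t : K => (t : F)) hab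
    exact Subtype.ext this
  haveI : FaithfulSMul A K := (faithfulSMul_iff_algebraMap_injective A K).2 hinj
  haveI : IsFractionRing A K := by
    refine IsFractionRing.of_field A K (fun z => ?_)
    obtain ⟨a, ha, b, hb, h⟩ := Fermat.Agent.S18.H138.exists_div_of_mem_baseField (R := R) x z.2
    exact ⟨⟨a, ha⟩, ⟨b, hb⟩, Subtype.ext h⟩
  rw [IsFractionRing.isAlgebraic_iff A K F]
  refine ⟨P.map (Subfield.inclusion hle), ?_, ?_⟩
  · exact (Polynomial.map_ne_zero_iff (Subfield.inclusion hle).injective).2 hP0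
  · rw [aeval_def, eval₂_map]
    exact hP

end Basic

section Chart

variable {R E F : Type*} [CommRing R] [IsDomain R] [IsDiscreteValuationRing R]
  [Field E] [Algebra R E] [IsFractionRing R E]
  [Field F] [Algebra E F] [Algebra R F] [IsScalarTower R E F]

theorem prime_w {w : R} (hw : Irreducible w) : Prime w := hw.prime

theorem chart_eq {w : R} {x : F} {B : Subalgebra R F} (hB : ChartCtx E w x B) :
    B = chart R ({x} : Set F) := by
  ext f
  rw [hB.hB f]
  rfl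

/-- `F = Frac B`, with denominators in `R[x]`. -/
theorem exists_mul_mem_chart {x : F}
    (hfin : FiniteDimensional (IntermediateField.adjoin E ({x} : Set F)) F) (f : F) :
    ∃ a ∈ Algebra.adjoin R ({x} : Set F), a ≠ 0 ∧ a * f ∈ chart R ({x} : Set F) := by
  obtain ⟨a, ha0, ha⟩ := (isAlgebraic_adjoin (R := R) (E := E) hfin f).exists_integral_multiple
  refine ⟨a, a.2, fun h => ha0 (Subtype.ext h), ?_⟩
  exact ha

/-- every nonzero element of the chart divides a nonzero element of `R[x]`. -/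
theorem exists_cofactor {x : F} {b : F} (hb : b ∈ chart R ({x} : Set F)) (hb0 : b ≠ 0) :
    ∃ g ∈ chart R ({x} : Set F), b * g ∈ Algebra.adjoin R ({x} : Set F) ∧ b * g ≠ 0 := by
  have hint : IsIntegral (Algebra.adjoin R ({x} : Set F)) b := hb
  obtain ⟨t, ht, r, hr, h⟩ := hint.isAlgebraic.exists_nonzero_eq_adjoin_mul
    (mem_nonZeroDivisors_of_ne_zero hb0)
  have ht' : IsIntegral (Algebra.adjoin R ({x} : Set F)) t := adjoin_le_integralClosure hint ht
  refine ⟨t, ht', ?_, ?_⟩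
  · rw [h]; exact r.2
  · rw [h]
    intro h0
    exact hr (Subtype.ext h0)

/-- no nonzero element of `R[x]` is divisible by all powers of `w`. -/
theorem exists_not_pow_dvd {w : R} (hw : Irreducible w) {x : F} (hx : Transcendental R x)
    {a : F} (ha : a ∈ Algebra.adjoin R ({x} : Set F)) (ha0 : a ≠ 0) :
    ∃ n : ℕ, ∀ a' ∈ Algebra.adjoin R ({x} : Set F), a ≠ algebraMap R F w ^ (n + 1) * a' := by
  haveI := Fermat.Agent.S18.H138.isNoetherianRing_adjoin_singleton (R := R) hx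
  have hpr := Fermat.Agent.A2.H729.prime_algebraMap_adjoin (prime_w hw) hx
  have hfm : FiniteMultiplicity (algebraMap R (Algebra.adjoin R ({x} : Set F)) w)
      (⟨a, ha⟩ : Algebra.adjoin R ({x} : Set F)) :=
    FiniteMultiplicity.of_not_isUnit hpr.not_unit (fun h => ha0 (congrArg Subtype.val h))
  obtain ⟨n, hn⟩ := hfm
  refine ⟨n, fun a' ha' h => hn ⟨⟨a', ha'⟩, ?_⟩⟩
  apply Subtype.ext
  exact h

/-- `p ∩ R[x] = w R[x]` for a component `p` of the special fibre of the chart. -/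
theorem contract_of_inf {w : R} (hw : Irreducible w) {x : F} (hx : Transcendental R x)
    {p p' : Ideal (chart R ({x} : Set F))}
    (hinf : p ⊓ p' = Ideal.span {algebraMap R (chart R ({x} : Set F)) w}) (hle : ¬ p' ≤ p)
    (a : chart R ({x} : Set F)) (haA : (a : F) ∈ Algebra.adjoin R ({x} : Set F)) (hap : a ∈ p) :
    ∃ a' ∈ Algebra.adjoin R ({x} : Set F), (a : F) = algebraMap R F w * a' := by
  by_contra hcon
  have hw0 : algebraMap R F w ≠ 0 := by
    intro h0
    apply hcon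
    exact absurd (Fermat.Agent.A2.H729.prime_algebraMap_adjoin (prime_w hw) hx).ne_zero
      (by
        intro hne
        apply hne
        apply Subtype.ext
        exact h0)
  have hnd : ¬ algebraMap R (Algebra.adjoin R ({x} : Set F)) w ∣
      (⟨(a : F), haA⟩ : Algebra.adjoin R ({x} : Set F)) := by
    rintro ⟨a', ha'⟩
    apply hcon
    refine ⟨a', a'.2, ?_⟩
    exact congrArg Subtype.val ha'
  have hG := Fermat.Agent.A2.H729.isGaussDenom_of_not_dvd hx hnd
  obtain ⟨t, ht', ht⟩ := SetLike.not_le_iff_exists.1 hle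
  have hat : a * t ∈ p ⊓ p' := ⟨p.mul_mem_right _ hap, p'.mul_mem_left _ ht'⟩
  rw [hinf, Ideal.mem_span_singleton'] at hat
  obtain ⟨c, hc⟩ := hat
  have hc' : (c : F) * algebraMap R F w = (a : F) * (t : F) := congrArg Subtype.val hc
  have h1 : algebraMap R F w * ((t : F) * (algebraMap R F w)⁻¹) ∈ chart R ({x} : Set F) := by
    have : algebraMap R F w * ((t : F) * (algebraMap R F w)⁻¹) = (t : F) := by field_simp
    rw [this]; exact t.2
  have h2 : (a : F) * ((t : F) * (algebraMap R F w)⁻¹) ∈ chart R ({x} : Set F) := by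
    have : (a : F) * ((t : F) * (algebraMap R F w)⁻¹) = (c : F) := by
      rw [← mul_assoc, ← hc', mul_assoc, mul_inv_cancel₀ hw0, mul_one]
    rw [this]; exact c.2
  have h3 := Fermat.Agent.A2.H729.mem_chart_of_mul_mem (prime_w hw) hx hG h1 h2
  apply ht
  have h4 : t = algebraMap R (chart R ({x} : Set F)) w * ⟨_, h3⟩ := by
    apply Subtype.ext
    show (t : F) = algebraMap R F w * ((t : F) * (algebraMap R F w)⁻¹)
    field_simp
  have hwp : algebraMap R (chart R ({x} : Set F)) w ∈ p := by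
    have : algebraMap R (chart R ({x} : Set F)) w ∈ p ⊓ p' := by
      rw [hinf]; exact Ideal.mem_span_singleton_self _
    exact this.1
  rw [h4]
  exact p.mul_mem_right _ hwp

theorem adjoin_le_of_ctx {w : R} {x : F} {B : Subalgebra R F} (hB : ChartCtx E w x B) :
    Algebra.adjoin R ({x} : Set F) ≤ B := by
  rw [chart_eq hB]
  exact Fermat.Agent.S18.H138.adjoin_le_chart _

/-- **`CompData` for a component of a chart.** -/
theorem compData_of_inf {w : R} {x : F} {B : Subalgebra R F} (hB : ChartCtx E w x B)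
    {p p' : Ideal B} (hinf : p ⊓ p' = Ideal.span {algebraMap R B w}) (hle : ¬ p' ≤ p) :
    CompData (Algebra.adjoin R ({x} : Set F)) B p p' w := by
  obtain rfl := chart_eq hB
  have hx : Transcendental R x := transcendental_R R hB.hx
  have hw0 : algebraMap R F w ≠ 0 := by
    intro h0
    exact hB.hw.ne_zero (injective_algebraMap_RF R E F (by rw [h0, map_zero]))
  exact
    { inf_eq := hinf
      not_le := hle
      w_ne := hw0
      contract := contract_of_inf hB.hw hx hinf hle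
      finite_mult := fun a ha ha0 => exists_not_pow_dvd hB.hw hx ha ha0
      cofactor := fun b hb hb0 => exists_cofactor hb hb0
      frac := fun f => by
        obtain ⟨a, ha, ha0, haf⟩ := exists_mul_mem_chart (R := R) (E := E) hB.hfin f
        exact ⟨a, ha, ha0, Fermat.Agent.S18.H138.adjoin_le_chart _ ha, haf⟩ }

theorem compData₁ {w : R} {x : F} {B : Subalgebra R F} (hB : ChartCtx E w x B)
    (c : SSChart w B) : CompData (Algebra.adjoin R ({x} : Set F)) B c.p₁ c.p₂ w :=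
  compData_of_inf hB c.inf_eq c.not_le₂₁

theorem compData₂ {w : R} {x : F} {B : Subalgebra R F} (hB : ChartCtx E w x B)
    (c : SSChart w B) : CompData (Algebra.adjoin R ({x} : Set F)) B c.p₂ c.p₁ w :=
  compData_of_inf hB (by rw [inf_comm]; exact c.inf_eq) c.not_le₁₂

end Chart

end Fermat.Agent.A2.Alg.H348

end
-- ===== PACK-END A2/Alg/H348/ChartComp.lean

-- ===== PACK-BEGIN S35/H433/Ident.lean
section




/-!
# S35 / (G) — identification of the components of a chart with valuation subrings (helper433)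

`B` a chart (`ChartCtx`), `c : SSChart w B`.  Every valuation subring `V ⊇ B` of `F` with
`w⁻¹ ∉ V` on which the coordinate `x` is non-constant (`x - r` is a unit of `V` for every constant
`r`) is the local ring of one of the two components:

* `eq_locAt_or` : `V = B_{p₁}` or `V = B_{p₂}` (as sets: `z ∈ V ↔ InLoc B pᵢ ⊤ z`);
* `mem_nonunits_iff_inLoc` : then `𝔪_V = pᵢ B_{pᵢ}`.

Used to translate statements on the Gauss valuations `V∞`, `V₀` (A2/MOD language) into the chart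
language of `A2/Alg/Spec.lean` (`LocUnit`, `OneAt`, `ConstAt`, `IsSplit`), for an ARBITRARY
`SSChart` (e.g. one obtained from `Nonempty (SSChart w B)`).
-/

set_option autoImplicit false
set_option linter.unusedSectionVars false

namespace Fermat.Agent.S35.H433

open Fermat.Agent.A2 Fermat.Agent.A2.Alg Fermat.Agent.A2.H348 Fermat.Agent.A2.Alg.H348

section Core

variable {R F : Type*} [CommRing R] [Field F] [Algebra R F] {B : Subalgebra R F}

theorem inLoc_top_iff_mem_locAt {p : Ideal B} [p.IsPrime] {z : F} :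
    InLoc B p ⊤ z ↔ z ∈ locAt B p := by
  constructor
  · rintro ⟨a, b, -, hb, hab⟩
    exact ⟨b, hb, by rw [mul_comm, hab]; exact a.2⟩
  · rintro ⟨s, hs, hsz⟩
    exact ⟨⟨_, hsz⟩, s, trivial, hs, by rw [mul_comm]⟩

/-- The contraction of the maximal ideal of `V ⊇ B` to `B`. -/
def cutIdeal (V : ValuationSubring F) (hBV : ∀ b : B, (b : F) ∈ V) : Ideal B :=
  Ideal.comap ((B.val : B →+* F).codRestrict V.toSubring hBV) (IsLocalRing.maximalIdeal V)

theorem mem_cutIdeal {V : ValuationSubring F} {hBV : ∀ b : B, (b : F) ∈ V} {b : B} :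
    b ∈ cutIdeal V hBV ↔ (b : F) ∈ V.nonunits := by
  rw [cutIdeal, Ideal.mem_comap, ← ValuationSubring.coe_mem_nonunits_iff]
  rfl

instance cutIdeal_isPrime (V : ValuationSubring F) (hBV : ∀ b : B, (b : F) ∈ V) :
    (cutIdeal V hBV).IsPrime :=
  Ideal.comap_isPrime _ _

/-- A non-unit of `B` in `V` which is not in the cut ideal is a unit of `V`. -/
theorem inv_mem_of_not_mem_cutIdeal {V : ValuationSubring F} {hBV : ∀ b : B, (b : F) ∈ V}
    {b : B} (hb : b ∉ cutIdeal V hBV) : (b : F)⁻¹ ∈ V := by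
  rw [mem_cutIdeal, ValuationSubring.mem_nonunits_iff_or, not_or, not_not] at hb
  exact hb.2

/-- **Core.**  If the cut ideal of `V` equals the component `p`, then `V = B_p`. -/
theorem mem_iff_mem_locAt {A : Subalgebra R F} {p p' : Ideal B} [hp : p.IsPrime] {w : R}
    (D : CompData A B p p' w) (hAB : A ≤ B) (V : ValuationSubring F)
    (hBV : ∀ b : B, (b : F) ∈ V) (hwV : (algebraMap R F w)⁻¹ ∉ V)
    (hcut : cutIdeal V hBV = p) (z : F) : z ∈ V ↔ z ∈ locAt B p := by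
  constructor
  · intro hz
    rcases D.mem_or_inv_mem hAB z with h | h
    · exact h
    · by_contra hz'
      have h1 := D.mul_inv_mem h (by rwa [inv_inv])
      obtain ⟨s, hs, hsz⟩ := h1
      -- `z⁻¹ w⁻¹ ∈ B_p ⊆ V`
      have hsV : (s : F)⁻¹ ∈ V := inv_mem_of_not_mem_cutIdeal (hBV := hBV) (by rw [hcut]; exact hs)
      have h2 : z⁻¹ * (algebraMap R F w)⁻¹ ∈ V := by
        have hs0 : (s : F) ≠ 0 := coe_ne_zero_of_not_mem hs
        have e : z⁻¹ * (algebraMap R F w)⁻¹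
            = (s : F)⁻¹ * ((s : F) * (z⁻¹ * (algebraMap R F w)⁻¹)) := by
          rw [← mul_assoc, inv_mul_cancel₀ hs0, one_mul]
        rw [e]
        exact V.mul_mem _ _ hsV (hBV ⟨_, hsz⟩)
      apply hwV
      have hz0 : z ≠ 0 := by
        rintro rfl
        exact hz' (locAt B p).zero_mem
      have e : (algebraMap R F w)⁻¹ = z * (z⁻¹ * (algebraMap R F w)⁻¹) := by
        rw [← mul_assoc, mul_inv_cancel₀ hz0, one_mul]
      rw [e]
      exact V.mul_mem _ _ hz h2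
  · rintro ⟨s, hs, hsz⟩
    have hsV : (s : F)⁻¹ ∈ V := inv_mem_of_not_mem_cutIdeal (hBV := hBV) (by rw [hcut]; exact hs)
    have hs0 : (s : F) ≠ 0 := coe_ne_zero_of_not_mem hs
    have e : z = (s : F)⁻¹ * ((s : F) * z) := by
      rw [← mul_assoc, inv_mul_cancel₀ hs0, one_mul]
    rw [e]
    exact V.mul_mem _ _ hsV (hBV ⟨_, hsz⟩)

/-- If `V = B_p` then `𝔪_V = p B_p`. -/
theorem mem_nonunits_iff_inLoc {p : Ideal B} [hp : p.IsPrime] (V : ValuationSubring F)
    (hV : ∀ z : F, z ∈ V ↔ InLoc B p ⊤ z) (z : F) : z ∈ V.nonunits ↔ InLoc B p p z := by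
  rw [ValuationSubring.mem_nonunits_iff_or]
  constructor
  · rintro (rfl | hz)
    · exact inLoc_zero p p
    · by_contra h
      by_cases hzV : InLoc B p ⊤ z
      · exact hz ((hV _).2 (inLoc_inv_of_not hzV h))
      · -- `z ∉ V`, so `z⁻¹ ∈ V`
        have : z⁻¹ ∈ V := (V.mem_or_inv_mem z).resolve_left (fun h' => hzV ((hV _).1 h'))
        exact hz this
  · intro h
    by_cases hz0 : z = 0
    · exact Or.inl hz0
    · right
      intro hz
      have h1 : InLoc B p ⊤ z⁻¹ := (hV _).1 hz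
      have := h.mul' h1
      rw [mul_inv_cancel₀ hz0] at this
      exact not_inLoc_one this

end Core

section Chart

variable {R E F : Type*} [CommRing R] [IsDomain R] [IsDiscreteValuationRing R]
  [IsAlgClosed (IsLocalRing.ResidueField R)]
  [Field E] [CharZero E] [Algebra R E] [IsFractionRing R E]
  [Field F] [Algebra E F] [Algebra R F] [IsScalarTower R E F]

/-- The cut ideal of `V` is one of the two components. -/
theorem cutIdeal_eq_or (w : R) (x : F) (B : Subalgebra R F) (hB : ChartCtx E w x B)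
    (c : SSChart w B) (V : ValuationSubring F) (hBV : ∀ b : B, (b : F) ∈ V)
    (hwV : (algebraMap R F w)⁻¹ ∉ V) (hxV : ∀ r : R, (x - algebraMap R F r)⁻¹ ∈ V) :
    cutIdeal V hBV = c.p₁ ∨ cutIdeal V hBV = c.p₂ := by
  have hp₁ := c.prime₁
  have hp₂ := c.prime₂
  have hn₁ := c.normal₁
  have hn₂ := c.normal₂
  obtain ⟨hnoeth, -, -⟩ := H34.chart_instances' w x B hB
  have hD₁ : IsDedekindDomain (B ⧸ c.p₁) :=
    H609.isDedekindDomain_quotient_chart w x B hB c.p₁ (mem_w_left c)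
  have hD₂ : IsDedekindDomain (B ⧸ c.p₂) :=
    H609.isDedekindDomain_quotient_chart w x B hB c.p₂ (mem_w_right c)
  set P := cutIdeal V hBV with hP
  have hw0 : algebraMap R F w ≠ 0 := by
    intro h
    apply hwV
    rw [h, inv_zero]
    exact V.zero_mem
  have hwP : algebraMap R B w ∈ P := by
    rw [hP, mem_cutIdeal, ValuationSubring.mem_nonunits_iff_or]
    exact Or.inr hwV
  -- `P` is not maximal
  have hnm : ¬ P.IsMaximal := by
    intro hmax
    obtain ⟨r, hr⟩ := exists_const_sub_mem w x B hB P hmax hwP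
      ⟨x, H609.self_mem_chart x B hB.hB⟩
    rw [hP, mem_cutIdeal, ValuationSubring.mem_nonunits_iff_or] at hr
    rcases hr with hr | hr
    · have h1 := hxV r
      have h2 : x - algebraMap R F r = 0 := hr
      rw [h2, inv_zero] at h1
      -- no contradiction from `0 ∈ V`; use that `x - r ≠ 0` since `x` is transcendental
      have hx : Transcendental R x := H34.transcendental_of_field hB.hx
      apply hx
      refine ⟨Polynomial.X - Polynomial.C r, Polynomial.X_sub_C_ne_zero r, ?_⟩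
      simpa using h2
    · exact hr (hxV r)
  have key : ∀ (p : Ideal B) [p.IsPrime] [IsDedekindDomain (B ⧸ p)], p ≤ P → P = p := by
    intro p _ _ hpP
    refine le_antisymm ?_ hpP
    by_contra hle
    apply hnm
    -- the image of `P` in `B ⧸ p` is a nonzero prime, hence maximal
    have hPb : (P.map (Ideal.Quotient.mk p)).IsPrime :=
      Ideal.map_isPrime_of_surjective Ideal.Quotient.mk_surjective
        (by rw [Ideal.mk_ker]; exact hpP)
    have hne : P.map (Ideal.Quotient.mk p) ≠ ⊥ := by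
      intro h
      apply hle
      intro b hb
      have : Ideal.Quotient.mk p b ∈ P.map (Ideal.Quotient.mk p) := Ideal.mem_map_of_mem _ hb
      rw [h, Ideal.mem_bot, Ideal.Quotient.eq_zero_iff_mem] at this
      exact this
    have hmax : (P.map (Ideal.Quotient.mk p)).IsMaximal := hPb.isMaximal hne
    have hcomap : (P.map (Ideal.Quotient.mk p)).comap (Ideal.Quotient.mk p) = P := by
      rw [Ideal.comap_map_of_surjective _ Ideal.Quotient.mk_surjective, ← RingHom.ker_eq_comap_bot,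
        Ideal.mk_ker, sup_eq_left]
      exact hpP
    rw [← hcomap]
    exact Ideal.comap_isMaximal_of_surjective _ Ideal.Quotient.mk_surjective
  have hle : c.p₁ ⊓ c.p₂ ≤ P := by
    rw [c.inf_eq, Ideal.span_singleton_le_iff_mem]
    exact hwP
  rcases (Ideal.IsPrime.inf_le (cutIdeal_isPrime V hBV)).1 hle with h | h
  · exact Or.inl (key c.p₁ h)
  · exact Or.inr (key c.p₂ h)

/-- **Identification.**  `V = B_{p₁}` or `V = B_{p₂}`. -/
theorem eq_locAt_or (w : R) (x : F) (B : Subalgebra R F) (hB : ChartCtx E w x B)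
    (c : SSChart w B) (V : ValuationSubring F) (hBV : ∀ b : B, (b : F) ∈ V)
    (hwV : (algebraMap R F w)⁻¹ ∉ V) (hxV : ∀ r : R, (x - algebraMap R F r)⁻¹ ∈ V) :
    (∀ z : F, z ∈ V ↔ InLoc B c.p₁ ⊤ z) ∨ (∀ z : F, z ∈ V ↔ InLoc B c.p₂ ⊤ z) := by
  have hp₁ := c.prime₁
  have hp₂ := c.prime₂
  have hAB := adjoin_le_of_ctx hB
  rcases cutIdeal_eq_or w x B hB c V hBV hwV hxV with h | h
  · left
    intro z
    rw [inLoc_top_iff_mem_locAt]
    exact mem_iff_mem_locAt (compData₁ hB c) hAB V hBV hwV h z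
  · right
    intro z
    rw [inLoc_top_iff_mem_locAt]
    exact mem_iff_mem_locAt (compData₂ hB c) hAB V hBV hwV h z

end Chart

end Fermat.Agent.S35.H433

end
-- ===== PACK-END S35/H433/Ident.lean

-- ===== PACK-BEGIN A2/Alg/H34/Asm.lean
section


/-!
# WALL A2 / ALG — route S assembly (helper34): `AlgSSStatement` from three leaves

`algSS_of_leaves : PuritySmoothLeaf → PurityNodeLeaf → GlueLeaf → AlgSSStatement`
(`AlgSSStatement` = frozen interface of `Fermat/Agent/A2/Spec.lean` v2).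

The three leaf `Prop`s are VERBATIM the statements `purity_smooth`, `purity_node`, `glue` of
`origin/helper34:Fermat/Agent/A2/Alg/Skel.lean`, at universe level `0`.  Everything else (Step I,
`DivisibleDiv` transport, the passage `PureAt u ⇒ LocalFactor (τ u / u)`) is proved in
`Alg/H34/{StepI,Basic,Base,Val}.lean`.  Neither `τ x = x` nor the finite order of `τ` is used.
-/

set_option autoImplicit false

namespace Fermat.Agent.A2.Alg.H34

open Fermat.Agent.A2 Fermat.Agent.A2.Alg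

/-- **Leaf P-S** (purity at a closed point lying on ONE component). -/
def PuritySmoothLeaf : Prop :=
  ∀ {R E F : Type} [CommRing R] [IsDomain R] [IsDiscreteValuationRing R]
    [HenselianLocalRing R] [IsAlgClosed (IsLocalRing.ResidueField R)]
    [Field E] [CharZero E] [Algebra R E] [IsFractionRing R E]
    [Field F] [Algebra E F] [Algebra R F] [IsScalarTower R E F]
    (q m : ℕ) (_ : q.Prime) (_ : (q : R) ∈ IsLocalRing.maximalIdeal R)
    (_ : 0 < m) (_ : ¬ q ∣ m)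
    (w : R) (x : F) (B : Subalgebra R F) (_ : ChartCtx E w x B)
    (c : SSChart w B) (_ : Incomparable c)
    (u : F) (_ : u ≠ 0) (_ : DivisibleDiv E m u) (_ : IsSplit B c u)
    (n : Ideal B) (_ : n.IsMaximal) (_ : algebraMap R B w ∈ n)
    (_ : ¬ (c.p₁ ≤ n ∧ c.p₂ ≤ n)), PureAt B c m u n

/-- **Leaf P-N** (purity at a crossing point). -/
def PurityNodeLeaf : Prop :=
  ∀ {R E F : Type} [CommRing R] [IsDomain R] [IsDiscreteValuationRing R]
    [HenselianLocalRing R] [IsAlgClosed (IsLocalRing.ResidueField R)]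
    [Field E] [CharZero E] [Algebra R E] [IsFractionRing R E]
    [Field F] [Algebra E F] [Algebra R F] [IsScalarTower R E F]
    (q m : ℕ) (_ : q.Prime) (_ : (q : R) ∈ IsLocalRing.maximalIdeal R)
    (_ : 0 < m) (_ : ¬ q ∣ m)
    (w : R) (x : F) (B : Subalgebra R F) (_ : ChartCtx E w x B)
    (c : SSChart w B) (_ : Incomparable c) (_ : SepCoord R E x B)
    (u : F) (_ : u ≠ 0) (_ : DivisibleDiv E m u) (_ : IsSplit B c u)
    (n : Ideal B) (_ : n.IsMaximal) (_ : algebraMap R B w ∈ n)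
    (_ : c.p₁ ≤ n) (_ : c.p₂ ≤ n), PureAt B c m u n

/-- **Leaf GLUE** (a Kummer class locally factored at every closed point of the special fibre of
both charts is trivial). -/
def GlueLeaf : Prop :=
  ∀ {R E F : Type} [CommRing R] [IsDomain R] [IsDiscreteValuationRing R]
    [HenselianLocalRing R] [IsAlgClosed (IsLocalRing.ResidueField R)]
    [Field E] [CharZero E] [Algebra R E] [IsFractionRing R E]
    [Field F] [Algebra E F] [Algebra R F] [IsScalarTower R E F]
    (q m : ℕ) (_ : q.Prime) (_ : (q : R) ∈ IsLocalRing.maximalIdeal R)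
    (_ : 0 < m) (_ : ¬ q ∣ m)
    (w : R) (x : F) (Bf Bi : Subalgebra R F)
    (_ : ChartCtx E w x Bf) (_ : ChartCtx E w x⁻¹ Bi)
    (cf : SSChart w Bf) (ci : SSChart w Bi) (_ : Incomparable cf) (_ : Incomparable ci)
    (u : F) (_ : u ≠ 0) (_ : DivisibleDiv E m u)
    (_ : LocallyFactored Bf cf m u) (_ : LocallyFactored Bi ci m u),
    ∃ y : F, y ≠ 0 ∧ u = y ^ m

theorem incomparable_of_ssChart {R F : Type*} [CommRing R] [Field F] [Algebra R F] {w : R}
    {B : Subalgebra R F} (c : SSChart w B) : Incomparable c :=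
  ⟨c.not_le₁₂, c.not_le₂₁⟩

section Asm

variable {R E F : Type} [CommRing R] [IsDomain R] [IsDiscreteValuationRing R]
  [HenselianLocalRing R] [IsAlgClosed (IsLocalRing.ResidueField R)]
  [Field E] [CharZero E] [Algebra R E] [IsFractionRing R E]
  [Field F] [Algebra E F] [Algebra R F] [IsScalarTower R E F]

/-- Purity at every closed point of the special fibre. -/
theorem purity_of_leaves (hPS : PuritySmoothLeaf) (hPN : PurityNodeLeaf)
    (q m : ℕ) (hq : q.Prime) (hqR : (q : R) ∈ IsLocalRing.maximalIdeal R)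
    (hm : 0 < m) (hqm : ¬ q ∣ m)
    (w : R) (x : F) (B : Subalgebra R F) (hB : ChartCtx E w x B)
    (c : SSChart w B) (s : SepCoord R E x B)
    (u : F) (hu : u ≠ 0) (hdiv : DivisibleDiv E m u) (hs : IsSplit B c u)
    (n : Ideal B) (hn : n.IsMaximal) (hwn : algebraMap R B w ∈ n) : PureAt B c m u n := by
  by_cases h1 : c.p₁ ≤ n ∧ c.p₂ ≤ n
  · exact hPN q m hq hqR hm hqm w x B hB c (incomparable_of_ssChart c) s u hu hdiv hs n hn hwn
      h1.1 h1.2
  · exact hPS q m hq hqR hm hqm w x B hB c (incomparable_of_ssChart c) u hu hdiv hs n hn hwn h1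

/-- **Step II.**  A split Kummer class is fixed by `τ`. -/
theorem stepII_of_leaves (hPS : PuritySmoothLeaf) (hPN : PurityNodeLeaf) (hG : GlueLeaf)
    (q m : ℕ) (hq : q.Prime) (hqR : (q : R) ∈ IsLocalRing.maximalIdeal R)
    (hm : 0 < m) (hqm : ¬ q ∣ m)
    (w : R) (x : F) (Bf Bi : Subalgebra R F)
    (hBf : ChartCtx E w x Bf) (hBi : ChartCtx E w x⁻¹ Bi)
    (cf : SSChart w Bf) (ci : SSChart w Bi)
    (sf : SepCoord R E x Bf) (si : SepCoord R E x⁻¹ Bi)
    (τ : F ≃+* F) (τE : E ≃+* E) (τR : R ≃+* R)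
    (hτf : TauCtx w Bf τ τE τR) (hτi : TauCtx w Bi τ τE τR)
    (u : F) (hu : u ≠ 0) (hdiv : DivisibleDiv E m u)
    (hsf : IsSplit Bf cf u) (hsi : IsSplit Bi ci u) :
    ∃ h : F, h ≠ 0 ∧ τ u = h ^ m * u := by
  have hτu : τ u ≠ 0 := (map_ne_zero τ).2 hu
  have hu' : τ u * u⁻¹ ≠ 0 := mul_ne_zero hτu (inv_ne_zero hu)
  have hdiv' : DivisibleDiv E m (τ u * u⁻¹) :=
    divisibleDiv_mul_inv m _ _ (divisibleDiv_tau τ τE hτf.hτE m u hdiv) hdiv
  have hf : LocallyFactored Bf cf m (τ u * u⁻¹) := fun n hn hwn =>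
    localFactor_of_pureAt w Bf cf τ τE τR hτf m u hu n hn.isPrime hwn
      (purity_of_leaves hPS hPN q m hq hqR hm hqm w x Bf hBf cf sf u hu hdiv hsf n hn hwn)
  have hi : LocallyFactored Bi ci m (τ u * u⁻¹) := fun n hn hwn =>
    localFactor_of_pureAt w Bi ci τ τE τR hτi m u hu n hn.isPrime hwn
      (purity_of_leaves hPS hPN q m hq hqR hm hqm w x⁻¹ Bi hBi ci si u hu hdiv hsi n hn hwn)
  obtain ⟨y, hy, hyu⟩ := hG q m hq hqR hm hqm w x Bf Bi hBf hBi cf ci
    (incomparable_of_ssChart cf) (incomparable_of_ssChart ci) _ hu' hdiv' hf hi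
  refine ⟨y, hy, ?_⟩
  rw [← hyu, mul_assoc, inv_mul_cancel₀ hu, mul_one]

end Asm

/-- **ALG, route S**: the frozen interface `AlgSSStatement` from the three leaves. -/
theorem algSS_of_leaves (hPS : PuritySmoothLeaf) (hPN : PurityNodeLeaf) (hG : GlueLeaf) :
    AlgSSStatement := by
  intro R E F _ _ _ _ _ _ _ _ _ _ _ _ _ w hw q m hq hqR hm hqm x hx hfin hconst Bf Bi hBf hBi
    cf ci sf si τ τE τR hτE hτR _ _ hτf hτi
  have hCf : ChartCtx E w x Bf := ⟨hw, hx, hfin, hconst, hBf⟩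
  have hCi : ChartCtx E w x⁻¹ Bi := chartCtx_inv w hw x hx hfin hconst Bi hBi
  have hTf : TauCtx w Bf τ τE τR := ⟨hτE, hτR, hτf⟩
  have hTi : TauCtx w Bi τ τE τR := ⟨hτE, hτR, hτi⟩
  intro f hf hdiv
  have hτf0 : τ f ≠ 0 := (map_ne_zero τ).2 hf
  have hu : τ f * f⁻¹ ≠ 0 := mul_ne_zero hτf0 (inv_ne_zero hf)
  have hdivu : DivisibleDiv E m (τ f * f⁻¹) :=
    divisibleDiv_mul_inv m _ _ (divisibleDiv_tau τ τE hτE m f hdiv) hdiv
  obtain ⟨h, hh, hh2⟩ := stepII_of_leaves hPS hPN hG q m hq hqR hm hqm w x Bf Bi hCf hCi cf ci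
    sf si τ τE τR hTf hTi (τ f * f⁻¹) hu hdivu
    (stepI w x Bf hCf cf (incomparable_of_ssChart cf) τ τE τR hTf f hf)
    (stepI w x⁻¹ Bi hCi ci (incomparable_of_ssChart ci) τ τE τR hTi f hf)
  refine ⟨h, hh, ?_⟩
  rw [map_mul, map_inv₀] at hh2
  have h3 : τ (τ f) = h ^ m * (τ f * f⁻¹) * τ f := by
    rw [← hh2, mul_assoc, inv_mul_cancel₀ hτf0, mul_one]
  rw [h3]
  field_simp

end Fermat.Agent.A2.Alg.H34

end
-- ===== PACK-END A2/Alg/H34/Asm.lean

-- ===== PACK-BEGIN S35/H433/Final.lean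
section





/-!
# S35 / (G) — N4 in statement form (helper433)

`frobToric_of_leaves : PuritySmoothLeaf → PurityNodeLeaf → GlueLeaf → FrobToricStatement`.

`FrobToricStatement` is the analogue of `A2.AlgSSStatement` (Step II) for a semilinear
automorphism `φ` which, instead of being the identity modulo `w`, acts on the constants as the
`Q`-power map modulo `w`, preserves the charts and their components and fixes the crossing points
of the special fibre: every split Kummer class `u` (`m ∣ div u`) satisfies `φ u = h ^ m · u ^ Q`.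

The three leaves are those of the A2 wall (`Fermat/Agent/A2/Alg/H34/Asm.lean`); no new geometric
input is needed.
-/

set_option autoImplicit false

namespace Fermat.Agent.S35.H433

open Fermat.Agent.A2 Fermat.Agent.A2.Alg

/-- **N4 (interface statement)**: the toric Frobenius relation. -/
def FrobToricStatement : Prop :=
  ∀ {R E F : Type} [CommRing R] [IsDomain R] [IsDiscreteValuationRing R] [HenselianLocalRing R]
    [IsAlgClosed (IsLocalRing.ResidueField R)]
    [Field E] [CharZero E] [Algebra R E] [IsFractionRing R E]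
    [Field F] [Algebra E F] [Algebra R F] [IsScalarTower R E F]
    (w : R) (_ : Irreducible w) (q m : ℕ) (_ : q.Prime)
    (_ : (q : R) ∈ IsLocalRing.maximalIdeal R) (_ : 0 < m) (_ : ¬ q ∣ m)
    (x : F) (_ : Transcendental E x)
    (_ : FiniteDimensional (IntermediateField.adjoin E ({x} : Set F)) F)
    (_ : ∀ f : F, IsAlgebraic E f → f ∈ (algebraMap E F).range)
    (Bf Bi : Subalgebra R F)
    (_ : ∀ f : F, f ∈ Bf ↔ IsIntegral (Algebra.adjoin R ({x} : Set F)) f)
    (_ : ∀ f : F, f ∈ Bi ↔ IsIntegral (Algebra.adjoin R ({x⁻¹} : Set F)) f)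
    (cf : SSChart w Bf) (ci : SSChart w Bi)
    (_ : SepCoord R E x Bf) (_ : SepCoord R E x⁻¹ Bi)
    (φ : F ≃+* F) (φE : E ≃+* E) (Q : ℕ) (_ : 0 < Q)
    (_ : ∀ e : E, φ (algebraMap E F e) = algebraMap E F (φE e))
    (hφf : PhiCtx w Bf cf φ Q) (hφi : PhiCtx w Bi ci φ Q)
    (_ : ∀ n : Ideal Bf, n.IsMaximal → cf.p₁ ≤ n → cf.p₂ ≤ n →
      ∀ b : Bf, b ∈ n → hφf.hom b ∈ n)
    (_ : ∀ n : Ideal Bi, n.IsMaximal → ci.p₁ ≤ n → ci.p₂ ≤ n →
      ∀ b : Bi, b ∈ n → hφi.hom b ∈ n)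
    (u : F), u ≠ 0 → DivisibleDiv E m u → IsSplit Bf cf u → IsSplit Bi ci u →
      ∃ h : F, h ≠ 0 ∧ φ u = h ^ m * u ^ Q

section

variable {R E F : Type*} [CommRing R] [IsDomain R] [IsDiscreteValuationRing R]
  [Field E] [CharZero E] [Algebra R E] [IsFractionRing R E]
  [Field F] [Algebra E F] [Algebra R F] [IsScalarTower R E F]

/-- Local transversality at a crossing point of a chart. -/
theorem exists_mul_mem_sup (w : R) (x : F) (B : Subalgebra R F) (hB : ChartCtx E w x B)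
    (c : SSChart w B) (n : Ideal B) (hn : n.IsMaximal) (h1 : c.p₁ ≤ n) (h2 : c.p₂ ≤ n)
    (b : B) (hb : b ∈ n) : ∃ s : B, s ∉ n ∧ s * b ∈ c.p₁ ⊔ c.p₂ := by
  have := hn.isPrime
  have := c.prime₁
  have := c.normal₁
  obtain ⟨hnoeth, -, -⟩ := H34.chart_instances' w x B hB
  have hD : IsDedekindDomain (B ⧸ c.p₁) :=
    H609.isDedekindDomain_quotient_chart w x B hB c.p₁ (mem_w_left c)
  exact H372.exists_mul_mem_of_isRadical (p := c.p₁) le_sup_left (sup_le h1 h2)
    (fun h => c.not_le₂₁ (le_sup_right.trans h)) c.transversal hb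

end

/-- **N4 from the three leaves of the A2 wall.** -/
theorem frobToric_of_leaves (hPS : H34.PuritySmoothLeaf) (hPN : H34.PurityNodeLeaf)
    (hG : H34.GlueLeaf) : FrobToricStatement := by
  intro R E F _ _ _ _ _ _ _ _ _ _ _ _ _ w hw q m hq hqR hm hqm x hx hfin hconst Bf Bi hBf hBi
    cf ci sf si φ φE Q hQ hφE hφf hφi hfixf hfixi u hu hdiv hsf hsi
  have hCf : ChartCtx E w x Bf := ⟨hw, hx, hfin, hconst, hBf⟩
  have hCi : ChartCtx E w x⁻¹ Bi := H34.chartCtx_inv w hw x hx hfin hconst Bi hBi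
  exact frobToric_of_parts m hm w Bf Bi cf ci φ φE Q hQ hφE hφf hφi
    (fun n hn _ _ b => exists_const_sub_mem w x Bf hCf n hn
      ((Ideal.span_singleton_le_iff_mem (I := n)).1
        (by rw [← cf.inf_eq]; exact inf_le_left.trans ‹cf.p₁ ≤ n›)) b)
    (fun n hn _ _ b => exists_const_sub_mem w x⁻¹ Bi hCi n hn
      ((Ideal.span_singleton_le_iff_mem (I := n)).1
        (by rw [← ci.inf_eq]; exact inf_le_left.trans ‹ci.p₁ ≤ n›)) b)
    hfixf hfixi
    (fun n hn h1 h2 b hb => exists_mul_mem_sup w x Bf hCf cf n hn h1 h2 b hb)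
    (fun n hn h1 h2 b hb => exists_mul_mem_sup w x⁻¹ Bi hCi ci n hn h1 h2 b hb)
    u hu hdiv hsf hsi
    (fun n hn hwn => H34.purity_of_leaves hPS hPN q m hq hqR hm hqm w x Bf hCf cf sf u hu hdiv
      hsf n hn hwn)
    (fun n hn hwn => H34.purity_of_leaves hPS hPN q m hq hqR hm hqm w x⁻¹ Bi hCi ci si u hu hdiv
      hsi n hn hwn)
    (fun v hv hdv hf hi => hG q m hq hqR hm hqm w x Bf Bi hCf hCi cf ci
      (H34.incomparable_of_ssChart cf) (H34.incomparable_of_ssChart ci) v hv hdv hf hi)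

end Fermat.Agent.S35.H433

end
-- ===== PACK-END S35/H433/Final.lean

-- ===== PACK-BEGIN S35/H433/ValForm.lean
section



/-!
# S35 / (G) — F1 + F4 in valuation language (helper433)

`frobToric_val` : the toric Frobenius relation `φ u = h ^ m · u ^ Q`, with all hypotheses on the
two components expressed through the two valuation subrings `V₁ ≠ V₂` of `F` extending the Gauss
valuation (A2/MOD: `V∞`, `V₀`) instead of the primes of an `SSChart`:

* `ValCtx w x V` : `R ⊆ V`, `x` is a unit of `V`, `w` is not, and `x - r`, `x⁻¹ - r` are units of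
  `V` for all constants `r`  (the residue of `x` is not constant);
* `φ` preserves `V₁`, `V₂`, fixes `x`, is semilinear over `φR : R ≃+* R` with
  `φR r ≡ r ^ Q mod w`;
* the crossing points of both charts are fixed by `φ`;
* `u` has residues in `kˣ · (κˣ)^m` at `V₁` and `V₂` (`GSplitV`), and `m ∣ div u`.

The charts `Bf`, `Bi` and their `SSChart`s are arbitrary (e.g. from `A2.ModSSData`).
-/

set_option autoImplicit false
set_option linter.unusedSectionVars false

namespace Fermat.Agent.S35.H433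

open Fermat.Agent.A2 Fermat.Agent.A2.Alg Fermat.Agent.A2.H348 Fermat.Agent.A2.Alg.H348

section Defs

variable {R F : Type*} [CommRing R] [Field F] [Algebra R F]

/-- The standing hypotheses on a valuation subring `V` of `F` "extending the Gauss valuation". -/
structure ValCtx (w : R) (x : F) (V : ValuationSubring F) : Prop where
  hR : ∀ r : R, algebraMap R F r ∈ V
  hx : x ∈ V
  hxi : x⁻¹ ∈ V
  hw : (algebraMap R F w)⁻¹ ∉ V
  hxr : ∀ r : R, (x - algebraMap R F r)⁻¹ ∈ V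
  hxir : ∀ r : R, (x⁻¹ - algebraMap R F r)⁻¹ ∈ V

theorem ValCtx.inv {w : R} {x : F} {V : ValuationSubring F} (h : ValCtx w x V) :
    ValCtx w x⁻¹ V :=
  ⟨h.hR, h.hxi, by rw [inv_inv]; exact h.hx, h.hw, h.hxir, by rw [inv_inv]; exact h.hxr⟩

/-- `u` is a unit of `V` with constant residue. -/
def ConstV (R : Type*) [CommRing R] [Algebra R F] (V : ValuationSubring F) (u : F) : Prop :=
  ∃ c₀ : R, IsUnit c₀ ∧ u - algebraMap R F c₀ ∈ V.nonunits

/-- `u` is a unit of `V` with residue in `kˣ · (κˣ)^m`. -/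
def GSplitV (R : Type*) [CommRing R] [Algebra R F] (V : ValuationSubring F) (m : ℕ) (u : F) :
    Prop :=
  ∃ y : F, y ≠ 0 ∧ y ∈ V ∧ y⁻¹ ∈ V ∧ ConstV R V (u * (y ^ m)⁻¹)

/-- The chart is contained in every valuation subring containing `R` and `x`. -/
theorem chart_le_valuationSubring (x : F) (B : Subalgebra R F)
    (hB : ∀ f : F, f ∈ B ↔ IsIntegral (Algebra.adjoin R ({x} : Set F)) f)
    (V : ValuationSubring F) (hR : ∀ r : R, algebraMap R F r ∈ V) (hx : x ∈ V) (b : B) :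
    (b : F) ∈ V := by
  let Vs : Subalgebra R F := { V.toSubring with algebraMap_mem' := hR }
  have hle : Algebra.adjoin R ({x} : Set F) ≤ Vs :=
    Algebra.adjoin_le (Set.singleton_subset_iff.2 hx)
  obtain ⟨P, hPm, hP⟩ := (hB b).1 b.2
  let ι : Algebra.adjoin R ({x} : Set F) →+* V :=
    { toFun := fun a => ⟨a.1, hle a.2⟩
      map_one' := rfl
      map_mul' := fun _ _ => rfl
      map_zero' := rfl
      map_add' := fun _ _ => rfl }
  have hint : IsIntegral V (b : F) := by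
    refine ⟨P.map ι, hPm.map ι, ?_⟩
    rw [Polynomial.eval₂_map]
    exact hP
  obtain ⟨y, hy⟩ := IsIntegrallyClosed.isIntegral_iff.1 hint
  rw [← hy]
  exact y.2

end Defs

section Chart

variable {R E F : Type*} [CommRing R] [IsDomain R] [IsDiscreteValuationRing R]
  [IsAlgClosed (IsLocalRing.ResidueField R)]
  [Field E] [CharZero E] [Algebra R E] [IsFractionRing R E]
  [Field F] [Algebra E F] [Algebra R F] [IsScalarTower R E F]

/-- Two distinct valuation subrings satisfying `ValCtx` are the local rings of the two components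
of a chart, in some order. -/
theorem cutIdeal_perm (w : R) (x : F) (B : Subalgebra R F) (hB : ChartCtx E w x B)
    (c : SSChart w B) (V₁ V₂ : ValuationSubring F) (h₁ : ValCtx w x V₁) (h₂ : ValCtx w x V₂)
    (hne : V₁ ≠ V₂) :
    (cutIdeal V₁ (chart_le_valuationSubring x B hB.hB V₁ h₁.hR h₁.hx) = c.p₁ ∧
      cutIdeal V₂ (chart_le_valuationSubring x B hB.hB V₂ h₂.hR h₂.hx) = c.p₂) ∨
    (cutIdeal V₁ (chart_le_valuationSubring x B hB.hB V₁ h₁.hR h₁.hx) = c.p₂ ∧
      cutIdeal V₂ (chart_le_valuationSubring x B hB.hB V₂ h₂.hR h₂.hx) = c.p₁) := by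
  have hp₁ := c.prime₁
  have hp₂ := c.prime₂
  have hAB := adjoin_le_of_ctx hB
  have hB₁ := chart_le_valuationSubring x B hB.hB V₁ h₁.hR h₁.hx
  have hB₂ := chart_le_valuationSubring x B hB.hB V₂ h₂.hR h₂.hx
  have same : ∀ {A : Subalgebra R F} {p p' : Ideal B} [p.IsPrime], CompData A B p p' w → A ≤ B →
      cutIdeal V₁ hB₁ = p → cutIdeal V₂ hB₂ = p → False := by
    intro A p p' _ D hA e₁ e₂
    apply hne
    ext z
    rw [mem_iff_mem_locAt D hA V₁ hB₁ h₁.hw e₁ z, mem_iff_mem_locAt D hA V₂ hB₂ h₂.hw e₂ z]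
  rcases cutIdeal_eq_or w x B hB c V₁ hB₁ h₁.hw h₁.hxr with e₁ | e₁ <;>
    rcases cutIdeal_eq_or w x B hB c V₂ hB₂ h₂.hw h₂.hxr with e₂ | e₂
  · exact (same (compData₁ hB c) hAB e₁ e₂).elim
  · exact Or.inl ⟨e₁, e₂⟩
  · exact Or.inr ⟨e₁, e₂⟩
  · exact (same (compData₂ hB c) hAB e₁ e₂).elim

/-- Dictionary for one component: if the cut ideal of `V` is the component `p`, then the chart
predicates at `p` are the valuation predicates at `V`. -/
theorem dict_of_cut (w : R) (x : F) (B : Subalgebra R F) (_hB : ChartCtx E w x B)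
    {A : Subalgebra R F} {p p' : Ideal B} [hp : p.IsPrime] (D : CompData A B p p' w)
    (hA : A ≤ B) (V : ValuationSubring F) (hBV : ∀ b : B, (b : F) ∈ V)
    (hw : (algebraMap R F w)⁻¹ ∉ V) (hcut : cutIdeal V hBV = p) :
    (∀ z : F, z ∈ V ↔ InLoc B p ⊤ z) ∧ (∀ z : F, z ∈ V.nonunits ↔ InLoc B p p z) := by
  have h1 : ∀ z : F, z ∈ V ↔ InLoc B p ⊤ z := fun z => by
    rw [inLoc_top_iff_mem_locAt]
    exact mem_iff_mem_locAt D hA V hBV hw hcut z
  exact ⟨h1, mem_nonunits_iff_inLoc V h1⟩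

end Chart

section Dict

variable {R F : Type*} [CommRing R] [Field F] [Algebra R F] {B : Subalgebra R F}

theorem constAt_iff_constV {p : Ideal B} [hp : p.IsPrime] {V : ValuationSubring F}
    (h : ∀ z : F, z ∈ V.nonunits ↔ InLoc B p p z) {u : F} : ConstAt B p u ↔ ConstV R V u := by
  rw [constAt_iff]
  constructor
  · rintro ⟨c₀, hc, hu⟩
    exact ⟨c₀, hc, (h _).2 hu⟩
  · rintro ⟨c₀, hc, hu⟩
    exact ⟨c₀, hc, (h _).1 hu⟩

theorem gSplitAt_of_gSplitV {p : Ideal B} [hp : p.IsPrime] {V : ValuationSubring F}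
    (h1 : ∀ z : F, z ∈ V ↔ InLoc B p ⊤ z) (h : ∀ z : F, z ∈ V.nonunits ↔ InLoc B p p z)
    {m : ℕ} {u : F} (hu : GSplitV R V m u) : GSplitAt B p m u := by
  obtain ⟨y, hy0, hy, hyi, hc⟩ := hu
  exact ⟨y, locUnit_iff.2 ⟨hy0, (h1 _).1 hy, (h1 _).1 hyi⟩, (constAt_iff_constV h).2 hc⟩

end Dict

section Phi

variable {R F : Type*} [CommRing R] [Field F] [Algebra R F]

/-- `φ` maps the subalgebra `R[x]` into itself. -/
theorem phi_mem_adjoin (φ : F ≃+* F) (φR : R → R)
    (hφR : ∀ r : R, φ (algebraMap R F r) = algebraMap R F (φR r)) {x : F} (hφx : φ x = x)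
    {a : F} (ha : a ∈ Algebra.adjoin R ({x} : Set F)) :
    φ a ∈ Algebra.adjoin R ({x} : Set F) := by
  induction ha using Algebra.adjoin_induction with
  | mem y hy =>
    rw [Set.mem_singleton_iff] at hy
    subst hy
    rw [hφx]
    exact Algebra.self_mem_adjoin_singleton R _
  | algebraMap r =>
    rw [hφR]
    exact Subalgebra.algebraMap_mem _ _
  | add y z _ _ hy hz =>
    rw [map_add]
    exact Subalgebra.add_mem _ hy hz
  | mul y z _ _ hy hz =>
    rw [map_mul]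
    exact Subalgebra.mul_mem _ hy hz

/-- `φ` maps a chart into itself. -/
theorem phi_mem_chart (φ : F ≃+* F) (φR : R → R)
    (hφR : ∀ r : R, φ (algebraMap R F r) = algebraMap R F (φR r)) {x : F} (hφx : φ x = x)
    (B : Subalgebra R F)
    (hB : ∀ f : F, f ∈ B ↔ IsIntegral (Algebra.adjoin R ({x} : Set F)) f) {b : F} (hb : b ∈ B) :
    φ b ∈ B := by
  rw [hB] at hb ⊢
  obtain ⟨P, hPm, hP⟩ := hb
  let ψ : Algebra.adjoin R ({x} : Set F) →+* Algebra.adjoin R ({x} : Set F) :=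
    { toFun := fun a => ⟨φ a.1, phi_mem_adjoin φ φR hφR hφx a.2⟩
      map_one' := Subtype.ext (by simp)
      map_mul' := fun a b => Subtype.ext (by simp)
      map_zero' := Subtype.ext (by simp)
      map_add' := fun a b => Subtype.ext (by simp) }
  refine ⟨P.map ψ, hPm.map ψ, ?_⟩
  rw [Polynomial.eval₂_map]
  have hcomp : (algebraMap (Algebra.adjoin R ({x} : Set F)) F).comp ψ
      = (φ : F →+* F).comp (algebraMap (Algebra.adjoin R ({x} : Set F)) F) := by
    ext a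
    rfl
  rw [hcomp]
  have h := Polynomial.hom_eval₂ P (algebraMap (Algebra.adjoin R ({x} : Set F)) F)
    (φ : F →+* F) b
  rw [hP, map_zero] at h
  exact h.symm

/-- `φ` preserving `V` preserves its non-units. -/
theorem phi_mem_nonunits_iff (φ : F ≃+* F) (V : ValuationSubring F)
    (hV : ∀ z : F, φ z ∈ V ↔ z ∈ V) (z : F) : φ z ∈ V.nonunits ↔ z ∈ V.nonunits := by
  rw [ValuationSubring.mem_nonunits_iff_or, ValuationSubring.mem_nonunits_iff_or, ← map_inv₀, hV,
    map_eq_zero_iff φ φ.injective]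

end Phi

section Main

variable {R E F : Type*} [CommRing R] [IsDomain R] [IsDiscreteValuationRing R]
  [IsAlgClosed (IsLocalRing.ResidueField R)]
  [Field E] [CharZero E] [Algebra R E] [IsFractionRing R E]
  [Field F] [Algebra E F] [Algebra R F] [IsScalarTower R E F]

/-- For each component of a chart, one of `V₁`, `V₂` is its local ring. -/
theorem exists_dict (w : R) (x : F) (B : Subalgebra R F) (hB : ChartCtx E w x B)
    (c : SSChart w B) (V₁ V₂ : ValuationSubring F) (h₁ : ValCtx w x V₁) (h₂ : ValCtx w x V₂)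
    (hne : V₁ ≠ V₂) :
    (((∀ z : F, z ∈ V₁ ↔ InLoc B c.p₁ ⊤ z) ∧ (∀ z : F, z ∈ V₁.nonunits ↔ InLoc B c.p₁ c.p₁ z)) ∧
      ((∀ z : F, z ∈ V₂ ↔ InLoc B c.p₂ ⊤ z) ∧ (∀ z : F, z ∈ V₂.nonunits ↔ InLoc B c.p₂ c.p₂ z))) ∨
    (((∀ z : F, z ∈ V₁ ↔ InLoc B c.p₂ ⊤ z) ∧ (∀ z : F, z ∈ V₁.nonunits ↔ InLoc B c.p₂ c.p₂ z)) ∧
      ((∀ z : F, z ∈ V₂ ↔ InLoc B c.p₁ ⊤ z) ∧
        (∀ z : F, z ∈ V₂.nonunits ↔ InLoc B c.p₁ c.p₁ z))) := by
  have hp₁ := c.prime₁
  have hp₂ := c.prime₂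
  have hAB := adjoin_le_of_ctx hB
  rcases cutIdeal_perm w x B hB c V₁ V₂ h₁ h₂ hne with ⟨e₁, e₂⟩ | ⟨e₁, e₂⟩
  · exact Or.inl ⟨dict_of_cut w x B hB (compData₁ hB c) hAB V₁ _ h₁.hw e₁,
      dict_of_cut w x B hB (compData₂ hB c) hAB V₂ _ h₂.hw e₂⟩
  · exact Or.inr ⟨dict_of_cut w x B hB (compData₂ hB c) hAB V₁ _ h₁.hw e₁,
      dict_of_cut w x B hB (compData₁ hB c) hAB V₂ _ h₂.hw e₂⟩

/-- Constant residues at `V₁`, `V₂`  ⟹  split on any chart. -/
theorem isSplit_of_constV (w : R) (x : F) (B : Subalgebra R F) (hB : ChartCtx E w x B)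
    (c : SSChart w B) (V₁ V₂ : ValuationSubring F) (h₁ : ValCtx w x V₁) (h₂ : ValCtx w x V₂)
    (hne : V₁ ≠ V₂) {u : F} (hu₁ : ConstV R V₁ u) (hu₂ : ConstV R V₂ u) : IsSplit B c u := by
  have hp₁ := c.prime₁
  have hp₂ := c.prime₂
  rcases exists_dict w x B hB c V₁ V₂ h₁ h₂ hne with ⟨⟨-, d₁⟩, ⟨-, d₂⟩⟩ | ⟨⟨-, d₁⟩, ⟨-, d₂⟩⟩
  · exact ⟨(constAt_iff_constV d₁).2 hu₁, (constAt_iff_constV d₂).2 hu₂⟩
  · exact ⟨(constAt_iff_constV d₂).2 hu₂, (constAt_iff_constV d₁).2 hu₁⟩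

/-- `φ` preserves the components of a chart. -/
theorem phiCtx_of_val (w : R) (x : F) (B : Subalgebra R F) (hB : ChartCtx E w x B)
    (c : SSChart w B) (V₁ V₂ : ValuationSubring F) (h₁ : ValCtx w x V₁) (h₂ : ValCtx w x V₂)
    (hne : V₁ ≠ V₂) (φ : F ≃+* F) (φR : R ≃+* R) (Q : ℕ)
    (hφR : ∀ r : R, φ (algebraMap R F r) = algebraMap R F (φR r))
    (hQ : ∀ r : R, ∃ s : R, φR r - r ^ Q = w * s) (hφx : φ x = x)
    (hV₁ : ∀ z : F, φ z ∈ V₁ ↔ z ∈ V₁) (hV₂ : ∀ z : F, φ z ∈ V₂ ↔ z ∈ V₂) :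
    PhiCtx w B c φ Q := by
  have hp₁ := c.prime₁
  have hp₂ := c.prime₂
  have hmap : ∀ b : F, b ∈ B → φ b ∈ B := fun b hb => phi_mem_chart φ φR hφR hφx B hB.hB hb
  have hφR' : ∀ r : R, φ.symm (algebraMap R F r) = algebraMap R F (φR.symm r) := by
    intro r
    rw [RingEquiv.symm_apply_eq, hφR, RingEquiv.apply_symm_apply]
  have hφx' : φ.symm x = x := by
    rw [RingEquiv.symm_apply_eq, hφx]
  have hmap' : ∀ b : F, φ b ∈ B → b ∈ B := fun b hb => by
    have := phi_mem_chart φ.symm φR.symm hφR' hφx' B hB.hB hb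
    rwa [RingEquiv.symm_apply_apply] at this
  have key : ∀ (p : Ideal B) [p.IsPrime] (V : ValuationSubring F),
      (∀ z : F, φ z ∈ V ↔ z ∈ V) → (∀ z : F, z ∈ V.nonunits ↔ InLoc B p p z) →
      ∀ b : B, (⟨φ b, hmap b b.2⟩ : B) ∈ p ↔ b ∈ p := by
    intro p _ V hV d b
    have e : ∀ b' : B, b' ∈ p ↔ (b' : F) ∈ V.nonunits := by
      intro b'
      rw [d]
      constructor
      · intro hb'
        exact inLoc_coe hb'
      · rintro ⟨a, s, ha, hs, has⟩
        have h1 : b' * s = a := Subtype.ext (by push_cast; exact has)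
        have h2 : b' * s ∈ p := by rw [h1]; exact ha
        exact (‹p.IsPrime›.mem_or_mem h2).resolve_right hs
    rw [e, e]
    exact phi_mem_nonunits_iff φ V hV _
  refine ⟨hmap, hmap', ?_, ?_, ?_⟩
  · rcases exists_dict w x B hB c V₁ V₂ h₁ h₂ hne with ⟨⟨-, d₁⟩, -⟩ | ⟨-, ⟨-, d₂⟩⟩
    · exact key c.p₁ V₁ hV₁ d₁
    · exact key c.p₁ V₂ hV₂ d₂
  · rcases exists_dict w x B hB c V₁ V₂ h₁ h₂ hne with ⟨-, ⟨-, d₂⟩⟩ | ⟨⟨-, d₁⟩, -⟩
    · exact key c.p₂ V₂ hV₂ d₂
    · exact key c.p₂ V₁ hV₁ d₁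
  · intro r
    obtain ⟨s, hs⟩ := hQ r
    refine ⟨algebraMap R B s, ?_⟩
    rw [hφR, ← map_pow, ← map_sub, hs, map_mul]
    rfl

/-- **F4 in valuation language.**  Residues in `kˣ · (κˣ)^m` at `V₁`, `V₂`  ⟹  constant residues
after division by an `m`-th power. -/
theorem exists_constV_of_gSplitV (w : R) (x : F) (B : Subalgebra R F) (hB : ChartCtx E w x B)
    (c : SSChart w B) (V₁ V₂ : ValuationSubring F) (h₁ : ValCtx w x V₁) (h₂ : ValCtx w x V₂)
    (hne : V₁ ≠ V₂) {m : ℕ} {u : F} (hu₁ : GSplitV R V₁ m u) (hu₂ : GSplitV R V₂ m u) :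
    ∃ G : F, G ≠ 0 ∧ ConstV R V₁ (u * (G ^ m)⁻¹) ∧ ConstV R V₂ (u * (G ^ m)⁻¹) := by
  have hp₁ := c.prime₁
  have hp₂ := c.prime₂
  rcases exists_dict w x B hB c V₁ V₂ h₁ h₂ hne with ⟨⟨a₁, d₁⟩, ⟨a₂, d₂⟩⟩ | ⟨⟨a₁, d₁⟩, ⟨a₂, d₂⟩⟩
  · obtain ⟨G, hG, hs⟩ := exists_isSplit_of_gSplit c (gSplitAt_of_gSplitV a₁ d₁ hu₁)
      (gSplitAt_of_gSplitV a₂ d₂ hu₂)
    exact ⟨G, hG, (constAt_iff_constV d₁).1 hs.1, (constAt_iff_constV d₂).1 hs.2⟩
  · obtain ⟨G, hG, hs⟩ := exists_isSplit_of_gSplit c (gSplitAt_of_gSplitV a₂ d₂ hu₂)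
      (gSplitAt_of_gSplitV a₁ d₁ hu₁)
    exact ⟨G, hG, (constAt_iff_constV d₁).1 hs.2, (constAt_iff_constV d₂).1 hs.1⟩

end Main

section Div

variable {E F : Type*} [Field E] [Field F] [Algebra E F]

theorem divisibleDiv_mul_inv_pow (m : ℕ) (u G : F) (hG : G ≠ 0) (hu : DivisibleDiv E m u) :
    DivisibleDiv E m (u * (G ^ m)⁻¹) := by
  intro V hV hE
  obtain ⟨h, ε, hh, hε, hε', rfl⟩ := hu V hV hE
  refine ⟨h * G⁻¹, ε, mul_ne_zero hh (inv_ne_zero hG), hε, hε', ?_⟩
  rw [mul_pow, inv_pow]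
  ring

end Div

/-- **N4 / F1 + F4 (interface statement, valuation language).** -/
def FrobToricValStatement : Prop :=
  ∀ {R E F : Type} [CommRing R] [IsDomain R] [IsDiscreteValuationRing R] [HenselianLocalRing R]
    [IsAlgClosed (IsLocalRing.ResidueField R)]
    [Field E] [CharZero E] [Algebra R E] [IsFractionRing R E]
    [Field F] [Algebra E F] [Algebra R F] [IsScalarTower R E F]
    (w : R) (_ : Irreducible w) (q m : ℕ) (_ : q.Prime)
    (_ : (q : R) ∈ IsLocalRing.maximalIdeal R) (_ : 0 < m) (_ : ¬ q ∣ m)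
    (x : F) (_ : Transcendental E x)
    (_ : FiniteDimensional (IntermediateField.adjoin E ({x} : Set F)) F)
    (_ : ∀ f : F, IsAlgebraic E f → f ∈ (algebraMap E F).range)
    (Bf Bi : Subalgebra R F)
    (_ : ∀ f : F, f ∈ Bf ↔ IsIntegral (Algebra.adjoin R ({x} : Set F)) f)
    (_ : ∀ f : F, f ∈ Bi ↔ IsIntegral (Algebra.adjoin R ({x⁻¹} : Set F)) f)
    (cf : SSChart w Bf) (ci : SSChart w Bi)
    (_ : SepCoord R E x Bf) (_ : SepCoord R E x⁻¹ Bi)
    (V₁ V₂ : ValuationSubring F) (_ : ValCtx w x V₁) (_ : ValCtx w x V₂) (_ : V₁ ≠ V₂)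
    (φ : F ≃+* F) (φE : E ≃+* E) (φR : R ≃+* R) (Q : ℕ) (_ : 0 < Q)
    (_ : ∀ e : E, φ (algebraMap E F e) = algebraMap E F (φE e))
    (_ : ∀ r : R, φE (algebraMap R E r) = algebraMap R E (φR r))
    (_ : ∀ r : R, ∃ s : R, φR r - r ^ Q = w * s)
    (_ : φ x = x)
    (_ : ∀ z : F, φ z ∈ V₁ ↔ z ∈ V₁) (_ : ∀ z : F, φ z ∈ V₂ ↔ z ∈ V₂)
    (_ : ∀ n : Ideal Bf, n.IsMaximal → cf.p₁ ≤ n → cf.p₂ ≤ n →
      ∀ b : Bf, b ∈ n → ∀ hb : φ b ∈ Bf, (⟨φ b, hb⟩ : Bf) ∈ n)
    (_ : ∀ n : Ideal Bi, n.IsMaximal → ci.p₁ ≤ n → ci.p₂ ≤ n →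
      ∀ b : Bi, b ∈ n → ∀ hb : φ b ∈ Bi, (⟨φ b, hb⟩ : Bi) ∈ n)
    (u : F), u ≠ 0 → DivisibleDiv E m u → GSplitV R V₁ m u → GSplitV R V₂ m u →
      ∃ h : F, h ≠ 0 ∧ φ u = h ^ m * u ^ Q

/-- **N4 in valuation language from the three leaves of the A2 wall.** -/
theorem frobToricVal_of_leaves (hPS : H34.PuritySmoothLeaf) (hPN : H34.PurityNodeLeaf)
    (hG : H34.GlueLeaf) : FrobToricValStatement := by
  intro R E F _ _ _ _ _ _ _ _ _ _ _ _ _ w hw q m hq hqR hm hqm x hx hfin hconst Bf Bi hBf hBi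
    cf ci sf si V₁ V₂ h₁ h₂ hne φ φE φR Q hQ hφE hφER hfrob hφx hV₁ hV₂ hfixf hfixi u hu hdiv
    hu₁ hu₂
  have hCf : ChartCtx E w x Bf := ⟨hw, hx, hfin, hconst, hBf⟩
  have hCi : ChartCtx E w x⁻¹ Bi := H34.chartCtx_inv w hw x hx hfin hconst Bi hBi
  have hφR : ∀ r : R, φ (algebraMap R F r) = algebraMap R F (φR r) := by
    intro r
    rw [IsScalarTower.algebraMap_apply R E F, hφE, hφER, ← IsScalarTower.algebraMap_apply]
  have hφxi : φ x⁻¹ = x⁻¹ := by rw [map_inv₀, hφx]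
  have hφf : PhiCtx w Bf cf φ Q :=
    phiCtx_of_val w x Bf hCf cf V₁ V₂ h₁ h₂ hne φ φR Q hφR hfrob hφx hV₁ hV₂
  have hφi : PhiCtx w Bi ci φ Q :=
    phiCtx_of_val w x⁻¹ Bi hCi ci V₁ V₂ h₁.inv h₂.inv hne φ φR Q hφR hfrob hφxi hV₁ hV₂
  obtain ⟨G, hG0, hc₁, hc₂⟩ := exists_constV_of_gSplitV w x Bf hCf cf V₁ V₂ h₁ h₂ hne hu₁ hu₂
  have hGm : G ^ m ≠ 0 := pow_ne_zero _ hG0
  have hu' : u * (G ^ m)⁻¹ ≠ 0 := mul_ne_zero hu (inv_ne_zero hGm)
  have hsf : IsSplit Bf cf (u * (G ^ m)⁻¹) :=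
    isSplit_of_constV w x Bf hCf cf V₁ V₂ h₁ h₂ hne hc₁ hc₂
  have hsi : IsSplit Bi ci (u * (G ^ m)⁻¹) :=
    isSplit_of_constV w x⁻¹ Bi hCi ci V₁ V₂ h₁.inv h₂.inv hne hc₁ hc₂
  obtain ⟨h, hh, hrel⟩ := frobToric_of_leaves hPS hPN hG w hw q m hq hqR hm hqm x hx hfin hconst
    Bf Bi hBf hBi cf ci sf si φ φE Q hQ hφE hφf hφi
    (fun n hn h1 h2 b hb => hfixf n hn h1 h2 b hb _)
    (fun n hn h1 h2 b hb => hfixi n hn h1 h2 b hb _)
    (u * (G ^ m)⁻¹) hu' (divisibleDiv_mul_inv_pow m u G hG0 hdiv) hsf hsi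
  have hφG : φ G ≠ 0 := (map_ne_zero φ).2 hG0
  have hGQ : G ^ Q ≠ 0 := pow_ne_zero _ hG0
  refine ⟨h * φ G * (G ^ Q)⁻¹, mul_ne_zero (mul_ne_zero hh hφG) (inv_ne_zero hGQ), ?_⟩
  rw [map_mul, map_inv₀, map_pow] at hrel
  have hφGm : φ G ^ m ≠ 0 := pow_ne_zero _ hφG
  have e1 : φ u = h ^ m * (u * (G ^ m)⁻¹) ^ Q * φ G ^ m := by
    rw [← hrel, mul_assoc, inv_mul_cancel₀ hφGm, mul_one]
  rw [e1]
  ring

end Fermat.Agent.S35.H433

end
-- ===== PACK-END S35/H433/ValForm.lean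

-- ===== PACK-BEGIN S35/H433/AlgFrob.lean
section



/-!
# S35 / (G') — ALG-FROB from the three leaves of the A2 wall (helper433)

Adapter from `H433.frobToricVal_of_leaves` to the interface of `Fermat/Agent/S35/G/SpecLevel.lean`
(architect helper450).

WARNING (reported to helper450, note #8042): `G.PowV` admits `g = 0`, hence `G.AlgFrobStatement` as
frozen is FALSE (`h := w`).  This file proves the corrected statement `AlgFrobStatementU`, which
is `G.AlgFrobStatement` VERBATIM with `G.PowV` replaced by `PowVU` (`g ≠ 0` added).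

`algFrobU_of_leaves : PuritySmoothLeaf → PurityNodeLeaf → GlueLeaf → AlgFrobStatementU`.
Only `CutBy` on the finite chart `Bf` is used.

Second corrected form, which keeps the frozen `G.PowV`: `AlgFrobStatementT` is
`G.AlgFrobStatement` VERBATIM, restricted to functions of the form `h = ψ u / u`
(`= G.frobSub ψ 1 u`, `u ≠ 0`).  Such an `h` is a unit at both components, which excludes the
degenerate root `g = 0`.  This is the only case used by `G.levelFrob_of_parts`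
(see `LevelFrob.lean`: the assembly with the frozen leaves of `S35/G/SpecLevel.lean`).
`algFrobT_of_leaves : PuritySmoothLeaf → PurityNodeLeaf → GlueLeaf → AlgFrobStatementT`.
-/

set_option autoImplicit false
set_option linter.unusedSectionVars false
set_option linter.unusedVariables false

namespace Fermat.Agent.S35.H433

open Fermat.Agent.A2 Fermat.Agent.A2.Alg Fermat.Agent.A2.H348 Fermat.Agent.A2.Alg.H348
open Fermat.Agent.S35.G (CutBy NodeStable)

section Defs

variable {R F : Type*} [CommRing R] [Field F] [Algebra R F]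

/-- `u ≡ g ^ m mod w V` for a UNIT `g` of `V`. -/
def PowVU (w : R) (V : ValuationSubring F) (m : ℕ) (u : F) : Prop :=
  ∃ g : F, g ≠ 0 ∧ g ∈ V ∧ g⁻¹ ∈ V ∧ (u - g ^ m) * (algebraMap R F w)⁻¹ ∈ V

theorem nonunits_mul_mem {V : ValuationSubring F} {a b : F} (ha : a ∈ V.nonunits) (hb : b ∈ V) :
    a * b ∈ V.nonunits := by
  rw [ValuationSubring.mem_nonunits_iff] at ha ⊢
  rw [map_mul]
  have hb' : V.valuation b ≤ 1 := (V.valuation_le_one_iff b).2 hb
  calc V.valuation a * V.valuation b ≤ V.valuation a * 1 := by gcongr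
    _ = V.valuation a := mul_one _
    _ < 1 := ha

/-- `PowVU` at `V`, `V ⊆ W`, `w` not a unit of `W`  ⟹  `GSplitV` at `W`. -/
theorem gSplitV_of_powVU {w : R} {V W : ValuationSubring F} (hVW : ∀ z : F, z ∈ V → z ∈ W)
    (hwW : (algebraMap R F w)⁻¹ ∉ W) (hRW : ∀ r : R, algebraMap R F r ∈ W) {m : ℕ} {u : F}
    (h : PowVU w V m u) : GSplitV R W m u := by
  obtain ⟨g, hg0, hg, hgi, hu⟩ := h
  refine ⟨g, hg0, hVW _ hg, hVW _ hgi, 1, isUnit_one, ?_⟩
  have hw0 : algebraMap R F w ≠ 0 := by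
    intro h0
    apply hwW
    rw [h0, inv_zero]
    exact W.zero_mem
  have hgm : g ^ m ≠ 0 := pow_ne_zero _ hg0
  have e : u * (g ^ m)⁻¹ - algebraMap R F 1
      = algebraMap R F w * (((u - g ^ m) * (algebraMap R F w)⁻¹) * (g⁻¹) ^ m) := by
    rw [map_one, inv_pow]
    field_simp
  rw [e]
  refine nonunits_mul_mem ?_ (W.mul_mem _ _ (hVW _ hu) (W.pow_mem (hVW _ hgi) m))
  rw [ValuationSubring.mem_nonunits_iff_or]
  exact Or.inr hwW

end Defs

section Chart

variable {R E F : Type*} [CommRing R] [IsDomain R] [IsDiscreteValuationRing R]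
  [Field E] [CharZero E] [Algebra R E] [IsFractionRing R E]
  [Field F] [Algebra E F] [Algebra R F] [IsScalarTower R E F]

/-- A polynomial expression in `x` with a coefficient equal to `1` is not in a component. -/
theorem aeval_not_mem_of_coeff_one (w : R) (x : F) (B : Subalgebra R F) (hB : ChartCtx E w x B)
    {A : Subalgebra R F} {p p' : Ideal B} [hp : p.IsPrime]
    (D : CompData (Algebra.adjoin R ({x} : Set F)) B p p' w) (P : Polynomial R) (k : ℕ)
    (hk : P.coeff k = 1) (b : B) (hb : (b : F) = Polynomial.aeval x P) : b ∉ p := by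
  intro hbp
  have hx : Transcendental R x := H34.transcendental_of_field hB.hx
  have hbA : (b : F) ∈ Algebra.adjoin R ({x} : Set F) := by
    rw [hb, Algebra.adjoin_singleton_eq_range_aeval]
    exact ⟨P, rfl⟩
  obtain ⟨a', ha', hba⟩ := D.contract b hbA hbp
  rw [Algebra.adjoin_singleton_eq_range_aeval] at ha'
  obtain ⟨P', rfl⟩ := ha'
  have h0 : Polynomial.aeval x (P - Polynomial.C w * P') = 0 := by
    rw [map_sub, map_mul, Polynomial.aeval_C, ← hb, hba]
    simp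
  have h1 : P - Polynomial.C w * P' = 0 := by
    by_contra hne
    exact hx ⟨_, hne, h0⟩
  have h2 := congrArg (fun T => Polynomial.coeff T k) h1
  simp only [Polynomial.coeff_sub, Polynomial.coeff_C_mul, Polynomial.coeff_zero, hk] at h2
  have hunit : IsUnit w := IsUnit.of_mul_eq_one (P'.coeff k) (by linear_combination -h2)
  exact hB.hw.not_isUnit hunit

/-- The local ring of a component of a chart satisfies `ValCtx`. -/
theorem valCtx_locAt (w : R) (x : F) (B : Subalgebra R F) (hB : ChartCtx E w x B)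
    {p p' : Ideal B} [hp : p.IsPrime]
    (D : CompData (Algebra.adjoin R ({x} : Set F)) B p p' w) :
    ValCtx w x (D.valuationSubring (adjoin_le_of_ctx hB)) := by
  have hxB : x ∈ B := H609.self_mem_chart x B hB.hB
  have hx : Transcendental R x := H34.transcendental_of_field hB.hx
  have hx0 : x ≠ 0 := by
    rintro rfl
    exact hx ⟨Polynomial.X, Polynomial.X_ne_zero, by simp⟩
  -- an element of `B ∖ p` is a unit of `B_p`
  have hunit : ∀ b : B, b ∉ p → (b : F)⁻¹ ∈ locAt B p := fun b hb =>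
    ⟨b, hb, by rw [mul_inv_cancel₀ (coe_ne_zero_of_not_mem hb)]; exact B.one_mem⟩
  have hmemB : ∀ b : F, b ∈ B → b ∈ locAt B p := fun b hb =>
    ⟨1, fun h => hp.ne_top ((Ideal.eq_top_iff_one p).2 h), by simpa using hb⟩
  have h1 : (⟨x, hxB⟩ : B) ∉ p :=
    aeval_not_mem_of_coeff_one (A := B) w x B hB D Polynomial.X 1 (by simp) _ (by simp)
  have h2 : ∀ r : R, (⟨x - algebraMap R F r, B.sub_mem hxB (B.algebraMap_mem r)⟩ : B) ∉ p :=
    fun r => aeval_not_mem_of_coeff_one (A := B) w x B hB D (Polynomial.X - Polynomial.C r) 1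
      (by simp) _ (by simp)
  have h3 : ∀ r : R, (⟨1 - algebraMap R F r * x,
      B.sub_mem B.one_mem (B.mul_mem (B.algebraMap_mem r) hxB)⟩ : B) ∉ p :=
    fun r => aeval_not_mem_of_coeff_one (A := B) w x B hB D
      (1 - Polynomial.C r * Polynomial.X) 0 (by simp) _ (by simp)
  refine ⟨fun r => (locAt B p).algebraMap_mem r, hmemB x hxB, hunit _ h1, D.w_inv_notMem,
    fun r => hunit _ (h2 r), fun r => ?_⟩
  have e : (x⁻¹ - algebraMap R F r)⁻¹ = x * (1 - algebraMap R F r * x)⁻¹ := by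
    have hne : (1 - algebraMap R F r * x) ≠ 0 := coe_ne_zero_of_not_mem (h3 r)
    have hne' : x⁻¹ - algebraMap R F r ≠ 0 := by
      intro h
      apply hne
      have : 1 - algebraMap R F r * x = (x⁻¹ - algebraMap R F r) * x := by
        field_simp
      rw [this, h, zero_mul]
    field_simp
  rw [e]
  exact (locAt B p).mul_mem (hmemB x hxB) (hunit _ (h3 r))

/-- A valuation ring cutting out the component `p` is contained in `B_p`. -/
theorem le_locAt_of_cut {w : R} {B : Subalgebra R F} {A : Subalgebra R F} {p p' : Ideal B}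
    [hp : p.IsPrime] (D : CompData A B p p' w) (hAB : A ≤ B) (V : ValuationSubring F)
    (hle : ∀ b ∈ B, b ∈ V) (hcut : ∀ b : B, b ∈ p ↔ (b : F) * (algebraMap R F w)⁻¹ ∈ V)
    (z : F) (hz : z ∈ V) : z ∈ locAt B p := by
  rcases D.mem_or_inv_mem hAB z with h | h
  · exact h
  · by_contra hz'
    obtain ⟨s, hs, hsz⟩ := D.mul_inv_mem h (by rwa [inv_inv])
    apply hs
    rw [hcut]
    have hz0 : z ≠ 0 := by
      rintro rfl
      exact hz' (locAt B p).zero_mem
    have hw0 := D.w_ne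
    have e : (s : F) * (algebraMap R F w)⁻¹ = (s : F) * (z⁻¹ * (algebraMap R F w)⁻¹) * z := by
      field_simp
    rw [e]
    exact V.mul_mem _ _ (hle _ hsz) hz

end Chart

section Phi

variable {R F : Type*} [CommRing R] [Field F] [Algebra R F]

/-- The restriction to `B` of an automorphism of `F` mapping `B` into itself. -/
def restrictHom (φ : F ≃+* F) (B : Subalgebra R F) (h : ∀ b : F, b ∈ B → φ b ∈ B) : B →+* B where
  toFun b := ⟨φ b, h b b.2⟩
  map_one' := Subtype.ext (by simp)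
  map_mul' a b := Subtype.ext (by simp)
  map_zero' := Subtype.ext (by simp)
  map_add' a b := Subtype.ext (by simp)

@[simp] theorem coe_restrictHom (φ : F ≃+* F) (B : Subalgebra R F)
    (h : ∀ b : F, b ∈ B → φ b ∈ B) (b : B) : ((restrictHom φ B h b : B) : F) = φ b := rfl

/-- `ψ` maps the component cut out by `V` into itself. -/
theorem restrictHom_mem_of_cut {w : R} {B : Subalgebra R F} {p : Ideal B}
    (V : ValuationSubring F) (hle : ∀ b ∈ B, b ∈ V)
    (hcut : ∀ b : B, b ∈ p ↔ (b : F) * (algebraMap R F w)⁻¹ ∈ V)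
    (ψ : F ≃+* F) (hψB : ∀ b : F, b ∈ B → ψ b ∈ B) (hψV : ∀ f ∈ V, ψ f ∈ V)
    (t : R) (hψw : ψ (algebraMap R F w) = algebraMap R F w * algebraMap R F t)
    (hw0 : algebraMap R F w ≠ 0) {b : B} (hb : b ∈ p) : restrictHom ψ B hψB b ∈ p := by
  rw [hcut] at hb ⊢
  have h1 := hψV _ hb
  rw [map_mul, map_inv₀, hψw] at h1
  have ht0 : algebraMap R F t ≠ 0 := by
    intro h
    have : ψ (algebraMap R F w) = 0 := by rw [hψw, h, mul_zero]
    exact hw0 ((map_eq_zero_iff ψ ψ.injective).1 this)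
  have e : ((restrictHom ψ B hψB b : B) : F) * (algebraMap R F w)⁻¹
      = ψ b * (algebraMap R F w * algebraMap R F t)⁻¹ * algebraMap R F t := by
    rw [coe_restrictHom]
    field_simp
  rw [e]
  exact V.mul_mem _ _ h1 (hle _ (B.algebraMap_mem t))

/-- `ψ` preserves `B_p` if it preserves `B` and `p` (both ways). -/
theorem phi_mem_locAt_iff {B : Subalgebra R F} {p : Ideal B} [hp : p.IsPrime] (ψ : F ≃+* F)
    (hψB : ∀ b : F, b ∈ B → ψ b ∈ B) (hψB' : ∀ b : F, ψ b ∈ B → b ∈ B)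
    (hmap : ∀ b : B, restrictHom ψ B hψB b ∈ p ↔ b ∈ p) (z : F) :
    ψ z ∈ locAt B p ↔ z ∈ locAt B p := by
  constructor
  · rintro ⟨s, hs, hsz⟩
    have hs'B : ψ.symm (s : F) ∈ B := hψB' _ (by rw [ψ.apply_symm_apply]; exact s.2)
    refine ⟨⟨ψ.symm s, hs'B⟩, ?_, ?_⟩
    · intro h
      apply hs
      have := (hmap ⟨ψ.symm s, hs'B⟩).2 h
      have e : restrictHom ψ B hψB ⟨ψ.symm s, hs'B⟩ = s :=
        Subtype.ext (by simp)
      rwa [e] at this
    · apply hψB'
      show ψ (ψ.symm (s : F) * z) ∈ B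
      rw [map_mul, ψ.apply_symm_apply]
      exact hsz
  · rintro ⟨s, hs, hsz⟩
    refine ⟨restrictHom ψ B hψB s, fun h => hs ((hmap s).1 h), ?_⟩
    rw [coe_restrictHom, ← map_mul]
    exact hψB _ hsz

end Phi

section Final

variable {R E F : Type*} [CommRing R] [IsDomain R] [IsDiscreteValuationRing R]
  [Field E] [CharZero E] [Algebra R E] [IsFractionRing R E]
  [Field F] [Algebra E F] [Algebra R F] [IsScalarTower R E F]

/-- `ψ` preserves (both ways) a component of a chart which is cut out by a `ψ`-stable valuation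
ring. -/
theorem restrictHom_mem_iff_of_cut (w : R) (x : F) (B : Subalgebra R F) (hB : ChartCtx E w x B)
    {p p' : Ideal B} [hp : p.IsPrime] (hinf : p ⊓ p' = Ideal.span {algebraMap R B w})
    (hle' : ¬ p' ≤ p) (V : ValuationSubring F) (hle : ∀ b ∈ B, b ∈ V)
    (hcut : ∀ b : B, b ∈ p ↔ (b : F) * (algebraMap R F w)⁻¹ ∈ V)
    (ψ : F ≃+* F) (ψR : R ≃+* R)
    (hψR : ∀ r : R, ψ (algebraMap R F r) = algebraMap R F (ψR r))
    (hψB : ∀ b : F, b ∈ B → ψ b ∈ B) (hψB' : ∀ b : F, ψ b ∈ B → b ∈ B)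
    (hψV : ∀ f ∈ V, ψ f ∈ V) (b : B) : restrictHom ψ B hψB b ∈ p ↔ b ∈ p := by
  have hw0 : algebraMap R F w ≠ 0 := by
    intro h
    exact hB.hw.ne_zero (H34.algebraMap_RF_injective (R := R) (F := F) E (by rw [h, map_zero]))
  have hwp : algebraMap R B w ∈ p := by
    have : algebraMap R B w ∈ p ⊓ p' := by
      rw [hinf]; exact Ideal.mem_span_singleton_self _
    exact this.1
  -- `ψR` and its inverse preserve the maximal ideal `(w)`
  have hmax : ∀ (e : R ≃+* R), ∃ t : R, e w = w * t := by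
    intro e
    have h1 : e w ∈ IsLocalRing.maximalIdeal R := by
      rw [IsLocalRing.mem_maximalIdeal, mem_nonunits_iff]
      intro hu
      apply hB.hw.not_isUnit
      have := hu.map e.symm
      rwa [RingEquiv.symm_apply_apply] at this
    rw [hB.hw.maximalIdeal_eq, Ideal.mem_span_singleton] at h1
    exact h1
  obtain ⟨t, ht⟩ := hmax ψR
  have hfwd : ∀ b : B, b ∈ p → restrictHom ψ B hψB b ∈ p := fun b hb =>
    restrictHom_mem_of_cut V hle hcut ψ hψB hψV t (by rw [hψR, ht, map_mul]) hw0 hb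
  refine ⟨fun h => ?_, hfwd b⟩
  -- the prime `ψ(p)` contains `w` and is contained in `p`
  have hψsB : ∀ b : F, b ∈ B → ψ.symm b ∈ B := fun b hb =>
    hψB' _ (by rw [ψ.apply_symm_apply]; exact hb)
  set Q₁ : Ideal B := Ideal.comap (restrictHom ψ.symm B hψsB) p with hQ₁
  have hQprime : Q₁.IsPrime := Ideal.comap_isPrime _ _
  have hQle : Q₁ ≤ p := by
    intro c hc
    have := hfwd _ hc
    have e : restrictHom ψ B hψB (restrictHom ψ.symm B hψsB c) = c :=
      Subtype.ext (by simp)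
    rwa [e] at this
  have hwQ : algebraMap R B w ∈ Q₁ := by
    obtain ⟨t', ht'⟩ := hmax ψR.symm
    rw [hQ₁, Ideal.mem_comap]
    have e : restrictHom ψ.symm B hψsB (algebraMap R B w)
        = algebraMap R B w * algebraMap R B t' := by
      apply Subtype.ext
      rw [coe_restrictHom]
      show ψ.symm (algebraMap R F w) = algebraMap R F w * algebraMap R F t'
      rw [RingEquiv.symm_apply_eq, map_mul, hψR, hψR, ← map_mul, ← map_mul, ← ht',
        RingEquiv.apply_symm_apply]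
    rw [e]
    exact p.mul_mem_right _ hwp
  have hinfle : p ⊓ p' ≤ Q₁ := by
    rw [hinf, Ideal.span_singleton_le_iff_mem]
    exact hwQ
  have hpQ : p ≤ Q₁ := by
    rcases (Ideal.IsPrime.inf_le hQprime).1 hinfle with h' | h'
    · exact h'
    · exact absurd (h'.trans hQle) hle'
  have := hpQ h
  rw [hQ₁, Ideal.mem_comap] at this
  have e : restrictHom ψ.symm B hψsB (restrictHom ψ B hψB b) = b := Subtype.ext (by simp)
  rwa [e] at this

end Final

section Unit

variable {R F : Type*} [CommRing R] [Field F] [Algebra R F]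

/-- The frozen `G.PowV` gives `PowVU` for a function which is a unit of a valuation ring `W ⊇ V`
in which `w` is not invertible. -/
theorem powVU_of_powV {w : R} {V W : ValuationSubring F} (hVW : ∀ z : F, z ∈ V → z ∈ W)
    (hwW : (algebraMap R F w)⁻¹ ∉ W) {m : ℕ} (hm : 0 < m) {u : F} (hu0 : u ≠ 0)
    (hui : u⁻¹ ∈ W) (h : Fermat.Agent.S35.G.PowV w V m u) : PowVU w V m u := by
  obtain ⟨g, hg, hgi, hgu⟩ := h
  refine ⟨g, ?_, hg, hgi, hgu⟩
  rintro rfl
  apply hwW
  rw [zero_pow hm.ne', sub_zero] at hgu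
  have e : (algebraMap R F w)⁻¹ = u⁻¹ * (u * (algebraMap R F w)⁻¹) := by
    rw [← mul_assoc, inv_mul_cancel₀ hu0, one_mul]
  rw [e]
  exact W.mul_mem _ _ hui (hVW _ hgu)

/-- `ψ f / f` is a unit of a `ψ`-stable discrete valuation ring `W` with uniformiser `w`,
`ψ w = w t`, `t ∈ Rˣ`. -/
theorem frobSub_one_unit {w : R} {W : ValuationSubring F} (ψ : F ≃+* F)
    (hψW : ∀ z : F, ψ z ∈ W ↔ z ∈ W) (t t' : R)
    (hψw : ψ (algebraMap R F w) = algebraMap R F w * algebraMap R F t) (htt' : t * t' = 1)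
    (hRW : ∀ r : R, algebraMap R F r ∈ W) (hw0 : algebraMap R F w ≠ 0)
    (hdvr : ∀ f : F, f ≠ 0 → ∃ (k l : ℕ) (ε : F), ε ∈ W ∧ ε⁻¹ ∈ W ∧
      f * algebraMap R F w ^ k = algebraMap R F w ^ l * ε)
    {f : F} (hf : f ≠ 0) : ψ f * f⁻¹ ∈ W ∧ (ψ f * f⁻¹)⁻¹ ∈ W := by
  obtain ⟨k, l, ε, hε, hεi, h⟩ := hdvr f hf
  have hε0 : ε ≠ 0 := by
    rintro rfl
    rw [mul_zero] at h
    exact (mul_ne_zero hf (pow_ne_zero _ hw0)) h
  have hT : algebraMap R F t * algebraMap R F t' = 1 := by rw [← map_mul, htt', map_one]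
  have hT0 : algebraMap R F t ≠ 0 := left_ne_zero_of_mul_eq_one hT
  have hT'0 : algebraMap R F t' ≠ 0 := right_ne_zero_of_mul_eq_one hT
  have hTk : ∀ j : ℕ, algebraMap R F t ^ j * algebraMap R F t' ^ j = 1 := fun j => by
    rw [← mul_pow, hT, one_pow]
  have hψ : ψ f * (algebraMap R F w * algebraMap R F t) ^ k
      = (algebraMap R F w * algebraMap R F t) ^ l * ψ ε := by
    have := congrArg ψ h
    rwa [map_mul, map_mul, map_pow, map_pow, hψw] at this
  have hψε0 : ψ ε ≠ 0 := (map_ne_zero ψ).2 hε0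
  have hψf0 : ψ f ≠ 0 := (map_ne_zero ψ).2 hf
  have hc : algebraMap R F w ^ l * (algebraMap R F w * algebraMap R F t) ^ k ≠ 0 :=
    mul_ne_zero (pow_ne_zero _ hw0) (pow_ne_zero _ (mul_ne_zero hw0 hT0))
  have e1 : ψ f * f⁻¹
      = algebraMap R F t ^ l * algebraMap R F t' ^ k * ψ ε * ε⁻¹ := by
    have key : ψ f * ε = algebraMap R F t ^ l * algebraMap R F t' ^ k * ψ ε * f := by
      apply mul_right_cancel₀ hc
      linear_combination (ε * algebraMap R F w ^ l) * hψ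
        - (algebraMap R F t ^ l * algebraMap R F t' ^ k * algebraMap R F t ^ k * ψ ε
            * algebraMap R F w ^ l) * h
        - (algebraMap R F t ^ l * ψ ε * algebraMap R F w ^ (2 * l) * ε) * hTk k
    field_simp
    linear_combination key
  have e2 : (ψ f * f⁻¹)⁻¹
      = algebraMap R F t' ^ l * algebraMap R F t ^ k * ψ ε⁻¹ * ε := by
    rw [e1, map_inv₀]
    have h1 := hTk l
    have h2 := hTk k
    field_simp
    linear_combination (-(algebraMap R F t ^ k * algebraMap R F t' ^ k)) * h1 - h2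
  have hmemR : ∀ (r : R) (j : ℕ), algebraMap R F r ^ j ∈ W := fun r j => W.pow_mem (hRW r) j
  constructor
  · rw [e1]
    exact W.mul_mem _ _ (W.mul_mem _ _ (W.mul_mem _ _ (hmemR t l) (hmemR t' k))
      ((hψW ε).2 hε)) hεi
  · rw [e2]
    exact W.mul_mem _ _ (W.mul_mem _ _ (W.mul_mem _ _ (hmemR t' l) (hmemR t k))
      ((hψW ε⁻¹).2 hεi)) hε

end Unit

section Data

variable {R E F : Type*} [CommRing R] [IsDomain R] [IsDiscreteValuationRing R]
  [Field E] [CharZero E] [Algebra R E] [IsFractionRing R E]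
  [Field F] [Algebra E F] [Algebra R F] [IsScalarTower R E F]

/-- The local rings `W₁ = B_{p₁}`, `W₂ = B_{p₂}` of the two components of the finite chart, in the
setting of `G.AlgFrobStatement`: they contain `V₁`, `V₂`, satisfy `ValCtx`, are `ψ`-stable and
are discrete valuation rings with uniformiser `w`. -/
theorem exists_locData_of_cut (w : R) (hw : Irreducible w) (x : F) (hx : Transcendental E x)
    (hfin : FiniteDimensional (IntermediateField.adjoin E ({x} : Set F)) F)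
    (hconst : ∀ f : F, IsAlgebraic E f → f ∈ (algebraMap E F).range)
    (Bf : Subalgebra R F)
    (hBf : ∀ f : F, f ∈ Bf ↔ IsIntegral (Algebra.adjoin R ({x} : Set F)) f)
    (cf : A2.SSChart w Bf) (V₁ V₂ : ValuationSubring F) (hcutf : CutBy w Bf cf V₁ V₂)
    (ψ : F ≃+* F) (ψR : R ≃+* R)
    (hψR : ∀ r : R, ψ (algebraMap R F r) = algebraMap R F (ψR r)) (hψx : ψ x = x)
    (hψV₁ : ∀ f ∈ V₁, ψ f ∈ V₁) (hψV₂ : ∀ f ∈ V₂, ψ f ∈ V₂) :
    ∃ W₁ W₂ : ValuationSubring F, ValCtx w x W₁ ∧ ValCtx w x W₂ ∧ W₁ ≠ W₂ ∧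
      (∀ z : F, ψ z ∈ W₁ ↔ z ∈ W₁) ∧ (∀ z : F, ψ z ∈ W₂ ↔ z ∈ W₂) ∧
      (∀ z : F, z ∈ V₁ → z ∈ W₁) ∧ (∀ z : F, z ∈ V₂ → z ∈ W₂) ∧
      (∀ f : F, f ≠ 0 → ∃ (k l : ℕ) (ε : F), ε ∈ W₁ ∧ ε⁻¹ ∈ W₁ ∧
        f * algebraMap R F w ^ k = algebraMap R F w ^ l * ε) ∧
      (∀ f : F, f ≠ 0 → ∃ (k l : ℕ) (ε : F), ε ∈ W₂ ∧ ε⁻¹ ∈ W₂ ∧
        f * algebraMap R F w ^ k = algebraMap R F w ^ l * ε) := by
  have hCf : ChartCtx E w x Bf := ⟨hw, hx, hfin, hconst, hBf⟩
  have hpr₁ := cf.prime₁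
  have hpr₂ := cf.prime₂
  have hAB := adjoin_le_of_ctx hCf
  -- `ψ` preserves the chart
  have hψB : ∀ b : F, b ∈ Bf → ψ b ∈ Bf := fun b hb => phi_mem_chart ψ ψR hψR hψx Bf hBf hb
  have hψR' : ∀ r : R, ψ.symm (algebraMap R F r) = algebraMap R F (ψR.symm r) := by
    intro r
    rw [RingEquiv.symm_apply_eq, hψR, RingEquiv.apply_symm_apply]
  have hψx' : ψ.symm x = x := by rw [RingEquiv.symm_apply_eq, hψx]
  have hψB' : ∀ b : F, ψ b ∈ Bf → b ∈ Bf := fun b hb => by
    have := phi_mem_chart ψ.symm ψR.symm hψR' hψx' Bf hBf hb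
    rwa [RingEquiv.symm_apply_apply] at this
  -- the local rings of the two components
  let D₁ := compData₁ hCf cf
  let D₂ := compData₂ hCf cf
  let W₁ : ValuationSubring F := D₁.valuationSubring hAB
  let W₂ : ValuationSubring F := D₂.valuationSubring hAB
  have hW₁ : ValCtx w x W₁ := valCtx_locAt w x Bf hCf D₁
  have hW₂ : ValCtx w x W₂ := valCtx_locAt w x Bf hCf D₂
  have hne : W₁ ≠ W₂ := by
    intro heq
    obtain ⟨t, ht2, ht1⟩ := SetLike.not_le_iff_exists.1 cf.not_le₂₁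
    have h1 : (t : F)⁻¹ ∈ W₁ :=
      ⟨t, ht1, by rw [mul_inv_cancel₀ (coe_ne_zero_of_not_mem ht1)]; exact Bf.one_mem⟩
    rw [heq] at h1
    obtain ⟨s, hs, hst⟩ := h1
    apply hs
    have e : s = ⟨(s : F) * (t : F)⁻¹, hst⟩ * t := by
      apply Subtype.ext
      push_cast
      rw [mul_assoc, inv_mul_cancel₀ (coe_ne_zero_of_not_mem ht1), mul_one]
    rw [e]
    exact cf.p₂.mul_mem_left _ ht2
  have hmap₁ := restrictHom_mem_iff_of_cut w x Bf hCf cf.inf_eq cf.not_le₂₁ V₁ hcutf.le₁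
    hcutf.cut₁ ψ ψR hψR hψB hψB' hψV₁
  have hmap₂ := restrictHom_mem_iff_of_cut w x Bf hCf (by rw [inf_comm]; exact cf.inf_eq)
    cf.not_le₁₂ V₂ hcutf.le₂ hcutf.cut₂ ψ ψR hψR hψB hψB' hψV₂
  have hψW₁ : ∀ z : F, ψ z ∈ W₁ ↔ z ∈ W₁ := phi_mem_locAt_iff ψ hψB hψB' hmap₁
  have hψW₂ : ∀ z : F, ψ z ∈ W₂ ↔ z ∈ W₂ := phi_mem_locAt_iff ψ hψB hψB' hmap₂
  have hV₁W₁ : ∀ z : F, z ∈ V₁ → z ∈ W₁ := le_locAt_of_cut D₁ hAB V₁ hcutf.le₁ hcutf.cut₁
  have hV₂W₂ : ∀ z : F, z ∈ V₂ → z ∈ W₂ := le_locAt_of_cut D₂ hAB V₂ hcutf.le₂ hcutf.cut₂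
  exact ⟨W₁, W₂, hW₁, hW₂, hne, hψW₁, hψW₂, hV₁W₁, hV₂W₂,
    fun f hf => D₁.exists_zpow_mul hAB hf, fun f hf => D₂.exists_zpow_mul hAB hf⟩

end Data

/-- **ALG-FROB, corrected interface**: `G.AlgFrobStatement` VERBATIM with `G.PowV` replaced by
`PowVU` (the root `g` is required to be nonzero). -/
def AlgFrobStatementU : Prop :=
  ∀ {R E F : Type} [CommRing R] [IsDomain R] [IsDiscreteValuationRing R] [HenselianLocalRing R]
    [IsAlgClosed (IsLocalRing.ResidueField R)]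
    [Field E] [CharZero E] [Algebra R E] [IsFractionRing R E]
    [Field F] [Algebra E F] [Algebra R F] [IsScalarTower R E F]
    (w : R) (_ : Irreducible w) (q m Q : ℕ) (_ : q.Prime)
    (_ : (q : R) ∈ IsLocalRing.maximalIdeal R) (_ : 0 < m) (_ : ¬ q ∣ m)
    (x : F) (_ : Transcendental E x)
    (_ : FiniteDimensional (IntermediateField.adjoin E ({x} : Set F)) F)
    (_ : ∀ f : F, IsAlgebraic E f → f ∈ (algebraMap E F).range)
    (Bf Bi : Subalgebra R F)
    (_ : ∀ f : F, f ∈ Bf ↔ IsIntegral (Algebra.adjoin R ({x} : Set F)) f)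
    (_ : ∀ f : F, f ∈ Bi ↔ IsIntegral (Algebra.adjoin R ({x⁻¹} : Set F)) f)
    (cf : A2.SSChart w Bf) (ci : A2.SSChart w Bi)
    (_ : A2.SepCoord R E x Bf) (_ : A2.SepCoord R E x⁻¹ Bi)
    (V₁ V₂ : ValuationSubring F) (_ : CutBy w Bf cf V₁ V₂) (_ : CutBy w Bi ci V₁ V₂)
    (ψ : F ≃+* F) (ψE : E ≃+* E) (ψR : R ≃+* R)
    (_ : ∀ e : E, ψ (algebraMap E F e) = algebraMap E F (ψE e))
    (_ : ∀ r : R, ψE (algebraMap R E r) = algebraMap R E (ψR r))
    (_ : ψ x = x)
    (_ : ∀ r : R, ψR r - r ^ Q ∈ IsLocalRing.maximalIdeal R)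
    (_ : ∀ f ∈ V₁, ψ f ∈ V₁) (_ : ∀ f ∈ V₂, ψ f ∈ V₂)
    (_ : NodeStable Bf cf ψ) (_ : NodeStable Bi ci ψ),
    ∀ h : F, h ≠ 0 → A2.DivisibleDiv E m h → PowVU w V₁ m h → PowVU w V₂ m h →
      ∃ y : F, y ≠ 0 ∧ ψ h = y ^ m * h ^ Q

/-- **ALG-FROB from the three leaves of the A2 wall.** -/
theorem algFrobU_of_leaves (hPS : H34.PuritySmoothLeaf) (hPN : H34.PurityNodeLeaf)
    (hG : H34.GlueLeaf) : AlgFrobStatementU := by
  intro R E F _ _ _ _ _ _ _ _ _ _ _ _ _ w hw q m Q hq hqR hm hqm x hx hfin hconst Bf Bi hBf hBi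
    cf ci sf si V₁ V₂ hcutf hcuti ψ ψE ψR hψE hψER hψx hfrob hψV₁ hψV₂ hnodef hnodei h hh hdiv
    hp₁ hp₂
  have hψR : ∀ r : R, ψ (algebraMap R F r) = algebraMap R F (ψR r) := by
    intro r
    rw [IsScalarTower.algebraMap_apply R E F, hψE, hψER, ← IsScalarTower.algebraMap_apply]
  -- `Q > 0`
  have hQ : 0 < Q := by
    rcases Nat.eq_zero_or_pos Q with rfl | hQ
    · exfalso
      have := hfrob 0
      rw [map_zero, pow_zero, zero_sub] at this
      have h1 : (1 : R) ∈ IsLocalRing.maximalIdeal R := by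
        have := (IsLocalRing.maximalIdeal R).neg_mem this
        rwa [neg_neg] at this
      exact (IsLocalRing.maximalIdeal.isMaximal R).ne_top ((Ideal.eq_top_iff_one _).2 h1)
    · exact hQ
  have hfrob' : ∀ r : R, ∃ s : R, ψR r - r ^ Q = w * s := by
    intro r
    have := hfrob r
    rw [hw.maximalIdeal_eq, Ideal.mem_span_singleton] at this
    exact this
  obtain ⟨W₁, W₂, hW₁, hW₂, hne, hψW₁, hψW₂, hV₁W₁, hV₂W₂, -, -⟩ :=
    exists_locData_of_cut (E := E) w hw x hx hfin hconst Bf hBf cf V₁ V₂ hcutf ψ ψR hψR hψx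
      hψV₁ hψV₂
  exact frobToricVal_of_leaves hPS hPN hG w hw q m hq hqR hm hqm x hx hfin hconst Bf Bi hBf hBi
    cf ci sf si W₁ W₂ hW₁ hW₂ hne ψ ψE ψR Q hQ hψE hψER hfrob' hψx hψW₁ hψW₂
    (fun n hn h1 h2 b hb hb' => hnodef n hn h1 h2 b hb ⟨ψ b, hb'⟩ rfl)
    (fun n hn h1 h2 b hb hb' => hnodei n hn h1 h2 b hb ⟨ψ b, hb'⟩ rfl)
    h hh hdiv (gSplitV_of_powVU hV₁W₁ hW₁.hw hW₁.hR hp₁) (gSplitV_of_powVU hV₂W₂ hW₂.hw hW₂.hR hp₂)

/-- **ALG-FROB, second corrected interface**: `G.AlgFrobStatement` VERBATIM (with the frozen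
`G.PowV`), for the functions `h = ψ u / u = G.frobSub ψ 1 u`, `u ≠ 0`. -/
def AlgFrobStatementT : Prop :=
  ∀ {R E F : Type} [CommRing R] [IsDomain R] [IsDiscreteValuationRing R] [HenselianLocalRing R]
    [IsAlgClosed (IsLocalRing.ResidueField R)]
    [Field E] [CharZero E] [Algebra R E] [IsFractionRing R E]
    [Field F] [Algebra E F] [Algebra R F] [IsScalarTower R E F]
    (w : R) (_ : Irreducible w) (q m Q : ℕ) (_ : q.Prime)
    (_ : (q : R) ∈ IsLocalRing.maximalIdeal R) (_ : 0 < m) (_ : ¬ q ∣ m)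
    (x : F) (_ : Transcendental E x)
    (_ : FiniteDimensional (IntermediateField.adjoin E ({x} : Set F)) F)
    (_ : ∀ f : F, IsAlgebraic E f → f ∈ (algebraMap E F).range)
    (Bf Bi : Subalgebra R F)
    (_ : ∀ f : F, f ∈ Bf ↔ IsIntegral (Algebra.adjoin R ({x} : Set F)) f)
    (_ : ∀ f : F, f ∈ Bi ↔ IsIntegral (Algebra.adjoin R ({x⁻¹} : Set F)) f)
    (cf : A2.SSChart w Bf) (ci : A2.SSChart w Bi)
    (_ : A2.SepCoord R E x Bf) (_ : A2.SepCoord R E x⁻¹ Bi)
    (V₁ V₂ : ValuationSubring F) (_ : CutBy w Bf cf V₁ V₂) (_ : CutBy w Bi ci V₁ V₂)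
    (ψ : F ≃+* F) (ψE : E ≃+* E) (ψR : R ≃+* R)
    (_ : ∀ e : E, ψ (algebraMap E F e) = algebraMap E F (ψE e))
    (_ : ∀ r : R, ψE (algebraMap R E r) = algebraMap R E (ψR r))
    (_ : ψ x = x)
    (_ : ∀ r : R, ψR r - r ^ Q ∈ IsLocalRing.maximalIdeal R)
    (_ : ∀ f ∈ V₁, ψ f ∈ V₁) (_ : ∀ f ∈ V₂, ψ f ∈ V₂)
    (_ : NodeStable Bf cf ψ) (_ : NodeStable Bi ci ψ),
    ∀ u : F, u ≠ 0 → A2.DivisibleDiv E m (Fermat.Agent.S35.G.frobSub ψ 1 u) →
      Fermat.Agent.S35.G.PowV w V₁ m (Fermat.Agent.S35.G.frobSub ψ 1 u) →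
      Fermat.Agent.S35.G.PowV w V₂ m (Fermat.Agent.S35.G.frobSub ψ 1 u) →
      ∃ y : F, y ≠ 0 ∧ ψ (Fermat.Agent.S35.G.frobSub ψ 1 u)
        = y ^ m * (Fermat.Agent.S35.G.frobSub ψ 1 u) ^ Q

/-- **ALG-FROB (form T) from the three leaves of the A2 wall.** -/
theorem algFrobT_of_leaves (hPS : H34.PuritySmoothLeaf) (hPN : H34.PurityNodeLeaf)
    (hG : H34.GlueLeaf) : AlgFrobStatementT := by
  intro R E F _ _ _ _ _ _ _ _ _ _ _ _ _ w hw q m Q hq hqR hm hqm x hx hfin hconst Bf Bi hBf hBi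
    cf ci sf si V₁ V₂ hcutf hcuti ψ ψE ψR hψE hψER hψx hfrob hψV₁ hψV₂ hnodef hnodei u hu hdiv
    hp₁ hp₂
  have hψR : ∀ r : R, ψ (algebraMap R F r) = algebraMap R F (ψR r) := by
    intro r
    rw [IsScalarTower.algebraMap_apply R E F, hψE, hψER, ← IsScalarTower.algebraMap_apply]
  obtain ⟨W₁, W₂, hW₁, hW₂, hne, hψW₁, hψW₂, hV₁W₁, hV₂W₂, hd₁, hd₂⟩ :=
    exists_locData_of_cut (E := E) w hw x hx hfin hconst Bf hBf cf V₁ V₂ hcutf ψ ψR hψR hψx
      hψV₁ hψV₂
  have hw0 : algebraMap R F w ≠ 0 := by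
    intro h
    exact hw.ne_zero (H34.algebraMap_RF_injective (R := R) (F := F) E (by rw [h, map_zero]))
  -- `ψR w = w t`, `t` a unit
  have hmax : ∀ (e : R ≃+* R), ∃ t : R, e w = w * t := by
    intro e
    have h1 : e w ∈ IsLocalRing.maximalIdeal R := by
      rw [IsLocalRing.mem_maximalIdeal, mem_nonunits_iff]
      intro hu'
      apply hw.not_isUnit
      have := hu'.map e.symm
      rwa [RingEquiv.symm_apply_apply] at this
    rw [hw.maximalIdeal_eq, Ideal.mem_span_singleton] at h1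
    exact h1
  obtain ⟨t, ht⟩ := hmax ψR
  obtain ⟨t₁, ht₁⟩ := hmax ψR.symm
  have htt : t * ψR t₁ = 1 := by
    have h1 : ψR (ψR.symm w) = w := ψR.apply_symm_apply w
    rw [ht₁, map_mul, ht] at h1
    have h2 : w * (t * ψR t₁) = w * 1 := by rw [mul_one, ← mul_assoc]; exact h1
    exact mul_left_cancel₀ hw.ne_zero h2
  have hψw : ψ (algebraMap R F w) = algebraMap R F w * algebraMap R F t := by
    rw [hψR, ht, map_mul]
  have hunit₁ := frobSub_one_unit ψ hψW₁ t (ψR t₁) hψw htt hW₁.hR hw0 hd₁ hu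
  have hunit₂ := frobSub_one_unit ψ hψW₂ t (ψR t₁) hψw htt hW₂.hR hw0 hd₂ hu
  have hfs : Fermat.Agent.S35.G.frobSub ψ 1 u = ψ u * u⁻¹ := by
    unfold Fermat.Agent.S35.G.frobSub
    rw [pow_one]
  have hh0 : Fermat.Agent.S35.G.frobSub ψ 1 u ≠ 0 := by
    rw [hfs]
    exact mul_ne_zero ((map_ne_zero ψ).2 hu) (inv_ne_zero hu)
  rw [← hfs] at hunit₁ hunit₂
  exact algFrobU_of_leaves hPS hPN hG w hw q m Q hq hqR hm hqm x hx hfin hconst Bf Bi hBf hBi
    cf ci sf si V₁ V₂ hcutf hcuti ψ ψE ψR hψE hψER hψx hfrob hψV₁ hψV₂ hnodef hnodei _ hh0 hdiv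
    (powVU_of_powV hV₁W₁ hW₁.hw hm hh0 hunit₁.2 hp₁)
    (powVU_of_powV hV₂W₂ hW₂.hw hm hh0 hunit₂.2 hp₂)

end Fermat.Agent.S35.H433

end
-- ===== PACK-END S35/H433/AlgFrob.lean

-- ===== PACK-BEGIN S35/H433/LevelFrob.lean
section



/-!
# S35 / (G') — the level statement from the FROZEN modular leaves and the A2 wall leaves (helper433)

`G.levelFrob_of_parts` (architect helper450, `S35/G/Top.lean`) consumes `G.AlgFrobStatement`,
which is false as frozen (`G.PowV` admits the root `g = 0`; note #8042).  This file gives the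
same assembly with `G.AlgFrobStatement` replaced by

* `AlgFrobStatementT` (`AlgFrob.lean`): the frozen statement restricted to `h = ψ u / u`, or
* directly the three leaves of the A2 wall (`PuritySmoothLeaf`, `PurityNodeLeaf`, `GlueLeaf`).

ALL the other hypotheses are the frozen statements of `S35/G/SpecLevel.lean`, unchanged
(`ModelStatement`, `StableStatement`, `NodeRatStatement`, `ToricStatement` with the frozen
`G.PowV`, `FrobResStatement`, `CoordStatement`): no leaf owner has to retarget.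

* `levelFrob_of_partsT`  : `AlgFrobStatementT` + modular leaves `⟹ G.LevelFrobAt A E M q m`.
* `levelFrob_of_leaves`  : A2 wall leaves + modular leaves `⟹ G.LevelFrobAt A E M q m`.
-/

set_option autoImplicit false
set_option linter.style.haveILetI false
set_option linter.unusedSectionVars false
set_option linter.unusedVariables false
set_option synthInstance.maxHeartbeats 400000
set_option maxHeartbeats 1600000

noncomputable section

namespace Fermat.Agent.S35.H433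

open ModularCurve AlgebraicCurve
open Fermat.Agent.S35.G

/-- The assembly of `G.levelFrob_of_parts` with the corrected abstract input
`AlgFrobStatementT`; every modular input is the frozen statement of `S35/G/SpecLevel.lean`. -/
theorem levelFrob_of_partsT (A : ValuationSubring Qb) (E : IntermediateField ℚ Qb)
    (M q m : ℕ) [NeZero M] [NeZero q]
    (hq : q.Prime) (hqM : ¬ q ∣ M) (haux : HasAux M q) (hm : 0 < m) (hqm : ¬ q ∣ m)
    (hALG : AlgFrobStatementT)
    (hMODEL : ∀ w, ModelStatement A E M q w)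
    (hSTAB : StableStatement A E)
    (hNODE : ∀ w, NodeRatStatement A E M q w)
    (hTORIC : ∀ w, ToricStatement A E M q m w)
    (hRES : FrobResStatement A E q)
    (hCOORD : CoordStatement E M q) :
    LevelFrobAt A E M q m := by
  intro hA hE s hs hsF y hy hdiv hNα hNβ
  haveI : IsDiscreteValuationRing ↥(A2.Mod.RE A E) := hE.dvr
  haveI : HenselianLocalRing ↥(A2.Mod.RE A E) := hE.henselian
  haveI : IsAlgClosed (IsLocalRing.ResidueField ↥(A2.Mod.RE A E)) := hE.algClosed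
  obtain ⟨w, hw⟩ := IsDiscreteValuationRing.exists_irreducible ↥(A2.Mod.RE A E)
  have hS : A2.Mod.Setting A E M q w :=
    { q_prime := hq
      q_not_dvd := hqM
      M_ne_zero := NeZero.ne M
      lies_over := hA
      dvr := hE.dvr
      unif := hw }
  obtain ⟨V, W, VM, hV, hW, hVM, hg1, hg2, hDeg, sf, si, cf, ci, hcf, hci⟩ :=
    hMODEL w hS hE haux
  obtain ⟨hx, hfr, hconst⟩ := hDeg hq hqM
  have hpos : 0 < Module.finrank
      (IntermediateField.adjoin E ({A2.Mod.xE E M q} : Set (A2.Mod.FE E (M * q))))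
      (A2.Mod.FE E (M * q)) := by
    rw [hfr]
    have h1 := A2.Mod.dedekindPsi_pos_of_ne_zero M (NeZero.ne M)
    positivity
  have hfin : FiniteDimensional
      (IntermediateField.adjoin E ({A2.Mod.xE E M q} : Set (A2.Mod.FE E (M * q))))
      (A2.Mod.FE E (M * q)) := Module.finite_of_finrank_pos hpos
  obtain ⟨ψR, hψR, hQ⟩ := hRES hA hq s hs hsF
  have hsD : s ∈ A.decompositionSubgroup ℚ := hsF.mem_decompositionSubgroup
  have hN0 : M * q ≠ 0 := Nat.mul_ne_zero (NeZero.ne M) (NeZero.ne q)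
  obtain ⟨hcomm, hσV⟩ := hSTAB (M * q) hN0 hE.dvr V W hV hW s hs hsD
  -- `ψ = σ ∘ σ`
  have hψσ : ∀ f : A2.Mod.FE E (M * q), psiE E (M * q) s hs f =
      actE E (M * q) (A2.Mod.resE E s hs) (actE E (M * q) (A2.Mod.resE E s hs) f) :=
    fun f => actE_mul_apply E (M * q) _ _ f
  have hψV : ∀ f ∈ V, psiE E (M * q) s hs f ∈ V := fun f hf => by
    rw [hψσ]
    exact hσV _ (hσV _ hf)
  have hψV₀ : ∀ f ∈ V.comap (W : A2.Mod.FE E (M * q) →+* A2.Mod.FE E (M * q)),
      psiE E (M * q) s hs f ∈ V.comap (W : A2.Mod.FE E (M * q) →+* A2.Mod.FE E (M * q)) :=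
    fun f hf => by
      show W (psiE E (M * q) s hs f) ∈ V
      rw [hψσ, ← hcomm, ← hcomm]
      exact hσV _ (hσV _ hf)
  -- semilinearity
  have hψE : ∀ e : E, psiE E (M * q) s hs (algebraMap E (A2.Mod.FE E (M * q)) e) =
      algebraMap E (A2.Mod.FE E (M * q))
        ((A2.Mod.resE E s hs * A2.Mod.resE E s hs).toRingEquiv e) :=
    fun e => arithmeticRingAut_algebraMap (modularFunctionFieldFull (M * q)) _ e
  have hψRE : ∀ r : ↥(A2.Mod.RE A E),
      (A2.Mod.resE E s hs * A2.Mod.resE E s hs).toRingEquiv (algebraMap ↥(A2.Mod.RE A E) E r) =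
        algebraMap ↥(A2.Mod.RE A E) E (ψR r) := fun r => hψR r
  -- the function `(ψ - 1)² y`
  set h₁ := frobSub (psiE E (M * q) s hs) 1 y with hh₁
  set h₂ := frobSub (psiE E (M * q) s hs) 1 h₁ with hh₂
  have hh₁0 : h₁ ≠ 0 := frobSub_ne_zero _ 1 hy
  have hh₂0 : h₂ ≠ 0 := frobSub_ne_zero _ 1 hh₁0
  have hd₁ : A2.DivisibleDiv E m h₁ := divisibleDiv_frobSub_one _ _ hψE m y hdiv
  have hd₂ : A2.DivisibleDiv E m h₂ := divisibleDiv_frobSub_one _ _ hψE m h₁ hd₁
  obtain ⟨ht₁, ht₂⟩ := hTORIC w hS hE hm hqm V W hV hW s hs hsF y hy hNα hNβ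
  have hnf := hNODE w hS hE VM V W hVM hV hW _ _ (Or.inl ⟨rfl, rfl⟩) hg1 cf
    hcf.cut₁ hcf.cut₂ s hs hsF
  have hni := hNODE w hS hE VM V W hVM hV hW _ _ (Or.inr ⟨rfl, rfl⟩) hg2 ci
    hci.cut₁ hci.cut₂ s hs hsF
  obtain ⟨z, hz, hzz⟩ := hALG (R := ↥(A2.Mod.RE A E)) (E := E) (F := ↥(A2.Mod.FE E (M * q)))
    w hw q m (q ^ 2) hq (A2.T1.H669.natCast_mem_maximalIdeal_RE E hA) hm hqm
    (A2.Mod.xE E M q) hx hfin hconst
    (A2.Mod.chartAlg A E (M * q) (A2.Mod.xE E M q))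
    (A2.Mod.chartAlg A E (M * q) (A2.Mod.xE E M q)⁻¹)
    (fun _ => Iff.rfl) (fun _ => Iff.rfl) cf ci sf si V
    (V.comap (W : A2.Mod.FE E (M * q) →+* A2.Mod.FE E (M * q))) hcf hci
    (psiE E (M * q) s hs) (A2.Mod.resE E s hs * A2.Mod.resE E s hs).toRingEquiv ψR
    hψE hψRE (hCOORD _) hQ hψV hψV₀ hnf hni h₁ hh₁0 hd₂ ht₁ ht₂
  refine ⟨z, hz, ?_⟩
  show frobSub (psiE E (M * q) s hs) (q ^ 2) h₂ = z ^ m
  unfold frobSub
  have hzz' : psiE E (M * q) s hs h₂ = z ^ m * h₂ ^ (q ^ 2) := hzz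
  rw [hzz', mul_assoc, mul_inv_cancel₀ (pow_ne_zero _ hh₂0), mul_one]

/-- **The level statement of (G') from the three leaves of the A2 wall and the frozen modular
leaves of `S35/G/SpecLevel.lean`.** -/
theorem levelFrob_of_leaves (A : ValuationSubring Qb) (E : IntermediateField ℚ Qb)
    (M q m : ℕ) [NeZero M] [NeZero q]
    (hq : q.Prime) (hqM : ¬ q ∣ M) (haux : HasAux M q) (hm : 0 < m) (hqm : ¬ q ∣ m)
    (hPS : A2.Alg.H34.PuritySmoothLeaf) (hPN : A2.Alg.H34.PurityNodeLeaf)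
    (hG : A2.Alg.H34.GlueLeaf)
    (hMODEL : ∀ w, ModelStatement A E M q w)
    (hSTAB : StableStatement A E)
    (hNODE : ∀ w, NodeRatStatement A E M q w)
    (hTORIC : ∀ w, ToricStatement A E M q m w)
    (hRES : FrobResStatement A E q)
    (hCOORD : CoordStatement E M q) :
    LevelFrobAt A E M q m :=
  levelFrob_of_partsT A E M q m hq hqM haux hm hqm (algFrobT_of_leaves hPS hPN hG)
    hMODEL hSTAB hNODE hTORIC hRES hCOORD

end Fermat.Agent.S35.H433

end

end
-- ===== PACK-END S35/H433/LevelFrob.lean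

-- ===== PACK-BEGIN A2/Alg/H754/PuritySmoothLeaf.lean
section



/-!
# A2 / ALG leaf P-S (helper754): `puritySmoothLeaf : H34.PuritySmoothLeaf`

The leaf `Prop` of `Fermat/Agent/A2/Alg/H34/Asm.lean` (universe level `0`), from the
universe-polymorphic `H754.purity_smooth` (VERBATIM statement of `Alg/Skel.lean`).
-/

set_option autoImplicit false

namespace Fermat.Agent.A2.Alg.H754

/-- **Leaf P-S**, in the exact shape consumed by `H34.algSS_of_leaves`. -/
theorem puritySmoothLeaf : Fermat.Agent.A2.Alg.H34.PuritySmoothLeaf :=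
  fun q m hq hqR hm hqm w x B hB c hc u hu hdiv hs n hn hwn h1 =>
    purity_smooth q m hq hqR hm hqm w x B hB c hc u hu hdiv hs n hn hwn h1

end Fermat.Agent.A2.Alg.H754

end
-- ===== PACK-END A2/Alg/H754/PuritySmoothLeaf.lean

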