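import Mathlib
import Fermat.Agent.Pack.S36.E15L3
import Fermat.Agent.Pack.S36.E7L2
import Fermat.Agent.Pack.S58.E3L3
import Fermat.Agent.Pack.S36.E12L0
import Fermat.Agent.Pack.S36.E7L1
import Fermat.Agent.Pack.S36.E16L0
import Fermat.Agent.Pack.S36.E15L1
import Fermat.Agent.Pack.S36.E6L0
import Fermat.Agent.Pack.S36.E0L3
import Fermat.Agent.Pack.S58.E2L2
import Fermat.Agent.Pack.S36.E14L2
import Fermat.Agent.Pack.S58.E1L0
import Fermat.Agent.Pack.S58.E0L1
import Fermat.Agent.Pack.S36.E1L2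
import Fermat.Agent.Pack.S58.E3L1
import Fermat.Agent.Pack.S36.E11L3

-- ===== PACK-BEGIN S35/H155/B2Spec.lean
section
/-
S35 / cell FROB, leaf B2 (helper155): adapter between `H155.IsQNew` (kernel of both degeneracy
push-forwards) and the divisor form `H891.IsQNew` of the frozen interface `S35/H891/Spec.lean`.
-/



set_option autoImplicit false
set_option linter.style.haveILetI false

noncomputable section

namespace Fermat.Agent.S35.H155

open AlgebraicCurve ModularCurve Fermat.Agent.Lib.FF398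

/-- The two notions of `q`-new classes agree. -/
theorem isQNew_iff_spec (N q : ℕ) [NeZero N] [NeZero q] (x : JZero (N * q)) :
    Fermat.Agent.S35.H891.IsQNew N q x ↔ IsQNew N q x := by
  constructor
  · rintro ⟨hα, hβ, D, rfl, h1, h2⟩
    exact (isQNew_mk_iff D).mpr ⟨h1, h2⟩
  · intro h
    obtain ⟨D, rfl⟩ := Pic0.mk_surjective x
    obtain ⟨h1, h2⟩ := (isQNew_mk_iff D).mp h
    exact ⟨heckeAlphaBarIntegral N q, heckeBetaBarIntegral N q, D, rfl, h1, h2⟩

/-- Spec form of `isQNew_heckeEval`: KILLER ⇒ `q`-new (interface `H891.IsQNew`). -/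
theorem isQNew_spec_heckeEval (N q : ℕ) [NeZero N] [NeZero q] {p : ℕ}
    (hT' : TorsRel (N * q) p) (hT : TorsRel N p)
    (hc' : HeckeOperatorsCommuteBar (N * q)) (hc : HeckeOperatorsCommuteBar N)
    (t : HeckeAlg)
    (ht : t ∈ MvPolynomial.supported ℤ {ℓ : Nat.Primes | ¬ (ℓ : ℕ) ∣ N * q * p})
    (hkill : ∀ z : JZero N, (∃ n : ℕ, (p ^ n) • z = 0) → heckeEvalBar hc t z = 0)
    (y : JZero (N * q)) (hy : ∃ n : ℕ, (p ^ n) • y = 0) :
    Fermat.Agent.S35.H891.IsQNew N q (heckeEvalBar hc' t y) :=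
  (isQNew_iff_spec N q _).mpr (isQNew_heckeEval hT' hT hc' hc t ht hkill y hy)

end Fermat.Agent.S35.H155

end

end
-- ===== PACK-END S35/H155/B2Spec.lean

-- ===== PACK-BEGIN S37/H98/RawES.lean
section





/-!
# S37 → S29 export (helper98): the raw Eichler–Shimura statement on torsion

Row S29 (helper269) consumes from rows S37/S18 exactly `Fermat.Agent.S29.RawESStatement`
(`Fermat/Agent/S29/Parts.lean`): for `ℓ ∤ N p`, `A` over `ℓ`, inertia at `A` fixes the
`p`-torsion of `JZero N` and every Frobenius `σ` at `A` satisfies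
`σ² x - T_ℓ (σ x) + ℓ x = 0` on it.  This file derives it formally

* `rawES_of_redData`  : from reduction data `H99.RedData N A ℓ hℓ` for all `ℓ ∤ N`, `A`;
* `rawES_of_pieces`   : from the two remaining pieces of the S37 row plan
  (`Core.result_of_pieces`): [S18] `Core.InjTorsionModL` and [PR] `Core.PlaceRed`
  ([HIA] is on main: `Lib.FF398.heckeInputsAlong`).

No Hecke-module structure, no `HeckeOperatorsCommuteBar`.  The pointwise versions
`rawES_at_of_redData`, `rawES_at_of_placeRed` hold for every `m` prime to `ℓ` (not only primes).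
-/

set_option autoImplicit false
set_option synthInstance.maxHeartbeats 400000

noncomputable section

namespace Fermat.Agent.S37.H98

open ModularCurve ValuationSubring AlgebraicCurve

section Abstract

variable {G J : Type*} [Group G] [AddCommGroup J] [DistribMulAction G J]

/-- Abstract core, inertia part: a map killing `τ x - x` and injective on `m`-torsion. -/
theorem smul_eq_of_red {Y : Type*} [AddCommGroup Y] (red : J →+ Y) {m : ℕ}
    (hinj : ∀ x : J, m • x = 0 → red x = 0 → x = 0) (τ : G)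
    (hτ : ∀ x : J, red (τ • x) = red x) {x : J} (hx : (m : ℤ) • x = 0) :
    τ • x = x := by
  have h1 : (m : ℤ) • (τ • x - x) = 0 := by
    rw [zsmul_sub, ← smul_comm τ (m : ℤ) x, hx, smul_zero, sub_zero]
  rw [natCast_zsmul] at h1
  have h2 : red (τ • x - x) = 0 := by rw [map_sub, hτ x, sub_self]
  exact sub_eq_zero.mp (hinj _ h1 h2)

/-- Abstract core, Frobenius part (`T` any additive endomorphism). -/
theorem relation_eq_zero_of_red {Y : Type*} [AddCommGroup Y] (red : J →+ Y) {m : ℕ}
    (hinj : ∀ x : J, m • x = 0 → red x = 0 → x = 0) (σ : G) (T : J →+ J) (ℓ : ℕ)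
    (hσ : ∀ x : J, red (σ • σ • x - T (σ • x) + ℓ • x) = 0)
    {x : J} (hx : (m : ℤ) • x = 0) :
    σ • σ • x - T (σ • x) + (ℓ : ℤ) • x = 0 := by
  rw [natCast_zsmul]
  refine hinj _ ?_ (hσ x)
  have h0 : (m : ℤ) • (σ • x) = 0 := by
    rw [← smul_comm σ (m : ℤ) x, hx, smul_zero]
  have h1 : (m : ℤ) • (σ • σ • x) = 0 := by
    rw [← smul_comm σ (m : ℤ) (σ • x), h0, smul_zero]
  have h2 : (m : ℤ) • T (σ • x) = 0 := by
    rw [← map_zsmul, h0, map_zero]
  have h3 : (m : ℤ) • (ℓ • x) = 0 := by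
    rw [← natCast_zsmul x ℓ, smul_comm, hx, smul_zero]
  have h4 : (m : ℤ) • (σ • σ • x - T (σ • x) + ℓ • x) = 0 := by
    rw [zsmul_add, zsmul_sub, h1, h2, h3, sub_zero, add_zero]
  rwa [natCast_zsmul] at h4

end Abstract

/-- Raw Eichler–Shimura at `(ℓ, A)` on `m`-torsion (`m` prime to `ℓ`), from reduction data. -/
theorem rawES_at_of_redData {N : ℕ} [NeZero N] {A : ValuationSubring (AlgebraicClosure ℚ)}
    {ℓ : ℕ} {hℓ : ℓ.Prime} (D : Fermat.Agent.S37.H99.RedData N A ℓ hℓ) (m : ℕ)
    (hm : m.Coprime ℓ) :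
    (∀ σ ∈ A.inertiaSubgroupIn ℚ, ∀ x : JZero N, (m : ℤ) • x = 0 → σ • x = x) ∧
    (∀ σ : AlgebraicClosure ℚ ≃ₐ[ℚ] AlgebraicClosure ℚ, A.IsFrobeniusAt σ ℓ →
      ∀ x : JZero N, (m : ℤ) • x = 0 →
        σ • σ • x - heckeOperatorBar N ⟨ℓ, hℓ⟩ (σ • x) + (ℓ : ℤ) • x = 0) := by
  have hinj : ∀ x : JZero N, m • x = 0 → D.red x = 0 → x = 0 :=
    fun x hx h0 => D.inj_torsion m x hm hx h0
  exact ⟨fun τ hτ x hx => smul_eq_of_red D.red hinj τ (D.inertia τ hτ) hx,
    fun σ hσ x hx => relation_eq_zero_of_red D.red hinj σ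
      (heckeOperatorBar N ⟨ℓ, hℓ⟩).toAddMonoidHom ℓ (D.relation σ hσ) hx⟩

/-- **`RawESStatement` from reduction data** (`H99.RedData` for all `ℓ ∤ N` and all `A`). -/
theorem rawES_of_redData
    (H : ∀ (N : ℕ) [NeZero N] (ℓ : ℕ) (hℓ : ℓ.Prime), ¬ ℓ ∣ N →
      ∀ A : ValuationSubring (AlgebraicClosure ℚ), A.LiesOverPrime ℓ →
        Nonempty (Fermat.Agent.S37.H99.RedData N A ℓ hℓ)) :
    Fermat.Agent.S29.RawESStatement := by
  intro N p _ hp ℓ hℓ hdvd A hA
  have hℓN : ¬ ℓ ∣ N := fun h => hdvd (Dvd.dvd.mul_right h p)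
  have hℓp : ¬ ℓ ∣ p := fun h => hdvd (Dvd.dvd.mul_left h N)
  obtain ⟨D⟩ := H N ℓ hℓ hℓN A hA
  exact rawES_at_of_redData D p
    (Nat.coprime_comm.mp ((Nat.Prime.coprime_iff_not_dvd hℓ).mpr hℓp))

open Fermat.Agent.S37.Core in
/-- Raw Eichler–Shimura for ONE Frobenius `σ₀` at `(ℓ, A)` on `m`-torsion (`ℓ ∤ m`), from a
`Core.PlaceRed` and the conclusion of S18. -/
theorem rawES_at_of_placeRed {N : ℕ} [NeZero N] {A : ValuationSubring (AlgebraicClosure ℚ)}
    {ℓ : ℕ} (hℓ : ℓ.Prime) {σ₀ : AlgebraicClosure ℚ ≃ₐ[ℚ] AlgebraicClosure ℚ}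
    (D : haveI : NeZero ℓ := ⟨hℓ.ne_zero⟩; PlaceRed N A ℓ σ₀)
    (hS18 : InjTorsionModL N ℓ A) (m : ℕ) (hm : ¬ ℓ ∣ m) :
    (∀ σ ∈ A.inertiaSubgroupIn ℚ, ∀ x : JZero N, (m : ℤ) • x = 0 → σ • x = x) ∧
    (∀ x : JZero N, (m : ℤ) • x = 0 →
        σ₀ • σ₀ • x - heckeOperatorBar N ⟨ℓ, hℓ⟩ (σ₀ • x) + (ℓ : ℤ) • x = 0) := by
  have : NeZero ℓ := ⟨hℓ.ne_zero⟩
  have hinj : ∀ x : JZero N, m • x = 0 → D.red x = 0 → x = 0 :=
    fun x hx h0 => D.red_inj_torsion hS18 hm hx h0
  exact ⟨fun τ hτ x hx => smul_eq_of_red D.red hinj τ (fun y => D.red_inertia hτ y) hx,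
    fun x hx => relation_eq_zero_of_red D.red hinj σ₀
      (heckeOperatorBar N ⟨ℓ, hℓ⟩).toAddMonoidHom ℓ
      (fun y => D.red_relation (Fermat.Agent.Lib.FF398.heckeInputsAlong N ℓ) y) hx⟩

open Fermat.Agent.S37.Core in
/-- **`RawESStatement` from the two open pieces of the S37 row plan**: [S18] and [PR]. -/
theorem rawES_of_pieces
    (hS18 : ∀ (N : ℕ) [NeZero N] (ℓ : ℕ), ℓ.Prime → ¬ ℓ ∣ N →
      ∀ A : ValuationSubring (AlgebraicClosure ℚ), A.LiesOverPrime ℓ → InjTorsionModL N ℓ A)
    (hPR : ∀ (N : ℕ) [NeZero N] (ℓ : ℕ) (hℓ : ℓ.Prime), ¬ ℓ ∣ N →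
      ∀ A : ValuationSubring (AlgebraicClosure ℚ), A.LiesOverPrime ℓ →
        ∀ σ₀ : AlgebraicClosure ℚ ≃ₐ[ℚ] AlgebraicClosure ℚ, A.IsFrobeniusAt σ₀ ℓ →
          haveI : NeZero ℓ := ⟨hℓ.ne_zero⟩; Nonempty (PlaceRed N A ℓ σ₀)) :
    Fermat.Agent.S29.RawESStatement := by
  intro N p _ hp ℓ hℓ hdvd A hA
  have hℓN : ¬ ℓ ∣ N := fun h => hdvd (Dvd.dvd.mul_right h p)
  have hℓp : ¬ ℓ ∣ p := fun h => hdvd (Dvd.dvd.mul_left h N)
  refine ⟨?_, fun σ hσ x hx => ?_⟩
  · obtain ⟨σ₀, hσ₀⟩ := Fermat.Agent.S37.H99.exists_isFrobeniusAt ℓ hℓ A hA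
    obtain ⟨D⟩ := hPR N ℓ hℓ hℓN A hA σ₀ hσ₀
    exact (rawES_at_of_placeRed hℓ D (hS18 N ℓ hℓ hℓN A hA) p hℓp).1
  · obtain ⟨D⟩ := hPR N ℓ hℓ hℓN A hA σ hσ
    exact (rawES_at_of_placeRed hℓ D (hS18 N ℓ hℓ hℓN A hA) p hℓp).2 x hx

end Fermat.Agent.S37.H98

end
end
-- ===== PACK-END S37/H98/RawES.lean

-- ===== PACK-BEGIN S37/Core/AssemblePull.lean
section


/-!
# S37 row (helper37): assembly through an auxiliary level

For `ℓ ∈ {2, 3}` the smooth model is only available at levels `M` divisible by an auxiliary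
prime.  `PullData N M ℓ` is the interface of piece [PULL]: a pullback map
`π^* : J₀(N) → J₀(M)` which is Galois equivariant, injective on prime-to-`ℓ` torsion and
commutes with `T_ℓ`.  `result_of_pieces'` is the variant of `result_of_pieces` in which the
place reduction may live at any such level `M` (take `M = N`, `pull = id` when possible).
Fully proved.
-/

set_option autoImplicit false
set_option synthInstance.maxHeartbeats 400000

noncomputable section

namespace Fermat.Agent.S37.Core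

open ModularCurve ValuationSubring AlgebraicCurve HahnSeries Fermat.Agent.S37.H99

/-- Interface of piece [PULL]. -/
structure PullData (N M : ℕ) [NeZero N] [NeZero M] (ℓ : ℕ) [NeZero ℓ] : Type where
  /-- the pullback map -/
  pull : JZero N →+ JZero M
  galois : ∀ (σ : AlgebraicClosure ℚ ≃ₐ[ℚ] AlgebraicClosure ℚ) (x : JZero N),
    pull (σ • x) = σ • pull x
  inj_torsion : ∀ (m : ℕ), ¬ ℓ ∣ m → ∀ x : JZero N, m • x = 0 → pull x = 0 → x = 0
  hecke : ∀ x : JZero N,
    pull (heckeOperatorAlong (AlgebraicClosure ℚ) N ℓ x) =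
      heckeOperatorAlong (AlgebraicClosure ℚ) M ℓ (pull x)

/-- the trivial pull datum -/
def PullData.refl (N : ℕ) [NeZero N] (ℓ : ℕ) [NeZero ℓ] : PullData N N ℓ where
  pull := AddMonoidHom.id _
  galois _ _ := rfl
  inj_torsion _ _ _ _ h := h
  hecke _ := rfl

/-- **S37 at one place from the pieces, through an auxiliary level `M`.** -/
theorem isWeakRed_of_placeRed_pull (N M p : ℕ) [NeZero N] [NeZero M]
    (hcomm : HeckeOperatorsCommuteBar N)
    (A : ValuationSubring (AlgebraicClosure ℚ)) (ℓ : ℕ) (hℓ : ℓ.Prime) (hℓp : ¬ ℓ ∣ p)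
    (σ₀ : AlgebraicClosure ℚ ≃ₐ[ℚ] AlgebraicClosure ℚ) (hσ₀ : A.IsFrobeniusAt σ₀ ℓ)
    (HIA : haveI : NeZero ℓ := ⟨hℓ.ne_zero⟩; HeckeInputsAlong (AlgebraicClosure ℚ) M ℓ)
    (hS18 : InjTorsionModL M ℓ A)
    (D : haveI : NeZero ℓ := ⟨hℓ.ne_zero⟩; PlaceRed M A ℓ σ₀)
    (Pd : haveI : NeZero ℓ := ⟨hℓ.ne_zero⟩; PullData N M ℓ) :
    letI := heckeModuleBar N
    ∀ (_ : SMulCommClass (AlgebraicClosure ℚ ≃ₐ[ℚ] AlgebraicClosure ℚ) HeckeAlg (JZero N)),
      IsWeakRed (K := ℚ) p (JZero N) A ℓ hℓ σ₀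
        (haveI : NeZero ℓ := ⟨hℓ.ne_zero⟩; D.red.comp Pd.pull) := by
  letI := heckeModuleBar N
  haveI : NeZero ℓ := ⟨hℓ.ne_zero⟩
  intro _
  refine ⟨hσ₀, ?_, ?_, ?_⟩
  · intro τ hτ x
    show D.red (Pd.pull (τ • x)) = D.red (Pd.pull x)
    rw [Pd.galois, D.red_inertia hτ]
  · rintro x ⟨n, hn⟩ hx
    have hℓpn : ¬ ℓ ∣ p ^ n := fun h => hℓp (hℓ.dvd_of_dvd_pow h)
    refine Pd.inj_torsion (p ^ n) hℓpn x hn ?_
    refine D.red_inj_torsion hS18 (m := p ^ n) hℓpn ?_ hx
    rw [← map_nsmul, hn, map_zero]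
  · intro x
    rw [heckeModuleBar_heckeGen_smul hcomm ⟨ℓ, hℓ⟩ (σ₀ • x)]
    show D.red (Pd.pull (σ₀ • σ₀ • x - heckeOperatorAlong (AlgebraicClosure ℚ) N ℓ (σ₀ • x)
      + ℓ • x)) = 0
    rw [map_add, map_sub, map_nsmul, Pd.galois, Pd.galois, Pd.hecke, Pd.galois]
    exact D.red_relation HIA (Pd.pull x)

/-- **S37 from the pieces, the place reduction living at auxiliary levels.** -/
theorem result_of_pieces' (N p : ℕ) [NeZero N]
    (H : ∀ (ℓ : ℕ) (hℓ : ℓ.Prime), ¬ ℓ ∣ N →
      ∀ A : ValuationSubring (AlgebraicClosure ℚ), A.LiesOverPrime ℓ →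
        ∀ σ₀ : AlgebraicClosure ℚ ≃ₐ[ℚ] AlgebraicClosure ℚ, A.IsFrobeniusAt σ₀ ℓ →
          haveI : NeZero ℓ := ⟨hℓ.ne_zero⟩
          ∃ (M : ℕ) (_ : NeZero M), HeckeInputsAlong (AlgebraicClosure ℚ) M ℓ ∧
            InjTorsionModL M ℓ A ∧ Nonempty (PlaceRed M A ℓ σ₀) ∧ Nonempty (PullData N M ℓ))
    (hcomm : ModularCurve.HeckeOperatorsCommuteBar N) :
    letI := ModularCurve.heckeModuleBar N
    ∀ (_ : SMulCommClass (AlgebraicClosure ℚ ≃ₐ[ℚ] AlgebraicClosure ℚ) ModularCurve.HeckeAlg
      (ModularCurve.JZero N)),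
      ModularCurve.SpecializationExists (K := ℚ) (L := AlgebraicClosure ℚ) N p
        (ModularCurve.JZero N) := by
  letI := ModularCurve.heckeModuleBar N
  intro inst ℓ hℓ hdvd A hA
  have hℓN : ¬ ℓ ∣ N := fun h => hdvd (Dvd.dvd.mul_right h p)
  have hℓp : ¬ ℓ ∣ p := fun h => hdvd (Dvd.dvd.mul_left h N)
  obtain ⟨σ₀, hσ₀⟩ := exists_isFrobeniusAt ℓ hℓ A hA
  haveI : NeZero ℓ := ⟨hℓ.ne_zero⟩
  obtain ⟨M, hM, hHIA, hS18, ⟨D⟩, ⟨Pd⟩⟩ := H ℓ hℓ hℓN A hA σ₀ hσ₀
  exact exists_specialization_of_isWeakRed p A ℓ hℓ σ₀ (D.red.comp Pd.pull)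
    (isWeakRed_of_placeRed_pull N M p hcomm A ℓ hℓ hℓp σ₀ hσ₀ hHIA hS18 D Pd inst)

end Fermat.Agent.S37.Core

end
end
-- ===== PACK-END S37/Core/AssemblePull.lean

-- ===== PACK-BEGIN S37/Core/Final.lean
section


/-!
# S37 row (helper37): the FINAL interface `WeakRedData`

`WeakRedData M A ℓ σ₀` : an additive map `red : J₀(M) →+ Y` (any target) with
* `inertia`     : `red (τ • x) = red x` for `τ` in the inertia group at `A`,
* `inj_torsion` : `red` is injective on torsion of order prime to `ℓ`,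
* `relation`    : `red (σ₀² x - T_ℓ σ₀ x + ℓ x) = 0` for the ONE Frobenius element `σ₀`,
  where `T_ℓ = heckeOperatorAlong ℚ̄ M ℓ` is the Prelude operator (no `HeckeInputsAlong` needed
  here: it is needed by whoever proves `relation`).

`result_of_weakRedData` : the frozen statement S37 at level `N` from a `WeakRedData` at some
level `M` and a `PullData N M ℓ` (`M = N`, `PullData.refl` for `ℓ ≥ 5`).
Fully proved.
-/

set_option autoImplicit false
set_option synthInstance.maxHeartbeats 400000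

noncomputable section

namespace Fermat.Agent.S37.Core

open ModularCurve ValuationSubring AlgebraicCurve HahnSeries Fermat.Agent.S37.H99

/-- The final interface of the geometric part of S37. -/
structure WeakRedData (M : ℕ) [NeZero M] (A : ValuationSubring (AlgebraicClosure ℚ)) (ℓ : ℕ)
    [NeZero ℓ] (σ₀ : AlgebraicClosure ℚ ≃ₐ[ℚ] AlgebraicClosure ℚ) : Type 1 where
  /-- the target group -/
  Y : Type
  /-- additive group structure on the target -/
  instY : AddCommGroup Y
  /-- the reduction map -/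
  red : JZero M →+ Y
  inertia : ∀ τ ∈ A.inertiaSubgroupIn ℚ, ∀ x : JZero M, red (τ • x) = red x
  inj_torsion : ∀ (m : ℕ), ¬ ℓ ∣ m → ∀ x : JZero M, m • x = 0 → red x = 0 → x = 0
  relation : ∀ x : JZero M,
    red (σ₀ • σ₀ • x - heckeOperatorAlong (AlgebraicClosure ℚ) M ℓ (σ₀ • x) + ℓ • x) = 0

attribute [instance] WeakRedData.instY

/-- a `PlaceRed` gives a `WeakRedData` (pointwise route) -/
def PlaceRed.toWeakRedData {M : ℕ} [NeZero M] {A : ValuationSubring (AlgebraicClosure ℚ)}
    {ℓ : ℕ} [NeZero ℓ] {σ₀ : AlgebraicClosure ℚ ≃ₐ[ℚ] AlgebraicClosure ℚ}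
    (D : PlaceRed M A ℓ σ₀) (HIA : HeckeInputsAlong (AlgebraicClosure ℚ) M ℓ)
    (hS18 : InjTorsionModL M ℓ A) : WeakRedData M A ℓ σ₀ where
  Y := JZeroC (IsLocalRing.ResidueField A) M
  instY := inferInstance
  red := D.red
  inertia τ hτ x := D.red_inertia hτ x
  inj_torsion _ hm _ hx h0 := D.red_inj_torsion hS18 hm hx h0
  relation x := D.red_relation HIA x

/-- **S37 at one place from a `WeakRedData` at level `M` and a `PullData N M ℓ`.** -/
theorem isWeakRed_of_weakRedData (N M p : ℕ) [NeZero N] [NeZero M]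
    (hcomm : HeckeOperatorsCommuteBar N)
    (A : ValuationSubring (AlgebraicClosure ℚ)) (ℓ : ℕ) (hℓ : ℓ.Prime) (hℓp : ¬ ℓ ∣ p)
    (σ₀ : AlgebraicClosure ℚ ≃ₐ[ℚ] AlgebraicClosure ℚ) (hσ₀ : A.IsFrobeniusAt σ₀ ℓ)
    (W : haveI : NeZero ℓ := ⟨hℓ.ne_zero⟩; WeakRedData M A ℓ σ₀)
    (Pd : haveI : NeZero ℓ := ⟨hℓ.ne_zero⟩; PullData N M ℓ) :
    letI := heckeModuleBar N
    ∀ (_ : SMulCommClass (AlgebraicClosure ℚ ≃ₐ[ℚ] AlgebraicClosure ℚ) HeckeAlg (JZero N)),
      IsWeakRed (K := ℚ) p (JZero N) A ℓ hℓ σ₀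
        (haveI : NeZero ℓ := ⟨hℓ.ne_zero⟩; W.red.comp Pd.pull) := by
  letI := heckeModuleBar N
  haveI : NeZero ℓ := ⟨hℓ.ne_zero⟩
  intro _
  refine ⟨hσ₀, ?_, ?_, ?_⟩
  · intro τ hτ x
    show W.red (Pd.pull (τ • x)) = W.red (Pd.pull x)
    rw [Pd.galois, W.inertia τ hτ]
  · rintro x ⟨n, hn⟩ hx
    have hℓpn : ¬ ℓ ∣ p ^ n := fun h => hℓp (hℓ.dvd_of_dvd_pow h)
    refine Pd.inj_torsion (p ^ n) hℓpn x hn ?_
    refine W.inj_torsion (p ^ n) hℓpn _ ?_ hx
    rw [← map_nsmul, hn, map_zero]
  · intro x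
    rw [heckeModuleBar_heckeGen_smul hcomm ⟨ℓ, hℓ⟩ (σ₀ • x)]
    show W.red (Pd.pull (σ₀ • σ₀ • x - heckeOperatorAlong (AlgebraicClosure ℚ) N ℓ (σ₀ • x)
      + ℓ • x)) = 0
    rw [map_add, map_sub, map_nsmul, Pd.galois, Pd.galois, Pd.hecke, Pd.galois]
    exact W.relation (Pd.pull x)

/-- **S37 from `WeakRedData` at auxiliary levels.**  THE final glue of the row. -/
theorem result_of_weakRedData (N p : ℕ) [NeZero N]
    (H : ∀ (ℓ : ℕ) (hℓ : ℓ.Prime), ¬ ℓ ∣ N →
      ∀ A : ValuationSubring (AlgebraicClosure ℚ), A.LiesOverPrime ℓ →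
        ∀ σ₀ : AlgebraicClosure ℚ ≃ₐ[ℚ] AlgebraicClosure ℚ, A.IsFrobeniusAt σ₀ ℓ →
          haveI : NeZero ℓ := ⟨hℓ.ne_zero⟩
          ∃ (M : ℕ) (_ : NeZero M), Nonempty (WeakRedData M A ℓ σ₀) ∧ Nonempty (PullData N M ℓ))
    (hcomm : ModularCurve.HeckeOperatorsCommuteBar N) :
    letI := ModularCurve.heckeModuleBar N
    ∀ (_ : SMulCommClass (AlgebraicClosure ℚ ≃ₐ[ℚ] AlgebraicClosure ℚ) ModularCurve.HeckeAlg
      (ModularCurve.JZero N)),
      ModularCurve.SpecializationExists (K := ℚ) (L := AlgebraicClosure ℚ) N p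
        (ModularCurve.JZero N) := by
  letI := ModularCurve.heckeModuleBar N
  intro inst ℓ hℓ hdvd A hA
  have hℓN : ¬ ℓ ∣ N := fun h => hdvd (Dvd.dvd.mul_right h p)
  have hℓp : ¬ ℓ ∣ p := fun h => hdvd (Dvd.dvd.mul_left h N)
  obtain ⟨σ₀, hσ₀⟩ := exists_isFrobeniusAt ℓ hℓ A hA
  haveI : NeZero ℓ := ⟨hℓ.ne_zero⟩
  obtain ⟨M, hM, ⟨W⟩, ⟨Pd⟩⟩ := H ℓ hℓ hℓN A hA σ₀ hσ₀
  exact exists_specialization_of_isWeakRed p A ℓ hℓ σ₀ (W.red.comp Pd.pull)
    (isWeakRed_of_weakRedData N M p hcomm A ℓ hℓ hℓp σ₀ hσ₀ W Pd inst)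

end Fermat.Agent.S37.Core

end
end
-- ===== PACK-END S37/Core/Final.lean

-- ===== PACK-BEGIN S37/H999/RawES.lean
section



/-!
# S37 → S29 bridge (helper999): the RAW Eichler–Shimura statement

`Fermat.Agent.S29.RawESStatement` (the only input the rows S29/S30/S42 take from the rows
S37/S18) follows from the FINAL interface of the S37 row, i.e. from exactly the hypothesis `H` of
`Fermat.Agent.S37.Core.result_of_weakRedData` (for all levels `N`).  No Hecke-module structure,
no `HeckeOperatorsCommuteBar`, no `SMulCommClass` is needed.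

* `rawES_at` : the statement at one `(N, p, ℓ, A)`;
* `rawES_of_weakRedData` : `RawESStatement`.

Fully proved.
-/

set_option autoImplicit false
set_option synthInstance.maxHeartbeats 400000

noncomputable section

namespace Fermat.Agent.S37.H999

open ModularCurve ValuationSubring AlgebraicCurve Fermat.Agent.S37.Core Fermat.Agent.S37.H99

/-- additive maps preserve `m`-torsion -/
theorem nsmul_map_eq_zero {G H : Type*} [AddCommGroup G] [AddCommGroup H] (f : G →+ H) {m : ℕ}
    {x : G} (hx : m • x = 0) : m • f x = 0 := by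
  rw [← map_nsmul, hx, map_zero]

/-- the composite reduction map kills nothing on prime-to-`ℓ` torsion -/
theorem eq_zero_of_red_pull_eq_zero {N M : ℕ} [NeZero N] [NeZero M]
    {A : ValuationSubring (AlgebraicClosure ℚ)} {ℓ : ℕ} [NeZero ℓ]
    {σ₀ : AlgebraicClosure ℚ ≃ₐ[ℚ] AlgebraicClosure ℚ}
    (W : WeakRedData M A ℓ σ₀) (Pd : PullData N M ℓ) {m : ℕ} (hm : ¬ ℓ ∣ m)
    {z : JZero N} (hz : m • z = 0) (h0 : W.red (Pd.pull z) = 0) : z = 0 := by
  refine Pd.inj_torsion m hm z hz ?_
  refine W.inj_torsion m hm _ ?_ h0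
  rw [← map_nsmul, hz, map_zero]

/-- inertia acts trivially on prime-to-`ℓ` torsion -/
theorem inertia_smul_eq_of_weakRedData {N M : ℕ} [NeZero N] [NeZero M]
    {A : ValuationSubring (AlgebraicClosure ℚ)} {ℓ : ℕ} [NeZero ℓ]
    {σ₀ : AlgebraicClosure ℚ ≃ₐ[ℚ] AlgebraicClosure ℚ}
    (W : WeakRedData M A ℓ σ₀) (Pd : PullData N M ℓ) {m : ℕ} (hm : ¬ ℓ ∣ m)
    {τ : AlgebraicClosure ℚ ≃ₐ[ℚ] AlgebraicClosure ℚ} (hτ : τ ∈ A.inertiaSubgroupIn ℚ)
    {x : JZero N} (hx : m • x = 0) : τ • x = x := by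
  have hz : m • (τ • x - x) = 0 := by
    have h := nsmul_map_eq_zero (DistribSMul.toAddMonoidHom (JZero N) τ - AddMonoidHom.id _) hx
    exact h
  have h0 : W.red (Pd.pull (τ • x - x)) = 0 := by
    rw [map_sub, map_sub, Pd.galois, W.inertia τ hτ, sub_self]
  exact sub_eq_zero.mp (eq_zero_of_red_pull_eq_zero W Pd hm hz h0)

/-- the Eichler–Shimura relation on prime-to-`ℓ` torsion, for the Frobenius element `σ₀` -/
theorem frobenius_relation_of_weakRedData {N M : ℕ} [NeZero N] [NeZero M]
    {A : ValuationSubring (AlgebraicClosure ℚ)} {ℓ : ℕ} [NeZero ℓ]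
    {σ₀ : AlgebraicClosure ℚ ≃ₐ[ℚ] AlgebraicClosure ℚ}
    (W : WeakRedData M A ℓ σ₀) (Pd : PullData N M ℓ) {m : ℕ} (hm : ¬ ℓ ∣ m)
    {x : JZero N} (hx : m • x = 0) :
    σ₀ • σ₀ • x - heckeOperatorAlong (AlgebraicClosure ℚ) N ℓ (σ₀ • x) + ℓ • x = 0 := by
  refine eq_zero_of_red_pull_eq_zero W Pd hm ?_ ?_
  · have h := nsmul_map_eq_zero
      ((DistribSMul.toAddMonoidHom (JZero N) σ₀).comp (DistribSMul.toAddMonoidHom (JZero N) σ₀) -
        (heckeOperatorAlong (AlgebraicClosure ℚ) N ℓ).comp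
          (DistribSMul.toAddMonoidHom (JZero N) σ₀) + ℓ • AddMonoidHom.id _) hx
    exact h
  · rw [map_add, map_sub, map_nsmul, Pd.galois, Pd.galois, Pd.hecke, Pd.galois]
    exact W.relation (Pd.pull x)

/-- The RAW Eichler–Shimura statement at one `(N, p, ℓ, A)`, from the final interface of the
S37 row at `(N, ℓ, A)`. -/
theorem rawES_at (N p : ℕ) [NeZero N] (ℓ : ℕ) (hℓ : ℓ.Prime) (hdvd : ¬ ℓ ∣ N * p)
    (A : ValuationSubring (AlgebraicClosure ℚ)) (hA : A.LiesOverPrime ℓ)
    (H : ∀ σ₀ : AlgebraicClosure ℚ ≃ₐ[ℚ] AlgebraicClosure ℚ, A.IsFrobeniusAt σ₀ ℓ →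
      haveI : NeZero ℓ := ⟨hℓ.ne_zero⟩
      ∃ (M : ℕ) (_ : NeZero M), Nonempty (WeakRedData M A ℓ σ₀) ∧ Nonempty (PullData N M ℓ)) :
    (∀ σ ∈ A.inertiaSubgroupIn ℚ, ∀ x : JZero N, (p : ℤ) • x = 0 → σ • x = x) ∧
      (∀ σ : AlgebraicClosure ℚ ≃ₐ[ℚ] AlgebraicClosure ℚ, A.IsFrobeniusAt σ ℓ →
        ∀ x : JZero N, (p : ℤ) • x = 0 →
          σ • σ • x - heckeOperatorBar N ⟨ℓ, hℓ⟩ (σ • x) + (ℓ : ℤ) • x = 0) := by
  have : NeZero ℓ := ⟨hℓ.ne_zero⟩
  have hℓp : ¬ ℓ ∣ p := fun h => hdvd (Dvd.dvd.mul_left h N)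
  constructor
  · intro τ hτ x hx
    obtain ⟨σ₀, hσ₀⟩ := exists_isFrobeniusAt ℓ hℓ A hA
    obtain ⟨M, hM, ⟨W⟩, ⟨Pd⟩⟩ := H σ₀ hσ₀
    rw [natCast_zsmul] at hx
    exact inertia_smul_eq_of_weakRedData W Pd hℓp hτ hx
  · intro σ hσ x hx
    obtain ⟨M, hM, ⟨W⟩, ⟨Pd⟩⟩ := H σ hσ
    rw [natCast_zsmul] at hx
    rw [natCast_zsmul]
    exact frobenius_relation_of_weakRedData W Pd hℓp hx

/-- **`RawESStatement` of the S29 row from the final interface of the S37 row.** -/
theorem rawES_of_weakRedData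
    (H : ∀ (N : ℕ) [NeZero N] (ℓ : ℕ) (hℓ : ℓ.Prime), ¬ ℓ ∣ N →
      ∀ A : ValuationSubring (AlgebraicClosure ℚ), A.LiesOverPrime ℓ →
        ∀ σ₀ : AlgebraicClosure ℚ ≃ₐ[ℚ] AlgebraicClosure ℚ, A.IsFrobeniusAt σ₀ ℓ →
          haveI : NeZero ℓ := ⟨hℓ.ne_zero⟩
          ∃ (M : ℕ) (_ : NeZero M), Nonempty (WeakRedData M A ℓ σ₀) ∧
            Nonempty (PullData N M ℓ)) :
    Fermat.Agent.S29.RawESStatement := by
  intro N p _ _ ℓ hℓ hdvd A hA
  have hℓN : ¬ ℓ ∣ N := fun h => hdvd (Dvd.dvd.mul_right h p)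
  exact rawES_at N p ℓ hℓ hdvd A hA (fun σ₀ hσ₀ => H N ℓ hℓ hℓN A hA σ₀ hσ₀)

end Fermat.Agent.S37.H999

end
end
-- ===== PACK-END S37/H999/RawES.lean

-- ===== PACK-BEGIN S30/H330/AdicTorsionRel.lean
section
/-
S30 -- ADIC MODULE LAYER, input (T) from the interfaces of the S37 row (helper330).

`TorsionRelations N p` (inertia at `ℓ ∤ N p` acts trivially on `J₀(N)(ℚ̄)[p^∞]`, every Frobenius
at `ℓ` satisfies `σ² - T_ℓ σ + ℓ = 0` on it) from each of the interfaces of the S37 row:
* `torsionRelations_of_redData`     : reduction data `H99.RedData`;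
* `torsionRelations_of_pieces`      : [S18] `Core.InjTorsionModL` + [PR] `Core.PlaceRed`;
* `torsionRelations_of_weakRedData` : `Core.WeakRedData` + `Core.PullData` (final interface);
* `torsionRelations_of_rawAll`      : an abstract raw Eichler–Shimura statement on the
  `m`-torsion for all `m` prime to `ℓ`.
The pointwise lemmas of helper98 / helper999 hold for every modulus prime to `ℓ`; they are applied
to the moduli `p ^ n`.
-/




set_option autoImplicit false

noncomputable section

namespace Fermat.Agent.S30.H330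

open Fermat.Agent.S29 ModularCurve ValuationSubring

theorem not_dvd_pow_of_not_dvd_mul {ℓ N p : ℕ} (hℓ : ℓ.Prime) (h : ¬ ℓ ∣ N * p) (n : ℕ) :
    ¬ ℓ ∣ p ^ n := fun hd => h (Dvd.dvd.mul_left (hℓ.dvd_of_dvd_pow hd) N)

/-- The raw Eichler–Shimura statement at the level `N` on the `m`-torsion, for all `m` prime to
the prime `ℓ ∤ N`. -/
def RawESAll (N : ℕ) [NeZero N] : Prop :=
  ∀ (ℓ : ℕ) (hℓ : ℓ.Prime), ¬ ℓ ∣ N → ∀ A : VQ, A.LiesOverPrime ℓ → ∀ m : ℕ, ¬ ℓ ∣ m →
    (∀ σ ∈ A.inertiaSubgroupIn ℚ, ∀ x : JZero N, m • x = 0 → σ • x = x) ∧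
    (∀ σ : GQ, A.IsFrobeniusAt σ ℓ → ∀ x : JZero N, m • x = 0 →
      σ • σ • x - heckeOperatorBar N ⟨ℓ, hℓ⟩ (σ • x) + ℓ • x = 0)

/-- (T) from the raw Eichler–Shimura statement on all prime-to-`ℓ` torsion. -/
theorem torsionRelations_of_rawAll {N : ℕ} [NeZero N] (p : ℕ) (h : RawESAll N) :
    TorsionRelations N p := by
  intro ℓ hℓ hdvd A hA
  have hℓN : ¬ ℓ ∣ N := fun h => hdvd (Dvd.dvd.mul_right h p)
  refine ⟨fun σ hσ x hx => ?_, fun σ hσ x hx => ?_⟩
  · obtain ⟨n, hn⟩ := hx
    exact (h ℓ hℓ hℓN A hA (p ^ n) (not_dvd_pow_of_not_dvd_mul hℓ hdvd n)).1 σ hσ x hn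
  · obtain ⟨n, hn⟩ := hx
    exact (h ℓ hℓ hℓN A hA (p ^ n) (not_dvd_pow_of_not_dvd_mul hℓ hdvd n)).2 σ hσ x hn

/-- Raw Eichler–Shimura on all prime-to-`ℓ` torsion, from reduction data. -/
theorem rawESAll_of_redData {N : ℕ} [NeZero N]
    (H : ∀ (ℓ : ℕ) (hℓ : ℓ.Prime), ¬ ℓ ∣ N →
      ∀ A : ValuationSubring (AlgebraicClosure ℚ), A.LiesOverPrime ℓ →
        Nonempty (Fermat.Agent.S37.H99.RedData N A ℓ hℓ)) :
    RawESAll N := by
  intro ℓ hℓ hℓN A hA m hm
  obtain ⟨D⟩ := H ℓ hℓ hℓN A hA
  have h := Fermat.Agent.S37.H98.rawES_at_of_redData D m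
    (Nat.coprime_comm.mp ((Nat.Prime.coprime_iff_not_dvd hℓ).mpr hm))
  refine ⟨fun σ hσ x hx => h.1 σ hσ x (by rw [natCast_zsmul]; exact hx),
    fun σ hσ x hx => ?_⟩
  have := h.2 σ hσ x (by rw [natCast_zsmul]; exact hx)
  rwa [natCast_zsmul] at this

/-- (T) from reduction data. -/
theorem torsionRelations_of_redData {N : ℕ} [NeZero N] (p : ℕ)
    (H : ∀ (ℓ : ℕ) (hℓ : ℓ.Prime), ¬ ℓ ∣ N →
      ∀ A : ValuationSubring (AlgebraicClosure ℚ), A.LiesOverPrime ℓ →
        Nonempty (Fermat.Agent.S37.H99.RedData N A ℓ hℓ)) :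
    TorsionRelations N p :=
  torsionRelations_of_rawAll p (rawESAll_of_redData H)

open Fermat.Agent.S37.Core in
/-- Raw Eichler–Shimura on all prime-to-`ℓ` torsion, from the pieces [S18] and [PR]. -/
theorem rawESAll_of_pieces {N : ℕ} [NeZero N]
    (hS18 : ∀ (ℓ : ℕ), ℓ.Prime → ¬ ℓ ∣ N →
      ∀ A : ValuationSubring (AlgebraicClosure ℚ), A.LiesOverPrime ℓ → InjTorsionModL N ℓ A)
    (hPR : ∀ (ℓ : ℕ) (hℓ : ℓ.Prime), ¬ ℓ ∣ N →
      ∀ A : ValuationSubring (AlgebraicClosure ℚ), A.LiesOverPrime ℓ →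
        ∀ σ₀ : AlgebraicClosure ℚ ≃ₐ[ℚ] AlgebraicClosure ℚ, A.IsFrobeniusAt σ₀ ℓ →
          haveI : NeZero ℓ := ⟨hℓ.ne_zero⟩; Nonempty (PlaceRed N A ℓ σ₀)) :
    RawESAll N := by
  intro ℓ hℓ hℓN A hA m hm
  refine ⟨fun σ hσ x hx => ?_, fun σ hσ x hx => ?_⟩
  · obtain ⟨σ₀, hσ₀⟩ := Fermat.Agent.S37.H99.exists_isFrobeniusAt ℓ hℓ A hA
    obtain ⟨D⟩ := hPR ℓ hℓ hℓN A hA σ₀ hσ₀
    exact (Fermat.Agent.S37.H98.rawES_at_of_placeRed hℓ D (hS18 ℓ hℓ hℓN A hA) m hm).1 σ hσ x
      (by rw [natCast_zsmul]; exact hx)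
  · obtain ⟨D⟩ := hPR ℓ hℓ hℓN A hA σ hσ
    have := (Fermat.Agent.S37.H98.rawES_at_of_placeRed hℓ D (hS18 ℓ hℓ hℓN A hA) m hm).2 x
      (by rw [natCast_zsmul]; exact hx)
    rwa [natCast_zsmul] at this

open Fermat.Agent.S37.Core in
/-- (T) from the pieces [S18] and [PR] of the S37 row plan. -/
theorem torsionRelations_of_pieces {N : ℕ} [NeZero N] (p : ℕ)
    (hS18 : ∀ (ℓ : ℕ), ℓ.Prime → ¬ ℓ ∣ N →
      ∀ A : ValuationSubring (AlgebraicClosure ℚ), A.LiesOverPrime ℓ → InjTorsionModL N ℓ A)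
    (hPR : ∀ (ℓ : ℕ) (hℓ : ℓ.Prime), ¬ ℓ ∣ N →
      ∀ A : ValuationSubring (AlgebraicClosure ℚ), A.LiesOverPrime ℓ →
        ∀ σ₀ : AlgebraicClosure ℚ ≃ₐ[ℚ] AlgebraicClosure ℚ, A.IsFrobeniusAt σ₀ ℓ →
          haveI : NeZero ℓ := ⟨hℓ.ne_zero⟩; Nonempty (PlaceRed N A ℓ σ₀)) :
    TorsionRelations N p :=
  torsionRelations_of_rawAll p (rawESAll_of_pieces hS18 hPR)

open Fermat.Agent.S37.Core Fermat.Agent.S37.H99 in
/-- Raw Eichler–Shimura on all prime-to-`ℓ` torsion, from the final interface of the S37 row. -/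
theorem rawESAll_of_weakRedData {N : ℕ} [NeZero N]
    (H : ∀ (ℓ : ℕ) (hℓ : ℓ.Prime), ¬ ℓ ∣ N →
      ∀ A : ValuationSubring (AlgebraicClosure ℚ), A.LiesOverPrime ℓ →
        ∀ σ₀ : AlgebraicClosure ℚ ≃ₐ[ℚ] AlgebraicClosure ℚ, A.IsFrobeniusAt σ₀ ℓ →
          haveI : NeZero ℓ := ⟨hℓ.ne_zero⟩
          ∃ (M : ℕ) (_ : NeZero M), Nonempty (WeakRedData M A ℓ σ₀) ∧
            Nonempty (PullData N M ℓ)) :
    RawESAll N := by
  intro ℓ hℓ hℓN A hA m hm
  have : NeZero ℓ := ⟨hℓ.ne_zero⟩
  refine ⟨fun σ hσ x hx => ?_, fun σ hσ x hx => ?_⟩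
  · obtain ⟨σ₀, hσ₀⟩ := exists_isFrobeniusAt ℓ hℓ A hA
    obtain ⟨M, hM, ⟨W⟩, ⟨Pd⟩⟩ := H ℓ hℓ hℓN A hA σ₀ hσ₀
    exact Fermat.Agent.S37.H999.inertia_smul_eq_of_weakRedData W Pd hm hσ hx
  · obtain ⟨M, hM, ⟨W⟩, ⟨Pd⟩⟩ := H ℓ hℓ hℓN A hA σ hσ
    exact Fermat.Agent.S37.H999.frobenius_relation_of_weakRedData W Pd hm hx

open Fermat.Agent.S37.Core in
/-- (T) from the final interface of the S37 row. -/
theorem torsionRelations_of_weakRedData {N : ℕ} [NeZero N] (p : ℕ)
    (H : ∀ (ℓ : ℕ) (hℓ : ℓ.Prime), ¬ ℓ ∣ N →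
      ∀ A : ValuationSubring (AlgebraicClosure ℚ), A.LiesOverPrime ℓ →
        ∀ σ₀ : AlgebraicClosure ℚ ≃ₐ[ℚ] AlgebraicClosure ℚ, A.IsFrobeniusAt σ₀ ℓ →
          haveI : NeZero ℓ := ⟨hℓ.ne_zero⟩
          ∃ (M : ℕ) (_ : NeZero M), Nonempty (WeakRedData M A ℓ σ₀) ∧
            Nonempty (PullData N M ℓ)) :
    TorsionRelations N p :=
  torsionRelations_of_rawAll p (rawESAll_of_weakRedData H)

end Fermat.Agent.S30.H330

end
end
-- ===== PACK-END S30/H330/AdicTorsionRel.lean

-- ===== PACK-BEGIN S18/H504/ConstF.lean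
section





/-!
# S18 / T2 (CONST_F, characteristic 0): a function without zeros and poles is constant

* `const_of_ord_zero` : generic form, for a function field `F/K` finite over `K(j)`.
* `constOfOrdZero_modularFunctionFieldBar` : the instance `F = ℚ̄(X₀(N))`; its statement is the
  unfolded `H94.ConstOfOrdZero (AlgebraicClosure ℚ) (modularFunctionFieldBar N)`.
-/

set_option autoImplicit false

namespace Fermat.Agent.S18.H504

open AlgebraicCurve IntermediateField Fermat.Agent.S24

variable {K F : Type*} [Field K] [Field F] [Algebra K F]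

/-- A nonzero function with no zeros is constant (char 0, algebraically closed constants). -/
theorem const_of_forall_ord_le_zero [IsAlgClosed K] [CharZero K] {j : F}
    (hj : Transcendental K j) [FiniteDimensional K⟮j⟯ F] (u : F)
    (h : ∀ v : Place K F, v.ord u ≤ 0) : ∃ c : K, u = algebraMap K F c := by
  by_contra hc
  have hnr : u ∉ (algebraMap K F).range := fun ⟨c, hc'⟩ => hc ⟨c, hc'.symm⟩
  have hut : Transcendental K u := FF.transcendental_of_not_mem_range hnr
  have : FiniteDimensional K⟮u⟯ F := FF.finiteDimensional_adjoin_of_transcendental hj hut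
  have hsum := FF.sum_ord_pos_eq_finrank hut
  have hempty : (FF.finite_setOf_ord_pos hut).toFinset = ∅ := by
    ext v
    simp only [Set.Finite.mem_toFinset, Set.mem_ofPred_eq, Finset.notMem_empty, iff_false, not_lt]
    exact h v
  rw [hempty, Finset.sum_empty] at hsum
  have hpos : 0 < Module.finrank K⟮u⟯ F := Module.finrank_pos
  omega

/-- **CONST_F.** A nonzero function without zeros and poles is constant. -/
theorem const_of_ord_zero [IsAlgClosed K] [CharZero K] {j : F}
    (hj : Transcendental K j) [FiniteDimensional K⟮j⟯ F] (u : F) (_hu : u ≠ 0)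
    (h : ∀ v : Place K F, v.ord u = 0) : ∃ c : K, u = algebraMap K F c :=
  const_of_forall_ord_le_zero hj u fun v => (h v).le

/-- **T2.** `ConstOfOrdZero ℚ̄ (modularFunctionFieldBar N)` (unfolded). -/
theorem constOfOrdZero_modularFunctionFieldBar (N : ℕ) [NeZero N] :
    ∀ u : ModularCurve.modularFunctionFieldBar N, u ≠ 0 →
      (∀ v : Place (AlgebraicClosure ℚ) (ModularCurve.modularFunctionFieldBar N), v.ord u = 0) →
      ∃ c : AlgebraicClosure ℚ,
        u = algebraMap (AlgebraicClosure ℚ) (ModularCurve.modularFunctionFieldBar N) c := by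
  obtain ⟨P⟩ := nonempty_modularPackage N
  have := P.finiteDimensional
  have hj : Transcendental Kbar (jF N) := transcendental_of_localData_inv (jF N) P.dataInf
  exact fun u hu h => const_of_ord_zero hj u hu h

end Fermat.Agent.S18.H504

end
-- ===== PACK-END S18/H504/ConstF.lean

-- ===== PACK-BEGIN S35/G/H215/T0F.lean
section



/-!
# S35 (G'), leaf T0F: the Kummer dictionary for `(t - 1)² (t - Q)` (helper215)

`t0F : Fermat.Agent.S35.G.T0FStatement`.

* `normPow_of_push_eq_zero` : `x = [D]`, `m D = div f`, `φ_* x = 0` ⟹ `N_φ f = c · g ^ m`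
  (norm formula + "no zeros and poles ⟹ constant").
* `frobPolyAdd_mk_eq_zero` : `m D = div f`, `(φ - 1)² (φ - Q) f = c · y ^ m` ⟹
  `(g - 1)² (g - Q) [D] = 0` in `Pic⁰` (divisors are torsion-free).
-/

set_option autoImplicit false
set_option linter.style.haveILetI false

noncomputable section

namespace Fermat.Agent.S35.G.H215

open ModularCurve AlgebraicCurve Fermat.Agent.S35.G

section Abstract

variable {K F F' : Type*} [Field K] [Field F] [Field F'] [Algebra K F] [Algebra K F']

theorem ord_algebraMap_h215 (v : Place K F) (c : K) : v.ord (algebraMap K F c) = 0 := by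
  rcases eq_or_ne c 0 with rfl | hc
  · simp
  have h1 : algebraMap K F c ∈ v.toValuationSubring := v.algebraMap_mem' c
  have h2 : algebraMap K F c⁻¹ ∈ v.toValuationSubring := v.algebraMap_mem' c⁻¹
  have hu : IsUnit (⟨algebraMap K F c, h1⟩ : v.toValuationSubring) := by
    refine IsUnit.of_mul_eq_one (⟨algebraMap K F c⁻¹, h2⟩ : v.toValuationSubring) ?_
    ext
    show algebraMap K F c * algebraMap K F c⁻¹ = 1
    rw [← map_mul, mul_inv_cancel₀ hc, map_one]
  exact v.ord_coe_unit hu.unit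

theorem ord_toRingAut_h215 (g : SemilinearAut K F) (w : Place K F) (f : F) :
    w.ord (SemilinearAut.toRingAut g f) = (g⁻¹ • w).ord f := by
  have h := SemilinearAut.ord_smul g (g⁻¹ • w) f
  rw [smul_inv_smul] at h
  exact h

theorem ord_pow_h215 (v : Place K F) (y : F) (m : ℕ) : v.ord (y ^ m) = m * v.ord y := by
  have := v.ord_zpow y (m : ℤ)
  simpa using this

theorem frobSub_ne_zero_h215 (φ : F ≃+* F) (Q : ℕ) {f : F} (hf : f ≠ 0) : frobSub φ Q f ≠ 0 := by
  unfold frobSub
  exact mul_ne_zero (by simpa using hf) (inv_ne_zero (pow_ne_zero Q hf))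

theorem ord_frobSub_h215 (g : SemilinearAut K F) (Q : ℕ) {h : F} (hh : h ≠ 0) (v : Place K F) :
    v.ord (frobSub (SemilinearAut.toRingAut g) Q h) = (g⁻¹ • v).ord h - Q * v.ord h := by
  unfold frobSub
  have h1 : SemilinearAut.toRingAut g h ≠ 0 := by simpa using hh
  rw [v.ord_mul h1 (inv_ne_zero (pow_ne_zero Q hh)), v.ord_inv, ord_pow_h215, ord_toRingAut_h215,
    sub_eq_add_neg]

/-- **Norm side.**  `m D = div f` and `φ_* [D] = 0` ⟹ `N_φ f` is a constant times an `m`-th
power, provided functions on `F` without zeros and poles are constant. -/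
theorem normPow_of_push_eq_zero (φ : F →ₐ[K] F') (hφ : φ.toRingHom.IsIntegral)
    (hfin : FiniteAlong K φ) (hN : NormFormulaAlong K φ hfin)
    (hconst : ∀ u : F, u ≠ 0 → (∀ v : Place K F, v.ord u = 0) → ∃ c : K, u = algebraMap K F c)
    (m : ℕ) (D : Divisor.degZero (K := K) (F := F')) {f : F'} (hf : f ≠ 0)
    (hfD : ∀ w : Place K F', w.ord f = (m : ℤ) * (D : Divisor K F') w)
    (hx : pic0PushTotal φ (Pic0.mk D) = 0) : NormPow φ m f := by
  rw [pic0PushTotal_eq φ hφ hfin hN, pic0Push_mk, S29.H395.mk_eq_zero_iff] at hx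
  obtain ⟨g, hg, hgD⟩ := hx
  have hgD' : ∀ v : Place K F, Divisor.pushforwardAlong φ hφ (D : Divisor K F') v = v.ord g :=
    fun v => hgD v
  -- the push-forward of `m • D = div f`
  have hpush : ∀ v : Place K F,
      Divisor.pushforwardAlong φ hφ ((m : ℤ) • (D : Divisor K F')) v
        = v.ord (S29.H395.normAlong φ f) := fun v =>
    S29.H395.pushforwardAlong_apply_eq_ord φ hφ hfin hN hf
      (fun w => by rw [Finsupp.smul_apply, smul_eq_mul, hfD w]) v
  have hNf : S29.H395.normAlong φ f ≠ 0 := S29.H395.normAlong_ne_zero φ hfin hf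
  have hord : ∀ v : Place K F, v.ord (S29.H395.normAlong φ f) = (m : ℤ) * v.ord g := by
    intro v
    rw [← hpush v, map_zsmul, Finsupp.smul_apply, smul_eq_mul, hgD' v]
  have hgm : g ^ m ≠ 0 := pow_ne_zero m hg
  have hu0 : S29.H395.normAlong φ f * (g ^ m)⁻¹ ≠ 0 := mul_ne_zero hNf (inv_ne_zero hgm)
  obtain ⟨c, hc⟩ := hconst _ hu0 (fun v => by
    rw [v.ord_mul hNf (inv_ne_zero hgm), v.ord_inv, ord_pow_h215, hord v]; ring)
  refine ⟨c, g, ?_⟩
  rw [← hc, mul_assoc, inv_mul_cancel₀ hgm, mul_one]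

/-- **Kummer side.**  `m D = div f` and `(φ - 1)² (φ - Q) f = c · y ^ m` ⟹
`(g - 1)² (g - Q) [D] = 0` in `Pic⁰`. -/
theorem frobPolyAdd_mk_eq_zero (g : SemilinearAut K F) (m : ℕ) (hm : m ≠ 0) (Q : ℕ)
    (D : Divisor.degZero (K := K) (F := F)) {f : F} (hf : f ≠ 0)
    (hfD : ∀ w : Place K F, w.ord f = (m : ℤ) * (D : Divisor K F) w)
    {c : K} {y : F}
    (hyc : frobPoly (SemilinearAut.toRingAut g) Q f = algebraMap K F c * y ^ m) :
    g • (g • (g • Pic0.mk D - Pic0.mk D) - (g • Pic0.mk D - Pic0.mk D))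
      - Q • (g • (g • Pic0.mk D - Pic0.mk D) - (g • Pic0.mk D - Pic0.mk D)) = 0 := by
  set τ := SemilinearAut.toRingAut g with hτ
  have h1 : frobSub τ 1 f ≠ 0 := frobSub_ne_zero_h215 τ 1 hf
  have h2 : frobSub τ 1 (frobSub τ 1 f) ≠ 0 := frobSub_ne_zero_h215 τ 1 h1
  have h3 : frobPoly τ Q f ≠ 0 := frobSub_ne_zero_h215 τ Q h2
  have hy : y ≠ 0 := by
    rintro rfl
    rw [zero_pow hm, mul_zero] at hyc
    exact h3 hyc
  have hcF : algebraMap K F c ≠ 0 := by
    intro h0
    rw [h0, zero_mul] at hyc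
    exact h3 hyc
  -- the divisor `E = (g - Q)(g - 1)² D`
  set U : Divisor.degZero (K := K) (F := F) := SemilinearAut.degZeroSMulHom g D - D with hU
  set W : Divisor.degZero (K := K) (F := F) := SemilinearAut.degZeroSMulHom g U - U with hW
  set E : Divisor.degZero (K := K) (F := F) := SemilinearAut.degZeroSMulHom g W - Q • W with hE
  have hgoal : g • (g • (g • Pic0.mk D - Pic0.mk D) - (g • Pic0.mk D - Pic0.mk D))
      - Q • (g • (g • Pic0.mk D - Pic0.mk D) - (g • Pic0.mk D - Pic0.mk D)) = Pic0.mk E := by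
    rw [SemilinearAut.pic0_smul_mk]
    rfl
  rw [hgoal]
  refine (QuotientAddGroup.eq_zero_iff E).2 ?_
  rw [AddSubgroup.mem_addSubgroupOf]
  refine ⟨y, hy, fun w => ?_⟩
  have hUw : ∀ v : Place K F, (U : Divisor K F) v
      = (D : Divisor K F) (g⁻¹ • v) - (D : Divisor K F) v := by
    intro v
    simp only [hU, AddSubgroupClass.coe_sub, SemilinearAut.coe_degZeroSMulHom,
      Finsupp.sub_apply, SemilinearAut.divisor_smul_apply]
  have hWw : ∀ v : Place K F, (W : Divisor K F) v
      = (U : Divisor K F) (g⁻¹ • v) - (U : Divisor K F) v := by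
    intro v
    simp only [hW, AddSubgroupClass.coe_sub, SemilinearAut.coe_degZeroSMulHom,
      Finsupp.sub_apply, SemilinearAut.divisor_smul_apply]
  have hEw : (E : Divisor K F) w
      = (W : Divisor K F) (g⁻¹ • w) - (Q : ℤ) * (W : Divisor K F) w := by
    simp only [hE, AddSubgroupClass.coe_sub, SemilinearAut.coe_degZeroSMulHom,
      Finsupp.sub_apply, SemilinearAut.divisor_smul_apply, AddSubgroup.coe_nsmul,
      Finsupp.smul_apply, nsmul_eq_mul]
  have e1 : ∀ v : Place K F, v.ord (frobSub τ 1 f)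
      = (m : ℤ) * (U : Divisor K F) v := by
    intro v
    rw [hτ, ord_frobSub_h215 g 1 hf v, hUw v, hfD, hfD]
    push_cast; ring
  have e2 : ∀ v : Place K F, v.ord (frobSub τ 1 (frobSub τ 1 f))
      = (m : ℤ) * (W : Divisor K F) v := by
    intro v
    rw [hτ, ord_frobSub_h215 g 1 h1 v, hWw v, e1, e1]
    push_cast; ring
  have hord : w.ord (frobPoly τ Q f) = (m : ℤ) * (E : Divisor K F) w := by
    show w.ord (frobSub τ Q (frobSub τ 1 (frobSub τ 1 f))) = _
    rw [hτ, ord_frobSub_h215 g Q h2 w, hEw, e2, e2]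
    ring
  have hord2 : w.ord (frobPoly τ Q f) = (m : ℤ) * w.ord y := by
    rw [hyc, w.ord_mul hcF (pow_ne_zero m hy), ord_algebraMap_h215, zero_add, ord_pow_h215]
  have hm' : (m : ℤ) ≠ 0 := by exact_mod_cast hm
  exact mul_left_cancel₀ hm' (hord.symm.trans hord2)

end Abstract

/-- **Leaf T0F** of (G'): the Kummer dictionary. -/
theorem t0F : T0FStatement := by
  intro M q m _ _ _hq _hqM hm _hqm hα hβ H A hA s hs x hx ha hb
  obtain ⟨D, rfl⟩ := Pic0.mk_surjective x
  -- the Kummer generator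
  have hprin : ((m • D : Divisor.degZero (K := Qb) (F := modularFunctionFieldBar (M * q))) :
      Divisor Qb (modularFunctionFieldBar (M * q))) ∈
      Divisor.principal (K := Qb) (F := modularFunctionFieldBar (M * q)) := by
    have h0 : Pic0.mk (m • D) = 0 := hx
    have := (QuotientAddGroup.eq_zero_iff (m • D)).1 h0
    simpa [AddSubgroup.mem_addSubgroupOf] using this
  obtain ⟨f, hf, hfD⟩ := hprin
  have hfD' : ∀ v : Place Qb (modularFunctionFieldBar (M * q)),
      v.ord f = (m : ℤ) * (D : Divisor Qb (modularFunctionFieldBar (M * q))) v := by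
    intro v
    rw [← hfD v]
    simp [Finsupp.smul_apply]
  have hconst := Fermat.Agent.S18.H504.constOfOrdZero_modularFunctionFieldBar M
  obtain ⟨hα1, hα2, hα3⟩ := hα
  obtain ⟨hβ1, hβ2, hβ3⟩ := hβ
  have hNα : NormPow (heckeAlphaBar Qb M q) m f :=
    normPow_of_push_eq_zero _ hα1 hα2 hα3 hconst m D hf hfD' ha
  have hNβ : NormPow (heckeBetaBar Qb M q) m f :=
    normPow_of_push_eq_zero _ hβ1 hβ2 hβ3 hconst m D hf hfD' hb
  obtain ⟨c, y, _, hyc⟩ := H A hA s hs f hf (fun v => ⟨_, hfD' v⟩) hNα hNβ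
  exact frobPolyAdd_mk_eq_zero
    (arithmeticGalois (modularFunctionFieldFull (M * q)) (s * s)) m hm.ne' (q ^ 2) D hf hfD' hyc

end Fermat.Agent.S35.G.H215

end

end
-- ===== PACK-END S35/G/H215/T0F.lean

-- ===== PACK-BEGIN S28/H208/Upper.lean
section
/-
S28 [L.UP], consumer forms:
* `integral_jd` : every `j(q^d)`, `d ∣ N`, is integral over `ℤ[j]`  (`CoreData.integral`);
* `card_le_dedekindPsi` : a `k(j)`-linearly independent family in `k(j(q^d) : d ∣ N)` has at most
  `dedekindPsi N` elements (any field `k` with `N` invertible);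
* `upper_bound_rat` : the same over `ℚ`, in the shape `hU` of `H325.coreData_of_bounds`.
-/








set_option autoImplicit false

noncomputable section

open ModularCurve Polynomial IntermediateField

namespace Fermat.Agent.S28.H208

/-! ### Integrality of the `j(q^d)` over `ℤ[j]` -/

section Integral

/-- One integrality step: if `y` is integral over `ℤ[j]` (via `f`) and `x` is a root of
`Φ(X, y)` with `Φ` monic, then `x` is integral over `ℤ[j]`. -/
theorem isIntegralElem_of_root {A : Type*} [CommRing A] (f : Polynomial ℤ →+* A)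
    (Φ : Polynomial (Polynomial ℤ)) (hΦ : Φ.Monic) (x y : A)
    (hy : f.IsIntegralElem y) (hx : Φ.eval₂ (evZ y) x = 0) : f.IsIntegralElem x := by
  letI : Algebra (Polynomial ℤ) A := f.toAlgebra
  have hy' : IsIntegral (Polynomial ℤ) y := hy
  let S := integralClosure (Polynomial ℤ) A
  let yS : S := ⟨y, hy'⟩
  have hcomp : (algebraMap S A).comp (evZ yS) = evZ y := evZ_comp _ _
  have hxS : IsIntegral S x := by
    refine ⟨Φ.map (evZ yS), hΦ.map _, ?_⟩
    rw [Polynomial.eval₂_map, hcomp]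
    exact hx
  exact isIntegral_trans x hxS

theorem integral_jd_aux (d : ℕ) :
    ∀ [NeZero d], HasModPoly d →
      (evalAt (jqModC ℤ)).IsIntegralElem (qExpand ℤ d (jqModC ℤ)) := by
  induction d using induction_on_primes with
  | zero => intro h; exact absurd rfl (NeZero.ne (0 : ℕ))
  | one =>
    intro _ _
    refine ⟨Polynomial.X - Polynomial.C Polynomial.X, Polynomial.monic_X_sub_C _, ?_⟩
    rw [Polynomial.eval₂_sub, Polynomial.eval₂_X, Polynomial.eval₂_C, qExpand_one_apply]
    simp [evalAt]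
  | prime_mul p M hp ih =>
    intro _ hΦ
    have hM : M ≠ 0 := fun h => NeZero.ne (p * M) (by rw [h, mul_zero])
    haveI : NeZero M := ⟨hM⟩
    haveI : NeZero p := ⟨hp.ne_zero⟩
    obtain ⟨Dp⟩ := hΦ p hp (Dvd.intro _ rfl)
    have hy := ih (hΦ.of_dvd (Dvd.intro_left _ rfl))
    have hx := eval_jp_ring_qExpand ℤ Dp M
    rw [qExpand_congr (mul_comm M p)] at hx
    exact isIntegralElem_of_root _ Dp.Φ Dp.monic _ _ hy hx

/-- **Integrality** of `j(q^d)` over `ℤ[j]` (the field `integral` of `CoreData`). -/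
theorem integral_jd (N : ℕ) (hΦ : HasModPoly N) (d : ℕ) [NeZero d] (hd : d ∣ N) :
    ∃ P : Polynomial (Polynomial ℤ), P.Monic ∧
      P.eval₂ (evalAt (jqModC ℤ)) (qExpand ℤ d (jqModC ℤ)) = 0 :=
  integral_jd_aux d (hΦ.of_dvd hd)

end Integral

/-! ### The upper bound in "independent families are small" form -/

section Upper

theorem card_le_of_span {k : Type*} [Field k] {n m : ℕ} (y : Fin n → LaurentSeries k)
    (x : Fin m → LaurentSeries k)
    (hx : ∀ i, x i ∈ Submodule.span (jField k) (Set.range y))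
    (hli : LinearIndependent (jField k) x) : m ≤ n := by
  haveI : Module.Finite (jField k) (Submodule.span (jField k) (Set.range y)) :=
    Module.Finite.span_of_finite _ (Set.finite_range y)
  have hli' : LinearIndependent (jField k)
      (fun i => (⟨x i, hx i⟩ : Submodule.span (jField k) (Set.range y))) := by
    apply LinearIndependent.of_comp (Submodule.span (jField k) (Set.range y)).subtype
    exact hli
  have h1 := hli'.fintype_card_le_finrank
  have h2 := finrank_range_le_card (R := jField k) y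
  rw [Fintype.card_fin] at h1 h2
  exact h1.trans h2

/-- **Upper bound**, any field `k` (of type `Type`) in which `N` is invertible. -/
theorem card_le_dedekindPsi (N : ℕ) (hN : N ≠ 0) (hΦ : HasModPoly N) (k : Type) [Field k]
    (hk : (N : k) ≠ 0) (m : ℕ) (x : Fin m → LaurentSeries k)
    (hx : ∀ i, x i ∈ modularFunctionFieldFullC k N)
    (hli : LinearIndependent (jField k) x) : m ≤ dedekindPsi N := by
  obtain ⟨n, y, hn, -, hspan⟩ := exists_spanning_monomials N hN hΦ
  rw [← hn]
  exact card_le_of_span _ x (fun i => hspan k hk _ (hx i)) hli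

/-- **Upper bound over `ℚ`**, in the shape of the hypothesis `hU` of
`H325.coreData_of_bounds`. -/
theorem upper_bound_rat (N : ℕ) [NeZero N] (hΦ : HasModPoly N) :
    ∀ (m : ℕ) (x : Fin m → LaurentSeries ℚ), (∀ i, x i ∈ modularFunctionFieldFull N) →
      LinearIndependent (jField ℚ) x → m ≤ dedekindPsi N := by
  intro m x hx hli
  have hk : ((N : ℕ) : ℚ) ≠ 0 := Nat.cast_ne_zero.mpr (NeZero.ne N)
  exact card_le_dedekindPsi N (NeZero.ne N) hΦ ℚ hk m x hx hli

/-- `HasModPoly N` from the analytic stub. -/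
theorem hasModPoly_of_nonempty
    (h : ∀ (p : ℕ) [NeZero p], p.Prime → Nonempty (ModPolyData p)) (N : ℕ) : HasModPoly N :=
  fun r _ hr _ => h r hr

end Upper

end Fermat.Agent.S28.H208

end

end
-- ===== PACK-END S28/H208/Upper.lean

-- ===== PACK-BEGIN S18/H208/Basis.lean
section
/-
S18 / M1 (helper208): the UNIFORM BASIS of the modular function fields.

`exists_uniform_basis` : from the three analytic inputs of S28 (all proved on main) there are
`ψ(N)` integral monomials `y i ∈ ℤ[j(q^d) : d ∣ N] ⊆ ℤ((q))` whose images in `k((q))` form a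
`k(j)`-basis of `F_{N,k} = modularFunctionFieldFullC k N`, for EVERY field `k` in which `N` is
invertible (characteristic `0` or `ℓ ∤ N`).
-/




set_option autoImplicit false

noncomputable section

namespace Fermat.Agent.S18.H208

open ModularCurve HahnSeries Fermat.Agent.S28

/-- The three analytic inputs of S28 (modular polynomial, unit polynomial, theta identity). -/
structure AnalyticInputs : Prop where
  modPoly : ∀ (p : ℕ) [NeZero p], p.Prime → Nonempty (ModPolyData p)
  unitPoly : ∀ (p : ℕ) [NeZero p], p.Prime → Nonempty (UnitPolyData p)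
  theta : (thetaL ℤ (jqModC ℤ)) ^ 6 = deltaL ℤ * (jqModC ℤ) ^ 4 * (jqModC ℤ - 1728) ^ 3

theorem natCast_prime_ne_zero_of_dvd {k : Type*} [Field k] {N : ℕ} (hN : (N : k) ≠ 0)
    (p : ℕ) (hpN : p ∣ N) : (p : k) ≠ 0 := by
  intro h0
  obtain ⟨m, rfl⟩ := hpN
  apply hN
  rw [Nat.cast_mul, h0, zero_mul]

/-- `Good k N` (helper867) from the analytic inputs. -/
theorem good_of_analytic (A : AnalyticInputs) (k : Type*) [Field k] (N : ℕ) [NeZero N]
    (hN : (N : k) ≠ 0) : S28.H867.Good k N :=
  S28.H867.good_of_inputs k N (NeZero.ne N)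
    (fun p hp _ _ => A.modPoly p hp) (fun p hp _ _ => A.unitPoly p hp) A.theta
    (fun p _ hpN => natCast_prime_ne_zero_of_dvd hN p hpN)

/-- **Uniform basis.** -/
theorem exists_uniform_basis (A : AnalyticInputs) (N : ℕ) [NeZero N] :
    ∃ y : Fin (dedekindPsi N) → LaurentSeries ℤ,
      (∀ i, y i ∈ Subring.closure (intDivisorExpansions N)) ∧
      ∀ (k : Type) [Field k], (N : k) ≠ 0 →
        (∀ x ∈ modularFunctionFieldFullC k N,
          x ∈ Submodule.span (jField k)
            (Set.range fun i => coeffMap (Int.castRingHom k) (y i))) ∧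
        LinearIndependent (jField k) (fun i => coeffMap (Int.castRingHom k) (y i)) := by
  obtain ⟨n, y, hn, hy, hspan⟩ := S28.H208.exists_spanning_monomials N (NeZero.ne N)
    (S28.H208.hasModPoly_of_nonempty A.modPoly N)
  subst hn
  refine ⟨y, hy, fun k _ hNk => ⟨hspan k hNk, ?_⟩⟩
  classical
  obtain ⟨x, hxF, hxli⟩ := (good_of_analytic A k N hNk).exists_linearIndependent
  set v : Fin (dedekindPsi N) → LaurentSeries k := fun i => coeffMap (Int.castRingHom k) (y i)
    with hv
  set W : Submodule (jField k) (LaurentSeries k) := Submodule.span (jField k) (Set.range v)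
    with hW
  have hxW : ∀ i, x i ∈ W := fun i => hspan k hNk (x i) (hxF i)
  have hli' : LinearIndependent (jField k) (fun i => (⟨x i, hxW i⟩ : W)) := by
    apply LinearIndependent.of_comp W.subtype
    exact hxli
  have : Module.Finite (jField k) W := Module.Finite.span_of_finite _ (Set.finite_range v)
  have h1 : Fintype.card (Fin (dedekindPsi N)) ≤ Module.finrank (jField k) W :=
    hli'.fintype_card_le_finrank
  have h2 : Module.finrank (jField k) W ≤ Fintype.card (Fin (dedekindPsi N)) := by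
    have := finrank_range_le_card (R := jField k) v
    simpa [Set.finrank, hW] using this
  rw [linearIndependent_iff_card_eq_finrank_span]
  exact le_antisymm h1 h2

end Fermat.Agent.S18.H208

end

end
-- ===== PACK-END S18/H208/Basis.lean

-- ===== PACK-BEGIN S18/H208/Gauss.lean
section
/-
S18 / M1 (helper208): the Gauss valuation layer of the modular function field over a general
discrete valuation ring `O ⊆ E` (in the `UnifData` form of helper86's `GaussGen`).

Setting: `E` a field, `O : Subring E`, `res : O →+* κ` with kernel `(π)`.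
`F_E = modularFunctionFieldFullC E N ⊆ E((q))`, `F_κ = modularFunctionFieldFullC κ N ⊆ κ((q))`.
-/







set_option autoImplicit false
set_option linter.unusedSectionVars false
set_option linter.style.haveILetI false

noncomputable section

namespace Fermat.Agent.S18.H208

open ModularCurve HahnSeries Polynomial Fermat.Agent.S28 Fermat.Agent.S28.H86

section IntSeries

variable {E : Type} [Field E] (O : Subring E) {κ : Type} [Field κ] (res : O →+* κ)

/-- An integer series viewed in `O((q))`. -/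
def intO (w : LaurentSeries ℤ) : LaurentSeries O := coeffMap (Int.castRingHom O) w

theorem inclL_intO (w : LaurentSeries ℤ) :
    inclL O (intO O w) = coeffMap (Int.castRingHom E) w := by
  rw [intO, inclL, coeffMap_coeffMap]
  exact coeffMap_congr (RingHom.ext_int _ _) w

theorem redL_intO (w : LaurentSeries ℤ) :
    redL res (intO O w) = coeffMap (Int.castRingHom κ) w := by
  rw [intO, redL, coeffMap_coeffMap]
  exact coeffMap_congr (RingHom.ext_int _ _) w

theorem intCast_mem_gaussRing (w : LaurentSeries ℤ) :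
    coeffMap (Int.castRingHom E) w ∈ gaussRing O res := by
  rw [← inclL_intO O]
  exact inclL_mem_gaussRing res _

theorem gaussRed_intCast (w : LaurentSeries ℤ) :
    gaussRed O res ⟨coeffMap (Int.castRingHom E) w, intCast_mem_gaussRing O res w⟩ =
      coeffMap (Int.castRingHom κ) w := by
  have : (⟨coeffMap (Int.castRingHom E) w, intCast_mem_gaussRing O res w⟩ : gaussRing O res) =
      ⟨inclL O (intO O w), inclL_mem_gaussRing res _⟩ := Subtype.ext (inclL_intO O w).symm
  rw [this, gaussRed_inclL, redL_intO]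

/-- `j(q^d)` over any ring comes from `ℤ((q))`. -/
theorem jd_eq_intCast (R : Type*) [CommRing R] (d : ℕ) [NeZero d] :
    qExpand R d (jqModC R) = coeffMap (Int.castRingHom R) (qExpand ℤ d (jqModC ℤ)) := by
  rw [coeffMap_qExpand, coeffMap_jqModC]

theorem j_eq_intCast (R : Type*) [CommRing R] :
    jqModC R = coeffMap (Int.castRingHom R) (jqModC ℤ) := (coeffMap_jqModC _).symm

theorem j_mem_gaussRing : jqModC E ∈ gaussRing O res := by
  rw [j_eq_intCast E]; exact intCast_mem_gaussRing O res _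

theorem gaussRed_j : gaussRed O res ⟨jqModC E, j_mem_gaussRing O res⟩ = jqModC κ := by
  have : (⟨jqModC E, j_mem_gaussRing O res⟩ : gaussRing O res) =
      ⟨coeffMap (Int.castRingHom E) (jqModC ℤ), intCast_mem_gaussRing O res _⟩ :=
    Subtype.ext (j_eq_intCast E)
  rw [this, gaussRed_intCast, coeffMap_jqModC]

end IntSeries

section Frac

variable {E : Type} [Field E] (O : Subring E)

/-- `E` is the fraction field of `O`, elementwise. -/
def IsFrac : Prop := ∀ e : E, ∃ a b : O, b ≠ 0 ∧ e * (b : E) = (a : E)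

variable {O}

theorem C_mem_gaussFrac (hfrac : IsFrac O) (e : E) :
    (HahnSeries.C e : LaurentSeries E) ∈ gaussFrac O := by
  obtain ⟨a, b, hb, hab⟩ := hfrac e
  refine ⟨HahnSeries.C a, HahnSeries.C b, ?_, ?_⟩
  · intro h0
    apply hb
    have := congrArg (fun x : LaurentSeries O => x.coeff 0) h0
    simpa using this
  · rw [inclL_C, inclL_C, ← map_mul, hab]

theorem algebraMap_mem_gaussFrac (hfrac : IsFrac O) (e : E) :
    algebraMap E (LaurentSeries E) e ∈ gaussFrac O := by
  have : algebraMap E (LaurentSeries E) e = HahnSeries.C e := by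
    rw [algebraMap_laurentSeries_eq_single]; rfl
  rw [this]
  exact C_mem_gaussFrac hfrac e

/-- **(T1)** The modular function field lies in the fraction field of the Gauss ring. -/
theorem full_le_gaussFrac (hfrac : IsFrac O) (N : ℕ) {x : LaurentSeries E}
    (hx : x ∈ modularFunctionFieldFullC E N) : x ∈ gaussFrac O := by
  let G : IntermediateField E (LaurentSeries E) :=
    (gaussFrac O).toIntermediateField (algebraMap_mem_gaussFrac hfrac)
  have hle : modularFunctionFieldFullC E N ≤ G := by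
    rw [modularFunctionFieldFullC, IntermediateField.adjoin_le_iff]
    rintro _ ⟨d, hd, -, rfl⟩
    show qExpand E d (jqModC E) ∈ gaussFrac O
    rw [jd_eq_intCast E d, ← inclL_intO O]
    exact inclL_mem_gaussFrac _
  exact hle hx

end Frac

section Eval

variable {E : Type} [Field E] (O : Subring E) {κ : Type} [Field κ] (res : O →+* κ) {π : O}

/-- Constants `O → V`. -/
def constV : O →+* gaussRing O res where
  toFun c := ⟨HahnSeries.C (c : E), by rw [← inclL_C]; exact inclL_mem_gaussRing res _⟩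
  map_one' := Subtype.ext (by simp)
  map_mul' a b := Subtype.ext (by simp)
  map_zero' := Subtype.ext (by simp)
  map_add' a b := Subtype.ext (by simp)

@[simp] theorem coe_constV (c : O) :
    ((constV O res c : gaussRing O res) : LaurentSeries E) = HahnSeries.C (c : E) := rfl

theorem gaussRed_constV (c : O) : gaussRed O res (constV O res c) = HahnSeries.C (res c) := by
  have : constV O res c = ⟨inclL O (HahnSeries.C c), inclL_mem_gaussRing res _⟩ :=
    Subtype.ext (inclL_C c).symm
  rw [this, gaussRed_inclL, redL_C]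

/-- Evaluation `O[X] → V`, `P ↦ P(t)`. -/
def evV (t : gaussRing O res) : Polynomial O →+* gaussRing O res :=
  Polynomial.eval₂RingHom (constV O res) t

/-- Evaluation `O[X] → E((q))`, `P ↦ P(t)`. -/
def evE (t : LaurentSeries E) : Polynomial O →+* LaurentSeries E :=
  Polynomial.eval₂RingHom ((HahnSeries.C : E →+* LaurentSeries E).comp O.subtype) t

variable {O res}

theorem coe_evV (t : gaussRing O res) (P : Polynomial O) :
    ((evV O res t P : gaussRing O res) : LaurentSeries E) = evE O (t : LaurentSeries E) P := by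
  show (gaussRing O res).subtype (Polynomial.eval₂ (constV O res) t P) = _
  rw [Polynomial.hom_eval₂]
  rfl

theorem evE_mem_gaussRing {t : LaurentSeries E} (ht : t ∈ gaussRing O res) (P : Polynomial O) :
    evE O t P ∈ gaussRing O res := by
  rw [← coe_evV ⟨t, ht⟩ P]
  exact (evV O res ⟨t, ht⟩ P).2

theorem gaussRed_evV (t : gaussRing O res) (P : Polynomial O) :
    gaussRed O res (evV O res t P) = Polynomial.aeval (gaussRed O res t) (P.map res) := by
  show gaussRed O res (Polynomial.eval₂ (constV O res) t P) = _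
  rw [Polynomial.hom_eval₂, Polynomial.aeval_def, Polynomial.eval₂_map]
  congr 1
  ext c : 1
  rw [RingHom.comp_apply, RingHom.comp_apply, gaussRed_constV, algebraMap_laurentSeries_eq_single]
  rfl

theorem evE_C (t : LaurentSeries E) (c : O) :
    evE O t (Polynomial.C c) = HahnSeries.C (c : E) := by
  simp [evE]

theorem evE_C_pi (t : LaurentSeries E) : evE O t (Polynomial.C π) = piL O π := evE_C t π

/-- Injectivity of the evaluation at a series of nonzero order. -/
theorem evE_injective {t : LaurentSeries E} (ht0 : t ≠ 0) (hto : t.order ≠ 0) :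
    Function.Injective (evE O t) := by
  rw [injective_iff_map_eq_zero]
  intro P hP
  have h1 : Polynomial.aeval t (P.map O.subtype) = 0 := by
    rw [Polynomial.aeval_def, Polynomial.eval₂_map]
    have : (algebraMap E (LaurentSeries E)).comp O.subtype =
        (HahnSeries.C : E →+* LaurentSeries E).comp O.subtype := by
      ext c : 1
      rw [RingHom.comp_apply, RingHom.comp_apply, algebraMap_laurentSeries_eq_single]
      rfl
    rw [this]
    exact hP
  have h2 : P.map O.subtype = 0 := by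
    by_contra hne
    exact aeval_ne_zero_of_order_ne_zero ht0 hto hne h1
  exact (Polynomial.map_eq_zero_iff (Subtype.val_injective)).mp h2

end Eval

section Clear

variable {E : Type} [Field E] {O : Subring E}

/-- Every element of `E(j)` is a quotient of two polynomials in `j` with coefficients in `O`. -/
theorem exists_O_fraction (hfrac : IsFrac O) {c : LaurentSeries E} (hc : c ∈ jField E) :
    ∃ f g : Polynomial O, evE O (jqModC E) g ≠ 0 ∧
      evE O (jqModC E) g * c = evE O (jqModC E) f := by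
  unfold jField at hc
  induction hc using IntermediateField.adjoin_induction with
  | mem x hx =>
    rw [Set.mem_singleton_iff] at hx
    subst hx
    refine ⟨Polynomial.X, 1, ?_, ?_⟩
    · rw [map_one]; exact one_ne_zero
    · rw [map_one, one_mul]
      simp [evE]
  | algebraMap r =>
    obtain ⟨a, b, hb, hab⟩ := hfrac r
    refine ⟨Polynomial.C a, Polynomial.C b, ?_, ?_⟩
    · rw [evE_C]
      exact (map_ne_zero_iff _ HahnSeries.C_injective).mpr
        (fun h0 => hb (Subtype.ext h0))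
    · rw [evE_C, evE_C, algebraMap_laurentSeries_eq_single]
      show HahnSeries.C (b : E) * HahnSeries.C r = HahnSeries.C (a : E)
      rw [← map_mul, mul_comm, hab]
  | add x y _ _ hx hy =>
    obtain ⟨f₁, g₁, hg₁, h₁⟩ := hx
    obtain ⟨f₂, g₂, hg₂, h₂⟩ := hy
    refine ⟨f₁ * g₂ + f₂ * g₁, g₁ * g₂, ?_, ?_⟩
    · rw [map_mul]; exact mul_ne_zero hg₁ hg₂
    · rw [map_mul, map_add, map_mul, map_mul, ← h₁, ← h₂]; ring
  | inv x _ hx =>
    obtain ⟨f, g, hg, h⟩ := hx
    by_cases hf : evE O (jqModC E) f = 0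
    · have hx0 : x = 0 := by
        rw [hf] at h
        exact (mul_eq_zero.mp h).resolve_left hg
      refine ⟨0, 1, ?_, ?_⟩
      · rw [map_one]; exact one_ne_zero
      · rw [hx0, inv_zero, mul_zero, map_zero]
    · refine ⟨g, f, hf, ?_⟩
      have hx0 : x ≠ 0 := by
        rintro rfl
        rw [mul_zero] at h
        exact hf h.symm
      rw [← h]
      field_simp
  | mul x y _ _ hx hy =>
    obtain ⟨f₁, g₁, hg₁, h₁⟩ := hx
    obtain ⟨f₂, g₂, hg₂, h₂⟩ := hy
    refine ⟨f₁ * f₂, g₁ * g₂, ?_, ?_⟩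
    · rw [map_mul]; exact mul_ne_zero hg₁ hg₂
    · rw [map_mul, map_mul, ← h₁, ← h₂]; ring

/-- Clearing denominators in an `E(j)`-linear combination. -/
theorem exists_cleared_of_mem_span (hfrac : IsFrac O) {n : ℕ} (v : Fin n → LaurentSeries E)
    {x : LaurentSeries E} (hx : x ∈ Submodule.span (jField E) (Set.range v)) :
    ∃ (g : Polynomial O) (f : Fin n → Polynomial O), g ≠ 0 ∧
      evE O (jqModC E) g * x = ∑ i, evE O (jqModC E) (f i) * v i := by
  obtain ⟨c, rfl⟩ := (Submodule.mem_span_range_iff_exists_fun (jField E)).mp hx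
  have hc : ∀ i, ∃ f g : Polynomial O, evE O (jqModC E) g ≠ 0 ∧
      evE O (jqModC E) g * (c i : LaurentSeries E) = evE O (jqModC E) f :=
    fun i => exists_O_fraction hfrac (c i).2
  choose f g hg hfg using hc
  refine ⟨∏ i, g i, fun i => f i * ∏ k ∈ Finset.univ.erase i, g k, ?_, ?_⟩
  · intro h0
    have : evE O (jqModC E) (∏ i, g i) = 0 := by rw [h0, map_zero]
    rw [map_prod] at this
    obtain ⟨i, -, hi⟩ := Finset.prod_eq_zero_iff.mp this
    exact hg i hi
  · rw [Finset.mul_sum]
    refine Finset.sum_congr rfl fun i _ => ?_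
    rw [← Finset.mul_prod_erase Finset.univ g (Finset.mem_univ i), map_mul, map_mul,
      IntermediateField.smul_def, smul_eq_mul, ← hfg i]
    ring

end Clear

section Indep

variable {κ : Type} [Field κ]

/-- Linear independence over `κ(j)` in polynomial form. -/
theorem poly_indep {n : ℕ} {v : Fin n → LaurentSeries κ}
    (hli : LinearIndependent (jField κ) v) (f : Fin n → Polynomial κ)
    (hf : ∑ i, Polynomial.aeval (jqModC κ) (f i) * v i = 0) : ∀ i, f i = 0 := by
  have hmem : ∀ i, Polynomial.aeval (jqModC κ) (f i) ∈ jField κ := fun i =>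
    IntermediateField.algebra_adjoin_le_adjoin _ _ (Polynomial.aeval_mem_adjoin_singleton _ _)
  have h0 := Fintype.linearIndependent_iff.mp hli
    (fun i => ⟨Polynomial.aeval (jqModC κ) (f i), hmem i⟩) (by
      simpa [IntermediateField.smul_def] using hf)
  intro i
  have hi := congrArg Subtype.val (h0 i)
  simp only [ZeroMemClass.coe_zero] at hi
  by_contra hne
  exact aeval_ne_zero_of_order_ne_zero (S28.H145.jqModC_ne_zero' κ)
    (by rw [S28.H145.order_jqModC]; decide) hne hi

end Indep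

section Denominator

variable {E : Type} [Field E] {O : Subring E} {κ : Type} [Field κ] {res : O →+* κ} {π : O}

theorem exists_eq_C_mul_of_map_eq_zero (h : UnifData O res π) {P : Polynomial O}
    (hP : P.map res = 0) : ∃ P' : Polynomial O, P = Polynomial.C π * P' := by
  have hmem : P ∈ Ideal.map (Polynomial.C : O →+* Polynomial O) (Ideal.span {π}) := by
    rw [Ideal.mem_map_C_iff]
    intro n
    have hn : res (P.coeff n) = 0 := by
      have := congrArg (fun Q => Q.coeff n) hP
      simpa using this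
    obtain ⟨y, hy⟩ := (h.ker _).mp hn
    exact Ideal.mem_span_singleton'.mpr ⟨y, by rw [hy, mul_comm]⟩
  rw [Ideal.map_span, Set.image_singleton, Ideal.mem_span_singleton'] at hmem
  obtain ⟨P', hP'⟩ := hmem
  exact ⟨P', by rw [← hP', mul_comm]⟩

theorem map_res_C_pi_mul (h : UnifData O res π) (P : Polynomial O) :
    (Polynomial.C π * P).map res = 0 := by
  rw [Polynomial.map_mul, Polynomial.map_C, res_pi h, Polynomial.C_0, zero_mul]

/-- The reduction of a relation `g(j) x = Σ f_i(j) v_i` in the Gauss ring. -/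
theorem gaussRed_relation {n : ℕ} (y : Fin n → LaurentSeries ℤ)
    {x : LaurentSeries E} (hx : x ∈ gaussRing O res)
    (g : Polynomial O) (f : Fin n → Polynomial O)
    (hrel : evE O (jqModC E) g * x =
      ∑ i, evE O (jqModC E) (f i) * coeffMap (Int.castRingHom E) (y i)) :
    Polynomial.aeval (jqModC κ) (g.map res) * gaussRed O res ⟨x, hx⟩ =
      ∑ i, Polynomial.aeval (jqModC κ) ((f i).map res) * coeffMap (Int.castRingHom κ) (y i) := by
  set J : gaussRing O res := ⟨jqModC E, j_mem_gaussRing O res⟩ with hJ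
  have hrelV : evV O res J g * ⟨x, hx⟩ =
      ∑ i, evV O res J (f i) *
        ⟨coeffMap (Int.castRingHom E) (y i), intCast_mem_gaussRing O res (y i)⟩ := by
    apply Subtype.ext
    have h1 : (((∑ i, evV O res J (f i) *
        ⟨coeffMap (Int.castRingHom E) (y i), intCast_mem_gaussRing O res (y i)⟩ :
          gaussRing O res)) : LaurentSeries E) =
        ∑ i, evE O (jqModC E) (f i) * coeffMap (Int.castRingHom E) (y i) := by
      rw [← Subring.subtype_apply, map_sum]
      refine Finset.sum_congr rfl fun i _ => ?_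
      rw [Subring.subtype_apply, Subring.coe_mul, coe_evV]
    rw [h1, Subring.coe_mul, coe_evV]
    exact hrel
  have h2 := congrArg (gaussRed O res) hrelV
  rw [map_mul, map_sum, gaussRed_evV, hJ, gaussRed_j] at h2
  rw [h2]
  refine Finset.sum_congr rfl fun i _ => ?_
  rw [map_mul, gaussRed_evV, gaussRed_j, gaussRed_intCast]

theorem exists_denominator_aux (h : UnifData O res π) {n : ℕ} (y : Fin n → LaurentSeries ℤ)
    (hli : LinearIndependent (jField κ) (fun i => coeffMap (Int.castRingHom κ) (y i)))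
    {x : LaurentSeries E} (hx : x ∈ gaussRing O res) :
    ∀ (m : ℕ) (g : Polynomial O) (f : Fin n → Polynomial O) (k : ℕ) (u : O),
      g.coeff k = π ^ m * u → res u ≠ 0 →
      evE O (jqModC E) g * x =
        ∑ i, evE O (jqModC E) (f i) * coeffMap (Int.castRingHom E) (y i) →
      ∃ (g' : Polynomial O) (f' : Fin n → Polynomial O), g'.map res ≠ 0 ∧
        evE O (jqModC E) g' * x =
          ∑ i, evE O (jqModC E) (f' i) * coeffMap (Int.castRingHom E) (y i) := by
  intro m
  induction m with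
  | zero =>
    intro g f k u hgk hu hrel
    refine ⟨g, f, ?_, hrel⟩
    intro h0
    apply hu
    have := congrArg (fun Q => Q.coeff k) h0
    simpa [hgk] using this
  | succ m ih =>
    intro g f k u hgk hu hrel
    by_cases hg : g.map res = 0
    · obtain ⟨g1, rfl⟩ := exists_eq_C_mul_of_map_eq_zero h hg
      have hred := gaussRed_relation (res := res) y hx _ f hrel
      rw [hg, map_zero, zero_mul] at hred
      have hf0 := poly_indep hli (fun i => (f i).map res) hred.symm
      have hf1 : ∀ i, ∃ P' : Polynomial O, f i = Polynomial.C π * P' :=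
        fun i => exists_eq_C_mul_of_map_eq_zero h (hf0 i)
      choose f1 hf1 using hf1
      have hπ := piL_ne_zero h
      have hrel1 : evE O (jqModC E) g1 * x =
          ∑ i, evE O (jqModC E) (f1 i) * coeffMap (Int.castRingHom E) (y i) := by
        apply mul_left_cancel₀ hπ
        rw [Finset.mul_sum, ← mul_assoc, ← evE_C_pi (O := O) (jqModC E), ← map_mul, hrel]
        refine Finset.sum_congr rfl fun i _ => ?_
        rw [hf1 i, map_mul, mul_assoc]
      have hgk1 : g1.coeff k = π ^ m * u := by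
        rw [Polynomial.coeff_C_mul, pow_succ, mul_comm (π ^ m) π, mul_assoc] at hgk
        exact mul_left_cancel₀ h.ne_zero hgk
      exact ih g1 f1 k u hgk1 hu hrel1
    · exact ⟨g, f, hg, hrel⟩

/-- **Denominator lemma.** Every `x ∈ F_E ∩ V` satisfies a relation `g(j) x = Σ f_i(j) y_i`
with `O`-coefficients and `g ≢ 0 mod π`. -/
theorem exists_denominator (h : UnifData O res π) (hfrac : IsFrac O) {n : ℕ}
    (y : Fin n → LaurentSeries ℤ)
    (hli : LinearIndependent (jField κ) (fun i => coeffMap (Int.castRingHom κ) (y i)))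
    {x : LaurentSeries E}
    (hspan : x ∈ Submodule.span (jField E)
      (Set.range fun i => coeffMap (Int.castRingHom E) (y i)))
    (hx : x ∈ gaussRing O res) :
    ∃ (g : Polynomial O) (f : Fin n → Polynomial O), g.map res ≠ 0 ∧
      evE O (jqModC E) g * x =
        ∑ i, evE O (jqModC E) (f i) * coeffMap (Int.castRingHom E) (y i) := by
  obtain ⟨g, f, hg, hrel⟩ := exists_cleared_of_mem_span hfrac _ hspan
  obtain ⟨k, hk⟩ : ∃ k, g.coeff k ≠ 0 := by
    by_contra hne
    simp only [not_exists, not_not] at hne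
    exact hg (Polynomial.ext fun k => by rw [hne k, Polynomial.coeff_zero])
  obtain ⟨m, u, hu, hres⟩ := h.prim _ hk
  exact exists_denominator_aux h y hli hx m g f k u hu hres hrel

end Denominator

section Reduction

variable {E : Type} [Field E] {O : Subring E} {κ : Type} [Field κ] {res : O →+* κ} {π : O}

theorem coeffMap_intCast_mem_full (k : Type*) [Field k] (N : ℕ) {w : LaurentSeries ℤ}
    (hw : w ∈ Subring.closure (intDivisorExpansions N)) :
    coeffMap (Int.castRingHom k) w ∈ modularFunctionFieldFullC k N := by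
  induction hw using Subring.closure_induction with
  | mem x hx =>
    obtain ⟨d, hd, hdN, rfl⟩ := hx
    rw [← jd_eq_intCast]
    exact jqModCd_mem_full k N hdN
  | zero => rw [map_zero]; exact zero_mem _
  | one => rw [map_one]; exact one_mem _
  | add x y _ _ hx hy => rw [map_add]; exact add_mem hx hy
  | neg x _ hx => rw [map_neg]; exact neg_mem hx
  | mul x y _ _ hx hy => rw [map_mul]; exact mul_mem hx hy

theorem aeval_j_mem_full (k : Type*) [Field k] (N : ℕ) (P : Polynomial k) :
    Polynomial.aeval (jqModC k) P ∈ modularFunctionFieldFullC k N := by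
  have h1 : Polynomial.aeval (jqModC k) P ∈ Algebra.adjoin k {jqModC k} :=
    Polynomial.aeval_mem_adjoin_singleton _ _
  have h2 : Algebra.adjoin k {jqModC k} ≤ (modularFunctionFieldFullC k N).toSubalgebra :=
    Algebra.adjoin_le (Set.singleton_subset_iff.mpr (jqModC_mem_full k N))
  exact h2 h1

theorem aeval_j_ne_zero {k : Type*} [Field k] {P : Polynomial k} (hP : P ≠ 0) :
    Polynomial.aeval (jqModC k) P ≠ 0 :=
  aeval_ne_zero_of_order_ne_zero (S28.H145.jqModC_ne_zero' k)
    (by rw [S28.H145.order_jqModC]; decide) hP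

theorem natCast_ne_zero_of_res (res : O →+* κ) {N : ℕ} (hN : (N : κ) ≠ 0) : (N : E) ≠ 0 := by
  intro h0
  apply hN
  have h1 : (N : O) = 0 := Subtype.ext (by simpa using h0)
  rw [← map_natCast res, h1, map_zero]

/-- **(T2)** The reduction of an element of `F_E ∩ V` lies in `F_κ`. -/
theorem gaussRed_mem_full (A : AnalyticInputs) (h : UnifData O res π) (hfrac : IsFrac O)
    (N : ℕ) [NeZero N] (hN : (N : κ) ≠ 0) {x : LaurentSeries E}
    (hxF : x ∈ modularFunctionFieldFullC E N) (hx : x ∈ gaussRing O res) :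
    gaussRed O res ⟨x, hx⟩ ∈ modularFunctionFieldFullC κ N := by
  obtain ⟨y, hy, hbasis⟩ := exists_uniform_basis A N
  obtain ⟨hspanE, -⟩ := hbasis E (natCast_ne_zero_of_res res hN)
  obtain ⟨-, hliκ⟩ := hbasis κ hN
  obtain ⟨g, f, hg, hrel⟩ := exists_denominator h hfrac y hliκ (hspanE x hxF) hx
  have hred := gaussRed_relation (res := res) y hx g f hrel
  have hg0 := aeval_j_ne_zero hg
  have hx' : gaussRed O res ⟨x, hx⟩ = (Polynomial.aeval (jqModC κ) (g.map res))⁻¹ *
      ∑ i, Polynomial.aeval (jqModC κ) ((f i).map res) * coeffMap (Int.castRingHom κ) (y i) := by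
    rw [← hred, ← mul_assoc, inv_mul_cancel₀ hg0, one_mul]
  rw [hx']
  refine mul_mem (inv_mem (aeval_j_mem_full κ N _)) (sum_mem fun i _ => ?_)
  exact mul_mem (aeval_j_mem_full κ N _) (coeffMap_intCast_mem_full κ N (hy i))

end Reduction

section Integral

variable {E : Type} [Field E] {O : Subring E}

theorem coeffMap_comp_evalAt :
    (coeffMap (Int.castRingHom E)).comp (evalAt (jqModC ℤ)) =
      (evE O (jqModC E)).comp (Polynomial.mapRingHom (Int.castRingHom O)) := by
  apply Polynomial.ringHom_ext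
  · intro a
    simp [evalAt, evE]
  · simp [evalAt, evE, coeffMap_jqModC]

/-- Integer series integral over `ℤ[j]` are integral over `O[j]` in `E((q))`. -/
theorem isIntegralElem_intCast {w : LaurentSeries ℤ}
    (hw : (evalAt (jqModC ℤ)).IsIntegralElem w) :
    (evE O (jqModC E)).IsIntegralElem (coeffMap (Int.castRingHom E) w) := by
  obtain ⟨P, hP, hPw⟩ := hw
  refine ⟨P.map (Polynomial.mapRingHom (Int.castRingHom O)), hP.map _, ?_⟩
  rw [Polynomial.eval₂_map, ← coeffMap_comp_evalAt, ← Polynomial.hom_eval₂, hPw, map_zero]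

theorem isIntegralElem_basis (A : AnalyticInputs) (N : ℕ) [NeZero N] {w : LaurentSeries ℤ}
    (hw : w ∈ Subring.closure (intDivisorExpansions N)) :
    (evE O (jqModC E)).IsIntegralElem (coeffMap (Int.castRingHom E) w) :=
  isIntegralElem_intCast (S28.H508.isIntegralElem_of_mem_closure N
    (S28.H867.coreData_integral N (fun p hp _ _ => A.modPoly p hp)) hw)

end Integral

section Kernel

variable {E : Type} [Field E] {O : Subring E} {κ : Type} [Field κ] {res : O →+* κ} {π : O}

theorem prime_pi (h : UnifData O res π) : Prime π := by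
  rw [← Ideal.span_singleton_prime h.ne_zero]
  have : Ideal.span {π} = RingHom.ker res := by
    ext x
    rw [RingHom.mem_ker, h.ker, Ideal.mem_span_singleton']
    constructor
    · rintro ⟨a, rfl⟩; exact ⟨a, mul_comm _ _⟩
    · rintro ⟨y, rfl⟩; exact ⟨y, mul_comm _ _⟩
  rw [this]
  exact RingHom.ker_isPrime _

theorem not_C_pi_dvd (h : UnifData O res π) {g : Polynomial O} (hg : g.map res ≠ 0) :
    ¬ Polynomial.C π ∣ g := by
  rintro ⟨g', rfl⟩
  exact hg (map_res_C_pi_mul h g')

theorem piL_mem_full (N : ℕ) (π : O) : piL O π ∈ modularFunctionFieldFullC E N := by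
  have : piL O π = algebraMap E (LaurentSeries E) (π : E) := by
    rw [algebraMap_laurentSeries_eq_single]; rfl
  rw [this]
  exact (modularFunctionFieldFullC E N).algebraMap_mem _

theorem evE_mem_full (N : ℕ) {t : LaurentSeries E} (ht : t ∈ modularFunctionFieldFullC E N)
    (P : Polynomial O) : evE O t P ∈ modularFunctionFieldFullC E N := by
  induction P using Polynomial.induction_on' with
  | add p q hp hq => rw [map_add]; exact add_mem hp hq
  | monomial n a =>
    rw [← Polynomial.C_mul_X_pow_eq_monomial, map_mul, map_pow, evE_C]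
    have h1 : (HahnSeries.C (a : E) : LaurentSeries E) = algebraMap E (LaurentSeries E) (a : E) := by
      rw [algebraMap_laurentSeries_eq_single]; rfl
    rw [h1]
    refine mul_mem ((modularFunctionFieldFullC E N).algebraMap_mem _) (pow_mem ?_ n)
    simpa [evE] using ht

/-- Elements of the fraction field which are integral over `O[t]`, `t ∈ V`, lie in `V`. -/
theorem mem_gaussRing_of_isIntegralElem (h : UnifData O res π) {t : LaurentSeries E}
    (ht : t ∈ gaussRing O res) {x : LaurentSeries E} (hxF : x ∈ gaussFrac O)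
    (hx : (evE O t).IsIntegralElem x) : x ∈ gaussRing O res := by
  letI : Algebra (Polynomial O) (LaurentSeries E) := (evE O t).toAlgebra
  exact mem_gaussRing_of_isIntegral' h (A := Polynomial O)
    (fun a => evE_mem_gaussRing ht a) hxF hx

variable [IsDiscreteValuationRing O]

/-- **Abstract kernel step** on the chart `O[t]`. -/
theorem isIntegralElem_of_pi_mul (h : UnifData O res π) {t : LaurentSeries E} (ht0 : t ≠ 0)
    (hto : t.order ≠ 0) {a : LaurentSeries E}
    (h1 : (evE O t).IsIntegralElem (piL O π * a))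
    {s : Polynomial O} (hs : s.map res ≠ 0)
    (h2 : (evE O t).IsIntegralElem (evE O t s * a)) :
    (evE O t).IsIntegralElem a := by
  letI : Algebra (Polynomial O) (LaurentSeries E) := (evE O t).toAlgebra
  haveI : FaithfulSMul (Polynomial O) (LaurentSeries E) :=
    (faithfulSMul_iff_algebraMap_injective _ _).mpr (evE_injective ht0 hto)
  have hp : Prime (Polynomial.C π : Polynomial O) := Polynomial.prime_C_iff.mpr (prime_pi h)
  have h1' : IsIntegral (Polynomial O) ((Polynomial.C π : Polynomial O) • a) := by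
    rw [Algebra.smul_def]
    show (evE O t).IsIntegralElem (evE O t (Polynomial.C π) * a)
    rw [evE_C_pi]
    exact h1
  have h2' : IsIntegral (Polynomial O) (s • a) := by
    rw [Algebra.smul_def]
    exact h2
  exact S28.H865.isIntegral_of_smul_of_smul hp (not_C_pi_dvd h hs) h1' h2'

/-- The denominator property of a chart `O[t]`. -/
def HasDenominators (res : O →+* κ) (N : ℕ) (t : LaurentSeries E) : Prop :=
  ∀ x : LaurentSeries E, x ∈ modularFunctionFieldFullC E N → x ∈ gaussRing O res →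
    ∃ s : Polynomial O, s.map res ≠ 0 ∧ (evE O t).IsIntegralElem (evE O t s * x)

/-- **Kernel theorem** on a chart with denominators. -/
theorem kernel_chart (h : UnifData O res π) (N : ℕ) {t : LaurentSeries E} (ht0 : t ≠ 0)
    (hto : t.order ≠ 0) (hD : HasDenominators res N t)
    {x : LaurentSeries E} (hxF : x ∈ modularFunctionFieldFullC E N)
    (hint : (evE O t).IsIntegralElem x)
    (hx : x ∈ gaussRing O res) (hred : gaussRed O res ⟨x, hx⟩ = 0) :
    ∃ x' : LaurentSeries E, x' ∈ modularFunctionFieldFullC E N ∧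
      (evE O t).IsIntegralElem x' ∧ x = piL O π * x' := by
  obtain ⟨yV, hyV⟩ := (gaussRed_eq_zero_iff h ⟨x, hx⟩).mp hred
  have hyV' : x = piL O π * (yV : LaurentSeries E) := hyV
  have hπ := piL_ne_zero h
  have hyF : (yV : LaurentSeries E) ∈ modularFunctionFieldFullC E N := by
    have : (yV : LaurentSeries E) = (piL O π)⁻¹ * x := by
      rw [hyV', ← mul_assoc, inv_mul_cancel₀ hπ, one_mul]
    rw [this]
    exact mul_mem (inv_mem (piL_mem_full N π)) hxF
  obtain ⟨s, hs, hsint⟩ := hD _ hyF yV.2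
  refine ⟨yV, hyF, ?_, hyV'⟩
  exact isIntegralElem_of_pi_mul h ht0 hto (by rw [← hyV']; exact hint) hs hsint

/-- The chart `O[j]` has denominators. -/
theorem hasDenominators_j (A : AnalyticInputs) (h : UnifData O res π) (hfrac : IsFrac O)
    (N : ℕ) [NeZero N] (hN : (N : κ) ≠ 0) : HasDenominators res N (jqModC E) := by
  intro x hxF hx
  obtain ⟨y, hy, hbasis⟩ := exists_uniform_basis A N
  obtain ⟨hspanE, -⟩ := hbasis E (natCast_ne_zero_of_res res hN)
  obtain ⟨-, hliκ⟩ := hbasis κ hN
  obtain ⟨g, f, hg, hrel⟩ := exists_denominator h hfrac y hliκ (hspanE x hxF) hx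
  refine ⟨g, hg, ?_⟩
  rw [hrel]
  letI : Algebra (Polynomial O) (LaurentSeries E) := (evE O (jqModC E)).toAlgebra
  show IsIntegral (Polynomial O) _
  refine IsIntegral.sum _ fun i _ => ?_
  exact IsIntegral.mul (isIntegral_algebraMap (x := f i)) (isIntegralElem_basis A N (hy i))

/-- **(T4), finite chart.**  `x ∈ F_E` integral over `O[j]` with vanishing reduction is
`π · x'` with `x' ∈ F_E` integral over `O[j]`. -/
theorem kernel_fin (A : AnalyticInputs) (h : UnifData O res π) (hfrac : IsFrac O)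
    (N : ℕ) [NeZero N] (hN : (N : κ) ≠ 0)
    {x : LaurentSeries E} (hxF : x ∈ modularFunctionFieldFullC E N)
    (hint : (evE O (jqModC E)).IsIntegralElem x)
    (hx : x ∈ gaussRing O res) (hred : gaussRed O res ⟨x, hx⟩ = 0) :
    ∃ x' : LaurentSeries E, x' ∈ modularFunctionFieldFullC E N ∧
      (evE O (jqModC E)).IsIntegralElem x' ∧ x = piL O π * x' :=
  kernel_chart h N (S28.H145.jqModC_ne_zero' E) (by rw [S28.H145.order_jqModC]; decide)
    (hasDenominators_j A h hfrac N hN) hxF hint hx hred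

end Kernel

section Infinity

variable {E : Type} [Field E] {O : Subring E} {κ : Type} [Field κ] {res : O →+* κ} {π : O}

theorem evE_X (t : LaurentSeries E) : evE O t Polynomial.X = t := by simp [evE]

/-- `(reflect m P)(t⁻¹) = P(t) · t⁻ᵐ` for `deg P ≤ m`. -/
theorem evE_reflect {t : LaurentSeries E} (ht0 : t ≠ 0) (m : ℕ) (P : Polynomial O)
    (hP : P.natDegree ≤ m) : evE O t⁻¹ (P.reflect m) = evE O t P * t⁻¹ ^ m := by
  letI : Invertible t := invertibleOfNonzero ht0
  have h := Polynomial.eval₂_reflect_mul_pow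
    ((HahnSeries.C : E →+* LaurentSeries E).comp O.subtype) t m P hP
  rw [invOf_eq_inv] at h
  show Polynomial.eval₂ _ t⁻¹ (P.reflect m) = Polynomial.eval₂ _ t P * _
  rw [← h, mul_assoc, ← mul_pow, mul_inv_cancel₀ ht0, one_pow, mul_one]

/-- **Pole clearing**: if `w` is integral over `O[t]`, then `t⁻ⁿ w` is integral over `O[t⁻¹]`
for some `n`. -/
theorem exists_pow_mul_isIntegralElem {t : LaurentSeries E} (ht0 : t ≠ 0) {w : LaurentSeries E}
    (hw : (evE O t).IsIntegralElem w) :
    ∃ n : ℕ, (evE O t⁻¹).IsIntegralElem (t⁻¹ ^ n * w) := by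
  classical
  obtain ⟨p, hmonic, hroot⟩ := hw
  set M : ℕ := ∑ i ∈ Finset.range (p.natDegree + 1), (p.coeff i).natDegree with hM
  have hnM : ∀ i ≤ p.natDegree, (p.coeff i).natDegree ≤ M := fun i hi =>
    Finset.single_le_sum (f := fun i => (p.coeff i).natDegree) (fun _ _ => Nat.zero_le _)
      (Finset.mem_range.mpr (Nat.lt_succ_of_le hi))
  set q : Polynomial (LaurentSeries E) := (p.map (evE O t)).scaleRoots (t⁻¹ ^ M) with hq
  have hqmonic : q.Monic := (Polynomial.monic_scaleRoots_iff _).mpr (hmonic.map _)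
  have hqroot : q.eval (t⁻¹ ^ M * w) = 0 := by
    rw [hq, Polynomial.scaleRoots_eval_mul, Polynomial.eval_map, hroot, mul_zero]
  have hqcoeff : ∀ i, q.coeff i ∈ (evE O t⁻¹).rangeS := by
    intro i
    rw [hq, Polynomial.coeff_scaleRoots, Polynomial.coeff_map, hmonic.natDegree_map]
    by_cases hi : i < p.natDegree
    · have hle : (p.coeff i).natDegree ≤ M * (p.natDegree - i) := by
        calc (p.coeff i).natDegree ≤ M := hnM i hi.le
          _ = M * 1 := (mul_one M).symm
          _ ≤ M * (p.natDegree - i) :=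
            Nat.mul_le_mul_left M (Nat.one_le_iff_ne_zero.mpr (by omega))
      refine ⟨(p.coeff i).reflect (M * (p.natDegree - i)), ?_⟩
      rw [evE_reflect ht0 _ _ hle, ← pow_mul]
    · rcases (not_lt.mp hi).lt_or_eq with hlt | heq
      · rw [Polynomial.coeff_eq_zero_of_natDegree_lt hlt, map_zero, zero_mul]
        exact zero_mem _
      · rw [← heq, hmonic.coeff_natDegree, map_one, one_mul, Nat.sub_self, pow_zero]
        exact one_mem _
  have hlifts : q ∈ Polynomial.lifts (evE O t⁻¹) :=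
    (Polynomial.lifts_iff_coeff_lifts q).mpr fun i => hqcoeff i
  obtain ⟨q', hq'q, -, hq'monic⟩ := Polynomial.lifts_and_natDegree_eq_and_monic hlifts hqmonic
  refine ⟨M, q', hq'monic, ?_⟩
  rw [Polynomial.eval₂_eq_eval_map, hq'q, hqroot]

/-- Denominators pass from the chart `O[t]` to the chart `O[t⁻¹]`. -/
theorem HasDenominators.inv {N : ℕ} {t : LaurentSeries E} (ht0 : t ≠ 0)
    (hD : HasDenominators res N t) : HasDenominators res N t⁻¹ := by
  intro x hxF hx
  obtain ⟨s, hs, hint⟩ := hD x hxF hx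
  obtain ⟨n, hn⟩ := exists_pow_mul_isIntegralElem ht0 hint
  refine ⟨Polynomial.X ^ s.natDegree * (Polynomial.X ^ n * s.reflect s.natDegree), ?_, ?_⟩
  · rw [Polynomial.map_mul, Polynomial.map_mul, Polynomial.map_pow, Polynomial.map_pow,
      Polynomial.map_X, ← Polynomial.reflect_map]
    exact mul_ne_zero (pow_ne_zero _ Polynomial.X_ne_zero)
      (mul_ne_zero (pow_ne_zero _ Polynomial.X_ne_zero)
        (Polynomial.reflect_eq_zero_iff.not.mpr hs))
  · have hre : evE O t⁻¹ (Polynomial.X ^ s.natDegree * (Polynomial.X ^ n * s.reflect s.natDegree)) * x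
        = evE O t⁻¹ (Polynomial.X ^ s.natDegree * Polynomial.X ^ s.natDegree) *
          (t⁻¹ ^ n * (evE O t s * x)) := by
      rw [map_mul, map_mul, map_mul, map_pow, map_pow, evE_X, evE_reflect ht0 _ _ le_rfl]
      ring
    rw [hre]
    exact RingHom.IsIntegralElem.mul _ ((evE O t⁻¹).isIntegralElem_map) hn

end Infinity

section KernelInf

variable {E : Type} [Field E] {O : Subring E} [IsDiscreteValuationRing O]
  {κ : Type} [Field κ] {res : O →+* κ} {π : O}

theorem j_inv_mem_gaussRing : (jqModC E)⁻¹ ∈ gaussRing O res := by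
  have h := inv_mem_gaussRing_of_gaussRed_ne_zero
    (⟨jqModC E, j_mem_gaussRing O res⟩ : gaussRing O res)
    (by rw [gaussRed_j]; exact S28.H145.jqModC_ne_zero' κ)
  exact h

/-- **(T4), chart at infinity.** -/
theorem kernel_inf (A : AnalyticInputs) (h : UnifData O res π) (hfrac : IsFrac O)
    (N : ℕ) [NeZero N] (hN : (N : κ) ≠ 0)
    {x : LaurentSeries E} (hxF : x ∈ modularFunctionFieldFullC E N)
    (hint : (evE O (jqModC E)⁻¹).IsIntegralElem x)
    (hx : x ∈ gaussRing O res) (hred : gaussRed O res ⟨x, hx⟩ = 0) :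
    ∃ x' : LaurentSeries E, x' ∈ modularFunctionFieldFullC E N ∧
      (evE O (jqModC E)⁻¹).IsIntegralElem x' ∧ x = piL O π * x' :=
  kernel_chart h N (inv_ne_zero (S28.H145.jqModC_ne_zero' E))
    (S28.H806.jqModC_inv_order_ne_zero E)
    ((hasDenominators_j A h hfrac N hN).inv (S28.H145.jqModC_ne_zero' E)) hxF hint hx hred

end KernelInf

end Fermat.Agent.S18.H208

end

end
-- ===== PACK-END S18/H208/Gauss.lean

-- ===== PACK-BEGIN S18/H208/Fibre.lean
section
/-
S18 / M1 (helper208): the function field of the special fibre.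

* `relfinrank_full`     : `[F_{N,k} : k(j)] = ψ(N)` for every field `k` with `N` invertible.
* `isSeparable_full`    : every element of `F_{N,k}` is separable over `k(j)`.
* `exists_lift`         : (res surjective) every element of `F_κ` is the reduction of an element
                          of `F_E ∩ V`, and is a quotient of reductions of elements integral
                          over `O[j]`.
-/



set_option autoImplicit false
set_option linter.unusedSectionVars false
set_option linter.style.haveILetI false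

noncomputable section

namespace Fermat.Agent.S18.H208

open ModularCurve HahnSeries Polynomial Fermat.Agent.S28 Fermat.Agent.S28.H86

section Degree

/-- **(T5)** `[F_{N,k} : k(j)] = ψ(N)`. -/
theorem relfinrank_full (A : AnalyticInputs) (k : Type) [Field k] (N : ℕ) [NeZero N]
    (hN : (N : k) ≠ 0) :
    (jField k).relfinrank (modularFunctionFieldFullC k N) = dedekindPsi N := by
  have h := (good_of_analytic A k N hN).degE_eq
  rw [S28.H867.gFun_eq_dedekindPsi (NeZero.ne N)] at h
  exact h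

end Degree

section Sep

variable (k : Type) [Field k]

/-- `Φ_p(X, j)` is a separable polynomial over `k((q))` when `p` is invertible in `k`. -/
theorem separable_modPoly {p : ℕ} [NeZero p] (hp : p.Prime) (D : ModPolyData p)
    (hpk : (p : k) ≠ 0) : (D.Φ.map (S28.H208.evZ (jqModC k))).Separable := by
  haveI : NeZero (p : k) := ⟨hpk⟩
  obtain ⟨ζ, hζ⟩ := HasEnoughRootsOfUnity.exists_primitiveRoot (AlgebraicClosure k) p
  have h1 : (D.Φ.map (S28.H208.evZ (qExpand (AlgebraicClosure k) p
      (jqModC (AlgebraicClosure k))))).Separable := by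
    rw [S28.H208.map_eq_prod_rootAt D hp.one_lt ζ hζ]
    exact Polynomial.separable_prod_X_sub_C_iff.mpr (S28.H208.rootAt_injective hp.one_lt ζ hζ)
  have h2 : (D.Φ.map (S28.H208.evZ (jqModC (AlgebraicClosure k)))).Separable := by
    rw [← S28.H208.map_map_evZ (qExpand (AlgebraicClosure k) p) D.Φ
      (jqModC (AlgebraicClosure k))] at h1
    exact (Polynomial.separable_map _).mp h1
  have h3 : (D.Φ.map (S28.H208.evZ (jqModC k))).map
      (coeffMap (algebraMap k (AlgebraicClosure k))) =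
      D.Φ.map (S28.H208.evZ (jqModC (AlgebraicClosure k))) := by
    rw [S28.H208.map_map_evZ, coeffMap_jqModC]
  rw [← h3] at h2
  exact (Polynomial.separable_map _).mp h2

/-- `Φ_p(X, j(q^m))` is separable over `k((q))`. -/
theorem separable_modPoly_qExpand {p : ℕ} [NeZero p] (hp : p.Prime) (D : ModPolyData p)
    (hpk : (p : k) ≠ 0) (m : ℕ) [NeZero m] :
    (D.Φ.map (S28.H208.evZ (qExpand k m (jqModC k)))).Separable := by
  rw [← S28.H208.map_map_evZ (qExpand k m) D.Φ (jqModC k)]
  exact (Polynomial.separable_map _).mpr (separable_modPoly k hp D hpk)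

/-- `j(q^d)` is separable over `k(j)` when `d` is invertible in `k`. -/
theorem jd_mem_separableClosure (A : AnalyticInputs) :
    ∀ (d : ℕ) (hd : d ≠ 0), (∀ p : ℕ, p.Prime → p ∣ d → (p : k) ≠ 0) →
      @qExpand k _ d ⟨hd⟩ (jqModC k) ∈ separableClosure (jField k) (LaurentSeries k) := by
  intro d
  induction d using induction_on_primes with
  | zero => intro hd; exact absurd rfl hd
  | one =>
    intro _ _
    rw [qExpand_one_apply]
    exact (separableClosure (jField k) (LaurentSeries k)).algebraMap_mem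
      (⟨jqModC k, S28.H145.jqModC_mem_jField⟩ : jField k)
  | prime_mul p m hp ih =>
    intro hd hchar
    have hm : m ≠ 0 := fun h => hd (by rw [h, mul_zero])
    haveI : NeZero p := ⟨hp.ne_zero⟩
    haveI : NeZero m := ⟨hm⟩
    haveI : NeZero (m * p) := ⟨Nat.mul_ne_zero hm hp.ne_zero⟩
    haveI : NeZero (p * m) := ⟨hd⟩
    obtain ⟨D⟩ := A.modPoly p hp
    have hjm := ih hm (fun r hr hrm => hchar r hr (hrm.mul_left p))
    have hpk : (p : k) ≠ 0 := hchar p hp (dvd_mul_right p m)
    set Ks := separableClosure (jField k) (LaurentSeries k) with hKs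
    -- the polynomial `Φ_p(X, j_m)` over `Ks`
    set jm : Ks := ⟨qExpand k m (jqModC k), hjm⟩ with hjmdef
    set P : Polynomial Ks := D.Φ.map (S28.H208.evZ jm) with hP
    have hPmap : P.map (algebraMap Ks (LaurentSeries k)) =
        D.Φ.map (S28.H208.evZ (qExpand k m (jqModC k))) := by
      rw [hP, S28.H208.map_map_evZ]
      rfl
    have hPsep : P.Separable := by
      have := separable_modPoly_qExpand k hp D hpk m
      rw [← hPmap] at this
      exact (Polynomial.separable_map _).mp this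
    have hroot : Polynomial.aeval (qExpand k (m * p) (jqModC k)) P = 0 := by
      rw [Polynomial.aeval_def, ← Polynomial.eval_map, hPmap, Polynomial.eval_map]
      exact S28.H208.eval_jp_ring_qExpand k D m
    have hsep : IsSeparable Ks (qExpand k (m * p) (jqModC k)) :=
      hPsep.of_dvd (minpoly.dvd Ks _ hroot)
    have hmem : qExpand k (m * p) (jqModC k) ∈ separableClosure Ks (LaurentSeries k) :=
      mem_separableClosure_iff.mpr hsep
    rw [separableClosure.separableClosure_eq_bot, IntermediateField.mem_bot] at hmem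
    obtain ⟨y, hy⟩ := hmem
    have hfin : qExpand k (m * p) (jqModC k) ∈ Ks := by
      rw [← hy]
      exact y.2
    have hcongr : @qExpand k _ (p * m) ⟨hd⟩ (jqModC k) = qExpand k (m * p) (jqModC k) :=
      qExpand_congr (mul_comm p m) _
    rw [hcongr]
    exact hfin

/-- **(T6)** Every element of `F_{N,k}` is separable over `k(j)` (`N` invertible in `k`). -/
theorem isSeparable_full (A : AnalyticInputs) (N : ℕ) [NeZero N] (hN : (N : k) ≠ 0)
    {x : LaurentSeries k} (hx : x ∈ modularFunctionFieldFullC k N) :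
    IsSeparable (jField k) x := by
  rw [← mem_separableClosure_iff]
  have hle : modularFunctionFieldFullC k N ≤
      (separableClosure (jField k) (LaurentSeries k)).restrictScalars k := by
    rw [modularFunctionFieldFullC, IntermediateField.adjoin_le_iff]
    rintro _ ⟨d, hd, hdN, rfl⟩
    exact jd_mem_separableClosure k A d hd.out
      (fun p _ hpd => natCast_prime_ne_zero_of_dvd hN p (hpd.trans hdN))
  exact hle hx

end Sep

section Lift

variable {E : Type} [Field E] {O : Subring E} {κ : Type} [Field κ] {res : O →+* κ} {π : O}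

theorem isFrac_top (κ : Type) [Field κ] : IsFrac (⊤ : Subring κ) := fun e =>
  ⟨⟨e, Subring.mem_top e⟩, 1, one_ne_zero, by simp⟩

theorem evE_top_eq_aeval (t : LaurentSeries κ) (P : Polynomial (⊤ : Subring κ)) :
    evE (⊤ : Subring κ) t P = Polynomial.aeval t (P.map (⊤ : Subring κ).subtype) := by
  rw [Polynomial.aeval_def, Polynomial.eval₂_map]
  show Polynomial.eval₂ _ t P = _
  congr 1
  ext c : 1
  rw [RingHom.comp_apply, RingHom.comp_apply, algebraMap_laurentSeries_eq_single]
  rfl

theorem gaussRed_evE_j (P : Polynomial O) :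
    gaussRed O res ⟨evE O (jqModC E) P, evE_mem_gaussRing (j_mem_gaussRing O res) P⟩ =
      Polynomial.aeval (jqModC κ) (P.map res) := by
  have : (⟨evE O (jqModC E) P, evE_mem_gaussRing (j_mem_gaussRing O res) P⟩ : gaussRing O res) =
      evV O res ⟨jqModC E, j_mem_gaussRing O res⟩ P :=
    Subtype.ext (coe_evV (⟨jqModC E, j_mem_gaussRing O res⟩ : gaussRing O res) P).symm
  rw [this, gaussRed_evV, gaussRed_j]

/-- **(T3)** Every element of `F_κ` is a quotient of reductions of elements of `F_E` integral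
over `O[j]`. -/
theorem exists_lift (A : AnalyticInputs) (hsurj : Function.Surjective res)
    (N : ℕ) [NeZero N] (hN : (N : κ) ≠ 0)
    {z : LaurentSeries κ} (hz : z ∈ modularFunctionFieldFullC κ N) :
    ∃ (a b : LaurentSeries E) (ha : a ∈ gaussRing O res) (hb : b ∈ gaussRing O res),
      a ∈ modularFunctionFieldFullC E N ∧ b ∈ modularFunctionFieldFullC E N ∧
      (evE O (jqModC E)).IsIntegralElem a ∧ (evE O (jqModC E)).IsIntegralElem b ∧
      gaussRed O res ⟨b, hb⟩ ≠ 0 ∧ z * gaussRed O res ⟨b, hb⟩ = gaussRed O res ⟨a, ha⟩ := by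
  obtain ⟨y, hy, hbasis⟩ := exists_uniform_basis A N
  obtain ⟨hspanκ, -⟩ := hbasis κ hN
  obtain ⟨g', f', hg', hrel'⟩ := exists_cleared_of_mem_span (isFrac_top κ) _ (hspanκ z hz)
  simp only [evE_top_eq_aeval] at hrel'
  obtain ⟨g, hg⟩ := Polynomial.map_surjective res hsurj (g'.map (⊤ : Subring κ).subtype)
  have hf : ∀ i, ∃ P : Polynomial O, P.map res = (f' i).map (⊤ : Subring κ).subtype :=
    fun i => Polynomial.map_surjective res hsurj _
  choose f hf using hf
  have hgne : g.map res ≠ 0 := by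
    rw [hg]
    exact (Polynomial.map_ne_zero_iff Subtype.val_injective).mpr hg'
  have hjE := j_mem_gaussRing O res (E := E)
  have hjF : jqModC E ∈ modularFunctionFieldFullC E N := jqModC_mem_full E N
  -- the numerator
  set a : LaurentSeries E := ∑ i, evE O (jqModC E) (f i) * coeffMap (Int.castRingHom E) (y i)
    with ha_def
  have haV : a ∈ gaussRing O res :=
    sum_mem fun i _ => mul_mem (evE_mem_gaussRing hjE _) (intCast_mem_gaussRing O res _)
  have haF : a ∈ modularFunctionFieldFullC E N :=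
    sum_mem fun i _ => mul_mem (evE_mem_full N hjF _) (coeffMap_intCast_mem_full E N (hy i))
  have haI : (evE O (jqModC E)).IsIntegralElem a := by
    letI : Algebra (Polynomial O) (LaurentSeries E) := (evE O (jqModC E)).toAlgebra
    show IsIntegral (Polynomial O) _
    refine IsIntegral.sum _ fun i _ => ?_
    exact IsIntegral.mul (isIntegral_algebraMap (x := f i)) (isIntegralElem_basis A N (hy i))
  have hared : gaussRed O res ⟨a, haV⟩ =
      ∑ i, Polynomial.aeval (jqModC κ) ((f i).map res) * coeffMap (Int.castRingHom κ) (y i) := by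
    have h1 := gaussRed_relation (res := res) y haV 1 f (by rw [map_one, one_mul])
    rwa [Polynomial.map_one, map_one, one_mul] at h1
  refine ⟨a, evE O (jqModC E) g, haV, evE_mem_gaussRing hjE g, haF, evE_mem_full N hjF g, haI,
    (evE O (jqModC E)).isIntegralElem_map, ?_, ?_⟩
  · rw [gaussRed_evE_j]
    exact aeval_j_ne_zero hgne
  · rw [gaussRed_evE_j, hared, hg, mul_comm, hrel']
    refine Finset.sum_congr rfl fun i _ => ?_
    rw [hf i]

/-- **(T3')** The reduction `F_E ∩ V → F_κ` is surjective. -/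
theorem exists_preimage (A : AnalyticInputs) (hsurj : Function.Surjective res)
    (N : ℕ) [NeZero N] (hN : (N : κ) ≠ 0)
    {z : LaurentSeries κ} (hz : z ∈ modularFunctionFieldFullC κ N) :
    ∃ (x : LaurentSeries E) (hx : x ∈ gaussRing O res),
      x ∈ modularFunctionFieldFullC E N ∧ gaussRed O res ⟨x, hx⟩ = z := by
  obtain ⟨a, b, ha, hb, haF, hbF, -, -, hbne, hrel⟩ :=
    exists_lift (E := E) (O := O) A hsurj N hN hz
  have hbinv := inv_mem_gaussRing_of_gaussRed_ne_zero ⟨b, hb⟩ hbne
  have hb0 : b ≠ 0 := by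
    rintro rfl
    apply hbne
    have : (⟨0, hb⟩ : gaussRing O res) = 0 := rfl
    rw [this, map_zero]
  refine ⟨a * b⁻¹, mul_mem ha hbinv, mul_mem haF (inv_mem hbF), ?_⟩
  have h1 : (⟨a * b⁻¹, mul_mem ha hbinv⟩ : gaussRing O res) * ⟨b, hb⟩ = ⟨a, ha⟩ := by
    apply Subtype.ext
    show a * b⁻¹ * b = a
    rw [mul_assoc, inv_mul_cancel₀ hb0, mul_one]
  have h2 := congrArg (gaussRed O res) h1
  rw [map_mul, ← hrel] at h2
  exact mul_right_cancel₀ hbne h2

end Lift

section DVR

open IsLocalRing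

variable {E : Type} [Field E] (O : Subring E) [IsDiscreteValuationRing O]

/-- A discrete valuation subring with its residue map and a uniformiser is `UnifData`. -/
theorem unifData_residue {ϖ : O} (hϖ : Irreducible ϖ) : UnifData O (residue O) ϖ := by
  have hmax : maximalIdeal O = Ideal.span {ϖ} := hϖ.maximalIdeal_eq
  refine ⟨?_, hϖ.ne_zero, ?_⟩
  · intro x
    rw [residue_eq_zero_iff, hmax, Ideal.mem_span_singleton']
    constructor
    · rintro ⟨y, hy⟩
      exact ⟨y, by rw [← hy, mul_comm]⟩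
    · rintro ⟨y, hy⟩
      exact ⟨y, by rw [hy, mul_comm]⟩
  · intro x hx
    obtain ⟨n, u, hu⟩ := IsDiscreteValuationRing.eq_unit_mul_pow_irreducible hx hϖ
    refine ⟨n, (u : O), by rw [hu, mul_comm], ?_⟩
    intro h0
    rw [residue_eq_zero_iff] at h0
    exact (IsLocalRing.mem_maximalIdeal _).mp h0 u.isUnit

/-- A valuation subring has `E` as fraction field. -/
theorem isFrac_valuationSubring (V : ValuationSubring E) : IsFrac V.toSubring := by
  intro e
  rcases V.mem_or_inv_mem e with he | he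
  · exact ⟨⟨e, he⟩, 1, one_ne_zero, by simp⟩
  · by_cases he0 : e = 0
    · subst he0
      exact ⟨0, 1, one_ne_zero, by simp⟩
    · refine ⟨1, ⟨e⁻¹, he⟩, ?_, ?_⟩
      · intro h0
        have := congrArg Subtype.val h0
        simp at this
        exact he0 this
      · show e * e⁻¹ = 1
        exact mul_inv_cancel₀ he0

end DVR

end Fermat.Agent.S18.H208

end

end
-- ===== PACK-END S18/H208/Fibre.lean

-- ===== PACK-BEGIN S18/H208/M1.lean
section
/-
S18 / M1 (helper208): MOD piece M1 = the S28 outputs over a general discrete valuation ring.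

SETTING.  `E` a field, `O : Subring E` a discrete valuation ring with fraction field `E`
(`IsFrac O`), `res : O →+* κ` a ring homomorphism to a field with kernel the maximal ideal
(NOT necessarily surjective: `κ` may be the residue field of a bigger valuation ring),
`N ≥ 1` invertible in `κ`.  `F_E = modularFunctionFieldFullC E N ⊆ E((q))`,
`F_κ = modularFunctionFieldFullC κ N ⊆ κ((q))`.

`V = gaussRing O res ⊆ E((q))` is the Gauss valuation ring (helper86), with reduction
`gaussRed O res : V →+* κ((q))`.  Integrality over the chart ring `O[t]` (`t = j` or `j⁻¹`) is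
expressed as `(evE O t).IsIntegralElem x`, `evE O t : O[X] →+* E((q))`, `P ↦ P(t)`.

RESULTS (all unconditional):
* `M1.mem_gaussRing_fin / _inf` : elements of `F_E` integral over `O[j]` / `O[j⁻¹]` lie in `V`.
* `M1.gaussRed_mem`             : the reduction of `F_E ∩ V` lies in `F_κ`.
* `M1.qep_fin / qep_inf`        : QEP = kernel of the reduction on the chart is `ϖ · chart`.
* `M1.denominators_fin / _inf`  : `F_E ∩ V` is the localisation of the chart at `(ϖ)`.
* `M1.relfinrank_eq`            : `[F_k : k(j)] = ψ(N)` for `k = E` and `k = κ`.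
* `M1.isSeparable`              : `F_κ / κ(j)` (and `F_E / E(j)`) is separable.
* `M1.exists_lift / exists_preimage` : (res surjective) `Frac(red(chart)) = F_κ`.
-/





set_option autoImplicit false
set_option linter.unusedSectionVars false
set_option linter.style.haveILetI false

noncomputable section

namespace Fermat.Agent.S18.H208

open ModularCurve HahnSeries Polynomial Fermat.Agent.S28 Fermat.Agent.S28.H86 IsLocalRing

/-- The analytic inputs of S28, as proved on main. -/
theorem analyticInputs : AnalyticInputs where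
  modPoly := fun p _ hp => S28.H807.nonempty_modPolyData p hp
  unitPoly := fun p _ hp => S28.H807.nonempty_unitPolyData p hp
  theta := S28.H25.theta_identity

namespace M1

variable {E : Type} [Field E] {O : Subring E} [IsDiscreteValuationRing O]
  {κ : Type} [Field κ] {res : O →+* κ}

/-- `UnifData` from a DVR, a uniformiser and a residue map with kernel the maximal ideal. -/
theorem unifData (hker : ∀ x : O, res x = 0 ↔ x ∈ maximalIdeal O) {ϖ : O}
    (hϖ : Irreducible ϖ) : UnifData O res ϖ := by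
  have h := unifData_residue O hϖ
  refine ⟨fun x => ?_, h.ne_zero, fun x hx => ?_⟩
  · rw [hker, ← residue_eq_zero_iff]
    exact h.ker x
  · obtain ⟨n, y, hy, hres⟩ := h.prim x hx
    refine ⟨n, y, hy, fun h0 => hres ?_⟩
    rw [residue_eq_zero_iff, ← hker]
    exact h0

theorem natCast_ne_zero (res : O →+* κ) {N : ℕ} (hN : (N : κ) ≠ 0) : (N : E) ≠ 0 :=
  natCast_ne_zero_of_res res hN

variable (hker : ∀ x : O, res x = 0 ↔ x ∈ maximalIdeal O) (hfrac : IsFrac O)
  (N : ℕ) [NeZero N] (hN : (N : κ) ≠ 0)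

include hker hfrac in
/-- Elements of `F_E` integral over `O[j]` lie in the Gauss ring. -/
theorem mem_gaussRing_fin {x : LaurentSeries E} (hxF : x ∈ modularFunctionFieldFullC E N)
    (hint : (evE O (jqModC E)).IsIntegralElem x) : x ∈ gaussRing O res := by
  obtain ⟨ϖ, hϖ⟩ := IsDiscreteValuationRing.exists_irreducible O
  exact mem_gaussRing_of_isIntegralElem (unifData hker hϖ) (j_mem_gaussRing O res)
    (full_le_gaussFrac hfrac N hxF) hint

include hker hfrac in
/-- Elements of `F_E` integral over `O[j⁻¹]` lie in the Gauss ring. -/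
theorem mem_gaussRing_inf {x : LaurentSeries E} (hxF : x ∈ modularFunctionFieldFullC E N)
    (hint : (evE O (jqModC E)⁻¹).IsIntegralElem x) : x ∈ gaussRing O res := by
  obtain ⟨ϖ, hϖ⟩ := IsDiscreteValuationRing.exists_irreducible O
  exact mem_gaussRing_of_isIntegralElem (unifData hker hϖ) j_inv_mem_gaussRing
    (full_le_gaussFrac hfrac N hxF) hint

include hker hfrac hN in
/-- The reduction of `F_E ∩ V` lies in `F_κ`. -/
theorem gaussRed_mem {x : LaurentSeries E} (hxF : x ∈ modularFunctionFieldFullC E N)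
    (hx : x ∈ gaussRing O res) : gaussRed O res ⟨x, hx⟩ ∈ modularFunctionFieldFullC κ N := by
  obtain ⟨ϖ, hϖ⟩ := IsDiscreteValuationRing.exists_irreducible O
  exact gaussRed_mem_full analyticInputs (unifData hker hϖ) hfrac N hN hxF hx

include hker hfrac hN in
/-- **QEP, finite chart.** -/
theorem qep_fin {ϖ : O} (hϖ : Irreducible ϖ)
    {x : LaurentSeries E} (hxF : x ∈ modularFunctionFieldFullC E N)
    (hint : (evE O (jqModC E)).IsIntegralElem x)
    (hx : x ∈ gaussRing O res) (hred : gaussRed O res ⟨x, hx⟩ = 0) :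
    ∃ x' : LaurentSeries E, x' ∈ modularFunctionFieldFullC E N ∧
      (evE O (jqModC E)).IsIntegralElem x' ∧ x = HahnSeries.C (ϖ : E) * x' :=
  kernel_fin analyticInputs (unifData hker hϖ) hfrac N hN hxF hint hx hred

include hker hfrac hN in
/-- **QEP, chart at infinity.** -/
theorem qep_inf {ϖ : O} (hϖ : Irreducible ϖ)
    {x : LaurentSeries E} (hxF : x ∈ modularFunctionFieldFullC E N)
    (hint : (evE O (jqModC E)⁻¹).IsIntegralElem x)
    (hx : x ∈ gaussRing O res) (hred : gaussRed O res ⟨x, hx⟩ = 0) :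
    ∃ x' : LaurentSeries E, x' ∈ modularFunctionFieldFullC E N ∧
      (evE O (jqModC E)⁻¹).IsIntegralElem x' ∧ x = HahnSeries.C (ϖ : E) * x' :=
  kernel_inf analyticInputs (unifData hker hϖ) hfrac N hN hxF hint hx hred

include hker hfrac hN in
/-- **Denominators, finite chart**: `F_E ∩ V` is the localisation of the chart at `(ϖ)`. -/
theorem denominators_fin {x : LaurentSeries E} (hxF : x ∈ modularFunctionFieldFullC E N)
    (hx : x ∈ gaussRing O res) :
    ∃ s : Polynomial O, s.map res ≠ 0 ∧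
      (evE O (jqModC E)).IsIntegralElem (evE O (jqModC E) s * x) := by
  obtain ⟨ϖ, hϖ⟩ := IsDiscreteValuationRing.exists_irreducible O
  exact hasDenominators_j analyticInputs (unifData hker hϖ) hfrac N hN x hxF hx

include hker hfrac hN in
/-- **Denominators, chart at infinity.** -/
theorem denominators_inf {x : LaurentSeries E} (hxF : x ∈ modularFunctionFieldFullC E N)
    (hx : x ∈ gaussRing O res) :
    ∃ s : Polynomial O, s.map res ≠ 0 ∧
      (evE O (jqModC E)⁻¹).IsIntegralElem (evE O (jqModC E)⁻¹ s * x) := by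
  obtain ⟨ϖ, hϖ⟩ := IsDiscreteValuationRing.exists_irreducible O
  exact (hasDenominators_j analyticInputs (unifData hker hϖ) hfrac N hN).inv
    (S28.H145.jqModC_ne_zero' E) x hxF hx

/-- `[F_k : k(j)] = ψ(N)` for every field `k` in which `N` is invertible. -/
theorem relfinrank_eq (k : Type) [Field k] (N : ℕ) [NeZero N] (hN : (N : k) ≠ 0) :
    (jField k).relfinrank (modularFunctionFieldFullC k N) = dedekindPsi N :=
  relfinrank_full analyticInputs k N hN

/-- `F_k / k(j)` is separable for every field `k` in which `N` is invertible. -/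
theorem isSeparable (k : Type) [Field k] (N : ℕ) [NeZero N] (hN : (N : k) ≠ 0)
    {x : LaurentSeries k} (hx : x ∈ modularFunctionFieldFullC k N) :
    IsSeparable (jField k) x :=
  isSeparable_full k analyticInputs N hN hx

/-- The uniform integral basis. -/
theorem exists_basis (N : ℕ) [NeZero N] :
    ∃ y : Fin (dedekindPsi N) → LaurentSeries ℤ,
      (∀ i, y i ∈ Subring.closure (intDivisorExpansions N)) ∧
      ∀ (k : Type) [Field k], (N : k) ≠ 0 →
        (∀ x ∈ modularFunctionFieldFullC k N,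
          x ∈ Submodule.span (jField k)
            (Set.range fun i => coeffMap (Int.castRingHom k) (y i))) ∧
        LinearIndependent (jField k) (fun i => coeffMap (Int.castRingHom k) (y i)) :=
  exists_uniform_basis analyticInputs N

include hN in
/-- Every element of `F_κ` is a quotient of reductions of chart elements (`res` onto). -/
theorem exists_lift' (hsurj : Function.Surjective res)
    {z : LaurentSeries κ} (hz : z ∈ modularFunctionFieldFullC κ N) :
    ∃ (a b : LaurentSeries E) (ha : a ∈ gaussRing O res) (hb : b ∈ gaussRing O res),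
      a ∈ modularFunctionFieldFullC E N ∧ b ∈ modularFunctionFieldFullC E N ∧
      (evE O (jqModC E)).IsIntegralElem a ∧ (evE O (jqModC E)).IsIntegralElem b ∧
      gaussRed O res ⟨b, hb⟩ ≠ 0 ∧ z * gaussRed O res ⟨b, hb⟩ = gaussRed O res ⟨a, ha⟩ :=
  exists_lift analyticInputs hsurj N hN hz

include hN in
/-- The reduction `F_E ∩ V → F_κ` is surjective (`res` onto). -/
theorem exists_preimage' (hsurj : Function.Surjective res)
    {z : LaurentSeries κ} (hz : z ∈ modularFunctionFieldFullC κ N) :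
    ∃ (x : LaurentSeries E) (hx : x ∈ gaussRing O res),
      x ∈ modularFunctionFieldFullC E N ∧ gaussRed O res ⟨x, hx⟩ = z :=
  exists_preimage analyticInputs hsurj N hN hz

end M1

end Fermat.Agent.S18.H208

end

end
-- ===== PACK-END S18/H208/M1.lean

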