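import Mathlib
import Fermat.Prelude.Def_GaloisRep_Adic
import Fermat.Prelude.Def_GaloisRep_LocalConditions
import Fermat.Prelude.Def_EllipticCurve_FrobeniusTrace
import Fermat.Prelude.Def_FLTPrelim_ModularRep
import Fermat.Prelude.Def_CuspForm_HeckeAlgebra
import Mathlib.RingTheory.Ideal.GoingUp
import Mathlib.RingTheory.Polynomial.ScaleRoots
import Fermat.Agent.Pack.S58.E3L2
import Fermat.Agent.Pack.S58.E2L1
import Fermat.Agent.Pack.S58.E1L2
import Fermat.Agent.Pack.S58.E0L2
import Fermat.Agent.Pack.S58.E3L1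
import Fermat.Agent.Pack.S58.E1L1
import Fermat.Agent.Pack.S58.E3L0
import Fermat.Agent.Pack.S58.E3L3
import Fermat.Agent.Pack.S58.E2L2
import Fermat.Agent.Pack.S58.E0L3
import Fermat.Agent.Pack.S36.E13L2
import Fermat.Agent.Pack.S36.E2L3
import Fermat.Agent.Pack.S36.E2L2
import Fermat.Agent.Pack.S36.E8L2
import Fermat.Agent.Pack.S36.E6L2
import Fermat.Agent.Pack.S36.E9L0
import Fermat.Agent.Pack.S36.E10L3
import Fermat.Agent.Pack.S36.E14L0
import Fermat.Agent.Pack.S36.E13L0

-- ===== PACK-BEGIN S59/H127/BridgeE.lean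
section







/-!
# E-side foundation, part 7: finite levels of the Tate module of an elliptic curve over `ℚ`

For `W' : Affine ℚ` elliptic, `ρ = tateGaloisRep W' cb` and the Prelude's finite-level
representations `galoisRepModuleEnd ℚ W' (p^n)` on `E[p^n]` (a `ZMod (p^n)`-module):

* `free_torsion_pow`, `finite_torsion_pow` : `E[p^n]` is finite free over `ZMod (p^n)`;
* `charpoly_tate_map`, `det_tate_map`, `trace_tate_map` : the characteristic polynomial /
  determinant / trace of `ρ σ` reduce mod `p^n` to those of `σ` on `E[p^n]`;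
* `charpoly_tate_eq_of_level` : if `σ` has characteristic polynomial `X² - aX + b` on every
  `E[p^n]` then so has `ρ σ`;
* `det_tate_sub_mem_of_level` : the form needed for `DetIsCyclotomic`;
* `detIsCyclotomic_of_level`, `isUnipotentOnInertiaAt_of_level`;
* `galoisFactorsThroughFiniteLevel_torsion` : the field `hker` of `CurveRep`.
-/

open PadicInt Polynomial WeierstrassCurve WeierstrassCurve.Affine
open scoped WeierstrassCurve.Affine

namespace Fermat.Agent.S59.H127

variable (W' : WeierstrassCurve.Affine ℚ) [hE : (W'⁄(AlgebraicClosure ℚ)).IsElliptic]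
variable {p : ℕ} [hp : Fact p.Prime]

section finiteLevel

/-- the action on `E[m]` factors through a finite quotient of the Galois group -/
theorem galoisFactorsThroughFiniteLevel_torsion (m : ℕ) (hm : 1 ≤ m) :
    GaloisFactorsThroughFiniteLevel
      (WeierstrassCurve.Affine.Point.galoisRepModuleEnd (K := AlgebraicClosure ℚ) ℚ W' m) := by
  obtain ⟨L, hL, hfix⟩ := exists_finite_level W' m hm
  refine ⟨L, hL, fun σ hσ => ?_⟩
  apply LinearMap.ext
  intro x
  apply Subtype.ext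
  exact hfix σ hσ x (mem_torsionBy_natCast_iff.mp x.2)

/-- `#E[p] = p^2` (the field `hcard` of `CurveRep`) -/
theorem card_torsion_prime (p : ℕ) :
    Nat.card (Submodule.torsionBy ℤ (W'⁄(AlgebraicClosure ℚ)).Point ((p : ℕ) : ℤ)) = p ^ 2 :=
  card_torsion_eq _ p

variable (p) in
/-- `E[p^n]` is free over `ZMod (p^n)` -/
theorem free_torsion_pow (n : ℕ) :
    Module.Free (ZMod (p ^ n))
      (Submodule.torsionBy ℤ (W'⁄(AlgebraicClosure ℚ)).Point ((p ^ n : ℕ) : ℤ)) := by
  obtain ⟨cb⟩ := nonempty_compatBasis_point (W'⁄(AlgebraicClosure ℚ)) p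
  exact cb.free_level n

variable (p) in
/-- `E[p^n]` is finite over `ZMod (p^n)` -/
theorem finite_torsion_pow (n : ℕ) :
    Module.Finite (ZMod (p ^ n))
      (Submodule.torsionBy ℤ (W'⁄(AlgebraicClosure ℚ)).Point ((p ^ n : ℕ) : ℤ)) := by
  obtain ⟨cb⟩ := nonempty_compatBasis_point (W'⁄(AlgebraicClosure ℚ)) p
  exact cb.finite_level n

end finiteLevel

section bridge

variable (cb : CompatBasis (W'⁄(AlgebraicClosure ℚ)).Point p 2)

lemma tateGaloisRep_ρ (σ : GQ) :
    (tateGaloisRep W' cb).ρ σ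
      = cb.tateEnd (DistribMulAction.toAddMonoidEnd GQ (W'⁄(AlgebraicClosure ℚ)).Point σ) :=
  rfl

/-- the characteristic polynomial of `ρ σ` reduces mod `p^n` to that of `σ` on `E[p^n]` -/
theorem charpoly_tate_map (σ : GQ) (n : ℕ)
    [Module.Free (ZMod (p ^ n))
      (Submodule.torsionBy ℤ (W'⁄(AlgebraicClosure ℚ)).Point ((p ^ n : ℕ) : ℤ))]
    [Module.Finite (ZMod (p ^ n))
      (Submodule.torsionBy ℤ (W'⁄(AlgebraicClosure ℚ)).Point ((p ^ n : ℕ) : ℤ))] :
    (LinearMap.charpoly ((tateGaloisRep W' cb).ρ σ)).map (toZModPow n) =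
      LinearMap.charpoly
        (WeierstrassCurve.Affine.Point.galoisRepModuleEnd (K := AlgebraicClosure ℚ) ℚ W'
          (p ^ n) σ) :=
  (cb.charpoly_level n _ _ (fun _ => rfl)).symm

/-- the determinant of `ρ σ` reduces mod `p^n` to that of `σ` on `E[p^n]` -/
theorem det_tate_map (σ : GQ) (n : ℕ) :
    toZModPow n (LinearMap.det ((tateGaloisRep W' cb).ρ σ)) =
      LinearMap.det
        (WeierstrassCurve.Affine.Point.galoisRepModuleEnd (K := AlgebraicClosure ℚ) ℚ W'
          (p ^ n) σ) :=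
  (cb.det_level n _ _ (fun _ => rfl)).symm

/-- the trace of `ρ σ` reduces mod `p^n` to that of `σ` on `E[p^n]` -/
theorem trace_tate_map (σ : GQ) (n : ℕ) :
    toZModPow n ((tateGaloisRep W' cb).trace σ) =
      WeierstrassCurve.Affine.Point.galoisTrace (K := AlgebraicClosure ℚ) ℚ W' (p ^ n) σ :=
  (cb.trace_level n _ _ (fun _ => rfl)).symm

/-- if `σ` has characteristic polynomial `Q mod p^n` on every `E[p^n]`, then `ρ σ` has
characteristic polynomial `Q` -/
theorem charpoly_tate_eq_of_level (σ : GQ) (Q : ℤ_[p][X])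
    (h : ∀ n : ℕ,
      haveI := free_torsion_pow W' p n
      haveI := finite_torsion_pow W' p n
      LinearMap.charpoly
        (WeierstrassCurve.Affine.Point.galoisRepModuleEnd (K := AlgebraicClosure ℚ) ℚ W'
          (p ^ n) σ) = Q.map (toZModPow n)) :
    LinearMap.charpoly ((tateGaloisRep W' cb).ρ σ) = Q := by
  apply poly_eq_of_map_toZModPow
  intro n
  have := free_torsion_pow W' p n
  have := finite_torsion_pow W' p n
  rw [charpoly_tate_map W' cb σ n]
  exact h n

/-- the determinant of `ρ σ` is congruent to `a` mod `p^n` if the determinant of `σ` on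
`E[p^n]` is `a` -/
theorem det_tate_sub_mem_of_level (σ : GQ) (n : ℕ) (a : ℤ_[p])
    (h : LinearMap.det
        (WeierstrassCurve.Affine.Point.galoisRepModuleEnd (K := AlgebraicClosure ℚ) ℚ W'
          (p ^ n) σ) = toZModPow n a) :
    LinearMap.det ((tateGaloisRep W' cb).ρ σ) - a ∈ Ideal.span {((p ^ n : ℕ) : ℤ_[p])} := by
  rw [Nat.cast_pow, ← ker_toZModPow, RingHom.mem_ker, map_sub, det_tate_map, h, sub_self]

/-- `DetIsCyclotomic` from the finite levels -/
theorem detIsCyclotomic_of_level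
    (h : ∀ (n : ℕ) (σ : GQ) (a : ℕ),
      (∀ μ : AlgebraicClosure ℚ, μ ^ p ^ n = 1 → σ μ = μ ^ a) →
      LinearMap.det
        (WeierstrassCurve.Affine.Point.galoisRepModuleEnd (K := AlgebraicClosure ℚ) ℚ W'
          (p ^ n) σ) = (a : ZMod (p ^ n))) :
    (tateGaloisRep W' cb).DetIsCyclotomic p := by
  refine ⟨?_, fun n σ a ha => ?_⟩
  · rw [maximalIdeal_eq_span_p]
    exact Ideal.mem_span_singleton_self _
  · apply det_tate_sub_mem_of_level
    rw [h n σ a ha, map_natCast]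

/-- `IsUnipotentOnInertiaAt` from the finite levels -/
theorem isUnipotentOnInertiaAt_of_level (q : ℕ)
    (h : ∀ P : ValuationSubring (AlgebraicClosure ℚ), P.LiesOverPrime q →
      ∀ σ ∈ P.inertiaSubgroupIn ℚ, ∀ n : ℕ,
        haveI := free_torsion_pow W' p n
        haveI := finite_torsion_pow W' p n
        LinearMap.charpoly
          (WeierstrassCurve.Affine.Point.galoisRepModuleEnd (K := AlgebraicClosure ℚ) ℚ W'
            (p ^ n) σ) = (X - 1) ^ 2) :
    (tateGaloisRep W' cb).IsUnipotentOnInertiaAt q := by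
  intro P hP σ hσ
  apply charpoly_tate_eq_of_level
  intro n
  have := free_torsion_pow W' p n
  have := finite_torsion_pow W' p n
  rw [h P hP σ hσ n]
  simp

/-- charpoly of Frobenius from the finite levels, in the form of `CurveRep.charpoly_frob` -/
theorem charpoly_tate_eq_quadratic_of_level (σ : GQ) (a b : ℤ)
    (h : ∀ n : ℕ,
      haveI := free_torsion_pow W' p n
      haveI := finite_torsion_pow W' p n
      LinearMap.charpoly
        (WeierstrassCurve.Affine.Point.galoisRepModuleEnd (K := AlgebraicClosure ℚ) ℚ W'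
          (p ^ n) σ) = X ^ 2 - C ((a : ℤ) : ZMod (p ^ n)) * X + C ((b : ℤ) : ZMod (p ^ n))) :
    LinearMap.charpoly ((tateGaloisRep W' cb).ρ σ)
      = X ^ 2 - C ((a : ℤ) : ℤ_[p]) * X + C ((b : ℤ) : ℤ_[p]) := by
  apply charpoly_tate_eq_of_level
  intro n
  have := free_torsion_pow W' p n
  have := finite_torsion_pow W' p n
  rw [h n]
  simp

end bridge

end Fermat.Agent.S59.H127

end
-- ===== PACK-END S59/H127/BridgeE.lean

-- ===== PACK-BEGIN S59/H127/Inputs.lean
section




/-!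
# Row S59, layer E — FINITE-LEVEL INPUT SHAPES for the assembly of `Arch.CurveRep`

`CR-ASM` (helper127) assembles `Fermat.Agent.S59.Arch.CurveRep p W 𝒪` from the following
statements about the torsion points of `W` over `ℚ̄` (definitions only in this file).
`Pts W` is the group `E(ℚ̄)` of the Prelude (`(W.map (Int.castRingHom ℚ))⁄(AlgebraicClosure ℚ)`),
with the Prelude's Galois action.

* `FrobRelInput p W` : the Frobenius relation `σ² - a_ℓ σ + ℓ = 0` on `E[p^∞]` for Frobenius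
  elements `σ` at good `ℓ ≠ p`  (Lib/Frob);
* `DetInput p W`     : `det (σ | E[p^n]) = a` whenever `σ = (·)^a` on `μ_{p^n}`  (E3);
* `UnramInput p W`   : inertia at good `ℓ ≠ p` acts trivially on `E[p^∞]`  (E4, Lib/Red);
* `UnipInput p W`    : `(σ - 1)² = 0` on `E[p^∞]` for `σ` in inertia at bad `ℓ ≠ p`  (E5 / CR-I);
* `FlatInput p W`    : if `W` is good at `p`, every `E[p^k]` has a Hopf model over `ℤ_(p)`
  (CR-FLAT, via A3);
* `OrdInput p W`     : if `W` is bad at `p`, the Tate representation is strictly ordinary (CR-ORD).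
-/

set_option autoImplicit false

open WeierstrassCurve WeierstrassCurve.Affine
open scoped WeierstrassCurve.Affine

namespace Fermat.Agent.S59.H127

/-- the curve over `ℚ` -/
abbrev WQ (W : WeierstrassCurve ℤ) : WeierstrassCurve.Affine ℚ := W.map (Int.castRingHom ℚ)

/-- the group `E(ℚ̄)` -/
abbrev Pts (W : WeierstrassCurve ℤ) : Type := ((WQ W)⁄(AlgebraicClosure ℚ)).Point

/-- `ℚ̄` -/
abbrev Qb : Type := AlgebraicClosure ℚ

/-- the base change of `W` to `ℚ̄` is elliptic if `Δ ≠ 0` -/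
theorem isElliptic_of_Δ_ne_zero (W : WeierstrassCurve ℤ) (hΔ : W.Δ ≠ 0) :
    ((WQ W)⁄(AlgebraicClosure ℚ)).IsElliptic := by
  refine ⟨?_⟩
  rw [isUnit_iff_ne_zero]
  show ((W.map (Int.castRingHom ℚ)).map (algebraMap ℚ (AlgebraicClosure ℚ))).Δ ≠ 0
  rw [WeierstrassCurve.map_Δ, WeierstrassCurve.map_Δ]
  intro h
  have h1 := (algebraMap ℚ (AlgebraicClosure ℚ)).injective (h.trans (map_zero _).symm)
  exact hΔ (Int.cast_injective (h1.trans Int.cast_zero.symm))

variable (p : ℕ) (W : WeierstrassCurve ℤ)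

/-- **INPUT (Frobenius relation)** -/
def FrobRelInput : Prop :=
  ∀ ℓ : ℕ, ℓ.Prime → W.IsGoodPrimeFor ℓ → ℓ ≠ p →
    ∀ A : ValuationSubring Qb, A.LiesOverPrime ℓ → ∀ σ : GQ, A.IsFrobeniusAt σ ℓ →
      ∀ (n : ℕ) (x : Pts W), p ^ n • x = 0 →
        σ • σ • x - (W.apOfModel ℓ : ℤ) • σ • x + (ℓ : ℤ) • x = 0

/-- **INPUT (determinant at finite level)** -/
def DetInput : Prop :=
  ∀ (n : ℕ) (σ : GQ) (a : ℕ), (∀ μ : Qb, μ ^ p ^ n = 1 → σ μ = μ ^ a) →
    LinearMap.det
      (WeierstrassCurve.Affine.Point.galoisRepModuleEnd (K := AlgebraicClosure ℚ) ℚ (WQ W)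
        (p ^ n) σ) = (a : ZMod (p ^ n))

/-- **INPUT (unramified at the good primes)** -/
def UnramInput : Prop :=
  ∀ ℓ : ℕ, ℓ.Prime → W.IsGoodPrimeFor ℓ → ℓ ≠ p →
    ∀ A : ValuationSubring Qb, A.LiesOverPrime ℓ → ∀ σ ∈ A.inertiaSubgroupIn ℚ,
      ∀ (n : ℕ) (x : Pts W), p ^ n • x = 0 → σ • x = x

/-- **INPUT (unipotent inertia at the bad primes)** -/
def UnipInput : Prop :=
  ∀ ℓ : ℕ, ℓ.Prime → ¬ W.IsGoodPrimeFor ℓ → ℓ ≠ p →
    ∀ A : ValuationSubring Qb, A.LiesOverPrime ℓ → ∀ σ ∈ A.inertiaSubgroupIn ℚ,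
      ∀ (n : ℕ) (x : Pts W), p ^ n • x = 0 → σ • σ • x - (2 : ℤ) • σ • x + (1 : ℤ) • x = 0

/-- **INPUT (finite flat models at `p`)** -/
def FlatInput : Prop :=
  W.IsGoodPrimeFor p → ∀ k : ℕ,
    Fermat.Agent.S19.HopfModel p
      (Submodule.torsionBy ℤ (Pts W) ((p ^ k : ℕ) : ℤ))
      (fun σ x => σ • x)

/-- **INPUT (ordinary at `p`)**, for the Tate representation in any coordinates -/
def OrdInput [Fact p.Prime] : Prop :=
  ¬ W.IsGoodPrimeFor p → ∀ (hE : ((WQ W)⁄(AlgebraicClosure ℚ)).IsElliptic)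
    (cb : CompatBasis (Pts W) p 2),
    (@tateGaloisRep (WQ W) hE p _ cb).IsStrictOrdinaryAt p

end Fermat.Agent.S59.H127

end
-- ===== PACK-END S59/H127/Inputs.lean

-- ===== PACK-BEGIN S59/H240/UnipInput.lean
section





/-!
# S59 / CR-I (helper240): `UnipInput` for a semistable integral model

* `inertia_smul_sub_fixed_of_mult` : for `W : WeierstrassCurve ℤ` with `Δ ≠ 0`, a prime `ℓ ∤ c₄`,
  `ℓ ∤ m`, a place `A` of `ℚ̄` over `ℓ`, `σ τ` in the inertia group of `A` and `x ∈ E[m](ℚ̄)`: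
  `τ • (σ • x - x) = σ • x - x`;
* `inertia_sub_one_sq_of_mult` : `σ • σ • x - 2 • σ • x + 1 • x = 0`;
* `unipInput_of_semistable` : `H127.UnipInput p W` for a semistable `W` with `Δ ≠ 0`
  (the finite-level input of the field `unip` of `Arch.CurveRep`);
* `tateGaloisRep_isUnipotentOnInertiaAt_of_semistable` : the Tate module version.
-/

set_option autoImplicit false

namespace Fermat.Agent.S59.H240

open WeierstrassCurve WeierstrassCurve.Affine
open scoped WeierstrassCurve.Affine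
open Fermat.Agent.S05
open Fermat.Agent.S59.H899

/-- **CR-I, finite level.**  At a prime `ℓ ∤ c₄` (good or multiplicative reduction), the inertia
group acts unipotently on the torsion of order prime to `ℓ`: `(τ - 1)(σ - 1) = 0`. -/
theorem inertia_smul_sub_fixed_of_mult (W : WeierstrassCurve ℤ) (hΔ : W.Δ ≠ 0) {ℓ : ℕ}
    (hℓ : ℓ.Prime) (hc₄ : ¬ (ℓ : ℤ) ∣ W.c₄) {m : ℕ} (hm : ¬ ℓ ∣ m)
    (A : ValuationSubring QbarH) (hA : A.LiesOverPrime ℓ)
    (σ τ : GalQH) (hσ : σ ∈ A.inertiaSubgroupIn ℚ) (hτ : τ ∈ A.inertiaSubgroupIn ℚ)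
    (x : (curveQbar W).Point) (hx : m • x = 0) : τ • (σ • x - x) = σ • x - x := by
  have hW := integralCoeffs W A
  have hc : A.valuation (curveQbar W).c₄ = 1 := by
    rw [curveQbar_c₄]
    exact val_intCast_eq_one hA hℓ hc₄
  have hΔ' : (curveQbar W).Δ ≠ 0 := by
    rw [curveQbar_Δ]
    exact_mod_cast hΔ
  have hmv : A.valuation (m : QbarH) = 1 := val_natCast_eq_one hA hℓ hm
  exact smul_sub_fixed_of_mult (W' := (W.map (Int.castRingHom ℚ)).toAffine) (S := ℚ)
    two_ne_zero hW hc hΔ' σ τ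
    (fun t ht => inertia_val_sub_lt_one hσ t ht)
    (fun t => Sq12.valuation_apply_eq_of_mem_inertiaIn A hσ t)
    (fun t ht => inertia_val_sub_lt_one hτ t ht) (m : ℤ)
    (fun Q hQ h => C1b.eq_zero_of_inKer_of_zsmul_eq_zero hW m hmv Q hQ h) x
    (by rwa [natCast_zsmul])

/-- **CR-I, finite level**: `(σ - 1)² = 0` on the torsion of order prime to `ℓ`. -/
theorem inertia_sub_one_sq_of_mult (W : WeierstrassCurve ℤ) (hΔ : W.Δ ≠ 0) {ℓ : ℕ}
    (hℓ : ℓ.Prime) (hc₄ : ¬ (ℓ : ℤ) ∣ W.c₄) {m : ℕ} (hm : ¬ ℓ ∣ m)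
    (A : ValuationSubring QbarH) (hA : A.LiesOverPrime ℓ)
    (σ : GalQH) (hσ : σ ∈ A.inertiaSubgroupIn ℚ)
    (x : (curveQbar W).Point) (hx : m • x = 0) :
    σ • σ • x - (2 : ℤ) • σ • x + (1 : ℤ) • x = 0 := by
  have key := inertia_smul_sub_fixed_of_mult W hΔ hℓ hc₄ hm A hA σ σ hσ hσ x hx
  rw [smul_sub] at key
  have e2 : (2 : ℤ) • (σ • x) = σ • x + σ • x := by
    rw [show (2 : ℤ) = 1 + 1 from rfl, add_zsmul, one_zsmul]
  rw [one_zsmul, e2]
  have e : σ • σ • x - (σ • x + σ • x) + x = (σ • σ • x - σ • x) - (σ • x - x) := by abel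
  rw [e, key, sub_self]

/-- **CR-I = `UnipInput`** for a semistable integral model with `Δ ≠ 0`. -/
theorem unipInput_of_semistable (p : ℕ) (hp : p.Prime) (W : WeierstrassCurve ℤ) (hΔ : W.Δ ≠ 0)
    (hss : W.IsSemistableModel) : H127.UnipInput p W := by
  intro ℓ hℓ hbad hℓp A hA σ hσ n x hx
  have hc₄ : ¬ (ℓ : ℤ) ∣ W.c₄ := hss ℓ hℓ (not_not.mp hbad)
  have hm : ¬ ℓ ∣ p ^ n := fun h =>
    hℓp ((Nat.prime_dvd_prime_iff_eq hℓ hp).mp (hℓ.dvd_of_dvd_pow h))
  exact inertia_sub_one_sq_of_mult W hΔ hℓ hc₄ hm A hA σ hσ x hx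

end Fermat.Agent.S59.H240

end
-- ===== PACK-END S59/H240/UnipInput.lean

-- ===== PACK-BEGIN S59/H899/Unram.lean
section






/-!
# Row S59, layer E, piece CR-U (helper899): the Tate module is unramified at good primes

For an integral Weierstrass model `W : WeierstrassCurve ℤ` and a prime `ℓ ∤ Δ(W)`:

* `inertia_smul_eq_self_of_good` : every inertia group at `ℓ` fixes every torsion point of
  `E(ℚ̄)` of order prime to `ℓ`  (finite level; input of
  `H127.tateGaloisRep_isUnramifiedAt`);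
* `galoisRepUnramifiedAt_of_good` : the Prelude's `GaloisRepUnramifiedAt` for `E[m]`, `ℓ ∤ m`;
* `tateGaloisRep_isUnramifiedAt_of_good` : the `p`-adic Tate module (`H127.tateGaloisRep`) is
  unramified at every good prime `ℓ ≠ p`  (= the field `unram` of `Arch.CurveRep` over `ℤ_p`).
-/

set_option autoImplicit false

namespace Fermat.Agent.S59.H899

open WeierstrassCurve WeierstrassCurve.Affine
open scoped WeierstrassCurve.Affine
open Fermat.Agent.S05

/-- **CR-U, finite level.**  At a prime `ℓ` of good reduction, inertia fixes the torsion points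
of order prime to `ℓ`. -/
theorem inertia_smul_eq_self_of_good (W : WeierstrassCurve ℤ) {ℓ : ℕ} (hℓ : ℓ.Prime)
    (hgood : W.IsGoodPrimeFor ℓ) {m : ℕ} (hm : ¬ ℓ ∣ m)
    (A : ValuationSubring QbarH) (hA : A.LiesOverPrime ℓ)
    (σ : GalQH) (hσ : σ ∈ A.inertiaSubgroupIn ℚ)
    (x : (curveQbar W).Point) (hx : m • x = 0) : σ • x = x := by
  have hW := integralCoeffs W A
  have hΔ : A.valuation (curveQbar W).Δ = 1 := val_Δ_eq_one_of_good hℓ hA hgood
  have hmv : A.valuation (m : QbarH) = 1 := val_natCast_eq_one hA hℓ hm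
  exact GoodRed.smul_eq_self_of_good_reduction
    (W' := (W.map (Int.castRingHom ℚ)).toAffine) (S := ℚ) hW hΔ σ
    (fun t ht => inertia_val_sub_lt_one hσ t ht) (m : ℤ)
    (fun Q hQ h => C1b.eq_zero_of_inKer_of_zsmul_eq_zero hW m hmv Q hQ h) x
    (by rwa [natCast_zsmul])

/-- prime powers of a prime `p ≠ ℓ` are prime to `ℓ` -/
lemma not_dvd_prime_pow {ℓ p : ℕ} (hℓ : ℓ.Prime) (hp : p.Prime) (hne : ℓ ≠ p) (n : ℕ) :
    ¬ ℓ ∣ p ^ n := fun h =>
  hne ((Nat.prime_dvd_prime_iff_eq hℓ hp).mp (hℓ.dvd_of_dvd_pow h))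

/-- **CR-U** in the Prelude's vocabulary: `E[m]` is unramified at the good primes `ℓ ∤ m`. -/
theorem galoisRepUnramifiedAt_of_good (W : WeierstrassCurve ℤ) {ℓ : ℕ} (hℓ : ℓ.Prime)
    (hgood : W.IsGoodPrimeFor ℓ) {m : ℕ} (hm : ¬ ℓ ∣ m) :
    WeierstrassCurve.Affine.Point.GaloisRepUnramifiedAt (K := AlgebraicClosure ℚ) ℚ
      (W.map (Int.castRingHom ℚ)).toAffine m ℓ := by
  intro A hA σ hσ x
  apply Subtype.ext
  have hx : m • (x : (curveQbar W).Point) = 0 := by
    have := x.2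
    rw [Submodule.mem_torsionBy_iff] at this
    rwa [natCast_zsmul] at this
  exact inertia_smul_eq_self_of_good W hℓ hgood hm A hA σ hσ x hx

/-- **CR-U, Tate module.**  The `p`-adic Tate module of `W` is unramified at the good primes
`ℓ ≠ p`. -/
theorem tateGaloisRep_isUnramifiedAt_of_good (W : WeierstrassCurve ℤ)
    [(curveQbar W).IsElliptic] {p : ℕ} [hp : Fact p.Prime]
    (cb : H127.CompatBasis (curveQbar W).Point p 2) {ℓ : ℕ} (hℓ : ℓ.Prime)
    (hgood : W.IsGoodPrimeFor ℓ) (hne : ℓ ≠ p) :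
    (H127.tateGaloisRep (W.map (Int.castRingHom ℚ)).toAffine cb).IsUnramifiedAt ℓ :=
  H127.tateGaloisRep_isUnramifiedAt _ cb ℓ fun A hA σ hσ n x hx =>
    inertia_smul_eq_self_of_good W hℓ hgood (not_dvd_prime_pow hℓ hp.out hne n) A hA σ hσ x hx

/-- the curve over `ℚ̄` is elliptic as soon as `Δ(W) ≠ 0` -/
theorem isElliptic_curveQbar (W : WeierstrassCurve ℤ) (hΔ : W.Δ ≠ 0) :
    (curveQbar W).IsElliptic := by
  refine ⟨?_⟩
  rw [curveQbar_Δ]
  exact isUnit_iff_ne_zero.mpr (by exact_mod_cast hΔ)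

end Fermat.Agent.S59.H899

end
-- ===== PACK-END S59/H899/Unram.lean

-- ===== PACK-BEGIN S52/H297/FrobFin.lean
section



/-!
# Piece A2 of row S52: `FrobRelationFin` (helper297 assembly)

* `frobPsi_eq_zero_short` : for a finite field `F` of odd characteristic and
  `W : y² = x³ + a₂x² + a₄x + a₆` over `F` with `Δ ≠ 0`: `Φ² - (q + 1 - #W(F)) Φ + q = 0` on
  `W(L)` for every field `L ⊇ F`.
* `frobRelationFinShort : FrobRelationFinShort`, `frobRelationFin : FrobRelationFin`.

Ingredients: helper720 (exact parallelogram law), helper127 (quadratic-form algebra),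
helper230 (generic point ⇒ all points), helper240 (long ↔ short form), helper297 (Manin's
degree calculus, the group `M`, assembly).
-/

set_option autoImplicit false

open Polynomial WeierstrassCurve
open scoped WeierstrassCurve.Affine

namespace Fermat.Agent.S52.H297

open Fermat.Agent.Lib.FrobRel.H230 (frobPt frobPsi)

/-- **Hasse–Weil relation over a finite field of odd characteristic** (Manin's elementary
proof), for curves `y² = x³ + a₂x² + a₄x + a₆`. -/
theorem frobPsi_eq_zero_short {F : Type*} [Field F] [Fintype F] (hF : ringChar F ≠ 2)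
    (W : WeierstrassCurve F) (h₁ : W.a₁ = 0) (h₃ : W.a₃ = 0) (hΔ : W.Δ ≠ 0)
    {L : Type*} [Field L] [Algebra F L] [DecidableEq L] (T : (W⁄L).Point) :
    frobPsi W L ((Fintype.card F : ℤ) + 1 - (Nat.card W.toAffine.Point : ℤ)) T = 0 := by
  classical
  obtain ⟨y, hy⟩ := IsAlgClosed.exists_pow_nat_eq
    ((IsScalarTower.toAlgHom F (RatFunc F) (AlgebraicClosure (RatFunc F)))
      (algebraMap F[X] (RatFunc F) (cubic W.a₂ W.a₄ W.a₆))) (n := 2) (by norm_num)
  exact frobPsi_eq_zero_of_setup (K := AlgebraicClosure (RatFunc F))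
    (ι := IsScalarTower.toAlgHom F (RatFunc F) (AlgebraicClosure (RatFunc F))) (y := y)
    ⟨h₁, h₃, hy⟩ hF hΔ T

open Fermat.Agent.Lib.Frob Fermat.Agent.Lib.Frob.A2.H240 in
/-- Piece A2 for short Weierstrass curves over `𝔽_ℓ`, `ℓ ≥ 5`. -/
theorem frobRelationFinShort : FrobRelationFinShort := by
  intro ℓ _ hℓ E h₁ _ h₃ hΔ k _ _ _ P
  have hF : ringChar (ZMod ℓ) ≠ 2 := by
    rw [ZMod.ringChar_zmod_n]
    omega
  have key := frobPsi_eq_zero_short hF E h₁ h₃ hΔ (L := k) P
  rw [Fermat.Agent.Lib.FrobRel.H230.frobPsi_apply, ZMod.card] at key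
  have ha : E.traceOfFrobenius = (ℓ : ℤ) + 1 - (Nat.card E.toAffine.Point : ℤ) := by
    unfold WeierstrassCurve.traceOfFrobenius WeierstrassCurve.card
    rw [Nat.card_eq_fintype_card, ZMod.card]
  rw [ha]
  exact key

open Fermat.Agent.Lib.Frob Fermat.Agent.Lib.Frob.A2.H240 in
/-- **Piece A2** of row S52: the Hasse–Weil relation `Φ² - a_ℓ Φ + ℓ = 0` over `𝔽_ℓ`, `ℓ ≥ 5`. -/
theorem frobRelationFin : FrobRelationFin :=
  frobRelationFin_of_short frobRelationFinShort

end Fermat.Agent.S52.H297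

end
-- ===== PACK-END S52/H297/FrobFin.lean

-- ===== PACK-BEGIN Lib/Frob/Small/Three.lean
section



/-!
# Shared library `Frob`, small primes: the Hasse–Weil Frobenius relation over `𝔽_3` (helper545)

`Lib.Frob.FrobRelationFin` (piece A2) is stated and proved for primes `ℓ ≥ 5` only.  Here the same
statement for `ℓ = 3`:

* `frobRelationFin_three` : for every Weierstrass curve `E` over `ZMod 3` with `Δ ≠ 0`, every field
  `k` over `ZMod 3` and every `P : (E⁄k).Point`:  `Φ (Φ P) - a₃ • Φ P + 3 • P = 0`.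

Proof: complete the square (`2` is invertible in `𝔽_3`), then helper297's
`frobPsi_eq_zero_short` (Manin's exact-height argument over any finite field of odd
characteristic, curves `y² = x³ + a₂x² + a₄x + a₆`), transported by helper240's `frobRel_of_smul`.
-/

set_option autoImplicit false

open WeierstrassCurve WeierstrassCurve.Affine WeierstrassCurve.Affine.Point

namespace Fermat.Agent.Lib.Frob.Small

open Fermat.Agent.Lib.Frob Fermat.Agent.Lib.VC

/-- The Frobenius relation over a prime field of odd characteristic, for curves with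
`a₁ = a₃ = 0`. -/
theorem frobRel_of_a₁_a₃ (ℓ : ℕ) [Fact ℓ.Prime] (hℓ : ℓ ≠ 2) (E : WeierstrassCurve (ZMod ℓ))
    (h₁ : E.a₁ = 0) (h₃ : E.a₃ = 0) (hΔ : E.Δ ≠ 0)
    (k : Type) [Field k] [Algebra (ZMod ℓ) k] [DecidableEq k] (P : (E⁄k).Point) :
    frobPt ℓ E k (frobPt ℓ E k P) - E.traceOfFrobenius • frobPt ℓ E k P + (ℓ : ℤ) • P = 0 := by
  have hF : ringChar (ZMod ℓ) ≠ 2 := by
    rw [ZMod.ringChar_zmod_n]
    exact hℓ
  have key := Fermat.Agent.S52.H297.frobPsi_eq_zero_short hF E h₁ h₃ hΔ (L := k) P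
  rw [Fermat.Agent.Lib.FrobRel.H230.frobPsi_apply, ZMod.card] at key
  have ha : E.traceOfFrobenius = (ℓ : ℤ) + 1 - (Nat.card E.toAffine.Point : ℤ) := by
    unfold WeierstrassCurve.traceOfFrobenius WeierstrassCurve.card
    rw [Nat.card_eq_fintype_card, ZMod.card]
  rw [ha]
  exact key

/-- The Frobenius relation over a prime field of odd characteristic, any Weierstrass form. -/
theorem frobRel_of_odd (ℓ : ℕ) [Fact ℓ.Prime] (hℓ : ℓ ≠ 2) (E : WeierstrassCurve (ZMod ℓ))
    (hΔ : E.Δ ≠ 0)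
    (k : Type) [Field k] [Algebra (ZMod ℓ) k] [DecidableEq k] (P : (E⁄k).Point) :
    frobPt ℓ E k (frobPt ℓ E k P) - E.traceOfFrobenius • frobPt ℓ E k P + (ℓ : ℤ) • P = 0 := by
  have h2 : (2 : ZMod ℓ) ≠ 0 := by
    intro h
    have h2' : ((2 : ℕ) : ZMod ℓ) = 0 := by exact_mod_cast h
    rw [ZMod.natCast_eq_zero_iff] at h2'
    exact hℓ ((Nat.prime_dvd_prime_iff_eq (Fact.out : ℓ.Prime) Nat.prime_two).mp h2')
  set C : VariableChange (ZMod ℓ) := ⟨1, 0, -E.a₁ / 2, -E.a₃ / 2⟩ with hC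
  have h₁ : (C • E).a₁ = 0 := by
    rw [a₁_smul]
    simp only [hC, Units.val_one, inv_one, one_mul]
    field_simp
    ring
  have h₃ : (C • E).a₃ = 0 := by
    rw [a₃_smul]
    simp only [hC, Units.val_one, inv_one, one_pow, one_mul, zero_mul, add_zero]
    field_simp
    ring
  have hΔ' : (C • E).Δ ≠ 0 := by
    rw [variableChange_Δ]
    exact mul_ne_zero (pow_ne_zero _ (Units.ne_zero _)) hΔ
  exact Fermat.Agent.Lib.Frob.A2.H240.frobRel_of_smul ℓ E C k
    (frobRel_of_a₁_a₃ ℓ hℓ (C • E) h₁ h₃ hΔ' k) P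

/-- **Piece A2 at `ℓ = 3`.** -/
theorem frobRelationFin_three (E : WeierstrassCurve (ZMod 3)) (hΔ : E.Δ ≠ 0)
    (k : Type) [Field k] [Algebra (ZMod 3) k] [DecidableEq k] (P : (E⁄k).Point) :
    frobPt 3 E k (frobPt 3 E k P) - E.traceOfFrobenius • frobPt 3 E k P + ((3 : ℕ) : ℤ) • P = 0 :=
  frobRel_of_odd 3 (by norm_num) E hΔ k P

end Fermat.Agent.Lib.Frob.Small

end
-- ===== PACK-END Lib/Frob/Small/Three.lean

-- ===== PACK-BEGIN Lib/Frob/Small/All.lean
section





/-!
# Shared library `Frob`: the Frobenius relation at ALL good primes, including `ℓ = 2, 3` (helper545)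

`Lib.Frob.FrobRelation` / `FrobRelationFin` are stated for primes `ℓ ≥ 5`.  Here the same
statements without the restriction `5 ≤ ℓ`:

* `frobRelationFinAll : FrobRelationFinAll` — over `𝔽_ℓ`, every prime `ℓ`, every Weierstrass curve
  `E` with `Δ ≠ 0`, every field `k ⊇ 𝔽_ℓ`:  `Φ² − a_ℓ Φ + ℓ = 0` on `E(k)`.
* `frobRelationAll : FrobRelationAll` — for an integral model `W`, EVERY prime `ℓ ∤ Δ(W)`, every
  valuation subring `A` of `ℚ̄` above `ℓ`, every Frobenius element `σ` at `A` and every torsion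
  point `P ∈ W(ℚ̄)` of order prime to `ℓ`:  `σ²P − a_ℓ(W)·σP + ℓ·P = 0`.

(`ℓ` odd: helper297's exact-height proof + completing the square; `ℓ = 2`: `Two.lean`;
reduction of torsion: landed piece A1, which has no restriction on `ℓ`.)
-/

set_option autoImplicit false

open WeierstrassCurve WeierstrassCurve.Affine WeierstrassCurve.Affine.Point

namespace Fermat.Agent.Lib.Frob.Small

open Fermat.Agent.Lib.Frob

/-- Piece A2 without the restriction `5 ≤ ℓ`. -/
def FrobRelationFinAll : Prop :=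
  ∀ (ℓ : ℕ) [Fact ℓ.Prime] (E : WeierstrassCurve (ZMod ℓ)), E.Δ ≠ 0 →
    ∀ (k : Type) [Field k] [Algebra (ZMod ℓ) k] [DecidableEq k] (P : (E⁄k).Point),
      frobPt ℓ E k (frobPt ℓ E k P) - E.traceOfFrobenius • frobPt ℓ E k P + (ℓ : ℤ) • P = 0

/-- **The Hasse–Weil Frobenius relation over `𝔽_ℓ` for every prime `ℓ`.** -/
theorem frobRelationFinAll : FrobRelationFinAll := by
  intro ℓ _ E hΔ k _ _ _ P
  by_cases h2 : ℓ = 2
  · subst h2
    exact frobRelationFin_two E hΔ k P
  · exact frobRel_of_odd ℓ h2 E hΔ k P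

/-- `Lib.Frob.FrobRelation` without the restriction `5 ≤ ℓ`. -/
def FrobRelationAll : Prop :=
  ∀ (W : WeierstrassCurve ℤ) (ℓ : ℕ), ℓ.Prime → W.IsGoodPrimeFor ℓ →
    ∀ (A : ValuationSubring Qb) (σ : Qb ≃ₐ[ℚ] Qb), A.LiesOverPrime ℓ → A.IsFrobeniusAt σ ℓ →
      ∀ (n : ℕ), 0 < n → ¬ ℓ ∣ n → ∀ P : Pts W, n • P = 0 →
        σ • σ • P - W.apOfModel ℓ • σ • P + (ℓ : ℤ) • P = 0

/-- **The Frobenius relation `σ² − a_ℓ σ + ℓ = 0` on prime-to-`ℓ` torsion of `W(ℚ̄)`, for every
prime `ℓ` of good reduction (including `ℓ = 2, 3`).** -/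
theorem frobRelationAll : FrobRelationAll := by
  intro W ℓ hℓ hgood A σ hA hσ n hn hℓn P hP
  have : Fact ℓ.Prime := ⟨hℓ⟩
  obtain ⟨k, hk1, hk2, hk3, red, hinj, hcomm⟩ := reductionData W ℓ hgood A σ hA hσ n hn hℓn
  have hmem : P ∈ Submodule.torsionBy ℤ (Pts W) n := by
    rw [Submodule.mem_torsionBy_iff]
    rw [← hP]
    exact (natCast_zsmul P n)
  set P' : Submodule.torsionBy ℤ (Pts W) n := ⟨P, hmem⟩ with hP'
  have key : σ • σ • P' - W.apOfModel ℓ • σ • P' + (ℓ : ℤ) • P' = 0 := by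
    apply hinj
    rw [_root_.map_zero, map_add, map_sub, map_zsmul, map_zsmul, hcomm, hcomm]
    exact frobRelationFinAll ℓ (W.reductionMod ℓ) (reductionMod_Δ_ne_zero W ℓ hgood) k (red P')
  have h2 := congrArg Subtype.val key
  simp only [Submodule.coe_add, Submodule.coe_sub, Submodule.coe_smul_of_tower,
    coe_galois_smul_torsion, ZeroMemClass.coe_zero] at h2
  exact h2

/-- `frobRelationAll` restricted to `ℓ ≥ 5` is the frozen `FrobRelation`. -/
theorem frobRelation_of_all : FrobRelation :=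
  fun W ℓ hℓ _ hgood A σ hA hσ n hn hℓn P hP =>
    frobRelationAll W ℓ hℓ hgood A σ hA hσ n hn hℓn P hP

end Fermat.Agent.Lib.Frob.Small

end
-- ===== PACK-END Lib/Frob/Small/All.lean

-- ===== PACK-BEGIN S58/H94/TateSide.lean
section





/-!
# Row S58 (helper94): the `lam`-adic Tate module of a semistable integral model, with the two
quadratic relations used by the comparison argument

For every prime `lam` (no irreducibility hypothesis) there is `T : GaloisRepAdic ℤ_[lam]` with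
* `T(σ)² - a_ℓ(W) T(σ) + ℓ = 0` for every Frobenius element `σ` at a good prime `ℓ ≠ lam`;
* `T(σ)² - 2 T(σ) + 1 = 0` for every `σ` in an inertia group at a prime `q ≠ lam`.
-/

set_option autoImplicit false

namespace Fermat.Agent.S58.H94

open WeierstrassCurve WeierstrassCurve.Affine
open scoped WeierstrassCurve.Affine

/-- The Tate module side of the comparison. -/
theorem exists_tate_h94 (W : WeierstrassCurve ℤ) (hΔ : W.Δ ≠ 0) (hss : W.IsSemistableModel)
    (lam : ℕ) [hlam : Fact lam.Prime] :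
    ∃ T : GaloisRepAdic ℤ_[lam],
      (∀ ℓ : ℕ, ℓ.Prime → W.IsGoodPrimeFor ℓ → ℓ ≠ lam →
        ∀ A : ValuationSubring (AlgebraicClosure ℚ), A.LiesOverPrime ℓ →
          ∀ σ : AlgebraicClosure ℚ ≃ₐ[ℚ] AlgebraicClosure ℚ, A.IsFrobeniusAt σ ℓ →
            T.ρ σ * T.ρ σ - (((W.apOfModel ℓ : ℤ) : ℤ_[lam])) • T.ρ σ
              + ((ℓ : ℤ_[lam])) • (1 : Module.End ℤ_[lam] T.V) = 0) ∧
      (∀ q : ℕ, q.Prime → q ≠ lam →
        ∀ P : ValuationSubring (AlgebraicClosure ℚ), P.LiesOverPrime q →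
          ∀ σ ∈ P.inertiaSubgroupIn ℚ,
            T.ρ σ * T.ρ σ - (2 : ℤ_[lam]) • T.ρ σ + (1 : Module.End ℤ_[lam] T.V) = 0) := by
  classical
  have hE : ((Fermat.Agent.S59.H127.WQ W)⁄(AlgebraicClosure ℚ)).IsElliptic :=
    Fermat.Agent.S59.H127.isElliptic_of_Δ_ne_zero W hΔ
  obtain ⟨cb⟩ := Fermat.Agent.S59.H127.nonempty_compatBasis_point
    ((Fermat.Agent.S59.H127.WQ W)⁄(AlgebraicClosure ℚ)) lam
  refine ⟨Fermat.Agent.S59.H127.tateGaloisRep (Fermat.Agent.S59.H127.WQ W) cb, ?_, ?_⟩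
  · intro ℓ hℓ hgood hℓlam A hA σ hσ
    have h := Fermat.Agent.S59.H127.tateGaloisRep_quadratic (Fermat.Agent.S59.H127.WQ W) cb σ
      (W.apOfModel ℓ) (ℓ : ℤ) (fun n x hx =>
        Fermat.Agent.Lib.Frob.Small.frobRelationAll W ℓ hℓ hgood A σ hA hσ (lam ^ n)
          (pow_pos hlam.out.pos n)
          (Fermat.Agent.S59.H899.not_dvd_prime_pow hℓ hlam.out hℓlam n) x hx)
    rw [Int.cast_natCast] at h
    exact h
  · intro q hq hqlam P hP σ hσ
    have h := Fermat.Agent.S59.H127.tateGaloisRep_quadratic (Fermat.Agent.S59.H127.WQ W) cb σ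
      2 1 (fun n x hx => by
        by_cases hgood : W.IsGoodPrimeFor q
        · have hfix : ∀ y : Fermat.Agent.S59.H127.Pts W, lam ^ n • y = 0 → σ • y = y :=
            fun y hy => Fermat.Agent.S59.H899.inertia_smul_eq_self_of_good W hq hgood
              (Fermat.Agent.S59.H899.not_dvd_prime_pow hq hlam.out hqlam n) P hP σ hσ y hy
          rw [hfix x hx, hfix x hx, one_zsmul]
          have e2 : (2 : ℤ) • x = x + x := by
            rw [show (2 : ℤ) = 1 + 1 from rfl, add_zsmul, one_zsmul]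
          rw [e2]
          abel
        · exact Fermat.Agent.S59.H240.unipInput_of_semistable lam hlam.out W hΔ hss q hq hgood
            hqlam P hP σ hσ n x hx)
    rw [Int.cast_one, one_smul, Int.cast_ofNat] at h
    exact h

end Fermat.Agent.S58.H94

end
-- ===== PACK-END S58/H94/TateSide.lean

-- ===== PACK-BEGIN S58/H94/Compare.lean
section




/-!
# Row S58 (helper94): comparison of a `lam`-adic representation with the Tate module of `W`

`compare_h94`: let `ρ'` be a `GaloisRepAdic` over a complete DVR `𝒪` of residue characteristic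
`lam` whose Frobenius characteristic polynomials outside a finite set `S` (containing `lam` and
the bad primes of the semistable model `W`) are `X² - a_ℓ(W) X + ℓ`.  Then
* at every good prime `q ≠ lam` (possibly in `S`): if `charpoly ρ'(Frob_q) = X² - s X + q` then
  `s = a_q(W)`;
* `ρ'` is unipotent on inertia at every prime `q ≠ lam`.
-/

set_option autoImplicit false

namespace Fermat.Agent.S58.H94

open Polynomial Fermat.Agent.S30.H990 Fermat.Agent.S55.H414

section LinAlg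

variable {R : Type*} [CommRing R] {V : Type*} [AddCommGroup V] [Module R V]

/-- Cayley–Hamilton for a quadratic characteristic polynomial. -/
theorem rel_of_charpoly [Module.Free R V] [Module.Finite R V] (f : Module.End R V) (s b : R)
    (h : LinearMap.charpoly f = X ^ 2 - C s * X + C b) :
    f * f - s • f + b • (1 : Module.End R V) = 0 := by
  have := LinearMap.aeval_self_charpoly f
  rw [h] at this
  simp only [map_add, map_sub, map_mul, aeval_X, aeval_C, Algebra.algebraMap_eq_smul_one,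
    smul_mul_assoc, one_mul, pow_two] at this
  exact this

/-- Two quadratic relations with the same constant term for an invertible endomorphism of a
free module of rank two over a domain have the same linear term. -/
theorem eq_of_two_rel [IsDomain R] [Module.Free R V] [Module.Finite R V]
    (h2 : Module.finrank R V = 2) (f : Module.End R V) (hf : IsUnit f) (a a' b : R)
    (h : f * f - a • f + b • (1 : Module.End R V) = 0)
    (h' : f * f - a' • f + b • (1 : Module.End R V) = 0) : a = a' := by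
  have h1 : (a' - a) • f = 0 := by
    have : (a' - a) • f = (f * f - a • f + b • (1 : Module.End R V))
        - (f * f - a' • f + b • (1 : Module.End R V)) := by
      rw [sub_smul]; abel
    rw [this, h, h', sub_zero]
  obtain ⟨u, rfl⟩ := hf
  have h3 : (a' - a) • (1 : Module.End R V) = 0 := by
    have := congrArg (fun g : Module.End R V => g * ((u⁻¹ : (Module.End R V)ˣ) : Module.End R V)) h1
    simpa [smul_mul_assoc] using this
  let e := Module.finBasisOfFinrankEq R V h2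
  have h4 : (a' - a) • e 0 = 0 := by
    have := congrArg (fun g : Module.End R V => g (e 0)) h3
    simpa using this
  have h5 := congrArg (fun v => e.repr v 0) h4
  simp only [map_smul, Finsupp.smul_apply, Module.Basis.repr_self, Finsupp.single_eq_same,
    smul_eq_mul, mul_one, map_zero, Finsupp.zero_apply] at h5
  exact (sub_eq_zero.mp h5).symm

end LinAlg

section BaseChange

variable {A : Type} [CommRing A] [IsLocalRing A] {B : Type} [CommRing B] [IsLocalRing B]

/-- A quadratic relation passes to the base change (tensor product form). -/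
theorem rel_baseChange_h94 {A' B' : Type*} [CommRing A'] [CommRing B'] [Algebra A' B']
    {V : Type*} [AddCommGroup V] [Module A' V] (f : Module.End A' V) (a b : A')
    (h : f * f - a • f + b • (1 : Module.End A' V) = 0) :
    f.baseChange B' * f.baseChange B' - algebraMap A' B' a • f.baseChange B'
      + algebraMap A' B' b • (1 : Module.End B' (TensorProduct A' B' V)) = 0 := by
  apply LinearMap.ext
  intro w
  simp only [LinearMap.add_apply, LinearMap.sub_apply, Module.End.mul_apply,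
    LinearMap.smul_apply, Module.End.one_apply, LinearMap.zero_apply]
  induction w using TensorProduct.induction_on with
  | zero => simp
  | tmul c v =>
    have e := congrArg (fun g : Module.End A' V => g v) h
    simp only [LinearMap.add_apply, LinearMap.sub_apply, Module.End.mul_apply,
      LinearMap.smul_apply, Module.End.one_apply, LinearMap.zero_apply] at e
    have ha : algebraMap A' B' a • (c ⊗ₜ[A'] (f v) : TensorProduct A' B' V)
        = c ⊗ₜ[A'] (a • f v) := by
      rw [TensorProduct.tmul_smul, TensorProduct.smul_tmul', TensorProduct.smul_tmul',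
        Algebra.smul_def, Algebra.smul_def, Algebra.algebraMap_self, RingHom.id_apply]
    have hb : algebraMap A' B' b • (c ⊗ₜ[A'] v : TensorProduct A' B' V) = c ⊗ₜ[A'] (b • v) := by
      rw [TensorProduct.tmul_smul, TensorProduct.smul_tmul', TensorProduct.smul_tmul',
        Algebra.smul_def, Algebra.smul_def, Algebra.algebraMap_self, RingHom.id_apply]
    rw [LinearMap.baseChange_tmul, LinearMap.baseChange_tmul, ha, hb, ← TensorProduct.tmul_sub,
      ← TensorProduct.tmul_add, e, TensorProduct.tmul_zero]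
  | add x y hx hy =>
    have : f.baseChange B' (f.baseChange B' (x + y))
        - algebraMap A' B' a • f.baseChange B' (x + y) + algebraMap A' B' b • (x + y)
        = (f.baseChange B' (f.baseChange B' x) - algebraMap A' B' a • f.baseChange B' x
            + algebraMap A' B' b • x)
          + (f.baseChange B' (f.baseChange B' y) - algebraMap A' B' a • f.baseChange B' y
            + algebraMap A' B' b • y) := by
      simp only [map_add, smul_add]
      abel
    rw [this, hx, hy, add_zero]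

/-- A quadratic relation passes to the base change. -/
theorem rel_baseChangeAlong (φ : A →+* B) (hφ : IsLocalHom φ) (ρ : GaloisRepAdic A)
    (σ : AlgebraicClosure ℚ ≃ₐ[ℚ] AlgebraicClosure ℚ) (a b : A)
    (h : ρ.ρ σ * ρ.ρ σ - a • ρ.ρ σ + b • (1 : Module.End A ρ.V) = 0) :
    (ρ.baseChangeAlong φ hφ).ρ σ * (ρ.baseChangeAlong φ hφ).ρ σ
      - φ a • (ρ.baseChangeAlong φ hφ).ρ σ
      + φ b • (1 : Module.End B (ρ.baseChangeAlong φ hφ).V) = 0 := by
  let _ : Algebra A B := φ.toAlgebra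
  exact rel_baseChange_h94 (B' := B) (ρ.ρ σ) a b h

theorem isUnit_rho (ρ : GaloisRepAdic A) (σ : AlgebraicClosure ℚ ≃ₐ[ℚ] AlgebraicClosure ℚ) :
    IsUnit (ρ.ρ σ) :=
  (Group.isUnit σ).map ρ.ρ

end BaseChange

section Main

variable {𝒪 : Type} [CommRing 𝒪] [IsDomain 𝒪] [IsDiscreteValuationRing 𝒪]
  [IsAdicComplete (IsLocalRing.maximalIdeal 𝒪) 𝒪] [Finite (IsLocalRing.ResidueField 𝒪)]

omit [IsAdicComplete (IsLocalRing.maximalIdeal 𝒪) 𝒪] [Finite (IsLocalRing.ResidueField 𝒪)] in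
/-- A ring homomorphism `ℤ_[lam] → 𝒪` is local as soon as `lam` is not a unit of `𝒪`. -/
theorem isLocalHom_of_padicInt (lam : ℕ) [Fact lam.Prime]
    (hlam : (lam : 𝒪) ∈ IsLocalRing.maximalIdeal 𝒪) (φ : ℤ_[lam] →+* 𝒪) : IsLocalHom φ := by
  refine ⟨fun x hx => ?_⟩
  by_contra hnu
  have hx' : x ∈ IsLocalRing.maximalIdeal ℤ_[lam] := hnu
  rw [PadicInt.maximalIdeal_eq_span_p, Ideal.mem_span_singleton'] at hx'
  obtain ⟨y, rfl⟩ := hx'
  have : φ (y * (lam : ℤ_[lam])) ∈ IsLocalRing.maximalIdeal 𝒪 := by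
    rw [map_mul, map_natCast]
    exact Ideal.mul_mem_left _ _ hlam
  exact this hx

/-- **The comparison lemma.** -/
theorem compare_h94 (W : WeierstrassCurve ℤ) (hΔ : W.Δ ≠ 0) (hss : W.IsSemistableModel)
    (lam : ℕ) [Fact lam.Prime] (hlam : (lam : 𝒪) ∈ IsLocalRing.maximalIdeal 𝒪)
    (S : Finset ℕ) (hlamS : lam ∈ S) (hbadS : ∀ ℓ : ℕ, ℓ.Prime → (ℓ : ℤ) ∣ W.Δ → ℓ ∈ S)
    (ρ' : GaloisRepAdic 𝒪)
    (hρ' : ∀ ℓ : ℕ, ℓ.Prime → ℓ ∉ S →
      ∀ A : ValuationSubring (AlgebraicClosure ℚ), A.LiesOverPrime ℓ →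
        ∀ σ : AlgebraicClosure ℚ ≃ₐ[ℚ] AlgebraicClosure ℚ, A.IsFrobeniusAt σ ℓ →
          LinearMap.charpoly (ρ'.ρ σ) =
            X ^ 2 - C (((W.apOfModel ℓ : ℤ) : 𝒪)) * X + C ((ℓ : 𝒪))) :
    (∀ q : ℕ, q.Prime → q ≠ lam → W.IsGoodPrimeFor q →
      ∀ A : ValuationSubring (AlgebraicClosure ℚ), A.LiesOverPrime q →
        ∀ σ : AlgebraicClosure ℚ ≃ₐ[ℚ] AlgebraicClosure ℚ, A.IsFrobeniusAt σ q →
          ∀ s : 𝒪, LinearMap.charpoly (ρ'.ρ σ) = X ^ 2 - C s * X + C ((q : 𝒪)) →
            s = ((W.apOfModel q : ℤ) : 𝒪)) ∧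
    (∀ q : ℕ, q.Prime → q ≠ lam → ρ'.IsUnipotentOnInertiaAt q) := by
  obtain ⟨φ⟩ := exists_padicInt_ringHom lam 𝒪 hlam
  have hφ : IsLocalHom φ := isLocalHom_of_padicInt lam hlam φ
  obtain ⟨T, hTfrob, hTinert⟩ := exists_tate_h94 W hΔ hss lam
  set Tb : GaloisRepAdic 𝒪 := T.baseChangeAlong φ hφ with hTb
  obtain ⟨d, hdfrob, hdinert, -, hdcont⟩ := exists_cyclo lam 𝒪 hlam
  -- the Frobenius relation on `Tb` at all good primes `≠ lam`
  have hTbfrob : ∀ ℓ : ℕ, ℓ.Prime → W.IsGoodPrimeFor ℓ → ℓ ≠ lam →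
      ∀ A : ValuationSubring (AlgebraicClosure ℚ), A.LiesOverPrime ℓ →
        ∀ σ : AlgebraicClosure ℚ ≃ₐ[ℚ] AlgebraicClosure ℚ, A.IsFrobeniusAt σ ℓ →
          Tb.ρ σ * Tb.ρ σ - (((W.apOfModel ℓ : ℤ) : 𝒪)) • Tb.ρ σ
            + ((ℓ : 𝒪)) • (1 : Module.End 𝒪 Tb.V) = 0 := by
    intro ℓ hℓ hgood hℓlam A hA σ hσ
    have := rel_baseChangeAlong φ hφ T σ _ _ (hTfrob ℓ hℓ hgood hℓlam A hA σ hσ)
    rw [map_intCast, map_natCast] at this
    exact this
  have hTbinert : ∀ q : ℕ, q.Prime → q ≠ lam →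
      ∀ P : ValuationSubring (AlgebraicClosure ℚ), P.LiesOverPrime q →
        ∀ σ ∈ P.inertiaSubgroupIn ℚ,
          Tb.ρ σ * Tb.ρ σ - (2 : 𝒪) • Tb.ρ σ + (1 : 𝒪) • (1 : Module.End 𝒪 Tb.V) = 0 := by
    intro q hq hqlam P hP σ hσ
    have h := hTinert q hq hqlam P hP σ hσ
    have h' : T.ρ σ * T.ρ σ - (2 : ℤ_[lam]) • T.ρ σ
        + (1 : ℤ_[lam]) • (1 : Module.End ℤ_[lam] T.V) = 0 := by
      rw [one_smul]; exact h
    have := rel_baseChangeAlong φ hφ T σ _ _ h'
    rw [map_ofNat, map_one] at this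
    exact this
  -- the common relation
  have hgoodS : ∀ ℓ : ℕ, ℓ.Prime → ℓ ∉ S → W.IsGoodPrimeFor ℓ ∧ ℓ ≠ lam :=
    fun ℓ hℓ hℓS => ⟨fun hd => hℓS (hbadS ℓ hℓ hd), fun h => hℓS (h ▸ hlamS)⟩
  have hcommon : ∀ g : _root_.Fermat.Agent.S30.H990.GQ, ∃ a : 𝒪, Fermat.Agent.S30.H990.Rel ρ'.ρ d g a ∧
      Fermat.Agent.S30.H990.Rel Tb.ρ d g a :=
    exists_common_rel lam S hlamS ρ' Tb (fun ℓ => ((W.apOfModel ℓ : ℤ) : 𝒪))
      (fun ℓ hℓ hℓS A hA σ hσ => rel_of_charpoly _ _ _ (hρ' ℓ hℓ hℓS A hA σ hσ))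
      (fun ℓ hℓ hℓS A hA σ hσ =>
        hTbfrob ℓ hℓ (hgoodS ℓ hℓ hℓS).1 (hgoodS ℓ hℓ hℓS).2 A hA σ hσ)
      d hdfrob hdcont
  refine ⟨?_, ?_⟩
  · intro q hq hqlam hgood A hA σ hσ s hs
    obtain ⟨a, ha₁, ha₂⟩ := hcommon σ
    have hdσ : ((d σ : 𝒪ˣ) : 𝒪) = (q : 𝒪) := hdfrob q hq hqlam A hA σ hσ
    unfold Fermat.Agent.S30.H990.Rel at ha₁ ha₂
    rw [hdσ] at ha₁ ha₂
    have e1 : a = s := eq_of_two_rel ρ'.finrank_eq (ρ'.ρ σ) (isUnit_rho ρ' σ) a s (q : 𝒪) ha₁
      (rel_of_charpoly _ _ _ hs)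
    have e2 : a = ((W.apOfModel q : ℤ) : 𝒪) :=
      eq_of_two_rel Tb.finrank_eq (Tb.ρ σ) (isUnit_rho Tb σ) a _ (q : 𝒪) ha₂
        (hTbfrob q hq hgood hqlam A hA σ hσ)
    rw [← e1, e2]
  · intro q hq hqlam P hP σ hσ
    obtain ⟨a, ha₁, ha₂⟩ := hcommon σ
    have hdσ : d σ = 1 := hdinert q hq hqlam P hP σ hσ
    unfold Fermat.Agent.S30.H990.Rel at ha₁ ha₂
    rw [hdσ, Units.val_one] at ha₁ ha₂
    have e2 : a = 2 := eq_of_two_rel Tb.finrank_eq (Tb.ρ σ) (isUnit_rho Tb σ) a 2 1 ha₂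
      (hTbinert q hq hqlam P hP σ hσ)
    rw [e2, one_smul] at ha₁
    exact Fermat.Agent.S59.H127.charpoly_eq_of_sub_one_sq ρ'.finrank_eq (ρ'.ρ σ) ha₁

end Main

end Fermat.Agent.S58.H94

end
-- ===== PACK-END S58/H94/Compare.lean

-- ===== PACK-BEGIN Lib/Ribet/H404/ResMod.lean
section










/-!
# RIBET, forms-side interface (helper404)

Residual modularity of level `M` (Prelude `WeierstrassCurve.IsResiduallyModularOfLevel`) is
equivalent to the existence of a maximal ideal of the full weight-2 Hecke algebra of level `M`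
(Prelude `CuspForm.heckeAlgebra M 2 ∅`) containing `p` and all `T_ℓ - a_ℓ(W)`:

* `isResiduallyModularOfLevel_of_heckeResMod` (Deligne–Serre lifting);
* `heckeResMod_of_isResiduallyModularOfLevel` (eigencharacter of the eigenform);
* `isResiduallyModularOfLevel_iff`.

So a level-lowering argument only has to produce a *proper ideal* of the Hecke algebra of the
lower level.
-/

set_option autoImplicit false

open CuspForm CongruenceSubgroup ModularFormClass

namespace Fermat.Agent.Lib.Ribet.H404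

/-- The Hecke-algebra form of residual modularity of level `M`. -/
def HeckeResMod (W : WeierstrassCurve ℤ) (p M : ℕ) [NeZero M] : Prop :=
  ∃ 𝔫 : Ideal (heckeAlgebra M 2 (∅ : Set ℕ)), 𝔫.IsMaximal ∧
    ((p : ℕ) : heckeAlgebra M 2 (∅ : Set ℕ)) ∈ 𝔫 ∧
    ∀ (ℓ : ℕ) (hℓ : ℓ.Prime) (hℓM : ¬ ℓ ∣ M), W.IsGoodPrimeFor ℓ → ℓ ≠ p →
      (heckeAlgebra.T hℓ hℓM (Set.notMem_empty _) : heckeAlgebra M 2 (∅ : Set ℕ))
        - algebraMap ℤ _ (W.apOfModel ℓ) ∈ 𝔫

variable {M : ℕ} [NeZero M]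

/-- Every ring homomorphism from the Hecke algebra to `ℂ` takes values in `ℤ̄`. -/
theorem ringHom_mem_integralClosure (χ : heckeAlgebra M 2 (∅ : Set ℕ) →+* ℂ)
    (t : heckeAlgebra M 2 (∅ : Set ℕ)) : χ t ∈ integralClosure ℤ ℂ := by
  have : Module.Finite ℤ (heckeAlgebra M 2 (∅ : Set ℕ)) := Fermat.Agent.S22.result M 2 ∅
  have ht : IsIntegral ℤ t := Algebra.IsIntegral.isIntegral t
  exact ht.map χ.toIntAlgHom

/-- **Deligne–Serre lifting**: a maximal ideal of the Hecke algebra of level `M` containing `p`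
and the `T_ℓ - a_ℓ(W)` gives a normalised eigenform of level `M` congruent to `W`. -/
theorem isResiduallyModularOfLevel_of_heckeResMod {W : WeierstrassCurve ℤ} {p : ℕ}
    (h : HeckeResMod W p M) : W.IsResiduallyModularOfLevel p M := by
  classical
  obtain ⟨𝔫, h𝔫max, hp𝔫, hT⟩ := h
  have := Fermat.Agent.Lib.Newform.H683.finiteDimensional_cuspForm M 2
  have : 𝔫.IsPrime := h𝔫max.isPrime
  obtain ⟨g, χ, hg, hχ, hker⟩ := Fermat.Agent.S49.exists_eigenvector_ker_le
    (K := ℂ) (V := CuspForm (Gamma0 M) 2)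
    ((heckeAlgebra M 2 (∅ : Set ℕ)).val.toRingHom) Subtype.val_injective 𝔫
  let χ' : heckeAlgebra M 2 (∅ : Set ℕ) →+* integralClosure ℤ ℂ :=
    χ.codRestrict (integralClosure ℤ ℂ).toSubring (ringHom_mem_integralClosure χ)
  have hχ' : ∀ t, ((χ' t : integralClosure ℤ ℂ) : ℂ) = χ t := fun t => rfl
  have hker' : RingHom.ker χ' ≤ 𝔫 := by
    intro t ht
    apply hker
    rw [RingHom.mem_ker] at ht ⊢
    rw [← hχ', ht]
    rfl
  obtain ⟨𝔪', h𝔪', hover⟩ := Fermat.Agent.S49.exists_maximal_over χ' 𝔫 hker'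
  obtain ⟨f, hf, hfℓ⟩ := Fermat.Agent.S49.exists_normalized_eigenform g hg χ hχ
  refine ⟨f, 𝔪', hf, h𝔪', ?_, fun ℓ hℓ hgood hℓM hℓp => ?_⟩
  · have hp' := hover _ hp𝔫
    rw [map_natCast] at hp'
    exact hp'
  · refine ⟨χ' (heckeAlgebra.T hℓ hℓM (Set.notMem_empty _)), ?_, ?_⟩
    · rw [hχ', hfℓ ℓ hℓ hℓM]
    · have := hover _ (hT ℓ hℓ hℓM hgood hℓp)
      simpa using this

/-- A normalised eigenform is an eigenvector of every element of the Hecke algebra. -/
theorem exists_eigenvalue {f : CuspForm (Gamma0 M) 2} (hf : f.IsNormalizedEigenform)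
    (t : heckeAlgebra M 2 (∅ : Set ℕ)) :
    ∃ c : ℂ, (t : Module.End ℂ (CuspForm (Gamma0 M) 2)) f = c • f := by
  obtain ⟨t, ht⟩ := t
  show ∃ c : ℂ, t f = c • f
  induction ht using Algebra.adjoin_induction with
  | mem x hx =>
    rcases hx with ⟨ℓ, hℓ, hℓN, -, rfl⟩ | ⟨q, hqN, hq, -, rfl⟩
    · exact ⟨_, Fermat.Agent.Lib.Newform.H683.heckeTLin_eq_of_eigenform hf hℓ hℓN⟩
    · exact ⟨_, Fermat.Agent.Lib.Newform.H683.heckeULin_eq_of_eigenform hf hq hqN⟩
  | algebraMap r =>
    refine ⟨(r : ℂ), ?_⟩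
    rw [Algebra.algebraMap_eq_smul_one, LinearMap.smul_apply, Module.End.one_apply]
    exact (Int.cast_smul_eq_zsmul ℂ r f).symm
  | add x y _ _ hx hy =>
    obtain ⟨c, hc⟩ := hx
    obtain ⟨d, hd⟩ := hy
    exact ⟨c + d, by rw [LinearMap.add_apply, hc, hd, add_smul]⟩
  | mul x y _ _ hx hy =>
    obtain ⟨c, hc⟩ := hx
    obtain ⟨d, hd⟩ := hy
    exact ⟨d * c, by rw [Module.End.mul_apply, hd, map_smul, hc, smul_smul]⟩

/-- The eigenvalue of `t` on a normalised eigenform is the first coefficient of `t f`. -/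
theorem apply_eq_qCoeff_one_smul {f : CuspForm (Gamma0 M) 2} (hf : f.IsNormalizedEigenform)
    (t : heckeAlgebra M 2 (∅ : Set ℕ)) :
    (t : Module.End ℂ (CuspForm (Gamma0 M) 2)) f =
      qCoeff ⇑((t : Module.End ℂ (CuspForm (Gamma0 M) 2)) f) 1 • f := by
  obtain ⟨c, hc⟩ := exists_eigenvalue hf t
  have h1 : qCoeff ⇑((t : Module.End ℂ (CuspForm (Gamma0 M) 2)) f) 1 = c := by
    rw [hc, Fermat.Agent.Lib.Newform.H683.qCoeff_smul_cusp, hf.qCoeff_one, mul_one]
  rw [h1, hc]

/-- The eigencharacter of a normalised eigenform. -/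
noncomputable def eigenChar {f : CuspForm (Gamma0 M) 2} (hf : f.IsNormalizedEigenform) :
    heckeAlgebra M 2 (∅ : Set ℕ) →+* ℂ where
  toFun t := qCoeff ⇑((t : Module.End ℂ (CuspForm (Gamma0 M) 2)) f) 1
  map_one' := by
    show qCoeff ⇑(((1 : heckeAlgebra M 2 (∅ : Set ℕ)) :
      Module.End ℂ (CuspForm (Gamma0 M) 2)) f) 1 = 1
    rw [Subalgebra.coe_one, Module.End.one_apply, hf.qCoeff_one]
  map_mul' s t := by
    obtain ⟨c, hc⟩ := exists_eigenvalue hf t
    have hc1 : qCoeff ⇑((t : Module.End ℂ (CuspForm (Gamma0 M) 2)) f) 1 = c := by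
      rw [hc, Fermat.Agent.Lib.Newform.H683.qCoeff_smul_cusp, hf.qCoeff_one, mul_one]
    show qCoeff ⇑(((s * t : heckeAlgebra M 2 (∅ : Set ℕ)) :
      Module.End ℂ (CuspForm (Gamma0 M) 2)) f) 1 =
        qCoeff ⇑((s : Module.End ℂ (CuspForm (Gamma0 M) 2)) f) 1 *
          qCoeff ⇑((t : Module.End ℂ (CuspForm (Gamma0 M) 2)) f) 1
    rw [hc1, Subalgebra.coe_mul, Module.End.mul_apply, hc, map_smul,
      Fermat.Agent.Lib.Newform.H683.qCoeff_smul_cusp, mul_comm]
  map_zero' := by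
    show qCoeff ⇑(((0 : heckeAlgebra M 2 (∅ : Set ℕ)) :
      Module.End ℂ (CuspForm (Gamma0 M) 2)) f) 1 = 0
    rw [Subalgebra.coe_zero, LinearMap.zero_apply]
    have : (0 : CuspForm (Gamma0 M) 2) = (0 : ℂ) • f := by simp
    rw [this, Fermat.Agent.Lib.Newform.H683.qCoeff_smul_cusp, zero_mul]
  map_add' s t := by
    show qCoeff ⇑(((s + t : heckeAlgebra M 2 (∅ : Set ℕ)) :
      Module.End ℂ (CuspForm (Gamma0 M) 2)) f) 1 = _
    rw [Subalgebra.coe_add, LinearMap.add_apply,
      Fermat.Agent.Lib.Newform.H683.qCoeff_add_cusp]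

theorem eigenChar_apply {f : CuspForm (Gamma0 M) 2} (hf : f.IsNormalizedEigenform)
    (t : heckeAlgebra M 2 (∅ : Set ℕ)) :
    eigenChar hf t = qCoeff ⇑((t : Module.End ℂ (CuspForm (Gamma0 M) 2)) f) 1 := rfl

theorem eigenChar_T {f : CuspForm (Gamma0 M) 2} (hf : f.IsNormalizedEigenform) {ℓ : ℕ}
    (hℓ : ℓ.Prime) (hℓM : ¬ ℓ ∣ M) :
    eigenChar hf (heckeAlgebra.T hℓ hℓM (Set.notMem_empty _)) = qCoeff ⇑f ℓ := by
  rw [eigenChar_apply, heckeAlgebra.coe_T,
    Fermat.Agent.Lib.Newform.H683.heckeTLin_eq_of_eigenform hf hℓ hℓM,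
    Fermat.Agent.Lib.Newform.H683.qCoeff_smul_cusp, hf.qCoeff_one, mul_one]

theorem eigenChar_U {f : CuspForm (Gamma0 M) 2} (hf : f.IsNormalizedEigenform) {q : ℕ}
    (hq : q.Prime) (hqM : q ∣ M) :
    eigenChar hf (heckeAlgebra.U hq hqM (Set.notMem_empty _)) = qCoeff ⇑f q := by
  rw [eigenChar_apply, heckeAlgebra.coe_U,
    Fermat.Agent.Lib.Newform.H683.heckeULin_eq_of_eigenform hf hq hqM,
    Fermat.Agent.Lib.Newform.H683.qCoeff_smul_cusp, hf.qCoeff_one, mul_one]

/-- The eigencharacter with values in `ℤ̄`. -/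
noncomputable def eigenCharInt {f : CuspForm (Gamma0 M) 2} (hf : f.IsNormalizedEigenform) :
    heckeAlgebra M 2 (∅ : Set ℕ) →+* integralClosure ℤ ℂ :=
  (eigenChar hf).codRestrict (integralClosure ℤ ℂ).toSubring
    (ringHom_mem_integralClosure (eigenChar hf))

theorem coe_eigenCharInt {f : CuspForm (Gamma0 M) 2} (hf : f.IsNormalizedEigenform)
    (t : heckeAlgebra M 2 (∅ : Set ℕ)) :
    ((eigenCharInt hf t : integralClosure ℤ ℂ) : ℂ) = eigenChar hf t := rfl

/-- Conversely, a congruent normalised eigenform gives a maximal ideal of the Hecke algebra. -/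
theorem heckeResMod_of_isResiduallyModularOfLevel {W : WeierstrassCurve ℤ} {p : ℕ}
    (h : W.IsResiduallyModularOfLevel p M) : HeckeResMod W p M := by
  obtain ⟨f, 𝔪, hf, h𝔪, hp𝔪, hcong⟩ := h
  let _ : Algebra (heckeAlgebra M 2 (∅ : Set ℕ)) (integralClosure ℤ ℂ) :=
    (eigenCharInt hf).toAlgebra
  have hint : Algebra.IsIntegral (heckeAlgebra M 2 (∅ : Set ℕ)) (integralClosure ℤ ℂ) :=
    ⟨fun x => (Algebra.IsIntegral.isIntegral (R := ℤ) x).tower_top⟩
  have hmax : (𝔪.comap (algebraMap (heckeAlgebra M 2 (∅ : Set ℕ)) (integralClosure ℤ ℂ))).IsMaximal :=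
    Ideal.isMaximal_comap_of_isIntegral_of_isMaximal 𝔪
  refine ⟨_, hmax, ?_, fun ℓ hℓ hℓM hgood hℓp => ?_⟩
  · rw [Ideal.mem_comap, map_natCast]
    exact hp𝔪
  · rw [Ideal.mem_comap]
    obtain ⟨a, ha, ham⟩ := hcong ℓ hℓ hgood hℓM hℓp
    have e : algebraMap (heckeAlgebra M 2 (∅ : Set ℕ)) (integralClosure ℤ ℂ)
        (heckeAlgebra.T hℓ hℓM (Set.notMem_empty _) - algebraMap ℤ _ (W.apOfModel ℓ)) =
        a - ((W.apOfModel ℓ : ℤ) : integralClosure ℤ ℂ) := by
      rw [map_sub]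
      congr 1
      · apply Subtype.ext
        rw [ha]
        exact eigenChar_T hf hℓ hℓM
      · simp
    rw [e]
    exact ham

/-- **Forms-side interface of level lowering.** -/
theorem isResiduallyModularOfLevel_iff {W : WeierstrassCurve ℤ} {p : ℕ} :
    W.IsResiduallyModularOfLevel p M ↔ HeckeResMod W p M :=
  ⟨heckeResMod_of_isResiduallyModularOfLevel, isResiduallyModularOfLevel_of_heckeResMod⟩

end Fermat.Agent.Lib.Ribet.H404

end
-- ===== PACK-END Lib/Ribet/H404/ResMod.lean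

-- ===== PACK-BEGIN S58/H94/EigChar.lean
section


/-!
# Row S58 (helper94): the eigencharacter of a normalized eigenform on the Hecke algebra away
from `S`, and the control of its range

* `chigOf hh S : heckeAlgebra M 2 S →+* ℂ`, `chigOf_T`;
* `chigOf_range_le` : if `S` contains the primes of `M` and `a_ℓ ∈ R` for all `ℓ ∉ S`, `ℓ ∤ M`,
  then the range of `chigOf hh S` is contained in the subring `R`;
* `isIntegral_qCoeff_h94` : `a_ℓ` is an algebraic integer (`ℓ ∤ M`).
-/

set_option autoImplicit false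

namespace Fermat.Agent.S58.H94

open CuspForm CongruenceSubgroup ModularFormClass

variable {M : ℕ} [NeZero M]

/-- The eigencharacter on the Hecke algebra away from `S`. -/
noncomputable def chigOf {h : CuspForm (Gamma0 M) 2} (hh : h.IsNormalizedEigenform) (S : Set ℕ) :
    heckeAlgebra M 2 S →+* ℂ :=
  (Fermat.Agent.Lib.Ribet.H404.eigenChar hh).comp
    (Subalgebra.inclusion (heckeAlgebra_mono (N := M) (k := 2) (Set.empty_subset S))).toRingHom

theorem chigOf_T {h : CuspForm (Gamma0 M) 2} (hh : h.IsNormalizedEigenform) (S : Set ℕ)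
    {ℓ : ℕ} (hℓ : ℓ.Prime) (hℓM : ¬ ℓ ∣ M) (hℓS : ℓ ∉ S) :
    chigOf hh S (heckeAlgebra.T hℓ hℓM hℓS) = qCoeff ⇑h ℓ := by
  have : (Subalgebra.inclusion (heckeAlgebra_mono (N := M) (k := 2) (Set.empty_subset S)))
      (heckeAlgebra.T hℓ hℓM hℓS) = heckeAlgebra.T hℓ hℓM (Set.notMem_empty _) :=
    Subtype.ext rfl
  show Fermat.Agent.Lib.Ribet.H404.eigenChar hh
    ((Subalgebra.inclusion (heckeAlgebra_mono (N := M) (k := 2) (Set.empty_subset S)))
      (heckeAlgebra.T hℓ hℓM hℓS)) = _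
  rw [this, Fermat.Agent.Lib.Ribet.H404.eigenChar_T]

theorem chigOf_mem {h : CuspForm (Gamma0 M) 2} (hh : h.IsNormalizedEigenform) (S : Set ℕ)
    (R : Subring ℂ)
    (hR : ∀ ℓ : ℕ, ℓ.Prime → ¬ ℓ ∣ M → ℓ ∉ S → qCoeff ⇑h ℓ ∈ R)
    (hS : ∀ q : ℕ, q.Prime → q ∣ M → q ∈ S) (t : heckeAlgebra M 2 S) :
    chigOf hh S t ∈ R := by
  obtain ⟨t, ht⟩ := t
  induction ht using Algebra.adjoin_induction with
  | mem x hx =>
    rcases hx with ⟨ℓ, hℓ, hℓN, hℓS, rfl⟩ | ⟨q, hqN, hq, hqS, rfl⟩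
    · have := chigOf_T hh S hℓ hℓN hℓS
      have e : (⟨heckeTLin 2 hℓ hℓN, Algebra.subset_adjoin
          (heckeTLin_mem_heckeGenerators hℓ hℓN hℓS)⟩ : heckeAlgebra M 2 S)
          = heckeAlgebra.T hℓ hℓN hℓS := rfl
      rw [e, this]
      exact hR ℓ hℓ hℓN hℓS
    · exact absurd (hS q hq hqN) hqS
  | algebraMap r =>
    have e : (⟨algebraMap ℤ _ r, Subalgebra.algebraMap_mem _ r⟩ : heckeAlgebra M 2 S)
        = ((r : ℤ) : heckeAlgebra M 2 S) := by
      apply Subtype.ext
      simp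
    rw [e, map_intCast]
    exact intCast_mem R r
  | add x y hx hy ihx ihy =>
    have e : (⟨x + y, Subalgebra.add_mem _ hx hy⟩ : heckeAlgebra M 2 S)
        = (⟨x, hx⟩ : heckeAlgebra M 2 S) + ⟨y, hy⟩ := rfl
    rw [e, map_add]
    exact R.add_mem ihx ihy
  | mul x y hx hy ihx ihy =>
    have e : (⟨x * y, Subalgebra.mul_mem _ hx hy⟩ : heckeAlgebra M 2 S)
        = (⟨x, hx⟩ : heckeAlgebra M 2 S) * ⟨y, hy⟩ := rfl
    rw [e, map_mul]
    exact R.mul_mem ihx ihy

theorem chigOf_range_le {h : CuspForm (Gamma0 M) 2} (hh : h.IsNormalizedEigenform) (S : Set ℕ)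
    (R : Subring ℂ)
    (hR : ∀ ℓ : ℕ, ℓ.Prime → ¬ ℓ ∣ M → ℓ ∉ S → qCoeff ⇑h ℓ ∈ R)
    (hS : ∀ q : ℕ, q.Prime → q ∣ M → q ∈ S) : (chigOf hh S).range ≤ R := by
  rintro x ⟨t, rfl⟩
  exact chigOf_mem hh S R hR hS t

/-- The eigenvalue `a_ℓ` of a normalized eigenform is an algebraic integer (`ℓ ∤ M`). -/
theorem isIntegral_qCoeff_h94 {h : CuspForm (Gamma0 M) 2} (hh : h.IsNormalizedEigenform)
    {ℓ : ℕ} (hℓ : ℓ.Prime) (hℓM : ¬ ℓ ∣ M) : IsIntegral ℤ (qCoeff ⇑h ℓ) := by
  have := Fermat.Agent.Lib.Ribet.H404.ringHom_mem_integralClosure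
    (Fermat.Agent.Lib.Ribet.H404.eigenChar hh) (heckeAlgebra.T hℓ hℓM (Set.notMem_empty _))
  rw [Fermat.Agent.Lib.Ribet.H404.eigenChar_T] at this
  exact this

end Fermat.Agent.S58.H94

end
-- ===== PACK-END S58/H94/EigChar.lean

-- ===== PACK-BEGIN S35/G/H858/T1F.lean
section





/-!
# S35, piece (G'), leaf T1F (helper858): descent `ℚ̄ → E`

`t1f : T1FStatement` (helper450's `SpecLevel.lean`, VERBATIM).

Proof (pattern of `A2/T1/H669`): the function `f` and the data `c, g`, `c', g'` of the two norm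
hypotheses descend to every level containing a finite set `S`; IFs gives a good `s`-stable level
`E ⊇ S`; `m ∣ div f` becomes `DivisibleDiv` (helper669 T2); the norms along `α`, `β` commute with
the constant field extension `E ⊆ ℚ̄` (`S35/H858/NormBC.lean`: the constants `ε_j`, `ε` an
`E`-basis of `ℚ̄`, form a basis of `F̄` over `F_E` at both levels, so an `F_{M,E}`-basis of
`F_{Mq,E}` is an `F̄_M`-basis of `F̄_{Mq}`; no degree computation is needed); the conclusion is
pushed back by `iota`.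
-/

set_option autoImplicit false
set_option linter.style.haveILetI false
set_option synthInstance.maxHeartbeats 400000
set_option maxHeartbeats 1600000

noncomputable section

namespace Fermat.Agent.S35.G.H858

open ModularCurve AlgebraicCurve Fermat.Agent.S35.G Fermat.Agent.S29.H395

/-- `iota` commutes with `frobSub`. -/
theorem iota_frobSub (E : IntermediateField ℚ Qb) (N : ℕ)
    (φE : A2.Mod.FE E N ≃+* A2.Mod.FE E N)
    (φ : modularFunctionFieldBar N ≃+* modularFunctionFieldBar N)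
    (hφ : ∀ y, A2.T1.H669.iota E (modularFunctionFieldFull N) (φE y) =
      φ (A2.T1.H669.iota E (modularFunctionFieldFull N) y))
    (Q : ℕ) (y : A2.Mod.FE E N) :
    A2.T1.H669.iota E (modularFunctionFieldFull N) (frobSub φE Q y) =
      frobSub φ Q (A2.T1.H669.iota E (modularFunctionFieldFull N) y) := by
  unfold frobSub
  rw [map_mul, map_inv₀, map_pow, hφ]

/-- `iota` commutes with `frobPoly`. -/
theorem iota_frobPoly (E : IntermediateField ℚ Qb) (N : ℕ)
    (φE : A2.Mod.FE E N ≃+* A2.Mod.FE E N)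
    (φ : modularFunctionFieldBar N ≃+* modularFunctionFieldBar N)
    (hφ : ∀ y, A2.T1.H669.iota E (modularFunctionFieldFull N) (φE y) =
      φ (A2.T1.H669.iota E (modularFunctionFieldFull N) y))
    (Q : ℕ) (y : A2.Mod.FE E N) :
    A2.T1.H669.iota E (modularFunctionFieldFull N) (frobPoly φE Q y) =
      frobPoly φ Q (A2.T1.H669.iota E (modularFunctionFieldFull N) y) := by
  unfold frobPoly
  rw [iota_frobSub E N φE φ hφ, iota_frobSub E N φE φ hφ, iota_frobSub E N φE φ hφ]

/-- Descent of a norm hypothesis. -/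
theorem normPow_descent (E : IntermediateField ℚ Qb) (M q m : ℕ) [NeZero M] [NeZero q]
    (ψE : A2.Mod.FE E M →ₐ[E] A2.Mod.FE E (M * q))
    (ψ : modularFunctionFieldBar M →ₐ[Qb] modularFunctionFieldBar (M * q))
    (hN : ∀ y, A2.T1.H669.iota E (modularFunctionFieldFull M) (normAlong ψE y) =
      normAlong ψ (A2.T1.H669.iota E (modularFunctionFieldFull (M * q)) y))
    (y : A2.Mod.FE E (M * q)) (c : Qb) (hc : c ∈ E) (g : A2.Mod.FE E M)
    (h : normAlong ψ (A2.T1.H669.iota E (modularFunctionFieldFull (M * q)) y) =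
      algebraMap Qb (modularFunctionFieldBar M) c *
        (A2.T1.H669.iota E (modularFunctionFieldFull M) g) ^ m) :
    NormPow ψE m y := by
  refine ⟨⟨c, hc⟩, g, ?_⟩
  apply A2.T1.H669.iota_injective E (modularFunctionFieldFull M)
  rw [hN, h, map_mul, map_pow, A2.T1.H669.iota_algebraMap]
  rfl

/-- **T1F.** -/
theorem t1f : T1FStatement := by
  intro M q m _ _ hq hqM hm hqm hIF hLEV A hA s hs f hf hdiv hNα hNβ
  classical
  obtain ⟨c₁, g₁, h₁⟩ := hNα
  obtain ⟨c₂, g₂, h₂⟩ := hNβ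
  obtain ⟨S₁, hS₁⟩ :=
    A2.T1.H669.exists_finset_descent (modularFunctionFieldFull (M * q)) f
  obtain ⟨S₂, hS₂⟩ := A2.T1.H669.exists_finset_descent (modularFunctionFieldFull M) g₁
  obtain ⟨S₃, hS₃⟩ := A2.T1.H669.exists_finset_descent (modularFunctionFieldFull M) g₂
  obtain ⟨E, hSE, hE, hst⟩ :=
    hIF q hq A hA s hs.mem_decompositionSubgroup (S₁ ∪ S₂ ∪ S₃ ∪ {c₁, c₂})
  obtain ⟨y, hy⟩ := hS₁ E (fun x hx => hSE x (by simp [hx]))
  obtain ⟨a, ha⟩ := hS₂ E (fun x hx => hSE x (by simp [hx]))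
  obtain ⟨b, hb⟩ := hS₃ E (fun x hx => hSE x (by simp [hx]))
  have hc₁ : c₁ ∈ E := hSE c₁ (by simp)
  have hc₂ : c₂ ∈ E := hSE c₂ (by simp)
  have hy0 : y ≠ 0 := by
    rintro rfl
    exact hf (by rw [← hy, map_zero])
  have hNy : NormPow (A2.Mod.αE E M q) m y :=
    normPow_descent E M q m _ _
      (Fermat.Agent.S35.H858.iota_normAlong_alpha E M q
        (Fermat.Agent.Lib.HI.H864.finiteAlong_alpha M q))
      y c₁ hc₁ a (by rw [hy, ha]; exact h₁)
  have hNy' : NormPow (A2.Mod.βE E M q) m y :=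
    normPow_descent E M q m _ _
      (Fermat.Agent.S35.H858.iota_normAlong_beta E M q
        (Fermat.Agent.Lib.HI.H864.finiteAlong_beta M q))
      y c₂ hc₂ b (by rw [hy, hb]; exact h₂)
  obtain ⟨h, hh0, hh⟩ := hLEV A E hA hE s hst hs y hy0
    (A2.T1.H669.divisibleDiv_of_ord E (modularFunctionFieldFull (M * q)) m y hy0
      (fun v => by rw [hy]; exact hdiv v))
    hNy hNy'
  refine ⟨1, A2.T1.H669.iota E _ h, one_ne_zero, ?_⟩
  have h3 := congrArg (A2.T1.H669.iota E (modularFunctionFieldFull (M * q))) hh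
  rw [iota_frobPoly E (M * q) (psiE E (M * q) s hst) (actBar (M * q) (s * s))
    (fun z => A2.T1.H669.iota_arithmeticRingAut E _ (s * s)
      (A2.Mod.resE E s hst * A2.Mod.resE E s hst) (fun e => rfl) z), hy, map_pow] at h3
  rw [h3, map_one, one_mul]

end Fermat.Agent.S35.G.H858

end
end
-- ===== PACK-END S35/G/H858/T1F.lean

-- ===== PACK-BEGIN A2/H729/Bridge.lean
section



/-!
# A2 (helper729): from the components of the special fibre to the canonical Gauss ring

`B = chart R {x}`, `p₁, p₂` prime ideals of `B` with `p₁ ⊓ p₂ = (w)` (the two components of a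
reduced special fibre).

* `inv_mem_gaussO_of_not_mem` (**Gauss units**): `b ∈ B`, `b ∉ p₁`, `b ∉ p₂` implies
  `b⁻¹ ∈ gaussO` (going-up and incomparability for the integral extension `R[x] ⊆ B`).
* `inW_sub_one_of_oneAt` (**bridge**): if `h ≡ 1` on both components
  (`h b_i = a_i`, `b_i ∉ p_i`, `a_i - b_i ∈ p_i`) and the components are incomparable, then
  `h ≡ 1 mod w · gaussO`.
-/

set_option autoImplicit false
set_option linter.unusedSectionVars false
set_option linter.style.haveILetI false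

namespace Fermat.Agent.A2.H729

open Polynomial Fermat.Agent.S18.H138

variable {R : Type*} [CommRing R] [IsDomain R] {F : Type*} [Field F] [Algebra R F]

/-- The inclusion `R[x] → chart R {x}`. -/
noncomputable def adjoinToChart (x : F) :
    Algebra.adjoin R ({x} : Set F) →+* chart R ({x} : Set F) :=
  (Subalgebra.inclusion (adjoin_le_chart (R := R) ({x} : Set F))).toRingHom

theorem coe_adjoinToChart (x : F) (a : Algebra.adjoin R ({x} : Set F)) :
    ((adjoinToChart x a : chart R ({x} : Set F)) : F) = (a : F) := rfl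

theorem adjoinToChart_algebraMap (x : F) (r : R) :
    adjoinToChart x (algebraMap R (Algebra.adjoin R ({x} : Set F)) r) =
      algebraMap R (chart R ({x} : Set F)) r := rfl

theorem adjoinToChart_isIntegral (x : F) : (adjoinToChart (R := R) x).IsIntegral := by
  intro b
  obtain ⟨p, hpm, hp⟩ := (mem_chart.1 b.2 : IsIntegral (Algebra.adjoin R ({x} : Set F)) (b : F))
  refine ⟨p, hpm, ?_⟩
  apply Subtype.ext
  have h1 : ((eval₂ (adjoinToChart (R := R) x) b p : chart R ({x} : Set F)) : F) =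
      eval₂ (((chart R ({x} : Set F)).val.toRingHom).comp (adjoinToChart (R := R) x))
        (b : F) p :=
    hom_eval₂ p (adjoinToChart (R := R) x) ((chart R ({x} : Set F)).val.toRingHom) b
  rw [h1]
  exact hp

/-- **Gauss units.**  An element of the chart outside both components of the special fibre is
a unit of the Gauss ring. -/
theorem exists_gaussDenom_mul_of_not_mem {w : R} (hw : Prime w) {x : F}
    (hx : Transcendental R x) {p₁ p₂ : Ideal (chart R ({x} : Set F))}
    (hp₁ : p₁.IsPrime) (hp₂ : p₂.IsPrime)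
    (hinf : p₁ ⊓ p₂ = Ideal.span {algebraMap R (chart R ({x} : Set F)) w})
    {b : chart R ({x} : Set F)} (hb₁ : b ∉ p₁) (hb₂ : b ∉ p₂) :
    ∃ s : F, IsGaussDenom w x s ∧ ∃ c : chart R ({x} : Set F), s = (b : F) * (c : F) := by
  classical
  letI : Algebra (Algebra.adjoin R ({x} : Set F)) (chart R ({x} : Set F)) :=
    (adjoinToChart (R := R) x).toAlgebra
  haveI : Algebra.IsIntegral (Algebra.adjoin R ({x} : Set F)) (chart R ({x} : Set F)) :=
    ⟨adjoinToChart_isIntegral x⟩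
  have hwAp : Prime (algebraMap R (Algebra.adjoin R ({x} : Set F)) w) :=
    prime_algebraMap_adjoin hw hx
  haveI hPprime : (Ideal.span {algebraMap R (Algebra.adjoin R ({x} : Set F)) w}).IsPrime :=
    (Ideal.span_singleton_prime hwAp.ne_zero).2 hwAp
  have hw₁ : algebraMap R (chart R ({x} : Set F)) w ∈ p₁ := by
    have : algebraMap R (chart R ({x} : Set F)) w ∈ p₁ ⊓ p₂ := by
      rw [hinf]; exact Ideal.mem_span_singleton_self _
    exact this.1
  have hw₂ : algebraMap R (chart R ({x} : Set F)) w ∈ p₂ := by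
    have : algebraMap R (chart R ({x} : Set F)) w ∈ p₁ ⊓ p₂ := by
      rw [hinf]; exact Ideal.mem_span_singleton_self _
    exact this.2
  -- the key claim
  have key : ¬ (Ideal.span {b}).comap
      (algebraMap (Algebra.adjoin R ({x} : Set F)) (chart R ({x} : Set F))) ≤
      Ideal.span {algebraMap R (Algebra.adjoin R ({x} : Set F)) w} := by
    intro hle
    obtain ⟨Q, hQb, hQp, hQ⟩ := Ideal.exists_ideal_over_prime_of_isIntegral
      (Ideal.span {algebraMap R (Algebra.adjoin R ({x} : Set F)) w}) (Ideal.span {b}) hle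
    have hbQ : b ∈ Q := hQb (Ideal.mem_span_singleton_self b)
    have hwQ : algebraMap R (chart R ({x} : Set F)) w ∈ Q := by
      have : algebraMap R (Algebra.adjoin R ({x} : Set F)) w ∈
          Q.comap (algebraMap (Algebra.adjoin R ({x} : Set F)) (chart R ({x} : Set F))) := by
        rw [hQ]; exact Ideal.mem_span_singleton_self _
      exact this
    have hle' : p₁ ⊓ p₂ ≤ Q := by
      rw [hinf, Ideal.span_singleton_le_iff_mem]
      exact hwQ
    -- a component contained in `Q` with the same contraction equals `Q`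
    have aux : ∀ p : Ideal (chart R ({x} : Set F)), p.IsPrime →
        algebraMap R (chart R ({x} : Set F)) w ∈ p → p ≤ Q → b ∉ p → False := by
      intro p hp hwp hpQ hbp
      have hlt : p < Q := lt_of_le_of_ne hpQ (fun h => hbp (h ▸ hbQ))
      obtain ⟨z, hzQ, hzp⟩ := SetLike.exists_of_lt hlt
      have h1 : p.comap (algebraMap (Algebra.adjoin R ({x} : Set F)) (chart R ({x} : Set F))) <
          Q.comap (algebraMap (Algebra.adjoin R ({x} : Set F)) (chart R ({x} : Set F))) :=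
        Ideal.comap_lt_comap_of_integral_mem_sdiff hpQ ⟨hzQ, hzp⟩
          (Algebra.IsIntegral.isIntegral z)
      have h2 : Q.comap (algebraMap (Algebra.adjoin R ({x} : Set F)) (chart R ({x} : Set F))) ≤
          p.comap (algebraMap (Algebra.adjoin R ({x} : Set F)) (chart R ({x} : Set F))) := by
        rw [hQ, Ideal.span_singleton_le_iff_mem]
        exact hwp
      exact (lt_irrefl _ (lt_of_lt_of_le h1 h2))
    rcases (Ideal.IsPrime.inf_le hQp).1 hle' with h | h
    · exact aux p₁ hp₁ hw₁ h hb₁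
    · exact aux p₂ hp₂ hw₂ h hb₂
  obtain ⟨a, ha, haP⟩ := SetLike.not_le_iff_exists.1 key
  have ha' : algebraMap (Algebra.adjoin R ({x} : Set F)) (chart R ({x} : Set F)) a ∈
      Ideal.span {b} := ha
  obtain ⟨c, hc⟩ := Ideal.mem_span_singleton'.1 ha'
  have hnd : ¬ algebraMap R (Algebra.adjoin R ({x} : Set F)) w ∣ a :=
    fun h => haP (Ideal.mem_span_singleton.2 h)
  refine ⟨(a : F), isGaussDenom_of_not_dvd hx hnd, c, ?_⟩
  have := congrArg (fun t : chart R ({x} : Set F) => (t : F)) hc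
  rw [mul_comm]
  exact this.symm

theorem inv_mem_gaussO_of_not_mem {w : R} (hw : Prime w) {x : F}
    (hx : Transcendental R x) {p₁ p₂ : Ideal (chart R ({x} : Set F))}
    (hp₁ : p₁.IsPrime) (hp₂ : p₂.IsPrime)
    (hinf : p₁ ⊓ p₂ = Ideal.span {algebraMap R (chart R ({x} : Set F)) w})
    {b : chart R ({x} : Set F)} (hb₁ : b ∉ p₁) (hb₂ : b ∉ p₂) :
    (b : F)⁻¹ ∈ gaussO hw x := by
  obtain ⟨s, hs, c, hsc⟩ := exists_gaussDenom_mul_of_not_mem hw hx hp₁ hp₂ hinf hb₁ hb₂
  have hb0 : (b : F) ≠ 0 := by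
    intro h0
    apply hb₁
    have : b = 0 := Subtype.ext h0
    rw [this]
    exact p₁.zero_mem
  refine ⟨s, hs, ?_⟩
  have : s * (b : F)⁻¹ = (c : F) := by
    rw [hsc]; field_simp
  rw [this]
  exact c.2

/-- **Bridge.**  `h ≡ 1` on both components implies `h ≡ 1 mod w · gaussO`. -/
theorem inW_sub_one_of_oneAt {w : R} (hw : Prime w) {x : F}
    (hx : Transcendental R x) {p₁ p₂ : Ideal (chart R ({x} : Set F))}
    (hp₁ : p₁.IsPrime) (hp₂ : p₂.IsPrime)
    (hinf : p₁ ⊓ p₂ = Ideal.span {algebraMap R (chart R ({x} : Set F)) w})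
    (h₁₂ : ¬ p₁ ≤ p₂) (h₂₁ : ¬ p₂ ≤ p₁) {h : F}
    (hone₁ : ∃ a b : chart R ({x} : Set F), b ∉ p₁ ∧ a - b ∈ p₁ ∧ h * (b : F) = (a : F))
    (hone₂ : ∃ a b : chart R ({x} : Set F), b ∉ p₂ ∧ a - b ∈ p₂ ∧ h * (b : F) = (a : F)) :
    InW (gaussO hw x) w (h - 1) := by
  obtain ⟨a₁, b₁, hb₁, hab₁, e₁⟩ := hone₁
  obtain ⟨a₂, b₂, hb₂, hab₂, e₂⟩ := hone₂
  obtain ⟨c₂, hc₂p₁, hc₂p₂⟩ := SetLike.not_le_iff_exists.1 h₁₂
  obtain ⟨c₁, hc₁p₂, hc₁p₁⟩ := SetLike.not_le_iff_exists.1 h₂₁
  -- `c₁ ∈ p₂ ∖ p₁`, `c₂ ∈ p₁ ∖ p₂`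
  set b := b₁ * c₁ + b₂ * c₂ with hb
  set a := a₁ * c₁ + a₂ * c₂ with ha
  have hbp₁ : b ∉ p₁ := by
    intro hmem
    have h1 : b₂ * c₂ ∈ p₁ := p₁.mul_mem_left _ hc₂p₁
    have h2 : b₁ * c₁ ∈ p₁ := by
      have := p₁.sub_mem hmem h1
      rwa [hb, add_sub_cancel_right] at this
    rcases hp₁.mem_or_mem h2 with h3 | h3
    · exact hb₁ h3
    · exact hc₁p₁ h3
  have hbp₂ : b ∉ p₂ := by
    intro hmem
    have h1 : b₁ * c₁ ∈ p₂ := p₂.mul_mem_left _ hc₁p₂
    have h2 : b₂ * c₂ ∈ p₂ := by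
      have := p₂.sub_mem hmem h1
      rwa [hb, add_sub_cancel_left] at this
    rcases hp₂.mem_or_mem h2 with h3 | h3
    · exact hb₂ h3
    · exact hc₂p₂ h3
  have hab : a - b ∈ p₁ ⊓ p₂ := by
    have e : a - b = (a₁ - b₁) * c₁ + (a₂ - b₂) * c₂ := by rw [ha, hb]; ring
    rw [e]
    refine ⟨p₁.add_mem (p₁.mul_mem_right _ hab₁) (p₁.mul_mem_left _ hc₂p₁),
      p₂.add_mem (p₂.mul_mem_left _ hc₁p₂) (p₂.mul_mem_right _ hab₂)⟩
  rw [hinf] at hab
  obtain ⟨d, hd⟩ := Ideal.mem_span_singleton'.1 hab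
  have hbinv := inv_mem_gaussO_of_not_mem hw hx hp₁ hp₂ hinf hbp₁ hbp₂
  have hb0 : (b : F) ≠ 0 := by
    intro h0
    apply hbp₁
    have : b = 0 := Subtype.ext h0
    rw [this]
    exact p₁.zero_mem
  have ehb : h * (b : F) = (a : F) := by
    have : (b : F) = (b₁ : F) * c₁ + (b₂ : F) * c₂ := by rw [hb]; rfl
    rw [this]
    have : (a : F) = (a₁ : F) * c₁ + (a₂ : F) * c₂ := by rw [ha]; rfl
    rw [this, ← e₁, ← e₂]
    ring
  have hdF : (a : F) - (b : F) = (d : F) * algebraMap R F w := by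
    have := congrArg (fun t : chart R ({x} : Set F) => (t : F)) hd
    exact this.symm
  refine ⟨(d : F) * (b : F)⁻¹,
    Subalgebra.mul_mem _ (chart_fin_le_gaussO hw x d.2) hbinv, ?_⟩
  have : h - 1 = ((a : F) - (b : F)) * (b : F)⁻¹ := by
    rw [← ehb]; field_simp
  rw [this, hdF]
  ring

end Fermat.Agent.A2.H729

end
-- ===== PACK-END A2/H729/Bridge.lean

-- ===== PACK-BEGIN A2/H729/GaussClosed.lean
section



/-!
# A2 (helper729): the canonical Gauss ring is integrally closed in `F`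

* `mem_chart_of_isIntegral_chart` : the charts are integrally closed in `F`.
* `mem_gaussO_of_isIntegral` : the Gauss ring `gaussO hw x` is integrally closed in `F`.
* `inv_not_mem_gaussO` : `w⁻¹ ∉ gaussO`.
-/

set_option autoImplicit false
set_option linter.unusedSectionVars false
set_option linter.style.haveILetI false

namespace Fermat.Agent.A2.H729

open Polynomial Fermat.Agent.S18.H138

variable {R : Type*} [CommRing R] {F : Type*} [Field F] [Algebra R F]

/-- An element integral over a chart lies in the chart. -/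
theorem mem_chart_of_isIntegral_chart {S : Set F} {y : F} (hy : IsIntegral (chart R S) y) :
    y ∈ chart R S := by
  rw [mem_chart]
  have h1 : IsIntegral (integralClosure (Algebra.adjoin R S) F) y := hy
  exact isIntegral_trans (R := Algebra.adjoin R S) (A := integralClosure (Algebra.adjoin R S) F)
    y h1

theorem IsGaussDenom.prod {w : R} (hw : Prime w) (x : F) {ι : Type*} (s : Finset ι)
    (g : ι → F) (h : ∀ i ∈ s, IsGaussDenom w x (g i)) : IsGaussDenom w x (∏ i ∈ s, g i) := by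
  classical
  induction s using Finset.induction_on with
  | empty => simpa using isGaussDenom_one hw x
  | insert a s ha ih =>
    rw [Finset.prod_insert ha]
    exact (h a (Finset.mem_insert_self a s)).mul hw
      (ih fun i hi => h i (Finset.mem_insert_of_mem hi))

/-- The Gauss ring is integrally closed in `F`. -/
theorem mem_gaussO_of_isIntegral {w : R} (hw : Prime w) {x f : F}
    (hf : IsIntegral (gaussO hw x) f) : f ∈ gaussO hw x := by
  classical
  obtain ⟨p, hpm, hp⟩ := hf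
  have hden : ∀ i : ℕ, ∃ s, IsGaussDenom w x s ∧
      s * ((p.coeff i : gaussO hw x) : F) ∈ chart R ({x} : Set F) := fun i => (p.coeff i).2
  choose s hs hsc using hden
  have hS : IsGaussDenom w x (∏ i ∈ Finset.range p.natDegree, s i) :=
    IsGaussDenom.prod hw x _ _ (fun i _ => hs i)
  have hSch : (∏ i ∈ Finset.range p.natDegree, s i) ∈ chart R ({x} : Set F) :=
    adjoin_le_chart _ hS.mem_adjoin
  have hSmem : (∏ i ∈ Finset.range p.natDegree, s i) ∈ gaussO hw x :=
    chart_fin_le_gaussO hw x hSch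
  have hScoeff : ∀ i < p.natDegree,
      (∏ i ∈ Finset.range p.natDegree, s i) * ((p.coeff i : gaussO hw x) : F) ∈
        chart R ({x} : Set F) := by
    intro i hi
    have h1 : (∏ j ∈ Finset.range p.natDegree, s j) =
        s i * ∏ j ∈ (Finset.range p.natDegree).erase i, s j :=
      (Finset.mul_prod_erase _ _ (Finset.mem_range.2 hi)).symm
    rw [h1, mul_right_comm]
    exact Subalgebra.mul_mem _ (hsc i)
      (Subalgebra.prod_mem _ fun j _ => adjoin_le_chart _ (hs j).mem_adjoin)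
  generalize hSdef : (∏ i ∈ Finset.range p.natDegree, s i) = S at hS hSch hSmem hScoeff
  -- the scaled polynomial
  have hroot : eval₂ (algebraMap (gaussO hw x) F) (S * f)
      (scaleRoots p (⟨S, hSmem⟩ : gaussO hw x)) = 0 := by
    have h1 := scaleRoots_eval₂_mul (p := p) (algebraMap (gaussO hw x) F) f
      (⟨S, hSmem⟩ : gaussO hw x)
    have h2 : algebraMap (gaussO hw x) F (⟨S, hSmem⟩ : gaussO hw x) = S := rfl
    rw [h2] at h1
    rw [h1, hp, mul_zero]
  have hlift : scaleRoots p (⟨S, hSmem⟩ : gaussO hw x) ∈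
      lifts (Subalgebra.inclusion (chart_fin_le_gaussO hw x)).toRingHom := by
    rw [lifts_iff_coeff_lifts]
    intro i
    rw [coeff_scaleRoots]
    rcases lt_trichotomy i p.natDegree with hi | hi | hi
    · have h1 : ((p.coeff i : gaussO hw x) : F) * S ^ (p.natDegree - i) ∈
          chart R ({x} : Set F) := by
        have h2 : S ^ (p.natDegree - i) = S * S ^ (p.natDegree - i - 1) := by
          rw [← pow_succ']; congr 1; omega
        have h3 : ((p.coeff i : gaussO hw x) : F) * S ^ (p.natDegree - i) =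
            (S * ((p.coeff i : gaussO hw x) : F)) * S ^ (p.natDegree - i - 1) := by
          rw [h2]; ring
        rw [h3]
        exact Subalgebra.mul_mem _ (hScoeff i hi) (Subalgebra.pow_mem _ hSch _)
      exact ⟨⟨_, h1⟩, Subtype.ext rfl⟩
    · rw [hi, hpm.coeff_natDegree, Nat.sub_self, pow_zero, mul_one]
      exact ⟨1, map_one _⟩
    · rw [coeff_eq_zero_of_natDegree_lt hi, zero_mul]
      exact ⟨0, map_zero _⟩
  obtain ⟨q, hq, -, hqm⟩ := lifts_and_degree_eq_and_monic hlift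
    ((monic_scaleRoots_iff (⟨S, hSmem⟩ : gaussO hw x)).2 hpm)
  have hint : IsIntegral (chart R ({x} : Set F)) (S * f) := by
    refine ⟨q, hqm, ?_⟩
    have h1 : (algebraMap (gaussO hw x) F).comp
        (Subalgebra.inclusion (chart_fin_le_gaussO hw x)).toRingHom =
        algebraMap (chart R ({x} : Set F)) F := rfl
    rw [← h1, ← eval₂_map, hq]
    exact hroot
  exact ⟨S, hS, mem_chart_of_isIntegral_chart hint⟩

section Dom

variable [IsDomain R] [IsIntegrallyClosed (Polynomial R)]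

/-- `w` is not a unit of the Gauss ring. -/
theorem inv_not_mem_gaussO (hinjR : Function.Injective (algebraMap R F)) {w : R}
    (hw : Prime w) {x : F} (hx : Transcendental R x) :
    (algebraMap R F w)⁻¹ ∉ gaussO hw x := by
  intro h
  have hw0 : algebraMap R F w ≠ 0 := fun h0 => hw.ne_zero (hinjR (by rw [h0, map_zero]))
  have h1 : InW (gaussO hw x) w (algebraMap R F 1) := by
    refine ⟨_, h, ?_⟩
    rw [map_one, mul_inv_cancel₀ hw0]
  obtain ⟨t, ht, htt⟩ := qep_fin hw hx _ (Subalgebra.algebraMap_mem _ (1 : R)) h1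
  have h2 : w ∣ (1 : R) := dvd_of_algebraMap_eq_mul hinjR hx w 1 ht htt
  exact hw.not_isUnit (isUnit_of_dvd_one h2)

end Dom

end Fermat.Agent.A2.H729

end
-- ===== PACK-END A2/H729/GaussClosed.lean

-- ===== PACK-BEGIN A2/H729/BaseChange.lean
section


/-!
# A2 (helper729): base change of charts and Gauss rings along a field extension `F₀ → F`

`F₀ ⊆ F` fields over `R`, `x₀ ∈ F₀`, `x = algebraMap F₀ F x₀`.  The charts and the Gauss ring of
`F₀` map into those of `F`, congruences modulo `w O` are preserved, maximal ideals of the chart of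
`F` contract to maximal ideals of the chart of `F₀`, and `F₀`-automorphisms of `F` preserve the
charts, the Gauss ring and congruences modulo `w O`.
-/

set_option autoImplicit false
set_option linter.unusedSectionVars false

namespace Fermat.Agent.A2.H729

open Polynomial Fermat.Agent.S18.H138

variable {R : Type*} [CommRing R] {F₀ : Type*} [Field F₀] [Algebra R F₀]
  {F : Type*} [Field F] [Algebra R F] [Algebra F₀ F] [IsScalarTower R F₀ F]

/-- The restriction `R[S] → R[φ S]` of `F₀ → F`. -/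
noncomputable def adjoinMap (S : Set F₀) :
    Algebra.adjoin R S →ₐ[R] Algebra.adjoin R ((algebraMap F₀ F) '' S) :=
  AlgHom.codRestrict ((IsScalarTower.toAlgHom R F₀ F).comp (Algebra.adjoin R S).val)
    (Algebra.adjoin R ((algebraMap F₀ F) '' S)) (fun a => by
      have h := AlgHom.map_adjoin (IsScalarTower.toAlgHom R F₀ F) S
      have h2 : (IsScalarTower.toAlgHom R F₀ F) a ∈
          Subalgebra.map (IsScalarTower.toAlgHom R F₀ F) (Algebra.adjoin R S) :=
        Subalgebra.mem_map.2 ⟨a, a.2, rfl⟩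
      rw [h] at h2
      exact h2)

theorem coe_adjoinMap (S : Set F₀) (a : Algebra.adjoin R S) :
    ((adjoinMap (F := F) S a : Algebra.adjoin R ((algebraMap F₀ F) '' S)) : F) =
      algebraMap F₀ F a := rfl

/-- Charts map to charts. -/
theorem algebraMap_mem_chart {S : Set F₀} {z : F₀} (hz : z ∈ chart R S) :
    algebraMap F₀ F z ∈ chart R ((algebraMap F₀ F) '' S) := by
  rw [mem_chart] at hz ⊢
  exact IsIntegral.map_of_comp_eq (adjoinMap (F := F) S).toRingHom (algebraMap F₀ F)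
    (by ext a; rfl) hz

theorem algebraMap_mem_chart_singleton {x₀ z : F₀} (hz : z ∈ chart R ({x₀} : Set F₀)) :
    algebraMap F₀ F z ∈ chart R ({algebraMap F₀ F x₀} : Set F) := by
  have := algebraMap_mem_chart (F := F) hz
  rwa [Set.image_singleton] at this

theorem algebraMap_mem_chart_inv {x₀ z : F₀} (hz : z ∈ chart R ({x₀⁻¹} : Set F₀)) :
    algebraMap F₀ F z ∈ chart R ({(algebraMap F₀ F x₀)⁻¹} : Set F) := by
  have := algebraMap_mem_chart (F := F) hz
  rwa [Set.image_singleton, map_inv₀] at this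

theorem IsGaussDenom.map {w : R} {x₀ s : F₀} (hs : IsGaussDenom w x₀ s) :
    IsGaussDenom w (algebraMap F₀ F x₀) (algebraMap F₀ F s) := by
  obtain ⟨Q, hQ, rfl⟩ := hs
  refine ⟨Q, hQ, ?_⟩
  rw [← aeval_algebraMap_apply]

/-- The Gauss ring maps to the Gauss ring. -/
theorem algebraMap_mem_gaussO {w : R} (hw : Prime w) {x₀ t : F₀} (ht : t ∈ gaussO hw x₀) :
    algebraMap F₀ F t ∈ gaussO hw (algebraMap F₀ F x₀) := by
  obtain ⟨s, hs, hst⟩ := ht
  refine ⟨algebraMap F₀ F s, hs.map, ?_⟩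
  rw [← map_mul]
  exact algebraMap_mem_chart_singleton hst

/-- Congruences modulo `w O` are preserved. -/
theorem InW.map {w : R} (hw : Prime w) {x₀ z : F₀} (hz : InW (gaussO hw x₀) w z) :
    InW (gaussO hw (algebraMap F₀ F x₀)) w (algebraMap F₀ F z) := by
  obtain ⟨t, ht, rfl⟩ := hz
  refine ⟨algebraMap F₀ F t, algebraMap_mem_gaussO hw ht, ?_⟩
  rw [map_mul, ← IsScalarTower.algebraMap_apply]

section Auto

/-- `F₀`-automorphisms of `F` preserve the chart. -/
theorem algEquiv_mem_chart (σ : F ≃ₐ[F₀] F) {S : Set F}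
    (hS : ∀ a ∈ S, σ a = a) {z : F} (hz : z ∈ chart R S) : σ z ∈ chart R S := by
  rw [mem_chart] at hz ⊢
  have hfix : ∀ a ∈ Algebra.adjoin R S, σ a = a := by
    intro a ha
    induction ha using Algebra.adjoin_induction with
    | mem y hy => exact hS y hy
    | algebraMap r =>
      rw [IsScalarTower.algebraMap_apply R F₀ F, AlgEquiv.commutes]
    | add y z _ _ hy hz => rw [map_add, hy, hz]
    | mul y z _ _ hy hz => rw [map_mul, hy, hz]
  refine IsIntegral.map_of_comp_eq (RingHom.id _) (σ : F →+* F) ?_ hz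
  ext a
  exact (hfix a a.2).symm

theorem algEquiv_mem_gaussO {w : R} (hw : Prime w) (σ : F ≃ₐ[F₀] F) {x₀ : F₀} {t : F}
    (ht : t ∈ gaussO hw (algebraMap F₀ F x₀)) : σ t ∈ gaussO hw (algebraMap F₀ F x₀) := by
  obtain ⟨s, ⟨Q, hQ, rfl⟩, hst⟩ := ht
  have hsx : σ (algebraMap F₀ F x₀) = algebraMap F₀ F x₀ := σ.commutes x₀
  have hs : σ (aeval (algebraMap F₀ F x₀) Q) = aeval (algebraMap F₀ F x₀) Q := by
    rw [aeval_algebraMap_apply, σ.commutes]
  refine ⟨aeval (algebraMap F₀ F x₀) Q, ⟨Q, hQ, rfl⟩, ?_⟩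
  have := algEquiv_mem_chart (R := R) σ
    (S := ({algebraMap F₀ F x₀} : Set F)) (fun a ha => by
      rw [Set.mem_singleton_iff] at ha; rw [ha, hsx]) hst
  rwa [map_mul, hs] at this

theorem InW.algEquiv {w : R} (hw : Prime w) (σ : F ≃ₐ[F₀] F) {x₀ : F₀} {z : F}
    (hz : InW (gaussO hw (algebraMap F₀ F x₀)) w z) :
    InW (gaussO hw (algebraMap F₀ F x₀)) w (σ z) := by
  obtain ⟨t, ht, rfl⟩ := hz
  refine ⟨σ t, algEquiv_mem_gaussO hw σ ht, ?_⟩
  rw [map_mul, IsScalarTower.algebraMap_apply R F₀ F, σ.commutes]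

end Auto

end Fermat.Agent.A2.H729

end
-- ===== PACK-END A2/H729/BaseChange.lean

-- ===== PACK-BEGIN A2/H729/Contract.lean
section


/-!
# A2 (helper729): contraction of closed points of the chart of `F` to the chart of `F₀`

`chartMap x₀ : chart_{F₀} {x₀} →+* chart_F {x}` is an integral ring homomorphism, so maximal ideals
contract to maximal ideals.
-/

set_option autoImplicit false
set_option linter.unusedSectionVars false

namespace Fermat.Agent.A2.H729

open Polynomial Fermat.Agent.S18.H138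

variable {R : Type*} [CommRing R] {F₀ : Type*} [Field F₀] [Algebra R F₀]
  {F : Type*} [Field F] [Algebra R F] [Algebra F₀ F] [IsScalarTower R F₀ F]

/-- `R[x₀] → R[x]`. -/
noncomputable def adjoinMapS (x₀ : F₀) :
    Algebra.adjoin R ({x₀} : Set F₀) →ₐ[R] Algebra.adjoin R ({algebraMap F₀ F x₀} : Set F) :=
  AlgHom.codRestrict ((IsScalarTower.toAlgHom R F₀ F).comp (Algebra.adjoin R ({x₀} : Set F₀)).val)
    (Algebra.adjoin R ({algebraMap F₀ F x₀} : Set F)) (fun a => by
      have h := AlgHom.map_adjoin_singleton (IsScalarTower.toAlgHom R F₀ F) x₀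
      have h2 : (IsScalarTower.toAlgHom R F₀ F) a ∈
          Subalgebra.map (IsScalarTower.toAlgHom R F₀ F) (Algebra.adjoin R ({x₀} : Set F₀)) :=
        Subalgebra.mem_map.2 ⟨a, a.2, rfl⟩
      rw [h] at h2
      exact h2)

theorem coe_adjoinMapS (x₀ : F₀) (a : Algebra.adjoin R ({x₀} : Set F₀)) :
    ((adjoinMapS (F := F) x₀ a : Algebra.adjoin R ({algebraMap F₀ F x₀} : Set F)) : F) =
      algebraMap F₀ F a := rfl

theorem adjoinMapS_surjective (x₀ : F₀) :
    Function.Surjective (adjoinMapS (R := R) (F := F) x₀) := by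
  rintro ⟨b, hb⟩
  have h := AlgHom.map_adjoin_singleton (IsScalarTower.toAlgHom R F₀ F) x₀
  have hb' : b ∈ Subalgebra.map (IsScalarTower.toAlgHom R F₀ F)
      (Algebra.adjoin R ({x₀} : Set F₀)) := by
    rw [h]; exact hb
  obtain ⟨a, ha, rfl⟩ := Subalgebra.mem_map.1 hb'
  exact ⟨⟨a, ha⟩, Subtype.ext rfl⟩

/-- `chart_{F₀} {x₀} → chart_F {x}`. -/
noncomputable def chartMap (x₀ : F₀) :
    chart R ({x₀} : Set F₀) →+* chart R ({algebraMap F₀ F x₀} : Set F) where
  toFun z := ⟨algebraMap F₀ F z, algebraMap_mem_chart_singleton z.2⟩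
  map_one' := Subtype.ext (map_one _)
  map_mul' _ _ := Subtype.ext (map_mul _ _ _)
  map_zero' := Subtype.ext (map_zero _)
  map_add' _ _ := Subtype.ext (map_add _ _ _)

theorem coe_chartMap (x₀ : F₀) (z : chart R ({x₀} : Set F₀)) :
    ((chartMap (F := F) x₀ z : chart R ({algebraMap F₀ F x₀} : Set F)) : F) =
      algebraMap F₀ F z := rfl

theorem chartMap_algebraMap (x₀ : F₀) (r : R) :
    chartMap (R := R) (F := F) x₀ (algebraMap R (chart R ({x₀} : Set F₀)) r) =
      algebraMap R (chart R ({algebraMap F₀ F x₀} : Set F)) r := by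
  apply Subtype.ext
  rw [coe_chartMap]
  exact (IsScalarTower.algebraMap_apply R F₀ F r).symm

theorem chartMap_isIntegral (x₀ : F₀) : (chartMap (R := R) (F := F) x₀).IsIntegral := by
  classical
  intro c
  obtain ⟨p, hpm, hp⟩ := (mem_chart.1 c.2 :
    IsIntegral (Algebra.adjoin R ({algebraMap F₀ F x₀} : Set F)) (c : F))
  have hlift : p ∈ lifts (adjoinMapS (R := R) (F := F) x₀).toRingHom := by
    rw [lifts_iff_coeff_lifts]
    intro n
    exact adjoinMapS_surjective x₀ _
  obtain ⟨q, hq, -, hqm⟩ := lifts_and_degree_eq_and_monic hlift hpm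
  -- inclusion `R[x₀] → chart`
  let incl : Algebra.adjoin R ({x₀} : Set F₀) →+* chart R ({x₀} : Set F₀) :=
    (Subalgebra.inclusion (adjoin_le_chart (R := R) ({x₀} : Set F₀))).toRingHom
  refine ⟨q.map incl, hqm.map incl, ?_⟩
  apply Subtype.ext
  have h1 : ((eval₂ (chartMap (R := R) (F := F) x₀) c (q.map incl) :
      chart R ({algebraMap F₀ F x₀} : Set F)) : F) =
      eval₂ (((chart R ({algebraMap F₀ F x₀} : Set F)).val.toRingHom).comp
        (chartMap (R := R) (F := F) x₀)) (c : F) (q.map incl) :=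
    hom_eval₂ (q.map incl) (chartMap (R := R) (F := F) x₀)
      ((chart R ({algebraMap F₀ F x₀} : Set F)).val.toRingHom) c
  rw [h1, eval₂_map]
  have h2 : ((((chart R ({algebraMap F₀ F x₀} : Set F)).val.toRingHom).comp
      (chartMap (R := R) (F := F) x₀)).comp incl) =
      (algebraMap (Algebra.adjoin R ({algebraMap F₀ F x₀} : Set F)) F).comp
        (adjoinMapS (R := R) (F := F) x₀).toRingHom := by
    ext a
    rfl
  rw [h2, ← eval₂_map, hq]
  exact hp

/-- Maximal ideals of the chart of `F` contract to maximal ideals of the chart of `F₀`. -/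
theorem isMaximal_comap_chartMap (x₀ : F₀)
    (𝔫 : Ideal (chart R ({algebraMap F₀ F x₀} : Set F))) [𝔫.IsMaximal] :
    (Ideal.comap (chartMap (R := R) (F := F) x₀) 𝔫).IsMaximal :=
  Ideal.isMaximal_comap_of_isIntegral_of_isMaximal' _ (chartMap_isIntegral x₀) 𝔫

end Fermat.Agent.A2.H729

end
-- ===== PACK-END A2/H729/Contract.lean

-- ===== PACK-BEGIN A2/H729/LocalFact.lean
section



/-!
# A2 (helper729): from local factorisations on the base charts to local models of the Kummer root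

`F₀ ⊆ F`, `y ∈ F`, `y ^ m = u ∈ F₀`.  A *local factorisation* of `u` at a closed point `𝔫₀ ∋ w`
of the chart of `F₀` is `u = ε * h ^ m` with `h ≡ 1 mod w O₀` and `ε` regular at `𝔫₀`
(`s * ε ∈ chart` for some `s ∉ 𝔫₀`).  Then `y₁ := y / h` satisfies `y₁ ≡ y mod w O` and
`s * y₁ ∈ chart_F`: this is the local hypothesis of `kummer_trivial_of_local`.
-/

set_option autoImplicit false
set_option linter.unusedSectionVars false

namespace Fermat.Agent.A2.H729

open Polynomial Fermat.Agent.S18.H138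

variable {R : Type*} [CommRing R] [IsDomain R] [IsIntegrallyClosed (Polynomial R)]
  {F₀ : Type*} [Field F₀] [Algebra R F₀]
  {F : Type*} [Field F] [Algebra R F] [Algebra F₀ F] [IsScalarTower R F₀ F]

theorem gaussO_inv_le {w : R} (hw : Prime w) {x : F} (hx0 : x ≠ 0) :
    gaussO hw x ≤ gaussO hw x⁻¹ := fun _ ht =>
  exists_denom_inv_of_mem_gaussO hw hx0 ht

theorem gaussO_inv {w : R} (hw : Prime w) {x : F} (hx0 : x ≠ 0) :
    gaussO hw x⁻¹ = gaussO hw x := by
  apply le_antisymm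
  · have := gaussO_inv_le hw (inv_ne_zero hx0)
    rwa [inv_inv] at this
  · exact gaussO_inv_le hw hx0

/-- The local hypothesis of `kummer_trivial_of_local` from local factorisations on the base. -/
theorem hloc_of_localFactorisation {w : R} (hw : Prime w) {x₀ : F₀}
    (hx : Transcendental R (algebraMap F₀ F x₀)) {m : ℕ} (hm : 0 < m) {u : F₀} {y : F}
    (hyu : y ^ m = algebraMap F₀ F u) (hyO : y ∈ gaussO hw (algebraMap F₀ F x₀))
    (hLF : ∀ 𝔫₀ : Ideal (chart R ({x₀} : Set F₀)), 𝔫₀.IsMaximal →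
      algebraMap R (chart R ({x₀} : Set F₀)) w ∈ 𝔫₀ →
      ∃ s : chart R ({x₀} : Set F₀), s ∉ 𝔫₀ ∧ ∃ h ε : F₀,
        InW (gaussO hw x₀) w (h - 1) ∧ u = ε * h ^ m ∧ (s : F₀) * ε ∈ chart R ({x₀} : Set F₀)) :
    ∀ 𝔫 : Ideal (chart R ({algebraMap F₀ F x₀} : Set F)), 𝔫.IsMaximal →
      algebraMap R (chart R ({algebraMap F₀ F x₀} : Set F)) w ∈ 𝔫 →
      ∃ s : chart R ({algebraMap F₀ F x₀} : Set F), s ∉ 𝔫 ∧
        ∃ y₁ : F, InW (gaussO hw (algebraMap F₀ F x₀)) w (y - y₁) ∧
          (s : F) * y₁ ∈ chart R ({algebraMap F₀ F x₀} : Set F) := by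
  intro 𝔫 h𝔫 hw𝔫
  have := h𝔫
  have hmax := isMaximal_comap_chartMap (R := R) (F := F) x₀ 𝔫
  have hw₀ : algebraMap R (chart R ({x₀} : Set F₀)) w ∈
      Ideal.comap (chartMap (R := R) (F := F) x₀) 𝔫 := by
    rw [Ideal.mem_comap, chartMap_algebraMap]
    exact hw𝔫
  obtain ⟨s₀, hs₀, h, ε, hh, huε, hsε⟩ := hLF _ hmax hw₀
  have hhF : InW (gaussO hw (algebraMap F₀ F x₀)) w (algebraMap F₀ F h - 1) := by
    have := InW.map (F := F) hw hh
    rwa [map_sub, map_one] at this
  obtain ⟨hne, hinv, hinv1⟩ := inW_inv_sub_one hw hx hhF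
  have hh0 : h ≠ 0 := fun h0 => hne (by rw [h0, map_zero])
  refine ⟨chartMap (R := R) (F := F) x₀ s₀, fun hs => hs₀ (Ideal.mem_comap.2 hs),
    y * (algebraMap F₀ F h)⁻¹, ?_, ?_⟩
  · have : y - y * (algebraMap F₀ F h)⁻¹ = -(y * ((algebraMap F₀ F h)⁻¹ - 1)) := by ring
    rw [this]
    exact (hinv1.mul_left hyO).neg
  · refine mem_chart_of_pow_mem hm ?_
    have hε : ε = u * (h ^ m)⁻¹ := by
      rw [huε, mul_assoc, mul_inv_cancel₀ (pow_ne_zero _ hh0), mul_one]
    have : ((chartMap (R := R) (F := F) x₀ s₀ : chart R ({algebraMap F₀ F x₀} : Set F)) : F)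
        = algebraMap F₀ F s₀ := rfl
    rw [this]
    have key : (algebraMap F₀ F s₀ * (y * (algebraMap F₀ F h)⁻¹)) ^ m =
        algebraMap F₀ F ((s₀ : F₀) ^ (m - 1) * ((s₀ : F₀) * ε)) := by
      rw [mul_pow, mul_pow, hyu, hε, inv_pow, ← map_pow, ← map_pow, ← map_inv₀, ← map_mul,
        ← map_mul]
      congr 1
      have : (s₀ : F₀) ^ m = (s₀ : F₀) ^ (m - 1) * s₀ := by
        rw [← pow_succ]; congr 1; omega
      rw [this]
      ring
    rw [key]
    exact algebraMap_mem_chart_singleton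
      (Subalgebra.mul_mem _ (Subalgebra.pow_mem _ s₀.2 _) hsε)

end Fermat.Agent.A2.H729

end
-- ===== PACK-END A2/H729/LocalFact.lean

-- ===== PACK-BEGIN A2/H729/H348Adapter.lean
section




/-!
# A2 (helper729): the canonical Gauss ring as input of `H348.exists_pow_eq_of_local_factorisation`

`V := gaussO hw x` satisfies all the fields of `H348.GaussData` and `H348.ChartData`
(for both charts) except the two which carry information: `u ≡ 1 mod w V` and the local
factorisations.  Hence `exists_pow_eq_gaussO`: the route-S theorem with `V` eliminated.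
-/

set_option autoImplicit false
set_option linter.unusedSectionVars false
set_option linter.style.haveILetI false

namespace Fermat.Agent.A2.H729

open Polynomial Fermat.Agent.S18.H138

variable {R : Type*} [CommRing R] [IsDomain R] [IsIntegrallyClosed (Polynomial R)]
  {F : Type*} [Field F] [Algebra R F]

theorem gaussData_gaussO (hinjR : Function.Injective (algebraMap R F)) {w : R} (hw : Prime w)
    {x : F} (hx : Transcendental R x) {mi : R} {m : ℕ} (hmi : (m : R) * mi = 1) {u : F}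
    (hu : InW (gaussO hw x) w (u - 1)) : H348.GaussData w m u (gaussO hw x) where
  closed := fun _ hf => mem_gaussO_of_isIntegral hw hf
  ϖ_inv_notMem := inv_not_mem_gaussO hinjR hw hx
  rad := fun _ ht => inv_one_add_mem_gaussO hw hx ht
  m_ne := by
    intro h0
    have h1 := congrArg (algebraMap R F) hmi
    rw [map_mul, map_natCast, h0, zero_mul, map_one] at h1
    exact zero_ne_one h1
  m_inv := by
    have h1 := congrArg (algebraMap R F) hmi
    rw [map_mul, map_natCast, map_one] at h1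
    have h2 : ((m : F))⁻¹ = algebraMap R F mi := inv_eq_of_mul_eq_one_right h1
    rw [h2]
    exact Subalgebra.algebraMap_mem _ mi
  u_one := by
    obtain ⟨t, ht, htt⟩ := hu
    exact ⟨t, ht, by rw [← htt]; ring⟩

theorem chartData_fin (hinjR : Function.Injective (algebraMap R F)) {w : R} (hw : Prime w)
    {x : F} (hx : Transcendental R x) {m : ℕ} {u : F}
    (hloc : ∀ 𝔪 : Ideal (chart R ({x} : Set F)), 𝔪.IsMaximal →
      algebraMap R (chart R ({x} : Set F)) w ∈ 𝔪 →
      ∃ h : F, (∃ t ∈ gaussO hw x, h = 1 + algebraMap R F w * t) ∧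
        ∃ s a : chart R ({x} : Set F), s ∉ 𝔪 ∧
          u * (s : F) = h ^ m * ((s : F) + algebraMap R F w * (a : F))) :
    H348.ChartData w m u (chart R ({x} : Set F)) (gaussO hw x) where
  le_V := chart_fin_le_gaussO hw x
  closed := fun _ hf => mem_chart_of_isIntegral_chart hf
  qep := by
    intro b hb t ht hbt
    have hw0 : algebraMap R F w ≠ 0 := fun h0 => hw.ne_zero (hinjR (by rw [h0, map_zero]))
    obtain ⟨t', ht', hbt'⟩ := qep_fin hw hx b hb ⟨t, ht, hbt⟩
    have : t = t' := mul_left_cancel₀ hw0 (hbt.symm.trans hbt')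
    rw [this]
    exact ht'
  loc := hloc

theorem chartData_inf (hinjR : Function.Injective (algebraMap R F)) {w : R} (hw : Prime w)
    {x : F} (hx : Transcendental R x) {m : ℕ} {u : F}
    (hloc : ∀ 𝔪 : Ideal (chart R ({x⁻¹} : Set F)), 𝔪.IsMaximal →
      algebraMap R (chart R ({x⁻¹} : Set F)) w ∈ 𝔪 →
      ∃ h : F, (∃ t ∈ gaussO hw x, h = 1 + algebraMap R F w * t) ∧
        ∃ s a : chart R ({x⁻¹} : Set F), s ∉ 𝔪 ∧
          u * (s : F) = h ^ m * ((s : F) + algebraMap R F w * (a : F))) :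
    H348.ChartData w m u (chart R ({x⁻¹} : Set F)) (gaussO hw x) where
  le_V := chart_inf_le_gaussO hw (ne_zero_of_transcendental hx)
  closed := fun _ hf => mem_chart_of_isIntegral_chart hf
  qep := by
    intro b hb t ht hbt
    have hw0 : algebraMap R F w ≠ 0 := fun h0 => hw.ne_zero (hinjR (by rw [h0, map_zero]))
    obtain ⟨t', ht', hbt'⟩ := qep_inf hw hx b hb ⟨t, ht, hbt⟩
    have : t = t' := mul_left_cancel₀ hw0 (hbt.symm.trans hbt')
    rw [this]
    exact ht'
  loc := hloc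

/-- **Route S with the canonical Gauss ring.** -/
theorem exists_pow_eq_gaussO [IsNoetherianRing R] [CharZero F]
    (hinjR : Function.Injective (algebraMap R F))
    {x : F} (hx : Transcendental R x) [FiniteDimensional (baseField R x) F]
    {w : R} (hw : Prime w) {mi : R} {m : ℕ} (hmi : (m : R) * mi = 1) {u : F}
    (hu : InW (gaussO hw x) w (u - 1))
    (hloc_fin : ∀ 𝔪 : Ideal (chart R ({x} : Set F)), 𝔪.IsMaximal →
      algebraMap R (chart R ({x} : Set F)) w ∈ 𝔪 →
      ∃ h : F, (∃ t ∈ gaussO hw x, h = 1 + algebraMap R F w * t) ∧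
        ∃ s a : chart R ({x} : Set F), s ∉ 𝔪 ∧
          u * (s : F) = h ^ m * ((s : F) + algebraMap R F w * (a : F)))
    (hloc_inf : ∀ 𝔪 : Ideal (chart R ({x⁻¹} : Set F)), 𝔪.IsMaximal →
      algebraMap R (chart R ({x⁻¹} : Set F)) w ∈ 𝔪 →
      ∃ h : F, (∃ t ∈ gaussO hw x, h = 1 + algebraMap R F w * t) ∧
        ∃ s a : chart R ({x⁻¹} : Set F), s ∉ 𝔪 ∧
          u * (s : F) = h ^ m * ((s : F) + algebraMap R F w * (a : F)))
    (hconst : ∀ 𝔫 : Ideal (AdjoinRoot (X ^ m - C u)), 𝔫.IsMaximal →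
      ∀ y : AdjoinRoot (X ^ m - C u) ⧸ 𝔫, IsIntegral R y →
        y ∈ Set.range (algebraMap R (AdjoinRoot (X ^ m - C u) ⧸ 𝔫))) :
    ∃ y : F, y ^ m = u ∧ InW (gaussO hw x) w (y - 1) := by
  obtain ⟨y, hy, t, ht, hyt⟩ := H348.exists_pow_eq_of_local_factorisation hinjR hx w hw
    (gaussData_gaussO hinjR hw hx hmi hu) (chartData_fin hinjR hw hx hloc_fin)
    (chartData_inf hinjR hw hx hloc_inf) hconst
  exact ⟨y, hy, t, ht, by rw [hyt]; ring⟩

end Fermat.Agent.A2.H729

end
-- ===== PACK-END A2/H729/H348Adapter.lean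

-- ===== PACK-BEGIN A2/Alg/H729/Glue.lean
section




/-!
# WALL A2 / ALG — leaf GLUE modulo constants (helper729)

`glue_of_hconst` is the leaf `glue` of `Fermat/Agent/A2/Alg/Skel.lean` (architect helper34),
VERBATIM, with ONE extra hypothesis `hconst`: the constants do not grow in the residue fields of
the Kummer algebra `F[X]/(X ^ m - u)` (exact form of
`H348.exists_pow_eq_of_local_factorisation`).

Proof: `V := H729.gaussO` (canonical Gauss ring; closedness, Jacobson radical, q-expansion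
principle on both charts are theorems), bridge `OneAt p₁ ∧ OneAt p₂ ⇒ 1 + w V`
(`H729.inW_sub_one_of_oneAt`, going-up), and `H348.exists_pow_eq_of_local_factorisation`.
-/

set_option autoImplicit false
set_option linter.unusedSectionVars false
set_option linter.style.haveILetI false
set_option linter.unusedVariables false

namespace Fermat.Agent.A2.Alg.H729

open Fermat.Agent.A2 Fermat.Agent.A2.Alg Fermat.Agent.A2.H729
open Fermat.Agent.S18.H138 (chart baseField)
open Polynomial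

section OneAtLemmas

variable {R F : Type*} [CommRing R] [Field F] [Algebra R F]

theorem oneAt_one {B : Subalgebra R F} {p : Ideal B} (hp : p.IsPrime) : OneAt B p 1 :=
  ⟨1, 1, fun h => hp.ne_top ((Ideal.eq_top_iff_one p).2 h), by simp, by simp⟩

theorem oneAt_mul {B : Subalgebra R F} {p : Ideal B} (hp : p.IsPrime) {g g' : F}
    (h : OneAt B p g) (h' : OneAt B p g') : OneAt B p (g * g') := by
  obtain ⟨a, b, hb, hab, e⟩ := h
  obtain ⟨a', b', hb', hab', e'⟩ := h'
  refine ⟨a * a', b * b', fun hmem => ?_, ?_, ?_⟩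
  · rcases hp.mem_or_mem hmem with h1 | h1
    · exact hb h1
    · exact hb' h1
  · have : a * a' - b * b' = a * (a' - b') + (a - b) * b' := by ring
    rw [this]
    exact p.add_mem (p.mul_mem_left _ hab') (p.mul_mem_right _ hab)
  · push_cast
    rw [← e, ← e']
    ring

theorem oneAt_pow {B : Subalgebra R F} {p : Ideal B} (hp : p.IsPrime) {g : F}
    (h : OneAt B p g) (n : ℕ) : OneAt B p (g ^ n) := by
  induction n with
  | zero => rw [pow_zero]; exact oneAt_one hp
  | succ n ih => rw [pow_succ]; exact oneAt_mul hp ih h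

theorem oneAt_inv {B : Subalgebra R F} {p : Ideal B} {g : F}
    (h : OneAt B p g) : OneAt B p g⁻¹ := by
  obtain ⟨a, b, hb, hab, e⟩ := h
  have ha : a ∉ p := by
    intro ha
    apply hb
    have : b = a - (a - b) := by ring
    rw [this]
    exact p.sub_mem ha hab
  have hg : g ≠ 0 := by
    rintro rfl
    rw [zero_mul] at e
    apply ha
    have : a = 0 := Subtype.ext e.symm
    rw [this]
    exact p.zero_mem
  refine ⟨b, a, ha, ?_, ?_⟩
  · have : b - a = -(a - b) := by ring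
    rw [this]
    exact p.neg_mem hab
  · rw [← e, ← mul_assoc, inv_mul_cancel₀ hg, one_mul]

theorem oneAt_of_locOne {B : Subalgebra R F} {n I p : Ideal B} (hpn : p ≤ n) (hIp : I ≤ p)
    {g : F} (h : LocOne B n I g) : OneAt B p g := by
  obtain ⟨a, b, hb, hab, e⟩ := h
  exact ⟨a, b, fun hmem => hb (hpn hmem), hIp hab, e⟩

end OneAtLemmas

section Glue

variable {R E F : Type*} [CommRing R] [IsDomain R] [IsDiscreteValuationRing R]
  [HenselianLocalRing R] [IsAlgClosed (IsLocalRing.ResidueField R)]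
  [Field E] [CharZero E] [Algebra R E] [IsFractionRing R E]
  [Field F] [Algebra E F] [Algebra R F] [IsScalarTower R E F]

/-- `m` is invertible in `R`. -/
theorem exists_inv_natCast (q m : ℕ) (hq : q.Prime)
    (hqR : (q : R) ∈ IsLocalRing.maximalIdeal R) (hqm : ¬ q ∣ m) :
    ∃ mi : R, (m : R) * mi = 1 := by
  have hmR : (m : R) ∉ IsLocalRing.maximalIdeal R := by
    intro hmem
    have hcop : Nat.Coprime m q := ((Nat.Prime.coprime_iff_not_dvd hq).2 hqm).symm
    obtain ⟨a, b, hab⟩ := Nat.isCoprime_iff_coprime.2 hcop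
    have h1 : ((a * (m : ℤ) + b * (q : ℤ) : ℤ) : R) = 1 := by rw [hab]; simp
    have h2 : (1 : R) ∈ IsLocalRing.maximalIdeal R := by
      rw [← h1]
      push_cast
      exact Ideal.add_mem _ (Ideal.mul_mem_left _ _ hmem) (Ideal.mul_mem_left _ _ hqR)
    exact (IsLocalRing.maximalIdeal.isMaximal R).ne_top ((Ideal.eq_top_iff_one _).2 h2)
  exact (IsLocalRing.notMem_maximalIdeal.1 hmR).exists_right_inv

/-- Local factorisations on one chart, in the form of `H729.exists_pow_eq_gaussO`. -/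
theorem loc_of_locallyFactored {w : R} (hw : Prime w) {x : F} (hx : Transcendental R x)
    (c : SSChart w (chart R ({x} : Set F))) (hc : Incomparable c) {m : ℕ} {u : F}
    (hf : LocallyFactored (chart R ({x} : Set F)) c m u) :
    ∀ 𝔪 : Ideal (chart R ({x} : Set F)), 𝔪.IsMaximal →
      algebraMap R (chart R ({x} : Set F)) w ∈ 𝔪 →
      ∃ h : F, (∃ t ∈ gaussO hw x, h = 1 + algebraMap R F w * t) ∧
        ∃ s a : chart R ({x} : Set F), s ∉ 𝔪 ∧
          u * (s : F) = h ^ m * ((s : F) + algebraMap R F w * (a : F)) := by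
  intro 𝔪 h𝔪 hw𝔪
  obtain ⟨h, hh0, ⟨a, b, hb, hab, e⟩, h1, h2⟩ := hf 𝔪 h𝔪 hw𝔪
  have hInW : InW (gaussO hw x) w (h - 1) :=
    inW_sub_one_of_oneAt hw hx c.prime₁ c.prime₂ c.inf_eq hc.1 hc.2 h1 h2
  obtain ⟨-, -, t, ht, htt⟩ := inW_inv_sub_one hw hx hInW
  obtain ⟨d, hd⟩ := Ideal.mem_span_singleton'.1 hab
  refine ⟨h⁻¹, ⟨t, ht, by rw [← htt]; ring⟩, b, d, hb, ?_⟩
  have hdF : (d : F) * algebraMap R F w = (a : F) - (b : F) :=
    congrArg (fun t : chart R ({x} : Set F) => (t : F)) hd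
  have e1 : (b : F) + algebraMap R F w * (d : F) = (a : F) := by
    rw [mul_comm, hdF]; ring
  rw [e1, ← e, inv_pow]
  field_simp

/-- `u ≡ 1 mod w · gaussO` from local factorisations at one closed point on each component. -/
theorem inW_of_locallyFactored {w : R} (hw : Prime w) {x : F} (hx : Transcendental R x)
    (c : SSChart w (chart R ({x} : Set F))) (hc : Incomparable c) {m : ℕ} {u : F}
    (hf : LocallyFactored (chart R ({x} : Set F)) c m u) :
    InW (gaussO hw x) w (u - 1) := by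
  have hw₁₂ : algebraMap R (chart R ({x} : Set F)) w ∈ c.p₁ ⊓ c.p₂ := by
    rw [c.inf_eq]; exact Ideal.mem_span_singleton_self _
  have hspan₁ : Ideal.span {algebraMap R (chart R ({x} : Set F)) w} ≤ c.p₁ := by
    rw [← c.inf_eq]; exact inf_le_left
  have hspan₂ : Ideal.span {algebraMap R (chart R ({x} : Set F)) w} ≤ c.p₂ := by
    rw [← c.inf_eq]; exact inf_le_right
  have key : ∀ p : Ideal (chart R ({x} : Set F)), p.IsPrime →
      Ideal.span {algebraMap R (chart R ({x} : Set F)) w} ≤ p →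
      (∀ h : F, OneAt (chart R ({x} : Set F)) c.p₁ h → OneAt (chart R ({x} : Set F)) c.p₂ h →
        OneAt (chart R ({x} : Set F)) p h) →
      OneAt (chart R ({x} : Set F)) p u := by
    intro p hp hwp hsel
    obtain ⟨𝔪, h𝔪, hp𝔪⟩ := Ideal.exists_le_maximal p hp.ne_top
    have hw𝔪 : algebraMap R (chart R ({x} : Set F)) w ∈ 𝔪 :=
      hp𝔪 (hwp (Ideal.mem_span_singleton_self _))
    obtain ⟨h, hh0, hloc, h1, h2⟩ := hf 𝔪 h𝔪 hw𝔪
    have hA : OneAt (chart R ({x} : Set F)) p (u * h ^ m) := oneAt_of_locOne hp𝔪 hwp hloc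
    have hB : OneAt (chart R ({x} : Set F)) p (h ^ m)⁻¹ :=
      oneAt_inv (oneAt_pow hp (hsel h h1 h2) m)
    have := oneAt_mul hp hA hB
    rwa [mul_assoc, mul_inv_cancel₀ (pow_ne_zero _ hh0), mul_one] at this
  exact inW_sub_one_of_oneAt hw hx c.prime₁ c.prime₂ c.inf_eq hc.1 hc.2
    (key c.p₁ c.prime₁ hspan₁ fun _ h1 _ => h1)
    (key c.p₂ c.prime₂ hspan₂ fun _ _ h2 => h2)

/-- **GLUE modulo constants** (leaf `glue` of `Alg/Skel.lean` + `hconst`). -/
theorem glue_of_hconst (q m : ℕ) (hq : q.Prime) (hqR : (q : R) ∈ IsLocalRing.maximalIdeal R)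
    (hm : 0 < m) (hqm : ¬ q ∣ m)
    (w : R) (x : F) (Bf Bi : Subalgebra R F)
    (hBf : ChartCtx E w x Bf) (hBi : ChartCtx E w x⁻¹ Bi)
    (cf : SSChart w Bf) (ci : SSChart w Bi) (hcf : Incomparable cf) (hci : Incomparable ci)
    (u : F) (hu : u ≠ 0) (hdiv : DivisibleDiv E m u)
    (hf : LocallyFactored Bf cf m u) (hi : LocallyFactored Bi ci m u)
    (hconst : ∀ 𝔫 : Ideal (AdjoinRoot (X ^ m - C u)), 𝔫.IsMaximal →
      ∀ y : AdjoinRoot (X ^ m - C u) ⧸ 𝔫, IsIntegral R y →
        y ∈ Set.range (algebraMap R (AdjoinRoot (X ^ m - C u) ⧸ 𝔫))) :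
    ∃ y : F, y ≠ 0 ∧ u = y ^ m := by
  obtain rfl := H34.chart_eq x Bf hBf.hB
  obtain rfl := H34.chart_eq x⁻¹ Bi hBi.hB
  haveI : CharZero F := H34.charZero_of_field (E := E)
  haveI := H34.finiteDimensional_baseField (R := R) x hBf.hfin
  have hinjR : Function.Injective (algebraMap R F) := H34.algebraMap_RF_injective E
  have hx : Transcendental R x := H34.transcendental_of_field hBf.hx
  have hx0 : x ≠ 0 := Fermat.Agent.S18.H138.ne_zero_of_transcendental hx
  have hxi : Transcendental R x⁻¹ := Fermat.Agent.S18.H138.transcendental_inv hx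
  have hw : Prime w := hBf.hw.prime
  obtain ⟨mi, hmi⟩ := exists_inv_natCast (R := R) q m hq hqR hqm
  have hu1 : InW (gaussO hw x) w (u - 1) := inW_of_locallyFactored hw hx cf hcf hf
  have hloc_fin := loc_of_locallyFactored hw hx cf hcf hf
  have hloc_inf := loc_of_locallyFactored hw hxi ci hci hi
  rw [gaussO_inv hw hx0] at hloc_inf
  obtain ⟨y, hy, -⟩ := exists_pow_eq_gaussO hinjR hx hw hmi hu1 hloc_fin hloc_inf hconst
  refine ⟨y, ?_, hy.symm⟩
  rintro rfl
  rw [zero_pow hm.ne'] at hy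
  exact hu hy.symm

end Glue

end Fermat.Agent.A2.Alg.H729

end
-- ===== PACK-END A2/Alg/H729/Glue.lean

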