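import Fermat.Prelude.Def_GaloisRep_LocalConditions
import Fermat.Prelude.Def_CuspForm_HeckeGaloisRepDatum
import Fermat.Agent.Pack.S58.E1L3
import Fermat.Agent.Pack.S58.E0L3
import Fermat.Agent.Pack.S58.E4L3
import Fermat.Agent.Pack.S58.E3L1
import Fermat.Agent.Pack.S36.E4L1
import Fermat.Agent.Pack.S58.E4L2
import Fermat.Agent.Pack.S58.E2L1
import Fermat.Agent.Pack.S58.E1L0
import Fermat.Agent.Pack.S58.E0L0
import Fermat.Agent.Pack.S58.E0L2
import Fermat.Agent.Pack.S36.E9L2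
import Fermat.Agent.Pack.S58.E2L2
import Fermat.Agent.Pack.S58.E3L2
import Fermat.Agent.Pack.S58.E4L0
import Fermat.Agent.Pack.S58.E2L3
import Fermat.Agent.Pack.S58.E0L1

-- ===== PACK-BEGIN S58/H94/Top.lean
section








/-!
# Row S58 (architect helper94): the relation-based top glue

`s58_of : S35Statement → S36Statement → ResidualStatement → CoeffHenselStatement → S58Statement`

(Props of `S58/Spec.lean` and `S58/H94/Spec.lean`).  The coefficient ring is always
`O' = ℤ_[lam]`; the Tate module of `W` is only used through its quadratic relations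
(`S58/H94/Compare.lean`), so no determinant, no irreducibility at the auxiliary prime and no
general complete DVR are needed.
-/

set_option autoImplicit false

open Polynomial

namespace Fermat.Agent.S58.H94

open Fermat.Agent.S58 CuspForm CongruenceSubgroup ModularFormClass

/-- The residue field of `ℤ_[p]` is finite. -/
theorem finite_residueField_padicInt_h94 (p : ℕ) [Fact p.Prime] :
    Finite (IsLocalRing.ResidueField ℤ_[p]) := by
  have : Finite (ZMod p) := inferInstance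
  exact Finite.of_equiv (ZMod p) (PadicInt.residueField (p := p)).symm.toEquiv

/-- `p` lies in the maximal ideal of `ℤ_[p]`. -/
theorem natCast_mem_maximalIdeal_padicInt_h94 (p : ℕ) [Fact p.Prime] :
    (p : ℤ_[p]) ∈ IsLocalRing.maximalIdeal ℤ_[p] := by
  rw [PadicInt.maximalIdeal_eq_span_p]
  exact Ideal.subset_span rfl

section Iota

/-- A ring homomorphism on a subalgebra of `ℂ` restricts to every subring contained in it. -/
noncomputable def iotaOf {R' : Type*} [Semiring R'] (A : Subalgebra ℤ ℂ) (φ : A →+* R')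
    (Rg : Subring ℂ) (hle : ∀ x ∈ Rg, x ∈ A) : Rg →+* R' where
  toFun x := φ ⟨x.1, hle x.1 x.2⟩
  map_one' := map_one φ
  map_mul' x y := map_mul φ ⟨x.1, hle x.1 x.2⟩ ⟨y.1, hle y.1 y.2⟩
  map_zero' := map_zero φ
  map_add' x y := map_add φ ⟨x.1, hle x.1 x.2⟩ ⟨y.1, hle y.1 y.2⟩

theorem iotaOf_injective {R' : Type*} [Semiring R'] (A : Subalgebra ℤ ℂ) (φ : A →+* R')
    (hφ : Function.Injective φ) (Rg : Subring ℂ) (hle : ∀ x ∈ Rg, x ∈ A) :
    Function.Injective (iotaOf A φ Rg hle) := by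
  intro x y h
  have h1 : (⟨x.1, hle x.1 x.2⟩ : A) = ⟨y.1, hle y.1 y.2⟩ := hφ h
  exact Subtype.ext (congrArg (fun z : A => (z : ℂ)) h1)

/-- The integers as a subalgebra of `ℂ` map to every ring. -/
noncomputable def phiInt (R' : Type*) [Ring R'] : (⊥ : Subalgebra ℤ ℂ) →+* R' :=
  (Int.castRingHom R').comp
    (Algebra.botEquivOfInjective (R := ℤ) (A := ℂ) (algebraMap ℤ ℂ).injective_int).toAlgHom.toRingHom

theorem phiInt_injective (R' : Type*) [Ring R'] [CharZero R'] :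
    Function.Injective (phiInt R') := by
  intro x y h
  have h1 : (Algebra.botEquivOfInjective (R := ℤ) (A := ℂ) (algebraMap ℤ ℂ).injective_int) x
      = (Algebra.botEquivOfInjective (R := ℤ) (A := ℂ) (algebraMap ℤ ℂ).injective_int) y :=
    Int.cast_injective (α := R') h
  exact (Algebra.botEquivOfInjective (R := ℤ) (A := ℂ) (algebraMap ℤ ℂ).injective_int).injective h1

theorem intCast_mem_bot_h94 (a : ℤ) : ((a : ℤ) : ℂ) ∈ (⊥ : Subalgebra ℤ ℂ) :=
  Algebra.mem_bot.mpr ⟨a, by simp⟩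

/-- Every ring homomorphism from the ring generated by an algebraic integer to a domain of
characteristic zero is injective. -/
theorem injective_of_adjoin_h94 {α : ℂ} (hα : IsIntegral ℤ α) {R' : Type*} [CommRing R']
    [IsDomain R'] [CharZero R'] (φ : Algebra.adjoin ℤ ({α} : Set ℂ) →+* R') :
    Function.Injective φ := by
  have : Algebra.IsIntegral ℤ (Algebra.adjoin ℤ ({α} : Set ℂ)) :=
    Algebra.IsIntegral.adjoin (fun x hx => by
      rw [Set.mem_singleton_iff] at hx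
      rw [hx]
      exact hα)
  rw [injective_iff_map_eq_zero]
  intro x hx
  have hker : (RingHom.ker φ).comap (algebraMap ℤ (Algebra.adjoin ℤ ({α} : Set ℂ))) = ⊥ := by
    rw [eq_bot_iff]
    intro n hn
    rw [Ideal.mem_comap, RingHom.mem_ker] at hn
    have h1 : (n : R') = 0 := by
      rw [← hn]
      simp
    rw [Ideal.mem_bot]
    exact_mod_cast h1
  have := Ideal.eq_bot_of_comap_eq_bot hker
  have hx' : x ∈ RingHom.ker φ := hx
  rw [this, Ideal.mem_bot] at hx'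
  exact hx'

end Iota

/-- **The package at a prime `lam`, from S35.** -/
theorem package35_h94 (h35 : S35Statement)
    (W : WeierstrassCurve ℤ) (hΔ : W.Δ ≠ 0) (hss : W.IsSemistableModel)
    {N M : ℕ} (hN0 : N ≠ 0) (hMN : M ∣ N) [NeZero M]
    (g : CuspForm (Gamma0 M) 2) (hg : g.IsNewform)
    (hgW : ∀ ℓ : ℕ, ℓ.Prime → ¬ ℓ ∣ N → qCoeff ⇑g ℓ = (W.apOfModel ℓ : ℂ))
    (hbad : ∀ ℓ : ℕ, ℓ.Prime → (ℓ : ℤ) ∣ W.Δ → ℓ ∣ N)
    (lam : ℕ) [Fact lam.Prime] (S' : Finset ℕ) (hlamS' : lam ∈ S')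
    (hMS' : ∀ q : ℕ, q.Prime → q ∣ M → q ∈ S')
    (A : Subalgebra ℤ ℂ) (φ : A →+* ℤ_[lam]) (hφ : Function.Injective φ)
    (hA : ∀ ℓ : ℕ, ℓ.Prime → ¬ ℓ ∣ M → ℓ ∉ (↑S' : Set ℕ) → qCoeff ⇑g ℓ ∈ A) :
    (∀ ℓ : ℕ, ℓ.Prime → W.IsGoodPrimeFor ℓ → ℓ ∉ S' → ¬ ℓ ∣ M →
      qCoeff ⇑g ℓ = (W.apOfModel ℓ : ℂ)) ∧
    (∀ q : ℕ, q.Prime → q ≠ lam → q ∣ M → ¬ q ^ 2 ∣ M → ¬ W.IsGoodPrimeFor q) := by
  classical
  have := finite_residueField_padicInt_h94 lam
  set chig : heckeAlgebra M 2 (↑S' : Set ℕ) →+* ℂ := chigOf hg.1 (↑S' : Set ℕ) with hchigdef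
  have hchig : ∀ (ℓ : ℕ) (hℓ : ℓ.Prime) (hℓM : ¬ ℓ ∣ M) (hℓS : ℓ ∉ (↑S' : Set ℕ)),
      chig (heckeAlgebra.T hℓ hℓM hℓS) = qCoeff ⇑g ℓ :=
    fun ℓ hℓ hℓM hℓS => chigOf_T hg.1 _ hℓ hℓM hℓS
  have hle : ∀ x ∈ chig.range, x ∈ A := by
    intro x hx
    exact chigOf_range_le hg.1 (↑S' : Set ℕ) A.toSubring
      (fun ℓ hℓ hℓM hℓS => hA ℓ hℓ hℓM hℓS)
      (fun q hq hqM => Finset.mem_coe.mpr (hMS' q hq hqM)) hx
  set iota : chig.range →+* ℤ_[lam] := iotaOf A φ chig.range hle with hiotadef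
  have hiota : Function.Injective iota := iotaOf_injective A φ hφ chig.range hle
  obtain ⟨O'', j1, j2, j3, j4, j5, j6, j7, j8, j9, hinj, ρ, hρ, hρst⟩ :=
    h35 hg lam S' ℤ_[lam] (natCast_mem_maximalIdeal_padicInt_h94 lam) chig hchig iota
      hlamS' hMS'
  have hlamO'' : (lam : O'') ∈ IsLocalRing.maximalIdeal O'' :=
    natCast_mem_maximalIdeal_of_isLocalHom (natCast_mem_maximalIdeal_padicInt_h94 lam)
  -- the comparison set
  have hT : ∀ ℓ : ℕ, ℓ.Prime → ℓ ∉ S' ∪ N.primeFactors → ¬ ℓ ∣ N ∧ ¬ ℓ ∣ M ∧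
      ℓ ∉ (↑S' : Set ℕ) := by
    intro ℓ hℓ hℓT
    rw [Finset.mem_union, not_or] at hℓT
    have hℓN : ¬ ℓ ∣ N := fun h => hℓT.2 (Nat.mem_primeFactors.mpr ⟨hℓ, h, hN0⟩)
    exact ⟨hℓN, fun h => hℓN (dvd_trans h hMN), fun h => hℓT.1 (Finset.mem_coe.mp h)⟩
  obtain ⟨cmpF, -⟩ := compare_h94 W hΔ hss lam hlamO'' (S' ∪ N.primeFactors)
    (Finset.mem_union_left _ hlamS')
    (fun ℓ hℓ hd => Finset.mem_union_right _ (Nat.mem_primeFactors.mpr ⟨hℓ, hbad ℓ hℓ hd, hN0⟩))
    ρ (by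
      intro ℓ hℓ hℓT A' hA' σ hσ
      obtain ⟨hℓN, hℓM, hℓS⟩ := hT ℓ hℓ hℓT
      rw [hρ ℓ hℓ hℓM hℓS A' hA' σ hσ,
        iota_eq_intCast chig iota _ (W.apOfModel ℓ) ((hchig ℓ hℓ hℓM hℓS).trans (hgW ℓ hℓ hℓN)),
        map_intCast])
  refine ⟨?_, ?_⟩
  · intro ℓ hℓ hgood hℓS' hℓM
    have hℓlam : ℓ ≠ lam := fun h => hℓS' (h ▸ hlamS')
    have hℓS : ℓ ∉ (↑S' : Set ℕ) := fun h => hℓS' (Finset.mem_coe.mp h)
    obtain ⟨A', σ, hA', hσ⟩ := Fermat.Agent.S54.exists_frobenius ℓ hℓ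
    have h1 := hρ ℓ hℓ hℓM hℓS A' hA' σ hσ
    have h3 := cmpF ℓ hℓ hℓlam hgood A' hA' σ hσ _ h1
    have h4 : (iota.comp chig.rangeRestrict) (heckeAlgebra.T hℓ hℓM hℓS)
        = ((W.apOfModel ℓ : ℤ) : ℤ_[lam]) :=
      hinj (by rw [h3, map_intCast])
    rw [← hchig ℓ hℓ hℓM hℓS]
    exact eq_intCast_of_iota chig iota hiota _ _ h4
  · intro q hq hqlam hqM hq2 hgood
    obtain ⟨A', σ, hA', hσ⟩ := Fermat.Agent.S54.exists_frobenius q hq
    rcases hρst q hq hqlam hqM hq2 A' hA' σ hσ with h1 | h1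
    · have h3 := cmpF q hq hqlam hgood A' hA' σ hσ _ h1
      have h4 : (((q : ℤ) + 1 : ℤ) : O'') = ((W.apOfModel q : ℤ) : O'') := by
        rw [← h3]; push_cast; rfl
      exact (Fermat.Agent.S58.H285.pointCount W q hq).1 (Int.cast_injective h4).symm
    · rw [quad_plus_eq] at h1
      have h3 := cmpF q hq hqlam hgood A' hA' σ hσ _ h1
      have h4 : ((-((q : ℤ) + 1) : ℤ) : O'') = ((W.apOfModel q : ℤ) : O'') := by
        rw [← h3]; push_cast; rfl
      exact (Fermat.Agent.S58.H285.pointCount W q hq).2 (Int.cast_injective h4).symm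

/-- **No prime `q ≠ p` with `q² ∥ M`, from S36.** -/
theorem no_sq_h94 (h36 : S36Statement) (hres : ResidualStatement)
    (W : WeierstrassCurve ℤ) (hΔ : W.Δ ≠ 0) (hss : W.IsSemistableModel)
    {N M : ℕ} (hN0 : N ≠ 0) (hMN : M ∣ N) [NeZero M]
    (g : CuspForm (Gamma0 M) 2) (hg : g.IsNewform)
    (hgW : ∀ ℓ : ℕ, ℓ.Prime → ¬ ℓ ∣ N → qCoeff ⇑g ℓ = (W.apOfModel ℓ : ℂ))
    (hbad : ∀ ℓ : ℕ, ℓ.Prime → (ℓ : ℤ) ∣ W.Δ → ℓ ∣ N)
    (p : ℕ) [Fact p.Prime] (hp2 : p ≠ 2) (hirr : W.ModRepIsIrreducible p)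
    (q : ℕ) (hq : q.Prime) (hqp : q ≠ p) : M.factorization q ≠ 2 := by
  classical
  intro hfact
  have := finite_residueField_padicInt_h94 p
  have hM0 : M ≠ 0 := NeZero.ne M
  set S' : Finset ℕ := insert p N.primeFactors with hS'
  have hpS' : p ∈ S' := Finset.mem_insert_self _ _
  have hMS' : ∀ q : ℕ, q.Prime → q ∣ M → q ∈ S' := fun q hq hqM =>
    Finset.mem_insert_of_mem (Nat.mem_primeFactors.mpr ⟨hq, dvd_trans hqM hMN, hN0⟩)
  have hT : ∀ ℓ : ℕ, ℓ.Prime → ℓ ∉ S' → ¬ ℓ ∣ N ∧ ¬ ℓ ∣ M ∧ ℓ ∉ (↑S' : Set ℕ) ∧ ℓ ≠ p := by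
    intro ℓ hℓ hℓT
    have h1 : ℓ ≠ p := fun h => hℓT (h ▸ hpS')
    have hℓN : ¬ ℓ ∣ N := fun h =>
      hℓT (Finset.mem_insert_of_mem (Nat.mem_primeFactors.mpr ⟨hℓ, h, hN0⟩))
    exact ⟨hℓN, fun h => hℓN (dvd_trans h hMN), fun h => hℓT (Finset.mem_coe.mp h), h1⟩
  set chig : heckeAlgebra M 2 (↑S' : Set ℕ) →+* ℂ := chigOf hg.1 (↑S' : Set ℕ) with hchigdef
  have hchig : ∀ (ℓ : ℕ) (hℓ : ℓ.Prime) (hℓM : ¬ ℓ ∣ M) (hℓS : ℓ ∉ (↑S' : Set ℕ)),
      chig (heckeAlgebra.T hℓ hℓM hℓS) = qCoeff ⇑g ℓ :=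
    fun ℓ hℓ hℓM hℓS => chigOf_T hg.1 _ hℓ hℓM hℓS
  have hle : ∀ x ∈ chig.range, x ∈ (⊥ : Subalgebra ℤ ℂ) := by
    intro x hx
    refine chigOf_range_le hg.1 (↑S' : Set ℕ) (⊥ : Subalgebra ℤ ℂ).toSubring
      (fun ℓ hℓ hℓM hℓS => ?_)
      (fun q hq hqM => Finset.mem_coe.mpr (hMS' q hq hqM)) hx
    have hℓN : ¬ ℓ ∣ N := (hT ℓ hℓ (fun h => hℓS (Finset.mem_coe.mpr h))).1
    rw [hgW ℓ hℓ hℓN]
    exact intCast_mem_bot_h94 _
  set iota : chig.range →+* ℤ_[p] := iotaOf ⊥ (phiInt ℤ_[p]) chig.range hle with hiotadef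
  obtain ⟨O'', j1, j2, j3, j4, j5, j6, j7, j8, j9, hinj, ρ, hρ, hρnu⟩ :=
    h36 hg p S' ℤ_[p] (natCast_mem_maximalIdeal_padicInt_h94 p) hp2 chig hchig iota
      hpS' hMS' (by
        intro O'' _ _ _ _ _ _ _ _ _ _ ρ hρ
        have hpO'' : (p : O'') ∈ IsLocalRing.maximalIdeal O'' :=
          natCast_mem_maximalIdeal_of_isLocalHom (natCast_mem_maximalIdeal_padicInt_h94 p)
        refine hres p hp2 W hΔ hirr O'' hpO'' ρ S' ?_
        intro ℓ hℓ hℓT A' hA' σ hσ
        obtain ⟨hℓN, hℓM, hℓS, hℓp⟩ := hT ℓ hℓ hℓT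
        rw [hρ ℓ hℓ hℓp hℓM hℓS A' hA' σ hσ,
          iota_eq_intCast chig iota _ (W.apOfModel ℓ)
            ((hchig ℓ hℓ hℓM hℓS).trans (hgW ℓ hℓ hℓN)), map_intCast])
  have hpO'' : (p : O'') ∈ IsLocalRing.maximalIdeal O'' :=
    natCast_mem_maximalIdeal_of_isLocalHom (natCast_mem_maximalIdeal_padicInt_h94 p)
  obtain ⟨-, cmpI⟩ := compare_h94 W hΔ hss p hpO'' S' hpS'
    (fun ℓ hℓ hd => Finset.mem_insert_of_mem
      (Nat.mem_primeFactors.mpr ⟨hℓ, hbad ℓ hℓ hd, hN0⟩))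
    ρ (by
      intro ℓ hℓ hℓT A' hA' σ hσ
      obtain ⟨hℓN, hℓM, hℓS, -⟩ := hT ℓ hℓ hℓT
      rw [hρ ℓ hℓ hℓM hℓS A' hA' σ hσ,
        iota_eq_intCast chig iota _ (W.apOfModel ℓ) ((hchig ℓ hℓ hℓM hℓS).trans (hgW ℓ hℓ hℓN)),
        map_intCast])
  exact hρnu q hq hqp hfact (cmpI q hq hqp)

/-- **S58 from S35, S36, RES and COEFF-HENSEL.** -/
theorem s58_of (h35 : S35Statement) (h36 : S36Statement) (hres : ResidualStatement)
    (hcoeff : CoeffHenselStatement) : S58Statement := by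
  intro W hss N p _ hp2 hirr hp2N hN hbad hN3
  classical
  have hN0 : N ≠ 0 := by
    rintro rfl
    exact hN3 2 Nat.prime_two (dvd_zero _)
  have : NeZero N := ⟨hN0⟩
  have hΔ : W.Δ ≠ 0 := by
    intro h0
    obtain ⟨ℓ, hℓN, hℓ⟩ := Nat.exists_infinite_primes (N + 1)
    have h1 := hbad ℓ hℓ (by rw [h0]; exact dvd_zero _)
    have h2 := Nat.le_of_dvd (Nat.pos_of_ne_zero hN0) h1
    omega
  obtain ⟨f, hf, hfa⟩ := hN
  obtain ⟨M, hMN, g, hg, hga⟩ := Fermat.Agent.Lib.Newform.descent N f hf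
  have hM0 : M ≠ 0 := fun h => hN0 (by rw [h] at hMN; exact zero_dvd_iff.mp hMN)
  have : NeZero M := ⟨hM0⟩
  have hgW : ∀ ℓ : ℕ, ℓ.Prime → ¬ ℓ ∣ N → qCoeff ⇑g ℓ = (W.apOfModel ℓ : ℂ) :=
    fun ℓ hℓ hℓN => (hga ℓ hℓ hℓN).trans (hfa ℓ hℓ (fun hd => hℓN (hbad ℓ hℓ hd)) hℓN)
  -- `M` is squarefree
  have hsq : Squarefree M := by
    refine squarefree_of_forall_not_sq_dvd fun q hq hq2 => ?_
    by_cases hqp : q = p
    · subst hqp
      exact hp2N (dvd_trans hq2 hMN)
    · exact no_sq_h94 h36 hres W hΔ hss hN0 hMN g hg hgW hbad p hp2 hirr q hq hqp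
        (factorization_eq_two_of_sq_dvd hq hM0 hq2 (fun h3 => hN3 q hq (dvd_trans h3 hMN)))
  -- the primes of `M` are bad
  have hMbad : ∀ q : ℕ, q.Prime → q ∣ M → (q : ℤ) ∣ W.Δ := by
    intro q hq hqM
    have hq2 : ¬ q ^ 2 ∣ M := by
      intro h
      have := (Nat.squarefree_iff_prime_squarefree.mp hsq) q hq
      exact this (by rwa [← pow_two])
    by_contra hgood
    -- an auxiliary prime `lam ≠ q`
    obtain ⟨lam, hlam, hlamq⟩ : ∃ lam : ℕ, lam.Prime ∧ q ≠ lam := by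
      by_cases h2 : q = 2
      · exact ⟨3, by norm_num, by omega⟩
      · exact ⟨2, Nat.prime_two, h2⟩
    have : Fact lam.Prime := ⟨hlam⟩
    have hpk := package35_h94 h35 W hΔ hss hN0 hMN g hg hgW hbad lam
      (insert lam N.primeFactors) (Finset.mem_insert_self _ _)
      (fun q hq hqM => Finset.mem_insert_of_mem
        (Nat.mem_primeFactors.mpr ⟨hq, dvd_trans hqM hMN, hN0⟩))
      ⊥ (phiInt ℤ_[lam]) (phiInt_injective ℤ_[lam])
      (by
        intro ℓ hℓ _ hℓS
        have hℓN : ¬ ℓ ∣ N := fun h => hℓS (Finset.mem_coe.mpr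
          (Finset.mem_insert_of_mem (Nat.mem_primeFactors.mpr ⟨hℓ, h, hN0⟩)))
        rw [hgW ℓ hℓ hℓN]
        exact intCast_mem_bot_h94 _)
    exact hpk.2 q hq hlamq hqM hq2 hgood
  have hMD : M ∣ W.conductorLevel :=
    dvd_of_squarefree_of_prime_dvd hsq fun q hq hqM =>
      (W.prime_dvd_conductorLevel_iff hΔ hq).mpr (hMbad q hq hqM)
  obtain ⟨g', hg', hg'a⟩ := Fermat.Agent.Lib.Newform.stab M W.conductorLevel hMD g hg.1
  refine ⟨g', hg', fun ℓ hℓ hgood hℓD => ?_⟩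
  have hℓM : ¬ ℓ ∣ M := fun h => hℓD (dvd_trans h hMD)
  rw [hg'a ℓ hℓ hℓD]
  by_cases hℓN : ℓ ∣ N
  · -- the coefficient ring `ℤ[a_ℓ(g)]` and an auxiliary prime `lam ≠ ℓ`
    obtain ⟨lam, hlam, hlamℓ, ⟨φ⟩⟩ :=
      hcoeff (qCoeff ⇑g ℓ) (isIntegral_qCoeff_h94 hg.1 hℓ hℓM) {ℓ}
    have : Fact lam.Prime := hlam
    have hlamℓ' : lam ≠ ℓ := fun h => hlamℓ (Finset.mem_singleton.mpr h)
    have hpk := package35_h94 h35 W hΔ hss hN0 hMN g hg hgW hbad lam
      ((insert lam N.primeFactors).erase ℓ)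
      (Finset.mem_erase.mpr ⟨hlamℓ', Finset.mem_insert_self _ _⟩)
      (fun q hq hqM => Finset.mem_erase.mpr ⟨fun h => hℓM (h ▸ hqM),
        Finset.mem_insert_of_mem (Nat.mem_primeFactors.mpr ⟨hq, dvd_trans hqM hMN, hN0⟩)⟩)
      (Algebra.adjoin ℤ ({qCoeff ⇑g ℓ} : Set ℂ)) φ
      (injective_of_adjoin_h94 (isIntegral_qCoeff_h94 hg.1 hℓ hℓM) φ)
      (by
        intro ℓ' hℓ' _ hℓ'S
        by_cases h : ℓ' = ℓ
        · rw [h]
          exact Algebra.subset_adjoin (Set.mem_singleton _)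
        · have hℓ'N : ¬ ℓ' ∣ N := fun hd => hℓ'S (Finset.mem_coe.mpr
            (Finset.mem_erase.mpr ⟨h, Finset.mem_insert_of_mem
              (Nat.mem_primeFactors.mpr ⟨hℓ', hd, hN0⟩)⟩))
          rw [hgW ℓ' hℓ' hℓ'N]
          exact Subalgebra.intCast_mem _ _)
    exact hpk.1 ℓ hℓ hgood (Finset.notMem_erase _ _) hℓM
  · exact hgW ℓ hℓ hℓN

end Fermat.Agent.S58.H94

end
-- ===== PACK-END S58/H94/Top.lean

-- ===== PACK-BEGIN Lib/Cheb/H44/DirichletLimit.lean
section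



/-!
# CHEB, Tier 2, piece (AN): `Spec.DirichletLimitStatement`

For a number field `F` and a Dirichlet character `χ` mod `m` with `χ(N I) ∉ {0, 1}` for some
ideal `I`, the series `L_F(s, χ ∘ N) = ∑_I χ(N I) N(I)^(-s)` has a limit as `s → 1⁺`.

Assembly: `NormL.exists_continuousOn_normL` (helper44: multiplier trick; blocks KEY/DS by
helper44, ORB by helper941, CLS by helper584, COP by helper704, tent toolkit by helper74) and the
bridge to the `LSeries` form of `Spec` by helper941.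
-/

namespace Fermat.Agent.Lib.Cheb.H44

open NumberField

/-- **(AN)** in the frozen `Spec` shape. -/
theorem dirichletLimit : Fermat.Agent.Lib.Cheb.Spec.DirichletLimitStatement :=
  Fermat.Agent.Lib.Cheb.H941.dirichletLimit_of_continuousOn fun F _ _ _ _ χ I₀ h0 h1 =>
    Fermat.Agent.Lib.NormL.exists_continuousOn_normL F χ I₀ h0 h1

end Fermat.Agent.Lib.Cheb.H44

end
-- ===== PACK-END Lib/Cheb/H44/DirichletLimit.lean

-- ===== PACK-BEGIN Lib/Cheb/Chebotarev.lean
section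



/-!
# CHEB, Tier 2 END: exact qualitative Chebotarev over `ℚ`

* `Fermat.Agent.Lib.Cheb.chebFinite : Spec.ChebFiniteStatement` — for a Galois number field `L`,
  every `σ ∈ Gal(L/ℚ)` is an arithmetic Frobenius at a prime `P` of `𝓞 L` with trivial inertia,
  above a prime number outside any given finite set.
* `Fermat.Agent.Lib.Cheb.chebotarev : Spec.ChebotarevStatement` — for every finite extension
  `E ⊆ ℚ̄`, every `σ ∈ Gal(ℚ̄/ℚ)` and every finite set `S` there are a prime `ℓ ∉ S`, a valuation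
  subring `A` of `ℚ̄` over `ℓ` and a Frobenius `τ` at `A` (Prelude's `IsFrobeniusAt`) such that the
  inertia group of `A` acts trivially on `E` and `τ = σ` on `E`.

Assembled (row-lead helper56) from the analytic core AN (`H44.dirichletLimit`, helper44 and the
NormL squad), CYC (`H221`, helper221), CROSS (`H223`, helper223), the bridge (`H476`, helper476)
and Tier 1.  Unconditional; no class field theory.
-/

set_option autoImplicit false

namespace Fermat.Agent.Lib.Cheb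

/-- The cyclotomic case. -/
theorem cycStatement : Spec.CycStatement :=
  H221.cyc_of_dirichletLimit H44.dirichletLimit

/-- **Qualitative Chebotarev, finite level.** -/
theorem chebFinite : Spec.ChebFiniteStatement :=
  H221.chebFinite_of_dirichletLimit H44.dirichletLimit

/-- **Qualitative Chebotarev over `ℚ̄`.** -/
theorem chebotarev : Spec.ChebotarevStatement :=
  H221.chebotarev_of_dirichletLimit H44.dirichletLimit

end Fermat.Agent.Lib.Cheb

end
-- ===== PACK-END Lib/Cheb/Chebotarev.lean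

-- ===== PACK-BEGIN S59/G4/H109/Res2.lean
section





/-!
# Row S59, layer G4 — piece RES2 (helper109)

`resStatement2 : Fermat.Agent.S59.G4.ResStatement2` (exact `Prop` of `G4/Spec2.lean`).

Let `θ : 𝕋 → k` be non-Eisenstein, witnessed by an absolutely irreducible `ρ̄` over `k`, and let
`ρ` be a representation over a local ring `A` whose Frobenius characteristic polynomials are given
by `φ : 𝕋 → A`, `φ ≡ ι ∘ θ` modulo the maximal ideal (`ι : k → κ = A / 𝔪`).

1. (Chebotarev, `Lib.Cheb.chebotarev`)  on the compositum of the finite levels of `ρ.residual` and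
   `ρ̄` every `g` agrees with a Frobenius element at a prime `ℓ ∉ S`, `ℓ ∤ N`; hence
   `charpoly (ρ.residual g) = (charpoly (ρ̄ g)).map ι` for all `g` (`charpoly_residual_eq`).
2. (Burnside)  there are `g₁, …, g₄` such that the `ρ̄ (gᵢ)` form a basis of `End(V̄)`
   (`exists_isUnit_coeffMat_of_absIrr`); equivalently the Gram matrix `tr ρ̄ (gᵢ gⱼ)` is invertible.
3. The Gram matrix of `ρ.residual (gᵢ)` is the image under `ι` of that of `ρ̄ (gᵢ)`, hence
   invertible; so the `ρ.residual (gᵢ)` form a basis of `End`, over `κ` and over `κ̄`, and there is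
   no nontrivial invariant subspace.

(The hypothesis `2 ≠ 0` of the statement is not needed.)
-/

set_option autoImplicit false

open Polynomial IsLocalRing
open scoped TensorProduct

namespace Fermat.Agent.S59.G4.H109

open Fermat.Agent.S31 Fermat.Agent.S59.G4

/-- **Burnside, basis form.**  An absolutely irreducible residual representation contains four
elements whose matrices form a basis of `M₂(k)`. -/
theorem exists_isUnit_coeffMat_of_absIrr {k : Type} [Field k] (ρbar : ResidualGaloisRep k)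
    (habs : ρbar.IsAbsolutelyIrreducible) (b : Module.Basis (Fin 2) k ρbar.V) :
    ∃ f : Fin 2 × Fin 2 → GQ,
      IsUnit (coeffMat fun a => LinearMap.toMatrix b b (ρbar.ρ (f a))).det := by
  classical
  set K := AlgebraicClosure k with hK
  set bK : Module.Basis (Fin 2) K (K ⊗[k] ρbar.V) := Algebra.TensorProduct.basis K b with hbK
  set ρK : GQ →* Module.End K (K ⊗[k] ρbar.V) := (ρbar.baseChange K).ρ with hρK
  have hF : ∀ g, (LinearMap.toMatrix b b (ρbar.ρ g)).map (algebraMap k K)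
      = LinearMap.toMatrix bK bK (ρK g) := by
    intro g
    have h1 : ρK g = (ρbar.ρ g).baseChange K := rfl
    rw [h1, LinearMap.toMatrix_baseChange]
  have hnt : Nontrivial (K ⊗[k] ρbar.V) := by
    apply Module.nontrivial_of_finrank_pos (R := K)
    have h2 : Module.finrank K (K ⊗[k] ρbar.V) = 2 := (ρbar.baseChange K).finrank_eq
    rw [h2]
    norm_num
  have hB : Algebra.adjoin K (Set.range ρK) = ⊤ := by
    apply Fermat.Agent.S29.H872.burnside
    intro W hW
    refine habs W (fun σ x hx => ?_)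
    exact hW (ρK σ) (Algebra.subset_adjoin ⟨σ, rfl⟩) hx
  have hspanK : Submodule.span K (Set.range ρK) = ⊤ := by
    have h1 := Algebra.adjoin_eq_span K (Set.range ρK)
    have h2 : (Submonoid.closure (Set.range ρK) : Set (Module.End K (K ⊗[k] ρbar.V)))
        = Set.range ρK := by
      have : Submonoid.closure (Set.range ρK) = MonoidHom.mrange ρK := by
        rw [← MonoidHom.coe_mrange, Submonoid.closure_eq]
      rw [this, MonoidHom.coe_mrange]
    rw [h2, hB] at h1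
    rw [← h1]
    rfl
  have hrange : (Set.range fun g => (LinearMap.toMatrix b b (ρbar.ρ g)).map (algebraMap k K))
      = (LinearMap.toMatrix bK bK) '' (Set.range ρK) := by
    ext M
    constructor
    · rintro ⟨g, rfl⟩
      exact ⟨ρK g, ⟨g, rfl⟩, (hF g).symm⟩
    · rintro ⟨_, ⟨g, rfl⟩, rfl⟩
      exact ⟨g, hF g⟩
  have hmap : Submodule.map ((LinearMap.toMatrix bK bK).toLinearMap)
      (Submodule.span K (Set.range ρK))
      = Submodule.span K ((LinearMap.toMatrix bK bK) '' (Set.range ρK)) :=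
    Submodule.map_span _ _
  have hspan : Submodule.span K
      (Set.range fun g => (LinearMap.toMatrix b b (ρbar.ρ g)).map (algebraMap k K)) = ⊤ := by
    rw [hrange, ← hmap, hspanK, Submodule.map_top, LinearMap.range_eq_top]
    exact (LinearMap.toMatrix bK bK).surjective
  have hr : ∀ a ∈ IsLocalRing.maximalIdeal k, algebraMap k K a = 0 := by
    intro a ha
    rw [IsLocalRing.maximalIdeal_eq_bot, Ideal.mem_bot] at ha
    rw [ha, map_zero]
  obtain ⟨f, hf⟩ := Fermat.Agent.S31.H202.exists_invertible_coeff (algebraMap k K) hr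
    (fun g => LinearMap.toMatrix b b (ρbar.ρ g)) hspan
  exact ⟨f, (Matrix.isUnit_iff_isUnit_det _).mp hf⟩

/-- **Chebotarev step.**  The characteristic polynomials of `ρ.residual` are the images of those
of `ρ̄`, at every element of `Gal(ℚ̄/ℚ)`. -/
theorem charpoly_residual_eq {N : ℕ} [NeZero N] (S : Finset ℕ) {k : Type} [Field k]
    (θ : CuspForm.heckeAlgebra N 2 (↑S : Set ℕ) →+* k) (ρbar : ResidualGaloisRep k)
    (hρbar : ResFrobCond ρbar θ)
    {A : Type} [CommRing A] [IsLocalRing A] (ι : k →+* ResidueField A)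
    (φ : CuspForm.heckeAlgebra N 2 (↑S : Set ℕ) →+* A)
    (hφ : ∀ t, residue A (φ t) = ι (θ t))
    (ρ : GaloisRepAdic A) (hρ : FrobCond ρ φ) (g : GQ) :
    LinearMap.charpoly (ρ.residual.ρ g) = (LinearMap.charpoly (ρbar.ρ g)).map ι := by
  obtain ⟨L₁, hL₁, h₁⟩ := ρ.residual.factorsThroughFiniteLevel
  obtain ⟨L₂, hL₂, h₂⟩ := ρbar.factorsThroughFiniteLevel
  have := hL₁
  have := hL₂
  have hE : FiniteDimensional ℚ ↥(L₁ ⊔ L₂) := IntermediateField.finiteDimensional_sup L₁ L₂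
  obtain ⟨ℓ, B, τ, hℓ, hℓS, hB, hτ, -, hτg⟩ :=
    Fermat.Agent.Lib.Cheb.chebotarev (L₁ ⊔ L₂) hE g (S ∪ N.primeFactors)
  have hℓS' : ℓ ∉ (↑S : Set ℕ) := fun h => hℓS (Finset.mem_union_left _ h)
  have hℓN : ¬ ℓ ∣ N := fun h =>
    hℓS (Finset.mem_union_right _ (Nat.mem_primeFactors.mpr ⟨hℓ, h, NeZero.ne N⟩))
  have hfix : ∀ x ∈ L₁ ⊔ L₂, (g⁻¹ * τ) x = x := by
    intro x hx
    rw [AlgEquiv.mul_apply, hτg x hx]
    exact g.symm_apply_apply x
  have e1 : ρ.residual.ρ τ = ρ.residual.ρ g := by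
    have h := h₁ (g⁻¹ * τ) (fun x hx => hfix x ((le_sup_left : L₁ ≤ L₁ ⊔ L₂) hx))
    have h' : ρ.residual.ρ g * ρ.residual.ρ (g⁻¹ * τ) = ρ.residual.ρ g := by rw [h, mul_one]
    rw [← map_mul, mul_inv_cancel_left] at h'
    exact h'
  have e2 : ρbar.ρ τ = ρbar.ρ g := by
    have h := h₂ (g⁻¹ * τ) (fun x hx => hfix x ((le_sup_right : L₂ ≤ L₁ ⊔ L₂) hx))
    have h' : ρbar.ρ g * ρbar.ρ (g⁻¹ * τ) = ρbar.ρ g := by rw [h, mul_one]
    rw [← map_mul, mul_inv_cancel_left] at h'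
    exact h'
  have c1 := hρ ℓ hℓ hℓN hℓS' B hB τ hτ
  have c2 := hρbar ℓ hℓ hℓN hℓS' B hB τ hτ
  rw [← e1, ← e2, c2]
  have hres : LinearMap.charpoly (ρ.residual.ρ τ)
      = LinearMap.charpoly ((ρ.ρ τ).baseChange (ResidueField A)) := rfl
  rw [hres, LinearMap.charpoly_baseChange, c1]
  simp only [Polynomial.map_add, Polynomial.map_sub, Polynomial.map_mul, Polynomial.map_pow,
    Polynomial.map_X, Polynomial.map_C, map_natCast]
  rw [IsLocalRing.ResidueField.algebraMap_eq, hφ, Polynomial.map_natCast,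
    Polynomial.map_natCast]

/-- **RES2.** -/
theorem resStatement2 : ResStatement2 := by
  intro N _ S k _ _h2 θ hθ A _ _ ι φ hφ ρ hρ
  obtain ⟨ρbar, habs, hρbar⟩ := hθ
  classical
  let b₁ : Module.Basis (Fin 2) k ρbar.V := Module.finBasisOfFinrankEq k ρbar.V ρbar.finrank_eq
  let b₂ : Module.Basis (Fin 2) (ResidueField A) ρ.residual.V :=
    Module.finBasisOfFinrankEq (ResidueField A) ρ.residual.V ρ.residual.finrank_eq
  obtain ⟨f, hf⟩ := exists_isUnit_coeffMat_of_absIrr ρbar habs b₁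
  have htr : ∀ g : GQ, LinearMap.trace (ResidueField A) ρ.residual.V (ρ.residual.ρ g)
      = ι (LinearMap.trace k ρbar.V (ρbar.ρ g)) := by
    intro g
    rw [trace_eq_neg_coeff_charpoly b₂, trace_eq_neg_coeff_charpoly b₁,
      charpoly_residual_eq S θ ρbar hρbar ι φ hφ ρ hρ g, Polynomial.coeff_map, map_neg]
  have hgram : gramMat (fun a => LinearMap.toMatrix b₂ b₂ (ρ.residual.ρ (f a)))
      = (gramMat (fun a => LinearMap.toMatrix b₁ b₁ (ρbar.ρ (f a)))).map ι := by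
    ext a c
    simp only [gramMat, Matrix.of_apply, Matrix.map_apply]
    rw [← LinearMap.toMatrix_mul, ← LinearMap.toMatrix_mul, ← LinearMap.trace_eq_matrix_trace,
      ← LinearMap.trace_eq_matrix_trace, ← map_mul, ← map_mul, htr]
  have hP₂ : IsUnit (coeffMat fun a => LinearMap.toMatrix b₂ b₂ (ρ.residual.ρ (f a))).det := by
    rw [isUnit_det_coeffMat_iff, hgram, ← RingHom.mapMatrix_apply, ← RingHom.map_det]
    exact ((isUnit_det_coeffMat_iff _).mp hf).map ι
  refine ⟨?_, ?_⟩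
  · -- absolutely irreducible
    intro W hW
    set Ω := AlgebraicClosure (ResidueField A) with hΩ
    let bΩ : Module.Basis (Fin 2) Ω (Ω ⊗[ResidueField A] ρ.residual.V) :=
      Algebra.TensorProduct.basis Ω b₂
    have hmat : ∀ g, LinearMap.toMatrix bΩ bΩ ((ρ.residual.baseChange Ω).ρ g)
        = (LinearMap.toMatrix b₂ b₂ (ρ.residual.ρ g)).map (algebraMap (ResidueField A) Ω) := by
      intro g
      have h1 : (ρ.residual.baseChange Ω).ρ g = (ρ.residual.ρ g).baseChange Ω := rfl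
      rw [h1, LinearMap.toMatrix_baseChange]
    have hPΩ : IsUnit (coeffMat fun a =>
        LinearMap.toMatrix bΩ bΩ ((ρ.residual.baseChange Ω).ρ (f a))).det := by
      have : (coeffMat fun a => LinearMap.toMatrix bΩ bΩ ((ρ.residual.baseChange Ω).ρ (f a)))
          = (coeffMat fun a => LinearMap.toMatrix b₂ b₂ (ρ.residual.ρ (f a))).map
              (algebraMap (ResidueField A) Ω) := by
        rw [← coeffMat_map]
        congr 1
        funext a
        exact hmat (f a)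
      rw [this, ← RingHom.mapMatrix_apply, ← RingHom.map_det]
      exact hP₂.map _
    exact eq_bot_or_eq_top_of_isUnit bΩ (fun g => (ρ.residual.baseChange Ω).ρ g) f hPΩ W hW
  · intro W hW
    exact eq_bot_or_eq_top_of_isUnit b₂ (fun g => ρ.residual.ρ g) f hP₂ W hW

end Fermat.Agent.S59.G4.H109

end
-- ===== PACK-END S59/G4/H109/Res2.lean

-- ===== PACK-BEGIN S58/H273/ResGeneric.lean
section


/-!
# Row S58, leaf HRES, part 2 (helper273): residual absolute irreducibility from Frobenius data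

Generic form of `Fermat.Agent.S59.G4.H109.resStatement2` (no Hecke algebra): if the Frobenius
characteristic polynomials of `ρ` (over a local ring `A`) reduce to those of an absolutely
irreducible `ρ̄` (over `k`, `ι : k → A/𝔪`) at all primes outside a finite set, then `ρ.residual`
is absolutely irreducible.

* `charpoly_residual_eq_of_frob` : Chebotarev step, `charpoly (ρ.residual g) = ι (charpoly (ρ̄ g))`
  for every `g`.
* `residual_absIrr_of_charpoly`  : Burnside/Gram step.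
* `residual_absIrr_of_frob`      : the combination.
-/

set_option autoImplicit false

open Polynomial IsLocalRing
open scoped TensorProduct

namespace Fermat.Agent.S58.H273

open Fermat.Agent.S59.G4.H109

/-- **Chebotarev step.**  If the Frobenius characteristic polynomials of `ρ` reduce to those of
`ρ̄` outside a finite set `S` of primes, then the characteristic polynomials of `ρ.residual` are
the images of those of `ρ̄` at every element of `Gal(ℚ̄/ℚ)`. -/
theorem charpoly_residual_eq_of_frob {k : Type} [Field k] (ρbar : ResidualGaloisRep k)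
    {A : Type} [CommRing A] [IsLocalRing A] (ι : k →+* ResidueField A)
    (ρ : GaloisRepAdic A) (S : Finset ℕ)
    (h : ∀ ℓ : ℕ, ℓ.Prime → ℓ ∉ S →
      ∀ B : ValuationSubring (AlgebraicClosure ℚ), B.LiesOverPrime ℓ →
        ∀ σ : AlgebraicClosure ℚ ≃ₐ[ℚ] AlgebraicClosure ℚ, B.IsFrobeniusAt σ ℓ →
          (LinearMap.charpoly (ρ.ρ σ)).map (residue A)
            = (LinearMap.charpoly (ρbar.ρ σ)).map ι)
    (g : AlgebraicClosure ℚ ≃ₐ[ℚ] AlgebraicClosure ℚ) :
    LinearMap.charpoly (ρ.residual.ρ g) = (LinearMap.charpoly (ρbar.ρ g)).map ι := by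
  obtain ⟨L₁, hL₁, h₁⟩ := ρ.residual.factorsThroughFiniteLevel
  obtain ⟨L₂, hL₂, h₂⟩ := ρbar.factorsThroughFiniteLevel
  have := hL₁
  have := hL₂
  have hE : FiniteDimensional ℚ ↥(L₁ ⊔ L₂) := IntermediateField.finiteDimensional_sup L₁ L₂
  obtain ⟨ℓ, B, τ, hℓ, hℓS, hB, hτ, -, hτg⟩ :=
    Fermat.Agent.Lib.Cheb.chebotarev (L₁ ⊔ L₂) hE g S
  have hfix : ∀ x ∈ L₁ ⊔ L₂, (g⁻¹ * τ) x = x := by
    intro x hx
    rw [AlgEquiv.mul_apply, hτg x hx]
    exact g.symm_apply_apply x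
  have e1 : ρ.residual.ρ τ = ρ.residual.ρ g := by
    have h := h₁ (g⁻¹ * τ) (fun x hx => hfix x ((le_sup_left : L₁ ≤ L₁ ⊔ L₂) hx))
    have h' : ρ.residual.ρ g * ρ.residual.ρ (g⁻¹ * τ) = ρ.residual.ρ g := by rw [h, mul_one]
    rw [← map_mul, mul_inv_cancel_left] at h'
    exact h'
  have e2 : ρbar.ρ τ = ρbar.ρ g := by
    have h := h₂ (g⁻¹ * τ) (fun x hx => hfix x ((le_sup_right : L₂ ≤ L₁ ⊔ L₂) hx))
    have h' : ρbar.ρ g * ρbar.ρ (g⁻¹ * τ) = ρbar.ρ g := by rw [h, mul_one]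
    rw [← map_mul, mul_inv_cancel_left] at h'
    exact h'
  have c1 := h ℓ hℓ hℓS B hB τ hτ
  rw [← e1, ← e2, ← c1]
  have hres : LinearMap.charpoly (ρ.residual.ρ τ)
      = LinearMap.charpoly ((ρ.ρ τ).baseChange (ResidueField A)) := rfl
  rw [hres, LinearMap.charpoly_baseChange, IsLocalRing.ResidueField.algebraMap_eq]

/-- **Burnside/Gram step.**  If `ρ̄` is absolutely irreducible and the characteristic polynomials
of `ρ.residual` are the images of those of `ρ̄`, then `ρ.residual` is absolutely irreducible. -/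
theorem residual_absIrr_of_charpoly {k : Type} [Field k] (ρbar : ResidualGaloisRep k)
    (habs : ρbar.IsAbsolutelyIrreducible)
    {A : Type} [CommRing A] [IsLocalRing A] (ι : k →+* ResidueField A)
    (ρ : GaloisRepAdic A)
    (hcp : ∀ g : AlgebraicClosure ℚ ≃ₐ[ℚ] AlgebraicClosure ℚ,
      LinearMap.charpoly (ρ.residual.ρ g) = (LinearMap.charpoly (ρbar.ρ g)).map ι) :
    ρ.residual.IsAbsolutelyIrreducible := by
  classical
  let b₁ : Module.Basis (Fin 2) k ρbar.V := Module.finBasisOfFinrankEq k ρbar.V ρbar.finrank_eq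
  let b₂ : Module.Basis (Fin 2) (ResidueField A) ρ.residual.V :=
    Module.finBasisOfFinrankEq (ResidueField A) ρ.residual.V ρ.residual.finrank_eq
  obtain ⟨f, hf⟩ := exists_isUnit_coeffMat_of_absIrr ρbar habs b₁
  have htr : ∀ g : AlgebraicClosure ℚ ≃ₐ[ℚ] AlgebraicClosure ℚ,
      LinearMap.trace (ResidueField A) ρ.residual.V (ρ.residual.ρ g)
      = ι (LinearMap.trace k ρbar.V (ρbar.ρ g)) := by
    intro g
    rw [trace_eq_neg_coeff_charpoly b₂, trace_eq_neg_coeff_charpoly b₁, hcp g,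
      Polynomial.coeff_map, map_neg]
  have hgram : gramMat (fun a => LinearMap.toMatrix b₂ b₂ (ρ.residual.ρ (f a)))
      = (gramMat (fun a => LinearMap.toMatrix b₁ b₁ (ρbar.ρ (f a)))).map ι := by
    ext a c
    simp only [gramMat, Matrix.of_apply, Matrix.map_apply]
    rw [← LinearMap.toMatrix_mul, ← LinearMap.toMatrix_mul, ← LinearMap.trace_eq_matrix_trace,
      ← LinearMap.trace_eq_matrix_trace, ← map_mul, ← map_mul, htr]
  have hP₂ : IsUnit (coeffMat fun a => LinearMap.toMatrix b₂ b₂ (ρ.residual.ρ (f a))).det := by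
    rw [isUnit_det_coeffMat_iff, hgram, ← RingHom.mapMatrix_apply, ← RingHom.map_det]
    exact ((isUnit_det_coeffMat_iff _).mp hf).map ι
  intro W hW
  set Ω := AlgebraicClosure (ResidueField A) with hΩ
  let bΩ : Module.Basis (Fin 2) Ω (Ω ⊗[ResidueField A] ρ.residual.V) :=
    Algebra.TensorProduct.basis Ω b₂
  have hmat : ∀ g, LinearMap.toMatrix bΩ bΩ ((ρ.residual.baseChange Ω).ρ g)
      = (LinearMap.toMatrix b₂ b₂ (ρ.residual.ρ g)).map (algebraMap (ResidueField A) Ω) := by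
    intro g
    have h1 : (ρ.residual.baseChange Ω).ρ g = (ρ.residual.ρ g).baseChange Ω := rfl
    rw [h1, LinearMap.toMatrix_baseChange]
  have hPΩ : IsUnit (coeffMat fun a =>
      LinearMap.toMatrix bΩ bΩ ((ρ.residual.baseChange Ω).ρ (f a))).det := by
    have : (coeffMat fun a => LinearMap.toMatrix bΩ bΩ ((ρ.residual.baseChange Ω).ρ (f a)))
        = (coeffMat fun a => LinearMap.toMatrix b₂ b₂ (ρ.residual.ρ (f a))).map
            (algebraMap (ResidueField A) Ω) := by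
      rw [← coeffMat_map]
      congr 1
      funext a
      exact hmat (f a)
    rw [this, ← RingHom.mapMatrix_apply, ← RingHom.map_det]
    exact hP₂.map _
  exact eq_bot_or_eq_top_of_isUnit bΩ (fun g => (ρ.residual.baseChange Ω).ρ g) f hPΩ W hW

/-- **RES, generic form.** -/
theorem residual_absIrr_of_frob {k : Type} [Field k] (ρbar : ResidualGaloisRep k)
    (habs : ρbar.IsAbsolutelyIrreducible)
    {A : Type} [CommRing A] [IsLocalRing A] (ι : k →+* ResidueField A)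
    (ρ : GaloisRepAdic A) (S : Finset ℕ)
    (h : ∀ ℓ : ℕ, ℓ.Prime → ℓ ∉ S →
      ∀ B : ValuationSubring (AlgebraicClosure ℚ), B.LiesOverPrime ℓ →
        ∀ σ : AlgebraicClosure ℚ ≃ₐ[ℚ] AlgebraicClosure ℚ, B.IsFrobeniusAt σ ℓ →
          (LinearMap.charpoly (ρ.ρ σ)).map (residue A)
            = (LinearMap.charpoly (ρbar.ρ σ)).map ι) :
    ρ.residual.IsAbsolutelyIrreducible :=
  residual_absIrr_of_charpoly ρbar habs ι ρ
    (fun g => charpoly_residual_eq_of_frob ρbar ι ρ S h g)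

end Fermat.Agent.S58.H273

end
-- ===== PACK-END S58/H273/ResGeneric.lean

-- ===== PACK-BEGIN S59/H540/DetCyc.lean
section






/-!
# S59 / G-DET (helper540): the determinant is cyclotomic

Every deformation condition of the Prelude (`flatCondition`, `strictOrdinaryCondition`, ...)
contains `GaloisRepAdic.DetIsCyclotomic p`.  No frozen statement provides it; it follows from the
Frobenius determinants by Chebotarev.

* `detIsCyclotomic_of_frob` : `A` noetherian local, `p ∈ 𝔪_A`, `ρ : GaloisRepAdic A` with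
  `det ρ(Frob_ℓ) = ℓ` for all primes `ℓ` outside a finite set `S`  ⟹  `ρ.DetIsCyclotomic p`.
* `detIsCyclotomic_of_charpoly_frob` : same from `charpoly ρ(Frob_ℓ) = X² - a_ℓ X + ℓ`.
* `heckeGaloisRepDatum_detIsCyclotomic` : `H.ρ.DetIsCyclotomic p` for every
  `CuspForm.HeckeGaloisRepDatum N ↑S 𝒪 θ T` (`S` a finite set of primes, `p ∈ 𝔪_T`).

Inputs: `Fermat.Agent.Lib.Cheb.chebotarev` (landed), the roots-of-unity lemmas of
`Fermat.Agent.S55.H414` (landed), adic continuity and Krull's intersection theorem.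
-/

set_option autoImplicit false

namespace Fermat.Agent.S59.H540

open IsLocalRing Fermat.Agent.S55.H414 Fermat.Agent.S55.Bridge

/-- `ℓ ≡ a mod p ^ n` gives `ℓ - a ∈ (p ^ n)` in any commutative ring. -/
theorem natCast_sub_natCast_mem_span {A : Type*} [CommRing A] {N ℓ a : ℕ}
    (h : (ℓ : ZMod N) = (a : ZMod N)) : (ℓ : A) - (a : A) ∈ Ideal.span {((N : ℕ) : A)} := by
  have h1 : ℓ ≡ a [MOD N] := (ZMod.natCast_eq_natCast_iff ℓ a N).mp h
  have h2 : (N : ℤ) ∣ (a : ℤ) - (ℓ : ℤ) := (Nat.modEq_iff_dvd).mp h1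
  obtain ⟨c, hc⟩ := h2
  rw [Ideal.mem_span_singleton]
  refine ⟨-(c : A), ?_⟩
  have h3 : ((a : ℤ) : A) - ((ℓ : ℤ) : A) = ((N : ℤ) : A) * (c : A) := by
    rw [← Int.cast_sub, hc, Int.cast_mul]
  simp only [Int.cast_natCast] at h3
  linear_combination -h3

/-- **The determinant is cyclotomic** as soon as it is so on Frobenius elements outside a finite
set of primes. -/
theorem detIsCyclotomic_of_frob {A : Type} [CommRing A] [IsLocalRing A] [IsNoetherianRing A]
    (ρ : GaloisRepAdic A) (p : ℕ) [Fact p.Prime] (hpA : (p : A) ∈ maximalIdeal A) (S : Finset ℕ)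
    (hdet : ∀ ℓ : ℕ, ℓ.Prime → ℓ ∉ S →
      ∀ P : ValuationSubring (AlgebraicClosure ℚ), P.LiesOverPrime ℓ →
        ∀ σ : AlgebraicClosure ℚ ≃ₐ[ℚ] AlgebraicClosure ℚ, P.IsFrobeniusAt σ ℓ →
          LinearMap.det (ρ.ρ σ) = (ℓ : A)) :
    ρ.DetIsCyclotomic p := by
  have hp : p.Prime := Fact.out
  refine ⟨hpA, fun n σ a hσ => ?_⟩
  have : NeZero (p ^ n) := ⟨pow_ne_zero _ hp.ne_zero⟩
  apply mem_of_forall_mem_sup_pow
  intro k
  obtain ⟨L, hLfin, hL⟩ := ρ.isAdicContinuous k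
  have : FiniteDimensional ℚ L := hLfin
  have hE : FiniteDimensional ℚ ↥(L ⊔ cycloLevel (p ^ n)) :=
    IntermediateField.finiteDimensional_sup L (cycloLevel (p ^ n))
  obtain ⟨ℓ, P, τ, hℓ, hℓS, hP, hτ, -, hτσ⟩ :=
    Fermat.Agent.Lib.Cheb.chebotarev (L ⊔ cycloLevel (p ^ n)) hE σ (insert p S)
  have hℓp : ℓ ≠ p := fun h => hℓS (by rw [h]; exact Finset.mem_insert_self _ _)
  have hℓS' : ℓ ∉ S := fun h => hℓS (Finset.mem_insert_of_mem h)
  -- the determinant of the Frobenius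
  have h1 : LinearMap.det (ρ.ρ τ) = (ℓ : A) := hdet ℓ hℓ hℓS' P hP τ hτ
  -- `τ⁻¹ σ` is trivial on `L`
  have h2 : ∀ x ∈ L, (τ⁻¹ * σ) x = x := by
    intro x hx
    have hx' : x ∈ L ⊔ cycloLevel (p ^ n) := (le_sup_left : L ≤ _) hx
    have e := hτσ x hx'
    rw [AlgEquiv.mul_apply, ← e]
    exact τ.symm_apply_apply x
  have h4 : LinearMap.det (ρ.ρ (τ⁻¹ * σ)) - 1 ∈ maximalIdeal A ^ k :=
    det_sub_one_mem _ _ (hL (τ⁻¹ * σ) h2)
  have h5 : LinearMap.det (ρ.ρ σ) = (ℓ : A) * LinearMap.det (ρ.ρ (τ⁻¹ * σ)) := by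
    rw [← h1, ← map_mul, ← map_mul, mul_inv_cancel_left]
  -- `ℓ ≡ a mod p ^ n`
  have hNv : P.valuation (((p ^ n : ℕ) : ℕ) : AlgebraicClosure ℚ) = 1 := by
    rw [Nat.cast_pow, map_pow, val_prime_eq_one (A := P) hP hℓ hp hℓp, one_pow]
  have h6 : τ (zetaBar (p ^ n)) = zetaBar (p ^ n) ^ ℓ :=
    IsFrobeniusAt_apply_root hτ (NeZero.ne _) hNv (zetaBar_spec (p ^ n)).pow_eq_one
  have h7 : σ (zetaBar (p ^ n)) = zetaBar (p ^ n) ^ a :=
    hσ _ (zetaBar_spec (p ^ n)).pow_eq_one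
  have h8 : τ (zetaBar (p ^ n)) = σ (zetaBar (p ^ n)) :=
    hτσ _ ((le_sup_right : cycloLevel (p ^ n) ≤ _) (zetaBar_mem_cycloLevel (p ^ n)))
  have h9 : (ℓ : ZMod (p ^ n)) = (a : ZMod (p ^ n)) := by
    rw [← pow_eq_pow_iff_natCast_eq (zetaBar_spec (p ^ n)), ← h6, ← h7, h8]
  have h10 : (ℓ : A) - (a : A) ∈ Ideal.span {((p ^ n : ℕ) : A)} :=
    natCast_sub_natCast_mem_span h9
  -- conclusion
  have e : LinearMap.det (ρ.ρ σ) - (a : A) =
      ((ℓ : A) - (a : A)) + (ℓ : A) * (LinearMap.det (ρ.ρ (τ⁻¹ * σ)) - 1) := by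
    rw [h5]; ring
  rw [e]
  exact Submodule.add_mem_sup h10 (Ideal.mul_mem_left _ _ h4)

/-- Version with Frobenius characteristic polynomials `X² - a_ℓ X + ℓ`. -/
theorem detIsCyclotomic_of_charpoly_frob {A : Type} [CommRing A] [IsLocalRing A]
    [IsNoetherianRing A] (ρ : GaloisRepAdic A) (p : ℕ) [Fact p.Prime]
    (hpA : (p : A) ∈ maximalIdeal A) (S : Finset ℕ) (t : ℕ → A)
    (hchar : ∀ ℓ : ℕ, ℓ.Prime → ℓ ∉ S →
      ∀ P : ValuationSubring (AlgebraicClosure ℚ), P.LiesOverPrime ℓ →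
        ∀ σ : AlgebraicClosure ℚ ≃ₐ[ℚ] AlgebraicClosure ℚ, P.IsFrobeniusAt σ ℓ →
          LinearMap.charpoly (ρ.ρ σ) =
            Polynomial.X ^ 2 - Polynomial.C (t ℓ) * Polynomial.X + Polynomial.C (ℓ : A)) :
    ρ.DetIsCyclotomic p :=
  detIsCyclotomic_of_frob ρ p hpA S fun ℓ hℓ hℓS P hP σ hσ =>
    det_eq_of_charpoly ρ.finrank_eq _ (t ℓ) _ (hchar ℓ hℓ hℓS P hP σ hσ)

/-- **The representation of a Hecke–Galois datum has cyclotomic determinant.** -/
theorem heckeGaloisRepDatum_detIsCyclotomic {N : ℕ} [NeZero N] (S : Finset ℕ)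
    {𝒪 : Type} [CommRing 𝒪] [IsDomain 𝒪] [IsDiscreteValuationRing 𝒪]
    [IsAdicComplete (IsLocalRing.maximalIdeal 𝒪) 𝒪]
    {θ : CuspForm.heckeAlgebra N 2 (↑S : Set ℕ) →+* IsLocalRing.ResidueField 𝒪}
    {T : Type} [CommRing T] [IsLocalRing T] [IsNoetherianRing T]
    [IsAdicComplete (IsLocalRing.maximalIdeal T) T] [Algebra 𝒪 T] [IsLocalHom (algebraMap 𝒪 T)]
    [Module.Finite 𝒪 T] [Module.Free 𝒪 T]
    (H : CuspForm.HeckeGaloisRepDatum N (↑S : Set ℕ) 𝒪 θ T)
    (p : ℕ) [Fact p.Prime] (hpT : (p : T) ∈ maximalIdeal T) :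
    H.ρ.DetIsCyclotomic p := by
  classical
  refine detIsCyclotomic_of_frob H.ρ p hpT (S ∪ N.primeFactors) ?_
  intro ℓ hℓ hℓS P hP σ hσ
  have hℓS' : ℓ ∉ (↑S : Set ℕ) := fun h => hℓS (Finset.mem_union_left _ (Finset.mem_coe.mp h))
  have hℓN : ¬ ℓ ∣ N := fun h =>
    hℓS (Finset.mem_union_right _ (Nat.mem_primeFactors.mpr ⟨hℓ, h, NeZero.ne N⟩))
  exact det_eq_of_charpoly H.ρ.finrank_eq _ _ _ (H.charpoly_frob ℓ hℓ hℓN hℓS' P hP σ hσ)

end Fermat.Agent.S59.H540

end
-- ===== PACK-END S59/H540/DetCyc.lean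

-- ===== PACK-BEGIN S59/G4/H178/Odd.lean
section




/-!
# S59 / G4 / ODD (helper178): `Fermat.Agent.S59.G4.OddStatement`

* `involution_apply_root` : an involution `c ≠ 1` of `Gal(ℚ̄/ℚ)` maps `μ` to `μ ^ (p ^ n - 1)`
  for every `μ` with `μ ^ p ^ n = 1`, `p` an odd prime.
* `det_involution_eq_neg_one` : a representation over a noetherian local ring with cyclotomic
  determinant has `det ρ(c) = -1` on every involution `c ≠ 1`.
* `odd : OddStatement`.

Inputs: `Involution.lean` (Mathlib only), `Fermat.Agent.S59.H540.detIsCyclotomic_of_frob` (main).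
-/

set_option autoImplicit false

namespace Fermat.Agent.S59.G4.H178

open IsLocalRing Fermat.Agent.S31

/-- An involution `c ≠ 1` of `Gal(ℚ̄/ℚ)` acts on `μ_{p^n}` (`p` odd) by `μ ↦ μ ^ (p ^ n - 1)`. -/
theorem involution_apply_root (p : ℕ) (hp : p.Prime) (hp2 : p ≠ 2) (c : GQ) (hc : c * c = 1)
    (hc1 : c ≠ 1) (n : ℕ) (μ : Qb) (hμ : μ ^ p ^ n = 1) : c μ = μ ^ (p ^ n - 1) := by
  have hcc : ∀ x : Qb, (c : Qb ≃+* Qb) ((c : Qb ≃+* Qb) x) = x := by
    intro x
    have h := congrArg (fun f : GQ => f x) hc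
    simpa [AlgEquiv.mul_apply] using h
  have hne : ∃ x : Qb, (c : Qb ≃+* Qb) x ≠ x := by
    by_contra h
    exact hc1 (AlgEquiv.ext fun x => not_not.mp (not_exists.mp h x))
  have h1 : μ * c μ = 1 :=
    involution_mul_self_eq_one (K := Qb) two_ne_zero (c : Qb ≃+* Qb) hcc hne p hp hp2 n μ hμ
  have hpos : 0 < p ^ n := pow_pos hp.pos n
  have h2 : μ * μ ^ (p ^ n - 1) = 1 := by
    rw [← pow_succ', Nat.sub_add_cancel hpos, hμ]
  have hμ0 : μ ≠ 0 := by
    rintro rfl
    rw [zero_mul] at h1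
    exact zero_ne_one h1
  exact mul_left_cancel₀ hμ0 (h1.trans h2.symm)

/-- A representation with cyclotomic determinant is odd: `det ρ(c) = -1` for every involution
`c ≠ 1`. -/
theorem det_involution_eq_neg_one {A : Type} [CommRing A] [IsLocalRing A] [IsNoetherianRing A]
    (ρ : GaloisRepAdic A) (p : ℕ) [Fact p.Prime] (hp2 : p ≠ 2) (hdet : ρ.DetIsCyclotomic p)
    (c : GQ) (hc : c * c = 1) (hc1 : c ≠ 1) : LinearMap.det (ρ.ρ c) = -1 := by
  have hp : p.Prime := Fact.out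
  have hpA : (p : A) ∈ maximalIdeal A := hdet.1
  have hmem : LinearMap.det (ρ.ρ c) + 1 ∈ (⊥ : Ideal A) := by
    apply Fermat.Agent.S59.H540.mem_of_forall_mem_sup_pow
    intro k
    have h1 : LinearMap.det (ρ.ρ c) - ((p ^ k - 1 : ℕ) : A) ∈ Ideal.span {((p ^ k : ℕ) : A)} :=
      hdet.2 k c (p ^ k - 1) (fun μ hμ => involution_apply_root p hp hp2 c hc hc1 k μ hμ)
    have hpos : 1 ≤ p ^ k := pow_pos hp.pos k
    have h2 : ((p ^ k : ℕ) : A) ∈ maximalIdeal A ^ k := by
      rw [Nat.cast_pow]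
      exact Ideal.pow_mem_pow hpA k
    have h3 : Ideal.span {((p ^ k : ℕ) : A)} ≤ maximalIdeal A ^ k :=
      (Ideal.span_singleton_le_iff_mem _).mpr h2
    have h4 : LinearMap.det (ρ.ρ c) + 1 =
        (LinearMap.det (ρ.ρ c) - ((p ^ k - 1 : ℕ) : A)) + ((p ^ k : ℕ) : A) := by
      rw [Nat.cast_sub hpos, Nat.cast_one]; ring
    rw [h4]
    exact (le_sup_right : maximalIdeal A ^ k ≤ ⊥ ⊔ maximalIdeal A ^ k)
      (Ideal.add_mem _ (h3 h1) h2)
  exact eq_neg_of_add_eq_zero_left ((Ideal.mem_bot).mp hmem)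

/-- **ODD.** -/
theorem odd : OddStatement := by
  intro p _ hp2 N _ S _hpS O _ _ _ _ _ _ hpO χ ρ hF c hc hc1
  classical
  have hdet : ρ.DetIsCyclotomic p := by
    refine Fermat.Agent.S59.H540.detIsCyclotomic_of_frob ρ p hpO (S ∪ N.primeFactors) ?_
    intro ℓ hℓ hℓS P hP σ hσ
    have hℓS' : ℓ ∉ (↑S : Set ℕ) := fun h => hℓS (Finset.mem_union_left _ (Finset.mem_coe.mp h))
    have hℓN : ¬ ℓ ∣ N := fun h =>
      hℓS (Finset.mem_union_right _ (Nat.mem_primeFactors.mpr ⟨hℓ, h, NeZero.ne N⟩))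
    exact Fermat.Agent.S59.H540.det_eq_of_charpoly ρ.finrank_eq _ _ _
      (hF ℓ hℓ hℓN hℓS' P hP σ hσ)
  exact det_involution_eq_neg_one ρ p hp2 hdet c hc hc1

end Fermat.Agent.S59.G4.H178

end
-- ===== PACK-END S59/G4/H178/Odd.lean

-- ===== PACK-BEGIN Ribet/H403/DetCyc.lean
section








/-!
# RIBET / DETF (helper403): `det ρ̄_{E,p} = ` mod-`p` cyclotomic character, without Weil pairing

`W` an integral Weierstrass curve with `Δ ≠ 0`, `E = W_ℚ`, `p` a prime, `V = E[p](ℚ̄)` with the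
Prelude Galois action.  If SOME element of `Gal(ℚ̄/ℚ)` does not act on `V` as a scalar, then
`det (σ | V) = χ_p(σ)` for every `σ`, where `χ_p = cycloPow p` is the mod-`p` cyclotomic character.

Route: every `σ` agrees on `ℚ(E[p], ζ_p)` with a Frobenius element `τ` at a good prime `ℓ ≥ 5`,
`ℓ ≠ p` (landed `Lib.Cheb.chebotarev`); `τ² - a_ℓ τ + ℓ = 0` on `E[p]` (landed `Lib.Frob`) and
`χ_p(τ) = ℓ`; `dim V = 2` (landed `S59/H127`); conclude with `det_eq_of_forall_quadratic`.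
-/

set_option autoImplicit false

open WeierstrassCurve WeierstrassCurve.Affine WeierstrassCurve.Affine.Point

namespace Fermat.Agent.Ribet.H403

/-- `ℚ̄`. -/
abbrev Qb : Type := AlgebraicClosure ℚ

/-- `Gal(ℚ̄/ℚ)`. -/
abbrev GQ : Type := Qb ≃ₐ[ℚ] Qb

/-- `E[n](ℚ̄)` in the exact Prelude shape. -/
abbrev Tors (E : WeierstrassCurve ℚ) (n : ℕ) : Type :=
  Submodule.torsionBy ℤ (E⁄Qb).Point n

section general

variable (E : WeierstrassCurve ℚ)

theorem isElliptic_baseChange (hΔ : E.Δ ≠ 0) : (E⁄Qb).IsElliptic := by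
  constructor
  rw [isUnit_iff_ne_zero]
  show (E.map (algebraMap ℚ Qb)).Δ ≠ 0
  rw [WeierstrassCurve.map_Δ]
  exact (_root_.map_ne_zero _).mpr hΔ

theorem finite_tors (hΔ : E.Δ ≠ 0) (n : ℕ) (hn : 1 ≤ n) : Finite (Tors E n) := by
  have := isElliptic_baseChange E hΔ
  exact Fermat.Agent.S59.H127.finite_torsion (E⁄Qb) n hn

theorem card_tors (hΔ : E.Δ ≠ 0) (n : ℕ) : Nat.card (Tors E n) = n ^ 2 := by
  have := isElliptic_baseChange E hΔ
  exact Fermat.Agent.S59.H127.card_torsion_eq (E⁄Qb) n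

theorem finrank_tors (hΔ : E.Δ ≠ 0) (p : ℕ) [Fact p.Prime] :
    Module.finrank (ZMod p) (Tors E p) = 2 := by
  have hp : p.Prime := Fact.out
  have := finite_tors E hΔ p hp.one_lt.le
  have : Module.Finite (ZMod p) (Tors E p) := Module.Finite.of_finite
  have h := Module.natCard_eq_pow_finrank (K := ZMod p) (V := Tors E p)
  rw [Nat.card_zmod, card_tors E hΔ] at h
  exact (Nat.pow_right_injective hp.two_le h).symm

/-- A finite set of coordinates controlling the Galois action on `E[n]`. -/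
theorem exists_finset_coords (n : ℕ) (hfin : Finite (Tors E n)) :
    ∃ s : Finset Qb, ∀ σ τ : GQ, (∀ x ∈ s, τ x = σ x) → ∀ v : Tors E n, τ • v = σ • v := by
  classical
  have := Fintype.ofFinite (Tors E n)
  let coords : (E⁄Qb).Point → Finset Qb :=
    fun Q => match Q with
      | .zero => ∅
      | .some x y _ => {x, y}
  refine ⟨Finset.univ.biUnion fun v : Tors E n => coords v.1, fun σ τ hσ v => ?_⟩
  have hv : ∀ x ∈ coords v.1, τ x = σ x := fun x hx =>
    hσ x (Finset.mem_biUnion.2 ⟨v, Finset.mem_univ _, hx⟩)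
  apply Subtype.ext
  change Point.map τ.toAlgHom v.1 = Point.map σ.toAlgHom v.1
  rcases hQ : v.1 with _ | ⟨x, y, h⟩
  · rfl
  · rw [hQ] at hv
    have hx : τ x = σ x := hv x (by simp [coords])
    have hy : τ y = σ y := hv y (by simp [coords])
    rw [Point.map_some, Point.map_some]
    simp only [Point.some.injEq]
    exact ⟨hx, hy⟩

end general

section integral

variable (W : WeierstrassCurve ℤ) (p : ℕ) [Fact p.Prime]

/-- **Quadratic relation.**  Every `σ ∈ Gal(ℚ̄/ℚ)` satisfies `σ² - a σ + χ_p(σ) = 0` on `E[p]`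
for some `a ∈ 𝔽_p`. -/
theorem exists_quadratic_rel (hΔ : W.Δ ≠ 0) (σ : GQ) :
    ∃ a : ZMod p, ∀ x : Tors (W.map (Int.castRingHom ℚ)) p,
      σ • (σ • x) - a • (σ • x)
        + ((Fermat.Agent.S55.H414.cycloPow p σ : (ZMod p)ˣ) : ZMod p) • x = 0 := by
  classical
  have hp : p.Prime := Fact.out
  have hΔQ : (W.map (Int.castRingHom ℚ)).Δ ≠ 0 := by
    rw [WeierstrassCurve.map_Δ]
    simpa using hΔ
  have hfin := finite_tors (W.map (Int.castRingHom ℚ)) hΔQ p hp.one_lt.le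
  obtain ⟨s, hs⟩ := exists_finset_coords (W.map (Int.castRingHom ℚ)) p hfin
  -- the finite level
  set ζ := Fermat.Agent.S55.H414.zetaBar p with hζ
  let T : Set Qb := (↑(insert ζ s) : Set Qb)
  have hfd : FiniteDimensional ℚ (IntermediateField.adjoin ℚ T) :=
    IntermediateField.finiteDimensional_adjoin
      (fun x _ => (AlgebraicClosure.isAlgebraic ℚ).isIntegral.isIntegral x)
  -- Chebotarev
  obtain ⟨ℓ, A, τ, hℓ, hℓS, hA, hτ, -, hτσ⟩ :=
    Fermat.Agent.Lib.Cheb.chebotarev (IntermediateField.adjoin ℚ T) hfd σ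
      (insert 2 (insert 3 (insert p W.Δ.natAbs.primeFactors)))
  have hℓ2 : ℓ ≠ 2 := fun h => hℓS (by rw [h]; simp)
  have hℓ3 : ℓ ≠ 3 := fun h => hℓS (by rw [h]; simp)
  have hℓp : ℓ ≠ p := fun h => hℓS (by rw [h]; simp)
  have hℓΔ : ℓ ∉ W.Δ.natAbs.primeFactors := fun h => hℓS (by simp [h])
  have h5 : 5 ≤ ℓ := by
    have h2 := hℓ.two_le
    by_contra hlt
    have h4 : ℓ = 4 := by omega
    rw [h4] at hℓ
    exact absurd hℓ (by decide)
  have hgood : W.IsGoodPrimeFor ℓ := by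
    intro hdvd
    apply hℓΔ
    rw [Nat.mem_primeFactors]
    refine ⟨hℓ, ?_, ?_⟩
    · exact Int.natCast_dvd.mp hdvd
    · simpa using hΔ
  have hℓnp : ¬ ℓ ∣ p := by
    intro h
    rcases (Nat.dvd_prime hp).1 h with h1 | h1
    · exact hℓ.one_lt.ne' h1
    · exact hℓp h1
  -- agreement of `τ` and `σ`
  have hagree : ∀ x ∈ s, τ x = σ x := fun x hx =>
    hτσ x (IntermediateField.subset_adjoin ℚ T (by simp [T, hx]))
  have hact : ∀ v : Tors (W.map (Int.castRingHom ℚ)) p, τ • v = σ • v := hs σ τ hagree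
  have hζT : ζ ∈ IntermediateField.adjoin ℚ T :=
    IntermediateField.subset_adjoin ℚ T (by simp [T])
  -- the cyclotomic character
  have hpv : A.valuation ((p : ℕ) : Qb) = 1 :=
    Fermat.Agent.S55.Bridge.val_prime_eq_one (A := A) hA hℓ hp hℓp
  have hζp : ζ ^ p = 1 := (Fermat.Agent.S55.H414.zetaBar_spec p).pow_eq_one
  have hτζ : τ ζ = ζ ^ ℓ :=
    Fermat.Agent.S55.H414.IsFrobeniusAt_apply_root hτ hp.ne_zero hpv hζp
  have hσζ : σ ζ = ζ ^ ℓ := by rw [← hτσ ζ hζT, hτζ]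
  have hχ : ((Fermat.Agent.S55.H414.cycloPow p σ : (ZMod p)ˣ) : ZMod p) = (ℓ : ZMod p) :=
    Fermat.Agent.S55.H414.coe_cycloPow_of_apply_eq_pow p σ ℓ hσζ
  -- the Frobenius relation
  have hrel := Fermat.Agent.Lib.Frob.frobRelation_of_parts Fermat.Agent.Lib.Frob.frobRelationFin
    Fermat.Agent.Lib.Frob.reductionData W ℓ hℓ h5 hgood A τ hA hτ p hp.pos hℓnp
  refine ⟨((W.apOfModel ℓ : ℤ) : ZMod p), fun x => ?_⟩
  have hx : (p : ℕ) • (x : ((W.map (Int.castRingHom ℚ))⁄Qb).Point) = 0 := by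
    have := x.2
    rw [Submodule.mem_torsionBy_iff] at this
    rw [← natCast_zsmul]
    exact this
  have h1 := hrel x.1 hx
  rw [hχ, ← hact x, ← hact (τ • x)]
  apply Subtype.ext
  rw [Int.cast_smul_eq_zsmul, Nat.cast_smul_eq_nsmul]
  rw [← natCast_zsmul]
  exact h1


/-- **`det = cyclotomic`** for an integral Weierstrass curve whose mod-`p` image contains a
non-scalar element. -/
theorem det_eq_cycloPow (hΔ : W.Δ ≠ 0)
    (hns : ∃ h : GQ, ¬ ∃ s : ZMod p, ∀ x : Tors (W.map (Int.castRingHom ℚ)) p, h • x = s • x)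
    (σ : GQ) :
    LinearMap.det (galoisRepModuleEnd (S := ℚ) (K := Qb) (W.map (Int.castRingHom ℚ)) p σ)
      = ((Fermat.Agent.S55.H414.cycloPow p σ : (ZMod p)ˣ) : ZMod p) := by
  have hp : p.Prime := Fact.out
  have hΔQ : (W.map (Int.castRingHom ℚ)).Δ ≠ 0 := by
    rw [WeierstrassCurve.map_Δ]
    simpa using hΔ
  have hfin := finite_tors (W.map (Int.castRingHom ℚ)) hΔQ p hp.one_lt.le
  have : Module.Finite (ZMod p) (Tors (W.map (Int.castRingHom ℚ)) p) := Module.Finite.of_finite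
  exact det_eq_of_forall_quadratic (finrank_tors (W.map (Int.castRingHom ℚ)) hΔQ p)
    (galoisRepModuleEnd (S := ℚ) (K := Qb) (W.map (Int.castRingHom ℚ)) p)
    (Fermat.Agent.S55.H414.cycloPow p)
    (fun g => exists_quadratic_rel W p hΔ g) hns σ

/-- The same in elementary form: if `σ` raises the `p`-th roots of unity to the `c`-th power then
`det (σ | E[p]) = c`. -/
theorem det_eq_of_apply_root (hΔ : W.Δ ≠ 0)
    (hns : ∃ h : GQ, ¬ ∃ s : ZMod p, ∀ x : Tors (W.map (Int.castRingHom ℚ)) p, h • x = s • x)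
    (σ : GQ) (c : ℕ) (hc : ∀ ζ : Qb, ζ ^ p = 1 → σ ζ = ζ ^ c) :
    LinearMap.det (galoisRepModuleEnd (S := ℚ) (K := Qb) (W.map (Int.castRingHom ℚ)) p σ)
      = (c : ZMod p) := by
  rw [det_eq_cycloPow W p hΔ hns σ]
  exact Fermat.Agent.S55.H414.coe_cycloPow_of_apply_eq_pow p σ c
    (hc _ (Fermat.Agent.S55.H414.zetaBar_spec p).pow_eq_one)

end integral

end Fermat.Agent.Ribet.H403

end
-- ===== PACK-END Ribet/H403/DetCyc.lean

-- ===== PACK-BEGIN Ribet/H52/TraceFormulaW.lean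
section





/-!
# Row RIBET, TARGET S40, piece TF-W (helper52): the trace formula in `W`-form, UNCONDITIONAL

`traceFormulaW_h52 : Spec.TraceFormulaWStatement` — `W` an integral Weierstrass curve with
`Δ ≠ 0`, `p` a prime with `W[p]` irreducible, `ℓ ≠ p` a prime of good reduction of `W`
(INCLUDING `ℓ = 2, 3`), `τ` a Frobenius at a place over `ℓ`:  `tr (τ | W[p]) = a_ℓ(W)` in `𝔽_p`.

Inputs, all on main:
* the Frobenius relation at all good primes `Lib.Frob.Small.frobRelationAll` (helper545);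
* `det = cyclotomic` without Weil pairing, `Ribet.H403.det_eq_of_apply_root` (helper403), which
  needs a non-scalar element in the image: `exists_nonscalar_of_irreducible_h52`;
* Frobenius on roots of unity `S55.H414.IsFrobeniusAt_apply_root` (helper414);
* `H52.trace_of_det_h52` (Cayley–Hamilton in rank two).

Also `detFrobW_h52` (the determinant of Frobenius is `ℓ`) and `charpolyFrobW_h52`
(`τ² − a_ℓ τ + ℓ = 0` as endomorphisms of `W[p]`).
-/

set_option autoImplicit false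

open WeierstrassCurve WeierstrassCurve.Affine WeierstrassCurve.Affine.Point

namespace Fermat.Agent.Ribet.H52

open Fermat.Agent.Lib.Frob (Qb Pts)
open Fermat.Agent.Ribet.Spec (GQ WTorsion)

/-- An irreducible `W[p]` is not acted on by scalars only. -/
theorem exists_nonscalar_of_irreducible_h52 (W : WeierstrassCurve ℤ) (hΔ : W.Δ ≠ 0) (p : ℕ)
    [Fact p.Prime] (hirr : W.ModRepIsIrreducible p) :
    ∃ h : GQ, ¬ ∃ s : ZMod p, ∀ x : WTorsion W p, h • x = s • x := by
  by_contra hall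
  have hall' : ∀ h : GQ, ∃ s : ZMod p, ∀ x : WTorsion W p, h • x = s • x := by
    intro h
    by_contra hh
    exact hall ⟨h, hh⟩
  obtain ⟨hnt, hirr'⟩ := hirr
  have hΔQ : (W.map (Int.castRingHom ℚ)).Δ ≠ 0 := by
    rw [WeierstrassCurve.map_Δ]
    simpa using hΔ
  have : (W.map (Int.castRingHom ℚ)).IsElliptic := ⟨isUnit_iff_ne_zero.mpr hΔQ⟩
  have hrank : Module.finrank (ZMod p) (WTorsion W p) = 2 :=
    finrank_torsion_h52 (W.map (Int.castRingHom ℚ)) p
  obtain ⟨x, hx⟩ := exists_ne (0 : WTorsion W p)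
  have hstable : IsGaloisStable (K := AlgebraicClosure ℚ) ℚ
      (Submodule.span (ZMod p) ({x} : Set (WTorsion W p))) := by
    intro σ y hy
    obtain ⟨s, hs⟩ := hall' σ
    rw [hs y]
    exact Submodule.smul_mem _ _ hy
  rcases hirr' _ hstable with hbot | htop
  · apply hx
    have hmem : x ∈ Submodule.span (ZMod p) ({x} : Set (WTorsion W p)) :=
      Submodule.mem_span_singleton_self x
    rw [hbot] at hmem
    exact (Submodule.mem_bot _).mp hmem
  · have h1 : Module.finrank (ZMod p) (Submodule.span (ZMod p) ({x} : Set (WTorsion W p))) = 1 :=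
      finrank_span_singleton hx
    rw [htop, finrank_top, hrank] at h1
    omega

/-- **(DET-W)** the determinant of a Frobenius at `ℓ ≠ p` on an irreducible `W[p]` is `ℓ`. -/
theorem detFrobW_h52 (W : WeierstrassCurve ℤ) (p : ℕ) (hΔ : W.Δ ≠ 0) (hp : p.Prime)
    (hirr : W.ModRepIsIrreducible p) (ℓ : ℕ) (hℓ : ℓ.Prime) (hℓp : ℓ ≠ p)
    (A : ValuationSubring (AlgebraicClosure ℚ)) (hA : A.LiesOverPrime ℓ) (τ : GQ)
    (hτ : A.IsFrobeniusAt τ ℓ) :
    LinearMap.det (galoisRepModuleEnd (S := ℚ) (K := AlgebraicClosure ℚ)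
      (W.map (Int.castRingHom ℚ)) p τ) = (ℓ : ZMod p) := by
  have : Fact p.Prime := ⟨hp⟩
  refine Fermat.Agent.Ribet.H403.det_eq_of_apply_root W p hΔ
    (exists_nonscalar_of_irreducible_h52 W hΔ p hirr) τ ℓ ?_
  intro ζ hζ
  exact Fermat.Agent.S55.H414.IsFrobeniusAt_apply_root hτ hp.ne_zero
    (Fermat.Agent.S55.Bridge.val_prime_eq_one (A := A) hA hℓ hp hℓp) hζ

/-- **(TF-W), unconditional.** -/
theorem traceFormulaW_h52 : Fermat.Agent.Ribet.Spec.TraceFormulaWStatement := by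
  intro W p hΔ hp _ hirr ℓ hℓ hℓp hgood A hA τ hτ
  have hΔQ : (W.map (Int.castRingHom ℚ)).Δ ≠ 0 := by
    rw [WeierstrassCurve.map_Δ]
    simpa using hΔ
  have : (W.map (Int.castRingHom ℚ)).IsElliptic := ⟨isUnit_iff_ne_zero.mpr hΔQ⟩
  exact trace_of_det_h52 (W.map (Int.castRingHom ℚ))
    (fun W ℓ hℓ hgood A σ hA hσ n hn hℓn P hP =>
      Fermat.Agent.Lib.Frob.Small.frobRelationAll W ℓ hℓ hgood A σ hA hσ n hn hℓn P hP)
    W ⟨1, one_smul _ _⟩ p ℓ hp hℓ hℓp hgood A hA τ hτ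
    (detFrobW_h52 W p hΔ hp hirr ℓ hℓ hℓp A hA τ hτ)

end Fermat.Agent.Ribet.H52

end
-- ===== PACK-END Ribet/H52/TraceFormulaW.lean

-- ===== PACK-BEGIN S58/H273/Hres.lean
section







/-!
# Row S58, leaf HRES (helper273)

`W` an integral Weierstrass curve with `Δ ≠ 0`, `p` an odd prime with `W[p]` irreducible.

* `wRes W hΔ p`               : `W[p]` as a `ResidualGaloisRep (ZMod p)` (Prelude's
                                `residualGaloisRepOf`).
* `wRes_isOdd`                : `det = -1` at every involution `≠ 1`.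
* `wRes_isAbsolutelyIrreducible`.
* `wRes_charpoly_frob`        : `X² - a_ℓ(W) X + ℓ` at the good primes `ℓ ≠ p`.
* `hres`                      : **HRES.**  Every `ρ` over a Noetherian local ring `A` of residue
  characteristic `p` with Frobenius characteristic polynomials `X² - a_ℓ(W) X + ℓ` outside a
  finite set `S` of primes has `ρ.residual` absolutely irreducible and odd.
* `hres_of_hecke`             : the same in the exact shape of the hypothesis `hres` of the frozen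
  S36 (Hecke character `chig` with `chig T_ℓ = a_ℓ(W)`).
-/

set_option autoImplicit false
set_option linter.unusedVariables false
set_option linter.overlappingInstances false

open Polynomial IsLocalRing
open WeierstrassCurve WeierstrassCurve.Affine WeierstrassCurve.Affine.Point
open scoped TensorProduct

namespace Fermat.Agent.S58.H273

/-- `Gal(ℚ̄/ℚ)` -/
abbrev GalQ : Type := AlgebraicClosure ℚ ≃ₐ[ℚ] AlgebraicClosure ℚ

/-- the generic fibre is elliptic -/
theorem isElliptic_map (W : WeierstrassCurve ℤ) (hΔ : W.Δ ≠ 0) :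
    (W.map (Int.castRingHom ℚ)).IsElliptic := by
  have hΔQ : (W.map (Int.castRingHom ℚ)).Δ ≠ 0 := by
    rw [WeierstrassCurve.map_Δ]
    simpa using hΔ
  exact ⟨isUnit_iff_ne_zero.mpr hΔQ⟩

theorem wRes_hcard (W : WeierstrassCurve ℤ) (hΔ : W.Δ ≠ 0) (p : ℕ) :
    Nat.card (Submodule.torsionBy ℤ
      ((W.map (Int.castRingHom ℚ))⁄(AlgebraicClosure ℚ)).Point p) = p ^ 2 := by
  have := isElliptic_map W hΔ
  exact Fermat.Agent.S59.H127.card_torsion_prime (W.map (Int.castRingHom ℚ)) p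

theorem wRes_hker (W : WeierstrassCurve ℤ) (hΔ : W.Δ ≠ 0) (p : ℕ) [Fact p.Prime] :
    GaloisFactorsThroughFiniteLevel
      (WeierstrassCurve.Affine.Point.galoisRepModuleEnd (K := AlgebraicClosure ℚ) ℚ
        (W.map (Int.castRingHom ℚ)) p) := by
  have := isElliptic_map W hΔ
  exact Fermat.Agent.S59.H127.galoisFactorsThroughFiniteLevel_torsion
    (W.map (Int.castRingHom ℚ)) p (Fact.out (p := p.Prime)).one_lt.le

/-- `W[p]` as a residual Galois representation over `𝔽_p`. -/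
noncomputable def wRes (W : WeierstrassCurve ℤ) (hΔ : W.Δ ≠ 0) (p : ℕ) [Fact p.Prime] :
    ResidualGaloisRep (ZMod p) :=
  (W.map (Int.castRingHom ℚ)).residualGaloisRepOf p (wRes_hcard W hΔ p) (wRes_hker W hΔ p)

theorem wRes_ρ (W : WeierstrassCurve ℤ) (hΔ : W.Δ ≠ 0) (p : ℕ) [Fact p.Prime] :
    (wRes W hΔ p).ρ = galoisRepModuleEnd (K := AlgebraicClosure ℚ) ℚ
      (W.map (Int.castRingHom ℚ)) p := rfl

section Curve

variable (W : WeierstrassCurve ℤ) (hΔ : W.Δ ≠ 0) (p : ℕ) [Fact p.Prime]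

theorem wRes_isIrreducible (hirr : W.ModRepIsIrreducible p) : (wRes W hΔ p).IsIrreducible := by
  intro N hN
  exact hirr.2 N (fun σ x hx => hN σ x hx)

/-- the determinant of `W[p]` at an involution `≠ 1` is `-1` -/
theorem wRes_det_involution (hp2 : p ≠ 2) (hirr : W.ModRepIsIrreducible p)
    (c : GalQ) (hc : c * c = 1) (hc1 : c ≠ 1) :
    LinearMap.det ((wRes W hΔ p).ρ c) = -1 := by
  have hp : p.Prime := Fact.out
  have h := Fermat.Agent.Ribet.H403.det_eq_of_apply_root W p hΔ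
    (Fermat.Agent.Ribet.H52.exists_nonscalar_of_irreducible_h52 W hΔ p hirr) c (p - 1)
    (fun ζ hζ => by
      have := Fermat.Agent.S59.G4.H178.involution_apply_root p hp hp2 c hc hc1 1 ζ
        (by rwa [pow_one])
      rwa [pow_one] at this)
  have h' : LinearMap.det ((wRes W hΔ p).ρ c) = ((p - 1 : ℕ) : ZMod p) := h
  rw [h', Nat.cast_sub hp.one_lt.le, ZMod.natCast_self, Nat.cast_one, zero_sub]

theorem wRes_isOdd (hp2 : p ≠ 2) (hirr : W.ModRepIsIrreducible p) : (wRes W hΔ p).IsOdd :=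
  fun c hc hc1 => wRes_det_involution W hΔ p hp2 hirr c hc hc1

theorem two_ne_zero_zmod (hp2 : p ≠ 2) : (2 : ZMod p) ≠ 0 := by
  have hp : p.Prime := Fact.out
  intro h
  have h' : ((2 : ℕ) : ZMod p) = 0 := by exact_mod_cast h
  rw [ZMod.natCast_eq_zero_iff] at h'
  exact hp2 ((Nat.prime_dvd_prime_iff_eq hp Nat.prime_two).mp h')

/-- **`W[p]` is absolutely irreducible** (`p` odd, `W[p]` irreducible). -/
theorem wRes_isAbsolutelyIrreducible (hp2 : p ≠ 2) (hirr : W.ModRepIsIrreducible p) :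
    (wRes W hΔ p).IsAbsolutelyIrreducible :=
  absIrr_of_irr_of_involution (two_ne_zero_zmod p hp2) (wRes W hΔ p)
    (wRes_isIrreducible W hΔ p hirr) complexConjugation complexConjugation_mul_self
    (wRes_det_involution W hΔ p hp2 hirr complexConjugation complexConjugation_mul_self
      Fermat.Agent.S59.G4.H307.complexConjugation_ne_one)

/-- characteristic polynomial of an endomorphism of a plane -/
theorem charpoly_eq_of_finrank_two {k : Type*} [Field k] {V : Type*} [AddCommGroup V]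
    [Module k V] [Module.Finite k V] (hV : Module.finrank k V = 2) (f : Module.End k V) :
    LinearMap.charpoly f = X ^ 2 - C (LinearMap.trace k V f) * X + C (LinearMap.det f) := by
  classical
  let b : Module.Basis (Fin 2) k V := Module.finBasisOfFinrankEq k V hV
  rw [← LinearMap.charpoly_toMatrix f b, Matrix.charpoly_fin_two,
    ← LinearMap.trace_eq_matrix_trace k b f, LinearMap.det_toMatrix b f]

/-- **Frobenius characteristic polynomial of `W[p]`** at a good prime `ℓ ≠ p`. -/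
theorem wRes_charpoly_frob (hp2 : p ≠ 2) (hirr : W.ModRepIsIrreducible p)
    (ℓ : ℕ) (hℓ : ℓ.Prime) (hℓp : ℓ ≠ p) (hgood : W.IsGoodPrimeFor ℓ)
    (B : ValuationSubring (AlgebraicClosure ℚ)) (hB : B.LiesOverPrime ℓ)
    (τ : GalQ) (hτ : B.IsFrobeniusAt τ ℓ) :
    LinearMap.charpoly ((wRes W hΔ p).ρ τ)
      = X ^ 2 - C (((W.apOfModel ℓ : ℤ) : ZMod p)) * X + C ((ℓ : ZMod p)) := by
  have hp : p.Prime := Fact.out
  have htr := Fermat.Agent.Ribet.H52.traceFormulaW_h52 W p hΔ hp hp2 hirr ℓ hℓ hℓp hgood B hB τ hτ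
  have hdet := Fermat.Agent.Ribet.H52.detFrobW_h52 W p hΔ hp hirr ℓ hℓ hℓp B hB τ hτ
  have htr' : LinearMap.trace (ZMod p) (wRes W hΔ p).V ((wRes W hΔ p).ρ τ)
      = ((W.apOfModel ℓ : ℤ) : ZMod p) := htr
  have hdet' : LinearMap.det ((wRes W hΔ p).ρ τ) = (ℓ : ZMod p) := hdet
  rw [charpoly_eq_of_finrank_two (wRes W hΔ p).finrank_eq, htr', hdet']

end Curve

section Main

variable {A : Type} [CommRing A] [IsLocalRing A]

/-- the residue field has characteristic `p` -/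
theorem charP_residueField (p : ℕ) [Fact p.Prime] (hpA : (p : A) ∈ maximalIdeal A) :
    CharP (ResidueField A) p := by
  have hp : p.Prime := Fact.out
  have h0 : ((p : ℕ) : ResidueField A) = 0 := by
    have := (IsLocalRing.residue_eq_zero_iff (p : A)).mpr hpA
    rwa [map_natCast] at this
  have := CharP.ringChar_of_prime_eq_zero hp h0
  rw [← this]
  exact ringChar.charP _

/-- oddness of the reduction from the Frobenius determinants -/
theorem residual_isOdd_of_frob [IsNoetherianRing A] (p : ℕ) [Fact p.Prime] (hp2 : p ≠ 2)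
    (hpA : (p : A) ∈ maximalIdeal A) (ρ : GaloisRepAdic A) (S : Finset ℕ)
    (hdet : ∀ ℓ : ℕ, ℓ.Prime → ℓ ∉ S →
      ∀ P : ValuationSubring (AlgebraicClosure ℚ), P.LiesOverPrime ℓ →
        ∀ σ : GalQ, P.IsFrobeniusAt σ ℓ → LinearMap.det (ρ.ρ σ) = (ℓ : A)) :
    ρ.residual.IsOdd := by
  intro c hc hc1
  have hcyc : ρ.DetIsCyclotomic p :=
    Fermat.Agent.S59.H540.detIsCyclotomic_of_frob ρ p hpA S hdet
  have h1 : LinearMap.det (ρ.ρ c) = -1 :=
    Fermat.Agent.S59.G4.H178.det_involution_eq_neg_one ρ p hp2 hcyc c hc hc1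
  have h2 : LinearMap.det (ρ.residual.ρ c)
      = algebraMap A (ResidueField A) (LinearMap.det (ρ.ρ c)) :=
    LinearMap.det_baseChange (ρ.ρ c)
  rw [h2, h1, map_neg, map_one]

/-- **HRES.**  Let `W` be an integral Weierstrass curve with `Δ ≠ 0` and `p` an odd prime with
`W[p]` irreducible.  Every representation `ρ` over a Noetherian local ring `A` of residue
characteristic `p` whose Frobenius characteristic polynomials are `X² - a_ℓ(W) X + ℓ` at all primes
outside a finite set `S` has absolutely irreducible and odd reduction. -/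
theorem hres (W : WeierstrassCurve ℤ) (hΔ : W.Δ ≠ 0) (p : ℕ) [Fact p.Prime] (hp2 : p ≠ 2)
    (hirr : W.ModRepIsIrreducible p) [IsNoetherianRing A]
    (hpA : (p : A) ∈ maximalIdeal A) (ρ : GaloisRepAdic A) (S : Finset ℕ)
    (hρ : ∀ ℓ : ℕ, ℓ.Prime → ℓ ∉ S →
      ∀ B : ValuationSubring (AlgebraicClosure ℚ), B.LiesOverPrime ℓ →
        ∀ σ : GalQ, B.IsFrobeniusAt σ ℓ →
          LinearMap.charpoly (ρ.ρ σ)
            = X ^ 2 - C (((W.apOfModel ℓ : ℤ) : A)) * X + C ((ℓ : A))) :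
    ρ.residual.IsAbsolutelyIrreducible ∧ ρ.residual.IsOdd := by
  classical
  have hp : p.Prime := Fact.out
  refine ⟨?_, ?_⟩
  · have hchar : CharP (ResidueField A) p := charP_residueField p hpA
    let ι : ZMod p →+* ResidueField A := ZMod.castHom (dvd_refl p) (ResidueField A)
    refine residual_absIrr_of_frob (wRes W hΔ p)
      (wRes_isAbsolutelyIrreducible W hΔ p hp2 hirr) ι ρ
      (S ∪ insert p W.Δ.natAbs.primeFactors) ?_
    intro ℓ hℓ hℓS B hB σ hσ
    have hℓS' : ℓ ∉ S := fun h => hℓS (Finset.mem_union_left _ h)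
    have hℓp : ℓ ≠ p := fun h =>
      hℓS (Finset.mem_union_right _ (by rw [h]; exact Finset.mem_insert_self _ _))
    have hgood : W.IsGoodPrimeFor ℓ := by
      intro hdvd
      apply hℓS
      refine Finset.mem_union_right _ (Finset.mem_insert_of_mem ?_)
      rw [Nat.mem_primeFactors]
      exact ⟨hℓ, Int.natCast_dvd.mp hdvd, by simpa using hΔ⟩
    rw [hρ ℓ hℓ hℓS' B hB σ hσ, wRes_charpoly_frob W hΔ p hp2 hirr ℓ hℓ hℓp hgood B hB σ hσ]
    simp only [Polynomial.map_add, Polynomial.map_sub, Polynomial.map_mul, Polynomial.map_pow,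
      Polynomial.map_X, map_natCast, map_intCast, Polynomial.map_intCast,
      Polynomial.map_natCast]
  · refine residual_isOdd_of_frob p hp2 hpA ρ S ?_
    intro ℓ hℓ hℓS P hP σ hσ
    exact Fermat.Agent.S59.H540.det_eq_of_charpoly ρ.finrank_eq _ _ _ (hρ ℓ hℓ hℓS P hP σ hσ)

end Main

/-- the maximal ideal of a local extension contains `p` -/
theorem natCast_mem_maximalIdeal_of_isLocalHom {O' O'' : Type} [CommRing O'] [IsLocalRing O']
    [CommRing O''] [IsLocalRing O''] [Algebra O' O''] [IsLocalHom (algebraMap O' O'')]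
    (p : ℕ) (hpO' : (p : O') ∈ maximalIdeal O') : (p : O'') ∈ maximalIdeal O'' := by
  rw [mem_maximalIdeal, mem_nonunits_iff] at hpO' ⊢
  intro hu
  apply hpO'
  have h : IsUnit (algebraMap O' O'' (p : O')) := by rwa [map_natCast]
  exact isUnit_of_map_unit (algebraMap O' O'') _ h

/-- **HRES in the shape of the hypothesis `hres` of the frozen S36** (with `lam = p`): if the
Hecke character `chig` has the values `chig T_ℓ = a_ℓ(W)` at the primes `ℓ ∤ M`, `ℓ ∉ S`, then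
every `ρ` with the Frobenius characteristic polynomials prescribed by `chig` has absolutely
irreducible and odd reduction. -/
theorem hres_of_hecke (W : WeierstrassCurve ℤ) (hΔ : W.Δ ≠ 0) (p : ℕ) [Fact p.Prime]
    (hp2 : p ≠ 2) (hirr : W.ModRepIsIrreducible p)
    {M : ℕ} [NeZero M] (S : Finset ℕ)
    (O' : Type) [CommRing O'] [IsDomain O'] [IsDiscreteValuationRing O']
    [IsAdicComplete (IsLocalRing.maximalIdeal O') O'] [Finite (IsLocalRing.ResidueField O')]
    [CharZero O'] (hpO' : (p : O') ∈ IsLocalRing.maximalIdeal O')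
    (chig : CuspForm.heckeAlgebra M 2 (↑S : Set ℕ) →+* ℂ)
    (hchigW : ∀ (ℓ : ℕ) (hℓ : ℓ.Prime) (hℓM : ¬ ℓ ∣ M) (hℓS : ℓ ∉ (↑S : Set ℕ)),
      chig (CuspForm.heckeAlgebra.T hℓ hℓM hℓS) = ((W.apOfModel ℓ : ℤ) : ℂ))
    (iota : chig.range →+* O') :
    ∀ (O'' : Type) [CommRing O''] [IsDomain O''] [IsDiscreteValuationRing O'']
      [IsAdicComplete (IsLocalRing.maximalIdeal O'') O'']
      [Finite (IsLocalRing.ResidueField O'')] [CharZero O'']
      [Algebra O' O''] [Module.Finite O' O''] [IsLocalHom (algebraMap O' O'')],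
      Function.Injective (algebraMap O' O'') → ∀ (ρ : GaloisRepAdic O''),
      (∀ (ℓ : ℕ) (hℓ : ℓ.Prime) (hℓlam : ℓ ≠ p) (hℓM : ¬ ℓ ∣ M) (hℓS : ℓ ∉ (↑S : Set ℕ)),
        ∀ A : ValuationSubring (AlgebraicClosure ℚ), A.LiesOverPrime ℓ →
          ∀ σ : AlgebraicClosure ℚ ≃ₐ[ℚ] AlgebraicClosure ℚ, A.IsFrobeniusAt σ ℓ →
            LinearMap.charpoly (ρ.ρ σ) =
              X ^ 2 - C (algebraMap O' O'' ((iota.comp chig.rangeRestrict)
                (CuspForm.heckeAlgebra.T hℓ hℓM hℓS))) * X + C ((ℓ : O'')))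
      → ρ.residual.IsAbsolutelyIrreducible ∧ ρ.residual.IsOdd := by
  intro O'' _ _ _ _ _ _ _ _ _ _ ρ hρ
  classical
  refine hres W hΔ p hp2 hirr (_root_.Fermat.Agent.S58.H273.natCast_mem_maximalIdeal_of_isLocalHom p hpO') ρ
    (S ∪ insert p M.primeFactors) ?_
  intro ℓ hℓ hℓS B hB σ hσ
  have hℓS' : ℓ ∉ (↑S : Set ℕ) := fun h => hℓS (Finset.mem_union_left _ (Finset.mem_coe.mp h))
  have hℓp : ℓ ≠ p := fun h =>
    hℓS (Finset.mem_union_right _ (by rw [h]; exact Finset.mem_insert_self _ _))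
  have hℓM : ¬ ℓ ∣ M := fun h =>
    hℓS (Finset.mem_union_right _ (Finset.mem_insert_of_mem
      (Nat.mem_primeFactors.mpr ⟨hℓ, h, NeZero.ne M⟩)))
  rw [hρ ℓ hℓ hℓp hℓM hℓS' B hB σ hσ]
  have hval : (iota.comp chig.rangeRestrict) (CuspForm.heckeAlgebra.T hℓ hℓM hℓS')
      = ((W.apOfModel ℓ : ℤ) : O') := by
    have h1 : chig.rangeRestrict (CuspForm.heckeAlgebra.T hℓ hℓM hℓS')
        = ((W.apOfModel ℓ : ℤ) : chig.range) := by
      apply Subtype.ext
      rw [RingHom.coe_rangeRestrict, hchigW ℓ hℓ hℓM hℓS']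
      simp
    rw [RingHom.comp_apply, h1, map_intCast]
  rw [hval, map_intCast]

end Fermat.Agent.S58.H273

end
-- ===== PACK-END S58/H273/Hres.lean

-- ===== PACK-BEGIN S58/H273/Res.lean
section



/-!
# Row S58, leaf RES (helper273): `residual : Fermat.Agent.S58.ResidualStatement`

VERBATIM the `Prop` of `Fermat/Agent/S58/Spec.lean`, unconditional.  Proof in `Hres.lean`
(`Fermat.Agent.S58.H273.hres`, any Noetherian local coefficient ring):

* odd: `det ρ(Frob_ℓ) = ℓ` ⇒ `det ρ` cyclotomic (`S59.H540`) ⇒ `det ρ(c) = -1` (`S59.G4.H178`);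
* absolutely irreducible: `W[p]` is irreducible and odd, hence absolutely irreducible
  (`AbsIrrOdd.lean`, eigenlines of an involution are rational); its Frobenius characteristic
  polynomials are `X² - a_ℓ X + ℓ` (`Ribet.H52`); Chebotarev + Burnside/Gram (`ResGeneric.lean`,
  generic form of `S59.G4.H109.resStatement2`) transport absolute irreducibility to `ρ.residual`.
-/

set_option autoImplicit false

namespace Fermat.Agent.S58.H273

/-- **Leaf RES.** -/
theorem residual : Fermat.Agent.S58.ResidualStatement := by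
  intro p _ hp2 W hΔ hirr O _ _ _ _ _ _ hpO ρ T hρ
  exact hres W hΔ p hp2 hirr hpO ρ T hρ

end Fermat.Agent.S58.H273

end
-- ===== PACK-END S58/H273/Res.lean

-- ===== PACK-BEGIN S58/H94/Final.lean
section




/-!
# Row S58 (architect helper94): S58 from the frozen statements S35 and S36 alone

`s58_of_S35_S36 : S35Statement → S36Statement → S58Statement`

All leaves are closed on main: RES (`S58.H273.residual`, helper273), COEFF-HENSEL
(`S58.H292.exists_prime_ringHom_adjoin`, helper292), COUNT (`S58.H285.pointCount`, helper285).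
The final file `Fermat/Agent/S58.lean` is
`s58_of_S35_S36 (@Fermat.Agent.S35.result) (@Fermat.Agent.S36.result) W hss N p ...`.
-/

set_option autoImplicit false

namespace Fermat.Agent.S58.H94

open Fermat.Agent.S58

/-- Leaf COEFF-HENSEL, closed (helper292, from `S48.H368.exists_padicInt_hom`). -/
theorem coeffHensel_h94 : CoeffHenselStatement := by
  intro α hα B
  obtain ⟨lam, hlam, hB, ι, -⟩ := Fermat.Agent.S58.H292.exists_prime_ringHom_adjoin α hα B
  exact ⟨lam, hlam, hB, ⟨ι⟩⟩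

/-- **S58 from the frozen statements S35 and S36.** -/
theorem s58_of_S35_S36 (h35 : S35Statement) (h36 : S36Statement) : S58Statement :=
  s58_of h35 h36 Fermat.Agent.S58.H273.residual coeffHensel_h94

end Fermat.Agent.S58.H94

end
-- ===== PACK-END S58/H94/Final.lean

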