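import Fermat.Prelude.Def_EllipticCurve_FrobeniusTrace
import Fermat.Agent.Pack.S36.E17L2
import Fermat.Agent.Pack.S36.E13L2
import Fermat.Agent.Pack.S36.E10L2
import Fermat.Agent.Pack.S58.E4L1
import Fermat.Agent.Pack.S58.E2L0
import Fermat.Agent.Pack.S58.E0L0
import Fermat.Agent.Pack.S58.E1L1
import Fermat.Agent.Pack.S36.E14L1
import Fermat.Agent.Pack.S36.E12L0
import Fermat.Agent.Pack.S36.E17L0
import Fermat.Agent.Pack.S58.E4L2
import Fermat.Agent.Pack.S58.E4L0
import Fermat.Agent.Pack.S58.E4L3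
import Fermat.Agent.Pack.S58.E3L1
import Fermat.Agent.Pack.S36.E14L0

-- ===== PACK-BEGIN A2/IF/H558/DecompStable.lean
section



/-!
# A2 / IF (helper558): the good levels of helper429 are stable under the DECOMPOSITION group

`P` a valuation subring of `ℚ̄`, `D = P.decompositionSubgroup ℚ`, `I = P.inertiaSubgroupIn ℚ`,
`E_I = ℚ̄^I` the inertia field, `level P S = E_I(all ℚ-conjugates of S)` (helper429).

* `conj_mem_inertia`            : `σ ∈ D`, `τ ∈ I`  ⟹  `σ⁻¹ τ σ ∈ I` and `σ τ σ⁻¹ ∈ I`;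
* `map_mem_inertiaField`        : `D` preserves the inertia field;
* `level_stable_decomp`         : `D` preserves `level P S`;
* `level_stable_frobenius`      : every Frobenius lift at `P` preserves `level P S`
                                  (and so does its inverse, and all powers);
* `exists_goodField_decompStable` : IF with the extra clause "stable under `D`"
                                  (= leaf IFF of S35/FROB, G5 of S35/(G)).
-/

set_option autoImplicit false
set_option linter.style.haveILetI false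
set_option linter.unusedSectionVars false

namespace Fermat.Agent.A2.IF.H558

open Fermat.Agent.A2 Fermat.Agent.A2.IF.H429
open Fermat.Agent.S55.Bridge Fermat.Agent.S55.Bridge.H594

local notation "Qb" => AlgebraicClosure ℚ

variable (P : ValuationSubring Qb)

/-- The inertia group is normal in the decomposition group (elementwise form). -/
theorem conj_mem_inertia {σ τ : Qb ≃ₐ[ℚ] Qb} (hσ : σ ∈ P.decompositionSubgroup ℚ)
    (hτ : τ ∈ P.inertiaSubgroupIn ℚ) : σ⁻¹ * τ * σ ∈ P.inertiaSubgroupIn ℚ := by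
  rw [mem_inertiaSubgroupIn_iff_forall] at hτ ⊢
  have hσi : σ⁻¹ ∈ P.decompositionSubgroup ℚ := inv_mem hσ
  refine ⟨mul_mem (mul_mem hσi hτ.1) hσ, fun x hx => ?_⟩
  have hσx : σ x ∈ P := mem_of_mem_decomp P hσ hx
  have h1 : τ (σ x) - σ x ∈ P.nonunits := hτ.2 (σ x) hσx
  have h2 : σ⁻¹ (τ (σ x) - σ x) ∈ P.nonunits := mem_nonunits_of_mem_decomp P hσi h1
  have h3 : (σ⁻¹ * τ * σ) x - x = σ⁻¹ (τ (σ x) - σ x) := by
    rw [map_sub]
    show σ⁻¹ (τ (σ x)) - x = σ⁻¹ (τ (σ x)) - σ⁻¹ (σ x)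
    congr 1
    exact (AlgEquiv.symm_apply_apply σ x).symm
  rw [h3]
  exact h2

/-- The decomposition group preserves the inertia field. -/
theorem map_mem_inertiaField {σ : Qb ≃ₐ[ℚ] Qb} (hσ : σ ∈ P.decompositionSubgroup ℚ)
    {e : Qb} (he : e ∈ inertiaField P) : σ e ∈ inertiaField P := by
  rw [mem_inertiaField_iff] at he ⊢
  intro τ hτ
  have h1 := he (σ⁻¹ * τ * σ) (conj_mem_inertia P hσ hτ)
  have h2 : (σ⁻¹ * τ * σ) e = σ⁻¹ (τ (σ e)) := rfl
  rw [h2] at h1
  have h3 : σ (σ⁻¹ (τ (σ e))) = τ (σ e) := AlgEquiv.apply_symm_apply σ _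
  rw [← h3, h1]

/-- The decomposition group preserves the level `level P S`. -/
theorem level_stable_decomp (S : Finset Qb) {σ : Qb ≃ₐ[ℚ] Qb}
    (hσ : σ ∈ P.decompositionSubgroup ℚ) {x : Qb} (hx : x ∈ level P S) :
    σ x ∈ level P S := by
  rw [mem_level_iff] at hx ⊢
  unfold level₁ at hx ⊢
  induction hx using IntermediateField.adjoin_induction with
  | mem y hy => exact IntermediateField.subset_adjoin _ _ (map_mem_conjSet S σ hy)
  | algebraMap e =>
    have h1 : σ (algebraMap (inertiaField P) Qb e) ∈ inertiaField P :=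
      map_mem_inertiaField P hσ e.2
    exact (IntermediateField.adjoin (inertiaField P) (conjSet S)).algebraMap_mem ⟨_, h1⟩
  | add y z _ _ hy hz => rw [map_add]; exact add_mem hy hz
  | inv y _ hy => rw [map_inv₀]; exact inv_mem hy
  | mul y z _ _ hy hz => rw [map_mul]; exact mul_mem hy hz

/-- The level is mapped ONTO itself by the decomposition group. -/
theorem level_stable_decomp_iff (S : Finset Qb) {σ : Qb ≃ₐ[ℚ] Qb}
    (hσ : σ ∈ P.decompositionSubgroup ℚ) (x : Qb) : σ x ∈ level P S ↔ x ∈ level P S := by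
  refine ⟨fun h => ?_, fun h => level_stable_decomp P S hσ h⟩
  have h1 := level_stable_decomp P S (inv_mem hσ) h
  have h2 : σ⁻¹ (σ x) = x := AlgEquiv.symm_apply_apply σ x
  rwa [h2] at h1

/-- Every Frobenius lift at `P` preserves the level. -/
theorem level_stable_frobenius (S : Finset Qb) {σ : Qb ≃ₐ[ℚ] Qb} {q : ℕ}
    (hσ : P.IsFrobeniusAt σ q) {x : Qb} (hx : x ∈ level P S) : σ x ∈ level P S :=
  level_stable_decomp P S hσ.mem_decompositionSubgroup hx

/-- All powers (positive and negative) of an element of the decomposition group preserve the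
level. -/
theorem level_stable_zpow (S : Finset Qb) {σ : Qb ≃ₐ[ℚ] Qb}
    (hσ : σ ∈ P.decompositionSubgroup ℚ) (n : ℤ) {x : Qb} (hx : x ∈ level P S) :
    (σ ^ n) x ∈ level P S :=
  level_stable_decomp P S (zpow_mem hσ n) hx

/-- **IFF** (S35/FROB leaf; G5 of S35/(G)).  Every finite set of algebraic numbers lies in a good
level for `P` which is stable under the whole decomposition group of `P`, in particular under
every Frobenius lift at `P` and its inverse. -/
theorem exists_goodField_decompStable (q : ℕ) (hq : q.Prime) (P : ValuationSubring Qb)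
    (hP : P.LiesOverPrime q) (S : Finset Qb) :
    ∃ E : IntermediateField ℚ Qb, (∀ s ∈ S, s ∈ E) ∧ GoodField P E ∧
      (∀ σ ∈ P.decompositionSubgroup ℚ, ∀ e : Qb, e ∈ E ↔ σ e ∈ E) ∧
      inertiaField P ≤ E :=
  ⟨level P S, fun _ hs => mem_level_of_mem P S hs, goodField_level q hq P hP S,
    fun _ hσ e => (level_stable_decomp_iff P S hσ e).symm, inertiaField_le_level P S⟩

end Fermat.Agent.A2.IF.H558

end
-- ===== PACK-END A2/IF/H558/DecompStable.lean

-- ===== PACK-BEGIN S35/G/H558/IFs.lean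
section



/-!
# S35 / (G') leaf IFs (helper558): `s`-stable good levels

`ifs : IFsStatement` (helper450's `S35/G/SpecLevel.lean`, verbatim): every finite set of algebraic
numbers lies in a level `E` which is good for `A` (`A2.GoodField`) and stable under any given
element `s` of the decomposition group of `A` (and under `s⁻¹`).

The level is helper429's `level A S = ℚ̄^{I_A}(all ℚ-conjugates of S)`; its stability under the
whole decomposition group is `A2.IF.H558.exists_goodField_decompStable`.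
-/

set_option autoImplicit false

namespace Fermat.Agent.S35.G.H558

/-- **IFs.** -/
theorem ifs : Fermat.Agent.S35.G.IFsStatement := by
  intro q hq A hA s hs S
  obtain ⟨E, hSE, hgood, hstab, -⟩ :=
    Fermat.Agent.A2.IF.H558.exists_goodField_decompStable q hq A hA S
  refine ⟨E, hSE, hgood, fun e he => ⟨(hstab s hs e).mp he, ?_⟩⟩
  exact (hstab s⁻¹ (inv_mem hs) e).mp he

end Fermat.Agent.S35.G.H558

end
-- ===== PACK-END S35/G/H558/IFs.lean

-- ===== PACK-BEGIN A2/Mod/H454/L7.lean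
section




/-!
# A2 / MOD leaf L7 `FrickeStable` (helper454)

At level `M` prime to the residue characteristic the Fricke involution `W` of
`F_{M,E} = E(j_d : d ∣ M)` preserves the Gauss valuation ring `V∞`.

Proof.  `F_M` has the uniform integral basis `y_i` over `E(j)` (S18 H208 `M1.exists_basis`), whose
reductions are independent over `κ(j)`; hence every `f ∈ V∞` satisfies
`g(j) f = Σ f_i(j) y_i` with `g, f_i ∈ R[X]`, `g ≢ 0 mod w` (`exists_denominator`).  Apply `W`:
`g(j_M) W f = Σ f_i(j_M) W y_i`; `W y_i` has an integral `t`-expansion (polynomial in the `j_d`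
with integer coefficients) and `g(j_M)` is a primitive integral series, because `j_M` mod `w` is
transcendental over `κ`.

* `frickeStable : FrickeStableStatement P E M q w`.
-/

set_option autoImplicit false
set_option synthInstance.maxHeartbeats 400000
set_option maxHeartbeats 1600000
set_option linter.unusedSectionVars false
set_option linter.style.haveILetI false

noncomputable section

namespace Fermat.Agent.A2.Mod.H454

open ModularCurve HahnSeries Polynomial
open Fermat.Agent.A2 Fermat.Agent.A2.Mod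
open Fermat.Agent.S28 Fermat.Agent.S28.H86 Fermat.Agent.S18.H208

variable (P : ValuationSubring _root_.Fermat.Agent.A2.Mod.Qb) (E : IntermediateField ℚ _root_.Fermat.Agent.A2.Mod.Qb)

/-- the integer series `j(t^d)` in `E((t))` -/
theorem coe_jE_eq (N d : ℕ) [NeZero d] (hd : d ∣ N) :
    ((jE E N d hd : ↥(_root_.Fermat.Agent.A2.Mod.FE E N)) : LaurentSeries ↥E) =
      coeffMap (Int.castRingHom ↥E) (qExpand ℤ d (jqModC ℤ)) := by
  rw [← jd_eq_intCast]
  exact Fermat.Agent.S18.H602.coeffEmb_qExpand_jq (↥E) d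

theorem castE_mem_FE (N : ℕ) {y : LaurentSeries ℤ}
    (hy : y ∈ Subring.closure (intDivisorExpansions N)) :
    coeffMap (Int.castRingHom ↥E) y ∈ _root_.Fermat.Agent.A2.Mod.FE E N := by
  show _ ∈ laurentBaseChange (↥E) (modularFunctionFieldFull N)
  rw [Fermat.Agent.S18.H602.laurentBaseChange_full_eq]
  exact coeffMap_intCast_mem_full (↥E) N hy

variable {E}

/-- `W` maps functions with integral expansion (in `ℤ[j_d : d ∣ M]`) to such functions. -/
theorem exists_int_image {M : ℕ} [NeZero M] {W : _root_.Fermat.Agent.A2.Mod.FE E M ≃ₐ[↥E] _root_.Fermat.Agent.A2.Mod.FE E M} (hW : IsFricke E M W)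
    {y : LaurentSeries ℤ} (hy : y ∈ Subring.closure (intDivisorExpansions M)) :
    ∃ y' : LaurentSeries ℤ, ∀ Y : ↥(_root_.Fermat.Agent.A2.Mod.FE E M),
      (Y : LaurentSeries ↥E) = coeffMap (Int.castRingHom ↥E) y →
      ((W Y : ↥(_root_.Fermat.Agent.A2.Mod.FE E M)) : LaurentSeries ↥E) = coeffMap (Int.castRingHom ↥E) y' := by
  induction hy using Subring.closure_induction with
  | mem x hx =>
    obtain ⟨d, hd, hdM, rfl⟩ := hx
    haveI := hd
    obtain ⟨d', hd'⟩ := hdM
    have hd'0 : d' ≠ 0 := by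
      rintro rfl
      exact NeZero.ne M (by rw [hd', mul_zero])
    haveI : NeZero d' := ⟨hd'0⟩
    refine ⟨qExpand ℤ d' (jqModC ℤ), fun Y hY => ?_⟩
    have hY' : Y = jE E M d ⟨d', hd'⟩ := Subtype.ext (by rw [hY, coe_jE_eq])
    rw [hY', hW.1 d d' ⟨d', hd'⟩ ⟨d, by rw [hd', mul_comm]⟩ hd'.symm, coe_jE_eq]
  | zero =>
    refine ⟨0, fun Y hY => ?_⟩
    have hY' : Y = 0 := Subtype.ext (by rw [hY, map_zero]; rfl)
    rw [hY', map_zero, map_zero]
    rfl
  | one =>
    refine ⟨1, fun Y hY => ?_⟩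
    have hY' : Y = 1 := Subtype.ext (by rw [hY, map_one]; rfl)
    rw [hY', map_one, map_one]
    rfl
  | add a b ha hb iha ihb =>
    obtain ⟨a', ha'⟩ := iha
    obtain ⟨b', hb'⟩ := ihb
    refine ⟨a' + b', fun Y hY => ?_⟩
    have hY' : Y = (⟨_, castE_mem_FE E M ha⟩ : ↥(_root_.Fermat.Agent.A2.Mod.FE E M)) + ⟨_, castE_mem_FE E M hb⟩ :=
      Subtype.ext (by rw [hY, map_add]; rfl)
    have hA := ha' ⟨_, castE_mem_FE E M ha⟩ rfl
    have hB := hb' ⟨_, castE_mem_FE E M hb⟩ rfl
    rw [hY', map_add, map_add, ← hA, ← hB]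
    rfl
  | neg a ha iha =>
    obtain ⟨a', ha'⟩ := iha
    refine ⟨-a', fun Y hY => ?_⟩
    have hY' : Y = -(⟨_, castE_mem_FE E M ha⟩ : ↥(_root_.Fermat.Agent.A2.Mod.FE E M)) :=
      Subtype.ext (by rw [hY, map_neg]; rfl)
    have hA := ha' ⟨_, castE_mem_FE E M ha⟩ rfl
    rw [hY', map_neg, map_neg, ← hA]
    rfl
  | mul a b ha hb iha ihb =>
    obtain ⟨a', ha'⟩ := iha
    obtain ⟨b', hb'⟩ := ihb
    refine ⟨a' * b', fun Y hY => ?_⟩
    have hY' : Y = (⟨_, castE_mem_FE E M ha⟩ : ↥(_root_.Fermat.Agent.A2.Mod.FE E M)) * ⟨_, castE_mem_FE E M hb⟩ :=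
      Subtype.ext (by rw [hY, map_mul]; rfl)
    have hA := ha' ⟨_, castE_mem_FE E M ha⟩ rfl
    have hB := hb' ⟨_, castE_mem_FE E M hb⟩ rfl
    rw [hY', map_mul, map_mul, ← hA, ← hB]
    rfl


/-! ### evaluation of polynomials with `R`-coefficients -/

section Eval

variable (O : Subring ↥E)

/-- `inclL` commutes with evaluation of polynomials. -/
theorem inclL_evO_eq (J : LaurentSeries ↥O) (p : Polynomial ↥O) :
    inclL O (evO J p) = evE O (inclL O J) p := by
  rw [evO_apply, Polynomial.hom_eval₂]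
  show _ = Polynomial.eval₂ _ _ p
  congr 1
  ext c : 1
  rw [RingHom.comp_apply, RingHom.comp_apply, inclL_C]
  rfl

/-- coercion `F → E((t))` commutes with evaluation of polynomials. -/
theorem coe_eval₂_FE (N : ℕ) (t : ↥(_root_.Fermat.Agent.A2.Mod.FE E N)) (p : Polynomial ↥O) :
    ((p.eval₂ ((algebraMap ↥E ↥(_root_.Fermat.Agent.A2.Mod.FE E N)).comp O.subtype) t : ↥(_root_.Fermat.Agent.A2.Mod.FE E N)) : LaurentSeries ↥E) =
      evE O (t : LaurentSeries ↥E) p := by
  show (_root_.Fermat.Agent.A2.Mod.FE E N).val.toRingHom (p.eval₂ ((algebraMap ↥E ↥(_root_.Fermat.Agent.A2.Mod.FE E N)).comp O.subtype) t) = _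
  rw [Polynomial.hom_eval₂]
  show _ = Polynomial.eval₂ _ _ p
  congr 1
  ext c : 1
  rw [RingHom.comp_apply, RingHom.comp_apply, RingHom.comp_apply]
  show algebraMap ↥E (LaurentSeries ↥E) (c : ↥E) = _
  rw [algebraMap_laurentSeries_eq_single]
  rfl

/-- an `E`-algebra automorphism commutes with evaluation of polynomials. -/
theorem map_eval₂_FE (N : ℕ) (W : _root_.Fermat.Agent.A2.Mod.FE E N ≃ₐ[↥E] _root_.Fermat.Agent.A2.Mod.FE E N) (t : ↥(_root_.Fermat.Agent.A2.Mod.FE E N)) (p : Polynomial ↥O) :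
    W (p.eval₂ ((algebraMap ↥E ↥(_root_.Fermat.Agent.A2.Mod.FE E N)).comp O.subtype) t) =
      p.eval₂ ((algebraMap ↥E ↥(_root_.Fermat.Agent.A2.Mod.FE E N)).comp O.subtype) (W t) := by
  show (W : ↥(_root_.Fermat.Agent.A2.Mod.FE E N) →+* ↥(_root_.Fermat.Agent.A2.Mod.FE E N)) _ = _
  rw [Polynomial.hom_eval₂]
  congr 1
  ext c : 1
  rw [RingHom.comp_apply, RingHom.comp_apply]
  show W (algebraMap ↥E ↥(_root_.Fermat.Agent.A2.Mod.FE E N) (c : ↥E)) = _
  rw [AlgEquiv.commutes]
  rfl

end Eval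

/-! ### the residue characteristic -/

section Char

variable {P}

theorem natCast_mem_maximalIdeal {q : ℕ} (hq : q.Prime) (hP : P.LiesOverPrime q) :
    ((q : ℕ) : ↥(_root_.Fermat.Agent.A2.Mod.RE P E)) ∈ IsLocalRing.maximalIdeal ↥(_root_.Fermat.Agent.A2.Mod.RE P E) := by
  rw [← ValuationSubring.coe_mem_nonunits_iff, ValuationSubring.mem_nonunits_iff_or]
  right
  intro hmem
  have h1 : (((((q : ℕ) : ↥(_root_.Fermat.Agent.A2.Mod.RE P E)) : ↥E))⁻¹ : ↥E) = ((q : ℕ) : ↥E)⁻¹ := by
    congr 1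
  rw [h1] at hmem
  have h2 : algebraMap ↥E _root_.Fermat.Agent.A2.Mod.Qb (((q : ℕ) : ↥E)⁻¹) ∈ P := hmem
  rw [map_inv₀, map_natCast] at h2
  rcases (ValuationSubring.mem_nonunits_iff_or (A := P)).mp hP with h0 | h0
  · exact hq.ne_zero (Nat.cast_eq_zero.mp h0)
  · exact h0 h2

theorem natCast_residue_ne_zero {M q : ℕ} (hq : q.Prime) (hqM : ¬ q ∣ M)
    (hP : P.LiesOverPrime q) : ((M : ℕ) : IsLocalRing.ResidueField ↥(_root_.Fermat.Agent.A2.Mod.RE P E)) ≠ 0 := by
  have hq0 : ((q : ℕ) : IsLocalRing.ResidueField ↥(_root_.Fermat.Agent.A2.Mod.RE P E)) = 0 := by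
    have := (IsLocalRing.residue_eq_zero_iff ((q : ℕ) : ↥(_root_.Fermat.Agent.A2.Mod.RE P E))).mpr
      (natCast_mem_maximalIdeal hq hP)
    simpa using this
  haveI : CharP (IsLocalRing.ResidueField ↥(_root_.Fermat.Agent.A2.Mod.RE P E)) q :=
    (CharP.charP_iff_prime_eq_zero hq).mpr hq0
  exact fun h0 => hqM ((CharP.cast_eq_zero_iff _ q M).mp h0)

end Char

/-! ### transcendence of `j(t^M)` -/

theorem aeval_jd_ne_zero (k : Type) [Field k] (d : ℕ) [NeZero d] {Q : Polynomial k}
    (hQ : Q ≠ 0) : Polynomial.aeval (qExpand k d (jqModC k)) Q ≠ 0 := by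
  have h1 : Polynomial.aeval (qExpand k d (jqModC k)) Q =
      qExpandAlgHomC k d (Polynomial.aeval (jqModC k) Q) := by
    rw [← Polynomial.aeval_algHom_apply]
    rfl
  rw [h1]
  intro h0
  apply aeval_j_ne_zero hQ
  apply qExpand_injective (R := k) (N := d)
  rw [map_zero]
  exact h0


/-! ### L7 -/

section Main

variable (E)
variable (M q : ℕ) [NeZero M] [NeZero q] (w : _root_.Fermat.Agent.A2.Mod.RE P E)

/-- **L7.** At level `M` prime to the residue characteristic the Fricke involution preserves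
the Gauss valuation ring `V∞`. -/
theorem frickeStable : FrickeStableStatement P E M q w := by
  intro hS V W hV hW f hf
  rw [hV (W f)]
  -- the discrete valuation ring `O = R_E`, as a subring
  obtain ⟨O, hO⟩ : ∃ O : Subring ↥E, O = (_root_.Fermat.Agent.A2.Mod.RE P E).toSubring := ⟨_, rfl⟩
  subst hO
  haveI hdvr : IsDiscreteValuationRing ↥(_root_.Fermat.Agent.A2.Mod.RE P E).toSubring := hS.dvr
  have hwirr : Irreducible (w : ↥(_root_.Fermat.Agent.A2.Mod.RE P E).toSubring) := hS.unif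
  have hu : UnifData (_root_.Fermat.Agent.A2.Mod.RE P E).toSubring (IsLocalRing.residue ↥(_root_.Fermat.Agent.A2.Mod.RE P E).toSubring) w :=
    unifData_residue (_root_.Fermat.Agent.A2.Mod.RE P E).toSubring hwirr
  have hfrac : IsFrac (_root_.Fermat.Agent.A2.Mod.RE P E).toSubring := isFrac_valuationSubring (_root_.Fermat.Agent.A2.Mod.RE P E)
  have hMκ : ((M : ℕ) : IsLocalRing.ResidueField ↥(_root_.Fermat.Agent.A2.Mod.RE P E).toSubring) ≠ 0 :=
    natCast_residue_ne_zero (E := E) hS.q_prime hS.q_not_dvd hS.lies_over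
  have hME : ((M : ℕ) : ↥E) ≠ 0 := Nat.cast_ne_zero.mpr (NeZero.ne M)
  obtain ⟨y, hy, hbasis⟩ := M1.exists_basis M
  obtain ⟨hspanE, -⟩ := hbasis ↥E hME
  obtain ⟨-, hliκ⟩ := hbasis (IsLocalRing.ResidueField ↥(_root_.Fermat.Agent.A2.Mod.RE P E).toSubring) hMκ
  have hfF : (f : LaurentSeries ↥E) ∈ modularFunctionFieldFullC ↥E M := by
    rw [← Fermat.Agent.S18.H602.laurentBaseChange_full_eq]
    exact f.2
  have hfG : (f : LaurentSeries ↥E) ∈
      gaussRing (_root_.Fermat.Agent.A2.Mod.RE P E).toSubring (IsLocalRing.residue ↥(_root_.Fermat.Agent.A2.Mod.RE P E).toSubring) := by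
    obtain ⟨U₁, U₂, h0, -, he⟩ := (hV f).mp hf
    exact ⟨U₁, U₂, h0, he⟩
  obtain ⟨g, fi, hg, hrel⟩ := exists_denominator hu hfrac y hliκ (hspanE _ hfF) hfG
  -- the relation in `F`
  have hJ1 : ((jE E M 1 (one_dvd M) : ↥(_root_.Fermat.Agent.A2.Mod.FE E M)) : LaurentSeries ↥E) = jqModC ↥E := by
    rw [coe_jE_eq, qExpand_one_apply, coeffMap_jqModC]
  have hrelF : g.eval₂ ((algebraMap ↥E ↥(_root_.Fermat.Agent.A2.Mod.FE E M)).comp (_root_.Fermat.Agent.A2.Mod.RE P E).toSubring.subtype)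
        (jE E M 1 (one_dvd M)) * f =
      ∑ i, (fi i).eval₂ ((algebraMap ↥E ↥(_root_.Fermat.Agent.A2.Mod.FE E M)).comp (_root_.Fermat.Agent.A2.Mod.RE P E).toSubring.subtype)
        (jE E M 1 (one_dvd M)) * ⟨_, castE_mem_FE E M (hy i)⟩ := by
    apply Subtype.ext
    have h1 : (((∑ i, (fi i).eval₂ ((algebraMap ↥E ↥(_root_.Fermat.Agent.A2.Mod.FE E M)).comp (_root_.Fermat.Agent.A2.Mod.RE P E).toSubring.subtype)
        (jE E M 1 (one_dvd M)) * ⟨_, castE_mem_FE E M (hy i)⟩ : ↥(_root_.Fermat.Agent.A2.Mod.FE E M))) : LaurentSeries ↥E) =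
        ∑ i, evE (_root_.Fermat.Agent.A2.Mod.RE P E).toSubring (jqModC ↥E) (fi i) *
          coeffMap (Int.castRingHom ↥E) (y i) := by
      show (_root_.Fermat.Agent.A2.Mod.FE E M).val _ = _
      rw [map_sum]
      refine Finset.sum_congr rfl fun i _ => ?_
      rw [map_mul]
      show ((_ : ↥(_root_.Fermat.Agent.A2.Mod.FE E M)) : LaurentSeries ↥E) * _ = _
      rw [coe_eval₂_FE, hJ1]
      rfl
    rw [h1, ← hrel]
    show ((_ : ↥(_root_.Fermat.Agent.A2.Mod.FE E M)) : LaurentSeries ↥E) * _ = _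
    rw [coe_eval₂_FE, hJ1]
  -- apply `W`
  choose y' hy' using fun i => exists_int_image hW (hy i)
  have hWJ : W (jE E M 1 (one_dvd M)) = jE E M M dvd_rfl :=
    hW.1 1 M (one_dvd M) dvd_rfl (one_mul M)
  have hrelW := congrArg W hrelF
  rw [map_mul, map_sum, map_eval₂_FE, hWJ] at hrelW
  have hrelW' : evE (_root_.Fermat.Agent.A2.Mod.RE P E).toSubring
        (coeffMap (Int.castRingHom ↥E) (qExpand ℤ M (jqModC ℤ))) g * (W f : LaurentSeries ↥E) =
      ∑ i, evE (_root_.Fermat.Agent.A2.Mod.RE P E).toSubring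
        (coeffMap (Int.castRingHom ↥E) (qExpand ℤ M (jqModC ℤ))) (fi i) *
          coeffMap (Int.castRingHom ↥E) (y' i) := by
    have h2 := congrArg Subtype.val hrelW
    have h3 : (((∑ i, W ((fi i).eval₂
        ((algebraMap ↥E ↥(_root_.Fermat.Agent.A2.Mod.FE E M)).comp (_root_.Fermat.Agent.A2.Mod.RE P E).toSubring.subtype)
        (jE E M 1 (one_dvd M)) * ⟨_, castE_mem_FE E M (hy i)⟩) : ↥(_root_.Fermat.Agent.A2.Mod.FE E M))) :
          LaurentSeries ↥E) =
        ∑ i, evE (_root_.Fermat.Agent.A2.Mod.RE P E).toSubring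
          (coeffMap (Int.castRingHom ↥E) (qExpand ℤ M (jqModC ℤ))) (fi i) *
            coeffMap (Int.castRingHom ↥E) (y' i) := by
      show (_root_.Fermat.Agent.A2.Mod.FE E M).val _ = _
      rw [map_sum]
      refine Finset.sum_congr rfl fun i _ => ?_
      rw [map_mul W, map_eval₂_FE, hWJ, map_mul]
      show ((_ : ↥(_root_.Fermat.Agent.A2.Mod.FE E M)) : LaurentSeries ↥E) * ((_ : ↥(_root_.Fermat.Agent.A2.Mod.FE E M)) : LaurentSeries ↥E) = _
      rw [coe_eval₂_FE, coe_jE_eq, hy' i _ rfl]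
    rw [h3] at h2
    rw [← h2]
    show _ = ((_ : ↥(_root_.Fermat.Agent.A2.Mod.FE E M)) : LaurentSeries ↥E) * _
    rw [coe_eval₂_FE, coe_jE_eq]
  -- the integral series
  set jA : LaurentSeries ↥(_root_.Fermat.Agent.A2.Mod.RE P E).toSubring :=
    intO (_root_.Fermat.Agent.A2.Mod.RE P E).toSubring (qExpand ℤ M (jqModC ℤ)) with hjA
  have hjA' : inclL (_root_.Fermat.Agent.A2.Mod.RE P E).toSubring jA =
      coeffMap (Int.castRingHom ↥E) (qExpand ℤ M (jqModC ℤ)) := inclL_intO _ _
  have hred : redL (IsLocalRing.residue ↥(_root_.Fermat.Agent.A2.Mod.RE P E).toSubring) (evO jA g) ≠ 0 := by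
    rw [redL_evO, hjA, redL_intO, ← jd_eq_intCast]
    exact aeval_jd_ne_zero _ M hg
  have hmem : inclL (_root_.Fermat.Agent.A2.Mod.RE P E).toSubring (evO jA g) ∈
      laurentBaseChange (↥E) (modularFunctionFieldFull M) := by
    rw [inclL_evO_eq, hjA', ← coe_jE_eq E M M dvd_rfl, ← coe_eval₂_FE]
    exact Subtype.mem _
  refine ⟨∑ i, evO jA (fi i) * intO (_root_.Fermat.Agent.A2.Mod.RE P E).toSubring (y' i), evO jA g, hred, hmem, ?_⟩
  show _ * inclL (_root_.Fermat.Agent.A2.Mod.RE P E).toSubring (evO jA g) = inclL (_root_.Fermat.Agent.A2.Mod.RE P E).toSubring _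
  rw [map_sum, inclL_evO_eq, hjA', mul_comm, hrelW']
  refine Finset.sum_congr rfl fun i _ => ?_
  rw [map_mul, inclL_evO_eq, hjA', inclL_intO]

end Main

end Fermat.Agent.A2.Mod.H454

end

end
-- ===== PACK-END A2/Mod/H454/L7.lean

-- ===== PACK-BEGIN S35/G/H199/ToricBase.lean
section








/-!
# S35 / (G') leaf TORIC — the modular instance, basic layer (helper199)

Basic facts for the instance of `NR.NRSetting` (see `ToricMod.lean`), level `E`:

* `actE_mul`, `actE_one`, `actE_alpha`, `actE_beta`, `actE_symm_eq` : the action `G.actE` on the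
  coefficients is multiplicative and commutes with `α`, `β`;
* `normAlong_equiv` : transport of `S29.H395.normAlong` by a pair of automorphisms
  (`Algebra.norm_eq_of_equiv_equiv`); `normHom` : the norm as a monoid homomorphism;
* `isUnif_V`, `isUnif_V0`, `disc_V0`, `inW_iff`, `inW0_iff` : `V∞`, `V₀ = V∞ ∘ W` are discrete
  with uniformiser `w` (L2, `H378.disc_V`);
* `stabAut_V`, `stabAut_V0` : `σ` preserves `V∞`, `V₀` (from `G.StableStatement`);
* `alpha_mem_iff'`, `beta_mem_iff`, `res_alpha`, `res_beta` : `α : V∞_M → V∞`, `β : V∞_M → V₀`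
  are local with residue degree one (L5, L7, L11).
-/

set_option autoImplicit false
set_option linter.style.haveILetI false
set_option linter.unusedSectionVars false
set_option synthInstance.maxHeartbeats 400000
set_option maxHeartbeats 1600000

noncomputable section

namespace Fermat.Agent.S35.G.H199

open ModularCurve AlgebraicCurve Fermat.Agent.A2.Mod

/-! ## The Galois action on the coefficients -/

section Act

variable (E : IntermediateField ℚ G.Qb) (N : ℕ)

theorem actE_mul (a b : E ≃ₐ[ℚ] E) (x : FE E N) :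
    actE E N (a * b) x = actE E N a (actE E N b x) := by
  apply Subtype.ext
  show coeffMap ((a * b : E ≃ₐ[ℚ] E) : E →+* E) (x : LaurentSeries E)
    = coeffMap (a : E →+* E) (coeffMap (b : E →+* E) (x : LaurentSeries E))
  rw [coeffMap_coeffMap]
  exact coeffMap_congr (RingHom.ext fun _ => rfl) _

theorem actE_one (x : FE E N) : actE E N 1 x = x := by
  apply Subtype.ext
  show coeffMap ((1 : E ≃ₐ[ℚ] E) : E →+* E) (x : LaurentSeries E) = (x : LaurentSeries E)
  rw [show ((1 : E ≃ₐ[ℚ] E) : E →+* E) = RingHom.id E from RingHom.ext fun _ => rfl,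
    coeffMap_id]

theorem actE_algebraMap (a : E ≃ₐ[ℚ] E) (e : E) :
    actE E N a (algebraMap E (FE E N) e) = algebraMap E (FE E N) (a e) :=
  arithmeticRingAut_algebraMap _ a e

variable (M q : ℕ) [NeZero M] [NeZero q]

theorem actE_alpha (a : E ≃ₐ[ℚ] E) (x : FE E M) :
    actE E (M * q) a (αE E M q x) = αE E M q (actE E M a x) := by
  apply Subtype.ext
  rw [coe_arithmeticRingAut_apply, coe_heckeAlphaBar, coe_heckeAlphaBar,
    coe_arithmeticRingAut_apply]

theorem actE_beta (a : E ≃ₐ[ℚ] E) (x : FE E M) :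
    actE E (M * q) a (βE E M q x) = βE E M q (actE E M a x) := by
  apply Subtype.ext
  rw [coe_arithmeticRingAut_apply, coe_heckeBetaBar, coe_heckeBetaBar,
    coe_arithmeticRingAut_apply, coeffMap_qExpand]

/-- the inverse of a stable automorphism is stable -/
theorem stableUnder_inv {s : G.Qb ≃ₐ[ℚ] G.Qb} (hs : StableUnder E s) : StableUnder E s⁻¹ :=
  fun e he => ⟨(hs e he).2, (hs e he).1⟩

theorem resE_inv_mul {s : G.Qb ≃ₐ[ℚ] G.Qb} (hs : StableUnder E s) :
    resE E s⁻¹ (stableUnder_inv E hs) * resE E s hs = 1 := by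
  ext e
  exact s.symm_apply_apply (e : G.Qb)

theorem resE_mul_inv {s : G.Qb ≃ₐ[ℚ] G.Qb} (hs : StableUnder E s) :
    resE E s hs * resE E s⁻¹ (stableUnder_inv E hs) = 1 := by
  ext e
  exact s.apply_symm_apply (e : G.Qb)

theorem actE_symm_eq {s : G.Qb ≃ₐ[ℚ] G.Qb} (hs : StableUnder E s) (x : FE E N) :
    (actE E N (resE E s hs)).symm x = actE E N (resE E s⁻¹ (stableUnder_inv E hs)) x := by
  apply (actE E N (resE E s hs)).injective
  rw [RingEquiv.apply_symm_apply, ← actE_mul, resE_mul_inv, actE_one]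

end Act

/-! ## Norms and automorphisms -/

section Norm

variable {K F F' : Type*} [Field K] [Field F] [Field F'] [Algebra K F] [Algebra K F']

/-- Transport of the norm by a pair of automorphisms. -/
theorem normAlong_equiv (φ ψ : F →ₐ[K] F') (e : F ≃+* F) (e' : F' ≃+* F')
    (h : ∀ x, e' (φ x) = ψ (e x)) (g : F') :
    S29.H395.normAlong ψ (e' g) = e (S29.H395.normAlong φ g) := by
  have h1 := @Algebra.norm_eq_of_equiv_equiv F F' F F' _ _ _ _ (algebraAlong φ) (algebraAlong ψ)
    e e' (by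
      ext x
      exact (h x).symm) g
  unfold S29.H395.normAlong
  rw [h1, RingEquiv.apply_symm_apply]

/-- the norm as a monoid homomorphism -/
def normHom (φ : F →ₐ[K] F') : F' →* F where
  toFun := S29.H395.normAlong φ
  map_one' := S29.H395.normAlong_one φ
  map_mul' := S29.H395.normAlong_mul φ

@[simp] theorem normHom_apply (φ : F →ₐ[K] F') (g : F') :
    normHom φ g = S29.H395.normAlong φ g := rfl

end Norm

/-! ## The Gauss valuations -/

section Val

variable {A : ValuationSubring G.Qb} {E : IntermediateField ℚ G.Qb} {M q : ℕ} [NeZero M]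
  [NeZero q] {w : RE A E}

/-- `V₀ = V∞ ∘ W` -/
abbrev vz {N : ℕ} (V : ValuationSubring (FE E N)) (W : FE E N ≃ₐ[E] FE E N) :
    ValuationSubring (FE E N) :=
  V.comap (W : FE E N →+* FE E N)

theorem vz_eq {N : ℕ} (V : ValuationSubring (FE E N)) (W : FE E N ≃ₐ[E] FE E N) :
    vz V W = V.comap ((W.toRingEquiv : FE E N ≃+* FE E N) : FE E N →+* FE E N) := rfl

theorem isUnif_V (hS : Setting A E M q w) {N : ℕ} (hN : N ≠ 0) {V : ValuationSubring (FE E N)}
    (hV : IsVinf A E N V) : A2.H48.IsUnif V (cE A E N w) :=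
  (H708.vinfBasic A E w N hN hS.dvr hS.unif V hV).1

theorem cst_mem_iff (hS : Setting A E M q w) {N : ℕ} (hN : N ≠ 0)
    {V : ValuationSubring (FE E N)} (hV : IsVinf A E N V) (e : E) :
    algebraMap E (FE E N) e ∈ V ↔ e ∈ RE A E :=
  (H708.vinfBasic A E w N hN hS.dvr hS.unif V hV).2.1 e

theorem W_cE {N : ℕ} (W : FE E N ≃ₐ[E] FE E N) (r : RE A E) :
    W.toRingEquiv (cE A E N r) = cE A E N r :=
  W.commutes (r : E)

theorem isUnif_V0 (hS : Setting A E M q w) {N : ℕ} (hN : N ≠ 0) {V : ValuationSubring (FE E N)}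
    (hV : IsVinf A E N V) (W : FE E N ≃ₐ[E] FE E N) : A2.H48.IsUnif (vz V W) (cE A E N w) :=
  isUnif_comap (isUnif_V hS hN hV) (W_cE W w)

theorem disc_V0 (hS : Setting A E M q w) {N : ℕ} {V : ValuationSubring (FE E N)}
    (hV : IsVinf A E N V) (W : FE E N ≃ₐ[E] FE E N) :
    ∀ x ∈ vz V W, x ≠ 0 → ∃ (n : ℕ) (u : FE E N), u ∈ vz V W ∧ u⁻¹ ∈ vz V W ∧
      x = cE A E N w ^ n * u :=
  disc_comap (W_cE W w) (fun _ hx hx0 => H378.disc_V hS N hV hx hx0)

/-- `InW` in terms of the valuation -/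
theorem inW_iff (hS : Setting A E M q w) {N : ℕ} (hN : N ≠ 0) {V : ValuationSubring (FE E N)}
    (hV : IsVinf A E N V) (f : FE E N) : InW A E N V w f ↔ V.valuation f < 1 :=
  (isUnif_V hS hN hV).mul_inv_mem_iff

theorem inW0_iff (hS : Setting A E M q w) {N : ℕ} (hN : N ≠ 0) {V : ValuationSubring (FE E N)}
    (hV : IsVinf A E N V) (W : FE E N ≃ₐ[E] FE E N) (f : FE E N) :
    InW A E N (vz V W) w f ↔ (vz V W).valuation f < 1 :=
  (isUnif_V0 hS hN hV W).mul_inv_mem_iff

theorem vz_val_lt_one_iff {N : ℕ} (V : ValuationSubring (FE E N)) (W : FE E N ≃ₐ[E] FE E N)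
    (z : FE E N) : (vz V W).valuation z < 1 ↔ V.valuation (W z) < 1 :=
  comap_val_lt_one_iff V W.toRingEquiv z

theorem vz_val_eq_one_iff {N : ℕ} (V : ValuationSubring (FE E N)) (W : FE E N ≃ₐ[E] FE E N)
    (z : FE E N) : (vz V W).valuation z = 1 ↔ V.valuation (W z) = 1 :=
  comap_val_eq_one_iff V W.toRingEquiv z

/-- the stability of `V∞` under `σ`, from STABLE for `s` and `s⁻¹` -/
theorem stabAut_V (hST : StableStatement A E) (hS : Setting A E M q w) {N : ℕ} (hN : N ≠ 0)
    {V : ValuationSubring (FE E N)} (hV : IsVinf A E N V) {W : FE E N ≃ₐ[E] FE E N}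
    (hW : IsFricke E N W) {s : G.Qb ≃ₐ[ℚ] G.Qb} (hs : StableUnder E s)
    (hsD : s ∈ A.decompositionSubgroup ℚ) :
    StabAut V (actE E N (resE E s hs)) where
  map := (hST N hN hS.dvr V W hV hW s hs hsD).2
  symm := by
    intro f hf
    rw [actE_symm_eq]
    exact (hST N hN hS.dvr V W hV hW s⁻¹ (stableUnder_inv E hs) (inv_mem hsD)).2 f hf

theorem stabAut_V0 (hST : StableStatement A E) (hS : Setting A E M q w) {N : ℕ} (hN : N ≠ 0)
    {V : ValuationSubring (FE E N)} (hV : IsVinf A E N V) {W : FE E N ≃ₐ[E] FE E N}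
    (hW : IsFricke E N W) {s : G.Qb ≃ₐ[ℚ] G.Qb} (hs : StableUnder E s)
    (hsD : s ∈ A.decompositionSubgroup ℚ) :
    StabAut (vz V W) (actE E N (resE E s hs)) :=
  (stabAut_V hST hS hN hV hW hs hsD).comap (e := W.toRingEquiv)
    (hST N hN hS.dvr V W hV hW s hs hsD).1

end Val

/-! ## Locality of `α`, `β`; residue degree one -/

section Inst

variable {A : ValuationSubring G.Qb} {E : IntermediateField ℚ G.Qb} {M q : ℕ} [NeZero M]
  [NeZero q] {w : RE A E}

theorem mq_ne_zero (M q : ℕ) [NeZero M] [NeZero q] : M * q ≠ 0 :=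
  mul_ne_zero (NeZero.ne M) (NeZero.ne q)

variable (hS : Setting A E M q w) {VM : ValuationSubring (FE E M)}
  {V : ValuationSubring (FE E (M * q))} {WM : FE E M ≃ₐ[E] FE E M}
  {W : FE E (M * q) ≃ₐ[E] FE E (M * q)} (hVM : IsVinf A E M VM) (hV : IsVinf A E (M * q) V)
  (hWM : IsFricke E M WM) (hW : IsFricke E (M * q) W)

include hS hVM in
theorem WM_mem_iff (hWM : IsFricke E M WM) (a : FE E M) : WM a ∈ VM ↔ a ∈ VM := by
  have h7 := H454.frickeStable A E M q w hS VM WM hVM hWM
  constructor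
  · intro h
    have := h7 _ h
    rwa [hWM.2] at this
  · exact h7 a

include hS hVM in
theorem stabAut_WM (hWM : IsFricke E M WM) : StabAut VM WM.toRingEquiv where
  map := fun f hf => (WM_mem_iff hS hVM hWM f).2 hf
  symm := by
    intro f hf
    have h1 : WM.toRingEquiv.symm f = WM f := by
      apply WM.toRingEquiv.injective
      rw [RingEquiv.apply_symm_apply]
      exact (hWM.2 f).symm
    rw [h1]
    exact (WM_mem_iff hS hVM hWM f).2 hf

include hS hVM hV in
theorem alpha_mem_iff' (a : FE E M) : (αE E M q : FE E M →+* FE E (M * q)) a ∈ V ↔ a ∈ VM :=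
  H378.alpha_mem_iff hS hVM hV a

include hS hVM hV in
theorem beta_mem_iff (hWM : IsFricke E M WM) (hW : IsFricke E (M * q) W) (a : FE E M) :
    (βE E M q : FE E M →+* FE E (M * q)) a ∈ vz V W ↔ a ∈ VM := by
  rw [ValuationSubring.mem_comap]
  show W (βE E M q a) ∈ V ↔ a ∈ VM
  rw [(H751.frickeCompat E M q WM W hWM hW a).2, H378.alpha_mem_iff hS hVM hV,
    WM_mem_iff hS hVM hWM]

theorem W_W (hW : IsFricke E (M * q) W) (f : FE E (M * q)) : W (W f) = f := hW.2 f

include hS hVM hV in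
theorem res_alpha (g : FE E (M * q)) (hg : V.valuation g = 1) :
    ∃ x, VM.valuation x = 1 ∧ V.valuation ((αE E M q : FE E M →+* FE E (M * q)) x - g) < 1 := by
  have hgV : g ∈ V := (V.valuation_le_one_iff g).1 hg.le
  obtain ⟨x, -, hxg⟩ := H378.resInf A E M q w hS VM V hVM hV g hgV
  rw [inW_iff hS (mq_ne_zero M q) hV] at hxg
  have h1 : V.valuation ((αE E M q : FE E M →+* FE E (M * q)) x - g) < 1 := by
    rw [← Valuation.map_neg, neg_sub]
    exact hxg
  refine ⟨x, ?_, h1⟩
  rw [← local_val_eq_one_iff (alpha_mem_iff' hS hVM hV)]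
  exact NR.val_eq_one_of_cong V h1 hg

include hS hVM hV in
theorem res_beta (hWM : IsFricke E M WM) (hW : IsFricke E (M * q) W) (g : FE E (M * q))
    (hg : (vz V W).valuation g = 1) :
    ∃ y, VM.valuation y = 1 ∧
      (vz V W).valuation ((βE E M q : FE E M →+* FE E (M * q)) y - g) < 1 := by
  have hg1 : V.valuation (W g) = 1 := (vz_val_eq_one_iff V W g).1 hg
  obtain ⟨x, -, hx⟩ := res_alpha hS hVM hV (W g) hg1
  have h1 : (vz V W).valuation ((βE E M q : FE E M →+* FE E (M * q)) (WM x) - g) < 1 := by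
    rw [vz_val_lt_one_iff, map_sub]
    show V.valuation (W (βE E M q (WM x)) - W g) < 1
    rw [(H751.frickeCompat E M q WM W hWM hW (WM x)).2, hWM.2]
    exact hx
  refine ⟨WM x, ?_, h1⟩
  rw [← local_val_eq_one_iff (beta_mem_iff hS hVM hV hWM hW)]
  exact NR.val_eq_one_of_cong _ h1 hg

end Inst

end Fermat.Agent.S35.G.H199

end
end
-- ===== PACK-END S35/G/H199/ToricBase.lean

-- ===== PACK-BEGIN S35/G/H199/ToricMod.lean
section



/-!
# S35 / (G') leaf TORIC, sub-leaf GLUE (helper199)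

`glue : H60.GlueStatement A E M q w m`, i.e.
`H60.NormRedStatement A E M q w → G.StableStatement A E → G.KronFrobStatement A E M q w →
    G.ToricStatement A E M q m w`  (VERBATIM, unconditional).

Route: the instance `nrSetting` of helper502's abstract `NRSetting` (`NRCore.lean`) on
`F_M = FE E M`, `F_N = FE E (M q)`, `V₁ = V∞`, `V₂ = V₀ = V∞ ∘ W`,
`σ = G.actE E N (A2.Mod.resE E s hs)`, from the A2/MOD leaves on main (L1, L2, L4, L5, L7, L11,
discreteness of `V∞`), STABLE, KRON-FROB and NORM-RED (the `β`-form of NORM-RED is deduced by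
Fricke transport); then `NRSetting.gSplit_of_qNew`, and the constant of `GSplitAt` is an `m`-th
power modulo `w` because the residue field of `R_E` is algebraically closed.
The element `g` produced is a UNIT of the valuation ring (`toricU_of_parts`), so the `PowVU` form
follows as well.
-/

set_option autoImplicit false
set_option linter.style.haveILetI false
set_option linter.unusedSectionVars false
set_option synthInstance.maxHeartbeats 400000
set_option maxHeartbeats 1600000

noncomputable section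

namespace Fermat.Agent.S35.G.H199

open ModularCurve AlgebraicCurve Fermat.Agent.A2.Mod

/-- the constants of `F_{N,E}` -/
def constF (E : IntermediateField ℚ G.Qb) (N : ℕ) : Subfield (FE E N) :=
  (algebraMap E (FE E N)).fieldRange

section Inst

variable {A : ValuationSubring G.Qb} {E : IntermediateField ℚ G.Qb} {M q : ℕ} [NeZero M]
  [NeZero q] {w : RE A E}

/-- **The instance of `NRSetting`.** -/
theorem nrSetting (hNR : H60.NormRedStatement A E M q w) (hST : StableStatement A E)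
    (hKF : KronFrobStatement A E M q w) (hS : Setting A E M q w)
    {VM : ValuationSubring (FE E M)} {V : ValuationSubring (FE E (M * q))}
    {WM : FE E M ≃ₐ[E] FE E M} {W : FE E (M * q) ≃ₐ[E] FE E (M * q)}
    (hVM : IsVinf A E M VM) (hV : IsVinf A E (M * q) V)
    (hWM : IsFricke E M WM) (hW : IsFricke E (M * q) W)
    {s : G.Qb ≃ₐ[ℚ] G.Qb} (hs : StableUnder E s) (hFr : A.IsFrobeniusAt s q) :
    NR.NRSetting q (αE E M q : FE E M →+* FE E (M * q))
      (βE E M q : FE E M →+* FE E (M * q))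
      (actE E M (resE E s hs)) (actE E (M * q) (resE E s hs)) VM V (vz V W)
      (constF E M) (constF E (M * q)) (normHom (αE E M q)) (normHom (βE E M q)) := by
  have hsD : s ∈ A.decompositionSubgroup ℚ := hFr.1
  have hM : M ≠ 0 := NeZero.ne M
  have hN : M * q ≠ 0 := mq_ne_zero M q
  have stabM := stabAut_V hST hS hM hVM hWM hs hsD
  have stab1 := stabAut_V hST hS hN hV hW hs hsD
  have stab2 := stabAut_V0 hST hS hN hV hW hs hsD
  have L5 := H751.frickeCompat E M q WM W hWM hW
  have hcommM := (hST M hM hS.dvr VM WM hVM hWM s hs hsD).1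
  have hα := alpha_mem_iff' hS hVM hV
  have hβ := beta_mem_iff (V := V) hS hVM hV hWM hW
  have memM : ∀ {x : FE E M}, VM.valuation x = 1 → x ∈ VM := fun hx =>
    (VM.valuation_le_one_iff _).1 hx.le
  refine
    { comm_α := fun a => actE_alpha E M q _ a
      comm_β := fun a => actE_beta E M q _ a
      norm_α := fun g => normAlong_equiv (αE E M q) (αE E M q) (actE E M (resE E s hs))
        (actE E (M * q) (resE E s hs)) (fun x => actE_alpha E M q _ x) g
      norm_β := fun g => normAlong_equiv (βE E M q) (βE E M q) (actE E M (resE E s hs))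
        (actE E (M * q) (resE E s hs)) (fun x => actE_beta E M q _ x) g
      val_M := stabM.val_eq_one_iff
      max_M := stabM.val_lt_one_iff
      ratio_M := fun h hh => stabM.val_ratio (isUnif_V hS hM hVM)
        (fun x hx hx0 => H378.disc_V hS M hVM hx hx0) hh
      max₁ := stab1.val_lt_one_iff
      ratio₁ := fun f hf => stab1.val_ratio (isUnif_V hS hN hV)
        (fun x hx hx0 => H378.disc_V hS (M * q) hV hx hx0) hf
      max₂ := stab2.val_lt_one_iff
      ratio₂ := fun f hf => stab2.val_ratio (isUnif_V0 hS hN hV W) (disc_V0 hS hV W) hf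
      unit_α := fun a ha => (local_val_eq_one_iff hα a).2 ha
      max_α := fun a ha => (local_val_lt_one_iff hα a).2 ha
      unit_β := fun a ha => (local_val_eq_one_iff hβ a).2 ha
      max_β := fun a ha => (local_val_lt_one_iff hβ a).2 ha
      res_α := res_alpha hS hVM hV
      res_β := res_beta hS hVM hV hWM hW
      kron₁ := fun b hb => (inW_iff hS hN hV _).1 (hKF hS VM V hVM hV s hs hFr b (memM hb))
      kron₂ := ?_
      normRes_α := ?_
      normRes_β := ?_
      const_σ := ?_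
      const_α := ?_
      const_β := ?_ }
  · -- kron₂
    intro b hb
    rw [vz_val_lt_one_iff, map_sub, map_pow]
    show V.valuation (W (αE E M q (actE E M (resE E s hs) b)) - (W (βE E M q b)) ^ q) < 1
    rw [(L5 _).1, (L5 b).2, ← hcommM b]
    exact (inW_iff hS hN hV _).1
      (hKF hS VM V hVM hV s hs hFr (WM b) ((WM_mem_iff hS hVM hWM b).2 (memM hb)))
  · -- normRes_α
    intro g x₁ x₂ hg1 hg2 hx₁ hx₂ h1 h2
    show VM.valuation (S29.H395.normAlong (αE E M q) g - x₁ * x₂) < 1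
    rw [← inW_iff hS hM hVM]
    have hgV : g ∈ V := (V.valuation_le_one_iff _).1 hg1.le
    have hWgV : W g ∈ V := ((vz V W).valuation_le_one_iff _).1 hg2.le
    refine hNR hS VM V W hVM hV hW g hgV hWgV x₁ (memM hx₁) x₂ (memM hx₂) ?_ ?_
    · rw [inW_iff hS hN hV, ← Valuation.map_neg, neg_sub]
      exact h1
    · rw [inW0_iff hS hN hV W, ← Valuation.map_neg, neg_sub]
      exact h2
  · -- normRes_β
    intro g y₁ y₂ hg1 hg2 hy₁ hy₂ h1 h2
    show VM.valuation (S29.H395.normAlong (βE E M q) g - y₁ * y₂) < 1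
    have hgV : g ∈ V := (V.valuation_le_one_iff _).1 hg1.le
    have hWgV : W g ∈ V := ((vz V W).valuation_le_one_iff _).1 hg2.le
    have hNβ : S29.H395.normAlong (βE E M q) g
        = WM (S29.H395.normAlong (αE E M q) (W g)) := by
      have h3 := normAlong_equiv (αE E M q) (βE E M q) WM.toRingEquiv W.toRingEquiv
        (fun x => (L5 x).1) (W g)
      have h4 : W.toRingEquiv (W g) = g := hW.2 g
      rw [h4] at h3
      exact h3
    have e1 : WM (S29.H395.normAlong (αE E M q) (W g)) - y₁ * y₂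
        = WM.toRingEquiv (S29.H395.normAlong (αE E M q) (W g) - WM y₂ * WM y₁) := by
      show _ = WM (S29.H395.normAlong (αE E M q) (W g) - WM y₂ * WM y₁)
      rw [map_sub, map_mul, hWM.2, hWM.2, mul_comm y₂ y₁]
    rw [hNβ, e1, (stabAut_WM hS hVM hWM).val_lt_one_iff, ← inW_iff hS hM hVM]
    refine hNR hS VM V W hVM hV hW (W g) hWgV ?_ (WM y₂)
      ((WM_mem_iff hS hVM hWM y₂).2 (memM hy₂)) (WM y₁)
      ((WM_mem_iff hS hVM hWM y₁).2 (memM hy₁)) ?_ ?_
    · rw [hW.2]
      exact hgV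
    · -- `W g ≡ α (W_M y₂)` at `V∞`
      rw [inW_iff hS hN hV, ← (L5 y₂).2, ← map_sub, ← vz_val_lt_one_iff, ← Valuation.map_neg,
        neg_sub]
      exact h2
    · -- `(W g)^q ≡ α (W_M y₁)` at `V₀`
      rw [inW0_iff hS hN hV W, vz_val_lt_one_iff, map_sub, map_pow, hW.2, (L5 _).1, hWM.2,
        ← Valuation.map_neg, neg_sub]
      exact h1
  · -- const_σ
    rintro c ⟨e, rfl⟩
    exact ⟨resE E s hs e, (actE_algebraMap E M _ e).symm⟩
  · -- const_α
    rintro c ⟨e, rfl⟩
    exact ⟨e, ((αE E M q).commutes e).symm⟩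
  · -- const_β
    rintro c ⟨e, rfl⟩
    exact ⟨e, ((βE E M q).commutes e).symm⟩

end Inst

/-! ## Constants are `m`-th powers modulo `w` -/

section Const

variable {A : ValuationSubring G.Qb} {E : IntermediateField ℚ G.Qb} {w : RE A E}

/-- `GSplitAt` gives a unit `g` with `u ≡ g ^ m mod w V` (the residue field of `R_E` is
algebraically closed). -/
theorem exists_unit_pow_of_gSplit (hGF : A2.GoodField A E) {N : ℕ}
    {V : ValuationSubring (FE E N)} (hunif : A2.H48.IsUnif V (cE A E N w))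
    (hcst : ∀ e : E, algebraMap E (FE E N) e ∈ V ↔ e ∈ RE A E) {m : ℕ} (hm : 0 < m)
    {u : FE E N} (h : NR.GSplitAt V (constF E N) m u) :
    ∃ g : FE E N, g ≠ 0 ∧ g ∈ V ∧ g⁻¹ ∈ V ∧ (u - g ^ m) * (cE A E N w)⁻¹ ∈ V := by
  obtain ⟨c, ⟨e, rfl⟩, y, hc, hy, hu⟩ := h
  have he0 : e ≠ 0 := by
    rintro rfl
    simp at hc
  have hc0 : algebraMap E (FE E N) e ≠ 0 := (map_ne_zero _).2 he0
  have hmem := (val_eq_one_iff_h199 V hc0).1 hc
  have heR : e ∈ RE A E := (hcst e).1 hmem.1
  have heR' : e⁻¹ ∈ RE A E := (hcst e⁻¹).1 (by rw [map_inv₀]; exact hmem.2)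
  haveI : IsAlgClosed (IsLocalRing.ResidueField (RE A E)) := hGF.algClosed
  have hunit : IsUnit (⟨e, heR⟩ : RE A E) :=
    ⟨⟨⟨e, heR⟩, ⟨e⁻¹, heR'⟩, Subtype.ext (mul_inv_cancel₀ he0),
      Subtype.ext (inv_mul_cancel₀ he0)⟩, rfl⟩
  obtain ⟨r, hr, hrm⟩ := exists_pow_sub_mem_maximalIdeal_h199 hm hunit
  -- `r` is a unit of `V`
  obtain ⟨ru, hru⟩ := hr
  have hr0 : (r : E) ≠ 0 := by
    intro h0
    have : r = 0 := Subtype.ext h0
    rw [← hru] at this
    exact ru.ne_zero this
  have hrinv : (r : E)⁻¹ ∈ RE A E := by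
    have h1 : ((ru⁻¹ : (RE A E)ˣ) : RE A E) * r = 1 := by
      rw [← hru]
      exact ru.inv_mul
    have h2 : (((ru⁻¹ : (RE A E)ˣ) : RE A E) : E) * (r : E) = 1 := congrArg Subtype.val h1
    have h3 : (r : E)⁻¹ = (((ru⁻¹ : (RE A E)ˣ) : RE A E) : E) :=
      (eq_inv_of_mul_eq_one_left h2).symm
    rw [h3]
    exact ((ru⁻¹ : (RE A E)ˣ) : RE A E).2
  have hcr0 : cE A E N r ≠ 0 := (map_ne_zero _).2 hr0
  have hr1 : V.valuation (cE A E N r) = 1 := by
    rw [val_eq_one_iff_h199 V hcr0]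
    refine ⟨(hcst _).2 r.2, ?_⟩
    have : (cE A E N r)⁻¹ = algebraMap E (FE E N) (r : E)⁻¹ := (map_inv₀ _ _).symm
    rw [this]
    exact (hcst _).2 hrinv
  -- the difference `e - r ^ m`
  have hd : V.valuation (algebraMap E (FE E N) e - cE A E N r ^ m) < 1 := by
    have hnu : ¬ IsUnit ((⟨e, heR⟩ : RE A E) - r ^ m) :=
      (IsLocalRing.mem_maximalIdeal _).1 hrm
    have hde : algebraMap E (FE E N) e - cE A E N r ^ m
        = algebraMap E (FE E N) ((((⟨e, heR⟩ : RE A E) - r ^ m : RE A E)) : E) := by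
      rw [show ((((⟨e, heR⟩ : RE A E) - r ^ m : RE A E)) : E) = e - (r : E) ^ m from rfl,
        map_sub, map_pow]
      rfl
    rw [hde, val_lt_one_iff_h199]
    refine ⟨(hcst _).2 (Subtype.mem _), ?_⟩
    by_cases hz : ((((⟨e, heR⟩ : RE A E) - r ^ m : RE A E)) : E) = 0
    · left
      rw [hz, map_zero]
    · right
      intro hinv
      rw [← map_inv₀, hcst] at hinv
      apply hnu
      exact ⟨⟨_, ⟨_, hinv⟩, Subtype.ext (mul_inv_cancel₀ hz),
        Subtype.ext (inv_mul_cancel₀ hz)⟩, rfl⟩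
  have hy0 : y ≠ 0 := NR.ne_zero_of_val_eq_one V hy
  have hg1 : V.valuation (cE A E N r * y) = 1 := NR.val_mul_eq_one V hr1 hy
  have hg0 : cE A E N r * y ≠ 0 := mul_ne_zero hcr0 hy0
  have hgm := (val_eq_one_iff_h199 V hg0).1 hg1
  refine ⟨cE A E N r * y, hg0, hgm.1, hgm.2, ?_⟩
  rw [hunif.mul_inv_mem_iff]
  have e1 : u - (cE A E N r * y) ^ m
      = (u - algebraMap E (FE E N) e * y ^ m)
        + (algebraMap E (FE E N) e - cE A E N r ^ m) * y ^ m := by
    ring
  rw [e1]
  refine Valuation.map_add_lt _ hu ?_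
  exact NR.val_mul_lt_one_left V hd (NR.val_pow_eq_one V hy m).le

end Const

/-! ## GLUE -/

section Glue

variable {A : ValuationSubring G.Qb} {E : IntermediateField ℚ G.Qb} {M q : ℕ} [NeZero M]
  [NeZero q] {w : RE A E}

theorem frobSub_one_eq {F : Type*} [Field F] (φ : F ≃+* F) (f : F) :
    frobSub φ 1 f = φ f / f := by
  rw [frobSub, pow_one, div_eq_mul_inv]

theorem psiE_apply (N : ℕ) {s : G.Qb ≃ₐ[ℚ] G.Qb} (hs : StableUnder E s) (x : FE E N) :
    psiE E N s hs x = actE E N (resE E s hs) (actE E N (resE E s hs) x) :=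
  actE_mul E N _ _ x

/-- **TORIC with a unit `g`** (`PowVU` form), from NORM-RED, STABLE, KRON-FROB. -/
theorem toricU_of_parts (m : ℕ) (hNR : H60.NormRedStatement A E M q w)
    (hST : StableStatement A E) (hKF : KronFrobStatement A E M q w)
    (hS : Setting A E M q w) (hGF : A2.GoodField A E) (hm : 0 < m)
    {V : ValuationSubring (FE E (M * q))} {W : FE E (M * q) ≃ₐ[E] FE E (M * q)}
    (hV : IsVinf A E (M * q) V) (hW : IsFricke E (M * q) W)
    {s : G.Qb ≃ₐ[ℚ] G.Qb} (hs : StableUnder E s) (hFr : A.IsFrobeniusAt s q)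
    {f : FE E (M * q)} (hf : f ≠ 0)
    (hα : NormPow (αE E M q) m f) (hβ : NormPow (βE E M q) m f) :
    (∃ g : FE E (M * q), g ≠ 0 ∧ g ∈ V ∧ g⁻¹ ∈ V ∧
      (frobSub (psiE E (M * q) s hs) 1 (frobSub (psiE E (M * q) s hs) 1 f) - g ^ m) *
        (cE A E (M * q) w)⁻¹ ∈ V) ∧
    (∃ g : FE E (M * q), g ≠ 0 ∧ g ∈ vz V W ∧ g⁻¹ ∈ vz V W ∧
      (frobSub (psiE E (M * q) s hs) 1 (frobSub (psiE E (M * q) s hs) 1 f) - g ^ m) *
        (cE A E (M * q) w)⁻¹ ∈ vz V W) := by
  have hM : M ≠ 0 := NeZero.ne M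
  have hN : M * q ≠ 0 := mq_ne_zero M q
  obtain ⟨VM, hVM⟩ := H708.vinfExists A E M hM hS.dvr
  obtain ⟨WM, hWM⟩ := H751.frickeExists E M hM
  have S := nrSetting hNR hST hKF hS hVM hV hWM hW hs hFr
  obtain ⟨c, h, hch⟩ := hα
  obtain ⟨c', h', hch'⟩ := hβ
  have key := S.gSplit_of_qNew (m := m) hf (c := algebraMap E (FE E M) c)
    (c' := algebraMap E (FE E M) c') (h := h) (h' := h') ⟨c, rfl⟩ ⟨c', rfl⟩ hch hch'
  have hexpr : frobSub (psiE E (M * q) s hs) 1 (frobSub (psiE E (M * q) s hs) 1 f)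
      = actE E (M * q) (resE E s hs) (actE E (M * q) (resE E s hs)
          (actE E (M * q) (resE E s hs) (actE E (M * q) (resE E s hs) f) / f))
        / (actE E (M * q) (resE E s hs) (actE E (M * q) (resE E s hs) f) / f) := by
    rw [frobSub_one_eq, frobSub_one_eq, psiE_apply, psiE_apply]
  rw [hexpr]
  refine ⟨exists_unit_pow_of_gSplit hGF (isUnif_V hS hN hV) (cst_mem_iff hS hN hV) hm key.1,
    exists_unit_pow_of_gSplit hGF (isUnif_V0 hS hN hV W) ?_ hm key.2⟩
  intro e
  rw [ValuationSubring.mem_comap]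
  show W (algebraMap E (FE E (M * q)) e) ∈ V ↔ e ∈ RE A E
  rw [W.commutes]
  exact cst_mem_iff hS hN hV e

/-- **TORIC from NORM-RED, STABLE, KRON-FROB.** -/
theorem toric_of_parts (m : ℕ) (hNR : H60.NormRedStatement A E M q w)
    (hST : StableStatement A E) (hKF : KronFrobStatement A E M q w) :
    ToricStatement A E M q m w := by
  intro hS hGF hm _ V W hV hW s hs hFr f hf hα hβ
  obtain ⟨⟨g, -, hg, hgi, hgu⟩, ⟨g', -, hg', hgi', hgu'⟩⟩ :=
    toricU_of_parts m hNR hST hKF hS hGF hm hV hW hs hFr hf hα hβ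
  exact ⟨⟨g, hg, hgi, hgu⟩, ⟨g', hg', hgi', hgu'⟩⟩

/-- **GLUE** (`H60.GlueStatement`, verbatim). -/
theorem glue (A : ValuationSubring G.Qb) (E : IntermediateField ℚ G.Qb) (M q : ℕ) [NeZero M]
    [NeZero q] (w : RE A E) (m : ℕ) : H60.GlueStatement A E M q w m :=
  fun hNR hST hKF => toric_of_parts m hNR hST hKF

end Glue

end Fermat.Agent.S35.G.H199

end
end
-- ===== PACK-END S35/G/H199/ToricMod.lean

-- ===== PACK-BEGIN A2/Alg/H34/Glue.lean
section




/-!
# WALL A2 / ALG — leaf GLUE (helper34): `glue` VERBATIM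

`glue` = `H729.glue_of_hconst` (helper729) + `H552.hconst_of_henselian` (helper552) applied to the
valuation subring `compVal = B_{p₁}` of `F` (a discrete valuation ring with uniformiser `w`,
constructed elementwise from `exists_decomp`).
-/

set_option autoImplicit false
set_option linter.unusedSectionVars false
set_option linter.style.haveILetI false
set_option linter.unusedVariables false

namespace Fermat.Agent.A2.Alg.H34

open Fermat.Agent.A2 Fermat.Agent.A2.Alg
open Polynomial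

section Val

variable {R F : Type*} [CommRing R] [Field F] [Algebra R F]

/-- The valuation subring `B_p` of `F` (`p` a component of the special fibre). -/
def compVal (w : R) (B : Subalgebra R F) [IsNoetherianRing B] [IsFractionRing B F]
    (p q : Ideal B) (hp : p.IsPrime) (hpq : p ⊓ q = Ideal.span {algebraMap R B w})
    (hqp : ¬ q ≤ p) (hw0 : algebraMap R F w ≠ 0) : ValuationSubring F where
  carrier := {f | ∃ a b : B, b ∉ p ∧ f * (b : F) = (a : F)}
  mul_mem' := by
    rintro f g ⟨a, b, hb, hab⟩ ⟨a', b', hb', hab'⟩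
    refine ⟨a * a', b * b', fun h => ?_, ?_⟩
    · rcases hp.mem_or_mem h with h | h
      · exact hb h
      · exact hb' h
    · push_cast
      rw [← hab, ← hab']
      ring
  one_mem' := ⟨1, 1, fun h => hp.ne_top ((Ideal.eq_top_iff_one p).2 h), by simp⟩
  add_mem' := by
    rintro f g ⟨a, b, hb, hab⟩ ⟨a', b', hb', hab'⟩
    refine ⟨a * b' + a' * b, b * b', fun h => ?_, ?_⟩
    · rcases hp.mem_or_mem h with h | h
      · exact hb h
      · exact hb' h
    · push_cast
      rw [← hab, ← hab']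
      ring
  zero_mem' := ⟨0, 1, fun h => hp.ne_top ((Ideal.eq_top_iff_one p).2 h), by simp⟩
  neg_mem' := by
    rintro f ⟨a, b, hb, hab⟩
    refine ⟨-a, b, hb, ?_⟩
    push_cast
    rw [← hab]
    ring
  mem_or_inv_mem' := by
    intro f
    by_cases hf : f = 0
    · left
      subst hf
      exact ⟨0, 1, fun h => hp.ne_top ((Ideal.eq_top_iff_one p).2 h), by simp⟩
    · obtain ⟨k₁, k₂, A, D, hA, hD, h⟩ := exists_decomp w B p q hp hpq hqp f hf
      rcases le_total k₂ k₁ with hk | hk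
      · left
        obtain ⟨j, rfl⟩ := Nat.exists_eq_add_of_le hk
        refine ⟨algebraMap R B w ^ j * A, D, hD, ?_⟩
        have h1 : algebraMap R F w ^ k₂ * (f * (D : F)) =
            algebraMap R F w ^ k₂ * (algebraMap R F w ^ j * (A : F)) := by
          rw [pow_add] at h
          linear_combination h
        have h2 := mul_left_cancel₀ (pow_ne_zero k₂ hw0) h1
        rw [h2]
        push_cast
        rfl
      · right
        obtain ⟨j, rfl⟩ := Nat.exists_eq_add_of_le hk
        refine ⟨algebraMap R B w ^ j * D, A, hA, ?_⟩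
        have h1 : algebraMap R F w ^ k₁ * (f * (algebraMap R F w ^ j * (D : F))) =
            algebraMap R F w ^ k₁ * (A : F) := by
          rw [pow_add] at h
          linear_combination h
        have h2 := mul_left_cancel₀ (pow_ne_zero k₁ hw0) h1
        have h3 : f⁻¹ * (A : F) = algebraMap R F w ^ j * (D : F) := by
          rw [← h2]
          field_simp
        rw [h3]
        push_cast
        rfl

variable (w : R) (B : Subalgebra R F) [IsNoetherianRing B] [IsFractionRing B F]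
  (p q : Ideal B) (hp : p.IsPrime) (hpq : p ⊓ q = Ideal.span {algebraMap R B w})
  (hqp : ¬ q ≤ p) (hw0 : algebraMap R F w ≠ 0)

theorem mem_compVal {f : F} :
    f ∈ compVal w B p q hp hpq hqp hw0 ↔ ∃ a b : B, b ∉ p ∧ f * (b : F) = (a : F) := Iff.rfl

include hpq in
theorem w_mem_p : algebraMap R B w ∈ p := by
  have : algebraMap R B w ∈ p ⊓ q := by
    rw [hpq]
    exact Ideal.mem_span_singleton_self _
  exact this.1

theorem algebraMap_mem_compVal (r : R) : algebraMap R F r ∈ compVal w B p q hp hpq hqp hw0 :=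
  ⟨algebraMap R B r, 1, fun h => hp.ne_top ((Ideal.eq_top_iff_one p).2 h), by simp⟩

theorem inv_w_notMem_compVal : (algebraMap R F w)⁻¹ ∉ compVal w B p q hp hpq hqp hw0 := by
  rintro ⟨a, b, hb, hab⟩
  apply hb
  have h1 : (b : F) = algebraMap R F w * (a : F) := by
    rw [← hab]
    field_simp
  have h2 : b = algebraMap R B w * a := Subtype.ext (by rw [h1]; rfl)
  rw [h2]
  exact p.mul_mem_right _ (w_mem_p w B p q hpq)

theorem exists_pow_mul_mem_compVal (c : F) :
    ∃ k : ℕ, algebraMap R F w ^ k * c ∈ compVal w B p q hp hpq hqp hw0 := by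
  by_cases hc : c = 0
  · exact ⟨0, by rw [hc, mul_zero]; exact (compVal w B p q hp hpq hqp hw0).zero_mem⟩
  · obtain ⟨k₁, k₂, A, D, hA, hD, h⟩ := exists_decomp w B p q hp hpq hqp c hc
    refine ⟨k₂, algebraMap R B w ^ k₁ * A, D, hD, ?_⟩
    push_cast
    have : ((algebraMap R B w : B) : F) = algebraMap R F w := rfl
    linear_combination h

theorem mul_inv_w_mem_compVal {a : F} (ha : a ∈ compVal w B p q hp hpq hqp hw0)
    (ha' : a⁻¹ ∉ compVal w B p q hp hpq hqp hw0) :
    a * (algebraMap R F w)⁻¹ ∈ compVal w B p q hp hpq hqp hw0 := by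
  have ha0 : a ≠ 0 := by
    rintro rfl
    rw [inv_zero] at ha'
    exact ha' (compVal w B p q hp hpq hqp hw0).zero_mem
  obtain ⟨k₁, k₂, A, D, hA, hD, h⟩ := exists_decomp w B p q hp hpq hqp a ha0
  have hA0 : (A : F) ≠ 0 := fun h' => hA (by
    have : A = 0 := Subtype.ext h'
    rw [this]; exact p.zero_mem)
  have hD0 : (D : F) ≠ 0 := fun h' => hD (by
    have : D = 0 := Subtype.ext h'
    rw [this]; exact p.zero_mem)
  rcases Nat.lt_or_ge k₂ k₁ with hk | hk
  · obtain ⟨j, rfl⟩ := Nat.exists_eq_add_of_lt hk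
    refine ⟨algebraMap R B w ^ j * A, D, hD, ?_⟩
    push_cast
    have h1 : algebraMap R F w ^ (k₂ + 1) * (a * (algebraMap R F w)⁻¹ * (D : F)) =
        algebraMap R F w ^ (k₂ + 1) * (algebraMap R F w ^ j * (A : F)) := by
      have e : algebraMap R F w ^ (k₂ + j + 1) =
          algebraMap R F w ^ (k₂ + 1) * algebraMap R F w ^ j := by
        rw [← pow_add]; congr 1; omega
      rw [e] at h
      have e2 : algebraMap R F w ^ (k₂ + 1) * (a * (algebraMap R F w)⁻¹ * (D : F)) =
          (a * (algebraMap R F w ^ k₂ * (D : F))) * (algebraMap R F w * (algebraMap R F w)⁻¹) := by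
        rw [pow_succ]; ring
      rw [e2, h, mul_inv_cancel₀ hw0, mul_one, mul_assoc]
    exact mul_left_cancel₀ (pow_ne_zero _ hw0) h1
  · exfalso
    apply ha'
    obtain ⟨j, rfl⟩ := Nat.exists_eq_add_of_le hk
    refine ⟨algebraMap R B w ^ j * D, A, hA, ?_⟩
    push_cast
    have h1 : algebraMap R F w ^ k₁ * (a * (algebraMap R F w ^ j * (D : F))) =
        algebraMap R F w ^ k₁ * (A : F) := by
      rw [pow_add] at h
      linear_combination h
    have h2 := mul_left_cancel₀ (pow_ne_zero k₁ hw0) h1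
    rw [← h2]
    field_simp

/-- `u ≡ 1` on the component `p`  ⟹  `u = 1 + w t`, `t ∈ B_p`. -/
theorem exists_eq_one_add_of_oneAt {u : F} (hu : OneAt B p u) :
    ∃ t ∈ compVal w B p q hp hpq hqp hw0, u = 1 + algebraMap R F w * t := by
  obtain ⟨a, b, hb, hab, e⟩ := hu
  obtain ⟨s, hsq, hsp⟩ := SetLike.not_le_iff_exists.1 hqp
  have h1 : (a - b) * s ∈ p ⊓ q := ⟨p.mul_mem_right _ hab, q.mul_mem_left _ hsq⟩
  rw [hpq, Ideal.mem_span_singleton'] at h1
  obtain ⟨a', ha'⟩ := h1
  have hb0 : (b : F) ≠ 0 := fun h' => hb (by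
    have : b = 0 := Subtype.ext h'
    rw [this]; exact p.zero_mem)
  have hs0 : (s : F) ≠ 0 := fun h' => hsp (by
    have : s = 0 := Subtype.ext h'
    rw [this]; exact p.zero_mem)
  have e' : (a' : F) * algebraMap R F w = ((a : F) - (b : F)) * (s : F) := by
    have := congrArg (fun z : B => (z : F)) ha'
    simpa using this
  refine ⟨(a' : F) * ((s : F) * (b : F))⁻¹, ⟨a', s * b, fun h => ?_, ?_⟩, ?_⟩
  · rcases hp.mem_or_mem h with h | h
    · exact hsp h
    · exact hb h
  · push_cast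
    field_simp
  · have hu' : u = (a : F) * (b : F)⁻¹ := by
      field_simp
      exact e
    rw [hu']
    field_simp
    linear_combination -e'

end Val

section Main

variable {R E F : Type*} [CommRing R] [IsDomain R] [IsDiscreteValuationRing R]
  [HenselianLocalRing R] [IsAlgClosed (IsLocalRing.ResidueField R)]
  [Field E] [CharZero E] [Algebra R E] [IsFractionRing R E]
  [Field F] [Algebra E F] [Algebra R F] [IsScalarTower R E F]

/-- `u ≡ 1` on the first component, from the local factorisation at one closed point of it. -/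
theorem oneAt_of_locallyFactored (w : R) (B : Subalgebra R F) (c : SSChart w B) (m : ℕ) (u : F)
    (hf : LocallyFactored B c m u) : OneAt B c.p₁ u := by
  haveI := c.prime₁
  obtain ⟨n, hn, hpn⟩ := Ideal.exists_le_maximal c.p₁ c.prime₁.ne_top
  have hw₁ : algebraMap R B w ∈ c.p₁ := by
    have : algebraMap R B w ∈ c.p₁ ⊓ c.p₂ := by
      rw [c.inf_eq]
      exact Ideal.mem_span_singleton_self _
    exact this.1
  have hspan : Ideal.span {algebraMap R B w} ≤ c.p₁ := by
    rw [Ideal.span_le, Set.singleton_subset_iff]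
    exact hw₁
  obtain ⟨h, hh, h1, h2, -⟩ := hf n hn (hpn hw₁)
  have h3 : OneAt B c.p₁ (u * h ^ m) := H729.oneAt_of_locOne hpn hspan h1
  have h4 : OneAt B c.p₁ (h ^ m)⁻¹ := H729.oneAt_inv (H729.oneAt_pow c.prime₁ h2 m)
  have h5 := H729.oneAt_mul c.prime₁ h3 h4
  have h6 : u * h ^ m * (h ^ m)⁻¹ = u := by
    rw [mul_assoc, mul_inv_cancel₀ (pow_ne_zero m hh), mul_one]
  rwa [h6] at h5

/-- **GLUE.**  A Kummer class which is locally factored at every closed point of the special
fibre of both charts is trivial. -/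
theorem glue (q m : ℕ) (hq : q.Prime) (hqR : (q : R) ∈ IsLocalRing.maximalIdeal R)
    (hm : 0 < m) (hqm : ¬ q ∣ m)
    (w : R) (x : F) (Bf Bi : Subalgebra R F)
    (hBf : ChartCtx E w x Bf) (hBi : ChartCtx E w x⁻¹ Bi)
    (cf : SSChart w Bf) (ci : SSChart w Bi) (hcf : Incomparable cf) (hci : Incomparable ci)
    (u : F) (hu : u ≠ 0) (hdiv : DivisibleDiv E m u)
    (hf : LocallyFactored Bf cf m u) (hi : LocallyFactored Bi ci m u) :
    ∃ y : F, y ≠ 0 ∧ u = y ^ m := by
  refine H729.glue_of_hconst q m hq hqR hm hqm w x Bf Bi hBf hBi cf ci hcf hci u hu hdiv hf hi ?_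
  obtain ⟨hN, -, hFr⟩ := chart_instances' w x Bf hBf
  haveI := hN
  haveI := hFr
  have hw0 : algebraMap R F w ≠ 0 := by
    intro h
    exact hBf.hw.ne_zero (algebraMap_RF_injective E (by rw [h, map_zero]))
  obtain ⟨t, ht, hut⟩ := exists_eq_one_add_of_oneAt w Bf cf.p₁ cf.p₂ cf.prime₁ cf.inf_eq hcf.2 hw0
    (oneAt_of_locallyFactored w Bf cf m u hf)
  have hmk : (m : IsLocalRing.ResidueField R) ≠ 0 := by
    obtain ⟨mi, hmi⟩ := H729.exists_inv_natCast (R := R) q m hq hqR hqm
    intro h0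
    have h1 : IsLocalRing.residue R (m : R) = 0 := by
      rw [map_natCast]
      exact h0
    have h2 : (m : R) ∈ IsLocalRing.maximalIdeal R := (IsLocalRing.residue_eq_zero_iff _).1 h1
    exact (IsLocalRing.mem_maximalIdeal _).1 h2 (IsUnit.of_mul_eq_one mi hmi)
  exact Fermat.Agent.A2.H552.hconst_of_henselian E w hBf.hw
    (compVal w Bf cf.p₁ cf.p₂ cf.prime₁ cf.inf_eq hcf.2 hw0)
    (algebraMap_mem_compVal w Bf cf.p₁ cf.p₂ cf.prime₁ cf.inf_eq hcf.2 hw0)
    (inv_w_notMem_compVal w Bf cf.p₁ cf.p₂ cf.prime₁ cf.inf_eq hcf.2 hw0)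
    (fun a ha ha' => mul_inv_w_mem_compVal w Bf cf.p₁ cf.p₂ cf.prime₁ cf.inf_eq hcf.2 hw0 ha ha')
    (exists_pow_mul_mem_compVal w Bf cf.p₁ cf.p₂ cf.prime₁ cf.inf_eq hcf.2 hw0)
    m hmk t ht u hut

end Main

/-- The leaf GLUE in the packaged form consumed by `algSS_of_leaves`. -/
theorem glueLeaf : GlueLeaf :=
  fun {R E F} _ _ _ _ _ _ _ _ _ _ _ _ _ q m hq hqR hm hqm w x Bf Bi hBf hBi cf ci hcf hci u hu
      hdiv hf hi =>
    glue (E := E) q m hq hqR hm hqm w x Bf Bi hBf hBi cf ci hcf hci u hu hdiv hf hi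

/-- ALG (route S) reduced to the two purity leaves. -/
theorem algSS_of_purity (hS : PuritySmoothLeaf) (hN : PurityNodeLeaf) :
    Fermat.Agent.A2.AlgSSStatement :=
  algSS_of_leaves hS hN glueLeaf

end Fermat.Agent.A2.Alg.H34

end
-- ===== PACK-END A2/Alg/H34/Glue.lean

-- ===== PACK-BEGIN A2/Alg/H609/PurityNode.lean
section




/-!
# WALL A2 / ALG — leaf P-N `purity_node` (helper609)

`purityNodeLeaf : Alg.H34.PurityNodeLeaf`, VERBATIM the leaf of the assembly
`Alg.H34.algSS_of_leaves`.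

Proof: node purity `A2.H609.exists_pureAt_node` (length count in the local ring `B_n`; no
`δ`-count, the hypothesis `SepCoord` is not used, no hypothesis on the thickness of the node),
with
* `B` noetherian, integrally closed, `Frac B = F` (`Alg.H34.chart_instances'`),
* `B ⧸ pᵢ` Dedekind (`isDedekindDomain_quotient_chart`),
* (H1) from `DivisibleDiv` (`algebraMap_field_mem`), (H2) from `IsSplit`.
-/

set_option autoImplicit false

namespace Fermat.Agent.A2.Alg.H609

open Fermat.Agent.A2 Fermat.Agent.A2.Alg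

section Node

variable {R E F : Type*} [CommRing R] [IsDomain R] [IsDiscreteValuationRing R]
  [Field E] [CharZero E] [Algebra R E] [IsFractionRing R E]
  [Field F] [Algebra E F] [Algebra R F] [IsScalarTower R E F]

omit [CharZero E] in
/-- The hypothesis `hdiv` of the core purity theorems from `DivisibleDiv`. -/
theorem hdiv_of_divisibleDiv (w : R) (hw : Irreducible w) (B : Subalgebra R F) (m : ℕ) (u : F)
    (hdiv : DivisibleDiv E m u) :
    ∀ V : ValuationSubring F, IsDiscreteValuationRing V →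
      (∀ b : B, algebraMap B F b ∈ V) → (algebraMap B F (algebraMap R B w))⁻¹ ∈ V →
      ∃ h u₀ : F, u₀ ∈ V ∧ u₀⁻¹ ∈ V ∧ u = u₀ * h ^ m := by
  intro V hV hB hwV
  have hR : ∀ r : R, algebraMap R F r ∈ V := fun r => hB (algebraMap R B r)
  obtain ⟨h, u₀, -, hu₀, hu₀', huh⟩ := hdiv V hV (algebraMap_field_mem hw V hR hwV)
  exact ⟨h, u₀, hu₀, hu₀', huh⟩

omit [IsDomain R] [IsDiscreteValuationRing R] [Field E] [CharZero E] [Algebra R E]
  [IsFractionRing R E] [Algebra E F] [IsScalarTower R E F] in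
/-- The hypothesis `hs` of the core purity theorems from `ConstAt`. -/
theorem hs_of_constAt (B : Subalgebra R F) (p : Ideal B) (u : F) (h : ConstAt B p u) :
    ∃ c a b : B, IsUnit c ∧ b ∉ p ∧ a - c * b ∈ p ∧ u * algebraMap B F b = algebraMap B F a := by
  obtain ⟨c, hc, a, b, hb, hab, hu⟩ := h
  exact ⟨algebraMap R B c, a, b, hc.map _, hb, hab, hu⟩

/-- **Leaf P-N**, universe polymorphic. -/
theorem purity_node (m : ℕ) (hm : 0 < m)
    (w : R) (x : F) (B : Subalgebra R F) (hB : ChartCtx E w x B)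
    (c : SSChart w B)
    (u : F) (hdiv : DivisibleDiv E m u) (hs : IsSplit B c u)
    (n : Ideal B) (hn : n.IsPrime)
    (h1 : c.p₁ ≤ n) (h2 : c.p₂ ≤ n) : PureAt B c m u n := by
  obtain ⟨hnoeth, hic, hfrac⟩ := H34.chart_instances' w x B hB
  have hp₁ : c.p₁.IsPrime := c.prime₁
  have hp₂ : c.p₂.IsPrime := c.prime₂
  have hn₁ : IsIntegrallyClosed (B ⧸ c.p₁) := c.normal₁
  have hn₂ : IsIntegrallyClosed (B ⧸ c.p₂) := c.normal₂
  have hw : algebraMap R B w ∈ c.p₁ ⊓ c.p₂ := by
    rw [c.inf_eq]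
    exact Ideal.mem_span_singleton_self _
  have hd₁ : IsDedekindDomain (B ⧸ c.p₁) := isDedekindDomain_quotient_chart w x B hB c.p₁ hw.1
  have hd₂ : IsDedekindDomain (B ⧸ c.p₂) := isDedekindDomain_quotient_chart w x B hB c.p₂ hw.2
  exact Fermat.Agent.A2.H609.exists_pureAt_node (B := B) (F := F) hm.ne' c.p₁ c.p₂ n c.inf_eq
    c.not_le₁₂ c.not_le₂₁ c.transversal h1 h2 u
    (hdiv_of_divisibleDiv w hB.hw B m u hdiv)
    (hs_of_constAt B c.p₁ u hs.1) (hs_of_constAt B c.p₂ u hs.2)

end Node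

/-- **Leaf P-N** `purity_node`, VERBATIM (`Alg.H34.PurityNodeLeaf`). -/
theorem purityNodeLeaf : H34.PurityNodeLeaf := by
  intro R E F _ _ _ _ _ _ _ _ _ _ _ _ _ q m _ _ hm _ w x B hB c _ _ u _ hdiv hs n hn _ h1 h2
  exact purity_node m hm w x B hB c u hdiv hs n hn.isPrime h1 h2

end Fermat.Agent.A2.Alg.H609

end
-- ===== PACK-END A2/Alg/H609/PurityNode.lean

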