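import Mathlib
import Fermat.Agent.Pack.S58.E4L0
import Fermat.Agent.Pack.S58.E4L1
import Fermat.Agent.Pack.S36.E19L0
import Fermat.Agent.Pack.S36.E20L1
import Fermat.Agent.Pack.S36.E13L1
import Fermat.Agent.Pack.S36.E18L0
import Fermat.Agent.Pack.S36.E6L0
import Fermat.Agent.Pack.S36.E15L3
import Fermat.Agent.Pack.S36.E18L1
import Fermat.Agent.Pack.S58.E3L3
import Fermat.Agent.Pack.S36.E17L3
import Fermat.Agent.Pack.S36.E15L1
import Fermat.Agent.Pack.S36.E12L2
import Fermat.Agent.Pack.S36.E4L0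
import Fermat.Agent.Pack.S36.E0L3
import Fermat.Agent.Pack.S36.E16L2
import Fermat.Agent.Pack.S36.E17L2
import Fermat.Agent.Pack.S36.E7L3
import Fermat.Agent.Pack.S36.E17L1

-- ===== PACK-BEGIN S35/H891/Bridge3.lean
section
/-
S35 (helper891): from the interface statement `QNewFrobStatement` of `S35/H891/Spec.lean`
(level `M' * q`, divisor form of "`q`-new") to `NewPartFrob3Statement` (level `M`, `q ∥ M`,
kernel of the two degeneracy push-forwards of helper155), and the frozen statement S35 from the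
six inputs of row S30, `QNewFrobStatement` and `ExclTateStatement`.
-/



set_option autoImplicit false

namespace Fermat.Agent.S35.H891

open Fermat.Agent.S35.H155

/-- `QNewFrobStatement` at level `M' * q`, with target level `K = M'`. -/
theorem newPartFrob3At_of_qNew (h : QNewFrobStatement) (M' q K : ℕ) (hK : K = M')
    [NeZero (M' * q)] [NeZero K] (hq : q.Prime) (hqM' : ¬ q ∣ M') :
    NewPartFrob3At (M' * q) K q := by
  subst hK
  haveI : NeZero q := ⟨hq.ne_zero⟩
  refine ⟨pushA K q, pushB K q, pushA_galois K q, pushB_galois K q, ?_⟩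
  intro A hA σ hσ m hm x hx ha hb
  have hm0 : 0 < m := Nat.pos_of_ne_zero (fun h0 => hm (h0 ▸ dvd_zero q))
  exact h K q m hq hqM' hm0 hm A hA σ hσ x hx ((isQNew_iff_spec K q x).mpr ⟨ha, hb⟩)

/-- **`QNewFrobStatement ⟹ NewPartFrob3Statement`**, with `a = α_*`, `b = β_*`. -/
theorem newPartFrob3_of_qNew (h : QNewFrobStatement) : NewPartFrob3Statement := by
  intro M q instM instMq hq hqM hq2
  obtain ⟨M', rfl⟩ : ∃ M', M = M' * q := ⟨M / q, (Nat.div_mul_cancel hqM).symm⟩
  have hM' : M' * q / q = M' := Nat.mul_div_cancel M' hq.pos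
  have hqM' : ¬ q ∣ M' := fun hd => hq2 (by
    rw [pow_two]
    exact Nat.mul_dvd_mul hd (dvd_refl q))
  exact newPartFrob3At_of_qNew h M' q (M' * q / q) hM' hq hqM'

/-- **The frozen statement S35** from the six inputs of row S30, `QNewFrobStatement` (cell FROB)
and `ExclTateStatement` (cell X). -/
theorem result_of_qNew
    (hfin : ∀ (N p : ℕ) [NeZero N], p.Prime →
      Finite {x : ModularCurve.JZero N // (p : ℤ) • x = 0})
    (hsm : ∀ (N p : ℕ) [NeZero N], ∀ x : ModularCurve.JZero N,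
      (∃ n : ℕ, ((p : ℤ) ^ n) • x = 0) →
        ∃ L : IntermediateField ℚ (AlgebraicClosure ℚ), FiniteDimensional ℚ L ∧
          ∀ σ : S30.H990.GQ, (∀ y ∈ L, σ y = y) → σ • x = x)
    (hgeq : ∀ (N : ℕ) [NeZero N] (ℓ : Nat.Primes) (σ : S30.H990.GQ) (x : ModularCurve.JZero N),
      ModularCurve.heckeOperatorBar N ℓ (σ • x) = σ • ModularCurve.heckeOperatorBar N ℓ x)
    (hunr : ∀ (N p : ℕ) [NeZero N], ∀ q : ℕ, q.Prime → ¬ q ∣ N * p →
      ∀ A : ValuationSubring (AlgebraicClosure ℚ), A.LiesOverPrime q →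
        ∀ σ ∈ A.inertiaSubgroupIn ℚ, ∀ x : ModularCurve.JZero N,
          (∃ n : ℕ, ((p : ℤ) ^ n) • x = 0) → σ • x = x)
    (hes : ∀ (N p : ℕ) [NeZero N], ∀ (ℓ : ℕ) (hℓ : ℓ.Prime), ¬ ℓ ∣ N * p →
      ∀ A : ValuationSubring (AlgebraicClosure ℚ), A.LiesOverPrime ℓ →
        ∀ σ : S30.H990.GQ, A.IsFrobeniusAt σ ℓ → ∀ x : ModularCurve.JZero N,
          (∃ n : ℕ, ((p : ℤ) ^ n) • x = 0) →
            σ • σ • x - ModularCurve.heckeOperatorBar N ⟨ℓ, hℓ⟩ (σ • x) + (ℓ : ℤ) • x = 0)
    (hlat : ∀ (N p : ℕ) [NeZero N], p.Prime →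
      ∃ (Λ : Type) (_ : AddCommGroup Λ) (_ : Module.Free ℤ Λ) (_ : Module.Finite ℤ Λ)
        (TΛ : Nat.Primes → Λ →ₗ[ℤ] Λ) (κ : ℕ → Λ →ₗ[ℤ] ModularCurve.JZero N),
        (∀ (n : ℕ) (x : Λ), κ n x = 0 ↔ ∃ y : Λ, x = ((p : ℤ) ^ n) • y) ∧
        (∀ (n : ℕ) (x : Λ), (p : ℤ) • κ (n + 1) x = κ n x) ∧
        (∀ ℓ : Nat.Primes, ¬ (ℓ : ℕ) ∣ N * p → ∀ (n : ℕ) (x : Λ),
          κ n (TΛ ℓ x) = ModularCurve.heckeOperatorBar N ℓ (κ n x)) ∧
        (∀ (S : Set ℕ) (R : Type) [CommRing R] [IsDomain R] [CharZero R]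
          (χ : CuspForm.heckeAlgebra N 2 S →+* R),
          ∃ v : TensorProduct ℤ R Λ, v ≠ 0 ∧
            ∀ (ℓ : ℕ) (hℓ : ℓ.Prime) (hℓN : ¬ ℓ ∣ N) (hℓS : ℓ ∉ S),
              (TΛ ⟨ℓ, hℓ⟩).baseChange R v = χ (CuspForm.heckeAlgebra.T hℓ hℓN hℓS) • v))
    (hQ : QNewFrobStatement) (hX : Fermat.Agent.S35.H991.ExclTateStatement)
    {M : ℕ} [NeZero M] {g : CuspForm (CongruenceSubgroup.Gamma0 M) 2} (hg : g.IsNewform)
    (lam : ℕ) [Fact lam.Prime]
    (S : Finset ℕ)
    (O' : Type) [CommRing O'] [IsDomain O'] [IsDiscreteValuationRing O']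
    [IsAdicComplete (IsLocalRing.maximalIdeal O') O'] [Finite (IsLocalRing.ResidueField O')]
    [CharZero O'] (hlamO' : (lam : O') ∈ IsLocalRing.maximalIdeal O')
    (chig : CuspForm.heckeAlgebra M 2 (↑S : Set ℕ) →+* ℂ)
    (hchig : ∀ (ℓ : ℕ) (hℓ : ℓ.Prime) (hℓM : ¬ ℓ ∣ M) (hℓS : ℓ ∉ (↑S : Set ℕ)),
      chig (CuspForm.heckeAlgebra.T hℓ hℓM hℓS) = ModularFormClass.qCoeff g ℓ)
    (iota : chig.range →+* O')
    (hlamS : lam ∈ S) (hMS : ∀ q : ℕ, q.Prime → q ∣ M → q ∈ S) :
    ∃ (O'' : Type) (_ : CommRing O'') (_ : IsDomain O'') (_ : IsDiscreteValuationRing O'')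
      (_ : IsAdicComplete (IsLocalRing.maximalIdeal O'') O'') (_ : Finite (IsLocalRing.ResidueField O''))
      (_ : CharZero O'') (_ : Algebra O' O'') (_ : Module.Finite O' O'') (_ : IsLocalHom (algebraMap O' O'')),
      Function.Injective (algebraMap O' O'') ∧
      ∃ ρ : GaloisRepAdic O'',
        (∀ (ℓ : ℕ) (hℓ : ℓ.Prime) (hℓM : ¬ ℓ ∣ M) (hℓS : ℓ ∉ (↑S : Set ℕ)),
          ∀ A : ValuationSubring (AlgebraicClosure ℚ), A.LiesOverPrime ℓ →
            ∀ σ : AlgebraicClosure ℚ ≃ₐ[ℚ] AlgebraicClosure ℚ, A.IsFrobeniusAt σ ℓ →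
              LinearMap.charpoly (ρ.ρ σ) =
                Polynomial.X ^ 2 - Polynomial.C (algebraMap O' O'' ((iota.comp chig.rangeRestrict) (CuspForm.heckeAlgebra.T hℓ hℓM hℓS))) * Polynomial.X
                  + Polynomial.C ((ℓ : O''))) ∧
        (∀ q : ℕ, q.Prime → q ≠ lam → q ∣ M → ¬ q ^ 2 ∣ M →
          ∀ A : ValuationSubring (AlgebraicClosure ℚ), A.LiesOverPrime q →
            ∀ σ : AlgebraicClosure ℚ ≃ₐ[ℚ] AlgebraicClosure ℚ, A.IsFrobeniusAt σ q →
              LinearMap.charpoly (ρ.ρ σ) = Polynomial.X ^ 2 - Polynomial.C ((q : O'') + 1) * Polynomial.X + Polynomial.C ((q : O'')) ∨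
              LinearMap.charpoly (ρ.ρ σ) = Polynomial.X ^ 2 + Polynomial.C ((q : O'') + 1) * Polynomial.X + Polynomial.C ((q : O''))) :=
  result_of_cubic hfin hsm hgeq hunr hes hlat (newPartFrob3_of_qNew hQ) hX
    hg lam S O' hlamO' chig hchig iota hlamS hMS

end Fermat.Agent.S35.H891

end
-- ===== PACK-END S35/H891/Bridge3.lean

-- ===== PACK-BEGIN S29/H942/K3Fin.lean
section





/-!
# S29 / M4b / K3 : the sub-piece `K3-FIN` (helper942)

`finStatement N p : K3.FinStatement N p` — for a twisted function `U` of a parabolic character, the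
`Aut(ℂ/ℚ̄)`-orbit of the class of `f = qexp (U ^ p)` in `F_ℂˣ / (F_ℂˣ) ^ p` is finite.

Assembly of helper42's decomposition (`coord/S29-K3.md`):
* (F1) DICT-hard over `ℂ`          : landed `H282.dvd_ord_of_isTwisted_complex`;
* (F2) transport along `σ`         : `dvd_ord_smul` (Prelude `SemilinearAut.ord_smul`);
* pole clearing                    : `K3.exists_div_goodQ`;
* (F4) DICT-easy + ROOT            : landed `H282.exists_pow_eq_of_forall_dvd_ord`;
* (F5) character of the root       : `H942.exists_kummerChar`;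
* (F6) finitely many characters    : `finite_monoidHom_of_fg`, `fg_Gamma0`;
* (F7) same character ⟹ same class : `exists_pow_mul_eq_of_sameChar`;
* (F8) one representative per character.
-/

set_option autoImplicit false

noncomputable section

open ModularCurve AlgebraicCurve CongruenceSubgroup UpperHalfPlane
open scoped MatrixGroups Manifold

namespace Fermat.Agent.S29.H942

open Fermat.Agent.S24 Fermat.Agent.S24.H648 Fermat.Agent.S24.H708 Fermat.Agent.S24.Deg457
open Fermat.Agent.S29 Fermat.Agent.S29.M4b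

/-! ### (F6) finitely many characters -/

/-- A finitely generated group has finitely many homomorphisms to a finite group. -/
theorem finite_monoidHom_of_fg (G H : Type*) [Group G] [Group.FG G] [Group H] [Finite H] :
    Finite (G →* H) := by
  obtain ⟨S, hS, hSfin⟩ := Group.fg_iff.mp (inferInstance : Group.FG G)
  haveI : Finite S := Set.finite_coe_iff.mpr hSfin
  refine Finite.of_injective (fun (χ : G →* H) (s : S) => χ (s : G)) ?_
  intro χ χ' h
  refine MonoidHom.eq_of_eqOn_dense hS fun s hs => ?_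
  exact congrFun h ⟨s, hs⟩

/-- `Γ₀(N)` is finitely generated. -/
theorem fg_Gamma0 (N : ℕ) [NeZero N] : Group.FG (Gamma0 N) := by
  haveI : Group.FG SL(2, ℤ) :=
    Group.fg_iff.mpr ⟨{ModularGroup.S, ModularGroup.T}, _root_.SpecialLinearGroup.SL2Z_generators,
      Set.toFinite _⟩
  infer_instance

/-! ### (F2) transport of divisibility along a semilinear automorphism -/

/-- If `m ∣ ord_w f` at every place, the same holds for `g • f`. -/
theorem dvd_ord_smul {K F : Type*} [Field K] [Field F] [Algebra K F] (g : SemilinearAut K F)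
    (f : F) (m : ℤ) (h : ∀ w : Place K F, m ∣ w.ord f) (w : Place K F) : m ∣ w.ord (g • f) := by
  have h1 := SemilinearAut.ord_smul g (g⁻¹ • w) f
  rw [smul_inv_smul] at h1
  rw [h1]
  exact h _

/-- An automorphism of `ℂ` as a `ℚ`-algebra automorphism. -/
def autQ (σ : ℂ ≃+* ℂ) : ℂ ≃ₐ[ℚ] ℂ :=
  AlgEquiv.ofRingEquiv (f := σ) (fun r => by simp)

theorem autQ_apply (σ : ℂ ≃+* ℂ) (z : ℂ) : autQ σ z = σ z := rfl

/-! ### (F7) same character ⟹ same class, for arbitrary characters -/

/-- If `V`, `V'` are holomorphic with good `p`-th powers and transform under `Γ₀(N)` by the same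
`p`-torsion multiplier system `ζ`, then `qexp (V ^ p) = g ^ p * qexp (V' ^ p)` with `g ∈ F_ℂ`. -/
theorem exists_pow_mul_eq_of_sameChar (N : ℕ) [NeZero N] {p : ℕ} (hp : p ≠ 0) {V V' : ℍ → ℂ}
    (hV : MDifferentiable 𝓘(ℂ) 𝓘(ℂ) V) (hV' : MDifferentiable 𝓘(ℂ) 𝓘(ℂ) V') (hV'0 : V' ≠ 0)
    (hVp : (fun τ => V τ ^ p) ∈ goodRing N) (hV'p : (fun τ => V' τ ^ p) ∈ goodRing N)
    (ζ : Gamma0 N → ℂ) (hζ : ∀ γ, ζ γ ^ p = 1)
    (h1 : ∀ (γ : Gamma0 N) (τ : ℍ), V ((γ : SL(2, ℤ)) • τ) = ζ γ * V τ)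
    (h2 : ∀ (γ : Gamma0 N) (τ : ℍ), V' ((γ : SL(2, ℤ)) • τ) = ζ γ * V' τ) :
    ∃ g : LaurentSeries ℂ, g ∈ H882.FC N ∧
      qexpFun 1 (fun τ => V τ ^ p) = g ^ p * qexpFun 1 (fun τ => V' τ ^ p) := by
  have hp1 : p - 1 + 1 = p := Nat.sub_add_cancel (Nat.one_le_iff_ne_zero.mpr hp)
  set W : ℍ → ℂ := fun τ => V τ * V' τ ^ (p - 1) with hWdef
  have hfun : W ^ p = (fun τ => V τ ^ p) * (fun τ => V' τ ^ p) ^ (p - 1) := by
    funext τ
    simp only [hWdef, Pi.mul_apply, Pi.pow_apply]
    rw [mul_pow, ← pow_mul, ← pow_mul, mul_comm (p - 1) p]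
  have hW : W ∈ goodRing N := by
    refine mem_goodRing_of_pow_mem N hp (hV.mul (hV'.pow (p - 1))) (fun γ hγ τ => ?_) ?_
    · show V (γ • τ) * V' (γ • τ) ^ (p - 1) = V τ * V' τ ^ (p - 1)
      have e1 := h1 ⟨γ, hγ⟩ τ
      have e2 := h2 ⟨γ, hγ⟩ τ
      simp only at e1 e2
      rw [e1, e2, mul_pow]
      have hz : ζ ⟨γ, hγ⟩ * ζ ⟨γ, hγ⟩ ^ (p - 1) = 1 := by
        rw [← pow_succ', hp1, hζ]
      calc ζ ⟨γ, hγ⟩ * V τ * (ζ ⟨γ, hγ⟩ ^ (p - 1) * V' τ ^ (p - 1))
          = (ζ ⟨γ, hγ⟩ * ζ ⟨γ, hγ⟩ ^ (p - 1)) * (V τ * V' τ ^ (p - 1)) := by ring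
        _ = V τ * V' τ ^ (p - 1) := by rw [hz, one_mul]
    · have : (fun τ => W τ ^ p) = W ^ p := rfl
      rw [this, hfun]
      exact (goodRing N).mul_mem hVp ((goodRing N).pow_mem hV'p _)
  have hWm := H882.isMerInf_of_mem_goodRing hW
  have hVm := H882.isMerInf_of_mem_goodRing hVp
  have hV'm := H882.isMerInf_of_mem_goodRing hV'p
  set w := qexpFun 1 W with hw
  set a := qexpFun 1 (fun τ => V τ ^ p) with ha
  set b := qexpFun 1 (fun τ => V' τ ^ p) with hb
  have hwFC : w ∈ H882.FC N := H882.qexpFun_mem_FC hW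
  have hbFC : b ∈ H882.FC N := H882.qexpFun_mem_FC hV'p
  have hb0 : b ≠ 0 := by
    intro h0
    have h3 := (qexpFun_eq_zero_iff hV'm).mp h0
    apply hV'0
    funext τ
    exact pow_eq_zero_iff hp |>.mp (congrFun h3 τ)
  have hwp : w ^ p = a * b ^ (p - 1) := by
    rw [hw, ← qexpFun_pow' hWm p, hfun, qexpFun_mul hVm (hV'm.pow (p - 1)),
      qexpFun_pow' hV'm (p - 1)]
  refine ⟨w * b⁻¹, mul_mem hwFC (inv_mem hbFC), ?_⟩
  rw [mul_pow, hwp, inv_pow]
  have hbp : b ^ p = b ^ (p - 1) * b := by rw [← pow_succ, hp1]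
  rw [hbp, mul_inv]
  field_simp

/-! ### The class of `σ f` -/

section Fin

variable (N : ℕ) [NeZero N] (p : ℕ) [NeZero p]

/-- `x : F_ℂ` has the Kummer character `χ`: after clearing poles by a `p`-th power, `x` is the
`q`-expansion of the `p`-th power of a holomorphic function of character `χ`. -/
def HasKummerChar (x : LaurentSeries ℂ) (χ : Gamma0 N →* rootsOfUnity p ℂ) : Prop :=
  ∃ s ∈ H882.FC N, s ≠ 0 ∧ ∃ V : ℍ → ℂ, MDifferentiable 𝓘(ℂ) 𝓘(ℂ) V ∧ V ≠ 0 ∧
    (fun τ => V τ ^ p) ∈ goodRing N ∧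
    (∀ (γ : Gamma0 N) (τ : ℍ), V ((γ : SL(2, ℤ)) • τ) = (((χ γ : rootsOfUnity p ℂ) : ℂˣ) : ℂ) * V τ) ∧
    qexpFun 1 (fun τ => V τ ^ p) = x * s ^ p

/-- (F7)+(F8) two elements with the same Kummer character differ by a `p`-th power. -/
theorem exists_eq_mul_pow_of_hasKummerChar {x x' : LaurentSeries ℂ}
    {χ : Gamma0 N →* rootsOfUnity p ℂ} (hx : HasKummerChar N p x χ)
    (hx' : HasKummerChar N p x' χ) :
    ∃ u ∈ H882.FC N, u ≠ 0 ∧ x = x' * u ^ p := by
  have hp : p ≠ 0 := NeZero.ne p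
  obtain ⟨s, hs, hs0, V, hV, hV0, hVp, hVχ, hq⟩ := hx
  obtain ⟨s', hs', hs'0, V', hV', hV'0, hV'p, hV'χ, hq'⟩ := hx'
  obtain ⟨g, hg, hgeq⟩ := exists_pow_mul_eq_of_sameChar N hp hV hV' hV'0 hVp hV'p
    (fun γ => (((χ γ : rootsOfUnity p ℂ) : ℂˣ) : ℂ))
    (fun γ => by
      have h := (χ γ).2
      rw [mem_rootsOfUnity] at h
      have h2 := congrArg (fun z : ℂˣ => (z : ℂ)) h
      simpa using h2)
    hVχ hV'χ
  have hqne : qexpFun 1 (fun τ => V τ ^ p) ≠ 0 := by
    intro h0
    have h3 := (qexpFun_eq_zero_iff (H882.isMerInf_of_mem_goodRing hVp)).mp h0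
    apply hV0
    funext τ
    exact pow_eq_zero_iff hp |>.mp (congrFun h3 τ)
  have hg0 : g ≠ 0 := by
    intro h0
    rw [h0, zero_pow hp, zero_mul] at hgeq
    exact hqne hgeq
  refine ⟨g * s' * s⁻¹, mul_mem (mul_mem hg hs') (inv_mem hs),
    mul_ne_zero (mul_ne_zero hg0 hs'0) (inv_ne_zero hs0), ?_⟩
  rw [hq, hq'] at hgeq
  have hsp : s ^ p ≠ 0 := pow_ne_zero _ hs0
  rw [mul_pow, mul_pow, inv_pow]
  field_simp
  rw [hgeq]
  ring

/-- (F1)–(F5): every element of `F_ℂ`, nonzero, all of whose orders at the places of `F_ℂ/ℂ` are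
divisible by `p`, has a Kummer character. -/
theorem exists_hasKummerChar {x : LaurentSeries ℂ} (hx : x ∈ H882.FC N) (hx0 : x ≠ 0)
    (hdvd : ∀ w : Place ℂ ↥(laurentBaseChange ℂ (modularFunctionFieldFull N)),
      (p : ℤ) ∣ w.ord ⟨x, hx⟩) :
    ∃ χ : Gamma0 N →* rootsOfUnity p ℂ, HasKummerChar N p x χ := by
  have hp : p ≠ 0 := NeZero.ne p
  have hp1 : p - 1 + 1 = p := Nat.sub_add_cancel (Nat.one_le_iff_ne_zero.mpr hp)
  -- pole clearing
  obtain ⟨a, ha, b, hb, hb0, hab⟩ := K3.exists_div_goodQ (N := N) hx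
  obtain ⟨A, hA, hqA⟩ := ha
  obtain ⟨B, hB, hqB⟩ := hb
  have ha0 : a ≠ 0 := by
    intro h0
    rw [h0, zero_div] at hab
    exact hx0 hab
  set G : ℍ → ℂ := A * B ^ (p - 1) with hGdef
  have hG : G ∈ goodRing N := (goodRing N).mul_mem hA ((goodRing N).pow_mem hB _)
  have hqG : HasQExp 1 G (a * b ^ (p - 1)) := hqA.mul (hqB.pow _)
  have hxb : a * b ^ (p - 1) = x * b ^ p := by
    rw [hab]
    have hbp : b ^ p = b ^ (p - 1) * b := by rw [← pow_succ, hp1]
    rw [hbp]
    field_simp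
  have hG0 : G ≠ 0 := by
    intro h0
    have := hqG.eq_zero_iff.mpr h0
    exact mul_ne_zero ha0 (pow_ne_zero _ hb0) this
  have hbFC : b ∈ H882.FC N := H882.mem_FC_of_mem_goodQ ⟨B, hB, hqB⟩
  have hqGeq : qexpFun 1 G = x * b ^ p := by rw [hqG.qexpFun_eq, hxb]
  have hGFC : qexpFun 1 G ∈ laurentBaseChange ℂ (modularFunctionFieldFull N) :=
    H882.qexpFun_mem_FC hG
  -- divisibility for `qexp G`
  have hdvdG : ∀ w : Place ℂ ↥(laurentBaseChange ℂ (modularFunctionFieldFull N)),
      (p : ℤ) ∣ w.ord ⟨qexpFun 1 G, hGFC⟩ := by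
    intro w
    have he : (⟨qexpFun 1 G, hGFC⟩ : ↥(laurentBaseChange ℂ (modularFunctionFieldFull N)))
        = ⟨x, hx⟩ * ⟨b, hbFC⟩ ^ (p : ℤ) := by
      apply Subtype.ext
      rw [zpow_natCast]
      exact hqGeq
    have hx0' : (⟨x, hx⟩ : ↥(laurentBaseChange ℂ (modularFunctionFieldFull N))) ≠ 0 := by
      intro h0
      exact hx0 (congrArg Subtype.val h0)
    have hb0' : (⟨b, hbFC⟩ : ↥(laurentBaseChange ℂ (modularFunctionFieldFull N))) ≠ 0 := by
      intro h0
      exact hb0 (congrArg Subtype.val h0)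
    rw [he, Place.ord_mul w hx0' (zpow_ne_zero _ hb0'), Place.ord_zpow]
    exact dvd_add (hdvd w) (dvd_mul_right _ _)
  -- ROOT
  obtain ⟨V, hV, hVG⟩ := H282.exists_pow_eq_of_forall_dvd_ord hG hG0 hGFC hp hdvdG
  have hVfun : (fun τ => V τ ^ p) = G := funext hVG
  have hV0 : V ≠ 0 := by
    intro h0
    apply hG0
    rw [← hVfun, h0]
    funext τ
    simp [hp]
  -- character
  obtain ⟨κ, hκ, hκV⟩ := exists_kummerChar (Gamma0 N) hV hV0 hp (fun γ hγ z => by
    rw [hVG, hVG]
    exact hG.2.1 γ hγ z)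
  refine ⟨MonoidHom.codRestrict κ (rootsOfUnity p ℂ) (fun γ => by
      rw [mem_rootsOfUnity]
      exact hκ γ), b, hbFC, hb0, V, hV, hV0, ?_, ?_, ?_⟩
  · rw [hVfun]
    exact hG
  · intro γ τ
    exact hκV γ τ
  · rw [hVfun]
    exact hqGeq

/-- **Sub-piece `K3-FIN`** of helper42's K3 sub-skeleton. -/
theorem finStatement : K3.FinStatement N p := by
  letI : Algebra Kbar ℂ := K3.algKC
  intro c hc U hU
  classical
  set f := qexpFun 1 (fun τ => U τ ^ p) with hf
  have hfFC : f ∈ laurentBaseChange ℂ (modularFunctionFieldFull N) :=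
    H882.qexpFun_mem_FC hU.pow_mem
  have hf0 : f ≠ 0 := qexpFun_pow_ne_zero_of_isTwisted N p hU
  have hF1 : ∀ w : Place ℂ ↥(laurentBaseChange ℂ (modularFunctionFieldFull N)),
      (p : ℤ) ∣ w.ord ⟨f, hfFC⟩ :=
    fun w => H282.dvd_ord_of_isTwisted_complex hc hU hfFC w
  haveI := fg_Gamma0 N
  haveI : Finite (Gamma0 N →* rootsOfUnity p ℂ) := finite_monoidHom_of_fg _ _
  -- every `σ f` has a Kummer character
  have hex : ∀ σ : ℂ ≃ₐ[Kbar] ℂ,
      ∃ χ : Gamma0 N →* rootsOfUnity p ℂ, HasKummerChar N p (coeffMap (σ : ℂ →+* ℂ) f) χ := by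
    intro σ
    set g := arithmeticGalois (modularFunctionFieldFull N) (autQ σ.toRingEquiv) with hg
    have hcoe : ((g • (⟨f, hfFC⟩ : ↥(laurentBaseChange ℂ (modularFunctionFieldFull N))) :
        ↥(laurentBaseChange ℂ (modularFunctionFieldFull N))) : LaurentSeries ℂ)
        = coeffMap (σ : ℂ →+* ℂ) f := by
      rw [hg, coe_arithmeticGalois_smul]
      exact coeffMap_congr (RingHom.ext fun _ => rfl) _
    have hmem : coeffMap (σ : ℂ →+* ℂ) f ∈ laurentBaseChange ℂ (modularFunctionFieldFull N) := by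
      rw [← hcoe]
      exact Subtype.property _
    have hne : coeffMap (σ : ℂ →+* ℂ) f ≠ 0 := by
      intro h0
      apply hf0
      have hinj : Function.Injective (coeffMap (σ : ℂ →+* ℂ)) := RingHom.injective _
      exact hinj (by rw [h0, map_zero])
    refine exists_hasKummerChar N p hmem hne fun w => ?_
    have h2 := dvd_ord_smul g ⟨f, hfFC⟩ (p : ℤ) hF1 w
    have he : (⟨coeffMap (σ : ℂ →+* ℂ) f, hmem⟩ :
        ↥(laurentBaseChange ℂ (modularFunctionFieldFull N))) = g • ⟨f, hfFC⟩ :=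
      Subtype.ext hcoe.symm
    rw [he]
    exact h2
  -- one representative per character
  let t : (Gamma0 N →* rootsOfUnity p ℂ) → LaurentSeries ℂ := fun χ =>
    if h : ∃ σ : ℂ ≃ₐ[Kbar] ℂ, HasKummerChar N p (coeffMap (σ : ℂ →+* ℂ) f) χ then
      coeffMap ((h.choose : ℂ ≃ₐ[Kbar] ℂ) : ℂ →+* ℂ) f
    else 0
  refine ⟨Set.range t, Set.finite_range t, fun σ => ?_⟩
  obtain ⟨χ, hχ⟩ := hex σ
  have h : ∃ σ : ℂ ≃ₐ[Kbar] ℂ, HasKummerChar N p (coeffMap (σ : ℂ →+* ℂ) f) χ := ⟨σ, hχ⟩
  have ht : t χ = coeffMap ((h.choose : ℂ ≃ₐ[Kbar] ℂ) : ℂ →+* ℂ) f := dif_pos h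
  refine ⟨t χ, ⟨χ, rfl⟩, ?_⟩
  rw [ht]
  exact exists_eq_mul_pow_of_hasKummerChar N p hχ h.choose_spec

end Fin

end Fermat.Agent.S29.H942

end
end
-- ===== PACK-END S29/H942/K3Fin.lean

-- ===== PACK-BEGIN S35/H909/BridgeG.lean
section




/-!
# S35 — bridge between the two cubic interfaces (helper909)

`qNewFrob_of_newPartFrobExplicit : G.NewPartFrobExplicit → H891.QNewFrobStatement`

* `G.NewPartFrobExplicit` (helper450, `S35/G/Spec.lean`) is what the assembly
  `G.newPartFrobExplicit_of_parts` produces from the leaves of piece (G');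
* `H891.QNewFrobStatement` (helper891, `S35/H891/Spec.lean`) is what the top glue of helper991
  consumes.

Both say `(s² - 1)² (s² - q²) x = 0` for `q`-new `x ∈ J₀(M q)[m]`; the first with
`degA x = degB x = 0` (`pic0PushTotal`), the second with `IsQNew` (push-forwards principal) and the
cubic written out.  Also: `pushInputs_heckeAlphaBar`, `pushInputs_heckeBetaBar` (the first two
clauses of `G.DegStatement`, unconditionally, from `S29/H812`), and the converse translation
`isQNew_of_deg` / `newPartFrobAt_of_qNew`.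
-/

set_option autoImplicit false

noncomputable section

namespace Fermat.Agent.S35.H909

open AlgebraicCurve ModularCurve

/-- The inputs of `pic0Push` for `α`. -/
theorem pushInputs_heckeAlphaBar (M q : ℕ) [NeZero M] [NeZero q] :
    G.PushInputs (heckeAlphaBar G.Qb M q) := by
  haveI : NeZero (M * q) := ⟨Nat.mul_ne_zero (NeZero.ne M) (NeZero.ne q)⟩
  haveI hPD : HasPrincipalDivisors G.Qb (modularFunctionFieldBar (M * q)) :=
    Fermat.Agent.Lib.RR.H864.hasPrincipalDivisors_modularFunctionFieldBar (M * q)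
  have hF := Fermat.Agent.S29.H812.exists_coord_modular M
  have hfin := Fermat.Agent.S29.H812.finiteAlong_heckeAlphaBar M q
  exact ⟨Fermat.Agent.S29.H812.isIntegral_of_finiteAlong hfin, hfin,
    Fermat.Agent.S29.H812.normFormulaAlong hF (heckeAlphaBar G.Qb M q) hfin⟩

/-- The inputs of `pic0Push` for `β`. -/
theorem pushInputs_heckeBetaBar (M q : ℕ) [NeZero M] [NeZero q] :
    G.PushInputs (heckeBetaBar G.Qb M q) := by
  haveI : NeZero (M * q) := ⟨Nat.mul_ne_zero (NeZero.ne M) (NeZero.ne q)⟩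
  haveI hPD : HasPrincipalDivisors G.Qb (modularFunctionFieldBar (M * q)) :=
    Fermat.Agent.Lib.RR.H864.hasPrincipalDivisors_modularFunctionFieldBar (M * q)
  have hF := Fermat.Agent.S29.H812.exists_coord_modular M
  have hfin := Fermat.Agent.S29.H812.finiteAlong_heckeBetaBar M q
  exact ⟨Fermat.Agent.S29.H812.isIntegral_of_finiteAlong hfin, hfin,
    Fermat.Agent.S29.H812.normFormulaAlong hF (heckeBetaBar G.Qb M q) hfin⟩

section Push

variable {K F F' : Type*} [Field K] [Field F] [Field F'] [Algebra K F] [Algebra K F']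

/-- `pic0PushTotal φ [D] = 0` iff `φ_* D` is principal. -/
theorem pic0PushTotal_mk_eq_zero_iff (φ : F →ₐ[K] F') (hφ : φ.toRingHom.IsIntegral)
    (hfin : FiniteAlong K φ) (hN : NormFormulaAlong K φ hfin)
    (D : Divisor.degZero (K := K) (F := F')) :
    G.pic0PushTotal φ (Pic0.mk D) = 0 ↔
      (Divisor.pushforwardAlong φ hφ (D : Divisor K F')).IsPrincipal := by
  rw [G.pic0PushTotal_eq φ hφ hfin hN, G.pic0Push_mk]
  constructor
  · intro h
    have h1 := (QuotientAddGroup.eq_zero_iff (G.degZeroPush φ hφ D)).1 h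
    rw [AddSubgroup.mem_addSubgroupOf] at h1
    exact h1
  · intro h
    refine (QuotientAddGroup.eq_zero_iff (G.degZeroPush φ hφ D)).2 ?_
    rw [AddSubgroup.mem_addSubgroupOf]
    exact h

end Push

/-- The cubic, written out, from `frobPolyAdd`. -/
theorem cubic_of_frobPolyAdd {X : Type*} [AddCommGroup X]
    [DistribMulAction (G.Qb ≃ₐ[ℚ] G.Qb) X] (s : G.Qb ≃ₐ[ℚ] G.Qb) (Q : ℕ) (x : X)
    (h : G.frobPolyAdd (s * s) Q x = 0) :
    s • s • s • s • s • s • x + (1 + 2 * Q) • (s • s • x) =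
      (2 + Q) • (s • s • s • s • x) + Q • x := by
  unfold G.frobPolyAdd at h
  simp only [mul_smul, smul_sub] at h
  have e1 : (1 + 2 * Q) • (s • s • x) = s • s • x + Q • (s • s • x) + Q • (s • s • x) := by
    rw [add_smul, one_smul, two_mul, add_smul, add_assoc]
  have e2 : (2 + Q) • (s • s • s • s • x) =
      s • s • s • s • x + s • s • s • s • x + Q • (s • s • s • s • x) := by
    rw [add_smul, two_smul]
  rw [e1, e2]
  rw [sub_eq_zero] at h
  have h' := h
  -- `h : A - B - (B - C) = Q•B - Q•C - (Q•C - Q•x)`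
  have key : ∀ A B C QB QC Qx : X, A - B - (B - C) = QB - QC - (QC - Qx) →
      A + (C + QC + QC) = B + B + QB + Qx := by
    intro A B C QB QC Qx hh
    have h2 : A = QB - QC - (QC - Qx) + (B - C) + B := by
      rw [← hh]; abel
    rw [h2]; abel
  exact key _ _ _ _ _ _ h'

/-- The converse rewriting. -/
theorem frobPolyAdd_of_cubic {X : Type*} [AddCommGroup X]
    [DistribMulAction (G.Qb ≃ₐ[ℚ] G.Qb) X] (s : G.Qb ≃ₐ[ℚ] G.Qb) (Q : ℕ) (x : X)
    (h : s • s • s • s • s • s • x + (1 + 2 * Q) • (s • s • x) =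
      (2 + Q) • (s • s • s • s • x) + Q • x) :
    G.frobPolyAdd (s * s) Q x = 0 := by
  unfold G.frobPolyAdd
  simp only [mul_smul, smul_sub]
  have e1 : (1 + 2 * Q) • (s • s • x) = s • s • x + Q • (s • s • x) + Q • (s • s • x) := by
    rw [add_smul, one_smul, two_mul, add_smul, add_assoc]
  have e2 : (2 + Q) • (s • s • s • s • x) =
      s • s • s • s • x + s • s • s • s • x + Q • (s • s • s • s • x) := by
    rw [add_smul, two_smul]
  rw [e1, e2] at h
  have key : ∀ A B C QB QC Qx : X, A + (C + QC + QC) = B + B + QB + Qx →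
      A - B - (B - C) - (QB - QC - (QC - Qx)) = 0 := by
    intro A B C QB QC Qx hh
    have h2 : A = B + B + QB + Qx - (C + QC + QC) := by
      rw [← hh]; abel
    rw [h2]; abel
  exact key _ _ _ _ _ _ h

/-- `IsQNew x` gives `degA x = 0` and `degB x = 0`. -/
theorem deg_eq_zero_of_isQNew (M q : ℕ) [NeZero M] [NeZero q] (x : JZero (M * q))
    (hx : H891.IsQNew M q x) : G.degA M q x = 0 ∧ G.degB M q x = 0 := by
  obtain ⟨hα, hβ, D, rfl, hA, hB⟩ := hx
  obtain ⟨_, hfinα, hNα⟩ := pushInputs_heckeAlphaBar M q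
  obtain ⟨_, hfinβ, hNβ⟩ := pushInputs_heckeBetaBar M q
  exact ⟨(pic0PushTotal_mk_eq_zero_iff _ hα hfinα hNα D).2 hA,
    (pic0PushTotal_mk_eq_zero_iff _ hβ hfinβ hNβ D).2 hB⟩

/-- `degA x = 0` and `degB x = 0` give `IsQNew x`. -/
theorem isQNew_of_deg (M q : ℕ) [NeZero M] [NeZero q] (x : JZero (M * q))
    (ha : G.degA M q x = 0) (hb : G.degB M q x = 0) : H891.IsQNew M q x := by
  obtain ⟨hα, hfinα, hNα⟩ := pushInputs_heckeAlphaBar M q
  obtain ⟨hβ, hfinβ, hNβ⟩ := pushInputs_heckeBetaBar M q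
  obtain ⟨D, rfl⟩ := QuotientAddGroup.mk_surjective x
  exact ⟨hα, hβ, D, rfl, (pic0PushTotal_mk_eq_zero_iff _ hα hfinα hNα D).1 ha,
    (pic0PushTotal_mk_eq_zero_iff _ hβ hfinβ hNβ D).1 hb⟩

/-- **Bridge (G') → QNF.**  The output of the assembly of piece (G') is the input of the top
glue. -/
theorem qNewFrob_of_newPartFrobExplicit (h : G.NewPartFrobExplicit) : H891.QNewFrobStatement := by
  intro M' q m _ _ hq hqM hm hqm P hP s hs x hx hnew
  obtain ⟨ha, hb⟩ := deg_eq_zero_of_isQNew M' q x hnew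
  exact cubic_of_frobPolyAdd s (q ^ 2) x (h M' q m hq hqM hm hqm P hP s hs x hx ha hb)

/-- **Bridge QNF → (G').** -/
theorem newPartFrobExplicit_of_qNewFrob (h : H891.QNewFrobStatement) : G.NewPartFrobExplicit := by
  intro M q m _ _ hq hqM hm hqm A hA s hs x hx ha hb
  exact frobPolyAdd_of_cubic s (q ^ 2) x
    (h M q m hq hqM hm hqm A hA s hs x hx (isQNew_of_deg M q x ha hb))

end Fermat.Agent.S35.H909

end
end
-- ===== PACK-END S35/H909/BridgeG.lean

-- ===== PACK-BEGIN S37/H155/Pull.lean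
section
/-
S37 / [PULL] (helper155), modular part: the interface `Core.PullData N (N * a) ℓ`.

For primes `a ≠ ℓ` with `a ∤ N` and `a + 1` a power of `ℓ` (e.g. `(ℓ, a) = (3, 2)` or `(2, 3)`)
the pullback `π^* : J₀(N) → J₀(N a)` along the degeneracy map `X₀(N a) → X₀(N)`
(`= heckeAlphaBar ℚ̄ N a` on function fields) is Galois equivariant, injective on torsion prime
to `ℓ` and commutes with `T_ℓ`.
-/









set_option autoImplicit false
set_option linter.style.haveILetI false
set_option linter.unusedSectionVars false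

noncomputable section

namespace Fermat.Agent.S37.H155

open ModularCurve AlgebraicCurve IntermediateField Fermat.Agent.S37.H818
open Fermat.Agent.S24 Fermat.Agent.Lib.FF398 Fermat.Agent.Lib.X0Deg

/-! ### Spanning in a simple extension -/

section Span

variable {K E : Type*} [Field K] [Field E] [Algebra K E]

/-- If `D = C(x)` with `x ∈ B` integral over `C`, then the image of `B` spans `D` over `C`. -/
theorem mem_span_range_inclusion {B C D : IntermediateField K E} (hBD : B ≤ D) (hCD : C ≤ D)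
    (x : E) (hxB : x ∈ B) (hx : IsIntegral C x)
    (hD : ∀ d ∈ D, d ∈ IntermediateField.adjoin C {x}) (g : D) :
    g ∈ (letI := algebraAlong (IntermediateField.inclusion hCD);
      Submodule.span C (Set.range (IntermediateField.inclusion hBD))) := by
  letI := algebraAlong (IntermediateField.inclusion hCD)
  have h1 : (g : E) ∈ (IntermediateField.adjoin C {x}).toSubalgebra := hD g g.2
  rw [IntermediateField.adjoin_simple_toSubalgebra_of_isAlgebraic hx.isAlgebraic,
    Algebra.adjoin_singleton_eq_range_aeval] at h1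
  obtain ⟨p, hp⟩ := h1
  have hp' : (g : E) = ∑ k ∈ Finset.range (p.natDegree + 1), ((p.coeff k : C) : E) * x ^ k := by
    rw [← hp]
    show Polynomial.aeval x p = _
    rw [Polynomial.aeval_eq_sum_range]
    refine Finset.sum_congr rfl fun k _ => ?_
    rw [Algebra.smul_def]
    rfl
  have hg : g = ∑ k ∈ Finset.range (p.natDegree + 1),
      (p.coeff k : C) • IntermediateField.inclusion hBD ⟨x ^ k, pow_mem hxB k⟩ := by
    apply Subtype.ext
    rw [hp']
    have hval : ∀ (s : Finset ℕ) (f : ℕ → D), ((∑ k ∈ s, f k : D) : E) = ∑ k ∈ s, (f k : E) :=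
      fun s f => map_sum D.val f s
    rw [hval]
    refine Finset.sum_congr rfl fun k _ => ?_
    rw [Algebra.smul_def]
    rfl
  rw [hg]
  exact Submodule.sum_mem _ fun k _ =>
    Submodule.smul_mem _ _ (Submodule.subset_span ⟨_, rfl⟩)

end Span

/-! ### The modular relations at all primes -/

open Classical in
/-- A choice of modular polynomials at all primes. -/
def phiAll (r : ℕ) : Polynomial (Polynomial ℤ) :=
  if h : r.Prime then
    haveI : NeZero r := ⟨h.ne_zero⟩
    (Classical.choice (Fermat.Agent.S28.H807.nonempty_modPolyData r h)).Φ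
  else 0

theorem phiRel_phiAll (k : Type*) [Field k] (r : ℕ) (hr : r.Prime) :
    Fermat.Agent.S28.H988.PhiRel k r (phiAll r) := by
  haveI : NeZero r := ⟨hr.ne_zero⟩
  rw [phiAll, dif_pos hr]
  exact Fermat.Agent.S28.H988.phiRel_of_modPolyData k r _

/-! ### Generation: `F̄_{Mℓ} = F̄_M(j(q^{ℓ^e}))` -/

section Gen

open Fermat.Agent.S28.H988

variable (M ℓ : ℕ)

theorem mem_adjoin_topGen (hM : M ≠ 0) (hℓ : ℓ.Prime)
    (C : IntermediateField Kbar (LaurentSeries Kbar))
    (hC : C = modularFunctionFieldFullC Kbar M)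
    (d : LaurentSeries Kbar) (hd : d ∈ modularFunctionFieldBar (M * ℓ)) :
    d ∈ IntermediateField.adjoin C {topGen Kbar M ℓ} := by
  subst hC
  rw [modularFunctionFieldBar_eq_fullC,
    full_mul_eq phiAll hM hℓ (fun r hr _ => phiRel_phiAll Kbar r hr),
    IntermediateField.mem_restrictScalars] at hd
  exact hd

theorem isIntegral_topGen (hM : M ≠ 0) (hℓ : ℓ.Prime)
    (C : IntermediateField Kbar (LaurentSeries Kbar))
    (hC : C = modularFunctionFieldFullC Kbar M) :
    IsIntegral C (topGen Kbar M ℓ) := by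
  subst hC
  obtain ⟨Q, hQm, -, hQr⟩ :=
    exists_monic_root_topGen (phiAll ℓ) hM hℓ (phiRel_phiAll Kbar ℓ hℓ)
  exact ⟨Q, hQm, by rwa [← Polynomial.aeval_def]⟩

theorem topGen_mem_bar (N a : ℕ) (hN : N ≠ 0) (ha : a ≠ 0) (hℓ : ℓ.Prime) (hℓa : ¬ ℓ ∣ a) :
    topGen Kbar (N * a) ℓ ∈ modularFunctionFieldBar (N * ℓ) := by
  rw [modularFunctionFieldBar_eq_fullC]
  have hNℓ : N * ℓ ≠ 0 := Nat.mul_ne_zero hN hℓ.ne_zero
  refine jd_mem_full Kbar hNℓ ?_
  rw [pow_dvd_mul_iff hN hℓ, topExp, topExp, Nat.factorization_mul hN ha]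
  simp only [Finsupp.coe_add, Pi.add_apply]
  rw [Nat.factorization_eq_zero_of_not_dvd hℓa]

end Gen

/-! ### The square -/

section Square

variable (N a ℓ : ℕ) [NeZero N] [NeZero a] [NeZero ℓ]

theorem le_top_level : modularFunctionFieldBar (N * ℓ) ≤ modularFunctionFieldBar (N * a * ℓ) :=
  modularFunctionFieldBar_mono ⟨a, by ring⟩

/-- The inclusion `F̄_{Nℓ} ⊆ F̄_{Naℓ}`. -/
def iTop : modularFunctionFieldBar (N * ℓ) →ₐ[Kbar] modularFunctionFieldBar (N * a * ℓ) :=
  IntermediateField.inclusion (le_top_level N a ℓ)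

theorem coe_iTop (x : modularFunctionFieldBar (N * ℓ)) :
    ((iTop N a ℓ x : modularFunctionFieldBar (N * a * ℓ)) : LaurentSeries Kbar)
      = (x : LaurentSeries Kbar) :=
  IntermediateField.coe_inclusion _ x

theorem sq_alpha : (iTop N a ℓ).comp (heckeAlphaBar Kbar N ℓ)
    = (heckeAlphaBar Kbar (N * a) ℓ).comp (heckeAlphaBar Kbar N a) := by
  apply AlgHom.ext
  intro x
  apply Subtype.ext
  rw [AlgHom.comp_apply, AlgHom.comp_apply, coe_iTop, coe_heckeAlphaBar, coe_heckeAlphaBar,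
    coe_heckeAlphaBar]

theorem sq_beta : (iTop N a ℓ).comp (heckeBetaBar Kbar N ℓ)
    = (heckeBetaBar Kbar (N * a) ℓ).comp (heckeAlphaBar Kbar N a) := by
  apply AlgHom.ext
  intro x
  apply Subtype.ext
  rw [AlgHom.comp_apply, AlgHom.comp_apply, coe_iTop, coe_heckeBetaBar, coe_heckeBetaBar,
    coe_heckeAlphaBar]

theorem iTop_isIntegral : (iTop N a ℓ).toRingHom.IsIntegral := by
  have hfin : FiniteAlong Kbar (iTop N a ℓ) :=
    finiteAlong_of_functionField _ (jF (N * ℓ)) (transcendental_jF (N * ℓ)) (jF (N * a * ℓ))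
      (transcendental_jF (N * a * ℓ))
  letI := algebraAlong (iTop N a ℓ)
  haveI : Module.Finite (FF (N * ℓ)) (FF (N * a * ℓ)) := hfin
  exact fun x => Algebra.IsIntegral.isIntegral (R := FF (N * ℓ)) x

theorem sumRamificationInertiaAlong_alpha :
    SumRamificationInertiaAlong (heckeAlphaBar Kbar N a) (heckeAlphaBarIntegral N a) := by
  letI := algebraAlong (heckeAlphaBar Kbar N a)
  haveI := isScalarTower_along (heckeAlphaBar Kbar N a)
  haveI : Module.Finite (FF N) (FF (N * a)) := finiteAlong_alpha N a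
  haveI : CharZero (FF N) :=
    charZero_of_injective_algebraMap (algebraMap Kbar (FF N)).injective
  exact sumRamificationInertia (K := Kbar) (F := FF N) (F' := FF (N * a)) (deg_eq_one_FF (N * a))

theorem normCompat_square (hℓ : ℓ.Prime) (ha : a.Prime) (hne : a ≠ ℓ) :
    NormCompat (heckeAlphaBar Kbar N ℓ) (heckeAlphaBar Kbar N a)
      (heckeAlphaBar Kbar (N * a) ℓ) (iTop N a ℓ) := by
  refine normCompat_of_span _ _ _ _ (sq_alpha N a ℓ) (finiteAlong_alpha N ℓ)
    (finrankAlong_heckeAlphaBar_square N a ℓ ha hℓ hne) ?_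
  have hℓa : ¬ ℓ ∣ a := fun h => hne ((Nat.prime_dvd_prime_iff_eq hℓ ha).mp h).symm
  have hM : N * a ≠ 0 := NeZero.ne _
  intro g
  exact mem_span_range_inclusion (le_top_level N a ℓ) (le_mul (N * a) ℓ)
    (Fermat.Agent.S28.H988.topGen Kbar (N * a) ℓ)
    (topGen_mem_bar ℓ N a (NeZero.ne N) (NeZero.ne a) hℓ hℓa)
    (isIntegral_topGen (N * a) ℓ hM hℓ _
      (Fermat.Agent.S28.H988.modularFunctionFieldBar_eq_fullC (N * a)))
    (fun d hd => mem_adjoin_topGen (N * a) ℓ hM hℓ _
      (Fermat.Agent.S28.H988.modularFunctionFieldBar_eq_fullC (N * a)) d hd) g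

end Square

/-! ### The pull datum -/

section PullData

variable (N a ℓ : ℕ) [NeZero N] [NeZero a] [NeZero ℓ]

/-- The pullback `π^* : J₀(N) → J₀(N a)`. -/
def pullHom : JZero N →+ JZero (N * a) :=
  pullbackPic0Along (heckeAlphaBar Kbar N a) (heckeAlphaBarIntegral N a)
    (fundamentalIdentityAlong_alpha N a)

theorem pullHom_galois (σ : Kbar ≃ₐ[ℚ] Kbar) (x : JZero N) :
    pullHom N a (σ • x) = σ • pullHom N a x := by
  rw [galois_smul_pic0_def, galois_smul_pic0_def]
  exact _root_.Fermat.Agent.S37.H155.pullbackPic0Along_smul _ _ _ (Fermat.Agent.S29.H571.intertwines_heckeAlphaBar N a σ) x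

theorem pullHom_inj_torsion (ha : a.Prime) (haN : ¬ a ∣ N) (m : ℕ)
    (hcop : Nat.Coprime m (a + 1)) (x : JZero N) (hm : m • x = 0) (hx : pullHom N a x = 0) :
    x = 0 := by
  refine pullbackPic0Along_eq_zero (heckeAlphaBar Kbar N a) (heckeAlphaBarIntegral N a)
    (fundamentalIdentityAlong_alpha N a) (sumRamificationInertiaAlong_alpha N a)
    (finiteAlong_alpha N a) (normFormulaAlong_alpha N a) m ?_ x hm hx
  rw [finrankAlong_heckeAlphaBar_of_not_dvd N a ha haN]
  exact hcop

theorem pullHom_hecke (hℓ : ℓ.Prime) (ha : a.Prime) (hne : a ≠ ℓ) (x : JZero N) :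
    pullHom N a (heckeOperatorAlong Kbar N ℓ x)
      = heckeOperatorAlong Kbar (N * a) ℓ (pullHom N a x) := by
  rw [heckeOperatorAlong_eq_heckePic0Bar N ℓ, heckeOperatorAlong_eq_heckePic0Bar (N * a) ℓ]
  exact pullbackPic0Along_correspondence (heckeAlphaBar Kbar N ℓ) (heckeBetaBar Kbar N ℓ)
    (heckeAlphaBar Kbar N a) (heckeAlphaBar Kbar (N * a) ℓ) (heckeBetaBar Kbar (N * a) ℓ)
    (iTop N a ℓ) (heckeAlphaBarIntegral N ℓ) (heckeBetaBarIntegral N ℓ)
    (heckeAlphaBarIntegral N a) (heckeAlphaBarIntegral (N * a) ℓ)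
    (heckeBetaBarIntegral (N * a) ℓ) (iTop_isIntegral N a ℓ) (sq_alpha N a ℓ) (sq_beta N a ℓ)
    (fundamentalIdentityAlong_beta N ℓ) (finiteAlong_alpha N ℓ) (normFormulaAlong_alpha N ℓ)
    (fundamentalIdentityAlong_beta (N * a) ℓ) (finiteAlong_alpha (N * a) ℓ)
    (normFormulaAlong_alpha (N * a) ℓ) (fundamentalIdentityAlong_alpha N a)
    (normCompat_square N a ℓ hℓ ha hne)
    (_root_.Fermat.Agent.S37.H155.hasLocalGenerators (heckeAlphaBar Kbar N ℓ) (heckeAlphaBarIntegral N ℓ)) x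

/-- **[PULL]**: for primes `a ≠ ℓ`, `a ∤ N`, `a + 1` a power of `ℓ`. -/
def pullData (hℓ : ℓ.Prime) (ha : a.Prime) (hne : a ≠ ℓ) (haN : ¬ a ∣ N)
    (hpow : ∃ k : ℕ, a + 1 = ℓ ^ k) : Fermat.Agent.S37.Core.PullData N (N * a) ℓ where
  pull := pullHom N a
  galois := pullHom_galois N a
  inj_torsion := by
    intro m hm x hmx hx
    obtain ⟨k, hk⟩ := hpow
    refine pullHom_inj_torsion N a ha haN m ?_ x hmx hx
    rw [hk]
    exact Nat.Coprime.pow_right k ((Nat.Prime.coprime_iff_not_dvd hℓ).mpr hm).symm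
  hecke := pullHom_hecke N a ℓ hℓ ha hne

/-- `ℓ = 3`, auxiliary prime `2 ∤ N`. -/
def pullData_three (hN : ¬ 2 ∣ N) : Fermat.Agent.S37.Core.PullData N (N * 2) 3 :=
  pullData N 2 3 Nat.prime_three Nat.prime_two (by decide) hN ⟨1, by norm_num⟩

/-- `ℓ = 2`, auxiliary prime `3 ∤ N`. -/
def pullData_two (hN : ¬ 3 ∣ N) : Fermat.Agent.S37.Core.PullData N (N * 3) 2 :=
  pullData N 3 2 Nat.prime_two Nat.prime_three (by decide) hN ⟨2, by norm_num⟩

end PullData

end Fermat.Agent.S37.H155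

end

end
-- ===== PACK-END S37/H155/Pull.lean

-- ===== PACK-BEGIN A2/H155/PullTarget.lean
section
/-
A2 / PULL step at `Target` level (helper155).

`Target (N * a) q m → Target N q m` for a prime `a ∤ N` with `gcd(m, a + 1) = 1`:
the pullback `π^* : J₀(N) → J₀(N a)` (S37 piece [PULL], `S37.H155.pullHom`) is Galois equivariant
and injective on `m`-torsion.

Use: the semistable model at `q = 3` (resp. `q = 2`) needs `2 ∣ N` (resp. `3 ∣ N`); for the other
levels apply the wall at level `N * 2` (resp. `N * 3`) and descend by `target_three` / `target_two`.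
-/






set_option autoImplicit false
set_option linter.style.haveILetI false

noncomputable section

namespace Fermat.Agent.A2.H155

open ModularCurve AlgebraicCurve Fermat.Agent.A2 Fermat.Agent.S37.H155 Fermat.Agent.S37.H818
open Fermat.Agent.S24 Fermat.Agent.Lib.FF398 Fermat.Agent.Lib.X0Deg

/-- The pullback `π^* : J₀(N) → J₀(N a)` (same map as `S37.H155.pullHom`; restated here to keep
the import closure small). -/
def pullHom (N a : ℕ) [NeZero N] [NeZero a] : JZero N →+ JZero (N * a) :=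
  pullbackPic0Along (heckeAlphaBar Kbar N a) (heckeAlphaBarIntegral N a)
    (fundamentalIdentityAlong_alpha N a)

theorem pullHom_galois (N a : ℕ) [NeZero N] [NeZero a] (σ : Kbar ≃ₐ[ℚ] Kbar) (x : JZero N) :
    _root_.Fermat.Agent.A2.H155.pullHom N a (σ • x) = σ • _root_.Fermat.Agent.A2.H155.pullHom N a x := by
  rw [galois_smul_pic0_def, galois_smul_pic0_def]
  exact _root_.Fermat.Agent.S37.H155.pullbackPic0Along_smul _ _ _ (Fermat.Agent.S29.H571.intertwines_heckeAlphaBar N a σ) x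

theorem sumRamificationInertiaAlong_alpha (N a : ℕ) [NeZero N] [NeZero a] :
    SumRamificationInertiaAlong (heckeAlphaBar Kbar N a) (heckeAlphaBarIntegral N a) := by
  letI := algebraAlong (heckeAlphaBar Kbar N a)
  haveI := isScalarTower_along (heckeAlphaBar Kbar N a)
  haveI : Module.Finite (FF N) (FF (N * a)) := finiteAlong_alpha N a
  haveI : CharZero (FF N) :=
    charZero_of_injective_algebraMap (algebraMap Kbar (FF N)).injective
  exact sumRamificationInertia (K := Kbar) (F := FF N) (F' := FF (N * a)) (deg_eq_one_FF (N * a))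

theorem pullHom_inj_torsion (N a : ℕ) [NeZero N] [NeZero a] (ha : a.Prime) (haN : ¬ a ∣ N)
    (m : ℕ) (hcop : Nat.Coprime m (a + 1)) (x : JZero N) (hm : m • x = 0)
    (hx : _root_.Fermat.Agent.A2.H155.pullHom N a x = 0) : x = 0 := by
  refine pullbackPic0Along_eq_zero (heckeAlphaBar Kbar N a) (heckeAlphaBarIntegral N a)
    (fundamentalIdentityAlong_alpha N a) (_root_.Fermat.Agent.A2.H155.sumRamificationInertiaAlong_alpha N a)
    (finiteAlong_alpha N a) (normFormulaAlong_alpha N a) m ?_ x hm hx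
  rw [finrankAlong_heckeAlphaBar_of_not_dvd N a ha haN]
  exact hcop

/-- **PULL step for the wall A2.** -/
theorem target_of_target_mul (N a q m : ℕ) [NeZero N] [NeZero a] (ha : a.Prime)
    (haN : ¬ a ∣ N) (hcop : Nat.Coprime m (a + 1)) (h : Target (N * a) q m) :
    Target N q m := by
  intro P hP τ hτ x hx
  have hy : m • _root_.Fermat.Agent.A2.H155.pullHom N a x = 0 := by
    rw [← map_nsmul, hx, map_zero]
  have h1 := h P hP τ hτ (_root_.Fermat.Agent.A2.H155.pullHom N a x) hy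
  rw [← _root_.Fermat.Agent.A2.H155.pullHom_galois, ← _root_.Fermat.Agent.A2.H155.pullHom_galois, ← map_add, ← map_nsmul] at h1
  have hsm : ∀ y : JZero N, m • y = 0 → m • (τ • y) = 0 := by
    intro y hy0
    have e : m • (τ • y) = τ • (m • y) :=
      (map_nsmul (DistribSMul.toAddMonoidHom (JZero N) τ) m y).symm
    rw [e, hy0]
    exact map_zero (DistribSMul.toAddMonoidHom (JZero N) τ)
  have hτx : m • (τ • x) = 0 := hsm x hx
  have hττx : m • (τ • (τ • x)) = 0 := hsm _ hτx
  have hz : m • (τ • (τ • x) + x - 2 • (τ • x)) = 0 := by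
    rw [nsmul_sub, nsmul_add, hττx, hx, ← mul_nsmul', mul_comm, mul_nsmul', hτx, nsmul_zero,
      add_zero, sub_zero]
  have hpz : _root_.Fermat.Agent.A2.H155.pullHom N a (τ • (τ • x) + x - 2 • (τ • x)) = 0 := by
    rw [map_sub, h1, sub_self]
  have := _root_.Fermat.Agent.A2.H155.pullHom_inj_torsion N a ha haN m hcop _ hz hpz
  exact sub_eq_zero.mp this

/-- The wall at `q = 3` for levels `N` with `2 ∤ N`, from the wall at level `N * 2`. -/
theorem target_three (N m : ℕ) [NeZero N] (hN : ¬ 2 ∣ N) (hm : ¬ 3 ∣ m)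
    (h : Target (N * 2) 3 m) : Target N 3 m :=
  target_of_target_mul N 2 3 m Nat.prime_two hN
    ((Nat.Prime.coprime_iff_not_dvd Nat.prime_three).mpr hm).symm h

/-- The wall at `q = 2` for levels `N` with `3 ∤ N`, from the wall at level `N * 3`. -/
theorem target_two (N m : ℕ) [NeZero N] (hN : ¬ 3 ∣ N) (hm : ¬ 2 ∣ m)
    (h : Target (N * 3) 2 m) : Target N 2 m := by
  refine target_of_target_mul N 3 2 m Nat.prime_three hN ?_ h
  have h2 : Nat.Coprime m 2 := ((Nat.Prime.coprime_iff_not_dvd Nat.prime_two).mpr hm).symm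
  have : Nat.Coprime m (2 ^ 2) := Nat.Coprime.pow_right 2 h2
  simpa using this

/-- `q = 3`, torsion of `p`-power order, `p ≠ 3` prime. -/
theorem target_three_pow (N p n : ℕ) [NeZero N] (hN : ¬ 2 ∣ N) (hp : p.Prime) (hp3 : p ≠ 3)
    (h : Target (N * 2) 3 (p ^ n)) : Target N 3 (p ^ n) :=
  target_three N (p ^ n) hN
    (fun hd => hp3 ((Nat.prime_dvd_prime_iff_eq Nat.prime_three hp).mp
      (Nat.prime_three.dvd_of_dvd_pow hd)).symm) h

/-- `q = 2`, torsion of `p`-power order, `p` an odd prime. -/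
theorem target_two_pow (N p n : ℕ) [NeZero N] (hN : ¬ 3 ∣ N) (hp : p.Prime) (hp2 : p ≠ 2)
    (h : Target (N * 3) 2 (p ^ n)) : Target N 2 (p ^ n) :=
  target_two N (p ^ n) hN
    (fun hd => hp2 ((Nat.prime_dvd_prime_iff_eq Nat.prime_two hp).mp
      (Nat.prime_two.dvd_of_dvd_pow hd)).symm) h

end Fermat.Agent.A2.H155

end

end
-- ===== PACK-END A2/H155/PullTarget.lean

-- ===== PACK-BEGIN S35/H155/AuxPull.lean
section
/-
S35 / auxiliary-level pull-back (helper155).

For primes `a ≠ q`, `q ∤ M`, the pull-back `π^* : J₀(M q) → J₀(M a q)` along the inclusion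
`F̄_{M q} ⊆ F̄_{M a q}` (`S37.H155.iTop M a q`)

* is Galois equivariant (`pullTop_galois`),
* is injective on `m`-torsion if `a ∤ M q` and `gcd(m, a + 1) = 1` (`pullTop_inj_torsion`),
* intertwines the degeneracy push-forwards (base change, `S37.H818.pullback_pushforward_eq`):
  `α'_* (π^* x) = π_M^* (α_* x)`, `β'_* (π^* x) = π_M^* (β_* x)`
  (`pushA_pullTop`, `pushB_pullTop`; `π_M^* = A2.H155.pullHom M a : J₀(M) → J₀(M a)`).

The norm compatibility of the `α`-square is `S37.H155.normCompat_square`; the one of the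
`β`-square (`normCompat_square_beta`) is proved here from `F̄_{M a q} = F̄_{M q} ⊔ V_q(F̄_{M a})`.
-/









set_option autoImplicit false
set_option linter.style.haveILetI false
set_option linter.unusedSectionVars false

noncomputable section

namespace Fermat.Agent.S35.H155

open ModularCurve AlgebraicCurve IntermediateField Fermat.Agent.S37.H818
open Fermat.Agent.Lib.FF398 Fermat.Agent.Lib.X0Deg

/-! ### The inputs of the inclusion `F̄_{M q} ⊆ F̄_{M a q}` -/

section Top

variable (M a q : ℕ) [NeZero M] [NeZero a] [NeZero q]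

/-- The inclusion `F̄_{M q} ⊆ F̄_{M a q}`. -/
abbrev iT : modularFunctionFieldBar (M * q) →ₐ[AlgebraicClosure ℚ]
    modularFunctionFieldBar (M * a * q) :=
  Fermat.Agent.S37.H155.iTop M a q

theorem iT_integral : (iT M a q).toRingHom.IsIntegral :=
  Fermat.Agent.S37.H155.iTop_isIntegral M a q

theorem finiteAlong_iT : FiniteAlong (AlgebraicClosure ℚ) (iT M a q) :=
  finiteAlong_of_functionField _ (Fermat.Agent.S24.jF (M * q)) (transcendental_jF (M * q))
    (Fermat.Agent.S24.jF (M * a * q)) (transcendental_jF (M * a * q))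

theorem fundamentalIdentityAlong_iT :
    FundamentalIdentityAlong (AlgebraicClosure ℚ) (iT M a q) (iT_integral M a q) := by
  letI := algebraAlong (iT M a q)
  haveI := isScalarTower_along (iT M a q)
  haveI : Module.Finite (Fermat.Agent.S24.FF (M * q)) (Fermat.Agent.S24.FF (M * a * q)) :=
    finiteAlong_iT M a q
  haveI : CharZero (Fermat.Agent.S24.FF (M * q)) :=
    charZero_of_injective_algebraMap
      (algebraMap (AlgebraicClosure ℚ) (Fermat.Agent.S24.FF (M * q))).injective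
  exact fundamentalIdentity (K := AlgebraicClosure ℚ) (F := Fermat.Agent.S24.FF (M * q))
    (F' := Fermat.Agent.S24.FF (M * a * q)) (deg_eq_one_FF (M * a * q))

theorem normFormulaAlong_iT :
    NormFormulaAlong (AlgebraicClosure ℚ) (iT M a q) (finiteAlong_iT M a q) := by
  letI := algebraAlong (iT M a q)
  haveI := isScalarTower_along (iT M a q)
  haveI : Module.Finite (Fermat.Agent.S24.FF (M * q)) (Fermat.Agent.S24.FF (M * a * q)) :=
    finiteAlong_iT M a q
  haveI : CharZero (Fermat.Agent.S24.FF (M * q)) :=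
    charZero_of_injective_algebraMap
      (algebraMap (AlgebraicClosure ℚ) (Fermat.Agent.S24.FF (M * q))).injective
  exact pushforwardNormFormula (K := AlgebraicClosure ℚ) (F := Fermat.Agent.S24.FF (M * q))
    (F' := Fermat.Agent.S24.FF (M * a * q)) (deg_eq_one_FF (M * a * q))

theorem sumRamificationInertiaAlong_iT :
    Fermat.Agent.S37.H155.SumRamificationInertiaAlong (iT M a q) (iT_integral M a q) := by
  letI := algebraAlong (iT M a q)
  haveI := isScalarTower_along (iT M a q)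
  haveI : Module.Finite (Fermat.Agent.S24.FF (M * q)) (Fermat.Agent.S24.FF (M * a * q)) :=
    finiteAlong_iT M a q
  haveI : CharZero (Fermat.Agent.S24.FF (M * q)) :=
    charZero_of_injective_algebraMap
      (algebraMap (AlgebraicClosure ℚ) (Fermat.Agent.S24.FF (M * q))).injective
  exact sumRamificationInertia (K := AlgebraicClosure ℚ) (F := Fermat.Agent.S24.FF (M * q))
    (F' := Fermat.Agent.S24.FF (M * a * q)) (deg_eq_one_FF (M * a * q))

/-- `[F̄_{M a q} : F̄_{M q}] = a + 1` for a prime `a ∤ M q`. -/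
theorem finrankAlong_iT (ha : a.Prime) (h : ¬ a ∣ M * q) :
    finrankAlong (AlgebraicClosure ℚ) (iT M a q) = a + 1 := by
  have h0 : finrankAlong (AlgebraicClosure ℚ) (iT M a q)
      = (modularFunctionFieldBar (M * q)).relfinrank (modularFunctionFieldBar (M * a * q)) :=
    _root_.Fermat.Agent.Lib.X0Deg.finrankAlong_inclusion _
  have hdvd : M * q ∣ M * a * q := ⟨a, by ring⟩
  have h1 := relfinrank_mul_psi hdvd
  have h2 : dedekindPsi (M * a * q) = (a + 1) * dedekindPsi (M * q) := by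
    have e : M * a * q = a * (M * q) := by ring
    rw [e]
    exact Fermat.Agent.S20.Comb694.dedekindPsi_prime_mul_of_not_dvd a (M * q) ha
      (NeZero.ne (M * q)) h
  rw [h0]
  exact Nat.eq_of_mul_eq_mul_right (dedekindPsi_pos (M * q)) (h1.trans h2)

/-- The pull-back `π^* : J₀(M q) → J₀(M a q)`. -/
def pullTop : JZero (M * q) →+ JZero (M * a * q) :=
  pullbackPic0Along (iT M a q) (iT_integral M a q) (fundamentalIdentityAlong_iT M a q)

theorem intertwines_iT (σ : AlgebraicClosure ℚ ≃ₐ[ℚ] AlgebraicClosure ℚ) :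
    SemilinearAut.IntertwinesAlong
      ((iT M a q : modularFunctionFieldBar (M * q) →ₐ[AlgebraicClosure ℚ]
        modularFunctionFieldBar (M * a * q)) : _ →+* _)
      (arithmeticGalois (modularFunctionFieldFull (M * q)) σ)
      (arithmeticGalois (modularFunctionFieldFull (M * a * q)) σ) := by
  intro x
  apply Subtype.ext
  rw [coe_arithmeticGalois_smul]
  show coeffMap (σ : AlgebraicClosure ℚ →+* AlgebraicClosure ℚ)
    ((iT M a q x : _) : LaurentSeries (AlgebraicClosure ℚ)) = _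
  rw [Fermat.Agent.S37.H155.coe_iTop]
  show _ = ((iT M a q (arithmeticGalois (modularFunctionFieldFull (M * q)) σ • x) : _) :
    LaurentSeries (AlgebraicClosure ℚ))
  rw [Fermat.Agent.S37.H155.coe_iTop, coe_arithmeticGalois_smul]

theorem pullTop_galois (σ : AlgebraicClosure ℚ ≃ₐ[ℚ] AlgebraicClosure ℚ) (x : JZero (M * q)) :
    pullTop M a q (σ • x) = σ • pullTop M a q x := by
  rw [galois_smul_pic0_def, galois_smul_pic0_def]
  exact Fermat.Agent.S37.H155.pullbackPic0Along_smul _ _ _ (intertwines_iT M a q σ) x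

theorem pullTop_inj_torsion (ha : a.Prime) (haN : ¬ a ∣ M * q) (m : ℕ)
    (hcop : Nat.Coprime m (a + 1)) (x : JZero (M * q)) (hm : m • x = 0)
    (hx : pullTop M a q x = 0) : x = 0 := by
  refine Fermat.Agent.S37.H155.pullbackPic0Along_eq_zero (iT M a q) (iT_integral M a q)
    (fundamentalIdentityAlong_iT M a q) (sumRamificationInertiaAlong_iT M a q)
    (finiteAlong_iT M a q) (normFormulaAlong_iT M a q) m ?_ x hm hx
  rw [finrankAlong_iT M a q ha haN]
  exact hcop

end Top

/-! ### The `β`-square -/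

section BetaSquare

variable (M a q : ℕ) [NeZero M] [NeZero a] [NeZero q]

theorem smul_beta_coe (c : modularFunctionFieldBar (M * a))
    (x : modularFunctionFieldBar (M * a * q)) :
    letI := algebraAlong (heckeBetaBar (AlgebraicClosure ℚ) (M * a) q)
    ((c • x : modularFunctionFieldBar (M * a * q)) : LaurentSeries (AlgebraicClosure ℚ)) =
      qExpand (AlgebraicClosure ℚ) q (c : LaurentSeries (AlgebraicClosure ℚ)) *
        (x : LaurentSeries (AlgebraicClosure ℚ)) := by
  letI := algebraAlong (heckeBetaBar (AlgebraicClosure ℚ) (M * a) q)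
  have h1 : c • x = heckeBetaBar (AlgebraicClosure ℚ) (M * a) q c * x := rfl
  rw [h1, MulMemClass.coe_mul, coe_heckeBetaBar]

/-- The image of `F̄_{M q}` spans `F̄_{M a q}` over `β(F̄_{M a})`. -/
theorem span_range_iT (hq : q.Prime) (g : modularFunctionFieldBar (M * a * q)) :
    g ∈ (letI := algebraAlong (heckeBetaBar (AlgebraicClosure ℚ) (M * a) q);
      Submodule.span (modularFunctionFieldBar (M * a)) (Set.range (iT M a q))) := by
  letI := algebraAlong (heckeBetaBar (AlgebraicClosure ℚ) (M * a) q)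
  have hdvd : M * q ∣ M * a * q := ⟨a, by ring⟩
  have hsup : modularFunctionFieldBar (M * a * q)
      = modularFunctionFieldBar (M * q) ⊔
        (modularFunctionFieldBar (M * a)).map (qExpandAlgHomC (AlgebraicClosure ℚ) q) :=
    modularFunctionFieldBar_mul_eq_sup (M := M * a) q hdvd
  have hAT : (modularFunctionFieldBar (M * a)).map (qExpandAlgHomC (AlgebraicClosure ℚ) q)
      ≤ modularFunctionFieldBar (M * a * q) := Fermat.Agent.S37.H218.map_qExpand_bar_le (M * a) q
  have hd : ((modularFunctionFieldBar (M * a)).map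
      (qExpandAlgHomC (AlgebraicClosure ℚ) q)).relfinrank (modularFunctionFieldBar (M * a * q))
        ≠ 0 := by
    rw [Fermat.Agent.S37.H218.relfinrank_map_qExpand_bar_mul_prime (M * a) q (NeZero.ne _) hq]
    split_ifs
    · exact hq.ne_zero
    · omega
  have halg : ∀ x ∈ modularFunctionFieldBar (M * q),
      IsAlgebraic ((modularFunctionFieldBar (M * a)).map
        (qExpandAlgHomC (AlgebraicClosure ℚ) q)) x := by
    intro x hx
    exact Fermat.Agent.Ribet.H801.isAlgebraic_of_relfinrank_ne_zero hAT hd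
      (modularFunctionFieldBar_mono hdvd hx)
  have ht : (g : LaurentSeries (AlgebraicClosure ℚ)) ∈
      (modularFunctionFieldBar (M * a)).map (qExpandAlgHomC (AlgebraicClosure ℚ) q) ⊔
        modularFunctionFieldBar (M * q) := by
    rw [sup_comm, ← hsup]
    exact g.2
  have hs := Fermat.Agent.S29.H801.mem_span_of_mem_sup _ _ halg ht
  have key : ∀ x : LaurentSeries (AlgebraicClosure ℚ),
      x ∈ Submodule.span
        ((modularFunctionFieldBar (M * a)).map (qExpandAlgHomC (AlgebraicClosure ℚ) q))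
        ((modularFunctionFieldBar (M * q) :
          IntermediateField (AlgebraicClosure ℚ) (LaurentSeries (AlgebraicClosure ℚ))) :
            Set (LaurentSeries (AlgebraicClosure ℚ))) →
      ∃ y : modularFunctionFieldBar (M * a * q),
        y ∈ Submodule.span (modularFunctionFieldBar (M * a)) (Set.range (iT M a q)) ∧
        (y : LaurentSeries (AlgebraicClosure ℚ)) = x := by
    intro x hx
    induction hx using Submodule.span_induction with
    | mem x hx =>
      refine ⟨iT M a q ⟨x, hx⟩, Submodule.subset_span ⟨_, rfl⟩, ?_⟩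
      exact Fermat.Agent.S37.H155.coe_iTop M a q ⟨x, hx⟩
    | zero => exact ⟨0, Submodule.zero_mem _, rfl⟩
    | add x y _ _ hx hy =>
      obtain ⟨x', hx', rfl⟩ := hx
      obtain ⟨y', hy', rfl⟩ := hy
      exact ⟨x' + y', Submodule.add_mem _ hx' hy', rfl⟩
    | smul c x _ hx =>
      obtain ⟨x', hx', rfl⟩ := hx
      obtain ⟨g', hg', hgc⟩ := c.2
      refine ⟨(⟨g', hg'⟩ : modularFunctionFieldBar (M * a)) • x', Submodule.smul_mem _ _ hx', ?_⟩
      rw [smul_beta_coe, Algebra.smul_def]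
      congr 1
  obtain ⟨y, hy, hyt⟩ := key _ hs
  have : y = g := Subtype.ext hyt
  rw [← this]
  exact hy

/-- **Norm compatibility of the `β`-square**

      F_M    --β_q-->  F_{Mq}
       |α_a             |incl
       v                v
      F_{Ma} --β_q-->  F_{Maq}          (`q` prime, `q ∤ M a`). -/
theorem normCompat_square_beta (hq : q.Prime) (hqM : ¬ q ∣ M) (hqa : ¬ q ∣ M * a) :
    NormCompat (heckeBetaBar (AlgebraicClosure ℚ) M q) (heckeAlphaBar (AlgebraicClosure ℚ) M a)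
      (heckeBetaBar (AlgebraicClosure ℚ) (M * a) q) (iT M a q) := by
  refine Fermat.Agent.S37.H155.normCompat_of_span _ _ _ _ (Fermat.Agent.S37.H155.sq_beta M a q)
    (finiteAlong_beta M q) ?_ (span_range_iT M a q hq)
  rw [Fermat.Agent.S37.H218.finrankAlong_heckeBetaBar_of_not_dvd M q hq hqM,
    Fermat.Agent.S37.H218.finrankAlong_heckeBetaBar_of_not_dvd (M * a) q hq hqa]

end BetaSquare

/-! ### Base change: `π^*` intertwines the degeneracy push-forwards -/

section AbstractBC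

variable {K F F₁ G G₁ : Type*} [Field K] [Field F] [Field F₁] [Field G] [Field G₁]
  [Algebra K F] [Algebra K F₁] [Algebra K G] [Algebra K G₁]
  [HasPrincipalDivisors K G] [HasPrincipalDivisors K G₁] [HasPrincipalDivisors K F₁]

/-- **Base change on `Pic0`**: `a'_* ∘ i₁^* = i^* ∘ a_*` for a commutative square with compatible
norms. -/
theorem pushforwardPic0Along_pullbackPic0Along
    (a : F →ₐ[K] F₁) (i : F →ₐ[K] G) (a' : G →ₐ[K] G₁) (i₁ : F₁ →ₐ[K] G₁)
    (ha : a.toRingHom.IsIntegral) (hi : i.toRingHom.IsIntegral)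
    (ha' : a'.toRingHom.IsIntegral) (hi₁ : i₁.toRingHom.IsIntegral)
    (hsq : i₁.comp a = a'.comp i)
    (hfin : FiniteAlong K a) (hN : NormFormulaAlong K a hfin)
    (hfin' : FiniteAlong K a') (hN' : NormFormulaAlong K a' hfin')
    (hFIi : FundamentalIdentityAlong K i hi) (hFIi₁ : FundamentalIdentityAlong K i₁ hi₁)
    (hnorm : NormCompat a i a' i₁) (hLG : HasLocalGenerators a ha) (x : Pic0 K F₁) :
    pushforwardPic0Along a' ha' hfin' hN' (pullbackPic0Along i₁ hi₁ hFIi₁ x) =
      pullbackPic0Along i hi hFIi (pushforwardPic0Along a ha hfin hN x) := by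
  obtain ⟨D, rfl⟩ := Pic0.mk_surjective x
  rw [pullbackPic0Along_mk, pushforwardPic0Along_mk, pushforwardPic0Along_mk,
    pullbackPic0Along_mk]
  refine congrArg Pic0.mk (Subtype.ext ?_)
  rw [coe_pushforwardDegZeroAlong, coe_pullbackDegZeroAlong, coe_pullbackDegZeroAlong,
    coe_pushforwardDegZeroAlong]
  exact (pullback_pushforward_eq a i a' i₁ ha hi ha' hi₁ hsq hfin hN hfin' hN' hnorm hLG
    (D : Divisor K F₁)).symm

end AbstractBC

section BaseChange

variable (M a q : ℕ) [NeZero M] [NeZero a] [NeZero q]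

/-- `α'_* (π^* x) = π_M^* (α_* x)`. -/
theorem pushA_pullTop (hq : q.Prime) (ha : a.Prime) (hne : a ≠ q) (x : JZero (M * q)) :
    pushA (M * a) q (pullTop M a q x) = Fermat.Agent.A2.H155.pullHom M a (pushA M q x) :=
  pushforwardPic0Along_pullbackPic0Along (heckeAlphaBar (AlgebraicClosure ℚ) M q)
    (heckeAlphaBar (AlgebraicClosure ℚ) M a) (heckeAlphaBar (AlgebraicClosure ℚ) (M * a) q)
    (iT M a q) (heckeAlphaBarIntegral M q) (heckeAlphaBarIntegral M a)
    (heckeAlphaBarIntegral (M * a) q) (iT_integral M a q)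
    (Fermat.Agent.S37.H155.sq_alpha M a q)
    (finiteAlong_alpha M q) (normFormulaAlong_alpha M q)
    (finiteAlong_alpha (M * a) q) (normFormulaAlong_alpha (M * a) q)
    (fundamentalIdentityAlong_alpha M a) (fundamentalIdentityAlong_iT M a q)
    (Fermat.Agent.S37.H155.normCompat_square M a q hq ha hne)
    (Fermat.Agent.S37.H155.hasLocalGenerators _ _) x

/-- `β'_* (π^* x) = π_M^* (β_* x)`. -/
theorem pushB_pullTop (hq : q.Prime) (hqM : ¬ q ∣ M) (hqa : ¬ q ∣ M * a) (x : JZero (M * q)) :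
    pushB (M * a) q (pullTop M a q x) = Fermat.Agent.A2.H155.pullHom M a (pushB M q x) :=
  pushforwardPic0Along_pullbackPic0Along (heckeBetaBar (AlgebraicClosure ℚ) M q)
    (heckeAlphaBar (AlgebraicClosure ℚ) M a) (heckeBetaBar (AlgebraicClosure ℚ) (M * a) q)
    (iT M a q) (heckeBetaBarIntegral M q) (heckeAlphaBarIntegral M a)
    (heckeBetaBarIntegral (M * a) q) (iT_integral M a q)
    (Fermat.Agent.S37.H155.sq_beta M a q)
    (finiteAlong_beta M q) (normFormulaAlong_beta M q)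
    (finiteAlong_beta (M * a) q) (normFormulaAlong_beta (M * a) q)
    (fundamentalIdentityAlong_alpha M a) (fundamentalIdentityAlong_iT M a q)
    (normCompat_square_beta M a q hq hqM hqa)
    (Fermat.Agent.S37.H155.hasLocalGenerators _ _) x

end BaseChange

end Fermat.Agent.S35.H155

end

end
-- ===== PACK-END S35/H155/AuxPull.lean

-- ===== PACK-BEGIN S35/H155/AuxD2F.lean
section
/-
S35 (G') / leaf D2F (helper155): auxiliary-level descent.

`newPartFrobAt_of_mul` : `NewPartFrobAt (M * a) q m → NewPartFrobAt M q m` for primes `a ≠ q`,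
`a ∤ M`, `q ∤ M`, `gcd(m, a + 1) = 1`   (pull back along `X₀(M a q) → X₀(M q)`, `AuxPull.lean`);
`d2f` : `G.D2FStatement` (helper450's `Spec.lean`, VERBATIM).
-/




set_option autoImplicit false
set_option linter.style.haveILetI false
set_option linter.unusedSectionVars false

noncomputable section

namespace Fermat.Agent.S35.H155

open ModularCurve AlgebraicCurve Fermat.Agent.Lib.FF398

/-! ### `degA = pushA`, `degB = pushB` -/

section Deg

variable (M q : ℕ) [NeZero M] [NeZero q]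

theorem degA_eq_pushA : Fermat.Agent.S35.G.degA M q = pushA M q := by
  unfold Fermat.Agent.S35.G.degA
  rw [Fermat.Agent.S35.G.pic0PushTotal_eq _ (heckeAlphaBarIntegral M q) (finiteAlong_alpha M q)
    (normFormulaAlong_alpha M q)]
  rfl

theorem degB_eq_pushB : Fermat.Agent.S35.G.degB M q = pushB M q := by
  unfold Fermat.Agent.S35.G.degB
  rw [Fermat.Agent.S35.G.pic0PushTotal_eq _ (heckeBetaBarIntegral M q) (finiteAlong_beta M q)
    (normFormulaAlong_beta M q)]
  rfl

end Deg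

/-! ### The polynomial `(t - 1)² (t - Q)` and equivariant maps -/

section FrobPoly

variable {Γ X Y : Type*} [Group Γ] [AddCommGroup X] [AddCommGroup Y]
  [DistribMulAction Γ X] [DistribMulAction Γ Y]

theorem frobPolyAdd_map (f : X →+ Y) (hf : ∀ (g : Γ) (x : X), f (g • x) = g • f x)
    (t : Γ) (Q : ℕ) (x : X) :
    f (Fermat.Agent.S35.G.frobPolyAdd t Q x) = Fermat.Agent.S35.G.frobPolyAdd t Q (f x) := by
  simp only [Fermat.Agent.S35.G.frobPolyAdd, map_sub, map_nsmul, hf]

theorem smul_torsion (m : ℕ) (t : Γ) (x : X) (hx : m • x = 0) : m • (t • x) = 0 := by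
  have e : m • (t • x) = t • (m • x) :=
    (map_nsmul (DistribSMul.toAddMonoidHom X t) m x).symm
  rw [e, hx]
  exact map_zero (DistribSMul.toAddMonoidHom X t)

theorem frobPolyAdd_torsion (m : ℕ) (t : Γ) (Q : ℕ) (x : X) (hx : m • x = 0) :
    m • Fermat.Agent.S35.G.frobPolyAdd t Q x = 0 := by
  have h1 : m • (t • x) = 0 := smul_torsion m t x hx
  have h2 : m • (t • x - x) = 0 := by rw [nsmul_sub, h1, hx, sub_zero]
  have h3 : m • (t • (t • x - x)) = 0 := smul_torsion m t _ h2
  have h4 : m • (t • (t • x - x) - (t • x - x)) = 0 := by rw [nsmul_sub, h3, h2, sub_zero]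
  have h5 : m • (t • (t • (t • x - x) - (t • x - x))) = 0 := smul_torsion m t _ h4
  have h6 : m • (Q • (t • (t • x - x) - (t • x - x))) = 0 := by
    rw [nsmul_left_comm, h4, nsmul_zero]
  unfold Fermat.Agent.S35.G.frobPolyAdd
  rw [nsmul_sub, h5, h6, sub_zero]

end FrobPoly

/-! ### The descent -/

/-- **Auxiliary-level descent for (G').** -/
theorem newPartFrobAt_of_mul (M a q m : ℕ) [NeZero M] [NeZero a] [NeZero q] (hq : q.Prime)
    (ha : a.Prime) (hne : a ≠ q) (hqM : ¬ q ∣ M) (haM : ¬ a ∣ M)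
    (hcop : Nat.Coprime m (a + 1))
    (h : Fermat.Agent.S35.G.NewPartFrobAt (M * a) q m) :
    Fermat.Agent.S35.G.NewPartFrobAt M q m := by
  intro A hA s hs x hx hax hbx
  have hqa : ¬ q ∣ M * a := by
    intro hd
    rcases (Nat.Prime.dvd_mul hq).mp hd with h1 | h1
    · exact hqM h1
    · exact hne ((Nat.prime_dvd_prime_iff_eq hq ha).mp h1).symm
  have haq : ¬ a ∣ M * q := by
    intro hd
    rcases (Nat.Prime.dvd_mul ha).mp hd with h1 | h1
    · exact haM h1
    · exact hne ((Nat.prime_dvd_prime_iff_eq ha hq).mp h1)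
  have hx' : m • pullTop M a q x = 0 := by rw [← map_nsmul, hx, map_zero]
  have hax' : Fermat.Agent.S35.G.degA (M * a) q (pullTop M a q x) = 0 := by
    rw [degA_eq_pushA, pushA_pullTop M a q hq ha hne, ← degA_eq_pushA, hax, map_zero]
  have hbx' : Fermat.Agent.S35.G.degB (M * a) q (pullTop M a q x) = 0 := by
    rw [degB_eq_pushB, pushB_pullTop M a q hq hqM hqa, ← degB_eq_pushB, hbx, map_zero]
  have h1 := h A hA s hs (pullTop M a q x) hx' hax' hbx'
  rw [← frobPolyAdd_map (pullTop M a q) (pullTop_galois M a q)] at h1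
  exact pullTop_inj_torsion M a q ha haq m hcop _
    (frobPolyAdd_torsion m (s * s) (q ^ 2) x hx) h1

theorem newPartFrobAt_congr {M M' : ℕ} (e : M = M') (q m : ℕ) [hM : NeZero M] [hM' : NeZero M']
    [NeZero q] (h : Fermat.Agent.S35.G.NewPartFrobAt M q m) :
    Fermat.Agent.S35.G.NewPartFrobAt M' q m := by
  subst e
  exact h

/-- **Leaf D2F** of `coord/S35-G-helper450.md`. -/
theorem d2f : Fermat.Agent.S35.G.D2FStatement := by
  intro M q m _ _ _ hq hqM hm hqm h
  by_cases h3 : q = 3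
  · subst h3
    by_cases h2 : 2 ∣ M
    · have e : Fermat.Agent.S35.G.auxM M 3 = M := by
        unfold Fermat.Agent.S35.G.auxM
        rw [if_pos rfl]
        exact Nat.lcm_eq_left h2
      exact newPartFrobAt_congr e 3 m h
    · have e : Fermat.Agent.S35.G.auxM M 3 = M * 2 := by
        unfold Fermat.Agent.S35.G.auxM
        rw [if_pos rfl]
        exact Nat.Coprime.lcm_eq_mul
          ((Nat.Prime.coprime_iff_not_dvd Nat.prime_two).mpr h2).symm
      refine newPartFrobAt_of_mul M 2 3 m Nat.prime_three Nat.prime_two (by decide) hqM h2 ?_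
        (newPartFrobAt_congr e 3 m h)
      exact ((Nat.Prime.coprime_iff_not_dvd Nat.prime_three).mpr hqm).symm
  · by_cases h2 : q = 2
    · subst h2
      by_cases h3' : 3 ∣ M
      · have e : Fermat.Agent.S35.G.auxM M 2 = M := by
          unfold Fermat.Agent.S35.G.auxM
          rw [if_neg (by decide), if_pos rfl]
          exact Nat.lcm_eq_left h3'
        exact newPartFrobAt_congr e 2 m h
      · have e : Fermat.Agent.S35.G.auxM M 2 = M * 3 := by
          unfold Fermat.Agent.S35.G.auxM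
          rw [if_neg (by decide), if_pos rfl]
          exact Nat.Coprime.lcm_eq_mul
            ((Nat.Prime.coprime_iff_not_dvd Nat.prime_three).mpr h3').symm
        refine newPartFrobAt_of_mul M 3 2 m Nat.prime_two Nat.prime_three (by decide) hqM h3' ?_
          (newPartFrobAt_congr e 2 m h)
        have hc2 : Nat.Coprime m 2 :=
          ((Nat.Prime.coprime_iff_not_dvd Nat.prime_two).mpr hqm).symm
        have : Nat.Coprime m (2 ^ 2) := Nat.Coprime.pow_right 2 hc2
        simpa using this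
    · have e : Fermat.Agent.S35.G.auxM M q = M := by
        unfold Fermat.Agent.S35.G.auxM
        rw [if_neg h3, if_neg h2]
      exact newPartFrobAt_congr e q m h

end Fermat.Agent.S35.H155

end

end
-- ===== PACK-END S35/H155/AuxD2F.lean

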