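import Fermat.Agent.Pack.S36.E18L0
import Fermat.Agent.Pack.S36.E16L1
import Fermat.Agent.Pack.S36.E13L2
import Fermat.Agent.Pack.S58.E1L0
import Fermat.Agent.Pack.S36.E15L1
import Fermat.Agent.Pack.S36.E16L0
import Fermat.Agent.Pack.S36.E16L3
import Fermat.Agent.Pack.S36.E20L0
import Fermat.Agent.Pack.S58.E4L1
import Fermat.Agent.Pack.S36.E20L1
import Fermat.Agent.Pack.S36.E20L3
import Fermat.Agent.Pack.S36.E20L2
import Fermat.Agent.Pack.S36.E6L0
import Fermat.Agent.Pack.S36.E19L2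
import Fermat.Agent.Pack.S36.E17L0
import Fermat.Agent.Pack.S36.E14L1
import Fermat.Agent.Pack.S36.E16L2
import Fermat.Agent.Pack.S58.E0L3
import Fermat.Agent.Pack.S58.E4L2
import Fermat.Agent.Pack.S58.E2L2
import Fermat.Agent.Pack.S36.E19L3
import Fermat.Agent.Pack.S36.E17L1

-- ===== PACK-BEGIN S29/H150/K2Hol.lean
section
/-
S29 / M4b / piece K2 (helper150), part 1: analytic preparation.

* `k2Char hc` : the multiplicative character `γ ↦ ζ_p ^ c(γ)` of a parabolic hom `c`;
* `mem_holN_of_isTwisted` : a twisted function (M4b `IsTwisted`) lies in the S24 ring `holN N`;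
* `qexp_eq_qExpand` : the S24 expansion in `q^{1/N}` of a function with `q`-expansion `φ`
  is `φ(z^N)`;
* `sigmaG_eq_of_qexp` : the S24 embedding `σ_g` of `u ∈ FF N` is the expansion of `G ∘ g⁻¹`
  for every `G ∈ holN N` with the `q`-expansion of `u`.
-/







set_option autoImplicit false
set_option linter.unusedSectionVars false

noncomputable section

open ModularCurve AlgebraicCurve CongruenceSubgroup UpperHalfPlane HahnSeries
open scoped MatrixGroups Manifold

namespace Fermat.Agent.S29.H150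

open Fermat.Agent.S24 Fermat.Agent.S24.H997 Fermat.Agent.S29 Fermat.Agent.S29.M4b

local notation "Δ" => ModularForm.discriminant

variable {N : ℕ} [NeZero N] {p : ℕ} [NeZero p]

/-! ### The character `ζ_p ^ c` -/

theorem k2_map_one {c : G0 N → ZMod p} (hc : IsParHom c) : c 1 = 0 := by
  have h := hc.map_mul 1 1
  rw [mul_one] at h
  have h2 : c 1 + 0 = c 1 + c 1 := by rw [add_zero]; exact h
  exact (add_left_cancel h2).symm

/-- The multiplicative character `γ ↦ ζ_p ^ c(γ)`. -/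
def k2Char {c : G0 N → ZMod p} (hc : IsParHom c) : Gamma0 N →* ℂˣ where
  toFun γ := Units.mk0 (zetaP p ^ (c γ).val) (pow_ne_zero _ (H822.zetaP_ne_zero p))
  map_one' := by
    apply Units.ext
    show zetaP p ^ (c 1).val = 1
    rw [k2_map_one hc, ZMod.val_zero, pow_zero]
  map_mul' γ γ' := by
    apply Units.ext
    show zetaP p ^ (c (γ * γ')).val = zetaP p ^ (c γ).val * zetaP p ^ (c γ').val
    rw [hc.map_mul, H822.zetaP_pow_val_add]

theorem k2Char_coe {c : G0 N → ZMod p} (hc : IsParHom c) (γ : Gamma0 N) :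
    ((k2Char hc γ : ℂˣ) : ℂ) = zetaP p ^ (c γ).val := rfl

theorem k2Char_eq_one_of {c : G0 N → ZMod p} (hc : IsParHom c) {γ : Gamma0 N} (h : c γ = 0) :
    k2Char hc γ = 1 := by
  apply Units.ext
  rw [k2Char_coe, h, ZMod.val_zero, pow_zero, Units.val_one]

theorem k2Char_parTrivial {c : G0 N → ZMod p} (hc : IsParHom c) :
    H332.ParTrivial (k2Char hc) := fun γ hγ => k2Char_eq_one_of hc (hc.parabolic γ hγ)

theorem k2Char_ellTrivial {c : G0 N → ZMod p} (hc : IsParHom c) :
    H332.EllTrivial (k2Char hc) := fun γ n hn hγ => k2Char_eq_one_of hc (hc.elliptic γ n hn hγ)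

theorem hasCharacter_of_hasChar {c : G0 N → ZMod p} (hc : IsParHom c) {U : ℍ → ℂ}
    (hU : HasChar N p c U) : H332.HasCharacter (k2Char hc) U := fun γ τ => by
  rw [k2Char_coe]
  exact hU γ τ

/-! ### Twisted functions lie in `holN N` -/

omit [NeZero N] in
theorem norm_le_one_add_norm_pow (x : ℂ) : ‖x‖ ≤ 1 + ‖x ^ p‖ := by
  rw [norm_pow]
  rcases le_or_gt ‖x‖ 1 with h | h
  · have : 0 ≤ ‖x‖ ^ p := pow_nonneg (norm_nonneg x) p
    linarith
  · have h1 : ‖x‖ ≤ ‖x‖ ^ p := le_self_pow₀ h.le (NeZero.ne p)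
    linarith

omit [NeZero N] in
theorem exists_bdd_of_expGrowth_pow {U : ℍ → ℂ} (g : SL(2, ℤ))
    (h : H648.ExpGrowth (fun τ => U (g • τ) ^ p)) :
    ∃ m : ℕ, IsBoundedAtImInfty (fun τ => Δ τ ^ m * compSL g U τ) := by
  obtain ⟨C, m, hC⟩ := h
  refine ⟨m, ?_⟩
  have hb : IsBoundedAtImInfty (fun τ => compSL g U τ * Δ τ ^ m) := by
    apply H108.isBoundedAtImInfty_mul_discriminant_pow_of_exp_growth
    refine ⟨1 + |C|, 1, fun τ hτ => ?_⟩
    have h1 := hC τ hτ
    have h2 := norm_le_one_add_norm_pow (p := p) (U (g • τ))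
    have he : 1 ≤ Real.exp (2 * Real.pi * m * τ.im) := by
      apply Real.one_le_exp
      have := τ.im_pos
      have := Real.pi_pos
      positivity
    have h3 : C * Real.exp (2 * Real.pi * m * τ.im) ≤ |C| * Real.exp (2 * Real.pi * m * τ.im) :=
      mul_le_mul_of_nonneg_right (le_abs_self C) (Real.exp_pos _).le
    show ‖U (g • τ)‖ ≤ _
    calc ‖U (g • τ)‖ ≤ 1 + ‖U (g • τ) ^ p‖ := h2
      _ ≤ 1 + |C| * Real.exp (2 * Real.pi * m * τ.im) := by linarith
      _ ≤ Real.exp (2 * Real.pi * m * τ.im) + |C| * Real.exp (2 * Real.pi * m * τ.im) := by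
          linarith
      _ = (1 + |C|) * Real.exp (2 * Real.pi * m * τ.im) := by ring
  have : (fun τ => Δ τ ^ m * compSL g U τ) = fun τ => compSL g U τ * Δ τ ^ m := by
    funext τ; ring
  rw [this]
  exact hb

/-- A twisted function lies in the S24 ring `holN N`. -/
theorem mem_holN_of_isTwisted {c : G0 N → ZMod p} (hc : IsParHom c) {U : ℍ → ℂ}
    (hU : IsTwisted N p c U) : U ∈ holN N := by
  refine ⟨hU.mdiff, fun g => ?_⟩
  obtain ⟨m, hm⟩ := exists_bdd_of_expGrowth_pow (p := p) g (hU.pow_mem.2.2 g)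
  exact (hasCharacter_of_hasChar hc hU.hasChar).compSL_mem_expRing (k2Char_parTrivial hc)
    hU.mdiff m g hm

omit [NeZero N] [NeZero p] in
theorem ne_zero_of_isTwisted {c : G0 N → ZMod p} {U : ℍ → ℂ}
    (hU : IsTwisted N p c U) : U ≠ 0 := by
  obtain ⟨τ, hτ⟩ := hU.ne_zero
  intro h
  exact hτ (by rw [h]; rfl)

/-! ### Comparison of expansions -/

omit [NeZero N] in
theorem infExp_one_of_hasQExp {f : ℍ → ℂ} {φ : LaurentSeries ℂ} (h : H708.HasQExp 1 f φ) :
    InfExp 1 f φ := fun τ => by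
  have := h.hasSum τ
  exact this

theorem infExp_of_hasQExp_one {f : ℍ → ℂ} {φ : LaurentSeries ℂ} (h : H708.HasQExp 1 f φ) :
    InfExp N f (qExpand ℂ N φ) := by
  have h1 : InfExp 1 f φ := infExp_one_of_hasQExp h
  have h2 := h1.subst (N := N) (fun τ => τ) 1 N (fun τ => by
    rw [Units.val_one, one_mul, infZ_def, infZ_def, ← Complex.exp_nat_mul]
    congr 1
    have hN : (N : ℂ) ≠ 0 := by exact_mod_cast NeZero.ne N
    push_cast
    field_simp)
  rwa [infTwist_one] at h2

/-- The S24 expansion (in `q^{1/N}`) of an element of `holN N` with `q`-expansion `φ`. -/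
theorem qexp_eq_qExpand {f : ℍ → ℂ} (hf : f ∈ holN N) {φ : LaurentSeries ℂ}
    (h : H708.HasQExp 1 f φ) :
    (holBase N).qexp ⟨f, hf⟩ = qExpand ℂ N φ :=
  (expInf_spec (holToExp N ⟨f, hf⟩)).unique (infExp_of_hasQExp_one h)

/-- The S24 expansion of an analytic realisation of `u ∈ FF N`. -/
theorem qexp_eq_Φ_of_realises {u : FF N} {G : ℍ → ℂ} (hG : G ∈ holN N)
    (hu : Realises N u G) :
    (holBase N).qexp ⟨G, hG⟩ = HolBase.Φ N ((u : FF N) : LaurentSeries Kbar) :=
  qexp_eq_qExpand hG (H822.realises_hasQExp hu)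

/-! ### The embeddings `σ_g` on realised elements -/

/-- If `G ∈ holN N` has the `q`-expansion of `u ∈ FF N`, then `σ_g u` is the expansion of
`G ∘ g⁻¹`, for every S24 expansion `X` and every `g ∈ SL₂(ℤ)`. -/
theorem sigmaG_eq_of_qexp (X : Expansion (holBase N)) (g : SL(2, ℤ)) {u : FF N} {G : ℍ → ℂ}
    (hG : G ∈ holN N)
    (hq : (holBase N).qexp ⟨G, hG⟩ = HolBase.Φ N ((u : FF N) : LaurentSeries Kbar)) :
    (holBase N).sigmaG X g u = X.E ((holBase N).compH g⁻¹ ⟨G, hG⟩) := by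
  obtain ⟨r, t, ht, rfl⟩ := exists_div_inclRN N u
  have ht' : (holBase N).bridge t ≠ 0 := fun h0 =>
    ht ((holBase N).bridge_injective (h0.trans (map_zero _).symm))
  have key : (⟨G, hG⟩ : (holBase N).Hol) * (holBase N).bridge t = (holBase N).bridge r := by
    apply (holBase N).qexp_injective
    rw [map_mul, hq, HolBase.qexp_bridge, HolBase.qexp_bridge]
    have h1 : (((inclRN N r / inclRN N t : FF N) : FF N) : LaurentSeries Kbar)
        = (r : LaurentSeries Kbar) / (t : LaurentSeries Kbar) := rfl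
    rw [h1, map_div₀]
    have h2 : HolBase.Φ N (t : LaurentSeries Kbar) ≠ 0 := by
      rw [← HolBase.qexp_bridge (holBase N)]
      intro h0
      exact ht' ((holBase N).qexp_injective (h0.trans (map_zero _).symm))
    exact div_mul_cancel₀ _ h2
  have hE : X.E ((holBase N).compH g⁻¹ ((holBase N).bridge t)) ≠ 0 := by
    intro h0
    have h1 := X.inj (h0.trans (map_zero _).symm)
    exact ht' ((holBase N).compH_injective g⁻¹ (h1.trans (map_zero _).symm))
  rw [map_div₀, HolBase.sigmaG_inclRN, HolBase.sigmaG_inclRN, ← key, map_mul, map_mul,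
    mul_div_assoc, div_self hE, mul_one]

end Fermat.Agent.S29.H150

end
end
-- ===== PACK-END S29/H150/K2Hol.lean

-- ===== PACK-BEGIN S29/H150/K2Local.lean
section
/-
S29 / M4b / piece K2 (helper150), part 2: local divisibility at every place.

For the S24 local data `mkLocalData X ε R t` at the zero of `t` (`t = j - a` or `t = 1/j`):
if `u ∈ FF N` is realised by `U ^ p`, `U ∈ holN N` with a character killing all conjugates of
powers of `ε` lying in `Γ₀(N)`, then `p ∣ ord_v u` at every place `v` with `ord_v t > 0`.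
-/




set_option autoImplicit false
set_option linter.unusedSectionVars false
set_option linter.style.haveILetI false
set_option linter.unusedTactic false

noncomputable section

open ModularCurve AlgebraicCurve CongruenceSubgroup UpperHalfPlane HahnSeries
open scoped MatrixGroups Manifold

namespace Fermat.Agent.S29.H150

open Fermat.Agent.S24 Fermat.Agent.S24.H997 Fermat.Agent.S29 Fermat.Agent.S29.M4b

/-! ### Orbits of the monodromy permutation -/

section Orbit

variable {K F : Type*} [Field K] [Field F] [Algebra K F] [IsAlgClosed K] [CharZero K]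
variable {C : Type*} [Field C] [CharZero C] {X : Type*} [Finite X]

/-- The ramification index of the place induced by `x` is the length of the cycle of `x`. -/
theorem orbit_card_eq_ord (t : F) [FiniteDimensional ↥(IntermediateField.adjoin K {t}) F]
    (hrank : Module.finrank ↥(IntermediateField.adjoin K {t}) F = Nat.card X)
    (d : LocalData K F C X t) (x : X) :
    (Nat.card (MulAction.orbit (Subgroup.zpowers d.perm) x) : ℤ) = (H117.placeOf d x).ord t := by
  classical
  have hfin : (zeroPlaces K t).Finite := (sub_local_count t hrank d).1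
  have hs : ∀ v : Place K F, v ∈ hfin.toFinset ↔ 0 < v.ord t := fun v => by simp [zeroPlaces]
  have hsum := (sub_local_count t hrank d).2.2
  rw [finsum_mem_eq_finite_toFinset_sum _ hfin] at hsum
  exact (H117.localThm d (IntermediateField.adjoin K {t}) le_rfl hrank hfin.toFinset hs
    hsum.ge).2.1 x

omit [Finite X] in
theorem perm_pow_orbit_card [Finite X] (π : Equiv.Perm X) (x : X) :
    (π ^ Nat.card (MulAction.orbit (Subgroup.zpowers π) x)) x = x := by
  classical
  haveI : Fintype (MulAction.orbit (Subgroup.zpowers π) x) := Fintype.ofFinite _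
  have h := Function.isPeriodicPt_minimalPeriod (fun y : X => π • y) x
  rw [MulAction.minimalPeriod_eq_card, ← Nat.card_eq_fintype_card] at h
  have h2 : (fun y : X => π • y)^[Nat.card (MulAction.orbit (Subgroup.zpowers π) x)] x = x := h
  rw [smul_iterate] at h2
  exact h2

end Orbit

variable {N : ℕ} [NeZero N] {p : ℕ} [NeZero p]

/-! ### The key local statement -/

theorem permOf_pow_apply (ε : SL(2, ℤ)) (k : ℕ) (g : SL(2, ℤ)) :
    (permOf N ε ^ k) (g : XX N) = ((ε ^ k * g : SL(2, ℤ)) : XX N) := by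
  induction k with
  | zero => simp
  | succ k ih =>
    rw [pow_succ', Equiv.Perm.mul_apply, ih, pow_succ', mul_assoc]
    rfl

/-- **Local divisibility.** -/
theorem dvd_ord_of_mkLocalData (X : Expansion (holBase N)) (ε : SL(2, ℤ))
    (R : RotData (holBase N) X ε) (t : FF N) (s : LaurentSeries ℂ)
    (ht : ∀ g : SL(2, ℤ), (holBase N).sigmaG X g t = s) (hs : s.order = (R.m : ℤ))
    [FiniteDimensional ↥(IntermediateField.adjoin Kbar {t}) (FF N)]
    (hrank : Module.finrank ↥(IntermediateField.adjoin Kbar {t}) (FF N) = Nat.card (XX N))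
    {χ : Gamma0 N →* ℂˣ}
    (hχε : ∀ (g : SL(2, ℤ)) (k : ℕ) (hk : g * ε ^ k * g⁻¹ ∈ Gamma0 N), χ ⟨_, hk⟩ = 1)
    {U : ℍ → ℂ} (hchar : H332.HasCharacter χ U) (hmem : U ∈ holN N) (hU0 : U ≠ 0)
    {u : FF N}
    (hq : (holBase N).qexp (⟨U, hmem⟩ ^ p)
      = HolBase.Φ N ((u : FF N) : LaurentSeries Kbar))
    (v : Place Kbar (FF N)) (hv : 0 < v.ord t) : (p : ℤ) ∣ v.ord u := by
  classical
  haveI : Finite (XX N) := inferInstance
  set d : LocalData Kbar (FF N) ℂ (XX N) t := (holBase N).mkLocalData X ε R t s ht hs with hd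
  obtain ⟨x, hx⟩ := H117.exists_placeOf_eq d (IntermediateField.adjoin Kbar {t}) le_rfl hrank v hv
  -- the cycle length
  set k : ℕ := Nat.card (MulAction.orbit (Subgroup.zpowers d.perm) x) with hk
  have hke : (k : ℤ) = (H117.placeOf d x).ord t := orbit_card_eq_ord t hrank d x
  have hkpos : (0 : ℤ) < k := by rw [hke, hx]; exact hv
  have hper : (d.perm ^ k) x = x := perm_pow_orbit_card d.perm x
  -- representative
  set g : SL(2, ℤ) := Quotient.out x with hg
  have hxg : ((g : SL(2, ℤ)) : XX N) = x := QuotientGroup.out_eq' x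
  have hmemΓ : g⁻¹ * ε ^ k * g⁻¹⁻¹ ∈ Gamma0 N := by
    have h1 : (permOf N ε⁻¹ ^ k) (g : XX N) = (g : XX N) := by
      rw [hxg]; exact hper
    rw [permOf_pow_apply] at h1
    have h2 := QuotientGroup.eq.mp h1
    have h3 : (ε⁻¹ ^ k * g)⁻¹ * g = g⁻¹ * ε ^ k * g⁻¹⁻¹ := by
      rw [mul_inv_rev, inv_pow, inv_inv, inv_inv]
    rwa [h3] at h2
  -- rotation argument
  have hdiv := hchar.dvd_mul_order hmem hU0 X R g⁻¹ k hmemΓ (hχε _ _ hmemΓ)
  set n : ℤ := (X.E ((holBase N).compH g⁻¹ ⟨U, hmem⟩)).order with hn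
  -- `m = mult * e`
  have hm : (H117.mult d x : ℤ) * (H117.placeOf d x).ord t = (R.m : ℤ) := H117.mult_mul_ord_t d x
  rw [← hke] at hm
  have hmult : (H117.mult d x : ℤ) ∣ n := by
    rw [← hm] at hdiv
    have h4 : (H117.mult d x : ℤ) * k ∣ n * k := by rwa [mul_comm n k]
    exact (mul_dvd_mul_iff_right hkpos.ne').mp h4
  -- the order of `σ_x u`
  have hσ : d.σ x u = X.E ((holBase N).compH g⁻¹ ⟨U, hmem⟩) ^ p := by
    show (holBase N).sigmaG X g u = _
    have hG : (fun τ => U τ ^ p) ∈ holN N := (holN N).pow_mem hmem p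
    have := sigmaG_eq_of_qexp X g (u := u) (G := fun τ => U τ ^ p) hG hq
    rw [this, ← map_pow, ← map_pow]
    rfl
  have hord := H117.order_eq d x u
  rw [hσ, HahnSeries.order_pow, hx, nsmul_eq_mul, ← hn] at hord
  obtain ⟨n', hn'⟩ := hmult
  have hmpos : (H117.mult d x : ℤ) ≠ 0 := by
    exact_mod_cast (H117.mult_pos d x).ne'
  refine ⟨n', ?_⟩
  have h5 : (H117.mult d x : ℤ) * v.ord u = (H117.mult d x : ℤ) * ((p : ℤ) * n') := by
    rw [← hord, hn']; push_cast; ring
  exact mul_left_cancel₀ hmpos h5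

end Fermat.Agent.S29.H150

end
end
-- ===== PACK-END S29/H150/K2Local.lean

-- ===== PACK-BEGIN S29/H150/K2.lean
section
/-
S29 / M4b / PIECE K2 (helper150): `pieceK2 : PieceK2 N p` for every modulus `p ≠ 0`
(EXACT `Prop` of `Fermat/Agent/S29/M4b/Top.lean`, = `exists_isKummerClass_of_realised` of
helper822's skeleton), DIRECTLY over `ℚ̄` on top of the landed S24 dictionary
(`H997.analyticCore`, `H117.exists_placeOf_eq`, `H117.order_eq`, `H117.localThm`) and the
rotation lemma `H332.HasCharacter.dvd_mul_order`.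

If `u ∈ FF N` is realised by `U ^ p`, `U` twisted of a character killing parabolic and
finite-order elements, then `p ∣ ord_v u` at EVERY place `v` of `FF N / ℚ̄`; the divisor
`(1/p) div u` has degree `0` and its class is the Kummer class of `u`.
-/




set_option autoImplicit false
set_option linter.unusedSectionVars false
set_option linter.style.haveILetI false

noncomputable section

open ModularCurve AlgebraicCurve CongruenceSubgroup UpperHalfPlane HahnSeries
open scoped MatrixGroups Manifold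

namespace Fermat.Agent.S29.H150

open Fermat.Agent.S24 Fermat.Agent.S24.H997 Fermat.Agent.S29 Fermat.Agent.S29.M4b

variable {N : ℕ} [NeZero N] {p : ℕ} [NeZero p]

/-! ### Finite order of the rotations `1`, `S`, `S * T` -/

theorem k2_S_pow : (ModularGroup.S : SL(2, ℤ)) ^ 12 = 1 := by
  have h4 : (ModularGroup.S : SL(2, ℤ)) ^ 4 = 1 := by
    ext i j
    fin_cases i <;> fin_cases j <;>
      simp [pow_succ, ModularGroup.S, Matrix.mul_apply, Fin.sum_univ_two]
  have : (ModularGroup.S : SL(2, ℤ)) ^ 12 = (ModularGroup.S ^ 4) ^ 3 := by rw [← pow_mul]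
  rw [this, h4, one_pow]

theorem k2_ST_pow : (ModularGroup.S * ModularGroup.T : SL(2, ℤ)) ^ 12 = 1 := by
  have h6 : (ModularGroup.S * ModularGroup.T : SL(2, ℤ)) ^ 6 = 1 := by
    ext i j
    fin_cases i <;> fin_cases j <;>
      simp [pow_succ, ModularGroup.S, ModularGroup.T, Matrix.mul_apply, Fin.sum_univ_two]
  have : (ModularGroup.S * ModularGroup.T : SL(2, ℤ)) ^ 12
      = ((ModularGroup.S * ModularGroup.T) ^ 6) ^ 2 := by rw [← pow_mul]
  rw [this, h6, one_pow]

/-- Point data over every finite point `a ∈ ℚ̄`, with a rotation of finite order. -/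
theorem exists_pointData (a : Kbar) :
    ∃ (ε : SL(2, ℤ)) (_ : PointData (holBase N) (ιK a) ε), ε ^ 12 = 1 := by
  by_cases h0 : a = 0
  · refine ⟨ModularGroup.S * ModularGroup.T, ?_, k2_ST_pow⟩
    rw [h0, map_zero]
    exact (analyticCore N).at0
  · by_cases h1 : a = 1728
    · refine ⟨ModularGroup.S, ?_, k2_S_pow⟩
      have : ιK a = 1728 := by rw [h1]; exact map_ofNat ιK 1728
      rw [this]
      exact (analyticCore N).at1728
    · refine ⟨1, ?_, one_pow 12⟩
      exact (analyticCore N).generic (ιK a)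
        (fun h => h0 (ιK_injective (by rw [h, map_zero])))
        (fun h => h1 (ιK_injective (by rw [h]; exact (map_ofNat ιK 1728).symm)))

/-! ### Divisibility at every place -/

/-- **DICT (hard direction) over `ℚ̄`**: `p ∣ ord_v u` at every place. -/
theorem dvd_ord_of_realised {c : G0 N → ZMod p} (hc : IsParHom c) {U : ℍ → ℂ} {u : FF N}
    (hU : IsTwisted N p c U) (hu : Realises N u (fun τ => U τ ^ p))
    (v : Place Kbar (FF N)) : (p : ℤ) ∣ v.ord u := by
  classical
  have hmem : U ∈ holN N := mem_holN_of_isTwisted hc hU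
  have hU0 : U ≠ 0 := ne_zero_of_isTwisted hU
  have hchar := hasCharacter_of_hasChar hc hU.hasChar
  have hG : (fun τ => U τ ^ p) ∈ holN N := (holN N).pow_mem hmem p
  have hq : (holBase N).qexp (⟨U, hmem⟩ ^ p)
      = HolBase.Φ N ((u : FF N) : LaurentSeries Kbar) :=
    qexp_eq_Φ_of_realises hG hu
  obtain ⟨hfd, hle⟩ := Deg457.degree_fields N
  haveI := hfd
  have hrank : Module.finrank ↥(IntermediateField.adjoin Kbar {jF N}) (FF N) = Nat.card (XX N) :=
    le_antisymm hle (analyticCore N).card_le_finrank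
  rcases sub_exists_point (jF N) v with h | ⟨a, ha⟩
  · -- the cusps
    have hv : 0 < v.ord (jF N)⁻¹ := by rw [v.ord_inv]; omega
    obtain ⟨hfd', hfr'⟩ := finiteDimensional_and_finrank_of_eq (adjoin_inv Kbar (jF N))
    haveI := hfd'
    refine dvd_ord_of_mkLocalData (holBase N).qexpExpansion ModularGroup.T
      (analyticCore N).infRot (jF N)⁻¹ ((holBase N).qexp ((holBase N).JH 1 (one_dvd N)))⁻¹
      (fun g => by rw [map_inv₀, HolBase.sigmaG_jF]; rfl)
      (by
        rw [RotRel.order_inv' (holBase N).qexp_J_one_ne_zero, (holBase N).order_qexp_J_one,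
          neg_neg]
        rfl)
      (hfr'.trans hrank)
      (fun g k hk => (k2Char_parTrivial hc).conj_T g k hk) hchar hmem hU0 hq v hv
  · -- finite points
    obtain ⟨ε, P, hε⟩ := exists_pointData (N := N) a
    obtain ⟨hfd', hfr'⟩ := finiteDimensional_and_finrank_of_eq (adjoin_sub_algebraMap Kbar (jF N) a)
    haveI := hfd'
    exact dvd_ord_of_mkLocalData P.X ε P.R (jF N - algebraMap Kbar (FF N) a)
      (P.X.E ((holBase N).JH 1 (one_dvd N) - (holBase N).constH (ιK a)))
      (fun g => (analyticCore N).sigmaG_sub P g) P.order_J (hfr'.trans hrank)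
      (fun g k hk => (k2Char_ellTrivial hc).conj (by norm_num) hε g k hk) hchar hmem hU0 hq v ha

omit [NeZero p] in
theorem ne_zero_of_realised {c : G0 N → ZMod p} {U : ℍ → ℂ} {u : FF N}
    (hU : IsTwisted N p c U) (hu : Realises N u (fun τ => U τ ^ p)) : u ≠ 0 := by
  rintro rfl
  have h1 := H822.realises_hasQExp hu
  have h2 : (fun τ => U τ ^ p) = 0 := by
    have := h1.eq_zero_iff.mp (by simp)
    exact this
  obtain ⟨τ, hτ⟩ := hU.ne_zero
  have h3 : U τ ^ p = 0 := congrFun h2 τ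
  have hp0 : p ≠ 0 := by
    intro hp0
    rw [hp0, pow_zero] at h3
    exact one_ne_zero h3
  exact hτ ((pow_eq_zero_iff hp0).mp h3)

/-! ### The Kummer class -/

/-- **PIECE K2**, exact statement of helper822's skeleton. -/
theorem exists_isKummerClass_of_realised {c : G0 N → ZMod p} (hc : IsParHom c) {U : ℍ → ℂ}
    {u : FF N} (hU : IsTwisted N p c U) (hu : Realises N u (fun τ => U τ ^ p)) :
    ∃ x : JZero N, H455.IsKummerClass (p : ℤ) u x := by
  classical
  have hu0 : u ≠ 0 := ne_zero_of_realised hU hu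
  have hdvd := dvd_ord_of_realised hc hU hu
  haveI := Fermat.Agent.Lib.RR.H864.hasPrincipalDivisors_modularFunctionFieldBar N
  obtain ⟨E, hE, hdeg⟩ := HasPrincipalDivisors.exists_divisor (K := Kbar) (F := FF N) u hu0
  have hp0 : (p : ℤ) ≠ 0 := by exact_mod_cast NeZero.ne p
  -- `D = E / p`
  let D : Divisor Kbar (FF N) := E.mapRange (fun n => n / (p : ℤ)) (by simp)
  have hD : ∀ w : Place Kbar (FF N), (p : ℤ) * D w = w.ord u := by
    intro w
    show (p : ℤ) * (E.mapRange (fun n => n / (p : ℤ)) (by simp)) w = _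
    rw [Finsupp.mapRange_apply, hE w]
    exact Int.mul_ediv_cancel' (hdvd w)
  have hpD : (p : ℤ) • D = E := by
    ext w
    rw [Finsupp.smul_apply, smul_eq_mul, hD w, hE w]
  have hdegD : Divisor.degree D = 0 := by
    have h1 : Divisor.degree ((p : ℤ) • D) = 0 := by rw [hpD]; exact hdeg
    rw [map_zsmul, smul_eq_mul] at h1
    exact (mul_eq_zero.mp h1).resolve_left hp0
  exact ⟨Pic0.mk ⟨D, hdegD⟩, hu0, ⟨D, hdegD⟩, rfl, hD⟩

/-- **PIECE K2** as the `Prop` of `M4b/Top.lean`. -/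
theorem pieceK2 (N : ℕ) [NeZero N] (p : ℕ) [NeZero p] : PieceK2 N p :=
  fun hc _ _ hU hu => exists_isKummerClass_of_realised hc hU hu

/-- **PIECE K2** for prime moduli, in the shape consumed by `M4bStatement_of_pieces`. -/
theorem pieceK2_prime (N : ℕ) [NeZero N] (p : ℕ) (hp : p.Prime) : PieceK2 N p :=
  haveI : NeZero p := ⟨hp.ne_zero⟩
  pieceK2 N p

end Fermat.Agent.S29.H150

end
end
-- ===== PACK-END S29/H150/K2.lean

-- ===== PACK-BEGIN S30/H330/AdicChain.lean
section
/-
S30 -- the frozen statement S30 from the TWO remaining open inputs (helper330).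

Everything else of the chain is on main and is wired here:
  K1 (helper332), K2 (helper150), K4-UNIQ/INJ/ADD (helper822), K4-HECKE (helper395),
  K3 from K3-FIN (helper42), FIN (helper810), (P) (helper709), (Sm) (helper126), (GH) (helper571),
  adic module layer (helper330), top glue (helper990), CHEB Tier 1.

* `kumPackage_of_k3fin` : `K3.FinStatement N m` ⟹ `H450.KumPackage N m` (any modulus `m ≠ 0`);
* `result_of_k3fin` : S30 from `K3-FIN` at the moduli `p ^ n` and the torsion relations (T);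
* `result_of_k3fin_rawESAll` : S30 from `K3-FIN` and the raw Eichler–Shimura statement on all
  prime-to-`ℓ` torsion (`RawESAll`, see `AdicTorsionRel.lean` for its derivation from each of the
  interfaces of the S37 row).
-/









set_option autoImplicit false
set_option linter.overlappingInstances false

noncomputable section

namespace Fermat.Agent.S30.H330

open Fermat.Agent.S29 Fermat.Agent.S29.M4b ModularCurve Fermat.Agent.S30.H450 Polynomial

/-- The Kummer package at the modulus `m ≠ 0` from the single open sub-piece `K3-FIN`. -/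
theorem kumPackage_of_k3fin (N : ℕ) [NeZero N] (m : ℕ) [NeZero m]
    (hfin : Fermat.Agent.S29.M4b.K3.FinStatement N m) : KumPackage N m :=
  KumPackage.of_skeleton
    (fun hc => top_isKum_exists (fun hc' => Fermat.Agent.S29.H332.exists_isTwisted N m hc')
      (Fermat.Agent.S29.M4b.K3.pieceK3_of_fin N m hfin) (Fermat.Agent.S29.H150.pieceK2 N m) hc)
    (fun h h' => Fermat.Agent.S29.M4b.H822.pieceUniq N m (NeZero.ne m) h h')
    (fun h => Fermat.Agent.S29.M4b.H822.pieceInj N m (NeZero.ne m) h)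
    (fun h h' => Fermat.Agent.S29.M4b.H822.pieceAdd N m (NeZero.ne m) h h')
    (fun ℓ hℓ hfac _ _ hc hcc' _ h =>
      Fermat.Agent.S29.M4b.H395.isKum_hecke N m ℓ hℓ hfac hc hcc' h)

/-- Input (F) holds (helper810, unconditional). -/
theorem finStatement (N : ℕ) [NeZero N] (p : ℕ) [NeZero p] : FinStatement N p :=
  Fermat.Agent.S30.H810.torsion_finite N p

/-- Input (K') from `K3-FIN` at the moduli `p ^ n`. -/
theorem kummerInjStatement_of_k3fin (N : ℕ) [NeZero N] (p : ℕ) [NeZero p]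
    (hfin : ∀ n : ℕ, Fermat.Agent.S29.M4b.K3.FinStatement N (p ^ n)) :
    KummerInjStatement N p :=
  kummerInjStatement_of_packages (fun n => kumPackage_of_k3fin N (p ^ n) (hfin n))

/-- **S30 from `K3-FIN` and (T).** -/
theorem result_of_k3fin
    (hfin : ∀ (N : ℕ) [NeZero N] (p : ℕ) [Fact p.Prime] (n : ℕ),
      Fermat.Agent.S29.M4b.K3.FinStatement N (p ^ n))
    (hT : ∀ (N : ℕ) [NeZero N] (p : ℕ) [Fact p.Prime], TorsionRelations N p) :
    ∀ (p : ℕ) [Fact p.Prime] (N : ℕ) [NeZero N] (S : Finset ℕ)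
      (_hpS : p ∈ S) (_hNS : ∀ q : ℕ, q.Prime → q ∣ N → q ∈ S)
      (𝒪' : Type) [CommRing 𝒪'] [IsDomain 𝒪'] [IsDiscreteValuationRing 𝒪']
      [IsAdicComplete (IsLocalRing.maximalIdeal 𝒪') 𝒪'] [Finite (IsLocalRing.ResidueField 𝒪')]
      [CharZero 𝒪'] (_hp𝒪' : (p : 𝒪') ∈ IsLocalRing.maximalIdeal 𝒪')
      (χ : CuspForm.heckeAlgebra N 2 (↑S : Set ℕ) →+* 𝒪'),
      ∃ (𝒪'' : Type) (_ : CommRing 𝒪'') (_ : IsDomain 𝒪'') (_ : IsDiscreteValuationRing 𝒪'')
        (_ : IsAdicComplete (IsLocalRing.maximalIdeal 𝒪'') 𝒪'')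
        (_ : Finite (IsLocalRing.ResidueField 𝒪'')) (_ : CharZero 𝒪'')
        (_ : Algebra 𝒪' 𝒪'') (_ : Module.Finite 𝒪' 𝒪'') (_ : IsLocalHom (algebraMap 𝒪' 𝒪'')),
      Function.Injective (algebraMap 𝒪' 𝒪'') ∧
      ∃ ρ : GaloisRepAdic 𝒪'',
        (∀ (ℓ : ℕ) (hℓ : ℓ.Prime) (hℓN : ¬ ℓ ∣ N) (hℓS : ℓ ∉ (↑S : Set ℕ)),
          ∀ A : ValuationSubring (AlgebraicClosure ℚ), A.LiesOverPrime ℓ →
            ∀ σ : AlgebraicClosure ℚ ≃ₐ[ℚ] AlgebraicClosure ℚ, A.IsFrobeniusAt σ ℓ →
              LinearMap.charpoly (ρ.ρ σ) =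
                X ^ 2 - C (algebraMap 𝒪' 𝒪'' (χ (CuspForm.heckeAlgebra.T hℓ hℓN hℓS))) * X
                  + C ((ℓ : 𝒪''))) ∧
        (∀ q : ℕ, q.Prime → ¬ q ∣ N → q ≠ p → ρ.IsUnramifiedAt q) :=
  result_of_inj
    (fun N _ p hp =>
      haveI : NeZero p := ⟨hp.out.ne_zero⟩
      kummerInjStatement_of_k3fin N p (fun n => hfin N p n))
    (fun N _ p hp =>
      haveI : NeZero p := ⟨hp.out.ne_zero⟩
      finStatement N p)
    hT

/-- **S30 from `K3-FIN` and the raw Eichler–Shimura statement.** -/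
theorem result_of_k3fin_rawESAll
    (hfin : ∀ (N : ℕ) [NeZero N] (p : ℕ) [Fact p.Prime] (n : ℕ),
      Fermat.Agent.S29.M4b.K3.FinStatement N (p ^ n))
    (hES : ∀ (N : ℕ) [NeZero N], RawESAll N) :
    ∀ (p : ℕ) [Fact p.Prime] (N : ℕ) [NeZero N] (S : Finset ℕ)
      (_hpS : p ∈ S) (_hNS : ∀ q : ℕ, q.Prime → q ∣ N → q ∈ S)
      (𝒪' : Type) [CommRing 𝒪'] [IsDomain 𝒪'] [IsDiscreteValuationRing 𝒪']
      [IsAdicComplete (IsLocalRing.maximalIdeal 𝒪') 𝒪'] [Finite (IsLocalRing.ResidueField 𝒪')]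
      [CharZero 𝒪'] (_hp𝒪' : (p : 𝒪') ∈ IsLocalRing.maximalIdeal 𝒪')
      (χ : CuspForm.heckeAlgebra N 2 (↑S : Set ℕ) →+* 𝒪'),
      ∃ (𝒪'' : Type) (_ : CommRing 𝒪'') (_ : IsDomain 𝒪'') (_ : IsDiscreteValuationRing 𝒪'')
        (_ : IsAdicComplete (IsLocalRing.maximalIdeal 𝒪'') 𝒪'')
        (_ : Finite (IsLocalRing.ResidueField 𝒪'')) (_ : CharZero 𝒪'')
        (_ : Algebra 𝒪' 𝒪'') (_ : Module.Finite 𝒪' 𝒪'') (_ : IsLocalHom (algebraMap 𝒪' 𝒪'')),
      Function.Injective (algebraMap 𝒪' 𝒪'') ∧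
      ∃ ρ : GaloisRepAdic 𝒪'',
        (∀ (ℓ : ℕ) (hℓ : ℓ.Prime) (hℓN : ¬ ℓ ∣ N) (hℓS : ℓ ∉ (↑S : Set ℕ)),
          ∀ A : ValuationSubring (AlgebraicClosure ℚ), A.LiesOverPrime ℓ →
            ∀ σ : AlgebraicClosure ℚ ≃ₐ[ℚ] AlgebraicClosure ℚ, A.IsFrobeniusAt σ ℓ →
              LinearMap.charpoly (ρ.ρ σ) =
                X ^ 2 - C (algebraMap 𝒪' 𝒪'' (χ (CuspForm.heckeAlgebra.T hℓ hℓN hℓS))) * X
                  + C ((ℓ : 𝒪''))) ∧
        (∀ q : ℕ, q.Prime → ¬ q ∣ N → q ≠ p → ρ.IsUnramifiedAt q) :=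
  result_of_k3fin hfin (fun N _ p _ => torsionRelations_of_rawAll p (hES N))

end Fermat.Agent.S30.H330

end
end
-- ===== PACK-END S30/H330/AdicChain.lean

-- ===== PACK-BEGIN S35/G/H73/Deg.lean
section



/-!
# S35, piece (G'), leaf DEG (helper73): `deg : DegStatement`

The degeneracy push-forwards `degA = α_*`, `degB = β_* : J₀(M q) → J₀(M)` are the maps
`alphaPush`, `betaPush` of helper801 (`Ribet/H801/DegAlpha.lean`, `DegBeta.lean`), whose
inputs (integral, finite, norm formula: `Lib/HI/H864`) and Hecke-equivariance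
(`alphaPush_heckeOperatorBar`, `betaPush_heckeOperatorBar`) are on main.
-/

set_option autoImplicit false

noncomputable section

namespace Fermat.Agent.S35.G.H73

open ModularCurve AlgebraicCurve Fermat.Agent.S35.G Fermat.Agent.Lib.HI

variable (M q : ℕ) [NeZero M] [NeZero q]

/-- The inputs of `pic0Push` for `α`. -/
theorem pushInputs_alpha : PushInputs (heckeAlphaBar Qb M q) :=
  ⟨H864.heckeAlphaBarIntegral M q, H864.finiteAlong_alpha M q, H864.normFormulaAlong_alpha M q _⟩

/-- The inputs of `pic0Push` for `β`. -/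
theorem pushInputs_beta : PushInputs (heckeBetaBar Qb M q) :=
  ⟨H864.heckeBetaBarIntegral M q, H864.finiteAlong_beta M q, H864.normFormulaAlong_beta M q _⟩

/-- `degA` is helper801's `alphaPush`. -/
theorem degA_eq_alphaPush : degA M q = Ribet.H801.alphaPush M q := by
  rw [degA, pic0PushTotal_eq (heckeAlphaBar Qb M q) (H864.heckeAlphaBarIntegral M q)
    (H864.finiteAlong_alpha M q) (H864.normFormulaAlong_alpha M q _)]
  rfl

/-- `degB` is helper801's `betaPush`. -/
theorem degB_eq_betaPush : degB M q = Ribet.H801.betaPush M q := by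
  rw [degB, pic0PushTotal_eq (heckeBetaBar Qb M q) (H864.heckeBetaBarIntegral M q)
    (H864.finiteAlong_beta M q) (H864.normFormulaAlong_beta M q _)]
  rfl

/-- `degA` is Galois-equivariant. -/
theorem degA_smul (σ : Qb ≃ₐ[ℚ] Qb) (x : JZero (M * q)) : degA M q (σ • x) = σ • degA M q x := by
  rw [degA_eq_alphaPush]
  exact Ribet.H801.alphaPush_smul M q σ x

/-- `degB` is Galois-equivariant. -/
theorem degB_smul (σ : Qb ≃ₐ[ℚ] Qb) (x : JZero (M * q)) : degB M q (σ • x) = σ • degB M q x := by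
  rw [degB_eq_betaPush]
  exact Ribet.H801.betaPush_smul M q σ x

end Fermat.Agent.S35.G.H73

namespace Fermat.Agent.S35.G.H73

open ModularCurve AlgebraicCurve Fermat.Agent.S35.G

/-- **DEG.** -/
theorem deg : DegStatement := by
  intro M q _ _ hq _
  refine ⟨pushInputs_alpha M q, pushInputs_beta M q, fun ℓ hℓ x => ?_, fun ℓ hℓ x => ?_⟩
  · have hne : (ℓ : ℕ) ≠ q := fun h => hℓ (h ▸ Dvd.intro_left M rfl)
    rw [degA_eq_alphaPush]
    exact Ribet.H801.alphaPush_heckeOperatorBar M q hq ℓ hne x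
  · have hne : (ℓ : ℕ) ≠ q := fun h => hℓ (h ▸ Dvd.intro_left M rfl)
    rw [degB_eq_betaPush]
    exact Ribet.H801.betaPush_heckeOperatorBar M q hq ℓ hne x

end Fermat.Agent.S35.G.H73

end
end
-- ===== PACK-END S35/G/H73/Deg.lean

-- ===== PACK-BEGIN S35/G/H558/Surj.lean
section



/-!
# S35 / (G') leaf NODE-RAT, step (e) (helper558): `B = α(B_M) + p∞`

The chart `B = chartAlg y` of level `M q` (`y = x` or `x⁻¹`, `x = j · j_q`) is generated modulo
the component `p∞ = B ∩ w V∞` by the image under `α` of the level-`M` chart `B_M = chartAlg y_M`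
(`y_M = j` resp. `j⁻¹`):

* `exists_map_sub_of_normal` : abstract form (the proof of `A2.Mod.H142.normalIn_transfer`,
                               keeping the witness `γ b₀`);
* `surj_side`                : chart form (hypotheses of `A2.Mod.H142.normal_side`);
* `surj_inf`                 : `∀ b ∈ B, ∃ a ∈ B_M, b - α a ∈ w V∞`, from L11 (`ResInf`) and
                               good reduction at level `M`.
-/

set_option autoImplicit false
set_option synthInstance.maxHeartbeats 400000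
set_option maxHeartbeats 1600000
set_option linter.unusedSectionVars false
set_option linter.style.haveILetI false

noncomputable section

namespace Fermat.Agent.S35.G.H558

open ModularCurve HahnSeries Polynomial
open Fermat.Agent.A2.Mod

section Transfer

variable {R F₀ F : Type*} [CommRing R] [Field F₀] [Field F] [Algebra R F₀] [Algebra R F]

/-- The proof of `H142.normalIn_transfer`, keeping the witness: every element of `B` is
congruent modulo `𝔪_V` to `γ b₀` with `b₀ ∈ B₀`. -/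
theorem exists_map_sub_of_normal (γ : F₀ →+* F)
    (V₀ : ValuationSubring F₀) (V : ValuationSubring F)
    (hγV : ∀ g ∈ V₀, γ g ∈ V)
    (hγp : ∀ g : F₀, V₀.valuation g < 1 → V.valuation (γ g) < 1)
    (B₀ : Subalgebra R F₀) (B : Subalgebra R F)
    (hB₀ : ∀ b ∈ B₀, b ∈ V₀) (hB : ∀ b ∈ B, b ∈ V)
    (hγB : ∀ b ∈ B₀, γ b ∈ B)
    (hres : ∀ f ∈ V, ∃ g ∈ V₀, V.valuation (f - γ g) < 1)
    (hint : ∀ b : B, ((H142.resMap V B hB).comp (H142.mapSub γ B₀ B hγB)).IsIntegralElem
      (H142.resMap V B hB b))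
    (hnorm₀ : H142.NormalIn V₀ (B₀ : Set F₀)) {f : F} (hf : f ∈ B) :
    ∃ b₀ ∈ B₀, V.valuation (f - γ b₀) < 1 := by
  classical
  set ρ := H142.resMap V B hB with hρ
  set ρ₀ : B₀ →+* IsLocalRing.ResidueField V := ρ.comp (H142.mapSub γ B₀ B hγB) with hρ₀
  have h2 : ρ₀.IsIntegralElem (IsLocalRing.residue V ⟨f, hB f hf⟩) := hint ⟨f, hf⟩
  obtain ⟨g, hg, hfg⟩ := hres f (hB f hf)
  have hfg' : IsLocalRing.residue V ⟨f, hB f hf⟩ = IsLocalRing.residue V ⟨γ g, hγV g hg⟩ := by
    rw [H142.residue_eq_iff_val]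
    exact hfg
  rw [hfg'] at h2
  obtain ⟨m, d, hrel₀⟩ := H142.exists_fin_of_isIntegralElem _ h2
  have hmem₀ : g ^ m + ∑ i : Fin m, (d i : F₀) * g ^ (i : ℕ) ∈ V₀ :=
    V₀.add_mem _ _ (V₀.pow_mem hg m)
      (V₀.toSubring.sum_mem fun i _ => V₀.mul_mem _ _ (hB₀ _ (d i).2) (V₀.pow_mem hg _))
  have hval : V.valuation (γ (g ^ m + ∑ i : Fin m, (d i : F₀) * g ^ (i : ℕ))) < 1 := by
    have hv : (⟨γ g, hγV g hg⟩ ^ m + ∑ i : Fin m,
        (⟨γ (d i), hB _ (hγB _ (d i).2)⟩ : V) * ⟨γ g, hγV g hg⟩ ^ (i : ℕ) : V) =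
        (⟨γ (g ^ m + ∑ i : Fin m, (d i : F₀) * g ^ (i : ℕ)), hγV _ hmem₀⟩ : V) := by
      apply Subtype.ext
      push_cast
      simp only [map_add, map_pow, map_sum, map_mul]
    have h3 : IsLocalRing.residue V (⟨γ g, hγV g hg⟩ ^ m + ∑ i : Fin m,
        (⟨γ (d i), hB _ (hγB _ (d i).2)⟩ : V) * ⟨γ g, hγV g hg⟩ ^ (i : ℕ)) = 0 := by
      rw [map_add, map_pow, map_sum]
      simp only [map_mul, map_pow]
      exact hrel₀
    rw [hv, H142.residue_eq_zero_iff_val] at h3
    exact h3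
  obtain ⟨b₀, hb₀, hgb⟩ := hnorm₀ g hg ⟨m, fun i => (d i : F₀), fun i => (d i).2,
    H142.val_lt_one_of_map γ V₀ V hγV hmem₀ hval⟩
  refine ⟨b₀, hb₀, ?_⟩
  have hpres : V.valuation (γ (g - b₀)) < 1 := hγp _ hgb
  have : f - γ b₀ = (f - γ g) + γ (g - b₀) := by
    rw [map_sub]
    ring
  rw [this]
  exact lt_of_le_of_lt (Valuation.map_add _ _ _) (max_lt hfg hpres)

end Transfer

variable (P : ValuationSubring (AlgebraicClosure ℚ))
  (E : IntermediateField ℚ (AlgebraicClosure ℚ))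
variable (M q : ℕ) [NeZero M] [NeZero q] (w : RE P E)

/-- **One component is parametrised by level `M`** (hypotheses of `H142.normal_side`):
`chartAlg y = γ (chartAlg y_M) + (chartAlg y ∩ w V')`, together with `γ (chartAlg y_M) ⊆ chartAlg y`
and `chartAlg y_M ⊆ V_M`, `chartAlg y ⊆ V'`. -/
theorem surj_side (hS : Setting P E M q w)
    (VM : ValuationSubring (FE E M)) (hVM : IsVinf P E M VM)
    (V' : ValuationSubring (FE E (M * q))) (hU' : A2.H48.IsUnif V' (cE P E (M * q) w))
    (hRV' : ∀ r : RE P E, algebraMap (RE P E) (FE E (M * q)) r ∈ V')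
    (γ : FE E M →ₐ[E] FE E (M * q))
    (hγV : ∀ g ∈ VM, γ g ∈ V')
    (hres : ∀ f ∈ V', ∃ g ∈ VM, InW P E (M * q) V' w (f - γ g))
    (yM : FE E M) (y : FE E (M * q))
    (hyM : yM ∈ VM) (hy : y ∈ V')
    (hcong : InW P E (M * q) V' w (y - γ (yM ^ (q + 1))))
    (hγy : γ yM ∈ chartAlg P E (M * q) y)
    (hgood : GoodRedAt P E M w VM yM) :
    (∀ b ∈ chartAlg P E M yM, b ∈ VM) ∧
    (∀ b ∈ chartAlg P E (M * q) y, b ∈ V') ∧
    (∀ b ∈ chartAlg P E M yM, γ b ∈ chartAlg P E (M * q) y) ∧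
    ∀ b ∈ chartAlg P E (M * q) y, ∃ a ∈ chartAlg P E M yM, InW P E (M * q) V' w (b - γ a) := by
  have hdvr := hS.dvr
  have hL2M := H553.vinfBasic P E w M hS.M_ne_zero hdvr hS.unif VM hVM
  have hUM : A2.H48.IsUnif VM (cE P E M w) := hL2M.1
  have hRVM : ∀ r : RE P E, algebraMap (RE P E) (FE E M) r ∈ VM := fun r =>
    (hL2M.2.1 (r : E)).mpr r.2
  have hγR : ∀ r : RE P E, (γ : FE E M →+* FE E (M * q)) (algebraMap (RE P E) (FE E M) r) =
      algebraMap (RE P E) (FE E (M * q)) r := fun r => γ.commutes (r : E)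
  have hγc : γ (cE P E M w) = cE P E (M * q) w := γ.commutes (w : E)
  have hB₀ : ∀ b ∈ chartAlg P E M yM, b ∈ VM := fun b hb =>
    H142.mem_valuationSubring_of_isIntegral_adjoin VM hRVM hyM ((mem_chartAlg P E M).1 hb)
  have hB : ∀ b ∈ chartAlg P E (M * q) y, b ∈ V' := fun b hb =>
    H142.mem_valuationSubring_of_isIntegral_adjoin V' hRV' hy ((mem_chartAlg P E (M * q)).1 hb)
  have hγB : ∀ b ∈ chartAlg P E M yM, (γ : FE E M →+* FE E (M * q)) b ∈ chartAlg P E (M * q) y :=
    fun b hb => (mem_chartAlg P E (M * q)).2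
      (H142.isIntegral_adjoin_map (γ : FE E M →+* FE E (M * q)) hγR
        ((mem_chartAlg P E (M * q)).1 hγy) ((mem_chartAlg P E M).1 hb))
  have hγp : ∀ g : FE E M, VM.valuation g < 1 →
      V'.valuation ((γ : FE E M →+* FE E (M * q)) g) < 1 := by
    intro g hg
    rw [← H142.inW_iff hUM] at hg
    rw [← H142.inW_iff hU']
    unfold InW at hg ⊢
    have h1 := hγV _ hg
    rw [map_mul, map_inv₀, hγc] at h1
    exact h1
  have hres' : ∀ f ∈ V', ∃ g ∈ VM,
      V'.valuation (f - (γ : FE E M →+* FE E (M * q)) g) < 1 := by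
    intro f hf
    obtain ⟨g, hg, hfg⟩ := hres f hf
    exact ⟨g, hg, (H142.inW_iff hU' _).1 hfg⟩
  have hnorm₀ : H142.NormalIn VM
      ((chartAlg P E M yM : Subalgebra (RE P E) (FE E M)) : Set (FE E M)) := by
    intro f hf ⟨n, c, hc, hrel⟩
    obtain ⟨b, hb, hfb⟩ := hgood.normal f hf
      ⟨n, c, fun i => (H142.mem_chart_iff P E M yM (c i)).2 (hc i), (H142.inW_iff hUM _).2 hrel⟩
    exact ⟨b, (H142.mem_chart_iff P E M yM b).1 hb, (H142.inW_iff hUM _).1 hfb⟩
  have hint := H142.isIntegralElem_of_coord (γ : FE E M →+* FE E (M * q)) hγR V'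
    (chartAlg P E M yM) (chartAlg P E (M * q) y) hB hγB y (H142.self_mem_chartAlg P E (M * q) y)
    (yM ^ (q + 1)) (pow_mem (H142.self_mem_chartAlg P E M yM) _) ((H142.inW_iff hU' _).1 hcong)
    (fun b hb => (mem_chartAlg P E (M * q)).1 hb)
  refine ⟨hB₀, hB, hγB, fun b hb => ?_⟩
  obtain ⟨a, ha, hba⟩ := exists_map_sub_of_normal (γ : FE E M →+* FE E (M * q)) VM V' hγV hγp
    (chartAlg P E M yM) (chartAlg P E (M * q) y) hB₀ hB hγB hres' hint hnorm₀ hb
  exact ⟨a, ha, (H142.inW_iff hU' _).2 hba⟩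

/-- **Step (e) of NODE-RAT**: `B = α(B_M) + p∞` on both charts; also `B_M ⊆ V∞_M`, `B ⊆ V∞`,
`α(B_M) ⊆ B`. -/
theorem surj_inf (hS : Setting P E M q w)
    (VM : ValuationSubring (FE E M)) (V : ValuationSubring (FE E (M * q)))
    (hVM : IsVinf P E M VM) (hV : IsVinf P E (M * q) V)
    (yM : FE E M) (y : FE E (M * q)) (hy : IsCoordPair E M q yM y)
    (hgood : GoodRedAt P E M w VM yM) :
    (∀ b ∈ chartAlg P E M yM, b ∈ VM) ∧
    (∀ b ∈ chartAlg P E (M * q) y, b ∈ V) ∧
    (∀ b ∈ chartAlg P E M yM, αE E M q b ∈ chartAlg P E (M * q) y) ∧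
    ∀ b ∈ chartAlg P E (M * q) y, ∃ a ∈ chartAlg P E M yM,
      InW P E (M * q) V w (b - αE E M q a) := by
  have hL11 := H378.resInf P E M q w
  have hN : M * q ≠ 0 := Nat.mul_ne_zero hS.M_ne_zero hS.q_prime.ne_zero
  haveI : NeZero (M * q) := ⟨hN⟩
  haveI : NeZero (1 * q) := ⟨by rw [one_mul]; exact hS.q_prime.ne_zero⟩
  have hL2 := H553.vinfBasic P E w (M * q) hN hS.dvr hS.unif V hV
  have hL2M := H553.vinfBasic P E w M hS.M_ne_zero hS.dvr hS.unif VM hVM
  have hL13 := H873.chartCompat P E M q hS.q_prime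
  have hRV : ∀ r : RE P E, algebraMap (RE P E) (FE E (M * q)) r ∈ V := fun r =>
    (hL2.2.1 (r : E)).mpr r.2
  obtain ⟨j, hj⟩ : ∃ j : FE E (M * q), j = jE E (M * q) 1 (one_dvd _) := ⟨_, rfl⟩
  obtain ⟨jq, hjq⟩ : ∃ jq : FE E (M * q), jq = jE E (M * q) q (dvd_mul_left q M) := ⟨_, rfl⟩
  have hjV : j ∈ V ∧ j⁻¹ ∈ V := hj ▸ hL2.2.2 1 (one_dvd _)
  have hjqV : jq ∈ V ∧ jq⁻¹ ∈ V := hjq ▸ hL2.2.2 q (dvd_mul_left q M)
  have hx : xE E M q = j * jq := by rw [hj, hjq]; rfl
  have hαj : αE E M q (jE E M 1 (one_dvd _)) = j := by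
    rw [hj]
    exact H751.alpha_jE E M q 1 (one_dvd M)
  have hfrob : InW P E (M * q) V w (jq - j ^ q) := by
    have h := H142.frobCong (P := P) (E := E) (w := w) hS.q_prime hS.dvr hS.unif hS.lies_over
      hN hV 1 (one_dvd _) (by rw [one_mul]; exact dvd_mul_left q M)
    rw [hj, hjq]
    have h1 : jE E (M * q) (1 * q) (by rw [one_mul]; exact dvd_mul_left q M) =
        jE E (M * q) q (dvd_mul_left q M) := H751.jE_congr E (M * q) (one_mul q) _ _
    rwa [h1] at h
  have hj0 : j ≠ 0 := hj ▸ H873.jE_ne_zero E (M * q) 1 (one_dvd _)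
  have hjq0 : jq ≠ 0 := hjq ▸ H873.jE_ne_zero E (M * q) q (dvd_mul_left q M)
  have hcinv : (j * jq)⁻¹ - j⁻¹ ^ (q + 1) = -(jq - j ^ q) * (j⁻¹ * jq⁻¹ * j⁻¹ ^ q) := by
    have hjqb : jq * jq⁻¹ = 1 := mul_inv_cancel₀ hjq0
    have hpow : j ^ q * j⁻¹ ^ q = 1 := by rw [← mul_pow, mul_inv_cancel₀ hj0, one_pow]
    have h1 : -(jq - j ^ q) * (j⁻¹ * jq⁻¹ * j⁻¹ ^ q) =
        (j ^ q * j⁻¹ ^ q) * (j⁻¹ * jq⁻¹) - (jq * jq⁻¹) * j⁻¹ ^ (q + 1) := by ring
    rw [h1, hpow, hjqb, mul_inv]
    ring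
  rcases hy with ⟨rfl, rfl⟩ | ⟨rfl, rfl⟩
  · -- finite chart
    refine surj_side P E M q w hS VM hVM V hL2.1 hRV (αE E M q)
      (fun g hg => H142.alpha_mem P E M q hVM hV hg) (hL11 hS VM V hVM hV) _ _
      (hL2M.2.2 1 (one_dvd M)).1 ?_ ?_ ?_ hgood
    · rw [hx]
      exact V.mul_mem _ _ hjV.1 hjqV.1
    · rw [map_pow, hαj, hx]
      have : j * jq - j ^ (q + 1) = (jq - j ^ q) * j := by ring
      rw [this]
      exact H142.inW_mul_right hfrob hjV.1
    · rw [hαj, hj]
      exact (H142.mem_chart_iff P E (M * q) _ _).1 hL13.1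
  · -- chart at infinity
    refine surj_side P E M q w hS VM hVM V hL2.1 hRV (αE E M q)
      (fun g hg => H142.alpha_mem P E M q hVM hV hg) (hL11 hS VM V hVM hV) _ _
      (hL2M.2.2 1 (one_dvd M)).2 ?_ ?_ ?_ hgood
    · rw [hx, mul_inv]
      exact V.mul_mem _ _ hjV.2 hjqV.2
    · rw [map_pow, map_inv₀, hαj, hx]
      rw [hcinv]
      exact H142.inW_mul_right (H142.inW_neg hfrob)
        (V.mul_mem _ _ (V.mul_mem _ _ hjV.2 hjqV.2) (pow_mem hjV.2 q))
    · rw [map_inv₀, hαj, hj]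
      exact (H142.mem_chart_iff P E (M * q) _ _).1 hL13.2.2.1

end Fermat.Agent.S35.G.H558

end

end
-- ===== PACK-END S35/G/H558/Surj.lean

-- ===== PACK-BEGIN S35/G/H558/NodeRat.lean
section





/-!
# S35 / (G') leaf NODE-RAT (helper558)

`nodeRat : KronFrobStatement A E M q w → StableStatement A E → NodeRatStatement A E M q w`
(all three statements VERBATIM from helper450's `S35/G/SpecLevel.lean`).

*The crossing points of the two components of the special fibre of `X₀(M q)` are fixed by the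
square of a Frobenius lift* (the supersingular points are `𝔽_{q²}`-rational).

Proof (`σ` = action of the Frobenius lift `s` on coefficients, `ψ = σ²`, `B = chartAlg y`,
`B_M = chartAlg y_M`, `n ⊇ p∞ + p₀` a crossing point):

* (e)  `B = α(B_M) + p∞`                       (`surj_inf`: L11 + good reduction at level `M`);
* (K1) `β(σ a) ≡ (α a)^q  mod p∞`              (KRON-FROB, hypothesis);
* (K2) `α(σ a) ≡ (β a)^q  mod p₀`              (K1 + Fricke: L5, L7, STABLE);
* `b ≡ α a mod p∞`  ⟹  `ψ b ≡ α(σ² a) mod p∞` (STABLE; `α` commutes with `σ`);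
* `α(σ² a) ≡ (β(σ a))^q ≡ (α a)^(q²) ≡ b^(q²)  mod n`, so `ψ b ≡ b^(q²) mod n`.

The leaves L2 (H553), L4/L5 (H751), L7 (H900), L11 (H378), L13 (H873) are taken from main.
-/

set_option autoImplicit false
set_option synthInstance.maxHeartbeats 400000
set_option maxHeartbeats 1600000
set_option linter.unusedSectionVars false
set_option linter.style.haveILetI false

noncomputable section

namespace Fermat.Agent.S35.G.H558

open ModularCurve HahnSeries Polynomial
open Fermat.Agent.A2.Mod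
open scoped Pointwise

/-! ### Generalities on the coefficient action -/

section Act

variable (E : IntermediateField ℚ (AlgebraicClosure ℚ)) (N : ℕ)

theorem actE_mul_apply (t₁ t₂ : E ≃ₐ[ℚ] E) (f : FE E N) :
    actE E N (t₁ * t₂) f = actE E N t₁ (actE E N t₂ f) := by
  apply Subtype.ext
  show coeffMap ((t₁ * t₂ : E ≃ₐ[ℚ] E) : E →+* E) (f : LaurentSeries E)
      = coeffMap (t₁ : E →+* E) (coeffMap (t₂ : E →+* E) (f : LaurentSeries E))
  rw [coeffMap_coeffMap]
  exact coeffMap_congr (RingHom.ext fun _ => rfl) _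

theorem actE_cancel (t₁ t₂ : E ≃ₐ[ℚ] E) (h : ∀ e : E, t₁ (t₂ e) = e) (f : FE E N) :
    actE E N t₁ (actE E N t₂ f) = f := by
  apply Subtype.ext
  show coeffMap (t₁ : E →+* E) (coeffMap (t₂ : E →+* E) (f : LaurentSeries E))
      = (f : LaurentSeries E)
  rw [coeffMap_coeffMap,
    coeffMap_congr (g := RingHom.id E) (RingHom.ext fun a => h a) (f : LaurentSeries E),
    coeffMap_id]

theorem actE_jE (d : ℕ) [NeZero d] (hd : d ∣ N) (t : E ≃ₐ[ℚ] E) :
    actE E N t (jE E N d hd) = jE E N d hd :=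
  Subtype.ext (coeffMap_coeffEmb t _)

theorem alpha_actE (M q : ℕ) [NeZero M] [NeZero q] (t : E ≃ₐ[ℚ] E) (a : FE E M) :
    αE E M q (actE E M t a) = actE E (M * q) t (αE E M q a) := by
  apply Subtype.ext
  rw [coe_heckeAlphaBar, coe_arithmeticRingAut_apply, coe_arithmeticRingAut_apply,
    coe_heckeAlphaBar]

end Act

/-- A ring endomorphism `σ` of `F`, semilinear over `ρ : R →+* R` and fixing `y`, preserves the
integral closure of `R[y]`. -/
theorem isIntegral_adjoin_semilinear {R F : Type*} [CommRing R] [Field F] [Algebra R F]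
    (σ : F →+* F) (ρ : R →+* R)
    (hσ : ∀ r : R, σ (algebraMap R F r) = algebraMap R F (ρ r)) {y : F} (hy : σ y = y) {b : F}
    (hb : IsIntegral (Algebra.adjoin R ({y} : Set F)) b) :
    IsIntegral (Algebra.adjoin R ({y} : Set F)) (σ b) := by
  have hle : ∀ a ∈ Algebra.adjoin R ({y} : Set F), σ a ∈ Algebra.adjoin R ({y} : Set F) := by
    intro a ha
    induction ha using Algebra.adjoin_induction with
    | mem z hz =>
        rw [Set.mem_singleton_iff] at hz
        rw [hz, hy]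
        exact Algebra.subset_adjoin (Set.mem_singleton y)
    | algebraMap r =>
        rw [hσ]
        exact Subalgebra.algebraMap_mem _ _
    | add a c _ _ ha hc =>
        rw [map_add]
        exact add_mem ha hc
    | mul a c _ _ ha hc =>
        rw [map_mul]
        exact mul_mem ha hc
  let φ : ↥(Algebra.adjoin R ({y} : Set F)) →+* ↥(Algebra.adjoin R ({y} : Set F)) :=
    { toFun := fun a => ⟨σ (a : F), hle a a.2⟩
      map_one' := Subtype.ext (map_one σ)
      map_mul' := fun a c => Subtype.ext (map_mul σ (a : F) (c : F))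
      map_zero' := Subtype.ext (map_zero σ)
      map_add' := fun a c => Subtype.ext (map_add σ (a : F) (c : F)) }
  exact IsIntegral.map_of_comp_eq φ σ (RingHom.ext fun _ => rfl) hb

/-! ### The decomposition group acts on the level structures -/

section Decomp

variable (A : ValuationSubring (AlgebraicClosure ℚ))
  (E : IntermediateField ℚ (AlgebraicClosure ℚ))

/-- `E` is stable under `s⁻¹` as well. -/
theorem stableUnder_inv {s : AlgebraicClosure ℚ ≃ₐ[ℚ] AlgebraicClosure ℚ}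
    (hs : StableUnder E s) : StableUnder E s⁻¹ :=
  fun e he => ⟨(hs e he).2, (hs e he).1⟩

/-- The restriction to `E` of an element of the decomposition group preserves `R_E`. -/
theorem resE_mem_RE_of_decomp {s : AlgebraicClosure ℚ ≃ₐ[ℚ] AlgebraicClosure ℚ}
    (hs : StableUnder E s) (hsD : s ∈ A.decompositionSubgroup ℚ) :
    ∀ r : E, r ∈ RE A E → resE E s hs r ∈ RE A E := by
  intro r hr
  rw [ValuationSubring.mem_comap] at hr ⊢
  have h : s • A = A := MulAction.mem_stabilizer_iff.mp hsD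
  have h1 : s • (algebraMap E (AlgebraicClosure ℚ) r) ∈ s • A :=
    ValuationSubring.smul_mem_pointwise_smul s _ A hr
  rw [h] at h1
  exact h1

/-- The restriction of `s ∈ D_A` to `R_E`, as a ring endomorphism. -/
def resRE {s : AlgebraicClosure ℚ ≃ₐ[ℚ] AlgebraicClosure ℚ}
    (hs : StableUnder E s) (hsD : s ∈ A.decompositionSubgroup ℚ) : RE A E →+* RE A E where
  toFun r := ⟨resE E s hs (r : E), resE_mem_RE_of_decomp A E hs hsD r r.2⟩
  map_one' := Subtype.ext (map_one (resE E s hs))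
  map_mul' a b := Subtype.ext (map_mul (resE E s hs) (a : E) (b : E))
  map_zero' := Subtype.ext (map_zero (resE E s hs))
  map_add' a b := Subtype.ext (map_add (resE E s hs) (a : E) (b : E))

/-- The chart of a coordinate fixed by `σ` is `σ`-stable. -/
theorem chartAlg_actE (N : ℕ) {s : AlgebraicClosure ℚ ≃ₐ[ℚ] AlgebraicClosure ℚ}
    (hs : StableUnder E s) (hsD : s ∈ A.decompositionSubgroup ℚ) (y : FE E N)
    (hy : actE E N (resE E s hs) y = y) {b : FE E N} (hb : b ∈ chartAlg A E N y) :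
    actE E N (resE E s hs) b ∈ chartAlg A E N y := by
  rw [mem_chartAlg] at hb ⊢
  exact isIntegral_adjoin_semilinear
    ((actE E N (resE E s hs) : FE E N ≃+* FE E N) : FE E N →+* FE E N) (resRE A E hs hsD)
    (fun r => arithmeticRingAut_algebraMap (modularFunctionFieldFull N) (resE E s hs) (r : E))
    hy hb

variable (w : RE A E)

/-- `σ (w V) ⊆ w V` for `σ` in the decomposition group (from STABLE for `s` and `s⁻¹`). -/
theorem inW_actE (hSt : StableStatement A E) (N : ℕ) (hN : N ≠ 0)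
    (hdvr : IsDiscreteValuationRing (RE A E)) (hw : Irreducible w)
    (V : ValuationSubring (FE E N)) (W : FE E N ≃ₐ[E] FE E N)
    (hV : IsVinf A E N V) (hW : IsFricke E N W)
    {s : AlgebraicClosure ℚ ≃ₐ[ℚ] AlgebraicClosure ℚ}
    (hs : StableUnder E s) (hsD : s ∈ A.decompositionSubgroup ℚ)
    {f : FE E N} (hf : InW A E N V w f) :
    InW A E N V w (actE E N (resE E s hs) f) := by
  have hU : A2.H48.IsUnif V (cE A E N w) := (H553.vinfBasic A E w N hN hdvr hw V hV).1
  rw [H142.inW_iff hU] at hf ⊢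
  have hσV := (hSt N hN hdvr V W hV hW s hs hsD).2
  have hσV' := (hSt N hN hdvr V W hV hW s⁻¹ (stableUnder_inv E hs) (inv_mem hsD)).2
  have hcancel : ∀ g : FE E N,
      actE E N (resE E s⁻¹ (stableUnder_inv E hs)) (actE E N (resE E s hs) g) = g :=
    fun g => actE_cancel E N _ _ (fun e => Subtype.ext (s.symm_apply_apply (e : _))) g
  have hfV : f ∈ V := (V.valuation_le_one_iff f).1 hf.le
  have hσf : actE E N (resE E s hs) f ∈ V := hσV f hfV
  by_contra hcon
  rw [not_lt] at hcon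
  have hone : V.valuation (actE E N (resE E s hs) f) = 1 :=
    le_antisymm ((V.valuation_le_one_iff _).2 hσf) hcon
  have hinv : (actE E N (resE E s hs) f)⁻¹ ∈ V := by
    rw [← V.valuation_le_one_iff, map_inv₀, hone, inv_one]
  have h2 := hσV' _ hinv
  rw [map_inv₀, hcancel] at h2
  have h3 : V.valuation f⁻¹ ≤ 1 := (V.valuation_le_one_iff _).2 h2
  have hf0 : f ≠ 0 := by
    rintro rfl
    rw [map_zero, map_zero] at hone
    exact zero_ne_one hone
  have hne : V.valuation f ≠ 0 := (Valuation.ne_zero_iff _).2 hf0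
  rw [map_inv₀, inv_le_one₀ (zero_lt_iff.2 hne)] at h3
  exact absurd hf (not_lt.2 h3)

end Decomp

/-! ### NODE-RAT -/

section Main

variable (A : ValuationSubring (AlgebraicClosure ℚ))
  (E : IntermediateField ℚ (AlgebraicClosure ℚ)) (M q : ℕ) [NeZero M] [NeZero q] (w : RE A E)

/-- `β` maps the level-`M` chart into the level-`M q` chart. -/
theorem beta_mem_chartAlg (hS : Setting A E M q w) (yM : FE E M) (y : FE E (M * q))
    (hy : IsCoordPair E M q yM y) {g : FE E M} (hg : g ∈ chartAlg A E M yM) :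
    βE E M q g ∈ chartAlg A E (M * q) y := by
  have hL13 := H873.chartCompat A E M q hS.q_prime
  have hβR : ∀ r : RE A E, (βE E M q : FE E M →+* FE E (M * q)) (algebraMap (RE A E) (FE E M) r) =
      algebraMap (RE A E) (FE E (M * q)) r := fun r => (βE E M q).commutes (r : E)
  haveI : NeZero (q * 1) := ⟨by rw [mul_one]; exact hS.q_prime.ne_zero⟩
  have hβj : βE E M q (jE E M 1 (one_dvd _)) = jE E (M * q) q (dvd_mul_left q M) := by
    rw [H751.beta_jE E M q 1 (one_dvd M)]
    exact H751.jE_congr E (M * q) (mul_one q) _ _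
  have hβy : βE E M q yM ∈ chartAlg A E (M * q) y := by
    rcases hy with ⟨rfl, rfl⟩ | ⟨rfl, rfl⟩
    · rw [hβj]
      exact (H142.mem_chart_iff A E (M * q) _ _).1 hL13.2.1
    · rw [map_inv₀, hβj]
      exact (H142.mem_chart_iff A E (M * q) _ _).1 hL13.2.2.2
  exact (mem_chartAlg A E (M * q)).2
    (H142.isIntegral_adjoin_map (βE E M q : FE E M →+* FE E (M * q)) hβR
      ((mem_chartAlg A E (M * q)).1 hβy) ((mem_chartAlg A E M).1 hg))

/-- **NODE-RAT** from KRON-FROB and STABLE. -/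
theorem nodeRat (hK : KronFrobStatement A E M q w) (hSt : StableStatement A E) :
    NodeRatStatement A E M q w := by
  intro hS _ VM V W hVM hV hW yM y hy hgoodM c hcut₁ hcut₂ s hs hFrob n _ hp₁ hp₂ b hbn b' hb'
  have hN : M * q ≠ 0 := Nat.mul_ne_zero hS.M_ne_zero hS.q_prime.ne_zero
  haveI : NeZero (M * q) := ⟨hN⟩
  have hsD : s ∈ A.decompositionSubgroup ℚ := hFrob.mem_decompositionSubgroup
  have hWM := H751.isFricke_frickeE E M
  obtain ⟨hcommM, -⟩ :=
    hSt M hS.M_ne_zero hS.dvr VM (H751.frickeE E M) hVM hWM s hs hsD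
  -- step (e): `b ≡ α a mod p∞`
  obtain ⟨hBM, -, hαB, hsurj⟩ := surj_inf A E M q w hS VM V hVM hV yM y hy hgoodM
  obtain ⟨a, ha, hba⟩ := hsurj (b : FE E (M * q)) b.2
  -- the level-`M` chart is `σ`-stable
  have hσy : actE E M (resE E s hs) yM = yM := by
    rcases hy with ⟨rfl, -⟩ | ⟨rfl, -⟩
    · exact actE_jE E M 1 (one_dvd _) _
    · rw [map_inv₀, actE_jE]
  obtain ⟨a₁, ha₁⟩ : ∃ a₁ : FE E M, a₁ = actE E M (resE E s hs) a := ⟨_, rfl⟩
  obtain ⟨a₂, ha₂⟩ : ∃ a₂ : FE E M, a₂ = actE E M (resE E s hs) a₁ := ⟨_, rfl⟩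
  have ha₁B : a₁ ∈ chartAlg A E M yM := ha₁ ▸ chartAlg_actE A E M hs hsD yM hσy ha
  have ha₂B : a₂ ∈ chartAlg A E M yM := ha₂ ▸ chartAlg_actE A E M hs hsD yM hσy ha₁B
  -- (K1) at `a`
  have e1 : InW A E (M * q) V w (βE E M q a₁ - (αE E M q a) ^ q) := by
    rw [ha₁]
    exact hK hS VM V hVM hV s hs hFrob a (hBM a ha)
  -- (K2) at `a₁`
  have e2 : InW A E (M * q) (V.comap (W : FE E (M * q) →+* FE E (M * q))) w
      (αE E M q a₂ - (βE E M q a₁) ^ q) := by
    rw [H142.inW_comap_iff]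
    have hL5 := H751.frickeCompat E M q (H751.frickeE E M) W hWM hW
    have hL7 := H900.frickeStable A E M q w hS VM (H751.frickeE E M) hVM hWM
    have h1 := hK hS VM V hVM hV s hs hFrob (H751.frickeE E M a₁) (hL7 a₁ (hBM a₁ ha₁B))
    rw [map_sub, map_pow, (hL5 a₂).1, (hL5 a₁).2, ha₂, ← hcommM a₁]
    exact h1
  -- `ψ b ≡ α (σ² a) mod p∞`
  have e3 : InW A E (M * q) V w ((b' : FE E (M * q)) - αE E M q a₂) := by
    have h1 := inW_actE A E w hSt (M * q) hN hS.dvr hS.unif V W hV hW hs hsD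
      (inW_actE A E w hSt (M * q) hN hS.dvr hS.unif V W hV hW hs hsD hba)
    rw [map_sub, map_sub, ← alpha_actE, ← alpha_actE, ← ha₁, ← ha₂, ← _root_.Fermat.Agent.S35.G.H558.actE_mul_apply] at h1
    rw [hb']
    exact h1
  -- the computation in `B / n`
  have hαa : αE E M q a ∈ chartAlg A E (M * q) y := hαB a ha
  have hβa₁ : βE E M q a₁ ∈ chartAlg A E (M * q) y :=
    beta_mem_chartAlg A E M q w hS yM y hy ha₁B
  have hαa₂ : αE E M q a₂ ∈ chartAlg A E (M * q) y := hαB a₂ ha₂B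
  obtain ⟨ua, hua⟩ : ∃ u : chartAlg A E (M * q) y, (u : FE E (M * q)) = αE E M q a :=
    ⟨⟨_, hαa⟩, rfl⟩
  obtain ⟨ub, hub⟩ : ∃ u : chartAlg A E (M * q) y, (u : FE E (M * q)) = βE E M q a₁ :=
    ⟨⟨_, hβa₁⟩, rfl⟩
  obtain ⟨uc, huc⟩ : ∃ u : chartAlg A E (M * q) y, (u : FE E (M * q)) = αE E M q a₂ :=
    ⟨⟨_, hαa₂⟩, rfl⟩
  have m1 : b - ua ∈ n := hp₁ ((hcut₁ _).2 (by
    rw [← hua] at hba
    exact hba))
  have m2 : ub - ua ^ q ∈ n := hp₁ ((hcut₁ _).2 (by
    rw [← hua, ← hub] at e1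
    exact e1))
  have m3 : uc - ub ^ q ∈ n := hp₂ ((hcut₂ _).2 (by
    rw [← huc, ← hub] at e2
    exact e2))
  have m4 : b' - uc ∈ n := hp₁ ((hcut₁ _).2 (by
    rw [← huc] at e3
    exact e3))
  have m5 : ub ^ q - (ua ^ q) ^ q ∈ n := Fermat.Agent.S35.H558.pow_sub_pow_mem_fix m2 q
  have m6 : (b ^ q) ^ q - (ua ^ q) ^ q ∈ n := by
    rw [← pow_mul, ← pow_mul]
    exact Fermat.Agent.S35.H558.pow_sub_pow_mem_fix m1 (q * q)
  have m7 : (b ^ q) ^ q ∈ n :=
    n.pow_mem_of_mem (n.pow_mem_of_mem hbn q hS.q_prime.pos) q hS.q_prime.pos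
  have key : b' = (b' - uc) + (uc - ub ^ q) + (ub ^ q - (ua ^ q) ^ q)
      - ((b ^ q) ^ q - (ua ^ q) ^ q) + (b ^ q) ^ q := by ring
  rw [key]
  exact n.add_mem (n.sub_mem (n.add_mem (n.add_mem m4 m3) m5) m6) m7

end Main

end Fermat.Agent.S35.G.H558

end

end
-- ===== PACK-END S35/G/H558/NodeRat.lean

-- ===== PACK-BEGIN S35/G/H60/NormRed.lean
section






/-!
# S35 (G') / TORIC / NORM-RED (helper60): norm reduction along `α`

`normRedAsm : NotPowStatement A E M q w → NormRedStatement A E M q w`.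

`K = F_M`, `F = F_{Mq}` (algebra along `α`), `O = V∞_M`, `V₁ = V∞`, `V₂ = V₀ = V∞ ∘ W`;
`[F : K] = q + 1` (`S37.H818.finrankAlong_heckeAlphaBar`), `z = j_q`, `c = j`
(`j_q ^ q ≡ j` at `V₀`: `A2.Mod.H994.val_frobZero` after `W`), abstract theorem `norm_red_abs`.
-/

set_option autoImplicit false
set_option linter.style.haveILetI false
set_option linter.unusedSectionVars false
set_option synthInstance.maxHeartbeats 400000
set_option maxHeartbeats 1600000

noncomputable section

namespace Fermat.Agent.S35.G.H60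

open ModularCurve AlgebraicCurve HahnSeries
open Fermat.Agent.A2.Mod Fermat.Agent.S35.H253

section Generic

variable {K F : Type*} [Field K] [Field F] [Algebra K F]

/-- `V` lies over `O` as soon as `O` maps into `V` and the maximal ideal into the maximal ideal. -/
theorem over_of_map {O : ValuationSubring K} {V : ValuationSubring F}
    (hmem : ∀ a ∈ O, algebraMap K F a ∈ V)
    (hsmall : ∀ a : K, O.valuation a < 1 → V.valuation (algebraMap K F a) < 1) : Over O V := by
  intro a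
  refine ⟨fun ha => ?_, hmem a⟩
  by_contra hcon
  have h1 : 1 < O.valuation a := by
    rw [← not_le, O.valuation_le_one_iff]
    exact hcon
  have ha0 : a ≠ 0 := by
    rintro rfl
    rw [map_zero] at h1
    exact not_lt.2 zero_le_one h1
  have h2 : O.valuation a⁻¹ < 1 := by
    rw [map_inv₀]
    exact inv_lt_one_of_one_lt₀ h1
  have h3 := hsmall _ h2
  rw [map_inv₀, map_inv₀] at h3
  have h4 : V.valuation (algebraMap K F a) ≤ 1 := (V.valuation_le_one_iff _).2 ha
  have h5 : 0 < V.valuation (algebraMap K F a) := by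
    rw [Valuation.pos_iff]
    exact (map_ne_zero _).2 ha0
  have h6 : 1 < V.valuation (algebraMap K F a) := (inv_lt_one₀ h5).1 h3
  exact absurd h4 (not_le.2 h6)

end Generic

section Series

theorem coeffMap_qExpand_h60 {R S : Type*} [CommRing R] [CommRing S] (f : R →+* S) (n : ℕ)
    [NeZero n] (x : LaurentSeries R) : coeffMap f (qExpand R n x) = qExpand S n (coeffMap f x) := by
  ext k
  by_cases hk : (n : ℤ) ∣ k
  · obtain ⟨m, rfl⟩ := hk
    rw [coeffMap_coeff, qExpand_coeff_mul, qExpand_coeff_mul, coeffMap_coeff]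
  · rw [coeffMap_coeff, qExpand_coeff_of_not_dvd n _ hk, qExpand_coeff_of_not_dvd n _ hk,
      map_zero]

end Series

section Concrete

variable {A : ValuationSubring _root_.Fermat.Agent.S35.G.Qb} {E : IntermediateField ℚ _root_.Fermat.Agent.S35.G.Qb} {M q : ℕ} [NeZero M] [NeZero q]
  {w : RE A E}

/-- `β` maps `V∞` of level `M` into `V∞` of level `M q`. -/
theorem beta_mem_h60 {VM : ValuationSubring (FE E M)} {V : ValuationSubring (FE E (M * q))}
    (hVM : IsVinf A E M VM) (hV : IsVinf A E (M * q) V) {g : FE E M} (hg : g ∈ VM) :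
    βE E M q g ∈ V := by
  rw [hV, coe_heckeBetaBar]
  obtain ⟨U₁, U₂, hred, hmem, heq⟩ := (hVM g).1 hg
  refine ⟨qExpand _ q U₁, qExpand _ q U₂, ?_, ?_, ?_⟩
  · have e : A2.H708.red (RE A E) (qExpand _ q U₂) = qExpand _ q (A2.H708.red (RE A E) U₂) :=
      coeffMap_qExpand_h60 _ q U₂
    rw [e]
    exact fun h => hred (qExpand_injective q (h.trans (map_zero _).symm))
  · have h1 := (βE E M q ⟨_, hmem⟩).2
    rw [coe_heckeBetaBar] at h1
    have e : A2.H708.incl (RE A E) (qExpand _ q U₂) = qExpand _ q (A2.H708.incl (RE A E) U₂) :=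
      coeffMap_qExpand_h60 _ q U₂
    rw [e]
    exact h1
  · have e₁ : A2.H708.incl (RE A E) (qExpand _ q U₁) = qExpand _ q (A2.H708.incl (RE A E) U₁) :=
      coeffMap_qExpand_h60 _ q U₁
    have e₂ : A2.H708.incl (RE A E) (qExpand _ q U₂) = qExpand _ q (A2.H708.incl (RE A E) U₂) :=
      coeffMap_qExpand_h60 _ q U₂
    rw [e₁, e₂, ← map_mul, heq]

/-- `α` maps `V∞` of level `M` into `V₀ = V∞ ∘ W`. -/
theorem fricke_alpha_mem_h60 (hS : Setting A E M q w) {VM : ValuationSubring (FE E M)}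
    {V : ValuationSubring (FE E (M * q))} {W : FE E (M * q) ≃ₐ[E] FE E (M * q)}
    (hVM : IsVinf A E M VM) (hV : IsVinf A E (M * q) V) (hW : IsFricke E (M * q) W)
    {g : FE E M} (hg : g ∈ VM) : W (αE E M q g) ∈ V := by
  obtain ⟨WM, hWM⟩ := H553.frickeExists E M (NeZero.ne M)
  rw [(H553.frickeCompat E M q WM W hWM hW g).1]
  exact beta_mem_h60 hVM hV (H900.frickeStable A E M q w hS VM WM hVM hWM g hg)

theorem normRedAsm (A : ValuationSubring _root_.Fermat.Agent.S35.G.Qb) (E : IntermediateField ℚ _root_.Fermat.Agent.S35.G.Qb) (M q : ℕ) [NeZero M]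
    [NeZero q] (w : RE A E) : NormRedAsmStatement A E M q w := by
  intro hNP hS VM V W hVM hV hW y hy hWy U hU T hT h1 h2
  haveI := hS.dvr
  have hq := hS.q_prime
  haveI : Fact q.Prime := ⟨hq⟩
  have hN0 : M * q ≠ 0 := Nat.mul_ne_zero (NeZero.ne M) (NeZero.ne q)
  have hL2 := H553.vinfBasic A E w (M * q) hN0 hS.dvr hS.unif V hV
  have hL2M := H553.vinfBasic A E w M (NeZero.ne M) hS.dvr hS.unif VM hVM
  have hWc : (W : FE E (M * q) →+* FE E (M * q)) (cE A E (M * q) w) = cE A E (M * q) w :=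
    W.commutes _
  have hU0 : A2.H48.IsUnif (V.comap (W : FE E (M * q) →+* FE E (M * q))) (cE A E (M * q) w) :=
    H994.isUnif_comap hL2.1 _ hWc
  letI : Algebra (FE E M) (FE E (M * q)) := algebraAlong (αE E M q)
  -- the two extensions
  have hO₁ : Over VM V := fun a => H378.alpha_mem_iff hS hVM hV a
  have hO₂ : Over VM (V.comap (W : FE E (M * q) →+* FE E (M * q))) := by
    refine over_of_map (fun a ha => fricke_alpha_mem_h60 hS hVM hV hW ha) (fun a ha => ?_)
    rw [H994.val_comap_lt_one_iff hL2.1 _ hWc]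
    have ha' : InW A E M VM w a := (H994.inW_iff_val hL2M.1).2 ha
    have hcw : cE A E M w ≠ 0 := H378.cE_ne_zero hS M
    have e : a = cE A E M w * (a * (cE A E M w)⁻¹) := by
      field_simp
    have e2 : (W : FE E (M * q) →+* FE E (M * q)) (algebraMap (FE E M) (FE E (M * q)) a) =
        cE A E (M * q) w * W (αE E M q (a * (cE A E M w)⁻¹)) := by
      conv_lhs => rw [e]
      show W (αE E M q (cE A E M w * (a * (cE A E M w)⁻¹))) = _
      rw [map_mul, map_mul, H378.alpha_cE]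
      congr 1
    rw [e2, mul_comm (cE A E (M * q) w)]
    exact H994.val_mul_lt_one V (fricke_alpha_mem_h60 hS hVM hV hW ha') hL2.1.val_lt_one
  have hne : V.comap (W : FE E (M * q) →+* FE E (M * q)) ≠ V :=
    H553.vzeroNe A E M q w hS V W hV hW
  have hne₁ : ¬ V ≤ V.comap (W : FE E (M * q) →+* FE E (M * q)) :=
    A2.H48.not_le_of_ne hL2.1 hU0 (Ne.symm hne)
  have hne₂ : ¬ V.comap (W : FE E (M * q) →+* FE E (M * q)) ≤ V :=
    A2.H48.not_le_of_ne hU0 hL2.1 hne
  have hdeg : Module.finrank (FE E M) (FE E (M * q)) = q + 1 :=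
    S37.H818.finrankAlong_heckeAlphaBar (L := E) M q hq hS.q_not_dvd
  have hqO : VM.valuation ((q : ℕ) : FE E M) < 1 := by
    have h := H994.val_natCast_lt_one (N := M) (q := q) hS.lies_over hVM
    rwa [map_natCast] at h
  -- the element `z = j_q` and `c = j`
  have hz : jE E (M * q) q (dvd_mul_left q M) ∈
      V.comap (W : FE E (M * q) →+* FE E (M * q)) := by
    rw [ValuationSubring.mem_comap]
    show W (jE E (M * q) q (dvd_mul_left q M)) ∈ V
    rw [hW.1 q M (dvd_mul_left q M) (dvd_mul_right M q) (mul_comm q M)]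
    exact (hL2.2.2 M (dvd_mul_right M q)).1
  have hc : jE E M 1 (one_dvd _) ∈ VM := (hL2M.2.2 1 (one_dvd _)).1
  have hzc : (V.comap (W : FE E (M * q) →+* FE E (M * q))).valuation
      (jE E (M * q) q (dvd_mul_left q M) ^ q -
        algebraMap (FE E M) (FE E (M * q)) (jE E M 1 (one_dvd _))) < 1 := by
    rw [H994.val_comap_lt_one_iff hL2.1 _ hWc]
    have e : (W : FE E (M * q) →+* FE E (M * q))
        (jE E (M * q) q (dvd_mul_left q M) ^ q -
          algebraMap (FE E M) (FE E (M * q)) (jE E M 1 (one_dvd _))) =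
        jE E (M * q) M (dvd_mul_right M q) ^ q - jE E (M * q) (M * q) dvd_rfl := by
      show W (jE E (M * q) q (dvd_mul_left q M) ^ q - αE E M q (jE E M 1 (one_dvd _))) = _
      rw [map_sub, map_pow, hW.1 q M (dvd_mul_left q M) (dvd_mul_right M q) (mul_comm q M),
        H994.αE_jE_one, hW.1 1 (M * q) (one_dvd _) dvd_rfl (one_mul _)]
    rw [e, Valuation.map_sub_swap]
    exact H994.val_frobZero hS.lies_over hV
  have hnp : ∀ a ∈ VM, ¬ VM.valuation (a ^ q - jE E M 1 (one_dvd _)) < 1 := fun a ha h =>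
    hNP hS VM hVM a ha ((H994.inW_iff_val hL2M.1).2 h)
  have hyU : V.valuation (y - algebraMap (FE E M) (FE E (M * q)) U) < 1 :=
    (H994.inW_iff_val hL2.1).1 h1
  have hyT : (V.comap (W : FE E (M * q) →+* FE E (M * q))).valuation
      (y ^ q - algebraMap (FE E M) (FE E (M * q)) T) < 1 :=
    (H994.inW_iff_val hU0).1 h2
  obtain ⟨-, hN⟩ := norm_red_abs q hq hdeg hO₁ hO₂ hne₁ hne₂ hqO hz hc hzc hnp hy
    (show y ∈ V.comap (W : FE E (M * q) →+* FE E (M * q)) from hWy) hU hT hyU hyT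
  exact (H994.inW_iff_val hL2M.1).2 hN

end Concrete

end Fermat.Agent.S35.G.H60

end

end
-- ===== PACK-END S35/G/H60/NormRed.lean

-- ===== PACK-BEGIN S35/G/H60/NormRedFinal.lean
section



/-!
# S35 (G') / TORIC / NORM-RED, unconditional (helper60)

`normRed : NormRedStatement A E M q w` = `normRedAsm` (helper60) applied to NOT-POW
(`H986.notPow`, helper986).
-/

set_option autoImplicit false

namespace Fermat.Agent.S35.G.H60

open Fermat.Agent.A2.Mod

/-- **NORM-RED**, unconditional: norm reduction along `α`. -/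
theorem normRed (A : ValuationSubring _root_.Fermat.Agent.S35.G.Qb) (E : IntermediateField ℚ _root_.Fermat.Agent.S35.G.Qb) (M q : ℕ) [NeZero M]
    [NeZero q] (w : RE A E) : NormRedStatement A E M q w :=
  normRedAsm A E M q w (H986.notPow A E M q w)

end Fermat.Agent.S35.G.H60

end
-- ===== PACK-END S35/G/H60/NormRedFinal.lean

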