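import Fermat.Agent.Pack.S58.E5L3
import Fermat.Agent.Pack.S58.E5L2
import Fermat.Agent.Pack.S36.E20L2
import Fermat.Agent.Pack.S36.E18L1
import Fermat.Agent.Pack.S36.E21L1
import Fermat.Agent.Pack.S36.E18L2
import Fermat.Agent.Pack.S36.E19L3
import Fermat.Agent.Pack.S36.E17L3
import Fermat.Agent.Pack.S36.E4L0
import Fermat.Agent.Pack.S58.E4L0
import Fermat.Agent.Pack.S58.E4L1
import Fermat.Agent.Pack.S58.E4L3
import Fermat.Agent.Pack.S58.E5L1
import Fermat.Agent.Pack.S58.E3L2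
import Fermat.Agent.Pack.S58.E3L3
import Fermat.Agent.Pack.S36.E20L3
import Fermat.Agent.Pack.S58.E5L0
import Fermat.Agent.Pack.S36.E21L0
import Fermat.Agent.Pack.S36.E20L1

-- ===== PACK-BEGIN S30/H330/AdicGate.lean
section
/-
S30 -- GATE (helper330): the frozen statement S30 from the S18 hub ALONE.

* `torsionRelations_of_coreFamily` : input (T) from the S18 hub `S29.H222.CoreFamily`
  (helper222's ESK route: no S37, no place reduction map; PGI, HI, NormId are on main);
* `S30_of_coreFamily : CoreFamily → <frozen S30>`;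
* `S30_of_nodes : node_mod → node_alg → <frozen S30>`  (the two open nodes of the S18 skeleton, in
  the exact shapes of `S18/H694/CoreFamilyOfNodes.lean`, same as `S29/Gate.lean`).

Everything else is discharged from main: Kummer packages at all moduli (K1-K4, `K3-FIN` =
`H942.finStatement`), FIN (`H810`), (P) (`H709`), (Sm), (GH), adic module layer, top glue (`H990`),
CHEB Tier 1.
-/





set_option autoImplicit false
set_option linter.overlappingInstances false

noncomputable section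

namespace Fermat.Agent.S30.H330

open Fermat.Agent.S29 ModularCurve Polynomial
open Fermat.Agent.S18 (Qb CoreStatement)

/-- Input (T) from the S18 hub (helper222's ESK route). -/
theorem torsionRelations_of_coreFamily (hcore : Fermat.Agent.S29.H222.CoreFamily)
    (N : ℕ) [NeZero N] (p : ℕ) : TorsionRelations N p :=
  fun ℓ hℓ hdvd A hA =>
    Fermat.Agent.S29.H222.esRaw_of_families hcore Fermat.Agent.S29.H222.pgiFamily
      Fermat.Agent.S29.H222.hiFamily Fermat.Agent.S29.H222.normIdFamily N p ℓ hℓ hdvd A hA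

/-- **The frozen statement S30 from the S18 hub.** -/
theorem S30_of_coreFamily (hcore : Fermat.Agent.S29.H222.CoreFamily) :
    ∀ (p : ℕ) [Fact p.Prime] (N : ℕ) [NeZero N] (S : Finset ℕ)
      (_hpS : p ∈ S) (_hNS : ∀ q : ℕ, q.Prime → q ∣ N → q ∈ S)
      (𝒪' : Type) [CommRing 𝒪'] [IsDomain 𝒪'] [IsDiscreteValuationRing 𝒪']
      [IsAdicComplete (IsLocalRing.maximalIdeal 𝒪') 𝒪'] [Finite (IsLocalRing.ResidueField 𝒪')]
      [CharZero 𝒪'] (_hp𝒪' : (p : 𝒪') ∈ IsLocalRing.maximalIdeal 𝒪')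
      (χ : CuspForm.heckeAlgebra N 2 (↑S : Set ℕ) →+* 𝒪'),
      ∃ (𝒪'' : Type) (_ : CommRing 𝒪'') (_ : IsDomain 𝒪'') (_ : IsDiscreteValuationRing 𝒪'')
        (_ : IsAdicComplete (IsLocalRing.maximalIdeal 𝒪'') 𝒪'')
        (_ : Finite (IsLocalRing.ResidueField 𝒪'')) (_ : CharZero 𝒪'')
        (_ : Algebra 𝒪' 𝒪'') (_ : Module.Finite 𝒪' 𝒪'') (_ : IsLocalHom (algebraMap 𝒪' 𝒪'')),
      Function.Injective (algebraMap 𝒪' 𝒪'') ∧
      ∃ ρ : GaloisRepAdic 𝒪'',
        (∀ (ℓ : ℕ) (hℓ : ℓ.Prime) (hℓN : ¬ ℓ ∣ N) (hℓS : ℓ ∉ (↑S : Set ℕ)),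
          ∀ A : ValuationSubring (AlgebraicClosure ℚ), A.LiesOverPrime ℓ →
            ∀ σ : AlgebraicClosure ℚ ≃ₐ[ℚ] AlgebraicClosure ℚ, A.IsFrobeniusAt σ ℓ →
              LinearMap.charpoly (ρ.ρ σ) =
                X ^ 2 - C (algebraMap 𝒪' 𝒪'' (χ (CuspForm.heckeAlgebra.T hℓ hℓN hℓS))) * X
                  + C ((ℓ : 𝒪''))) ∧
        (∀ q : ℕ, q.Prime → ¬ q ∣ N → q ≠ p → ρ.IsUnramifiedAt q) :=
  result_of_k3fin
    (fun N _ p hp n =>
      haveI : NeZero p := ⟨hp.out.ne_zero⟩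
      Fermat.Agent.S29.H942.finStatement N (p ^ n))
    (fun N _ p _ => torsionRelations_of_coreFamily hcore N p)

/-- **The frozen statement S30 from the two open nodes of row S18.** -/
theorem S30_of_nodes
    (node_mod : ∀ (M : ℕ) [NeZero M] {ℓ : ℕ} [Fact ℓ.Prime], ¬ ℓ ∣ M →
      ∀ A : ValuationSubring Qb, A.LiesOverPrime ℓ → Fermat.Agent.S18.Mod.GoodModelStatement M ℓ A)
    (node_alg : ∀ M : ℕ, Fermat.Agent.S18.Mod.AlgStatement M) :
    ∀ (p : ℕ) [Fact p.Prime] (N : ℕ) [NeZero N] (S : Finset ℕ)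
      (_hpS : p ∈ S) (_hNS : ∀ q : ℕ, q.Prime → q ∣ N → q ∈ S)
      (𝒪' : Type) [CommRing 𝒪'] [IsDomain 𝒪'] [IsDiscreteValuationRing 𝒪']
      [IsAdicComplete (IsLocalRing.maximalIdeal 𝒪') 𝒪'] [Finite (IsLocalRing.ResidueField 𝒪')]
      [CharZero 𝒪'] (_hp𝒪' : (p : 𝒪') ∈ IsLocalRing.maximalIdeal 𝒪')
      (χ : CuspForm.heckeAlgebra N 2 (↑S : Set ℕ) →+* 𝒪'),
      ∃ (𝒪'' : Type) (_ : CommRing 𝒪'') (_ : IsDomain 𝒪'') (_ : IsDiscreteValuationRing 𝒪'')
        (_ : IsAdicComplete (IsLocalRing.maximalIdeal 𝒪'') 𝒪'')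
        (_ : Finite (IsLocalRing.ResidueField 𝒪'')) (_ : CharZero 𝒪'')
        (_ : Algebra 𝒪' 𝒪'') (_ : Module.Finite 𝒪' 𝒪'') (_ : IsLocalHom (algebraMap 𝒪' 𝒪'')),
      Function.Injective (algebraMap 𝒪' 𝒪'') ∧
      ∃ ρ : GaloisRepAdic 𝒪'',
        (∀ (ℓ : ℕ) (hℓ : ℓ.Prime) (hℓN : ¬ ℓ ∣ N) (hℓS : ℓ ∉ (↑S : Set ℕ)),
          ∀ A : ValuationSubring (AlgebraicClosure ℚ), A.LiesOverPrime ℓ →
            ∀ σ : AlgebraicClosure ℚ ≃ₐ[ℚ] AlgebraicClosure ℚ, A.IsFrobeniusAt σ ℓ →
              LinearMap.charpoly (ρ.ρ σ) =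
                X ^ 2 - C (algebraMap 𝒪' 𝒪'' (χ (CuspForm.heckeAlgebra.T hℓ hℓN hℓS))) * X
                  + C ((ℓ : 𝒪''))) ∧
        (∀ q : ℕ, q.Prime → ¬ q ∣ N → q ≠ p → ρ.IsUnramifiedAt q) :=
  S30_of_coreFamily (Fermat.Agent.S18.H694.coreFamily_of_nodes node_mod node_alg)

end Fermat.Agent.S30.H330

end
end
-- ===== PACK-END S30/H330/AdicGate.lean

-- ===== PACK-BEGIN S35/H991/Ready.lean
section
/-
S35 (row-lead helper991): THE FINAL CHAIN.  The frozen statement S35 from ONE open input,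

  `Fermat.Agent.S35.H891.QNewFrobStatement`   (cell FROB / (G'), cubic relation on `q`-new torsion).

Everything else is discharged from main:
* top + mid glue: `S35.H891.result_of_qNew` (helper891, on top of `S35/H991/Glue`);
* (X): `S35.H252.exclTate` (helper252);
* `hlat`: `S30.H42.tateLattice` (helper42);
* `hfin`, `hsm`, `hgeq`, `hunr`, `hes`: row S30 (`H330.finStatement`, `H990.smoothStatement`,
  `S29.H571.heckeOperatorBar_smul`, `H330.torsionRelations_of_coreFamily` with the two S18 nodes).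

`Fermat/Agent/S35.lean` is `result_of_qnf <proof of QNewFrobStatement> hg lam S O' …`.
-/









set_option autoImplicit false
set_option linter.overlappingInstances false

namespace Fermat.Agent.S35.H991

open Polynomial ModularCurve

/-- The S18 hub, from the two nodes on main. -/
theorem coreFamily_ready : Fermat.Agent.S29.H222.CoreFamily :=
  Fermat.Agent.S18.H694.coreFamily_of_nodes
    (fun M _ _ _ hℓM A hA => Fermat.Agent.S18.Mod.H216.node_mod M hℓM A hA)
    (fun M => Fermat.Agent.S18.H438.node_alg M)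

theorem intPow_smul_eq_zero_iff {J : Type*} [AddCommGroup J] (p n : ℕ) (x : J) :
    ((p : ℤ) ^ n) • x = 0 ↔ p ^ n • x = 0 := by
  rw [← Nat.cast_pow, natCast_zsmul]

/-- Input `hfin`. -/
theorem hfin_ready : ∀ (N p : ℕ) [NeZero N], p.Prime →
    Finite {x : JZero N // (p : ℤ) • x = 0} := by
  intro N p _ hp
  have hp0 : NeZero p := ⟨hp.ne_zero⟩
  have h : {x : JZero N | p • x = 0}.Finite := Fermat.Agent.S30.H330.finStatement N p
  have h3 : {x : JZero N | (p : ℤ) • x = 0}.Finite := by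
    refine h.subset ?_
    intro x hx
    have hx' : (p : ℤ) • x = 0 := hx
    show p • x = 0
    rwa [natCast_zsmul] at hx'
  exact Set.finite_coe_iff.mpr h3

/-- Input `hsm`. -/
theorem hsm_ready : ∀ (N p : ℕ) [NeZero N], ∀ x : JZero N,
    (∃ n : ℕ, ((p : ℤ) ^ n) • x = 0) →
      ∃ L : IntermediateField ℚ (AlgebraicClosure ℚ), FiniteDimensional ℚ L ∧
        ∀ σ : S30.H990.GQ, (∀ y ∈ L, σ y = y) → σ • x = x :=
  fun N _ _ x _ => Fermat.Agent.S30.H990.smoothStatement N x

/-- Input `hgeq`. -/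
theorem hgeq_ready : ∀ (N : ℕ) [NeZero N] (ℓ : Nat.Primes) (σ : S30.H990.GQ) (x : JZero N),
    heckeOperatorBar N ℓ (σ • x) = σ • heckeOperatorBar N ℓ x :=
  fun N _ ℓ σ x => Fermat.Agent.S29.H571.heckeOperatorBar_smul N ℓ σ x

/-- Input `hunr`. -/
theorem hunr_ready : ∀ (N p : ℕ) [NeZero N], ∀ q : ℕ, q.Prime → ¬ q ∣ N * p →
    ∀ A : ValuationSubring (AlgebraicClosure ℚ), A.LiesOverPrime q →
      ∀ σ ∈ A.inertiaSubgroupIn ℚ, ∀ x : JZero N,
        (∃ n : ℕ, ((p : ℤ) ^ n) • x = 0) → σ • x = x := by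
  intro N p _ q hq hdvd A hA σ hσ x hx
  obtain ⟨n, hn⟩ := hx
  exact (Fermat.Agent.S30.H330.torsionRelations_of_coreFamily coreFamily_ready N p q hq hdvd
    A hA).1 σ hσ x ⟨n, (intPow_smul_eq_zero_iff p n x).1 hn⟩

/-- Input `hes`. -/
theorem hes_ready : ∀ (N p : ℕ) [NeZero N], ∀ (ℓ : ℕ) (hℓ : ℓ.Prime), ¬ ℓ ∣ N * p →
    ∀ A : ValuationSubring (AlgebraicClosure ℚ), A.LiesOverPrime ℓ →
      ∀ σ : S30.H990.GQ, A.IsFrobeniusAt σ ℓ → ∀ x : JZero N,
        (∃ n : ℕ, ((p : ℤ) ^ n) • x = 0) →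
          σ • σ • x - heckeOperatorBar N ⟨ℓ, hℓ⟩ (σ • x) + (ℓ : ℤ) • x = 0 := by
  intro N p _ ℓ hℓ hdvd A hA σ hσ x hx
  obtain ⟨n, hn⟩ := hx
  have h := (Fermat.Agent.S30.H330.torsionRelations_of_coreFamily coreFamily_ready N p ℓ hℓ hdvd
    A hA).2 σ hσ x ⟨n, (intPow_smul_eq_zero_iff p n x).1 hn⟩
  rw [natCast_zsmul]
  exact h

/-- **THE FINAL CHAIN of row S35**: the frozen statement S35 from `QNewFrobStatement` alone. -/
theorem result_of_qnf (hQ : Fermat.Agent.S35.H891.QNewFrobStatement)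
    {M : ℕ} [NeZero M] {g : CuspForm (CongruenceSubgroup.Gamma0 M) 2} (hg : g.IsNewform)
    (lam : ℕ) [Fact lam.Prime]
    (S : Finset ℕ)
    (O' : Type) [CommRing O'] [IsDomain O'] [IsDiscreteValuationRing O']
    [IsAdicComplete (IsLocalRing.maximalIdeal O') O'] [Finite (IsLocalRing.ResidueField O')]
    [CharZero O'] (hlamO' : (lam : O') ∈ IsLocalRing.maximalIdeal O')
    (chig : CuspForm.heckeAlgebra M 2 (↑S : Set ℕ) →+* ℂ)
    (hchig : ∀ (ℓ : ℕ) (hℓ : ℓ.Prime) (hℓM : ¬ ℓ ∣ M) (hℓS : ℓ ∉ (↑S : Set ℕ)),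
      chig (CuspForm.heckeAlgebra.T hℓ hℓM hℓS) = ModularFormClass.qCoeff g ℓ)
    (iota : chig.range →+* O')
    (hlamS : lam ∈ S) (hMS : ∀ q : ℕ, q.Prime → q ∣ M → q ∈ S) :
    ∃ (O'' : Type) (_ : CommRing O'') (_ : IsDomain O'') (_ : IsDiscreteValuationRing O'')
      (_ : IsAdicComplete (IsLocalRing.maximalIdeal O'') O'') (_ : Finite (IsLocalRing.ResidueField O''))
      (_ : CharZero O'') (_ : Algebra O' O'') (_ : Module.Finite O' O'') (_ : IsLocalHom (algebraMap O' O'')),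
      Function.Injective (algebraMap O' O'') ∧
      ∃ ρ : GaloisRepAdic O'',
        (∀ (ℓ : ℕ) (hℓ : ℓ.Prime) (hℓM : ¬ ℓ ∣ M) (hℓS : ℓ ∉ (↑S : Set ℕ)),
          ∀ A : ValuationSubring (AlgebraicClosure ℚ), A.LiesOverPrime ℓ →
            ∀ σ : AlgebraicClosure ℚ ≃ₐ[ℚ] AlgebraicClosure ℚ, A.IsFrobeniusAt σ ℓ →
              LinearMap.charpoly (ρ.ρ σ) =
                X ^ 2 - C (algebraMap O' O'' ((iota.comp chig.rangeRestrict) (CuspForm.heckeAlgebra.T hℓ hℓM hℓS))) * X
                  + C ((ℓ : O''))) ∧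
        (∀ q : ℕ, q.Prime → q ≠ lam → q ∣ M → ¬ q ^ 2 ∣ M →
          ∀ A : ValuationSubring (AlgebraicClosure ℚ), A.LiesOverPrime q →
            ∀ σ : AlgebraicClosure ℚ ≃ₐ[ℚ] AlgebraicClosure ℚ, A.IsFrobeniusAt σ q →
              LinearMap.charpoly (ρ.ρ σ) = X ^ 2 - C ((q : O'') + 1) * X + C ((q : O'')) ∨
              LinearMap.charpoly (ρ.ρ σ) = X ^ 2 + C ((q : O'') + 1) * X + C ((q : O''))) :=
  Fermat.Agent.S35.H891.result_of_qNew hfin_ready hsm_ready hgeq_ready hunr_ready hes_ready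
    Fermat.Agent.S30.H42.tateLattice hQ Fermat.Agent.S35.H252.exclTate
    hg lam S O' hlamO' chig hchig iota hlamS hMS

end Fermat.Agent.S35.H991

end
-- ===== PACK-END S35/H991/Ready.lean

-- ===== PACK-BEGIN S35/H991/Final.lean
section
/-
S35 (row-lead helper991): THE ROW ASSEMBLY.  `qNewFrob_final : H891.QNewFrobStatement`, the single
input of the final chain `S35/H991/Ready.lean`, from the leaves of piece (G') (architect
helper450, frozen shapes of `S35/G/{Spec,SpecLevel}.lean`), all on main: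

* DEG `G.H73.deg`, T0F `G.H215.t0F`, T1F `G.H858.t1f`, D2F `H155.d2f`, IFs `G.H558.ifs`;
* the level statement `H433.levelFrob_of_leaves` (helper433; ALG-FROB in the corrected form T) with
  - the three leaves of the wall A2: `A2.Alg.H754.puritySmoothLeaf`,
    `A2.Alg.H609.purityNodeLeaf`, `A2.Alg.H34.glueLeaf`,
  - MODEL `G.H862.model`, STABLE / FROB-RES / COORD `G.H126`,
  - NODE-RAT `G.H558.nodeRat` with KRON-FROB `G.H516.kronFrob`,
  - TORIC = `G.H199.glue` (GLUE) applied to NORM-RED `G.H60.normRed`, STABLE, KRON-FROB;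
* the bridge `H909.qNewFrob_of_newPartFrobExplicit`.
-/

















set_option autoImplicit false
set_option linter.overlappingInstances false

namespace Fermat.Agent.S35.H991

open Fermat.Agent.S35.G

/-- Leaf TORIC of piece (G'), at every level. -/
theorem toric_final (A : ValuationSubring Qb) (E : IntermediateField ℚ Qb) (M q m : ℕ)
    [NeZero M] [NeZero q] (w : A2.Mod.RE A E) : ToricStatement A E M q m w :=
  Fermat.Agent.S35.G.H199.glue A E M q w m
    (Fermat.Agent.S35.G.H60.normRed A E M q w)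
    (Fermat.Agent.S35.G.H126.stable A E)
    (Fermat.Agent.S35.G.H516.kronFrob A E M q w)

/-- The level statement of (G') at every level with the auxiliary prime. -/
theorem levelFrob_final (M q m : ℕ) [NeZero M] [NeZero q] (hq : q.Prime) (hqM : ¬ q ∣ M)
    (haux : HasAux M q) (hm : 0 < m) (hqm : ¬ q ∣ m) (A : ValuationSubring Qb)
    (E : IntermediateField ℚ Qb) : LevelFrobAt A E M q m :=
  Fermat.Agent.S35.H433.levelFrob_of_leaves A E M q m hq hqM haux hm hqm
    Fermat.Agent.A2.Alg.H754.puritySmoothLeaf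
    Fermat.Agent.A2.Alg.H609.purityNodeLeaf
    Fermat.Agent.A2.Alg.H34.glueLeaf
    (fun w => Fermat.Agent.S35.G.H862.model A E M q w)
    (Fermat.Agent.S35.G.H126.stable A E)
    (fun w => Fermat.Agent.S35.G.H558.nodeRat A E M q w
      (Fermat.Agent.S35.G.H516.kronFrob A E M q w) (Fermat.Agent.S35.G.H126.stable A E))
    (fun w => toric_final A E M q m w)
    (Fermat.Agent.S35.G.H126.frobRes A E q)
    (Fermat.Agent.S35.G.H126.coord E M q)

/-- (G'), explicit form. -/
theorem newPartFrobExplicit_final : NewPartFrobExplicit :=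
  newPartFrobExplicit_of_parts Fermat.Agent.S35.G.H73.deg Fermat.Agent.S35.G.H215.t0F
    Fermat.Agent.S35.G.H858.t1f Fermat.Agent.S35.H155.d2f Fermat.Agent.S35.G.H558.ifs
    (fun M q m _ _ hq hqM haux hm hqm A E => levelFrob_final M q m hq hqM haux hm hqm A E)

/-- **The row assembly**: the single input of the final chain `S35/H991/Ready.lean`. -/
theorem qNewFrob_final : Fermat.Agent.S35.H891.QNewFrobStatement :=
  Fermat.Agent.S35.H909.qNewFrob_of_newPartFrobExplicit newPartFrobExplicit_final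

end Fermat.Agent.S35.H991

end
-- ===== PACK-END S35/H991/Final.lean

-- ===== PACK-BEGIN S58/H94/FromEngine.lean
section






/-!
# S58 from the PLAIN chain tops of S35 and S36 (helper94)

Per lead ruling #9784 (4): consumers import the plain chain tops, never `S35.lean` / `S36.lean`.

* `s35Statement_h94 : S58.S35Statement` — from `S35.H991.result_of_qnf S35.H991.qNewFrob_final`;
* `s36Statement_of_newPart_h94 : S36.H36.NewPartInertiaStatement → S58.S36Statement`;
* `s58_of_newPart_h94 : S36.H36.NewPartInertiaStatement → S58.S58Statement`;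
* `s58_of_engine_h94 : S36.Eng.Alg3Statement → S36.Eng.Model3Statement → S58.S58Statement`.
-/

set_option autoImplicit false

namespace Fermat.Agent.S58.H94

/-- Frozen S35, in the gate shape of `S58/Spec.lean`, from the plain S35 chain. -/
theorem s35Statement_h94 : Fermat.Agent.S58.S35Statement :=
  fun {M} _ {g} hg lam _ S O' _ _ _ _ _ _ hlamO' chig hchig iota hlamS hMS =>
    Fermat.Agent.S35.H991.result_of_qnf Fermat.Agent.S35.H991.qNewFrob_final
      hg lam S O' hlamO' chig hchig iota hlamS hMS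

/-- Frozen S36, in the gate shape of `S58/Spec.lean`, from the engine input (N). -/
theorem s36Statement_of_newPart_h94 (hN : Fermat.Agent.S36.H36.NewPartInertiaStatement) :
    Fermat.Agent.S58.S36Statement :=
  fun {M} _ {g} hg lam _ S O' _ _ _ _ _ _ hlamO' _hlam2 chig hchig iota hlamS hMS _hres =>
    Fermat.Agent.S36.H683.result_of_newPart hN
      hg lam S O' hlamO' chig hchig iota hlamS hMS

/-- **S58 from the S36 engine input (N)** alone. -/
theorem s58_of_newPart_h94 (hN : Fermat.Agent.S36.H36.NewPartInertiaStatement) :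
    Fermat.Agent.S58.S58Statement :=
  s58_of_S35_S36 s35Statement_h94 (s36Statement_of_newPart_h94 hN)

/-- **S58 from the two S36 engine statements** (ALG3 + MOD3). -/
theorem s58_of_engine_h94 (hALG : Fermat.Agent.S36.Eng.Alg3Statement)
    (hMOD : Fermat.Agent.S36.Eng.Model3Statement) : Fermat.Agent.S58.S58Statement :=
  s58_of_newPart_h94 (Fermat.Agent.S36.Eng.newPartInertia_of_alg3_model3 hALG hMOD)

end Fermat.Agent.S58.H94

end
-- ===== PACK-END S58/H94/FromEngine.lean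

-- ===== PACK-BEGIN S58/H94/FromModel3.lean
section



/-!
# S58 from MOD3 alone (helper94)

ALG3 is closed on main (`S36.Alg3.alg3`, sub-architect helper586), so S58 needs only
`S36.Eng.Model3Statement`:

    s58_of_model3_h94 : S36.Eng.Model3Statement → S58.S58Statement
-/

set_option autoImplicit false

namespace Fermat.Agent.S58.H94

/-- **S58 from MOD3** (`Eng.Model3Statement`) alone. -/
theorem s58_of_model3_h94 (hMOD : Fermat.Agent.S36.Eng.Model3Statement) :
    Fermat.Agent.S58.S58Statement :=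
  s58_of_engine_h94 Fermat.Agent.S36.Alg3.alg3 hMOD

end Fermat.Agent.S58.H94

end
-- ===== PACK-END S58/H94/FromModel3.lean

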